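import Mathlib
import Fermat.Agent.S18.NormFinal
import Fermat.Agent.S18.OntoX0
import Fermat.Agent.S18.RiMain
import Fermat.Agent.S18.AsmHW
import Fermat.Agent.S18.AsmFinal
import Fermat.Agent.S18.SemiCart
import Fermat.Agent.S18.RIDeg
import Fermat.Agent.S18.RiFinal
import Fermat.Agent.S18.DegFinal
import Fermat.Agent.S18.SepK

/-!
# TRACK 7 (NODE), package ONTO-M (helper11, prefix S34OM_): ONTO and genus equality for `X₀(N)`
# itself at every prime `ℓ ∤ N` (also `ℓ = 2, 3`)

`K = ℚ̄`, `F = modularFunctionFieldBar N`, `A ⊂ K` a valuation ring over `ℓ ∤ N`, `k` its residue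
field, `F_k = modularFunctionFieldFullC k N`, `G = AX_G N A hgen` the Gauss datum (h-free).

On main ONTO / genus equality were available only for the auxiliary field `F' = F(μ)`
(`ONX_onto`, `ONX_genus_eq`).  For `F` itself no descent by traces or norms is needed:

* `S34OM_genus_le` : **GC** `g(F) ≤ g(F_k)`, from `S18_Spec.LC_genus_le` (Hurwitz on both sides,
  DEG, X0, DER, and NORM = `NMX_norm_final ∘ ONX_onto`) — exactly the inequality inside the proof
  of S18;
* `S34OM_isCart`   : the chart `j` is Cartesian on `F` (`[F : K(j)] ≤ [F_k : k(j̄)]`);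
* `S34OM_genus_eq` : `g(F) = g(F_k)` (GC + Deuring);
* `S34OM_onto`     : every `w ∈ F_k` regular where `j̄` is regular is the reduction of an `f ∈ O`
  regular where `j` is regular;
* `S34OM_onto_rr`  : the filtered form: `red : L(m (j)_∞) ∩ O → L_k(m (j̄)_∞)` is onto, `m ≫ 0`.
-/

set_option autoImplicit false
set_option synthInstance.maxHeartbeats 400000
set_option maxHeartbeats 1000000
set_option linter.unusedSectionVars false
set_option linter.unusedVariables false
set_option linter.style.haveILetI false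

open HahnSeries IntermediateField AlgebraicCurve ModularCurve KaehlerDifferential

namespace Fermat.Agent.S34

open Fermat.Agent.Lib Fermat.Agent.S24 Fermat.Agent.S18

attribute [local instance 100000] Algebra.toModule

variable (N : ℕ) [NeZero N] (A : ValuationSubring (AlgebraicClosure ℚ)) {ℓ : ℕ}

/-- **GC** for `X₀(N)` itself: `g(F) ≤ g(F_k)` at every place over `ℓ ∤ N`. -/
theorem S34OM_genus_le (hℓ : ℓ.Prime) (hℓN : ¬ ℓ ∣ N) (hA : A.LiesOverPrime ℓ) :
    RR_genus (AlgebraicClosure ℚ) ↥(modularFunctionFieldBar N) ≤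
      RR_genus (IsLocalRing.ResidueField A)
        ↥(modularFunctionFieldFullC (IsLocalRing.ResidueField A) N) := by
  have hfact : Fact ℓ.Prime := ⟨hℓ⟩
  have h : ReductionInputsModL A N := RI_main N A hℓ hA hℓN
  have hkC : IsAlgClosed (IsLocalRing.ResidueField A) := S18_residue_isAlgClosed A
  have hk := S18_hk N A hℓ hA hℓN
  have hDk := S18_lcDiff_k N A hℓ hℓN hA
  obtain ⟨W, hW, hg⟩ := S18_hurwitz_F N
  obtain ⟨Wk, hWk, hgk⟩ := S18_hurwitz_k N A hℓ hℓN hA
  obtain ⟨Pl, T, hPl, hT, hsum⟩ := S18_poles_sum_le_k N A hℓ hA hℓN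
  have hred := S18_red_jO N A h
  have hjnc : ∀ c : IsLocalRing.ResidueField A, (S18_specModL N A h).red (S18_jO N A h) ≠
      algebraMap (IsLocalRing.ResidueField A)
        ↥(modularFunctionFieldFullC (IsLocalRing.ResidueField A) N) c := by
    intro c hc
    rw [hred] at hc
    have htr := S18_transcendental_jbar (k := IsLocalRing.ResidueField A) N
    rw [hc] at htr
    exact htr (isAlgebraic_algebraMap c)
  have hDjk : D (IsLocalRing.ResidueField A)
      ↥(modularFunctionFieldFullC (IsLocalRing.ResidueField A) N)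
      ((S18_specModL N A h).red (S18_jO N A h)) ≠ 0 := by
    rw [hred]
    intro h0
    have h1 := S18_derLift_D (modularFunctionFieldFullC (IsLocalRing.ResidueField A) N)
      (LT_theta (R := IsLocalRing.ResidueField A)) (S18_jbar N (IsLocalRing.ResidueField A))
    rw [h0, map_zero] at h1
    exact S18_theta_jbar_ne_zero N (IsLocalRing.ResidueField A) h1.symm
  have hΩ : ∃ ω₀ : Ω[↥(modularFunctionFieldFullC (IsLocalRing.ResidueField A) N)⁄
        IsLocalRing.ResidueField A],
      ∀ ω : Ω[↥(modularFunctionFieldFullC (IsLocalRing.ResidueField A) N)⁄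
        IsLocalRing.ResidueField A],
        ∃ c : ↥(modularFunctionFieldFullC (IsLocalRing.ResidueField A) N), ω = c • ω₀ := by
    obtain ⟨Q⟩ := hk.nonempty
    exact ⟨_, fun ω => hDk.exists_eq_smul Q ω _ hDjk⟩
  have hNORM : ∀ Q : Place (IsLocalRing.ResidueField A)
        ↥(modularFunctionFieldFullC (IsLocalRing.ResidueField A) N),
      0 ≤ Q.ord (S18_jbar N (IsLocalRing.ResidueField A)) →
      ∃ n : (S18_specModL N A h).O,
        (∀ P : Place (AlgebraicClosure ℚ) ↥(modularFunctionFieldBar N),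
          0 ≤ P.ord (jB N) → 0 ≤ P.ord (n : ↥(modularFunctionFieldBar N))) ∧
        Q.ord ((S18_specModL N A h).red n) = 1 := by
    intro Q hQ
    refine NMX_norm_final N A h.choose_spec.2 hℓ hℓN hA (fun w hw => ?_) Q hQ
    refine ONX_onto N A h.choose_spec.2 hA hℓN w (fun Q' hQ' => hw Q' ?_)
    rwa [SP_jbarN_eq N A h.choose_spec.2] at hQ'
  exact (S18_specModL N A h).LC_genus_le (S18_hRR N).principal (S18_lcDiff_F N) hDk hk.deg_one
    (fun P y hy => S18_exists_value P ((S18_hRR N).deg_one P) y hy) (S18_hFpole N)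
    (S18_der N A h hΩ) (S18_jO N A h) hjnc hDjk Pl hPl T (by rw [hred]; exact hT)
    (by rw [hred]; exact hsum) W hW Wk (by rw [hred]; exact hWk)
    (fun P hP hWP => by rw [hW] at hWP; exact S18_hX0 N A P hP hWP)
    (by rw [hred]; exact hNORM) _ _ hg hgk

section onto

variable (hgen : PrincipalGeneratedByIntegral A (IsLocalRing.residue A) N)

/-- the chart `j` is Cartesian on `F = ℚ̄(X₀(N))` itself. -/
theorem S34OM_isCart (hℓ : ℓ.Prime) (hℓN : ¬ ℓ ∣ N) (hA : A.LiesOverPrime ℓ) :
    ∃ (n : ℕ) (y : Fin n → (AX_G N A hgen).toVal.O),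
      (AX_G N A hgen).toVal.IsCart (RIF_j N A hgen) y := by
  have hfdF := finiteDimensional_jB N
  have hfd' : FiniteDimensional
      (AlgebraicClosure ℚ)⟮((RIF_j N A hgen : (AX_G N A hgen).toVal.O) :
        ↥(modularFunctionFieldBar N))⟯ ↥(modularFunctionFieldBar N) := hfdF
  have htr : Transcendental (IsLocalRing.ResidueField A)
      ((AX_G N A hgen).toVal.red (RIF_j N A hgen)) := AX_red_jB_transcendental N A hgen
  have hdeg := S18_finrank_le_finrank_k N A hℓ hA hℓN
  obtain ⟨y, hy⟩ := S18_Val.IsCart.of_finrank (AX_G N A hgen).toVal (RIF_j N A hgen) htr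
    (Module.finrank (AlgebraicClosure ℚ)⟮jB N⟯ ↥(modularFunctionFieldBar N)) le_rfl
    (by
      have h1 : (AX_G N A hgen).toVal.red (RIF_j N A hgen)
          = S18_jbar N (IsLocalRing.ResidueField A) := DG_jbarN_eq N A hgen
      rw [h1]
      exact hdeg)
  exact ⟨_, y, hy⟩

/-- **genus equality** for `X₀(N)` itself at `ℓ ∤ N`. -/
theorem S34OM_genus_eq (hℓ : ℓ.Prime) (hℓN : ¬ ℓ ∣ N) (hA : A.LiesOverPrime ℓ) :
    RR_genus (AlgebraicClosure ℚ) ↥(modularFunctionFieldBar N) =
      RR_genus (IsLocalRing.ResidueField A)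
        ↥(modularFunctionFieldFullC (IsLocalRing.ResidueField A) N) := by
  have hfact : Fact ℓ.Prime := ⟨hℓ⟩
  have hkC : IsAlgClosed (IsLocalRing.ResidueField A) := S18_residue_isAlgClosed A
  have hchar : CharP (IsLocalRing.ResidueField A) ℓ := S18_residue_charP A ℓ hℓ hA
  have hgen := RIG_hgen N A hℓ hA hℓN
  obtain ⟨n, y, hC⟩ := S34OM_isCart N A hgen hℓ hℓN hA
  have hfdF := finiteDimensional_jB N
  have hsepF : Algebra.IsSeparable
      (AlgebraicClosure ℚ)⟮((RIF_j N A hgen : (AX_G N A hgen).toVal.O) :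
        ↥(modularFunctionFieldBar N))⟯ ↥(modularFunctionFieldBar N) := S24_isSeparable_jB N
  have hsepk : Algebra.IsSeparable
      (IsLocalRing.ResidueField A)⟮(AX_G N A hgen).toVal.red (RIF_j N A hgen)⟯
      ↥(modularFunctionFieldFullC (IsLocalRing.ResidueField A) N) := by
    have h1 : (AX_G N A hgen).toVal.red (RIF_j N A hgen)
        = S18_jbar N (IsLocalRing.ResidueField A) := DG_jbarN_eq N A hgen
    rw [h1]
    exact S18_isSeparable_jbar N hℓN (S18_ψ A hℓ hA)
  exact le_antisymm (S34OM_genus_le N A hℓ hℓN hA)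
    (hC.genus_le (S18_hRR N) (S18_hk N A hℓ hA hℓN))

/-- **ONTO** for `X₀(N)` itself at `ℓ ∤ N`: every function on the special fibre that is regular
where `j̄` is regular is the reduction of an integral function that is regular where `j` is. -/
theorem S34OM_onto (hℓ : ℓ.Prime) (hℓN : ¬ ℓ ∣ N) (hA : A.LiesOverPrime ℓ)
    (w : ↥(modularFunctionFieldFullC (IsLocalRing.ResidueField A) N))
    (hw : ∀ Q : Place (IsLocalRing.ResidueField A)
        ↥(modularFunctionFieldFullC (IsLocalRing.ResidueField A) N),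
      0 ≤ Q.ord (S18_jbar N (IsLocalRing.ResidueField A)) → 0 ≤ Q.ord w) :
    ∃ f : (AX_G N A hgen).O,
      (∀ P : Place (AlgebraicClosure ℚ) ↥(modularFunctionFieldBar N),
        0 ≤ P.ord (jB N) → 0 ≤ P.ord (f : ↥(modularFunctionFieldBar N))) ∧
      (AX_G N A hgen).red f = w := by
  have hfact : Fact ℓ.Prime := ⟨hℓ⟩
  have hkC : IsAlgClosed (IsLocalRing.ResidueField A) := S18_residue_isAlgClosed A
  have hchar : CharP (IsLocalRing.ResidueField A) ℓ := S18_residue_charP A ℓ hℓ hA
  obtain ⟨n, y, hC⟩ := S34OM_isCart N A hgen hℓ hℓN hA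
  have hfdF := finiteDimensional_jB N
  have hsepF : Algebra.IsSeparable
      (AlgebraicClosure ℚ)⟮((RIF_j N A hgen : (AX_G N A hgen).toVal.O) :
        ↥(modularFunctionFieldBar N))⟯ ↥(modularFunctionFieldBar N) := S24_isSeparable_jB N
  have h1 : (AX_G N A hgen).toVal.red (RIF_j N A hgen)
      = S18_jbar N (IsLocalRing.ResidueField A) := DG_jbarN_eq N A hgen
  have hsepk : Algebra.IsSeparable
      (IsLocalRing.ResidueField A)⟮(AX_G N A hgen).toVal.red (RIF_j N A hgen)⟯
      ↥(modularFunctionFieldFullC (IsLocalRing.ResidueField A) N) := by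
    rw [h1]
    exact S18_isSeparable_jbar N hℓN (S18_ψ A hℓ hA)
  exact hC.onto_integral (S18_hRR N) (S18_hk N A hℓ hA hℓN) (S34OM_genus_le N A hℓ hℓN hA) w
    (fun Q hQ => hw Q (by rwa [h1] at hQ))

/-- **ONTO, filtered form**: `red : L(m (j)_∞) ∩ O → L_k(m (j̄)_∞)` is onto for `m ≫ 0`. -/
theorem S34OM_onto_rr (hℓ : ℓ.Prime) (hℓN : ¬ ℓ ∣ N) (hA : A.LiesOverPrime ℓ) :
    ∃ m₀ : ℕ, ∀ m : ℕ, m₀ ≤ m →
      ∀ w ∈ riemannRochSpace (m • RR_poleDiv (S18_hk N A hℓ hA hℓN).principal
          ((AX_G N A hgen).toVal.red (RIF_j N A hgen))),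
        ∃ f : (AX_G N A hgen).toVal.O,
          (f : ↥(modularFunctionFieldBar N)) ∈ riemannRochSpace
            (m • RR_poleDiv (S18_hRR N).principal
              ((RIF_j N A hgen : (AX_G N A hgen).toVal.O) : ↥(modularFunctionFieldBar N))) ∧
          (AX_G N A hgen).toVal.red f = w := by
  have hfact : Fact ℓ.Prime := ⟨hℓ⟩
  have hkC : IsAlgClosed (IsLocalRing.ResidueField A) := S18_residue_isAlgClosed A
  have hchar : CharP (IsLocalRing.ResidueField A) ℓ := S18_residue_charP A ℓ hℓ hA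
  obtain ⟨n, y, hC⟩ := S34OM_isCart N A hgen hℓ hℓN hA
  have hfdF := finiteDimensional_jB N
  have hsepF : Algebra.IsSeparable
      (AlgebraicClosure ℚ)⟮((RIF_j N A hgen : (AX_G N A hgen).toVal.O) :
        ↥(modularFunctionFieldBar N))⟯ ↥(modularFunctionFieldBar N) := S24_isSeparable_jB N
  have h1 : (AX_G N A hgen).toVal.red (RIF_j N A hgen)
      = S18_jbar N (IsLocalRing.ResidueField A) := DG_jbarN_eq N A hgen
  have hsepk : Algebra.IsSeparable
      (IsLocalRing.ResidueField A)⟮(AX_G N A hgen).toVal.red (RIF_j N A hgen)⟯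
      ↥(modularFunctionFieldFullC (IsLocalRing.ResidueField A) N) := by
    rw [h1]
    exact S18_isSeparable_jbar N hℓN (S18_ψ A hℓ hA)
  exact hC.onto (S18_hRR N) (S18_hk N A hℓ hA hℓN) (S34OM_genus_le N A hℓ hℓN hA)

end onto

end Fermat.Agent.S34
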