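import Mathlib
import Fermat.Prelude.Def_FLTPrelim_Ramification

/-!
# TRACK 7 (S34 + S35), helper25: valuation rings of `ℚ̄` have rank one

`S34RO_rank_one`: let `L` be a field of characteristic `0`, algebraic over `ℚ`, `A` a valuation
subring of `L` in which the prime `q` is not a unit.  Then for every nonzero non-unit `c ∈ A` and
every nonzero `a ∈ A` some power of `c` is divisible by `a`.  (This is the hypothesis `hrank` of
`S34I_false` / `S34IC_inj` and `harch` of `S34CN_conn_val`.)
-/

set_option autoImplicit false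

open Polynomial

namespace Fermat.Agent.S34

section

variable {L : Type*} [Field L] [CharZero L] [Algebra.IsAlgebraic ℚ L]

/-- an integer polynomial with nonzero constant coefficient killing a nonzero `a`. -/
theorem S34RO_exists_poly {R : Type*} [CommRing R] [IsDomain R] [Algebra ℤ R] (a : R) (ha : a ≠ 0)
    (p : ℤ[X]) (hp : p ≠ 0) (hpa : aeval a p = 0) :
    ∃ p' : ℤ[X], p'.coeff 0 ≠ 0 ∧ aeval a p' = 0 := by
  induction h : p.natDegree using Nat.strong_induction_on generalizing p with
  | _ d ih =>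
    by_cases h0 : p.coeff 0 = 0
    · have hX : p = X * p.divX := by
        have := p.divX_mul_X_add
        rw [h0, map_zero, add_zero] at this
        rw [mul_comm, this]
      have hdiv0 : p.divX ≠ 0 := by
        intro hz
        rw [hz, mul_zero] at hX
        exact hp hX
      have hval : aeval a p.divX = 0 := by
        have h1 : aeval a p = a * aeval a p.divX := by
          conv_lhs => rw [hX]
          rw [map_mul, aeval_X]
        rw [h1] at hpa
        exact (mul_eq_zero.mp hpa).resolve_left ha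
      have hdeg : p.divX.natDegree < d := by
        rw [← h, natDegree_divX_eq_natDegree_tsub_one]
        have : p.natDegree ≠ 0 := by
          intro hz
          have := eq_C_of_natDegree_eq_zero hz
          rw [h0, map_zero] at this
          exact hp this
        omega
      exact ih _ hdeg p.divX hdiv0 hval rfl
    · exact ⟨p, h0, hpa⟩

omit [Algebra.IsAlgebraic ℚ L] in
/-- integers prime to `q` are units of `A`. -/
theorem S34RO_isUnit_of_coprime (A : ValuationSubring L) {q : ℕ} (hA : A.LiesOverPrime q)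
    (m : ℤ) (hm : IsCoprime m (q : ℤ)) : IsUnit ((m : ℤ) : A) := by
  obtain ⟨x, y, hxy⟩ := hm
  have hq : ((q : ℕ) : A) ∈ nonunits A := by
    intro hu
    have : IsUnit ((q : L)) := by
      have := hu.map A.subtype
      simpa using this
    have hq' : (q : L) ∈ A.nonunits := hA
    rw [ValuationSubring.mem_nonunits_iff_exists_mem_maximalIdeal] at hq'
    obtain ⟨hqA, hqm⟩ := hq'
    have h2 : (⟨(q : L), hqA⟩ : A) = ((q : ℕ) : A) := Subtype.ext (by simp)
    rw [h2] at hqm
    exact (IsLocalRing.mem_maximalIdeal _).mp hqm hu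
  have h1 : ((x : ℤ) : A) * ((m : ℤ) : A) = 1 - ((y : ℤ) : A) * ((q : ℕ) : A) := by
    have := congrArg (fun z : ℤ => ((z : ℤ) : A)) hxy
    simp only [Int.cast_add, Int.cast_mul, Int.cast_one, Int.cast_natCast] at this
    rw [← this]
    ring
  have h2 : IsUnit (1 - ((y : ℤ) : A) * ((q : ℕ) : A)) := by
    have hmem : ((y : ℤ) : A) * ((q : ℕ) : A) ∈ IsLocalRing.maximalIdeal A :=
      Ideal.mul_mem_left _ _ ((IsLocalRing.mem_maximalIdeal _).mpr hq)
    exact IsLocalRing.isUnit_one_sub_self_of_mem_nonunits _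
      ((IsLocalRing.mem_maximalIdeal _).mp hmem)
  rw [← h1] at h2
  exact isUnit_of_mul_isUnit_right h2

/-- every nonzero element of `A` divides a power of `q`. -/
theorem S34RO_dvd_pow_q (A : ValuationSubring L) {q : ℕ} (hq : q.Prime)
    (hA : A.LiesOverPrime q) (a : A) (ha : a ≠ 0) : ∃ e : ℕ, a ∣ ((q : ℕ) : A) ^ e := by
  have halg : IsAlgebraic ℤ (a : L) :=
    (IsFractionRing.isAlgebraic_iff ℤ ℚ L).mpr (Algebra.IsAlgebraic.isAlgebraic (a : L))
  obtain ⟨p, hp, hpa⟩ := halg
  have hpa' : aeval a p = 0 := by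
    apply Subtype.ext
    have := Polynomial.aeval_algebraMap_apply L a p
    simp only [ZeroMemClass.coe_zero]
    rw [← hpa]
    exact this.symm
  obtain ⟨p', hp'0, hp'a⟩ := S34RO_exists_poly a ha p hp hpa'
  -- `a ∣ p'.coeff 0`
  have hdvd : a ∣ ((p'.coeff 0 : ℤ) : A) := by
    have h1 := p'.divX_mul_X_add
    have h2 : aeval a p' = aeval a p'.divX * a + ((p'.coeff 0 : ℤ) : A) := by
      conv_lhs => rw [← h1]
      rw [map_add, map_mul, aeval_X, aeval_C]
      simp
    rw [hp'a] at h2
    refine ⟨-aeval a p'.divX, ?_⟩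
    linear_combination -h2
  -- decompose the constant coefficient
  obtain ⟨e, m, hm, hem⟩ := Nat.exists_eq_pow_mul_and_not_dvd
    (n := (p'.coeff 0).natAbs) (Int.natAbs_ne_zero.mpr hp'0) q hq.ne_one
  have hcop : IsCoprime (m : ℤ) (q : ℤ) := by
    rw [Int.isCoprime_iff_gcd_eq_one]
    have : Nat.Coprime m q := ((Nat.Prime.coprime_iff_not_dvd hq).mpr hm).symm
    simpa [Int.gcd] using this
  have hmu := S34RO_isUnit_of_coprime A hA (m : ℤ) hcop
  have hassoc : ((p'.coeff 0 : ℤ) : A) ∣ ((q : ℕ) : A) ^ e * ((m : ℤ) : A) := by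
    have h3 : ((p'.coeff 0).natAbs : ℤ) = (q : ℤ) ^ e * (m : ℤ) := by exact_mod_cast hem
    have h4 : (((p'.coeff 0).natAbs : ℤ) : A) = ((q : ℕ) : A) ^ e * ((m : ℤ) : A) := by
      rw [h3]
      push_cast
      ring
    rw [← h4]
    rcases Int.natAbs_eq (p'.coeff 0) with h | h
    · rw [← h]
    · refine ⟨-1, ?_⟩
      conv_rhs => rw [h]
      push_cast
      ring
  refine ⟨e, ?_⟩
  have := hdvd.trans hassoc
  exact (hmu.dvd_mul_right).mp this

/-- `q` divides a power of every non-unit `c ≠ 0`. -/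
theorem S34RO_q_dvd_pow (A : ValuationSubring L) {q : ℕ} (hq : q.Prime)
    (hA : A.LiesOverPrime q) (c : A) (hc : ¬ IsUnit c) (hc0 : c ≠ 0) :
    ∃ i : ℕ, ((q : ℕ) : A) ∣ c ^ i := by
  classical
  have halg : IsAlgebraic ℤ (c : L) :=
    (IsFractionRing.isAlgebraic_iff ℤ ℚ L).mpr (Algebra.IsAlgebraic.isAlgebraic (c : L))
  obtain ⟨p, hp, hpc⟩ := halg
  have hpc' : aeval c p = 0 := by
    apply Subtype.ext
    have := Polynomial.aeval_algebraMap_apply L c p
    simp only [ZeroMemClass.coe_zero]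
    rw [← hpc]
    exact this.symm
  -- pass to the primitive part
  have hprim : p.primPart.IsPrimitive := p.isPrimitive_primPart
  have hpp : aeval c p.primPart = 0 := by
    have h1 := p.eq_C_content_mul_primPart
    have h2 : aeval c p = ((p.content : ℤ) : A) * aeval c p.primPart := by
      conv_lhs => rw [h1]
      rw [map_mul, aeval_C]
      simp
    rw [hpc'] at h2
    have hcont : ((p.content : ℤ) : A) ≠ 0 := by
      have : p.content ≠ 0 := content_eq_zero_iff.not.mpr hp
      exact_mod_cast this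
    exact (mul_eq_zero.mp h2.symm).resolve_left hcont
  set P := p.primPart with hP
  -- a coefficient prime to `q`
  have hex : ∃ i, ¬ (q : ℤ) ∣ P.coeff i := by
    by_contra hall0
    have hall : ∀ i, (q : ℤ) ∣ P.coeff i := fun i => by
      by_contra h
      exact hall0 ⟨i, h⟩
    have hC : C (q : ℤ) ∣ P := (Polynomial.C_dvd_iff_dvd_coeff _ _).mpr hall
    have := hprim _ hC
    rw [Int.isUnit_iff] at this
    rcases this with h | h
    · have : q = 1 := by exact_mod_cast h
      exact hq.ne_one this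
    · have h' : (0 : ℤ) ≤ (q : ℤ) := Int.natCast_nonneg q
      omega
  let i₀ := Nat.find hex
  have hi₀ : ¬ (q : ℤ) ∣ P.coeff i₀ := Nat.find_spec hex
  have hlt : ∀ i < i₀, (q : ℤ) ∣ P.coeff i := fun i hi => by
    by_contra h
    exact Nat.find_min hex hi h
  refine ⟨i₀, ?_⟩
  -- the ideal `(q, c^(i₀+1))`
  have hmem_deg : i₀ ∈ Finset.range (P.natDegree + 1) := by
    rw [Finset.mem_range]
    have : P.coeff i₀ ≠ 0 := fun h => hi₀ (h ▸ dvd_zero _)
    have := le_natDegree_of_ne_zero this
    omega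
  have hsum : aeval c P = ∑ i ∈ Finset.range (P.natDegree + 1), ((P.coeff i : ℤ) : A) * c ^ i := by
    rw [aeval_eq_sum_range]
    refine Finset.sum_congr rfl fun i _ => ?_
    rw [zsmul_eq_mul]
  rw [hpp, ← Finset.add_sum_erase _ _ hmem_deg] at hsum
  -- unit coefficient
  have hcop : IsCoprime (P.coeff i₀) (q : ℤ) := by
    have hqp : Prime (q : ℤ) := Nat.prime_iff_prime_int.mp hq
    exact ((hqp.coprime_iff_not_dvd).mpr hi₀).symm
  have hunit := S34RO_isUnit_of_coprime A hA (P.coeff i₀) hcop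
  -- divisibility is total
  rcases ValuationRing.dvd_total (((q : ℕ) : A)) (c ^ (i₀ + 1)) with hqc | hcq
  · -- `(q, c^(i₀+1)) = (q)`
    have hrest : ((q : ℕ) : A) ∣ ∑ i ∈ (Finset.range (P.natDegree + 1)).erase i₀,
        ((P.coeff i : ℤ) : A) * c ^ i := by
      refine Finset.dvd_sum fun i hi => ?_
      have hne : i ≠ i₀ := Finset.ne_of_mem_erase hi
      rcases lt_or_gt_of_ne hne with h | h
      · obtain ⟨t, ht⟩ := hlt i h
        refine Dvd.dvd.mul_right ⟨((t : ℤ) : A), ?_⟩ _
        rw [ht]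
        push_cast
        ring
      · refine Dvd.dvd.mul_left (hqc.trans (pow_dvd_pow c ?_)) _
        omega
    have h1 : ((q : ℕ) : A) ∣ ((P.coeff i₀ : ℤ) : A) * c ^ i₀ := by
      have h2 : ((P.coeff i₀ : ℤ) : A) * c ^ i₀
          = -∑ i ∈ (Finset.range (P.natDegree + 1)).erase i₀, ((P.coeff i : ℤ) : A) * c ^ i := by
        linear_combination -hsum
      rw [h2]
      exact (dvd_neg).mpr hrest
    exact (hunit.dvd_mul_left).mp h1
  · -- `(q, c^(i₀+1)) = (c^(i₀+1))`: impossible
    exfalso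
    have hrest : c ^ (i₀ + 1) ∣ ∑ i ∈ (Finset.range (P.natDegree + 1)).erase i₀,
        ((P.coeff i : ℤ) : A) * c ^ i := by
      refine Finset.dvd_sum fun i hi => ?_
      have hne : i ≠ i₀ := Finset.ne_of_mem_erase hi
      rcases lt_or_gt_of_ne hne with h | h
      · obtain ⟨t, ht⟩ := hlt i h
        refine Dvd.dvd.mul_right (hcq.trans ⟨((t : ℤ) : A), ?_⟩) _
        rw [ht]
        push_cast
        ring
      · refine Dvd.dvd.mul_left (pow_dvd_pow c ?_) _
        omega
    have h1 : c ^ (i₀ + 1) ∣ ((P.coeff i₀ : ℤ) : A) * c ^ i₀ := by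
      have h2 : ((P.coeff i₀ : ℤ) : A) * c ^ i₀
          = -∑ i ∈ (Finset.range (P.natDegree + 1)).erase i₀, ((P.coeff i : ℤ) : A) * c ^ i := by
        linear_combination -hsum
      rw [h2]
      exact (dvd_neg).mpr hrest
    obtain ⟨t, ht⟩ := (hunit.dvd_mul_left).mp h1
    have h3 : c ^ i₀ * (1 - c * t) = 0 := by
      rw [pow_succ] at ht
      linear_combination ht
    have hu : IsUnit (1 - c * t) := by
      refine IsLocalRing.isUnit_one_sub_self_of_mem_nonunits _ ?_
      intro h
      exact hc (isUnit_of_mul_isUnit_left h)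
    have : c ^ i₀ = 0 := (hu.mul_left_eq_zero).mp h3
    exact pow_ne_zero i₀ hc0 this

/-- **rank one**: every nonzero `a ∈ A` divides a power of every nonzero non-unit `c`. -/
theorem S34RO_rank_one (A : ValuationSubring L) {q : ℕ} (hq : q.Prime)
    (hA : A.LiesOverPrime q) (c : A) (hc : ¬ IsUnit c) (hc0 : c ≠ 0) (a : A) (ha : a ≠ 0) :
    ∃ N : ℕ, a ∣ c ^ N := by
  obtain ⟨e, he⟩ := S34RO_dvd_pow_q A hq hA a ha
  obtain ⟨i, hi⟩ := S34RO_q_dvd_pow A hq hA c hc hc0
  refine ⟨i * e, ?_⟩
  rw [pow_mul]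
  exact he.trans (pow_dvd_pow_of_dvd hi e)

end

/-- `ℚ̄` is algebraic over `ℚ` for the canonical `ℚ`-algebra structure of a division ring. -/
theorem S34RO_isAlgebraic_Qbar :
    @Algebra.IsAlgebraic ℚ (AlgebraicClosure ℚ) _ _ DivisionRing.toRatAlgebra := by
  have h : (DivisionRing.toRatAlgebra : Algebra ℚ (AlgebraicClosure ℚ))
      = AlgebraicClosure.instAlgebra ℚ := Subsingleton.elim _ _
  rw [h]
  infer_instance

/-- **rank one** for the valuation rings of `ℚ̄` over a prime `q` (ready to use as `hrank` of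
`S34IC_inj`). -/
theorem S34RO_rank_one_Qbar (A : ValuationSubring (AlgebraicClosure ℚ)) {q : ℕ} (hq : q.Prime)
    (hA : A.LiesOverPrime q) (c : A) (hc : ¬ IsUnit c) (hc0 : c ≠ 0) (a : A) (ha : a ≠ 0) :
    ∃ N : ℕ, a ∣ c ^ N :=
  haveI := S34RO_isAlgebraic_Qbar
  S34RO_rank_one A hq hA c hc hc0 a ha

end Fermat.Agent.S34
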