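/-
TRACK 7 "NODE" (S34 + S35), package POLE, part 1 (helper2): definitions for a PAIR of valuation data on one
function field, and POLE CONTROL:  `f ∈ L(m (x)_∞) ∩ O₂ ⇒ redᵢ f ∈ L(m (x̄ᵢ)_∞)`  (one pole set, two pole sets,
twisted modules).  Abstract: no modular curves.  The one-valuation model is `S18/Semi.lean` (helper25).
-/
import Mathlib
import Fermat.Agent.Lib.RiemannThm
import Fermat.Agent.S18.Semi

set_option autoImplicit false

open AlgebraicCurve IntermediateField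

namespace Fermat.Agent.S34

open Fermat.Agent.Lib Fermat.Agent.S24 Fermat.Agent.S18

variable {L F k Fk₁ Fk₂ : Type*} [Field L] [Field F] [Algebra L F] [Field k]
  [Field Fk₁] [Field Fk₂] [Algebra k Fk₁] [Algebra k Fk₂]

/-! ### One valuation, hypotheses restricted to a subring -/

section Aux

variable {Fk : Type*} [Field Fk] [Algebra k Fk]

/-- Pole control for ONE valuation datum `S`, with the integrality hypotheses only for the elements of a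
subring `O' ⊂ S.O` that contains `x` and `x⁻¹`.  (Proof = `S18_semi_red_mem`.) -/
theorem S34P_red_mem_aux (S : S18_Val L F k Fk) (O' : Subring F) (hO' : ∀ z ∈ O', z ∈ S.O)
    {x : F} (hx : x ∈ O') (hxi : x⁻¹ ∈ O') (hne : S.red ⟨x, hO' x hx⟩ ≠ 0)
    (int : ∀ (z : F) (hz : z ∈ O'), IsIntegral (Algebra.adjoin L ({x} : Set F)) z →
      IsIntegral (Algebra.adjoin k ({S.red ⟨x, hO' x hx⟩} : Set Fk)) (S.red ⟨z, hO' z hz⟩))
    (int_inv : ∀ (z : F) (hz : z ∈ O'), IsIntegral (Algebra.adjoin L ({x⁻¹} : Set F)) z →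
      IsIntegral (Algebra.adjoin k ({(S.red ⟨x, hO' x hx⟩)⁻¹} : Set Fk)) (S.red ⟨z, hO' z hz⟩))
    (reg : ∀ f : F, (∀ P : Place L F, 0 ≤ P.ord x → 0 ≤ P.ord f) →
      IsIntegral (Algebra.adjoin L ({x} : Set F)) f)
    (reg_inv : ∀ f : F, (∀ P : Place L F, P.ord x ≤ 0 → 0 ≤ P.ord f) →
      IsIntegral (Algebra.adjoin L ({x⁻¹} : Set F)) f)
    (hP : HasPrincipalDivisors L F) (hPk : HasPrincipalDivisors k Fk)
    (m : ℕ) {f : F} (hf : f ∈ O') (hfL : f ∈ riemannRochSpace (m • RR_poleDiv hP x)) :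
    S.red ⟨f, hO' f hf⟩ ∈ riemannRochSpace (m • RR_poleDiv hPk (S.red ⟨x, hO' x hx⟩)) := by
  rw [mem_riemannRochSpace_iff] at hfL ⊢
  set X : S.O := ⟨x, hO' x hx⟩ with hX
  set Xi : S.O := ⟨x⁻¹, hO' _ hxi⟩ with hXi
  have hx0 : x ≠ 0 := by
    intro h0
    apply hne
    have : X = 0 := Subtype.ext h0
    rw [this, map_zero]
  have hxinv : Xi * X = 1 := Subtype.ext (by simp [hX, hXi, inv_mul_cancel₀ hx0])
  have hredinv : S.red Xi = (S.red X)⁻¹ := by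
    have h1 := congrArg S.red hxinv
    rw [map_mul, map_one] at h1
    exact eq_inv_of_mul_eq_one_left h1
  intro Q
  by_cases hrf : S.red ⟨f, hO' f hf⟩ = 0
  · exact Or.inl hrf
  right
  have hf0 : f ≠ 0 := by
    intro h0
    apply hrf
    have : (⟨f, hO' f hf⟩ : S.O) = 0 := Subtype.ext h0
    rw [this, map_zero]
  have hford : ∀ P : Place L F, -((m • RR_poleDiv hP x) P) ≤ P.ord f :=
    fun P => (hfL P).resolve_left hf0
  rw [S18_semi_nsmul_apply, RR_poleDiv_apply]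
  rcases le_or_gt 0 (Q.ord (S.red X)) with hQ | hQ
  · -- `red x` regular at `Q`
    have hint : IsIntegral (Algebra.adjoin L ({x} : Set F)) f := by
      apply reg
      intro P hPx
      have := hford P
      rw [S18_semi_nsmul_apply, RR_poleDiv_apply, max_eq_right (by omega)] at this
      simpa using this
    have hint' := int f hf hint
    have hxQ : S.red X ∈ Q.toValuationSubring := (BG_mem_iff_ord_nonneg Q hne).2 hQ
    have hmem := BL_mem_of_isIntegral Q hxQ hint'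
    have := (BG_mem_iff_ord_nonneg Q hrf).1 hmem
    rw [max_eq_right (by omega)]
    simpa using this
  · -- `red x` has a pole at `Q`
    have hgO : f * x⁻¹ ^ m ∈ O' := O'.mul_mem hf (O'.pow_mem hxi m)
    have hgred : S.red ⟨f * x⁻¹ ^ m, hO' _ hgO⟩ = S.red ⟨f, hO' f hf⟩ * (S.red X)⁻¹ ^ m := by
      have : (⟨f * x⁻¹ ^ m, hO' _ hgO⟩ : S.O) = ⟨f, hO' f hf⟩ * Xi ^ m := Subtype.ext (by simp [hXi])
      rw [this, map_mul, map_pow, hredinv]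
    have hint : IsIntegral (Algebra.adjoin L ({x⁻¹} : Set F)) (f * x⁻¹ ^ m) := by
      apply reg_inv
      intro P hPx
      rw [S18_semi_ord_mul_inv_pow P hf0 hx0]
      have := hford P
      rw [S18_semi_nsmul_apply, RR_poleDiv_apply, max_eq_left (by omega)] at this
      linarith
    have hint' := int_inv _ hgO hint
    have hxinv0 : (S.red X)⁻¹ ≠ 0 := inv_ne_zero hne
    have hxQ : (S.red X)⁻¹ ∈ Q.toValuationSubring := by
      rw [BG_mem_iff_ord_nonneg Q hxinv0, Q.ord_inv]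
      omega
    have hmem := BL_mem_of_isIntegral Q hxQ hint'
    have hg0 : S.red ⟨f * x⁻¹ ^ m, hO' _ hgO⟩ ≠ 0 := by
      rw [hgred]
      exact mul_ne_zero hrf (pow_ne_zero _ hxinv0)
    have := (BG_mem_iff_ord_nonneg Q hg0).1 hmem
    rw [hgred, S18_semi_ord_mul_inv_pow Q hrf hne] at this
    rw [max_eq_left (by omega)]
    linarith

end Aux

/-! ### The pair -/

variable (S₁ : S18_Val L F k Fk₁) (S₂ : S18_Val L F k Fk₂)

/-- `O₂ = O_{V₁} ∩ O_{V₂}`. -/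
def S34P_O2 : Subring F := S₁.O.toSubring ⊓ S₂.O.toSubring

theorem S34P_mem_O2 {f : F} : f ∈ S34P_O2 S₁ S₂ ↔ f ∈ S₁.O ∧ f ∈ S₂.O := Iff.rfl

theorem S34P_O2_le₁ : ∀ z ∈ S34P_O2 S₁ S₂, z ∈ S₁.O := fun _ h => h.1

theorem S34P_O2_le₂ : ∀ z ∈ S34P_O2 S₁ S₂, z ∈ S₂.O := fun _ h => h.2

/-- the two inclusions `O₂ → Oᵢ`. -/
def S34P_incl₁ : S34P_O2 S₁ S₂ →+* S₁.O where
  toFun f := ⟨f, f.2.1⟩
  map_one' := rfl
  map_mul' _ _ := rfl
  map_zero' := rfl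
  map_add' _ _ := rfl

def S34P_incl₂ : S34P_O2 S₁ S₂ →+* S₂.O where
  toFun f := ⟨f, f.2.2⟩
  map_one' := rfl
  map_mul' _ _ := rfl
  map_zero' := rfl
  map_add' _ _ := rfl

/-- `red = (red₁, red₂) : O₂ → Fk₁ × Fk₂`. -/
def S34P_red : S34P_O2 S₁ S₂ →+* Fk₁ × Fk₂ :=
  (S₁.red.comp (S34P_incl₁ S₁ S₂)).prod (S₂.red.comp (S34P_incl₂ S₁ S₂))

theorem S34P_red_fst (f : S34P_O2 S₁ S₂) : (S34P_red S₁ S₂ f).1 = S₁.red ⟨f, f.2.1⟩ := rfl

theorem S34P_red_snd (f : S34P_O2 S₁ S₂) : (S34P_red S₁ S₂ f).2 = S₂.red ⟨f, f.2.2⟩ := rfl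

/-- the two data have the same base valuation ring and the same residue map on it. -/
structure S34P_Same : Prop where
  A_eq : S₁.A = S₂.A
  res_eq : ∀ (a : L) (h₁ : a ∈ S₁.A) (h₂ : a ∈ S₂.A), S₁.res ⟨a, h₁⟩ = S₂.res ⟨a, h₂⟩

variable {S₁ S₂}

/-- constants of `A` in `O₂`. -/
theorem S34P_const_mem (hS : S34P_Same S₁ S₂) (a : S₁.A) :
    algebraMap L F a ∈ S34P_O2 S₁ S₂ :=
  ⟨(S₁.algebraMap_mem_iff a).2 a.2, (S₂.algebraMap_mem_iff a).2 (hS.A_eq ▸ a.2)⟩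

theorem S34P_red_const (hS : S34P_Same S₁ S₂) (a : S₁.A) :
    S34P_red S₁ S₂ ⟨algebraMap L F a, S34P_const_mem hS a⟩ =
      (algebraMap k Fk₁ (S₁.res a), algebraMap k Fk₂ (S₁.res a)) := by
  apply Prod.ext
  · exact S₁.red_algebraMap a a.2 _
  · show S₂.red ⟨algebraMap L F a, _⟩ = algebraMap k Fk₂ (S₁.res a)
    rw [S₂.red_algebraMap a (hS.A_eq ▸ a.2) _, hS.res_eq a a.2 (hS.A_eq ▸ a.2)]

variable (S₁ S₂)

/-- `W(V) := red (V ∩ O₂)`, a `k`-subspace of `Fk₁ × Fk₂`. -/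
def S34P_redSub (hS : S34P_Same S₁ S₂) (V : Submodule L F) : Submodule k (Fk₁ × Fk₂) where
  carrier := {w | ∃ f : S34P_O2 S₁ S₂, (f : F) ∈ V ∧ S34P_red S₁ S₂ f = w}
  add_mem' := by
    rintro _ _ ⟨f, hf, rfl⟩ ⟨g, hg, rfl⟩
    exact ⟨f + g, V.add_mem hf hg, map_add _ _ _⟩
  zero_mem' := ⟨0, V.zero_mem, map_zero _⟩
  smul_mem' := by
    rintro γ _ ⟨f, hf, rfl⟩
    obtain ⟨a, rfl⟩ := S₁.res_surjective γ
    refine ⟨⟨algebraMap L F a, S34P_const_mem hS a⟩ * f, ?_, ?_⟩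
    · have : ((⟨algebraMap L F a, S34P_const_mem hS a⟩ * f : S34P_O2 S₁ S₂) : F) =
          (a : L) • (f : F) := by
        rw [Algebra.smul_def]; rfl
      rw [this]
      exact V.smul_mem _ hf
    · rw [map_mul, S34P_red_const hS a]
      apply Prod.ext
      · simp [Algebra.smul_def]
      · simp [Algebra.smul_def]

theorem S34P_mem_redSub (hS : S34P_Same S₁ S₂) {V : Submodule L F} {w : Fk₁ × Fk₂} :
    w ∈ S34P_redSub S₁ S₂ hS V ↔ ∃ f : S34P_O2 S₁ S₂, (f : F) ∈ V ∧ S34P_red S₁ S₂ f = w :=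
  Iff.rfl

theorem S34P_redSub_mono (hS : S34P_Same S₁ S₂) {V V' : Submodule L F} (h : V ≤ V') :
    S34P_redSub S₁ S₂ hS V ≤ S34P_redSub S₁ S₂ hS V' := by
  rintro _ ⟨f, hf, rfl⟩
  exact ⟨f, h hf, rfl⟩

/-- INPUTS of POLE for the chart function `x` (the analogue of `S18_Val.SemiHyp` for the pair). -/
structure S34P_Hyp (hS : S34P_Same S₁ S₂) (x : S34P_O2 S₁ S₂) : Prop where
  red_ne₁ : (S34P_red S₁ S₂ x).1 ≠ 0
  red_ne₂ : (S34P_red S₁ S₂ x).2 ≠ 0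
  /-- (INT2) for `x` -/
  int : ∀ z : S34P_O2 S₁ S₂, IsIntegral (Algebra.adjoin L ({(x : F)} : Set F)) (z : F) →
    IsIntegral (Algebra.adjoin k ({(S34P_red S₁ S₂ x).1} : Set Fk₁)) (S34P_red S₁ S₂ z).1 ∧
    IsIntegral (Algebra.adjoin k ({(S34P_red S₁ S₂ x).2} : Set Fk₂)) (S34P_red S₁ S₂ z).2
  /-- (INT2) for `x⁻¹` -/
  int_inv : ∀ z : S34P_O2 S₁ S₂, IsIntegral (Algebra.adjoin L ({(x : F)⁻¹} : Set F)) (z : F) →
    IsIntegral (Algebra.adjoin k ({((S34P_red S₁ S₂ x).1)⁻¹} : Set Fk₁)) (S34P_red S₁ S₂ z).1 ∧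
    IsIntegral (Algebra.adjoin k ({((S34P_red S₁ S₂ x).2)⁻¹} : Set Fk₂)) (S34P_red S₁ S₂ z).2
  /-- (P0) for `x` -/
  reg : ∀ f : F, (∀ P : Place L F, 0 ≤ P.ord (x : F) → 0 ≤ P.ord f) →
    IsIntegral (Algebra.adjoin L ({(x : F)} : Set F)) f
  /-- (P0) for `x⁻¹` -/
  reg_inv : ∀ f : F, (∀ P : Place L F, P.ord (x : F) ≤ 0 → 0 ≤ P.ord f) →
    IsIntegral (Algebra.adjoin L ({(x : F)⁻¹} : Set F)) f
  /-- (L1₂) the lattice lemma for the pair -/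
  lattice : ∀ V : Submodule L F, FiniteDimensional L V →
    Module.finrank L V ≤ Module.finrank k (S34P_redSub S₁ S₂ hS V)

variable {S₁ S₂}

section RedMem

variable {hS : S34P_Same S₁ S₂} {x : S34P_O2 S₁ S₂} (h : S34P_Hyp S₁ S₂ hS x)
  (hP : HasPrincipalDivisors L F) (hP₁ : HasPrincipalDivisors k Fk₁)
  (hP₂ : HasPrincipalDivisors k Fk₂)

include h

theorem S34P_Hyp.inv_mem : (x : F)⁻¹ ∈ S34P_O2 S₁ S₂ := by
  constructor
  · have hu : IsUnit (⟨x, x.2.1⟩ : S₁.O) := (S₁.red_ne_zero_iff _).1 h.red_ne₁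
    obtain ⟨u, hu'⟩ := hu
    have h1 : (((u⁻¹ : S₁.Oˣ) : S₁.O) : F) * (x : F) = 1 := by
      have := congrArg (fun z : S₁.O => (z : F)) u.inv_mul
      simp only [hu'] at this
      simpa using this
    have : (x : F)⁻¹ = (((u⁻¹ : S₁.Oˣ) : S₁.O) : F) := (eq_inv_of_mul_eq_one_left h1).symm
    rw [this]
    exact ((u⁻¹ : S₁.Oˣ) : S₁.O).2
  · have hu : IsUnit (⟨x, x.2.2⟩ : S₂.O) := (S₂.red_ne_zero_iff _).1 h.red_ne₂
    obtain ⟨u, hu'⟩ := hu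
    have h1 : (((u⁻¹ : S₂.Oˣ) : S₂.O) : F) * (x : F) = 1 := by
      have := congrArg (fun z : S₂.O => (z : F)) u.inv_mul
      simp only [hu'] at this
      simpa using this
    have : (x : F)⁻¹ = (((u⁻¹ : S₂.Oˣ) : S₂.O) : F) := (eq_inv_of_mul_eq_one_left h1).symm
    rw [this]
    exact ((u⁻¹ : S₂.Oˣ) : S₂.O).2

/-- **POLE-1** (pole control, one pole set): `f ∈ L(m (x)_∞) ∩ O₂ ⇒ redᵢ f ∈ L(m (x̄ᵢ)_∞)`. -/
theorem S34P_red_mem (m : ℕ) (f : S34P_O2 S₁ S₂)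
    (hf : (f : F) ∈ riemannRochSpace (m • RR_poleDiv hP (x : F))) :
    (S34P_red S₁ S₂ f).1 ∈ riemannRochSpace (m • RR_poleDiv hP₁ (S34P_red S₁ S₂ x).1) ∧
    (S34P_red S₁ S₂ f).2 ∈ riemannRochSpace (m • RR_poleDiv hP₂ (S34P_red S₁ S₂ x).2) := by
  constructor
  · exact S34P_red_mem_aux S₁ (S34P_O2 S₁ S₂) (S34P_O2_le₁ S₁ S₂) x.2 h.inv_mem h.red_ne₁
      (fun z hz hi => (h.int ⟨z, hz⟩ hi).1) (fun z hz hi => (h.int_inv ⟨z, hz⟩ hi).1)
      h.reg h.reg_inv hP hP₁ m f.2 hf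
  · exact S34P_red_mem_aux S₂ (S34P_O2 S₁ S₂) (S34P_O2_le₂ S₁ S₂) x.2 h.inv_mem h.red_ne₂
      (fun z hz hi => (h.int ⟨z, hz⟩ hi).2) (fun z hz hi => (h.int_inv ⟨z, hz⟩ hi).2)
      h.reg h.reg_inv hP hP₂ m f.2 hf

/-- **POLE-1**, submodule form: `W(L(m (x)_∞)) ⊂ L(m (x̄₁)_∞) × L(m (x̄₂)_∞)`. -/
theorem S34P_redSub_le (m : ℕ) :
    S34P_redSub S₁ S₂ hS (riemannRochSpace (m • RR_poleDiv hP (x : F))) ≤
      (riemannRochSpace (m • RR_poleDiv hP₁ (S34P_red S₁ S₂ x).1)).prod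
        (riemannRochSpace (m • RR_poleDiv hP₂ (S34P_red S₁ S₂ x).2)) := by
  rintro _ ⟨f, hf, rfl⟩
  exact S34P_red_mem h hP hP₁ hP₂ m f hf

end RedMem

end Fermat.Agent.S34
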