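import Fermat.Agent.S34.KAct
import Fermat.Agent.S34.Pole

/-!
# TRACK 7 (S34 + S35), package KACT (helper10), semi-concrete layer

For a PAIR of valuation data `S₁, S₂` on `F` (`Pole.lean`, helper2) and a chart
(`B` = functions regular on the chart, `Rb₁, Rb₂` = coordinate rings of the two components of the
special fibre) this file defines

* `S34K_V B n u`   : the `L`-space `V^u = {f | fⁿ · u ∈ B}`  (`= L(D)` on the chart, `n D = div u`);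
* `S34K_W … u`     : `W^u = red (V^u ∩ O₂)`, as a `k`-subspace of `Rb₁ × Rb₂`;

and proves the formal properties needed by `S34K_Datum` (`KAct.lean`):
`S34K_one_mem_W`, `S34K_mul_mem_W`, `S34K_pow_mem_W` (the `n`-th power condition `hpow` of
`S34B_main` / `S34NA_main`), `S34K_map_W` (equivariance), `S34K_W_mono` and `S34K_c_eq_of_le`
(independence of the chart), `S34K_exists_lift_one` (the input `(triv)` of INJ).
`S34K_mkDatum` assembles an `S34K_Datum` from (B) [`hex`] and (INJ) [`hinj`].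
-/

set_option autoImplicit false
set_option linter.unusedSectionVars false

open AlgebraicCurve

namespace Fermat.Agent.S34

open Fermat.Agent.S18

variable {L F k Fk₁ Fk₂ : Type*} [Field L] [Field F] [Algebra L F] [Field k]
  [Field Fk₁] [Field Fk₂] [Algebra k Fk₁] [Algebra k Fk₂]

/-! ### The twisted space `V^u` -/

/-- all mixed monomials `f^i g^(n-i) u` lie in a root-closed algebra `B` if `fⁿ u, gⁿ u ∈ B`. -/
theorem S34K_mixed_mem (B : Subalgebra L F) {n : ℕ} (_hn : 0 < n)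
    (hroot : ∀ f : F, f ^ n ∈ B → f ∈ B) {u f g : F} (hf : f ^ n * u ∈ B) (hg : g ^ n * u ∈ B)
    {i : ℕ} (hi : i ≤ n) : f ^ i * g ^ (n - i) * u ∈ B := by
  apply hroot
  have e : (f ^ i * g ^ (n - i) * u) ^ n = (f ^ n * u) ^ i * (g ^ n * u) ^ (n - i) := by
    have hu : u ^ n = u ^ i * u ^ (n - i) := by
      rw [← pow_add]; congr 1; omega
    rw [mul_pow, mul_pow, mul_pow, mul_pow, hu, ← pow_mul, ← pow_mul, ← pow_mul, ← pow_mul,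
      mul_comm i n, mul_comm (n - i) n]
    ring
  rw [e]
  exact B.mul_mem (B.pow_mem hf _) (B.pow_mem hg _)

/-- `V^u = {f | fⁿ u ∈ B}`, an `L`-subspace of `F` (for `B` root-closed). -/
def S34K_V (B : Subalgebra L F) (n : ℕ) (hn : 0 < n) (hroot : ∀ f : F, f ^ n ∈ B → f ∈ B)
    (u : F) : Submodule L F where
  carrier := {f | f ^ n * u ∈ B}
  zero_mem' := by
    show (0 : F) ^ n * u ∈ B
    rw [zero_pow hn.ne', zero_mul]
    exact B.zero_mem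
  add_mem' := by
    intro f g hf hg
    show (f + g) ^ n * u ∈ B
    rw [add_pow, Finset.sum_mul]
    refine B.sum_mem fun i hi => ?_
    have hi' : i ≤ n := Nat.lt_succ_iff.mp (Finset.mem_range.mp hi)
    have h := S34K_mixed_mem B hn hroot hf hg hi'
    have e : f ^ i * g ^ (n - i) * (n.choose i : F) * u =
        (n.choose i : F) * (f ^ i * g ^ (n - i) * u) := by ring
    rw [e]
    exact B.mul_mem (natCast_mem B _) h
  smul_mem' := by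
    intro a f hf
    show (a • f) ^ n * u ∈ B
    rw [smul_pow, smul_mul_assoc]
    exact B.smul_mem hf _

theorem S34K_mem_V (B : Subalgebra L F) (n : ℕ) (hn : 0 < n)
    (hroot : ∀ f : F, f ^ n ∈ B → f ∈ B) (u f : F) :
    f ∈ S34K_V B n hn hroot u ↔ f ^ n * u ∈ B := Iff.rfl

theorem S34K_V_mono {B B' : Subalgebra L F} (hBB' : B ≤ B') (n : ℕ) (hn : 0 < n)
    (hroot : ∀ f : F, f ^ n ∈ B → f ∈ B) (hroot' : ∀ f : F, f ^ n ∈ B' → f ∈ B') (u : F) :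
    S34K_V B n hn hroot u ≤ S34K_V B' n hn hroot' u :=
  fun _ hf => hBB' hf

/-! ### The reduction `W^u` -/

/-- the inclusion `Rb₁ × Rb₂ → Fk₁ × Fk₂`. -/
def S34K_incl (Rb₁ : Subalgebra k Fk₁) (Rb₂ : Subalgebra k Fk₂) :
    (↥Rb₁ × ↥Rb₂) →ₗ[k] (Fk₁ × Fk₂) :=
  LinearMap.prodMap Rb₁.val.toLinearMap Rb₂.val.toLinearMap

@[simp] theorem S34K_incl_apply (Rb₁ : Subalgebra k Fk₁) (Rb₂ : Subalgebra k Fk₂)
    (m : ↥Rb₁ × ↥Rb₂) : S34K_incl Rb₁ Rb₂ m = ((m.1 : Fk₁), (m.2 : Fk₂)) := rfl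

theorem S34K_incl_injective (Rb₁ : Subalgebra k Fk₁) (Rb₂ : Subalgebra k Fk₂) :
    Function.Injective (S34K_incl Rb₁ Rb₂) := by
  intro m m' h
  have h1 := congrArg Prod.fst h
  have h2 := congrArg Prod.snd h
  simp only [S34K_incl_apply] at h1 h2
  exact Prod.ext (Subtype.ext h1) (Subtype.ext h2)

variable (S₁ : S18_Val L F k Fk₁) (S₂ : S18_Val L F k Fk₂) (hS : S34P_Same S₁ S₂)

/-- a chart of the pair `(S₁, S₂)`: `B` = the functions of `F` regular on the chart (root closed),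
`Rb₁, Rb₂` = the coordinate rings of the two components of the special fibre. -/
structure S34K_Chart (n : ℕ) where
  /-- the functions regular on the chart -/
  B : Subalgebra L F
  hn : 0 < n
  root : ∀ f : F, f ^ n ∈ B → f ∈ B
  /-- coordinate ring of the first component -/
  Rb₁ : Subalgebra k Fk₁
  /-- coordinate ring of the second component -/
  Rb₂ : Subalgebra k Fk₂

variable {S₁ S₂}

/-- `W^u = red (V^u ∩ O₂) ∩ (Rb₁ × Rb₂)`, as a `k`-subspace of `Rb₁ × Rb₂`. -/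
def S34K_W {n : ℕ} (C : S34K_Chart (L := L) (F := F) (k := k) (Fk₁ := Fk₁) (Fk₂ := Fk₂) n)
    (u : F) : Submodule k (↥C.Rb₁ × ↥C.Rb₂) :=
  Submodule.comap (S34K_incl C.Rb₁ C.Rb₂) (S34P_redSub S₁ S₂ hS (S34K_V C.B n C.hn C.root u))

theorem S34K_mem_W {n : ℕ} (C : S34K_Chart (L := L) (F := F) (k := k) (Fk₁ := Fk₁) (Fk₂ := Fk₂) n)
    (u : F) (m : ↥C.Rb₁ × ↥C.Rb₂) :
    m ∈ S34K_W hS C u ↔ ∃ f : S34P_O2 S₁ S₂, (f : F) ^ n * u ∈ C.B ∧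
      S34P_red S₁ S₂ f = ((m.1 : Fk₁), (m.2 : Fk₂)) := Iff.rfl

/-- `1 ∈ W^1`. -/
theorem S34K_one_mem_W {n : ℕ}
    (C : S34K_Chart (L := L) (F := F) (k := k) (Fk₁ := Fk₁) (Fk₂ := Fk₂) n) :
    (1 : ↥C.Rb₁ × ↥C.Rb₂) ∈ S34K_W hS C 1 := by
  rw [S34K_mem_W]
  refine ⟨1, ?_, ?_⟩
  · simp only [OneMemClass.coe_one, one_pow, mul_one]
    exact C.B.one_mem
  · rw [map_one]; rfl

/-- `W^u · W^v ⊂ W^{uv}`. -/
theorem S34K_mul_mem_W {n : ℕ}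
    (C : S34K_Chart (L := L) (F := F) (k := k) (Fk₁ := Fk₁) (Fk₂ := Fk₂) n) {u v : F}
    {m m' : ↥C.Rb₁ × ↥C.Rb₂} (hm : m ∈ S34K_W hS C u) (hm' : m' ∈ S34K_W hS C v) :
    m * m' ∈ S34K_W hS C (u * v) := by
  rw [S34K_mem_W] at hm hm' ⊢
  obtain ⟨f, hf, hfm⟩ := hm
  obtain ⟨f', hf', hfm'⟩ := hm'
  refine ⟨f * f', ?_, ?_⟩
  · have e : ((f * f' : S34P_O2 S₁ S₂) : F) ^ n * (u * v) =
        ((f : F) ^ n * u) * ((f' : F) ^ n * v) := by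
      push_cast; ring
    rw [e]
    exact C.B.mul_mem hf hf'
  · rw [map_mul, hfm, hfm']
    rfl

/-- the normalised elements: `u ∈ O₂` with `red u = 1`. -/
def S34K_Norm (S₁ : S18_Val L F k Fk₁) (S₂ : S18_Val L F k Fk₂) : Set F :=
  {u | ∃ h : u ∈ S34P_O2 S₁ S₂, S34P_red S₁ S₂ ⟨u, h⟩ = 1}

theorem S34K_one_mem_Norm : (1 : F) ∈ S34K_Norm S₁ S₂ :=
  ⟨(S34P_O2 S₁ S₂).one_mem, map_one _⟩

theorem S34K_mul_mem_Norm {u v : F} (hu : u ∈ S34K_Norm S₁ S₂) (hv : v ∈ S34K_Norm S₁ S₂) :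
    u * v ∈ S34K_Norm S₁ S₂ := by
  obtain ⟨hu1, hu2⟩ := hu
  obtain ⟨hv1, hv2⟩ := hv
  refine ⟨(S34P_O2 S₁ S₂).mul_mem hu1 hv1, ?_⟩
  have : (⟨u * v, (S34P_O2 S₁ S₂).mul_mem hu1 hv1⟩ : S34P_O2 S₁ S₂) = ⟨u, hu1⟩ * ⟨v, hv1⟩ := rfl
  rw [this, map_mul, hu2, hv2, one_mul]

theorem S34K_ne_zero_of_Norm {u : F} (hu : u ∈ S34K_Norm S₁ S₂) : u ≠ 0 := by
  obtain ⟨hu1, hu2⟩ := hu
  rintro rfl
  have : (⟨0, hu1⟩ : S34P_O2 S₁ S₂) = 0 := rfl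
  rw [this, map_zero] at hu2
  exact zero_ne_one hu2

/-- an element of `O₂` whose two reductions are non-zero is a unit of `O₂`. -/
theorem S34K_inv_mem_O2 {f : F} (hf : f ∈ S34P_O2 S₁ S₂)
    (h1 : (S34P_red S₁ S₂ ⟨f, hf⟩).1 ≠ 0) (h2 : (S34P_red S₁ S₂ ⟨f, hf⟩).2 ≠ 0) :
    f⁻¹ ∈ S34P_O2 S₁ S₂ := by
  constructor
  · have hu : IsUnit (⟨f, hf.1⟩ : S₁.O) := (S₁.red_ne_zero_iff _).1 h1
    obtain ⟨w, hw⟩ := hu
    have e : (((w⁻¹ : S₁.Oˣ) : S₁.O) : F) * f = 1 := by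
      have := congrArg (fun z : S₁.O => (z : F)) w.inv_mul
      simp only [hw] at this
      simpa using this
    have : f⁻¹ = (((w⁻¹ : S₁.Oˣ) : S₁.O) : F) := (eq_inv_of_mul_eq_one_left e).symm
    rw [this]
    exact ((w⁻¹ : S₁.Oˣ) : S₁.O).2
  · have hu : IsUnit (⟨f, hf.2⟩ : S₂.O) := (S₂.red_ne_zero_iff _).1 h2
    obtain ⟨w, hw⟩ := hu
    have e : (((w⁻¹ : S₂.Oˣ) : S₂.O) : F) * f = 1 := by
      have := congrArg (fun z : S₂.O => (z : F)) w.inv_mul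
      simp only [hw] at this
      simpa using this
    have : f⁻¹ = (((w⁻¹ : S₂.Oˣ) : S₂.O) : F) := (eq_inv_of_mul_eq_one_left e).symm
    rw [this]
    exact ((w⁻¹ : S₂.Oˣ) : S₂.O).2

theorem S34K_inv_mem_Norm {u : F} (hu : u ∈ S34K_Norm S₁ S₂) : u⁻¹ ∈ S34K_Norm S₁ S₂ := by
  have hu0 := S34K_ne_zero_of_Norm hu
  obtain ⟨hu1, hu2⟩ := hu
  have hinv : u⁻¹ ∈ S34P_O2 S₁ S₂ := by
    apply S34K_inv_mem_O2 hu1
    · rw [hu2]; exact one_ne_zero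
    · rw [hu2]; exact one_ne_zero
  refine ⟨hinv, ?_⟩
  have e : (⟨u⁻¹, hinv⟩ : S34P_O2 S₁ S₂) * ⟨u, hu1⟩ = 1 := Subtype.ext (inv_mul_cancel₀ hu0)
  have := congrArg (S34P_red S₁ S₂) e
  rw [map_mul, hu2, mul_one, map_one] at this
  exact this

/-- **the `n`-th power condition** (`hpow` of `S34B_main`): for `u` normalised, the `n`-th power
of a member of `W^u` lies in `W^1 = red (B ∩ O₂)`. -/
theorem S34K_pow_mem_W {n : ℕ}
    (C : S34K_Chart (L := L) (F := F) (k := k) (Fk₁ := Fk₁) (Fk₂ := Fk₂) n) {u : F}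
    (hu : u ∈ S34K_Norm S₁ S₂) {m : ↥C.Rb₁ × ↥C.Rb₂} (hm : m ∈ S34K_W hS C u) :
    m ^ n ∈ S34K_W hS C 1 := by
  rw [S34K_mem_W] at hm ⊢
  obtain ⟨f, hf, hfm⟩ := hm
  obtain ⟨hu1, hu2⟩ := hu
  refine ⟨f ^ n * ⟨u, hu1⟩, ?_, ?_⟩
  · simp only [mul_one]
    push_cast
    exact C.B.pow_mem hf n
  · rw [map_mul, map_pow, hu2, mul_one, hfm]
    rfl

/-- `W^1` is the reduction of `Λ = B ∩ O₂`. -/
theorem S34K_mem_W_one {n : ℕ}
    (C : S34K_Chart (L := L) (F := F) (k := k) (Fk₁ := Fk₁) (Fk₂ := Fk₂) n)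
    (m : ↥C.Rb₁ × ↥C.Rb₂) :
    m ∈ S34K_W hS C 1 ↔ ∃ f : S34P_O2 S₁ S₂, (f : F) ∈ C.B ∧
      S34P_red S₁ S₂ f = ((m.1 : Fk₁), (m.2 : Fk₂)) := by
  rw [S34K_mem_W]
  constructor
  · rintro ⟨f, hf, hfm⟩
    rw [mul_one] at hf
    exact ⟨f, C.root _ hf, hfm⟩
  · rintro ⟨f, hf, hfm⟩
    refine ⟨f, ?_, hfm⟩
    rw [mul_one]
    exact C.B.pow_mem hf n

/-- **equivariance**: a ring endomorphism `g` of `F` preserving `O₂` and `B`, acting on the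
reductions through `ψ`, maps `W^u` into `W^{g u}`. -/
theorem S34K_map_W {n : ℕ}
    (C : S34K_Chart (L := L) (F := F) (k := k) (Fk₁ := Fk₁) (Fk₂ := Fk₂) n)
    (g : F →+* F) (hgO : ∀ f ∈ S34P_O2 S₁ S₂, g f ∈ S34P_O2 S₁ S₂) (hgB : ∀ f ∈ C.B, g f ∈ C.B)
    (ψ : ↥C.Rb₁ × ↥C.Rb₂ → ↥C.Rb₁ × ↥C.Rb₂)
    (hred : ∀ (f : S34P_O2 S₁ S₂) (m : ↥C.Rb₁ × ↥C.Rb₂),
      S34P_red S₁ S₂ f = ((m.1 : Fk₁), (m.2 : Fk₂)) →
      S34P_red S₁ S₂ ⟨g f, hgO f f.2⟩ = (((ψ m).1 : Fk₁), ((ψ m).2 : Fk₂)))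
    {u : F} {m : ↥C.Rb₁ × ↥C.Rb₂} (hm : m ∈ S34K_W hS C u) :
    ψ m ∈ S34K_W hS C (g u) := by
  rw [S34K_mem_W] at hm ⊢
  obtain ⟨f, hf, hfm⟩ := hm
  refine ⟨⟨g f, hgO f f.2⟩, ?_, hred f m hfm⟩
  have e : (g (f : F)) ^ n * g u = g ((f : F) ^ n * u) := by
    rw [map_mul, map_pow]
  show (g (f : F)) ^ n * g u ∈ C.B
  rw [e]
  exact hgB _ hf

/-- `g` preserves the normalised elements. -/
theorem S34K_map_Norm
    (g : F →+* F) (hgO : ∀ f ∈ S34P_O2 S₁ S₂, g f ∈ S34P_O2 S₁ S₂)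
    (hred1 : ∀ (f : S34P_O2 S₁ S₂), S34P_red S₁ S₂ f = 1 →
      S34P_red S₁ S₂ ⟨g f, hgO f f.2⟩ = 1)
    {u : F} (hu : u ∈ S34K_Norm S₁ S₂) : g u ∈ S34K_Norm S₁ S₂ := by
  obtain ⟨hu1, hu2⟩ := hu
  exact ⟨hgO u hu1, hred1 ⟨u, hu1⟩ hu2⟩

/-! ### Independence of the chart -/

/-- a chart `C` is contained in a chart `C'` (`U ⊇ U'` as open sets). -/
structure S34K_ChartLE {n : ℕ}
    (C C' : S34K_Chart (L := L) (F := F) (k := k) (Fk₁ := Fk₁) (Fk₂ := Fk₂) n) : Prop where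
  B_le : C.B ≤ C'.B
  Rb₁_le : C.Rb₁ ≤ C'.Rb₁
  Rb₂_le : C.Rb₂ ≤ C'.Rb₂

/-- the inclusion of the coordinate rings of two charts. -/
def S34K_chartMap {n : ℕ}
    {C C' : S34K_Chart (L := L) (F := F) (k := k) (Fk₁ := Fk₁) (Fk₂ := Fk₂) n}
    (h : S34K_ChartLE C C') (m : ↥C.Rb₁ × ↥C.Rb₂) : ↥C'.Rb₁ × ↥C'.Rb₂ :=
  (⟨m.1, h.Rb₁_le m.1.2⟩, ⟨m.2, h.Rb₂_le m.2.2⟩)

theorem S34K_W_mono {n : ℕ}
    {C C' : S34K_Chart (L := L) (F := F) (k := k) (Fk₁ := Fk₁) (Fk₂ := Fk₂) n}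
    (h : S34K_ChartLE C C') {u : F} {m : ↥C.Rb₁ × ↥C.Rb₂} (hm : m ∈ S34K_W hS C u) :
    S34K_chartMap h m ∈ S34K_W hS C' u := by
  rw [S34K_mem_W] at hm ⊢
  obtain ⟨f, hf, hfm⟩ := hm
  exact ⟨f, h.B_le hf, hfm⟩

/-- **the gluing invariant does not depend on the chart**: if `W^u` is glued with `c` in the
chart `C` and with `c'` in the larger chart `C'`, and the nodes correspond, then `c = c'`. -/
theorem S34K_c_eq_of_le {n : ℕ} {ι : Type*}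
    {C C' : S34K_Chart (L := L) (F := F) (k := k) (Fk₁ := Fk₁) (Fk₂ := Fk₂) n}
    (h : S34K_ChartLE C C')
    (e₁ : ι → ↥C.Rb₁ →ₐ[k] k) (e₂ : ι → ↥C.Rb₂ →ₐ[k] k)
    (e₁' : ι → ↥C'.Rb₁ →ₐ[k] k) (e₂' : ι → ↥C'.Rb₂ →ₐ[k] k)
    (hE : Function.Surjective (S34B_E e₁ e₂))
    (he₁ : ∀ i (a : ↥C.Rb₁), e₁' i ⟨a, h.Rb₁_le a.2⟩ = e₁ i a)
    (he₂ : ∀ i (b : ↥C.Rb₂), e₂' i ⟨b, h.Rb₂_le b.2⟩ = e₂ i b)
    {u : F} {c c' : ι → k} (hc : S34K_W hS C u = S34B_glued e₁ e₂ c)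
    (hc' : S34K_W hS C' u = S34B_glued e₁' e₂' c') : c = c' := by
  obtain ⟨m, hm, hm1, hm2⟩ := S34K_exists_witness e₁ e₂ hE c
  rw [← hc] at hm
  have hm' := S34K_W_mono (hS := hS) h hm
  rw [hc', S34B_mem_glued] at hm'
  funext i
  have := hm' i
  simp only [S34K_chartMap] at this
  rw [he₁, he₂, hm1, hm2, mul_one] at this
  exact this

/-! ### The input `(triv)` of INJ -/

/-- if the gluing invariant of `u` is trivial, `1` lifts to `V^u ∩ O₂`: there is `s ∈ O₂` with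
`sⁿ u ∈ B` and `red s = 1`. -/
theorem S34K_exists_lift_one {n : ℕ} {ι : Type*}
    (C : S34K_Chart (L := L) (F := F) (k := k) (Fk₁ := Fk₁) (Fk₂ := Fk₂) n)
    (e₁ : ι → ↥C.Rb₁ →ₐ[k] k) (e₂ : ι → ↥C.Rb₂ →ₐ[k] k)
    {u : F} {c : ι → k} (hc : S34K_W hS C u = S34B_glued e₁ e₂ c) (h1 : ∀ i, c i = 1) :
    ∃ s : S34P_O2 S₁ S₂, (s : F) ^ n * u ∈ C.B ∧ S34P_red S₁ S₂ s = 1 := by
  have hmem : (1 : ↥C.Rb₁ × ↥C.Rb₂) ∈ S34K_W hS C u := by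
    rw [hc, S34B_mem_glued]
    intro i
    simp [h1 i]
  rw [S34K_mem_W] at hmem
  obtain ⟨s, hs, hs1⟩ := hmem
  exact ⟨s, hs, hs1⟩

/-! ### (B) from the count -/

/-- **(B)** for a chart: if `W^1 = red (B ∩ O₂)` is the nodal ring `S34B_W e₁ e₂` and `W^u` has
codimension `≤ s = card ι` (the count: POLE + SAT + LAT), then `W^u` is glued, with gluing
constants in `μ_n`. -/
theorem S34K_hex_of_count {n : ℕ} {ι : Type*} [Fintype ι]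
    (C : S34K_Chart (L := L) (F := F) (k := k) (Fk₁ := Fk₁) (Fk₂ := Fk₂) n)
    (e₁ : ι → ↥C.Rb₁ →ₐ[k] k) (e₂ : ι → ↥C.Rb₂ →ₐ[k] k)
    (hE : Function.Surjective (S34B_E e₁ e₂))
    (hW1 : S34K_W hS C 1 = S34B_W e₁ e₂)
    {u : F} (hu : u ∈ S34K_Norm S₁ S₂)
    [Module.Finite k ((↥C.Rb₁ × ↥C.Rb₂) ⧸ S34K_W hS C u)]
    (hcount : Module.finrank k ((↥C.Rb₁ × ↥C.Rb₂) ⧸ S34K_W hS C u) ≤ Fintype.card ι) :
    ∃ c : ι → k, (∀ i, c i ^ n = 1) ∧ S34K_W hS C u = S34B_glued e₁ e₂ c := by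
  refine S34B_main e₁ e₂ hE C.hn (S34K_W hS C u) (fun m hm i => ?_) hcount
  have h := S34K_pow_mem_W hS C hu hm
  rw [hW1, S34B_mem_W] at h
  have := h i
  simpa using this


/-! ### Assembly of the datum -/

/-- **the datum of KACT from a chart.**  Inputs: the nodes `e₁, e₂` (NODAL), a multiplicative set
`Kum` of Kummer generators, (B) `hex`: `W^u` is glued for every normalised Kummer generator
(POLE + SAT + NODALG + `S34K_pow_mem_W`), (INJ) `hinj`. -/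
noncomputable def S34K_mkDatum {n : ℕ} {ι : Type*}
    (C : S34K_Chart (L := L) (F := F) (k := k) (Fk₁ := Fk₁) (Fk₂ := Fk₂) n)
    (e₁ : ι → ↥C.Rb₁ →ₐ[k] k) (e₂ : ι → ↥C.Rb₂ →ₐ[k] k)
    (hE : Function.Surjective (S34B_E e₁ e₂))
    (Kum Triv : Set F) (hK1 : (1 : F) ∈ Kum) (hKmul : ∀ u ∈ Kum, ∀ v ∈ Kum, u * v ∈ Kum)
    (hKinv : ∀ u ∈ Kum, u⁻¹ ∈ Kum)
    (hex : ∀ u ∈ Kum ∩ S34K_Norm S₁ S₂, ∃ c : ι → k, S34K_W hS C u = S34B_glued e₁ e₂ c)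
    (hinj : ∀ u ∈ Kum ∩ S34K_Norm S₁ S₂, S34K_W hS C u = S34B_glued e₁ e₂ (fun _ => 1) →
      u ∈ Triv) :
    S34K_Datum F k ↥C.Rb₁ ↥C.Rb₂ ι where
  e₁ := e₁
  e₂ := e₂
  hE := hE
  Kp := Kum ∩ S34K_Norm S₁ S₂
  Triv := Triv
  W := S34K_W hS C
  c := fun u => open Classical in
    if h : u ∈ Kum ∩ S34K_Norm S₁ S₂ then (hex u h).choose else fun _ => 1
  one_mem := ⟨hK1, S34K_one_mem_Norm⟩
  mul_mem := fun u hu v hv => ⟨hKmul u hu.1 v hv.1, S34K_mul_mem_Norm hu.2 hv.2⟩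
  inv_mem := fun u hu => ⟨hKinv u hu.1, S34K_inv_mem_Norm hu.2⟩
  ne_zero := fun u hu => S34K_ne_zero_of_Norm hu.2
  hW := by
    intro u hu
    rw [dif_pos hu]
    exact (hex u hu).choose_spec
  one_mem_W := S34K_one_mem_W hS C
  mul_mem_W := fun _ _ _ _ _ hm _ hm' => S34K_mul_mem_W hS C hm hm'
  inj := by
    intro u hu h1
    apply hinj u hu
    have h := (hex u hu).choose_spec
    rw [dif_pos hu] at h1
    have e : (hex u hu).choose = fun _ => 1 := funext h1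
    rw [e] at h
    exact h

end Fermat.Agent.S34
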