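import Mathlib
import Fermat.Agent.S18.LiftVal
import Fermat.Agent.S18.Gauss

/-!
# TRACK 7, package LAT (helper4): abstract lattice theory for a "norm" with residue RING

`S34L_Lat L F k R`: a valuation ring `A ⊂ L` with residue map `res : A → k`, a SUBRING `O ⊂ F`
(the unit ball, e.g. `O₁ ∩ O₂` for two valuation rings of `F`) and a reduction map
`red : O → R` into a `k`-algebra `R` (e.g. `Fk₁ × Fk₂`) extending `res`, such that elements with
unit reduction are units.  This is `S18_Val` with "valuation ring / residue field" weakened to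
"subring / residue ring"; the lattice lemmas of `S18/LiftVal`, `S18/LiftCart` hold verbatim.

Main results (all for `S : S34L_Lat L F k R`):
* `S34L_Lat.mem_A_of_sum_mem`        : a family of `O` with `k`-independent reductions is orthonormal;
* `S34L_Lat.linearIndependent_of_red`: ... and `L`-linearly independent;
* `S34L_Lat.redSub V`                : the reduction of `V ∩ O`, a `k`-subspace of `R`;
* `S34L_Lat.finrank_redSub_of_basis` : `dim_k red (V ∩ O) = dim_L V` if `V` has an orthonormal basis;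
* `S34L_Lat.exists_red_basis_of_le_span`: subspaces of the span of an orthonormal family have one;
* `S34L_Lat.IsCart x y` and `IsCart.exists_red_basis`, `IsCart.finrank_redSub`: the cartesian lemma.
-/

set_option autoImplicit false

open Polynomial

namespace Fermat.Agent.S34

open Fermat.Agent.S18

/-- lattice datum: `S18_Val` with a subring `O` and a residue ring `R`. -/
structure S34L_Lat (L F k R : Type*) [Field L] [Field F] [Algebra L F] [Field k] [CommRing R]
    [Algebra k R] where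
  /-- the valuation ring of the base field -/
  A : ValuationSubring L
  /-- its residue map -/
  res : A →+* k
  res_surjective : Function.Surjective res
  res_eq_zero_iff : ∀ a : A, res a = 0 ↔ ¬ IsUnit a
  /-- the unit ball of the big field -/
  O : Subring F
  /-- its reduction map -/
  red : O →+* R
  algebraMap_mem : ∀ a : L, a ∈ A → algebraMap L F a ∈ O
  red_algebraMap : ∀ (a : L) (ha : a ∈ A) (haO : algebraMap L F a ∈ O),
    red ⟨algebraMap L F a, haO⟩ = algebraMap k R (res ⟨a, ha⟩)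
  isUnit_of_red : ∀ x : O, IsUnit (red x) → IsUnit x

variable {L F k R : Type*} [Field L] [Field F] [Algebra L F] [Field k] [CommRing R]
  [Algebra k R]

namespace S34L_Lat

variable (S : S34L_Lat L F k R)


variable (S : S34L_Lat L F k R)

/-- constants of `A` as elements of `O`. -/
def const : S.A →+* S.O where
  toFun a := ⟨algebraMap L F a, S.algebraMap_mem a a.2⟩
  map_one' := by ext; simp
  map_mul' a b := by ext; simp
  map_zero' := by ext; simp
  map_add' a b := by ext; simp

@[simp] theorem coe_const (a : S.A) : ((S.const a : S.O) : F) = algebraMap L F a := rfl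

theorem red_const (a : S.A) : S.red (S.const a) = algebraMap k R (S.res a) :=
  S.red_algebraMap a a.2 _

theorem res_inv_eq_zero {a : L} (ha : a ∉ S.A) (hai : a⁻¹ ∈ S.A) : S.res ⟨a⁻¹, hai⟩ = 0 := by
  rw [S.res_eq_zero_iff]
  rintro ⟨u, hu'⟩
  apply ha
  have ha0 : a ≠ 0 := fun h0 => ha (h0 ▸ S.A.zero_mem)
  have h5 : ((u : S.A) : L) * (((u⁻¹ : S.Aˣ) : S.A) : L) = 1 := by
    exact_mod_cast congrArg (fun z : S.A => (z : L)) u.mul_inv
  have h6 : ((u : S.A) : L) = a⁻¹ := congrArg Subtype.val hu'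
  rw [h6] at h5
  have h7 : (((u⁻¹ : S.Aˣ) : S.A) : L) = a := by
    have := congrArg (fun z => a * z) h5
    simp only [mul_one, ← mul_assoc, mul_inv_cancel₀ ha0, one_mul] at this
    exact this
  rw [← h7]
  exact ((u⁻¹ : S.Aˣ) : S.A).2

/-- reduction of an `A`-linear combination. -/
theorem red_sum {ι : Type*} (s : Finset ι) (c : ι → S.A) (v : ι → S.O) :
    S.red (∑ i ∈ s, S.const (c i) * v i) = ∑ i ∈ s, S.res (c i) • S.red (v i) := by
  rw [map_sum]
  refine Finset.sum_congr rfl fun i _ => ?_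
  rw [map_mul, S.red_const, Algebra.smul_def]

/-- **orthonormality**: a finite family of `O` whose reductions are `k`-linearly independent
is orthonormal: a linear combination is integral iff its coefficients are. -/
theorem mem_A_of_sum_mem {ι : Type*} [Finite ι] (v : ι → S.O)
    (hv : LinearIndependent k (fun i => S.red (v i))) (c : ι → L)
    (h : ∑ᶠ i, algebraMap L F (c i) * (v i : F) ∈ S.O) : ∀ i, c i ∈ S.A := by
  classical
  have := Fintype.ofFinite ι
  rw [finsum_eq_sum_of_fintype] at h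
  by_contra hcon
  push Not at hcon
  obtain ⟨j, hj⟩ := hcon
  have hc0 : c ≠ 0 := by
    rintro rfl
    exact hj S.A.zero_mem
  obtain ⟨i₀, hi₀, hpiv⟩ := S18_L_exists_pivot S.A c hc0
  -- the pivot is not integral
  have hi₀A : c i₀ ∉ S.A := by
    intro hmem
    apply hj
    have := S.A.mul_mem _ _ (hpiv j) hmem
    rwa [div_mul_cancel₀ _ hi₀] at this
  have hinv : (c i₀)⁻¹ ∈ S.A := (S.A.mem_or_inv_mem (c i₀)).resolve_left hi₀A
  set c' : ι → S.A := fun i => ⟨c i / c i₀, hpiv i⟩ with hc'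
  have hsum : (∑ i, S.const (c' i) * v i : S.O) =
      S.const ⟨(c i₀)⁻¹, hinv⟩ * ⟨_, h⟩ := by
    apply Subtype.ext
    push_cast
    simp only [coe_const, hc']
    rw [Finset.mul_sum]
    refine Finset.sum_congr rfl fun i _ => ?_
    rw [map_div₀, map_inv₀]
    ring
  have hred : S.red (∑ i, S.const (c' i) * v i) = 0 := by
    rw [hsum, map_mul, S.red_const, S.res_inv_eq_zero hi₀A hinv, map_zero, zero_mul]
  rw [S.red_sum] at hred
  have := (Fintype.linearIndependent_iff.mp hv) (fun i => S.res (c' i)) hred i₀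
  have h1 : c' i₀ = 1 := by
    apply Subtype.ext
    simp [hc', div_self hi₀]
  rw [h1, map_one] at this
  exact one_ne_zero this

/-- a family of `O` with `k`-independent reductions is `L`-independent. -/
theorem linearIndependent_of_red {ι : Type*} [Finite ι] (v : ι → S.O)
    (hv : LinearIndependent k (fun i => S.red (v i))) :
    LinearIndependent L (fun i => (v i : F)) := by
  classical
  have := Fintype.ofFinite ι
  rw [Fintype.linearIndependent_iff]
  intro c hc
  by_contra hcon
  push Not at hcon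
  have hc0 : c ≠ 0 := by
    rintro rfl
    obtain ⟨i, hi⟩ := hcon
    exact hi rfl
  obtain ⟨i₀, hi₀, hpiv⟩ := S18_L_exists_pivot S.A c hc0
  set c' : ι → S.A := fun i => ⟨c i / c i₀, hpiv i⟩ with hc'
  have hsum : (∑ i, S.const (c' i) * v i : S.O) = 0 := by
    apply Subtype.ext
    push_cast
    simp only [coe_const, hc']
    have : ∑ i, algebraMap L F (c i / c i₀) * (v i : F) =
        algebraMap L F (c i₀)⁻¹ * ∑ i, c i • (v i : F) := by
      rw [Finset.mul_sum]
      refine Finset.sum_congr rfl fun i _ => ?_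
      rw [map_div₀, map_inv₀, Algebra.smul_def]
      ring
    rw [this, hc, mul_zero]
  have hred : S.red (∑ i, S.const (c' i) * v i) = 0 := by rw [hsum, map_zero]
  rw [S.red_sum] at hred
  have := (Fintype.linearIndependent_iff.mp hv) (fun i => S.res (c' i)) hred i₀
  have h1 : c' i₀ = 1 := by
    apply Subtype.ext
    simp [hc', div_self hi₀]
  rw [h1, map_one] at this
  exact one_ne_zero this

/-- the reduction of `V ∩ O`, a `k`-subspace of `R`. -/
def redSub (V : Submodule L F) : Submodule k R where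
  carrier := {w | ∃ f : S.O, (f : F) ∈ V ∧ S.red f = w}
  add_mem' := by
    rintro _ _ ⟨f, hf, rfl⟩ ⟨g, hg, rfl⟩
    exact ⟨f + g, V.add_mem hf hg, map_add _ _ _⟩
  zero_mem' := ⟨0, V.zero_mem, map_zero _⟩
  smul_mem' := by
    rintro γ _ ⟨f, hf, rfl⟩
    obtain ⟨a, rfl⟩ := S.res_surjective γ
    refine ⟨S.const a * f, ?_, ?_⟩
    · have : ((S.const a * f : S.O) : F) = (a : L) • (f : F) := by
        rw [Algebra.smul_def]; rfl
      rw [this]
      exact V.smul_mem _ hf
    · rw [map_mul, S.red_const, Algebra.smul_def]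

theorem mem_redSub {V : Submodule L F} {w : R} :
    w ∈ S.redSub V ↔ ∃ f : S.O, (f : F) ∈ V ∧ S.red f = w := Iff.rfl

/-- if `V` has a basis in `O` with independent reductions, then `red (V ∩ O)` is spanned by the
reductions. -/
theorem redSub_eq_span {r : ℕ} (V : Submodule L F) (v : Fin r → S.O)
    (hvV : ∀ b, (v b : F) ∈ V) (hv : LinearIndependent k (fun b => S.red (v b)))
    (hspan : V ≤ Submodule.span L (Set.range fun b => (v b : F))) :
    S.redSub V = Submodule.span k (Set.range fun b => S.red (v b)) := by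
  classical
  apply le_antisymm
  · rintro _ ⟨f, hf, rfl⟩
    have h1 := hspan hf
    rw [Submodule.mem_span_range_iff_exists_fun] at h1
    obtain ⟨c, hc⟩ := h1
    have hcA : ∀ b, c b ∈ S.A := by
      apply S.mem_A_of_sum_mem v hv c
      rw [finsum_eq_sum_of_fintype]
      have : ∑ i, algebraMap L F (c i) * (v i : F) = (f : F) := by
        rw [← hc]
        exact Finset.sum_congr rfl fun i _ => (Algebra.smul_def _ _).symm
      rw [this]
      exact f.2
    have hf' : f = ∑ b, S.const ⟨c b, hcA b⟩ * v b := by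
      apply Subtype.ext
      push_cast
      rw [← hc]
      exact Finset.sum_congr rfl fun i _ => Algebra.smul_def _ _
    rw [hf', S.red_sum]
    exact Submodule.sum_mem _ fun b _ =>
      Submodule.smul_mem _ _ (Submodule.subset_span ⟨b, rfl⟩)
  · rw [Submodule.span_le]
    rintro _ ⟨b, rfl⟩
    exact ⟨v b, hvV b, rfl⟩

/-- ... and its dimension is the dimension of `V`. -/
theorem finrank_redSub_of_basis {r : ℕ} (V : Submodule L F) (v : Fin r → S.O)
    (hvV : ∀ b, (v b : F) ∈ V) (hv : LinearIndependent k (fun b => S.red (v b)))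
    (hspan : V ≤ Submodule.span L (Set.range fun b => (v b : F))) :
    Module.finrank k (S.redSub V) = Module.finrank L V := by
  rw [S.redSub_eq_span V v hvV hv hspan, finrank_span_eq_card hv]
  have hVeq : V = Submodule.span L (Set.range fun b => (v b : F)) :=
    le_antisymm hspan (Submodule.span_le.mpr (by rintro _ ⟨b, rfl⟩; exact hvV b))
  rw [hVeq, finrank_span_eq_card (S.linearIndependent_of_red v hv)]



variable (S : S34L_Lat L F k R)

/-- a subspace of the span of an orthonormal family has an orthonormal basis. -/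
theorem exists_red_basis_of_le_span {I : Type*} [Finite I] (w : I → S.O)
    (hw : LinearIndependent k (fun a => S.red (w a))) (V : Submodule L F)
    (hV : V ≤ Submodule.span L (Set.range fun a => (w a : F))) :
    ∃ (r : ℕ) (v : Fin r → S.O), (∀ b, (v b : F) ∈ V) ∧
      LinearIndependent k (fun b => S.red (v b)) ∧
      V ≤ Submodule.span L (Set.range fun b => (v b : F)) := by
  classical
  have := Fintype.ofFinite I
  set Φ : (I → L) →ₗ[L] F := Fintype.linearCombination L (fun a => (w a : F)) with hΦ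
  have hΦapp : ∀ c : I → S.A, Φ (fun a => ((c a : S.A) : L)) =
      ((∑ a, S.const (c a) * w a : S.O) : F) := by
    intro c
    rw [hΦ, Fintype.linearCombination_apply]
    push_cast
    exact Finset.sum_congr rfl fun a _ => by rw [Algebra.smul_def, coe_const]
  obtain ⟨r, v₀, hv₀V, hv₀ind, hv₀span⟩ := S18_L_subspace_basis S.A S.res (V.comap Φ)
  refine ⟨r, fun b => ∑ a, S.const (v₀ b a) * w a, ?_, ?_, ?_⟩
  · intro b
    have h1 : Φ (fun a => ((v₀ b a : S.A) : L)) ∈ V := hv₀V b
    rwa [hΦapp] at h1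
  · set Φk : (I → k) →ₗ[k] R := Fintype.linearCombination k (fun a => S.red (w a)) with hΦk
    have hker : LinearMap.ker Φk = ⊥ := by
      rw [LinearMap.ker_eq_bot']
      intro c hc
      rw [hΦk, Fintype.linearCombination_apply] at hc
      exact funext (Fintype.linearIndependent_iff.mp hw c hc)
    have h2 := hv₀ind.map' Φk hker
    have h3 : (fun b => S.red (∑ a, S.const (v₀ b a) * w a)) =
        Φk ∘ (fun b => fun a => S.res (v₀ b a)) := by
      funext b
      rw [S.red_sum, Function.comp_apply, hΦk, Fintype.linearCombination_apply]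
    rw [h3]
    exact h2
  · intro g hg
    have hg' := hV hg
    rw [Submodule.mem_span_range_iff_exists_fun] at hg'
    obtain ⟨c, hc⟩ := hg'
    have hΦc : Φ c = g := by
      rw [hΦ, Fintype.linearCombination_apply]
      exact hc
    have hcV : c ∈ V.comap Φ := by
      rw [Submodule.mem_comap, hΦc]
      exact hg
    have h2 : Φ c ∈ (Submodule.span L
        (Set.range fun b => fun a => ((v₀ b a : S.A) : L))).map Φ :=
      Submodule.mem_map_of_mem (hv₀span hcV)
    rw [Submodule.map_span, ← Set.range_comp, hΦc] at h2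
    have h4 : (Φ ∘ fun b => fun a => ((v₀ b a : S.A) : L)) =
        fun b => ((∑ a, S.const (v₀ b a) * w a : S.O) : F) := by
      funext b
      exact hΦapp (v₀ b)
    rw [h4] at h2
    exact h2

/-- **degree preservation**, polynomial form. -/
structure IsCart (x : S.O) {n : ℕ} (y : Fin n → S.O) : Prop where
  unit : ∀ p : k[X], p ≠ 0 → IsUnit (aeval (S.red x) p)
  span : ∀ f : F, ∃ (d : L[X]) (p : Fin n → L[X]), d ≠ 0 ∧
    aeval (x : F) d * f = ∑ i, aeval (x : F) (p i) * (y i : F)
  indep : ∀ p : Fin n → k[X], ∑ i, aeval (S.red x) (p i) * S.red (y i) = 0 → ∀ i, p i = 0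

/-- the integral polynomial `∑ a_j X^j` evaluated at `x`, as an element of `O`. -/
theorem red_sum_pow (x : S.O) (m : ℕ) (a : Fin m → S.A) :
    S.red (∑ j : Fin m, S.const (a j) * x ^ (j : ℕ)) =
      aeval (S.red x) (∑ j : Fin m, C (S.res (a j)) * X ^ (j : ℕ)) := by
  rw [S.red_sum, map_sum]
  refine Finset.sum_congr rfl fun j _ => ?_
  rw [map_mul, aeval_C, map_pow, map_pow, aeval_X, Algebra.smul_def]

/-- the powers of `x` have independent reductions. -/
theorem linearIndependent_pow {x : S.O} (hx : Transcendental k (S.red x)) (m : ℕ) :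
    LinearIndependent k (fun j : Fin m => S.red (x ^ (j : ℕ))) := by
  classical
  rw [Fintype.linearIndependent_iff]
  intro γ hγ j₀
  have h1 : aeval (S.red x) (∑ j : Fin m, C (γ j) * X ^ (j : ℕ)) = 0 := by
    rw [map_sum, ← hγ]
    refine Finset.sum_congr rfl fun j _ => ?_
    rw [map_mul, aeval_C, map_pow, aeval_X, map_pow, Algebra.smul_def]
  have h2 := (transcendental_iff.mp hx) _ h1
  have h3 := congrArg (fun p => p.coeff (j₀ : ℕ)) h2
  simp only [finsetSum_coeff, coeff_C_mul, coeff_X_pow, coeff_zero] at h3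
  rw [Finset.sum_eq_single j₀] at h3
  · simpa using h3
  · intro j _ hj
    have : (j₀ : ℕ) ≠ (j : ℕ) := fun h => hj (Fin.ext h.symm)
    simp [this]
  · intro h
    exact absurd (Finset.mem_univ _) h

/-- **Gauss norm of a polynomial in `x`**: `d(x) = c · u` with `c` a constant and `u` a unit. -/
theorem exists_const_mul_unit_aeval {x : S.O}
    (hx : ∀ p : k[X], p ≠ 0 → IsUnit (aeval (S.red x) p))
    (d : L[X]) (hd : d ≠ 0) :
    ∃ (c : L) (u : S.O), c ≠ 0 ∧ IsUnit (S.red u) ∧
      aeval (x : F) d = algebraMap L F c * (u : F) := by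
  classical
  set m := d.natDegree + 1 with hm
  set f : Fin m → L := fun j => d.coeff j with hf
  have hf0 : f ≠ 0 := by
    intro h
    have := congrFun h ⟨d.natDegree, Nat.lt_succ_self _⟩
    simp only [hf, Pi.zero_apply] at this
    exact hd (leadingCoeff_eq_zero.mp this)
  obtain ⟨j₀, hj₀, hpiv⟩ := S18_L_exists_pivot S.A f hf0
  set a : Fin m → S.A := fun j => ⟨f j / f j₀, hpiv j⟩ with ha
  refine ⟨f j₀, ∑ j : Fin m, S.const (a j) * x ^ (j : ℕ), hj₀, ?_, ?_⟩
  · rw [S.red_sum_pow]
    apply hx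
    intro h2
    have h3 := congrArg (fun p => p.coeff (j₀ : ℕ)) h2
    simp only [finsetSum_coeff, coeff_C_mul, coeff_X_pow, coeff_zero] at h3
    rw [Finset.sum_eq_single j₀] at h3
    · have h1 : a j₀ = 1 := by
        apply Subtype.ext
        simp [ha, div_self hj₀]
      simp [h1] at h3
    · intro j _ hj
      have : (j₀ : ℕ) ≠ (j : ℕ) := fun h => hj (Fin.ext h.symm)
      simp [this]
    · intro h
      exact absurd (Finset.mem_univ _) h
  · rw [aeval_eq_sum_range, Finset.sum_range]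
    push_cast
    rw [Finset.mul_sum]
    refine Finset.sum_congr rfl fun j _ => ?_
    simp only [coe_const, ha, hf, Algebra.smul_def, map_div₀]
    have : algebraMap L F (d.coeff (j₀ : ℕ)) ≠ 0 := by
      simpa using hj₀
    field_simp

variable {S}

/-- the family `x^j y_i`, `i < n`, `j < m`. -/
def cartFam (x : S.O) {n : ℕ} (y : Fin n → S.O) (m : ℕ) : Fin n × Fin m → S.O :=
  fun ij => x ^ (ij.2 : ℕ) * y ij.1

theorem IsCart.linearIndependent_cartFam {x : S.O} {n : ℕ} {y : Fin n → S.O}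
    (hC : S.IsCart x y) (m : ℕ) :
    LinearIndependent k (fun ij => S.red (cartFam x y m ij)) := by
  classical
  rw [Fintype.linearIndependent_iff]
  intro γ hγ ij₀
  have h1 : ∑ i, aeval (S.red x) (∑ j : Fin m, C (γ (i, j)) * X ^ (j : ℕ)) * S.red (y i) = 0 := by
    rw [← hγ, Fintype.sum_prod_type]
    refine Finset.sum_congr rfl fun i _ => ?_
    rw [map_sum, Finset.sum_mul]
    refine Finset.sum_congr rfl fun j _ => ?_
    simp only [cartFam, map_mul, aeval_C, map_pow, aeval_X, Algebra.smul_def]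
    ring
  have h2 := hC.indep _ h1 ij₀.1
  have h3 := congrArg (fun p => p.coeff (ij₀.2 : ℕ)) h2
  simp only [finsetSum_coeff, coeff_C_mul, coeff_X_pow, coeff_zero] at h3
  rw [Finset.sum_eq_single ij₀.2] at h3
  · simpa using h3
  · intro j _ hj
    have : ((ij₀.2 : Fin m) : ℕ) ≠ (j : ℕ) := fun h => hj (Fin.ext h.symm)
    simp [this]
  · intro h
    exact absurd (Finset.mem_univ _) h

/-- `p(x) y_i` lies in the span of the `x^j y_i`, `j < m`, if `deg p < m`. -/
theorem aeval_mul_mem_span_cartFam (x : S.O) {n : ℕ} (y : Fin n → S.O) (m : ℕ)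
    (p : L[X]) (hp : p.natDegree < m) (i : Fin n) :
    aeval (x : F) p * (y i : F) ∈
      Submodule.span L (Set.range fun ij => (cartFam x y m ij : F)) := by
  rw [aeval_eq_sum_range, Finset.sum_mul]
  refine Submodule.sum_mem _ fun j hj => ?_
  rw [smul_mul_assoc]
  refine Submodule.smul_mem _ _ (Submodule.subset_span ?_)
  have hjm : j < m := lt_of_le_of_lt (Nat.lt_succ_iff.mp (Finset.mem_range.mp hj)) hp
  exact ⟨(i, ⟨j, hjm⟩), by simp [cartFam]⟩

/-- a finite-dimensional subspace has a common denominator and a degree bound. -/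
theorem IsCart.exists_denominator {x : S.O} {n : ℕ} {y : Fin n → S.O} (hC : S.IsCart x y)
    (V : Submodule L F) [FiniteDimensional L V] :
    ∃ (d : L[X]) (m : ℕ), d ≠ 0 ∧ ∀ f ∈ V, aeval (x : F) d * f ∈
      Submodule.span L (Set.range fun ij => (cartFam x y m ij : F)) := by
  classical
  obtain ⟨s, hs⟩ : V.FG := (Submodule.fg_iff_finiteDimensional V).mpr inferInstance
  choose d p hd hdp using hC.span
  set D : L[X] := ∏ f ∈ s, d f with hD
  have hD0 : D ≠ 0 := Finset.prod_ne_zero_iff.mpr fun f _ => hd f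
  set m : ℕ := (s.sup fun f => Finset.univ.sup fun i =>
    ((∏ g ∈ s.erase f, d g) * p f i).natDegree) + 1 with hm
  refine ⟨D, m, hD0, ?_⟩
  have hsub : (s : Set F) ⊆ (Submodule.comap (LinearMap.mulLeft L (aeval (x : F) D))
      (Submodule.span L (Set.range fun ij => (cartFam x y m ij : F))) : Set F) := by
    intro f hf
    have hf' : f ∈ s := hf
    rw [SetLike.mem_coe, Submodule.mem_comap, LinearMap.mulLeft_apply]
    have h1 : aeval (x : F) D * f =
        ∑ i, aeval (x : F) ((∏ g ∈ s.erase f, d g) * p f i) * (y i : F) := by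
      rw [hD, ← Finset.mul_prod_erase s d hf', map_mul, mul_comm (aeval (x : F) (d f)),
        mul_assoc, hdp f, Finset.mul_sum]
      refine Finset.sum_congr rfl fun i _ => ?_
      rw [map_mul, mul_assoc]
    rw [h1]
    refine Submodule.sum_mem _ fun i _ => aeval_mul_mem_span_cartFam x y m _ ?_ i
    rw [hm, Nat.lt_succ_iff]
    have h2 : ((∏ g ∈ s.erase f, d g) * p f i).natDegree ≤
        Finset.univ.sup fun i => ((∏ g ∈ s.erase f, d g) * p f i).natDegree :=
      Finset.le_sup (f := fun i => ((∏ g ∈ s.erase f, d g) * p f i).natDegree)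
        (Finset.mem_univ i)
    exact h2.trans (Finset.le_sup (f := fun f => Finset.univ.sup fun i =>
      ((∏ g ∈ s.erase f, d g) * p f i).natDegree) hf')
  intro f hf
  rw [← hs] at hf
  exact (Submodule.span_le.mpr hsub) hf

/-- **L1, the cartesian lemma**: every finite-dimensional subspace of `F` has a basis in `O`
whose reductions are `k`-linearly independent. -/
theorem IsCart.exists_red_basis {x : S.O} {n : ℕ} {y : Fin n → S.O} (hC : S.IsCart x y)
    (V : Submodule L F) [FiniteDimensional L V] :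
    ∃ (r : ℕ) (v : Fin r → S.O), (∀ b, (v b : F) ∈ V) ∧
      LinearIndependent k (fun b => S.red (v b)) ∧
      V ≤ Submodule.span L (Set.range fun b => (v b : F)) := by
  classical
  obtain ⟨d, m, hd0, hdV⟩ := hC.exists_denominator V
  obtain ⟨c, u, hc0, hu, hcu⟩ := S.exists_const_mul_unit_aeval hC.unit d hd0
  have huU : IsUnit u := S.isUnit_of_red u hu
  obtain ⟨uu, rfl⟩ := huU
  have hinv : (((uu⁻¹ : S.Oˣ) : S.O) : F) * ((uu : S.O) : F) = 1 := by
    have h := congrArg (fun z : S.O => (z : F)) uu.inv_mul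
    exact h
  -- `V' = u • V`
  set V' : Submodule L F := V.map (LinearMap.mulLeft L ((uu : S.O) : F)) with hV'
  have hV'le : V' ≤ Submodule.span L (Set.range fun ij => (cartFam x y m ij : F)) := by
    rintro _ ⟨f, hf, rfl⟩
    have h1 := hdV f hf
    rw [hcu] at h1
    have h2 := Submodule.smul_mem _ c⁻¹ h1
    rw [LinearMap.mulLeft_apply]
    convert h2 using 1
    rw [Algebra.smul_def, ← mul_assoc, ← mul_assoc, ← map_mul, inv_mul_cancel₀ hc0, map_one,
      one_mul]
  obtain ⟨r, v', hv'V, hv'ind, hv'span⟩ :=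
    S.exists_red_basis_of_le_span (cartFam x y m) (hC.linearIndependent_cartFam m) V' hV'le
  refine ⟨r, fun b => ((uu⁻¹ : S.Oˣ) : S.O) * v' b, ?_, ?_, ?_⟩
  · intro b
    obtain ⟨f, hf, hfv⟩ := hv'V b
    rw [LinearMap.mulLeft_apply] at hfv
    have : ((((uu⁻¹ : S.Oˣ) : S.O) * v' b : S.O) : F) = f := by
      push_cast
      rw [← hfv, ← mul_assoc, hinv, one_mul]
    rw [this]
    exact hf
  · have h1 : (fun b => S.red (((uu⁻¹ : S.Oˣ) : S.O) * v' b)) =
        (LinearMap.mulLeft k (S.red ((uu⁻¹ : S.Oˣ) : S.O))) ∘ fun b => S.red (v' b) := by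
      funext b
      simp [map_mul]
    rw [h1]
    refine hv'ind.map' _ ?_
    rw [LinearMap.ker_eq_bot']
    intro w hw
    rw [LinearMap.mulLeft_apply] at hw
    have hU : IsUnit (S.red ((uu⁻¹ : S.Oˣ) : S.O)) := (uu⁻¹).isUnit.map S.red
    exact (hU.mul_right_eq_zero).mp hw
  · intro g hg
    have h1 : ((uu : S.O) : F) * g ∈ V' := ⟨g, hg, rfl⟩
    have h2 := hv'span h1
    have h3 := Submodule.mem_map_of_mem (f := LinearMap.mulLeft L (((uu⁻¹ : S.Oˣ) : S.O) : F)) h2
    rw [Submodule.map_span, ← Set.range_comp, LinearMap.mulLeft_apply, ← mul_assoc, hinv,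
      one_mul] at h3
    have h4 : ((LinearMap.mulLeft L (((uu⁻¹ : S.Oˣ) : S.O) : F)) ∘ fun b => ((v' b : S.O) : F)) =
        fun b => ((((uu⁻¹ : S.Oˣ) : S.O) * v' b : S.O) : F) := by
      funext b
      simp
    rw [h4] at h3
    exact h3

/-- **L1**: `dim_k red (V ∩ O) = dim_L V`. -/
theorem IsCart.finrank_redSub {x : S.O} {n : ℕ} {y : Fin n → S.O} (hC : S.IsCart x y)
    (V : Submodule L F) [FiniteDimensional L V] :
    Module.finrank k (S.redSub V) = Module.finrank L V := by
  obtain ⟨r, v, hvV, hv, hspan⟩ := hC.exists_red_basis V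
  exact S.finrank_redSub_of_basis V v hvV hv hspan

/-- `red (V ∩ O)` is finite-dimensional. -/
theorem IsCart.finite_redSub {x : S.O} {n : ℕ} {y : Fin n → S.O} (hC : S.IsCart x y)
    (V : Submodule L F) [FiniteDimensional L V] : Module.Finite k (S.redSub V) := by
  obtain ⟨r, v, hvV, hv, hspan⟩ := hC.exists_red_basis V
  rw [S.redSub_eq_span V v hvV hv hspan]
  exact FiniteDimensional.span_of_finite k (Set.finite_range _)


/-- the reduction of `x` is transcendental (if `R` is nontrivial). -/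
theorem IsCart.transc [Nontrivial R] {x : S.O} {n : ℕ} {y : Fin n → S.O} (hC : S.IsCart x y) :
    Transcendental k (S.red x) := by
  rw [transcendental_iff]
  intro p hp
  by_contra h0
  have := hC.unit p h0
  rw [hp] at this
  exact not_isUnit_zero this

/-- **normalisation**: every `f ≠ 0` is `c · g` with `c ∈ Lˣ`, `g ∈ O`, `red g ≠ 0`. -/
theorem IsCart.exists_const_mul {x : S.O} {n : ℕ} {y : Fin n → S.O} (hC : S.IsCart x y)
    (f : F) (hf : f ≠ 0) :
    ∃ (c : L) (g : S.O), c ≠ 0 ∧ S.red g ≠ 0 ∧ f = algebraMap L F c * (g : F) := by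
  classical
  have : FiniteDimensional L (Submodule.span L {f}) :=
    FiniteDimensional.span_of_finite L (Set.finite_singleton f)
  obtain ⟨r, v, hvV, hv, hspan⟩ := hC.exists_red_basis (Submodule.span L {f})
  have hfV : f ∈ Submodule.span L {f} := Submodule.mem_span_singleton_self f
  have hr : 0 < r := by
    rcases Nat.eq_zero_or_pos r with h | h
    · exfalso
      subst h
      have h1 := hspan hfV
      have h2 : (Set.range fun b : Fin 0 => ((v b : S.O) : F)) = ∅ := Set.range_eq_empty _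
      rw [h2, Submodule.span_empty, Submodule.mem_bot] at h1
      exact hf h1
    · exact h
  obtain ⟨c, hc⟩ := Submodule.mem_span_singleton.mp (hvV ⟨0, hr⟩)
  have hv0 : S.red (v ⟨0, hr⟩) ≠ 0 := hv.ne_zero ⟨0, hr⟩
  have hc0 : c ≠ 0 := by
    rintro rfl
    rw [zero_smul] at hc
    apply hv0
    have : v ⟨0, hr⟩ = 0 := Subtype.ext hc.symm
    rw [this, map_zero]
  refine ⟨c⁻¹, v ⟨0, hr⟩, inv_ne_zero hc0, hv0, ?_⟩
  rw [← hc, Algebra.smul_def, ← mul_assoc, ← map_mul, inv_mul_cancel₀ hc0, map_one, one_mul]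

/-- **the kernel of `red` is `𝔪_A · O`**: an element of `O` with zero reduction is a non-unit
constant times an element of `O` with nonzero reduction (or is zero). -/
theorem IsCart.exists_nonunit_mul {x : S.O} {n : ℕ} {y : Fin n → S.O} (hC : S.IsCart x y)
    (f : S.O) (hf0 : (f : F) ≠ 0) (hf : S.red f = 0) :
    ∃ (c : S.A) (g : S.O), ¬ IsUnit c ∧ S.red g ≠ 0 ∧ f = S.const c * g := by
  classical
  obtain ⟨c, g, hc0, hg, hfg⟩ := hC.exists_const_mul (f : F) hf0
  -- `c ∈ A`, by orthonormality of the one-element family `g`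
  have hind : LinearIndependent k (fun _ : Fin 1 => S.red g) := by
    rw [Fintype.linearIndependent_iff]
    intro γ hγ i
    have hi : i = 0 := Subsingleton.elim _ _
    subst hi
    simp only [Finset.univ_unique, Fin.default_eq_zero, Finset.sum_singleton] at hγ
    by_contra hne
    apply hg
    have h1 := congrArg (fun z => (γ 0)⁻¹ • z) hγ
    simpa [smul_smul, inv_mul_cancel₀ hne] using h1
  have hcA : c ∈ S.A := by
    have := S.mem_A_of_sum_mem (fun _ : Fin 1 => g) hind (fun _ => c) (by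
      rw [finsum_eq_sum_of_fintype]
      simp only [Finset.univ_unique, Fin.default_eq_zero, Finset.sum_singleton]
      rw [← hfg]
      exact f.2)
    exact this 0
  refine ⟨⟨c, hcA⟩, g, ?_, hg, Subtype.ext (by simpa using hfg)⟩
  rw [← S.res_eq_zero_iff]
  have h2 : f = S.const ⟨c, hcA⟩ * g := Subtype.ext (by simpa using hfg)
  rw [h2, map_mul, S.red_const, ← Algebra.smul_def] at hf
  by_contra hne
  apply hg
  have h1 := congrArg (fun z => (S.res ⟨c, hcA⟩)⁻¹ • z) hf
  simpa [smul_smul, inv_mul_cancel₀ hne] using h1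

end S34L_Lat

section Constructors

variable {Fk Fk₁ Fk₂ : Type*} [Field Fk] [Algebra k Fk] [Field Fk₁] [Algebra k Fk₁]
  [Field Fk₂] [Algebra k Fk₂]

/-- the lattice datum of one valuation. -/
def S34L_ofVal (S : S18_Val L F k Fk) : S34L_Lat L F k Fk where
  A := S.A
  res := S.res
  res_surjective := S.res_surjective
  res_eq_zero_iff := S.res_eq_zero_iff
  O := S.O.toSubring
  red := S.red
  algebraMap_mem a ha := (S.algebraMap_mem_iff a).2 ha
  red_algebraMap := S.red_algebraMap
  isUnit_of_red x hx := (S.red_ne_zero_iff x).1 hx.ne_zero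

/-- an element of a valuation ring with nonzero reduction has its inverse in the ring. -/
theorem S34L_inv_mem_of_red_ne_zero (S : S18_Val L F k Fk) (x : S.O) (hx : S.red x ≠ 0) :
    ((x : F))⁻¹ ∈ S.O := by
  obtain ⟨u, hu⟩ := (S.red_ne_zero_iff x).1 hx
  have h1 : ((u : S.O) : F) * (((u⁻¹ : S.Oˣ) : S.O) : F) = 1 := by
    exact_mod_cast congrArg (fun z : S.O => (z : F)) u.mul_inv
  have h2 : ((u : S.O) : F) = (x : F) := congrArg Subtype.val hu
  rw [h2] at h1
  have h3 : ((x : F))⁻¹ = (((u⁻¹ : S.Oˣ) : S.O) : F) :=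
    inv_eq_of_mul_eq_one_right h1
  rw [h3]
  exact ((u⁻¹ : S.Oˣ) : S.O).2

/-- **the two-valuation lattice datum**: `O = O₁ ∩ O₂`, `red = (red₁, red₂)`. -/
def S34L_ofPair (S₁ : S18_Val L F k Fk₁) (S₂ : S18_Val L F k Fk₂) (hA : S₁.A = S₂.A)
    (hres : ∀ (a : L) (h₁ : a ∈ S₁.A) (h₂ : a ∈ S₂.A), S₁.res ⟨a, h₁⟩ = S₂.res ⟨a, h₂⟩) :
    S34L_Lat L F k (Fk₁ × Fk₂) where
  A := S₁.A
  res := S₁.res
  res_surjective := S₁.res_surjective
  res_eq_zero_iff := S₁.res_eq_zero_iff
  O := S₁.O.toSubring ⊓ S₂.O.toSubring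
  red :=
    { toFun := fun x => (S₁.red ⟨x.1, x.2.1⟩, S₂.red ⟨x.1, x.2.2⟩)
      map_one' := by
        refine Prod.ext ?_ ?_
        · exact map_one S₁.red
        · exact map_one S₂.red
      map_mul' := by
        intro x y
        refine Prod.ext ?_ ?_
        · exact map_mul S₁.red ⟨x.1, x.2.1⟩ ⟨y.1, y.2.1⟩
        · exact map_mul S₂.red ⟨x.1, x.2.2⟩ ⟨y.1, y.2.2⟩
      map_zero' := by
        refine Prod.ext ?_ ?_
        · exact map_zero S₁.red
        · exact map_zero S₂.red
      map_add' := by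
        intro x y
        refine Prod.ext ?_ ?_
        · exact map_add S₁.red ⟨x.1, x.2.1⟩ ⟨y.1, y.2.1⟩
        · exact map_add S₂.red ⟨x.1, x.2.2⟩ ⟨y.1, y.2.2⟩ }
  algebraMap_mem a ha :=
    ⟨(S₁.algebraMap_mem_iff a).2 ha, (S₂.algebraMap_mem_iff a).2 (hA ▸ ha)⟩
  red_algebraMap a ha haO := by
    refine Prod.ext ?_ ?_
    · exact S₁.red_algebraMap a ha haO.1
    · have h2 : a ∈ S₂.A := hA ▸ ha
      have := S₂.red_algebraMap a h2 haO.2
      rw [← hres a ha h2] at this
      exact this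
  isUnit_of_red x hx := by
    have hx' := (Prod.isUnit_iff.mp hx)
    have h1 : S₁.red ⟨x.1, x.2.1⟩ ≠ 0 := hx'.1.ne_zero
    have h2 : S₂.red ⟨x.1, x.2.2⟩ ≠ 0 := hx'.2.ne_zero
    have hi1 := S34L_inv_mem_of_red_ne_zero S₁ _ h1
    have hi2 := S34L_inv_mem_of_red_ne_zero S₂ _ h2
    have hx0 : (x : F) ≠ 0 := by
      intro h0
      apply h1
      have : (⟨x.1, x.2.1⟩ : S₁.O) = 0 := Subtype.ext h0
      rw [this, map_zero]
    refine ⟨⟨x, ⟨(x : F)⁻¹, hi1, hi2⟩, ?_, ?_⟩, rfl⟩
    · exact Subtype.ext (mul_inv_cancel₀ hx0)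
    · exact Subtype.ext (inv_mul_cancel₀ hx0)

variable (S₁ : S18_Val L F k Fk₁) (S₂ : S18_Val L F k Fk₂) (hA : S₁.A = S₂.A)
  (hres : ∀ (a : L) (h₁ : a ∈ S₁.A) (h₂ : a ∈ S₂.A), S₁.res ⟨a, h₁⟩ = S₂.res ⟨a, h₂⟩)

theorem S34L_ofPair_A : (S34L_ofPair S₁ S₂ hA hres).A = S₁.A := rfl

theorem S34L_ofPair_res : (S34L_ofPair S₁ S₂ hA hres).res = S₁.res := rfl

theorem S34L_mem_ofPair_O {f : F} :
    f ∈ (S34L_ofPair S₁ S₂ hA hres).O ↔ f ∈ S₁.O ∧ f ∈ S₂.O := Iff.rfl

theorem S34L_ofPair_red (x : (S34L_ofPair S₁ S₂ hA hres).O) :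
    (S34L_ofPair S₁ S₂ hA hres).red x = (S₁.red ⟨x.1, x.2.1⟩, S₂.red ⟨x.1, x.2.2⟩) := rfl

/-- the `unit` field of `IsCart` for a pair: both reductions of `x` are transcendental. -/
theorem S34L_isUnit_aeval_pair {a : Fk₁} {b : Fk₂} (ha : Transcendental k a)
    (hb : Transcendental k b) (p : k[X]) (hp : p ≠ 0) :
    IsUnit (aeval ((a, b) : Fk₁ × Fk₂) p) := by
  have h1 : aeval ((a, b) : Fk₁ × Fk₂) p = (aeval a p, aeval b p) := by
    refine Prod.ext ?_ ?_
    · have := Polynomial.aeval_algHom_apply (AlgHom.fst k Fk₁ Fk₂) ((a, b) : Fk₁ × Fk₂) p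
      simpa using this.symm
    · have := Polynomial.aeval_algHom_apply (AlgHom.snd k Fk₁ Fk₂) ((a, b) : Fk₁ × Fk₂) p
      simpa using this.symm
  rw [h1, Prod.isUnit_iff]
  refine ⟨isUnit_iff_ne_zero.mpr ?_, isUnit_iff_ne_zero.mpr ?_⟩
  · intro h0
    exact hp ((transcendental_iff.mp ha) p h0)
  · intro h0
    exact hp ((transcendental_iff.mp hb) p h0)

end Constructors

section Operations

variable {R₁ R₂ : Type*} [CommRing R₁] [Algebra k R₁] [CommRing R₂] [Algebra k R₂]

/-- an element of the unit ball with unit reduction has an inverse in the unit ball. -/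
theorem S34L_Lat.exists_mul_eq_one (S : S34L_Lat L F k R) (x : S.O) (hx : IsUnit (S.red x)) :
    ∃ y : S.O, (x : F) * (y : F) = 1 := by
  obtain ⟨u, hu⟩ := S.isUnit_of_red x hx
  refine ⟨((u⁻¹ : S.Oˣ) : S.O), ?_⟩
  have h1 : ((u : S.O) : F) * (((u⁻¹ : S.Oˣ) : S.O) : F) = 1 := by
    exact_mod_cast congrArg (fun z : S.O => (z : F)) u.mul_inv
  rw [← hu]
  exact h1

/-- **transport along an automorphism**: `O' = {f : w f ∈ O}`, `red' = red ∘ w`
(for a valuation `V`: the datum of `V ∘ w`). -/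
def S34L_Lat.comap (S : S34L_Lat L F k R) (w : F ≃ₐ[L] F) : S34L_Lat L F k R where
  A := S.A
  res := S.res
  res_surjective := S.res_surjective
  res_eq_zero_iff := S.res_eq_zero_iff
  O := S.O.comap (w : F →+* F)
  red :=
    { toFun := fun x => S.red ⟨w x.1, x.2⟩
      map_one' := by
        have : (⟨w (1 : F), (1 : S.O.comap (w : F →+* F)).2⟩ : S.O) = 1 :=
          Subtype.ext (map_one w)
        rw [← map_one S.red, ← this]
        rfl
      map_mul' := by
        intro x y
        rw [← map_mul]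
        exact congrArg S.red (Subtype.ext (map_mul w _ _))
      map_zero' := by
        have : (⟨w (0 : F), (0 : S.O.comap (w : F →+* F)).2⟩ : S.O) = 0 :=
          Subtype.ext (map_zero w)
        rw [← map_zero S.red, ← this]
        rfl
      map_add' := by
        intro x y
        rw [← map_add]
        exact congrArg S.red (Subtype.ext (map_add w _ _)) }
  algebraMap_mem a ha := by
    show w (algebraMap L F a) ∈ S.O
    rw [AlgEquiv.commutes]
    exact S.algebraMap_mem a ha
  red_algebraMap a ha haO := by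
    show S.red ⟨w (algebraMap L F a), haO⟩ = _
    have h1 : (⟨w (algebraMap L F a), haO⟩ : S.O) =
        ⟨algebraMap L F a, S.algebraMap_mem a ha⟩ := Subtype.ext (AlgEquiv.commutes w a)
    rw [h1]
    exact S.red_algebraMap a ha _
  isUnit_of_red x hx := by
    obtain ⟨y, hy⟩ := S.exists_mul_eq_one ⟨w x.1, x.2⟩ hx
    have hy' : w (w.symm (y : F)) ∈ S.O := by
      rw [AlgEquiv.apply_symm_apply]
      exact y.2
    have h1 : (x : F) * w.symm (y : F) = 1 := by
      apply w.injective
      rw [map_mul, AlgEquiv.apply_symm_apply, map_one]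
      exact hy
    refine ⟨⟨x, ⟨w.symm (y : F), hy'⟩, Subtype.ext h1, Subtype.ext ?_⟩, rfl⟩
    rw [Subring.coe_mul, mul_comm]
    exact h1

theorem S34L_Lat.mem_comap_O (S : S34L_Lat L F k R) (w : F ≃ₐ[L] F) {f : F} :
    f ∈ (S.comap w).O ↔ w f ∈ S.O := Iff.rfl

theorem S34L_Lat.comap_red (S : S34L_Lat L F k R) (w : F ≃ₐ[L] F) (x : (S.comap w).O) :
    (S.comap w).red x = S.red ⟨w x.1, x.2⟩ := rfl

theorem S34L_Lat.comap_A (S : S34L_Lat L F k R) (w : F ≃ₐ[L] F) : (S.comap w).A = S.A := rfl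

theorem S34L_Lat.comap_res (S : S34L_Lat L F k R) (w : F ≃ₐ[L] F) :
    (S.comap w).res = S.res := rfl

/-- **product of two lattice data with the same base**: `O = O₁ ∩ O₂`, `red = (red₁, red₂)`. -/
def S34L_Lat.prod (S₁ : S34L_Lat L F k R₁) (S₂ : S34L_Lat L F k R₂) (hA : S₁.A = S₂.A)
    (hres : ∀ (a : L) (h₁ : a ∈ S₁.A) (h₂ : a ∈ S₂.A), S₁.res ⟨a, h₁⟩ = S₂.res ⟨a, h₂⟩) :
    S34L_Lat L F k (R₁ × R₂) where
  A := S₁.A
  res := S₁.res
  res_surjective := S₁.res_surjective
  res_eq_zero_iff := S₁.res_eq_zero_iff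
  O := S₁.O ⊓ S₂.O
  red :=
    { toFun := fun x => (S₁.red ⟨x.1, x.2.1⟩, S₂.red ⟨x.1, x.2.2⟩)
      map_one' := by
        refine Prod.ext ?_ ?_
        · exact map_one S₁.red
        · exact map_one S₂.red
      map_mul' := by
        intro x y
        refine Prod.ext ?_ ?_
        · exact map_mul S₁.red ⟨x.1, x.2.1⟩ ⟨y.1, y.2.1⟩
        · exact map_mul S₂.red ⟨x.1, x.2.2⟩ ⟨y.1, y.2.2⟩
      map_zero' := by
        refine Prod.ext ?_ ?_
        · exact map_zero S₁.red
        · exact map_zero S₂.red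
      map_add' := by
        intro x y
        refine Prod.ext ?_ ?_
        · exact map_add S₁.red ⟨x.1, x.2.1⟩ ⟨y.1, y.2.1⟩
        · exact map_add S₂.red ⟨x.1, x.2.2⟩ ⟨y.1, y.2.2⟩ }
  algebraMap_mem a ha := ⟨S₁.algebraMap_mem a ha, S₂.algebraMap_mem a (hA ▸ ha)⟩
  red_algebraMap a ha haO := by
    refine Prod.ext ?_ ?_
    · exact S₁.red_algebraMap a ha haO.1
    · have h2 : a ∈ S₂.A := hA ▸ ha
      have := S₂.red_algebraMap a h2 haO.2
      rw [← hres a ha h2] at this
      exact this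
  isUnit_of_red x hx := by
    have hx' := (Prod.isUnit_iff.mp hx)
    obtain ⟨y₁, hy₁⟩ := S₁.exists_mul_eq_one ⟨x.1, x.2.1⟩ hx'.1
    obtain ⟨y₂, hy₂⟩ := S₂.exists_mul_eq_one ⟨x.1, x.2.2⟩ hx'.2
    have hx0 : (x : F) ≠ 0 := by
      intro h0
      simp only [h0, zero_mul] at hy₁
      exact zero_ne_one hy₁
    have h12 : (y₁ : F) = (y₂ : F) := by
      have h1 : (y₁ : F) = (x : F)⁻¹ := eq_inv_of_mul_eq_one_right hy₁
      have h2 : (y₂ : F) = (x : F)⁻¹ := eq_inv_of_mul_eq_one_right hy₂
      rw [h1, h2]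
    refine ⟨⟨x, ⟨(y₁ : F), y₁.2, h12 ▸ y₂.2⟩, Subtype.ext hy₁, Subtype.ext ?_⟩, rfl⟩
    rw [Subring.coe_mul, mul_comm]
    exact hy₁

theorem S34L_Lat.mem_prod_O (S₁ : S34L_Lat L F k R₁) (S₂ : S34L_Lat L F k R₂) (hA : S₁.A = S₂.A)
    (hres : ∀ (a : L) (h₁ : a ∈ S₁.A) (h₂ : a ∈ S₂.A), S₁.res ⟨a, h₁⟩ = S₂.res ⟨a, h₂⟩)
    {f : F} : f ∈ (S₁.prod S₂ hA hres).O ↔ f ∈ S₁.O ∧ f ∈ S₂.O := Iff.rfl

theorem S34L_Lat.prod_red (S₁ : S34L_Lat L F k R₁) (S₂ : S34L_Lat L F k R₂) (hA : S₁.A = S₂.A)
    (hres : ∀ (a : L) (h₁ : a ∈ S₁.A) (h₂ : a ∈ S₂.A), S₁.res ⟨a, h₁⟩ = S₂.res ⟨a, h₂⟩)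
    (x : (S₁.prod S₂ hA hres).O) :
    (S₁.prod S₂ hA hres).red x = (S₁.red ⟨x.1, x.2.1⟩, S₂.red ⟨x.1, x.2.2⟩) := rfl

/-- **the datum of `(V, V ∘ w)`**: `O = {f : f ∈ O₁, w f ∈ O₁}`, `red f = (red₁ f, red₁ (w f))`. -/
def S34L_Lat.double (S : S34L_Lat L F k R) (w : F ≃ₐ[L] F) : S34L_Lat L F k (R × R) :=
  S.prod (S.comap w) rfl (fun _ _ _ => rfl)

theorem S34L_Lat.mem_double_O (S : S34L_Lat L F k R) (w : F ≃ₐ[L] F) {f : F} :
    f ∈ (S.double w).O ↔ f ∈ S.O ∧ w f ∈ S.O := Iff.rfl

theorem S34L_Lat.double_red (S : S34L_Lat L F k R) (w : F ≃ₐ[L] F) (x : (S.double w).O) :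
    (S.double w).red x = (S.red ⟨x.1, x.2.1⟩, S.red ⟨w x.1, x.2.2⟩) := rfl

theorem S34L_Lat.double_A (S : S34L_Lat L F k R) (w : F ≃ₐ[L] F) : (S.double w).A = S.A := rfl

theorem S34L_Lat.double_res (S : S34L_Lat L F k R) (w : F ≃ₐ[L] F) :
    (S.double w).res = S.res := rfl

end Operations

end Fermat.Agent.S34
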