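/-
TRACK 7 "NODE" (S34 + S35), package POLE, part 3 (helper2): the COUNTS on the grid.
* `S34P_finrank_grid`  (POLE-2): `dim_k red(L(E(a,b) + D) ∩ O) = (a+b)·deg(x)_∞ + 1 − g_F`  (`a + b ≥ m₀`);
* `S34P_finrank_prod`  (POLE-3): `dim_k L(Ē₁(a,b)) × L(Ē₂(a,b)) = (a+b)(d₁ + d₂) + 2 − g₁ − g₂`;
* `S34P_codim`         (POLE-4): `dim R̄(Ē) = dim W^y(E) + (g_F + 1 − g₁ − g₂)`;
* bridge to helper4's lattice datum `S34L_ofPair`.
-/
import Mathlib
import Fermat.Agent.S34.Pole2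
import Fermat.Agent.S34.Lat

set_option autoImplicit false

open AlgebraicCurve IntermediateField

namespace Fermat.Agent.S34

open Fermat.Agent.Lib Fermat.Agent.S24 Fermat.Agent.S18

/-! ### `Submodule.prod` -/

section Prod

variable {k V₁ V₂ : Type*} [Field k] [AddCommGroup V₁] [Module k V₁] [AddCommGroup V₂]
  [Module k V₂]

/-- `p.prod q ≃ p × q`. -/
def S34P_prodEquiv (p : Submodule k V₁) (q : Submodule k V₂) : (p.prod q) ≃ₗ[k] (p × q) where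
  toFun w := (⟨w.1.1, w.2.1⟩, ⟨w.1.2, w.2.2⟩)
  invFun w := ⟨(w.1.1, w.2.1), ⟨w.1.2, w.2.2⟩⟩
  map_add' _ _ := rfl
  map_smul' _ _ := rfl
  left_inv _ := rfl
  right_inv _ := rfl

theorem S34P_finrank_prod_eq (p : Submodule k V₁) (q : Submodule k V₂) [FiniteDimensional k p]
    [FiniteDimensional k q] :
    Module.finrank k (p.prod q) = Module.finrank k p + Module.finrank k q := by
  rw [(S34P_prodEquiv p q).finrank_eq, Module.finrank_prod]

theorem S34P_finite_prod (p : Submodule k V₁) (q : Submodule k V₂) [FiniteDimensional k p]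
    [FiniteDimensional k q] : FiniteDimensional k (p.prod q) :=
  Module.Finite.equiv (S34P_prodEquiv p q).symm

end Prod

/-! ### Riemann on the grid, in one function field -/

section OneField

variable {K E : Type*} [Field K] [Field E] [Algebra K E]

/-- Riemann's theorem on the grid `E(a,b) + D`, `deg D = 0`. -/
theorem S34P_riemann_grid (hE : RR_Hyp K E) (x z : E) (D : Divisor K E) (hD : D.degree = 0)
    (hd : 0 < (RR_poleDiv hE.principal x).degree) :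
    ∃ m₀ : ℕ, ∀ a b : ℕ, m₀ ≤ a + b →
      (Module.finrank K (riemannRochSpace (S34P_E hE.principal x z a b + D)) : ℤ) =
        ((a : ℤ) + b) * (RR_poleDiv hE.principal x).degree + 1 - RR_genus K E := by
  obtain ⟨c, hc⟩ := RR_riemann_eq hE
  refine ⟨c.toNat, fun a b hab => ?_⟩
  have hdeg : (S34P_E hE.principal x z a b + D).degree =
      ((a : ℤ) + b) * (RR_poleDiv hE.principal x).degree := by
    rw [map_add, hD, add_zero, S34P_E_degree]
  have h1 : c ≤ ((a : ℤ) + b) := by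
    have : (c.toNat : ℤ) ≤ ((a + b : ℕ) : ℤ) := by exact_mod_cast hab
    have h2 := Int.self_le_toNat c
    push_cast at this
    linarith
  have h2 : ((a : ℤ) + b) * 1 ≤ ((a : ℤ) + b) * (RR_poleDiv hE.principal x).degree :=
    mul_le_mul_of_nonneg_left (by omega) (by positivity)
  have := hc (S34P_E hE.principal x z a b + D) (by rw [hdeg]; linarith)
  rw [this, hdeg]

end OneField

/-! ### The counts -/

variable {L F k : Type*} [Field L] [Field F] [Algebra L F] [Field k]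

/-- **POLE-2**: the count in `F`, for any lattice datum satisfying the lattice lemma. -/
theorem S34P_finrank_grid {R : Type*} [CommRing R] [Algebra k R] (S : S34L_Lat L F k R)
    (hcount : ∀ V : Submodule L F, FiniteDimensional L V →
      Module.finrank k (S.redSub V) = Module.finrank L V)
    (hF : RR_Hyp L F) (x z : F) (D : Divisor L F) (hD : D.degree = 0)
    (hd : 0 < (RR_poleDiv hF.principal x).degree) :
    ∃ m₀ : ℕ, ∀ a b : ℕ, m₀ ≤ a + b →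
      (Module.finrank k (S.redSub (riemannRochSpace (S34P_E hF.principal x z a b + D))) : ℤ) =
        ((a : ℤ) + b) * (RR_poleDiv hF.principal x).degree + 1 - RR_genus L F := by
  obtain ⟨m₀, hm₀⟩ := S34P_riemann_grid hF x z D hD hd
  refine ⟨m₀, fun a b hab => ?_⟩
  rw [hcount _ (RR_finite hF _)]
  exact hm₀ a b hab

variable {Fk₁ Fk₂ : Type*} [Field Fk₁] [Field Fk₂] [Algebra k Fk₁] [Algebra k Fk₂]

/-- `R̄(Ē(a,b)) = L(Ē₁(a,b)) × L(Ē₂(a,b))`. -/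
noncomputable def S34P_Rbar (hP₁ : HasPrincipalDivisors k Fk₁) (hP₂ : HasPrincipalDivisors k Fk₂)
    (x₁ z₁ : Fk₁) (x₂ z₂ : Fk₂) (a b : ℕ) : Submodule k (Fk₁ × Fk₂) :=
  (riemannRochSpace (S34P_E hP₁ x₁ z₁ a b)).prod (riemannRochSpace (S34P_E hP₂ x₂ z₂ a b))

theorem S34P_Rbar_finite (h₁ : RR_Hyp k Fk₁) (h₂ : RR_Hyp k Fk₂) (x₁ z₁ : Fk₁) (x₂ z₂ : Fk₂)
    (a b : ℕ) : FiniteDimensional k (S34P_Rbar h₁.principal h₂.principal x₁ z₁ x₂ z₂ a b) := by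
  have := RR_finite h₁ (S34P_E h₁.principal x₁ z₁ a b)
  have := RR_finite h₂ (S34P_E h₂.principal x₂ z₂ a b)
  exact S34P_finite_prod _ _

theorem S34P_Rbar_mono (hP₁ : HasPrincipalDivisors k Fk₁) (hP₂ : HasPrincipalDivisors k Fk₂)
    (x₁ : Fk₁) (x₂ : Fk₂) (c : k) {a a' b b' : ℕ} (ha : a ≤ a') (hb : b ≤ b') :
    S34P_Rbar hP₁ hP₂ x₁ (x₁ - algebraMap k Fk₁ c) x₂ (x₂ - algebraMap k Fk₂ c) a b ≤
      S34P_Rbar hP₁ hP₂ x₁ (x₁ - algebraMap k Fk₁ c) x₂ (x₂ - algebraMap k Fk₂ c) a' b' :=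
  Submodule.prod_mono (RR_mono (S34P_E_mono hP₁ x₁ c ha hb)) (RR_mono (S34P_E_mono hP₂ x₂ c ha hb))

/-- the pole conditions intersect (`inter` of `S34S_Grid`). -/
theorem S34P_Rbar_inter (hP₁ : HasPrincipalDivisors k Fk₁) (hP₂ : HasPrincipalDivisors k Fk₂)
    (x₁ : Fk₁) (x₂ : Fk₂) (c : k) {a b m₀ : ℕ} (ha : m₀ ≤ a) (hb : m₀ ≤ b) :
    S34P_Rbar hP₁ hP₂ x₁ (x₁ - algebraMap k Fk₁ c) x₂ (x₂ - algebraMap k Fk₂ c) a m₀ ⊓
        S34P_Rbar hP₁ hP₂ x₁ (x₁ - algebraMap k Fk₁ c) x₂ (x₂ - algebraMap k Fk₂ c) m₀ b ≤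
      S34P_Rbar hP₁ hP₂ x₁ (x₁ - algebraMap k Fk₁ c) x₂ (x₂ - algebraMap k Fk₂ c) m₀ m₀ := by
  rintro ⟨w₁, w₂⟩ ⟨h1, h2⟩
  exact ⟨S34P_RR_inter hP₁ x₁ c ha hb ⟨h1.1, h2.1⟩, S34P_RR_inter hP₂ x₂ c ha hb ⟨h1.2, h2.2⟩⟩

/-- **POLE-3**: the count in the fibre. -/
theorem S34P_finrank_prod (h₁ : RR_Hyp k Fk₁) (h₂ : RR_Hyp k Fk₂) (x₁ z₁ : Fk₁) (x₂ z₂ : Fk₂)
    (hd₁ : 0 < (RR_poleDiv h₁.principal x₁).degree)
    (hd₂ : 0 < (RR_poleDiv h₂.principal x₂).degree) :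
    ∃ m₀ : ℕ, ∀ a b : ℕ, m₀ ≤ a + b →
      (Module.finrank k (S34P_Rbar h₁.principal h₂.principal x₁ z₁ x₂ z₂ a b) : ℤ) =
        ((a : ℤ) + b) * ((RR_poleDiv h₁.principal x₁).degree + (RR_poleDiv h₂.principal x₂).degree)
          + 2 - RR_genus k Fk₁ - RR_genus k Fk₂ := by
  obtain ⟨m₁, hm₁⟩ := S34P_riemann_grid h₁ x₁ z₁ 0 (map_zero _) hd₁
  obtain ⟨m₂, hm₂⟩ := S34P_riemann_grid h₂ x₂ z₂ 0 (map_zero _) hd₂
  refine ⟨max m₁ m₂, fun a b hab => ?_⟩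
  have e₁ := hm₁ a b (le_trans (le_max_left _ _) hab)
  have e₂ := hm₂ a b (le_trans (le_max_right _ _) hab)
  rw [add_zero] at e₁ e₂
  have := RR_finite h₁ (S34P_E h₁.principal x₁ z₁ a b)
  have := RR_finite h₂ (S34P_E h₂.principal x₂ z₂ a b)
  unfold S34P_Rbar
  rw [S34P_finrank_prod_eq]
  push_cast
  rw [e₁, e₂]
  ring

/-- **POLE-4**: the codimension of `W^y(E(a,b))` in `R̄(Ē(a,b))` is `g_F + 1 − g₁ − g₂`, provided the
degrees of the pole divisors add up (`hdeg`, from VAL: `f₁ + f₂ = [F : L(x)]`). -/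
theorem S34P_codim {R : Type*} [CommRing R] [Algebra k R] (S : S34L_Lat L F k R)
    (hcount : ∀ V : Submodule L F, FiniteDimensional L V →
      Module.finrank k (S.redSub V) = Module.finrank L V)
    (hF : RR_Hyp L F) (h₁ : RR_Hyp k Fk₁) (h₂ : RR_Hyp k Fk₂)
    (x z : F) (x₁ z₁ : Fk₁) (x₂ z₂ : Fk₂) (D : Divisor L F) (hD : D.degree = 0)
    (hd₁ : 0 < (RR_poleDiv h₁.principal x₁).degree)
    (hd₂ : 0 < (RR_poleDiv h₂.principal x₂).degree)
    (hdeg : (RR_poleDiv h₁.principal x₁).degree + (RR_poleDiv h₂.principal x₂).degree =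
      (RR_poleDiv hF.principal x).degree) :
    ∃ m₀ : ℕ, ∀ a b : ℕ, m₀ ≤ a + b →
      (Module.finrank k (S34P_Rbar h₁.principal h₂.principal x₁ z₁ x₂ z₂ a b) : ℤ) =
        Module.finrank k (S.redSub (riemannRochSpace (S34P_E hF.principal x z a b + D))) +
          ((RR_genus L F : ℤ) + 1 - RR_genus k Fk₁ - RR_genus k Fk₂) := by
  have hd : 0 < (RR_poleDiv hF.principal x).degree := by rw [← hdeg]; omega
  obtain ⟨m₁, hm₁⟩ := S34P_finrank_grid S hcount hF x z D hD hd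
  obtain ⟨m₂, hm₂⟩ := S34P_finrank_prod h₁ h₂ x₁ z₁ x₂ z₂ hd₁ hd₂
  refine ⟨max m₁ m₂, fun a b hab => ?_⟩
  rw [hm₁ a b (le_trans (le_max_left _ _) hab), hm₂ a b (le_trans (le_max_right _ _) hab), hdeg]
  ring

/-! ### Bridge to helper4's lattice datum -/

section Bridge

variable {S₁ : S18_Val L F k Fk₁} {S₂ : S18_Val L F k Fk₂}

/-- the lattice datum of the pair. -/
def S34P_lat (hS : S34P_Same S₁ S₂) : S34L_Lat L F k (Fk₁ × Fk₂) :=
  S34L_ofPair S₁ S₂ hS.A_eq hS.res_eq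

theorem S34P_lat_O (hS : S34P_Same S₁ S₂) : (S34P_lat hS).O = S34P_O2 S₁ S₂ := rfl

theorem S34P_lat_red (hS : S34P_Same S₁ S₂) (f : S34P_O2 S₁ S₂) :
    (S34P_lat hS).red f = S34P_red S₁ S₂ f := rfl

theorem S34P_lat_redSub (hS : S34P_Same S₁ S₂) (V : Submodule L F) :
    (S34P_lat hS).redSub V = S34P_redSub S₁ S₂ hS V := by
  ext w
  exact Iff.rfl

end Bridge

end Fermat.Agent.S34
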