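import Fermat.Agent.S34.InjInst
import Fermat.Agent.S34.KActRed
import Fermat.Agent.S34.Pole3
import Fermat.Agent.Lib.DescExt
import Fermat.Agent.S24.GlobalA

/-!
# TRACK 7 (S34 + S35), package INJ concrete (helper25)

* `S34IX_reg T` : the `K`-algebra of the functions of `F` regular at all places of a set `T`
  (a chart); it is root closed (`S34IX_reg_root`), antitone in `T` (`S34IX_reg_anti`), and two
  charts that cover the curve have only the constants in common (`S34IX_reg_const`, the input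
  `hconst` = `(glob)` of INJ).
* the standard charts of a coordinate `x`: `S34IX_TU x` (off the poles of `x`),
  `S34IX_TU' x c` (off the zeros of `x - c`), `S34IX_TU'' x c` (their intersection);
  `S34IX_cover`.
* `S34IX_hker` : the input `hker` of `S34IC_inj` from a cartesian chart (CART2).
* `S34IX_hinj_pair` : INJ for a pair of valuation data (`Pole.lean`) in the shape consumed by
  `S34K_mkDatum` (`KActRed.lean`).
-/

set_option autoImplicit false
set_option linter.unusedSectionVars false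

open AlgebraicCurve

namespace Fermat.Agent.S34

open Fermat.Agent.Lib Fermat.Agent.S18 Fermat.Agent.S24

section Charts

variable {K F : Type*} [Field K] [Field F] [Algebra K F]

/-- the functions of `F` that are regular at every place of `T`. -/
def S34IX_reg (T : Set (Place K F)) : Subalgebra K F where
  carrier := {f | ∀ v ∈ T, f ∈ v.toValuationSubring}
  mul_mem' := fun hf hg v hv => v.toValuationSubring.mul_mem _ _ (hf v hv) (hg v hv)
  one_mem' := fun v _ => v.toValuationSubring.one_mem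
  add_mem' := fun hf hg v hv => v.toValuationSubring.add_mem _ _ (hf v hv) (hg v hv)
  zero_mem' := fun v _ => v.toValuationSubring.zero_mem
  algebraMap_mem' := fun a v _ => v.algebraMap_mem' a

theorem S34IX_mem_reg {T : Set (Place K F)} {f : F} :
    f ∈ S34IX_reg T ↔ ∀ v ∈ T, f ∈ v.toValuationSubring := Iff.rfl

/-- membership in a chart in terms of `ord`. -/
theorem S34IX_mem_reg_iff_ord {T : Set (Place K F)} {f : F} :
    f ∈ S34IX_reg T ↔ ∀ v ∈ T, 0 ≤ v.ord f := by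
  rw [S34IX_mem_reg]
  refine forall_congr' fun v => forall_congr' fun _ => ?_
  rcases eq_or_ne f 0 with rfl | hf
  · simp [v.toValuationSubring.zero_mem]
  · exact BG_mem_iff_ord_nonneg v hf

theorem S34IX_reg_anti {T T' : Set (Place K F)} (h : T ⊆ T') : S34IX_reg T' ≤ S34IX_reg T :=
  fun _ hf v hv => hf v (h hv)

/-- a valuation ring is root closed. -/
theorem S34IX_mem_of_pow_mem (A : ValuationSubring F) {n : ℕ} (hn : 0 < n) {f : F}
    (hf : f ^ n ∈ A) : f ∈ A := by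
  rw [← A.valuation_le_one_iff] at hf ⊢
  rw [map_pow] at hf
  exact (pow_le_one_iff hn.ne').1 hf

/-- a chart is root closed. -/
theorem S34IX_reg_root (T : Set (Place K F)) {n : ℕ} (hn : 0 < n) (f : F)
    (hf : f ^ n ∈ S34IX_reg T) : f ∈ S34IX_reg T :=
  fun v hv => S34IX_mem_of_pow_mem v.toValuationSubring hn (hf v hv)

/-- **(glob)**: two charts covering the curve have only the constants in common. -/
theorem S34IX_reg_const (h : RR_Hyp K F) {T T' : Set (Place K F)} (hT : ∀ v, v ∈ T ∨ v ∈ T')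
    (f : F) (hf : f ∈ S34IX_reg T) (hf' : f ∈ S34IX_reg T') :
    ∃ a : K, f = algebraMap K F a := by
  by_contra hcon
  obtain ⟨w, hw⟩ := DSC_exists_pole h f hcon
  have h0 : 0 ≤ w.ord f := by
    rcases hT w with hw' | hw'
    · exact S34IX_mem_reg_iff_ord.1 hf w hw'
    · exact S34IX_mem_reg_iff_ord.1 hf' w hw'
  omega

/-- the places off the poles of `x`: the chart `U`. -/
def S34IX_TU (x : F) : Set (Place K F) := {v | 0 ≤ v.ord x}

/-- the places off the zeros of `x - c`: the chart `U'`. -/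
def S34IX_TU' (x : F) (c : K) : Set (Place K F) := {v | v.ord (x - algebraMap K F c) ≤ 0}

/-- the chart `U'' = U ∩ U'`. -/
def S34IX_TU'' (x : F) (c : K) : Set (Place K F) := S34IX_TU x ∩ S34IX_TU' x c

theorem S34IX_cover (x : F) (c : K) (v : Place K F) : v ∈ S34IX_TU x ∨ v ∈ S34IX_TU' x c := by
  rcases lt_or_ge (v.ord x) 0 with h | h
  · right
    show v.ord (x - algebraMap K F c) ≤ 0
    rw [LC_ord_sub_const_of_neg v h c]
    omega
  · exact Or.inl h

theorem S34IX_TU''_sub (x : F) (c : K) : (S34IX_TU'' x c : Set (Place K F)) ⊆ S34IX_TU x :=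
  Set.inter_subset_left

theorem S34IX_TU''_sub' (x : F) (c : K) : (S34IX_TU'' x c : Set (Place K F)) ⊆ S34IX_TU' x c :=
  Set.inter_subset_right

/-- `x` is regular on `U`. -/
theorem S34IX_x_mem (x : F) : x ∈ S34IX_reg (S34IX_TU (K := K) x) :=
  S34IX_mem_reg_iff_ord.2 fun _ hv => hv

/-- `1/(x - c)` is regular on `U'`. -/
theorem S34IX_inv_mem (x : F) (c : K) :
    (x - algebraMap K F c)⁻¹ ∈ S34IX_reg (S34IX_TU' x c) :=
  S34IX_mem_reg_iff_ord.2 fun v hv => by
    rw [Place.ord_inv]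
    have : v.ord (x - algebraMap K F c) ≤ 0 := hv
    omega

end Charts

section Pair

variable {L F k Fk₁ Fk₂ : Type*} [Field L] [Field F] [Algebra L F] [Field k]
  [Field Fk₁] [Field Fk₂] [Algebra k Fk₁] [Algebra k Fk₂]

/-- the input `hker` of `S34IC_inj` from a cartesian chart. -/
theorem S34IX_hker {R : Type*} [CommRing R] [Algebra k R] (S : S34L_Lat L F k R)
    {x : S.O} {n : ℕ} {y : Fin n → S.O} (hC : S.IsCart x y) :
    ∀ f : S.O, (f : F) ≠ 0 → S.red f = 0 →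
      ∃ (c : S.A) (g : S.O), ¬ IsUnit c ∧ f = S.const c * g := by
  intro f hf0 hf
  obtain ⟨c, g, hc, -, hfg⟩ := hC.exists_nonunit_mul f hf0 hf
  exact ⟨c, g, hc, hfg⟩

variable {S₁ : S18_Val L F k Fk₁} {S₂ : S18_Val L F k Fk₂} (hS : S34P_Same S₁ S₂)

/-- **INJ for a pair of valuation data**, in the shape of the field `hinj` of `S34K_mkDatum`:
`C` is the chart `U` of KACT, `B'`, `B''` are the rings of the charts `U'`, `U'' = U ∩ U'`.
If the gluing invariant of the normalised generator `u` is trivial in `U` (`hc`) and `1` lifts to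
a section on `U'` (`hlift'`, from CHART), then `u` is a trivial Kummer generator. -/
theorem S34IX_hinj_pair {n : ℕ}
    (C : S34K_Chart (L := L) (F := F) (k := k) (Fk₁ := Fk₁) (Fk₂ := Fk₂) n)
    (hker : ∀ f : (S34P_lat hS).O, (f : F) ≠ 0 → (S34P_lat hS).red f = 0 →
      ∃ (c : (S34P_lat hS).A) (g : (S34P_lat hS).O), ¬ IsUnit c ∧ f = (S34P_lat hS).const c * g)
    (hrank : ∀ c : (S34P_lat hS).A, ¬ IsUnit c → c ≠ 0 → ∀ a : (S34P_lat hS).A, a ≠ 0 →
      ∃ N : ℕ, a ∣ c ^ N)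
    (hnk : (n : k) ≠ 0)
    (B' B'' : Subalgebra L F) (hB : C.B ≤ B'') (hB' : B' ≤ B'')
    (hroot' : ∀ y : F, y ^ n ∈ B' → y ∈ B') (hroot'' : ∀ y : F, y ^ n ∈ B'' → y ∈ B'')
    (hconst : ∀ f : F, f ∈ C.B → f ∈ B' → ∃ a : L, f = algebraMap L F a)
    (u : F) (hu : u ∈ S34K_Norm S₁ S₂)
    (htors : ∃ c₀ : (S34P_lat hS).A, c₀ ≠ 0 ∧
        ∀ h ∈ S34IC_M (S34P_lat hS) B'' n hroot'' u,
        ∀ a : (S34P_lat hS).A, a ≠ 0 →
        a • h ∈ S34IC_M (S34P_lat hS) C.B n C.root u ⊔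
          S34IC_M (S34P_lat hS) B' n hroot' u →
        c₀ • h ∈ S34IC_M (S34P_lat hS) C.B n C.root u ⊔
          S34IC_M (S34P_lat hS) B' n hroot' u)
    (hlift : ∃ s : S34P_O2 S₁ S₂, (s : F) ^ n * u ∈ C.B ∧ S34P_red S₁ S₂ s = 1)
    (hlift' : ∃ s : S34P_O2 S₁ S₂, (s : F) ^ n * u ∈ B' ∧ S34P_red S₁ S₂ s = 1) :
    ∃ (c : L) (g : F), c ≠ 0 ∧ g ≠ 0 ∧ u = algebraMap L F c * g ^ n := by
  obtain ⟨hu', hu1⟩ := hu
  obtain ⟨s, hs, hs1⟩ := hlift
  obtain ⟨s', hs', hs1'⟩ := hlift'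
  exact S34IC_inj (S34P_lat hS) hker hrank n C.hn hnk C.B B' B'' hB hB' C.root hroot' hroot''
    hconst ⟨u, hu'⟩ hu1 htors s s' hs hs' hs1 hs1'

/-- the same with the gluing description in the chart `U` as hypothesis: exactly the field
`hinj` of `S34K_mkDatum` for the generator `u`. -/
theorem S34IX_hinj {n : ℕ} {ι : Type*}
    (C : S34K_Chart (L := L) (F := F) (k := k) (Fk₁ := Fk₁) (Fk₂ := Fk₂) n)
    (e₁ : ι → ↥C.Rb₁ →ₐ[k] k) (e₂ : ι → ↥C.Rb₂ →ₐ[k] k)
    (hker : ∀ f : (S34P_lat hS).O, (f : F) ≠ 0 → (S34P_lat hS).red f = 0 →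
      ∃ (c : (S34P_lat hS).A) (g : (S34P_lat hS).O), ¬ IsUnit c ∧ f = (S34P_lat hS).const c * g)
    (hrank : ∀ c : (S34P_lat hS).A, ¬ IsUnit c → c ≠ 0 → ∀ a : (S34P_lat hS).A, a ≠ 0 →
      ∃ N : ℕ, a ∣ c ^ N)
    (hnk : (n : k) ≠ 0)
    (B' B'' : Subalgebra L F) (hB : C.B ≤ B'') (hB' : B' ≤ B'')
    (hroot' : ∀ y : F, y ^ n ∈ B' → y ∈ B') (hroot'' : ∀ y : F, y ^ n ∈ B'' → y ∈ B'')
    (hconst : ∀ f : F, f ∈ C.B → f ∈ B' → ∃ a : L, f = algebraMap L F a)
    (u : F) (hu : u ∈ S34K_Norm S₁ S₂)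
    (htors : ∃ c₀ : (S34P_lat hS).A, c₀ ≠ 0 ∧
        ∀ h ∈ S34IC_M (S34P_lat hS) B'' n hroot'' u,
        ∀ a : (S34P_lat hS).A, a ≠ 0 →
        a • h ∈ S34IC_M (S34P_lat hS) C.B n C.root u ⊔
          S34IC_M (S34P_lat hS) B' n hroot' u →
        c₀ • h ∈ S34IC_M (S34P_lat hS) C.B n C.root u ⊔
          S34IC_M (S34P_lat hS) B' n hroot' u)
    (hlift' : ∃ s : S34P_O2 S₁ S₂, (s : F) ^ n * u ∈ B' ∧ S34P_red S₁ S₂ s = 1)
    (hc : S34K_W hS C u = S34B_glued e₁ e₂ (fun _ => 1)) :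
    ∃ (c : L) (g : F), c ≠ 0 ∧ g ≠ 0 ∧ u = algebraMap L F c * g ^ n :=
  S34IX_hinj_pair hS C hker hrank hnk B' B'' hB hB' hroot' hroot'' hconst u hu htors
    (S34K_exists_lift_one hS C e₁ e₂ hc (fun _ => rfl)) hlift'

end Pair

end Fermat.Agent.S34
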