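import Mathlib

/-!
# TRACK 7 (S34 + S35), package APPROX (helper15): weak approximation for two valuation rings

Pure algebra over Mathlib.  For two valuation subrings `O₁ O₂` of a field `F`, neither of which
contains the other:

* `S34AP_exists_sep`  : there is `t` with `t ∈ 𝔪₁` and `t⁻¹ ∈ 𝔪₂`;
* `S34AP_exists_idem` : there is `e ∈ O₁ ∩ O₂` with `1 - e ∈ 𝔪₁` and `e ∈ 𝔪₂`;
* `S34AP_exists_approx_one` : every `x ∈ O₁` is congruent mod `𝔪₁` to some `y ∈ O₁ ∩ O₂`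
  (which can even be taken in `𝔪₂` when `x ∉ O₂`);
* `S34AP_exists_approx` : for `x₁ ∈ O₁`, `x₂ ∈ O₂` there is `f ∈ O₁ ∩ O₂` with
  `f - x₁ ∈ 𝔪₁` and `f - x₂ ∈ 𝔪₂`;
* `S34AP_exists_unit_approx` : if moreover `x₁`, `x₂` are units of `O₁`, `O₂`, then `f` is a unit
  of both `O₁` and `O₂`.

Here "`a ∈ 𝔪ᵢ`" is written `a ∈ Oᵢ ∧ (a = 0 ∨ a⁻¹ ∉ Oᵢ)` via the predicate `S34AP_Small`.
No rank-one hypothesis is needed.
-/

set_option autoImplicit false

namespace Fermat.Agent.S34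

variable {F : Type*} [Field F]

/-- `a` lies in the maximal ideal of the valuation subring `O`. -/
def S34AP_Small (O : ValuationSubring F) (a : F) : Prop := a = 0 ∨ a⁻¹ ∉ O

theorem S34AP_small_zero (O : ValuationSubring F) : S34AP_Small O 0 := Or.inl rfl

theorem S34AP_Small.mem {O : ValuationSubring F} {a : F} (h : S34AP_Small O a) : a ∈ O := by
  rcases h with h | h
  · rw [h]; exact O.zero_mem
  · rcases O.mem_or_inv_mem a with h1 | h1
    · exact h1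
    · exact absurd h1 h

theorem S34AP_small_of_not_mem {O : ValuationSubring F} {a : F} (h : a ∉ O) :
    S34AP_Small O a⁻¹ := by
  right
  rwa [inv_inv]

/-- a small element is not a unit: `1` is not small -/
theorem S34AP_not_small_one (O : ValuationSubring F) : ¬ S34AP_Small O (1 : F) := by
  rintro (h | h)
  · exact one_ne_zero h
  · exact h (by rw [inv_one]; exact O.one_mem)

/-- small × element of `O` is small -/
theorem S34AP_Small.mul_mem {O : ValuationSubring F} {a b : F} (ha : S34AP_Small O a)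
    (hb : b ∈ O) : S34AP_Small O (a * b) := by
  by_cases hab : a * b = 0
  · exact Or.inl hab
  right
  intro h
  have ha0 : a ≠ 0 := left_ne_zero_of_mul hab
  have hb0 : b ≠ 0 := right_ne_zero_of_mul hab
  rcases ha with ha | ha
  · exact ha0 ha
  apply ha
  have : a⁻¹ = (a * b)⁻¹ * b := by
    field_simp
  rw [this]
  exact O.mul_mem _ _ h hb

theorem S34AP_Small.mem_mul {O : ValuationSubring F} {a b : F} (hb : S34AP_Small O b)
    (ha : a ∈ O) : S34AP_Small O (a * b) := by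
  rw [mul_comm]; exact hb.mul_mem ha

/-- `1 + a` is a unit of `O` for small `a`: its inverse lies in `O`, and `1 + a ≠ 0`. -/
theorem S34AP_Small.one_add_ne_zero {O : ValuationSubring F} {a : F} (ha : S34AP_Small O a) :
    1 + a ≠ 0 := by
  intro h
  have h1 : a = -1 := by linear_combination h
  rcases ha with ha | ha
  · rw [ha, add_zero] at h; exact one_ne_zero h
  · apply ha
    rw [h1]
    have : ((-1 : F))⁻¹ = -1 := by
      rw [inv_neg, inv_one]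
    rw [this]
    exact O.neg_mem _ O.one_mem

theorem S34AP_Small.inv_one_add_mem {O : ValuationSubring F} {a : F} (ha : S34AP_Small O a) :
    (1 + a)⁻¹ ∈ O := by
  rcases O.mem_or_inv_mem (1 + a)⁻¹ with h | h
  · exact h
  -- otherwise `(1+a)⁻¹ ∉ O`, so `1 + a` is small, so `1 = (1 + a) - a` would be small
  by_contra hcon
  have h1 : S34AP_Small O (1 + a) := by
    right; exact hcon
  -- `a / (1 + a)`-free argument: `1 + a` small and `a` small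
  rcases ha with ha0 | ha
  · rw [ha0, add_zero] at h1
    exact S34AP_not_small_one O h1
  -- `a⁻¹ ∉ O`, `(1+a)⁻¹ ∉ O`.  Then `(1+a)/a = a⁻¹ + 1 ∉ O`, so `a/(1+a) ∈ O` and small;
  -- and `1/(1+a) = 1 - a/(1+a) ∈ O`.
  have ha0 : a ≠ 0 := by
    intro h0
    apply ha
    rw [h0, inv_zero]; exact O.zero_mem
  have h2 : a⁻¹ + 1 ∉ O := by
    intro h3
    apply ha
    have : a⁻¹ = (a⁻¹ + 1) - 1 := by ring
    rw [this]
    exact sub_mem h3 O.one_mem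
  have h1a : 1 + a ≠ 0 := (S34AP_Small.one_add_ne_zero (Or.inr ha))
  have h4 : a / (1 + a) ∈ O := by
    rcases O.mem_or_inv_mem (a / (1 + a)) with h5 | h5
    · exact h5
    · exfalso
      apply h2
      have : (a / (1 + a))⁻¹ = a⁻¹ + 1 := by
        field_simp
      rw [← this]
      exact h5
  apply hcon
  have : (1 + a)⁻¹ = 1 - a / (1 + a) := by
    field_simp
    ring
  rw [this]
  exact sub_mem O.one_mem h4

/-- sum of two small elements is small -/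
theorem S34AP_Small.add {O : ValuationSubring F} {a b : F} (ha : S34AP_Small O a)
    (hb : S34AP_Small O b) : S34AP_Small O (a + b) := by
  by_cases hab : a + b = 0
  · exact Or.inl hab
  by_cases ha0 : a = 0
  · rw [ha0, zero_add]; exact hb
  by_cases hb0 : b = 0
  · rw [hb0, add_zero]; exact ha
  -- WLOG `b / a ∈ O` or `a / b ∈ O`
  rcases O.mem_or_inv_mem (b / a) with h | h
  · -- `a + b = a * (1 + b/a)`
    have : a + b = a * (1 + b / a) := by field_simp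
    rw [this]
    exact ha.mul_mem (O.add_mem _ _ O.one_mem h)
  · have h' : a / b ∈ O := by
      have : (b / a)⁻¹ = a / b := by field_simp
      rwa [this] at h
    have : a + b = b * (1 + a / b) := by field_simp; ring
    rw [this]
    exact hb.mul_mem (O.add_mem _ _ O.one_mem h')

theorem S34AP_Small.neg {O : ValuationSubring F} {a : F} (ha : S34AP_Small O a) :
    S34AP_Small O (-a) := by
  have : -a = a * (-1) := by ring
  rw [this]
  exact ha.mul_mem (O.neg_mem _ O.one_mem)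

theorem S34AP_Small.sub {O : ValuationSubring F} {a b : F} (ha : S34AP_Small O a)
    (hb : S34AP_Small O b) : S34AP_Small O (a - b) := by
  rw [sub_eq_add_neg]; exact ha.add hb.neg

/-- For small `a`: `(1 + a)⁻¹ - 1` is small. -/
theorem S34AP_Small.inv_one_add_sub_one {O : ValuationSubring F} {a : F}
    (ha : S34AP_Small O a) : S34AP_Small O ((1 + a)⁻¹ - 1) := by
  have h1 : 1 + a ≠ 0 := ha.one_add_ne_zero
  have : (1 + a)⁻¹ - 1 = a * (-(1 + a)⁻¹) := by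
    field_simp
    ring
  rw [this]
  exact ha.mul_mem (O.neg_mem _ ha.inv_one_add_mem)

/-- **Separating element.** If neither of `O₁`, `O₂` contains the other, there is `t` small for
`O₁` with `t⁻¹` small for `O₂` (and `t ≠ 0`). -/
theorem S34AP_exists_sep (O₁ O₂ : ValuationSubring F) (h12 : ¬ O₁ ≤ O₂) (h21 : ¬ O₂ ≤ O₁) :
    ∃ t : F, t ≠ 0 ∧ S34AP_Small O₁ t ∧ S34AP_Small O₂ t⁻¹ := by
  obtain ⟨a, ha1, ha2⟩ := SetLike.not_le_iff_exists.1 h12
  obtain ⟨b, hb2, hb1⟩ := SetLike.not_le_iff_exists.1 h21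
  have ha0 : a ≠ 0 := by
    intro h; apply ha2; rw [h]; exact O₂.zero_mem
  have hb0 : b ≠ 0 := by
    intro h; apply hb1; rw [h]; exact O₁.zero_mem
  refine ⟨a / b, div_ne_zero ha0 hb0, ?_, ?_⟩
  · -- `a ∈ O₁`, `b⁻¹` small for `O₁`
    have : a / b = b⁻¹ * a := by field_simp
    rw [this]
    exact (S34AP_small_of_not_mem hb1).mul_mem ha1
  · have : (a / b)⁻¹ = a⁻¹ * b := by field_simp
    rw [this]
    exact (S34AP_small_of_not_mem ha2).mul_mem hb2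

/-- **Idempotent-like element.** `e ≡ 1 mod 𝔪₁`, `e ≡ 0 mod 𝔪₂`. -/
theorem S34AP_exists_idem (O₁ O₂ : ValuationSubring F) (h12 : ¬ O₁ ≤ O₂) (h21 : ¬ O₂ ≤ O₁) :
    ∃ e : F, e ∈ O₁ ∧ e ∈ O₂ ∧ S34AP_Small O₁ (e - 1) ∧ S34AP_Small O₂ e := by
  obtain ⟨t, ht0, ht1, ht2⟩ := S34AP_exists_sep O₁ O₂ h12 h21
  have hsm1 : S34AP_Small O₁ ((1 + t)⁻¹ - 1) := ht1.inv_one_add_sub_one
  -- in `O₂`: `(1+t)⁻¹ = t⁻¹ * (1 + t⁻¹)⁻¹`
  have h1t : 1 + t ≠ 0 := ht1.one_add_ne_zero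
  have h1t' : 1 + t⁻¹ ≠ 0 := ht2.one_add_ne_zero
  have heq : (1 + t)⁻¹ = t⁻¹ * (1 + t⁻¹)⁻¹ := by
    have h3 : 1 + t⁻¹ = (1 + t) * t⁻¹ := by field_simp; ring
    rw [h3, mul_inv, inv_inv]
    field_simp
  have hsm2 : S34AP_Small O₂ ((1 + t)⁻¹) := by
    rw [heq]
    exact ht2.mul_mem ht2.inv_one_add_mem
  exact ⟨(1 + t)⁻¹, ht1.inv_one_add_mem, hsm2.mem, hsm1, hsm2⟩

/-- Every `x ∈ O₁` is congruent mod `𝔪₁` to an element of `O₁ ∩ O₂`. -/
theorem S34AP_exists_approx_one (O₁ O₂ : ValuationSubring F) (h12 : ¬ O₁ ≤ O₂)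
    (h21 : ¬ O₂ ≤ O₁) (x : F) (hx : x ∈ O₁) :
    ∃ y : F, y ∈ O₁ ∧ y ∈ O₂ ∧ S34AP_Small O₁ (y - x) := by
  by_cases hx2 : x ∈ O₂
  · exact ⟨x, hx, hx2, by rw [sub_self]; exact S34AP_small_zero O₁⟩
  obtain ⟨t, ht0, ht1, ht2⟩ := S34AP_exists_sep O₁ O₂ h12 h21
  have hx0 : x ≠ 0 := by
    intro h; apply hx2; rw [h]; exact O₂.zero_mem
  -- `y = x / (1 + t x)`
  have htx : S34AP_Small O₁ (t * x) := ht1.mul_mem hx
  have h1 : 1 + t * x ≠ 0 := htx.one_add_ne_zero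
  refine ⟨x * (1 + t * x)⁻¹, O₁.mul_mem _ _ hx htx.inv_one_add_mem, ?_, ?_⟩
  · -- in `O₂`: `y = t⁻¹ * (1 + t⁻¹ x⁻¹)⁻¹`, `t⁻¹` and `x⁻¹` small
    have hxs : S34AP_Small O₂ x⁻¹ := S34AP_small_of_not_mem hx2
    have hs : S34AP_Small O₂ (t⁻¹ * x⁻¹) := ht2.mul_mem hxs.mem
    have h2 : 1 + t⁻¹ * x⁻¹ ≠ 0 := hs.one_add_ne_zero
    have heq : x * (1 + t * x)⁻¹ = t⁻¹ * (1 + t⁻¹ * x⁻¹)⁻¹ := by
      field_simp
      ring
    rw [heq]
    exact O₂.mul_mem _ _ ht2.mem hs.inv_one_add_mem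
  · have heq : x * (1 + t * x)⁻¹ - x = x * ((1 + t * x)⁻¹ - 1) := by ring
    rw [heq]
    exact (htx.inv_one_add_sub_one).mem_mul hx

/-- **Weak approximation for two valuation rings.** -/
theorem S34AP_exists_approx (O₁ O₂ : ValuationSubring F) (h12 : ¬ O₁ ≤ O₂)
    (h21 : ¬ O₂ ≤ O₁) (x₁ x₂ : F) (hx₁ : x₁ ∈ O₁) (hx₂ : x₂ ∈ O₂) :
    ∃ f : F, f ∈ O₁ ∧ f ∈ O₂ ∧ S34AP_Small O₁ (f - x₁) ∧ S34AP_Small O₂ (f - x₂) := by
  obtain ⟨y₁, hy11, hy12, hy1⟩ := S34AP_exists_approx_one O₁ O₂ h12 h21 x₁ hx₁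
  obtain ⟨y₂, hy22, hy21, hy2⟩ := S34AP_exists_approx_one O₂ O₁ h21 h12 x₂ hx₂
  obtain ⟨e, he1, he2, hes1, hes2⟩ := S34AP_exists_idem O₁ O₂ h12 h21
  refine ⟨e * y₁ + (1 - e) * y₂,
    O₁.add_mem _ _ (O₁.mul_mem _ _ he1 hy11) (O₁.mul_mem _ _ (sub_mem O₁.one_mem he1) hy21),
    O₂.add_mem _ _ (O₂.mul_mem _ _ he2 hy12) (O₂.mul_mem _ _ (sub_mem O₂.one_mem he2) hy22),
    ?_, ?_⟩
  · -- `f - x₁ = (e - 1) * (y₁ - y₂) + (y₁ - x₁)`
    have heq : e * y₁ + (1 - e) * y₂ - x₁ = (e - 1) * (y₁ - y₂) + (y₁ - x₁) := by ring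
    rw [heq]
    exact (hes1.mul_mem (sub_mem hy11 hy21)).add hy1
  · -- `f - x₂ = e * (y₁ - y₂) + (y₂ - x₂)`
    have heq : e * y₁ + (1 - e) * y₂ - x₂ = e * (y₁ - y₂) + (y₂ - x₂) := by ring
    rw [heq]
    exact (hes2.mul_mem (sub_mem hy12 hy22)).add hy2

/-- an element of `O` congruent mod `𝔪` to a unit of `O` is a unit of `O` (its inverse is in `O`) -/
theorem S34AP_inv_mem_of_small_sub {O : ValuationSubring F} {f x : F}
    (hxi : x⁻¹ ∈ O) (hx0 : x ≠ 0) (h : S34AP_Small O (f - x)) : f ≠ 0 ∧ f⁻¹ ∈ O := by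
  -- `f = x * (1 + (f - x)/x)`
  have hs : S34AP_Small O ((f - x) * x⁻¹) := h.mul_mem hxi
  have h1 : 1 + (f - x) * x⁻¹ ≠ 0 := hs.one_add_ne_zero
  have hf : f = x * (1 + (f - x) * x⁻¹) := by
    field_simp
    ring
  constructor
  · rw [hf]; exact mul_ne_zero hx0 h1
  · have : f⁻¹ = x⁻¹ * (1 + (f - x) * x⁻¹)⁻¹ := by
      conv_lhs => rw [hf]
      rw [mul_inv]
    rw [this]
    exact O.mul_mem _ _ hxi hs.inv_one_add_mem

/-- **Weak approximation, unit version.** -/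
theorem S34AP_exists_unit_approx (O₁ O₂ : ValuationSubring F) (h12 : ¬ O₁ ≤ O₂)
    (h21 : ¬ O₂ ≤ O₁) (x₁ x₂ : F) (hx₁ : x₁ ∈ O₁) (hx₂ : x₂ ∈ O₂)
    (hx₁i : x₁⁻¹ ∈ O₁) (hx₂i : x₂⁻¹ ∈ O₂) (h10 : x₁ ≠ 0) (h20 : x₂ ≠ 0) :
    ∃ f : F, f ≠ 0 ∧ f ∈ O₁ ∧ f ∈ O₂ ∧ f⁻¹ ∈ O₁ ∧ f⁻¹ ∈ O₂ ∧
      S34AP_Small O₁ (f - x₁) ∧ S34AP_Small O₂ (f - x₂) := by
  obtain ⟨f, hf1, hf2, hs1, hs2⟩ := S34AP_exists_approx O₁ O₂ h12 h21 x₁ x₂ hx₁ hx₂
  obtain ⟨hf0, hfi1⟩ := S34AP_inv_mem_of_small_sub hx₁i h10 hs1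
  obtain ⟨-, hfi2⟩ := S34AP_inv_mem_of_small_sub hx₂i h20 hs2
  exact ⟨f, hf0, hf1, hf2, hfi1, hfi2, hs1, hs2⟩

/-- `Small` in terms of the maximal ideal of the valuation subring. -/
theorem S34AP_small_iff {O : ValuationSubring F} {a : F} :
    S34AP_Small O a ↔ ∃ h : a ∈ O, (⟨a, h⟩ : O) ∈ IsLocalRing.maximalIdeal O := by
  constructor
  · intro ha
    refine ⟨ha.mem, ?_⟩
    rw [IsLocalRing.mem_maximalIdeal, mem_nonunits_iff]
    intro hu
    obtain ⟨b, hb⟩ := hu.exists_right_inv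
    have hb' : a * (b : F) = 1 := by
      have := congrArg Subtype.val hb
      simpa using this
    rcases ha with h0 | h1
    · rw [h0, zero_mul] at hb'; exact zero_ne_one hb'
    · apply h1
      have : a⁻¹ = (b : F) := by
        have ha0 : a ≠ 0 := left_ne_zero_of_mul_eq_one hb'
        field_simp
        linear_combination -hb'
      rw [this]; exact b.2
  · rintro ⟨h, hm⟩
    rw [IsLocalRing.mem_maximalIdeal, mem_nonunits_iff] at hm
    by_cases ha0 : a = 0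
    · exact Or.inl ha0
    right
    intro hi
    apply hm
    refine IsUnit.of_mul_eq_one (⟨a⁻¹, hi⟩ : O) ?_
    apply Subtype.ext
    simp [ha0]

end Fermat.Agent.S34
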