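import Fermat.Agent.S34.SatBridge
import Fermat.Agent.S34.InjConc

/-!
# TRACK 7 (S34 + S35): the chart rings of `SatBridge.lean` and of `InjConc.lean` coincide (helper14)

`S34SB_regOff K T` (functions regular OFF `T`, `SatBridge.lean`) and `S34IX_reg T'` (functions
regular AT all places of `T'`, `InjConc.lean`, helper25) are the same ring for `T' = Tᶜ`.  In
particular the three standard charts of a coordinate `x` agree:

* `S34SB_reg_eq_IX`  : `S34SB_reg K x = S34IX_reg (S34IX_TU x)`                 (chart `U`)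
* `S34SB_regZ_eq_IX` : `S34SB_regZ K (x − c) = S34IX_reg (S34IX_TU' x c)`       (chart `U'`)
* `S34SB_reg2_eq_IX` : `S34SB_reg2 K x (x − c) = S34IX_reg (S34IX_TU'' x c)`    (chart `U''`)
* `S34SB_chart_hCB`  : the hypothesis `hCB` of `S34IG_hinj` for the chart `S34SB_chart`.
-/

set_option autoImplicit false
set_option linter.unusedSectionVars false

open AlgebraicCurve

namespace Fermat.Agent.S34

section compat

variable {K F : Type*} [Field K] [Field F] [Algebra K F]

theorem S34SB_regOff_eq_IX (T : Set (Place K F)) : S34SB_regOff K T = S34IX_reg Tᶜ := by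
  ext f
  rw [S34SB_mem_regOff, S34IX_mem_reg]
  exact Iff.rfl

theorem S34SB_reg_eq_IX (x : F) : S34SB_reg K x = S34IX_reg (S34IX_TU (K := K) x) := by
  ext f
  rw [S34SB_mem_reg, S34IX_mem_reg]
  exact Iff.rfl

theorem S34SB_regZ_eq_IX (x : F) (c : K) :
    S34SB_regZ K (x - algebraMap K F c) = S34IX_reg (S34IX_TU' x c) := by
  ext f
  unfold S34SB_regZ
  rw [S34SB_mem_regOff, S34IX_mem_reg]
  refine forall_congr' fun Q => ?_
  rw [S34SB_mem_zeros, not_lt]
  exact Iff.rfl

theorem S34SB_reg2_eq_IX (x : F) (c : K) :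
    S34SB_reg2 K x (x - algebraMap K F c) = S34IX_reg (S34IX_TU'' x c) := by
  ext f
  unfold S34SB_reg2
  rw [S34SB_mem_regOff, S34IX_mem_reg]
  refine forall_congr' fun Q => ?_
  rw [Set.mem_union, not_or, S34SB_mem_poles, S34SB_mem_zeros, not_lt, not_lt]
  exact Iff.rfl

end compat

section pair

variable {L F k Fk₁ Fk₂ : Type*} [Field L] [Field F] [Algebra L F] [Field k]
  [Field Fk₁] [Field Fk₂] [Algebra k Fk₁] [Algebra k Fk₂]

/-- the hypothesis `hCB` of `S34IG_hinj` (INJ, helper25) for the concrete chart. -/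
theorem S34SB_chart_hCB (x : F) (x₁ : Fk₁) (x₂ : Fk₂) (n : ℕ) (hn : 0 < n) (f : F) :
    f ∈ (S34SB_chart L k x x₁ x₂ n hn).B ↔ f ∈ S34IX_reg (S34IX_TU (K := L) x) := by
  rw [S34SB_chart_B, S34SB_reg_eq_IX]

end pair

end Fermat.Agent.S34
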