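import Mathlib
import Fermat.Prelude.Def_CuspForm_HeckeGaloisRepDatum
import Fermat.Prelude.Def_GaloisRep_LocalConditions
import Fermat.Agent.S31.Final
import Fermat.Agent.GalRep.HeckeFinal
import Fermat.Agent.GalRep.KMFinal
import Fermat.Agent.GalRep.ESWire
import Fermat.Agent.GalRep.T3Wire

/-!
# Item 33 (S34), package ALG34 (helper11, prefix S34A_): S34 from ONE geometric statement

`S34A_UnipStmt N q` (the interface of TRACK 7 "NODE"): for `τ` in an inertia group at `q` and every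
Kummer generator `f` of exponent `n` prime to `q` on `X₀(N)`, the class of
`τ f · τ⁻¹ f · f⁻²` is trivial, i.e. `τ + τ⁻¹ = 2` on `J₀(N)[n]` (⇐ `(τ - 1)² = 0`).

* `S34A_unip_of_sq`  : the form `(τ - 1)² = 0` implies `S34A_UnipStmt`.
* `S34A_tower`       : the Galois–Hecke tower of track 4 with its explicit action `GRT_r`.
* `S34A_tower_unip`  : `S34A_UnipStmt` ⇒ `r_K τ + r_K τ⁻¹ = 2` on `ℤ/p^K ⊗ parInt N`.
* `S34A_asm`         : tower + `r_K τ + r_K τ⁻¹ = 2` ⇒ `tr ρ(τ) = 2` (universal trace, as in S31),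
                      `det ρ(τ) = 1` (from `tr ρ(τ²) = 2`; `2` is a non-zero-divisor of `T`), hence
                      `charpoly ρ(τ) = (X - 1)²`.
* `S34A_main`     : the statement of S34 from `S34A_UnipStmt N q` and the packages of track 4.
-/

set_option autoImplicit false
set_option linter.unusedSectionVars false
set_option linter.unusedVariables false
set_option linter.style.haveILetI false

open scoped TensorProduct
open Polynomial ModularCurve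

namespace Fermat.Agent.S34

open Fermat.Agent.GalRep Fermat.Agent.S16 Fermat.Agent.S31 CuspForm

/-- **(UNIP)**: `τ + τ⁻¹ = 2` on Kummer classes of exponent `n` prime to `q`, for `τ` in an
inertia group at `q`. -/
def S34A_UnipStmt (N q : ℕ) : Prop :=
  ∀ (n : ℕ), 0 < n → ¬ q ∣ n →
    ∀ P : ValuationSubring (AlgebraicClosure ℚ), P.LiesOverPrime q →
      ∀ τ ∈ P.inertiaSubgroupIn ℚ, ∀ f : ↥(modularFunctionFieldBar N),
        KM_IsKum (AlgebraicClosure ℚ) ↥(modularFunctionFieldBar N) n f →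
        GR_IsTriv N n (GR_gal N τ f * GR_gal N τ⁻¹ f * (f ^ 2)⁻¹)

/-- **(UNIP')**: `(τ - 1)² = 0` on Kummer classes of exponent `n` prime to `q`. -/
def S34A_UnipSqStmt (N q : ℕ) : Prop :=
  ∀ (n : ℕ), 0 < n → ¬ q ∣ n →
    ∀ P : ValuationSubring (AlgebraicClosure ℚ), P.LiesOverPrime q →
      ∀ τ ∈ P.inertiaSubgroupIn ℚ, ∀ f : ↥(modularFunctionFieldBar N),
        KM_IsKum (AlgebraicClosure ℚ) ↥(modularFunctionFieldBar N) n f →
        GR_IsTriv N n (GR_gal N τ (GR_gal N τ f) * f * (GR_gal N τ f ^ 2)⁻¹)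

section kummer

variable {N : ℕ} [NeZero N]

/-- `(τ - 1)² = 0` implies `τ + τ⁻¹ = 2`. -/
theorem S34A_unip_of_sq (hK : GR_KappaStmt N) {q : ℕ} (h : S34A_UnipSqStmt N q) :
    S34A_UnipStmt N q := by
  intro n hn hqn P hP τ hτ f hf
  have h1 := h n hn hqn P hP τ hτ (GR_gal N τ⁻¹ f) (hK.gal n τ⁻¹ f hf)
  have h2 : GR_gal N τ (GR_gal N τ⁻¹ f) = f := by
    rw [← GRT_gal_mul, mul_inv_cancel, GRT_gal_one]
  rw [h2] at h1
  exact h1

/-- on the elliptic characters: `τ + τ⁻¹ = 2` if it holds on Kummer generators. -/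
theorem S34A_act_unip (hK : GR_KappaStmt N) {n : ℕ} (hn : 0 < n) (τ : GQ)
    (h : ∀ f : ↥(modularFunctionFieldBar N),
      KM_IsKum (AlgebraicClosure ℚ) ↥(modularFunctionFieldBar N) n f →
      GR_IsTriv N n (GR_gal N τ f * GR_gal N τ⁻¹ f * (f ^ 2)⁻¹))
    (χ : ↥(GRT_X N n)) :
    GRT_act hK hn τ χ + GRT_act hK hn τ⁻¹ χ = (2 : ℕ) • χ := by
  obtain ⟨f, hf, hχ⟩ := hK.surj n hn χ.1 χ.2
  have h1 := GRT_act_spec hK hn τ χ hf hχ
  have h2 := GRT_act_spec hK hn τ⁻¹ χ hf hχ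
  have hA : GR_KChar N n (GR_gal N τ f * GR_gal N τ⁻¹ f)
      ((GRT_act hK hn τ χ + GRT_act hK hn τ⁻¹ χ : ↥(GRT_X N n)) :
        Additive (CongruenceSubgroup.Gamma0 N) →+ ZMod n) := by
    rw [Submodule.coe_add]
    exact hK.mul n _ _ _ _ h1 h2
  have hf2 : f ^ 2 ≠ 0 := pow_ne_zero 2 hf.1
  have hB : GR_KChar N n (GR_gal N τ f * GR_gal N τ⁻¹ f)
      (((2 : ℕ) • χ : ↥(GRT_X N n)) : Additive (CongruenceSubgroup.Gamma0 N) →+ ZMod n) := by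
    rw [Submodule.coe_smul_of_tower]
    exact GRT_kchar_of_isTriv_mul hK hn (h f hf) hf2 (GRT_kchar_pow hK hn hχ 2)
  have hne : GR_gal N τ f * GR_gal N τ⁻¹ f ≠ 0 :=
    mul_ne_zero ((map_ne_zero_iff (GR_gal N τ) (GR_gal N τ).injective).mpr hf.1)
      ((map_ne_zero_iff (GR_gal N τ⁻¹) (GR_gal N τ⁻¹).injective).mpr hf.1)
  apply Subtype.ext
  exact hK.uniq n hn _ _ _ hne hA hB

/-- on `ℤ/n ⊗ parInt N`: `r τ + r τ⁻¹ = 2`. -/
theorem S34A_r_unip (hK : GR_KappaStmt N) (n : ℕ) [NeZero n] (τ : GQ)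
    (h : ∀ f : ↥(modularFunctionFieldBar N),
      KM_IsKum (AlgebraicClosure ℚ) ↥(modularFunctionFieldBar N) n f →
      GR_IsTriv N n (GR_gal N τ f * GR_gal N τ⁻¹ f * (f ^ 2)⁻¹)) :
    GRT_r hK n τ + GRT_r hK n τ⁻¹ = 2 := by
  refine LinearMap.ext fun x => ?_
  apply (GRT_iso N n).injective
  rw [LinearMap.add_apply, map_add, GRT_iso_r, GRT_iso_r,
    S34A_act_unip hK (Nat.pos_of_ne_zero (NeZero.ne n)) τ h]
  have h2 : (2 : Module.End (ZMod n) (ZMod n ⊗[ℤ] ↥(parInt N))) x = (2 : ℕ) • x := by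
    rw [show (2 : Module.End (ZMod n) (ZMod n ⊗[ℤ] ↥(parInt N)))
      = (2 : ℕ) • (1 : Module.End (ZMod n) (ZMod n ⊗[ℤ] ↥(parInt N))) by
        rw [nsmul_eq_mul, mul_one]; rfl]
    rw [LinearMap.smul_apply, Module.End.one_apply]
  rw [h2, map_nsmul]

end kummer

/-! ### the tower with its explicit action -/

section tower

variable {N : ℕ} [NeZero N]

/-- the Galois–Hecke tower of track 4 (`GR_tower`), as a definition: `r k = GRT_r hK (p ^ k)`. -/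
noncomputable def S34A_tower (p : ℕ) [hp : Fact p.Prime] (hK : GR_KappaStmt N)
    (hH : ∀ (ℓ : ℕ) [Fact ℓ.Prime], Nonempty (GR_HeckeES N ℓ)) (hU : GR_UnramStmt N)
    (hF : GR_FinStmt N) : GR_Tower p N ↥(parInt N) (GR_hT N) where
  r := fun k => @GRT_r N _ hK (p ^ k) ⟨pow_ne_zero k hp.out.ne_zero⟩
  compat := by
    intro k σ x
    exact @GRT_r_compat N _ hK (p ^ k) (p ^ (k + 1)) ⟨pow_ne_zero k hp.out.ne_zero⟩
      ⟨pow_ne_zero (k + 1) hp.out.ne_zero⟩ (pow_dvd_pow p (Nat.le_succ k)) σ x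
  fin := by
    intro k
    obtain ⟨L, hL, h⟩ := hF (p ^ k) (pow_pos hp.out.pos k)
    refine ⟨L, hL, fun σ hσ => ?_⟩
    exact @GRT_r_eq_one N _ hK (p ^ k) ⟨pow_ne_zero k hp.out.ne_zero⟩ σ
      (GRT_act_eq_one hK _ σ (h σ hσ))
  hecke := by
    intro k σ ℓ
    exact @GRT_r_commute N _ hK hH (p ^ k) ⟨pow_ne_zero k hp.out.ne_zero⟩ σ ℓ
  es := by
    intro k ℓ hℓ hℓN hℓp σ hσ
    have : Fact ℓ.Prime := ⟨hℓ⟩
    obtain ⟨H⟩ := hH ℓ
    have hnd : ¬ ℓ ∣ p ^ k := fun hdvd =>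
      hℓp ((Nat.prime_dvd_prime_iff_eq hℓ hp.out).mp (hℓ.dvd_of_dvd_pow hdvd))
    exact @GRT_r_es N _ hK (p ^ k) ⟨pow_ne_zero k hp.out.ne_zero⟩ ℓ _ H hℓN hnd σ hσ
  unram := by
    intro k q hq hqN hqp P hP τ hτ
    have hnd : ¬ q ∣ p ^ k := fun hdvd =>
      hqp ((Nat.prime_dvd_prime_iff_eq hq hp.out).mp (hq.dvd_of_dvd_pow hdvd))
    exact @GRT_r_eq_one N _ hK (p ^ k) ⟨pow_ne_zero k hp.out.ne_zero⟩ τ
      (GRT_act_eq_one hK _ τ (hU (p ^ k) q (pow_pos hp.out.pos k) hq hqN hnd P hP τ hτ))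

/-- `S34A_UnipStmt` on the tower. -/
theorem S34A_tower_unip (p : ℕ) [hp : Fact p.Prime] (hK : GR_KappaStmt N)
    (hH : ∀ (ℓ : ℕ) [Fact ℓ.Prime], Nonempty (GR_HeckeES N ℓ)) (hU : GR_UnramStmt N)
    (hF : GR_FinStmt N) {q : ℕ} (hq : q.Prime) (hqp : q ≠ p) (hun : S34A_UnipStmt N q)
    (K : ℕ) (P : ValuationSubring (AlgebraicClosure ℚ)) (hP : P.LiesOverPrime q)
    (τ : GQ) (hτ : τ ∈ P.inertiaSubgroupIn ℚ) :
    (S34A_tower p hK hH hU hF).r K τ + (S34A_tower p hK hH hU hF).r K τ⁻¹ = 2 := by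
  have hnd : ¬ q ∣ p ^ K := fun hdvd =>
    hqp ((Nat.prime_dvd_prime_iff_eq hq hp.out).mp (hq.dvd_of_dvd_pow hdvd))
  exact @S34A_r_unip N _ hK (p ^ K) ⟨pow_ne_zero K hp.out.ne_zero⟩ τ
    (hun (p ^ K) (pow_pos hp.out.pos K) hnd P hP τ hτ)

end tower

/-! ### the assembly -/

section datum

variable {p : ℕ} {N : ℕ} [NeZero N] {S : Finset ℕ}
  {𝒪 : Type} [CommRing 𝒪] [IsDomain 𝒪] [IsDiscreteValuationRing 𝒪]
  [IsAdicComplete (IsLocalRing.maximalIdeal 𝒪) 𝒪]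
  {θ : CuspForm.heckeAlgebra N 2 (↑S : Set ℕ) →+* IsLocalRing.ResidueField 𝒪}
  {T : Type} [CommRing T] [IsLocalRing T] [IsNoetherianRing T]
  [IsAdicComplete (IsLocalRing.maximalIdeal T) T] [Algebra 𝒪 T] [IsLocalHom (algebraMap 𝒪 T)]
  [Module.Finite 𝒪 T] [Module.Free 𝒪 T]

/-- the trace of an element `τ` of an inertia group at `q ≠ p` with `r_K τ + r_K τ⁻¹ = 2` for all
`K` is `2`. -/
theorem S34A_trace_eq_two (hpS : p ∈ S) (hp𝒪 : (p : 𝒪) ∈ IsLocalRing.maximalIdeal 𝒪)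
    (hNS : ∀ q : ℕ, q.Prime → q ∣ N → q ∈ S)
    (H : CuspForm.HeckeGaloisRepDatum N (↑S : Set ℕ) 𝒪 θ T)
    (tw : GR_Tower p N ↥(parInt N) (GR_hT N)) (fs : S31_FS N (↑S : Set ℕ) p)
    (hfde : S31_FDEStmt) (cyc : ∀ K : ℕ, S31_CycK p K)
    (q : ℕ) (hq : q.Prime) (hqp : q ≠ p)
    (P : ValuationSubring (AlgebraicClosure ℚ)) (hP : P.LiesOverPrime q)
    (τ : GQ) (hτ : τ ∈ P.inertiaSubgroupIn ℚ)
    (hU : ∀ K : ℕ, tw.r K τ + tw.r K τ⁻¹ = 2) :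
    H.ρ.trace τ = 2 := by
  have hpT : (p : T) ∈ IsLocalRing.maximalIdeal T := by
    have h1 : algebraMap 𝒪 T (p : 𝒪) ∈ IsLocalRing.maximalIdeal T := by
      rw [IsLocalRing.mem_maximalIdeal, mem_nonunits_iff]
      intro hu
      exact (IsLocalRing.mem_maximalIdeal _).mp hp𝒪 ((isUnit_map_iff (algebraMap 𝒪 T) _).mp hu)
    simpa using h1
  have key : ∀ k : ℕ, H.ρ.trace τ - 2 ∈ IsLocalRing.maximalIdeal T ^ k := by
    intro k
    obtain ⟨d, hd, hι⟩ := S31_exists_hecke hpS hNS H tw fs hfde (cyc (k + fs.c)) k τ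
    have hε : (cyc (k + fs.c)).ε τ = 1 := (cyc _).unram q hq hqp P hP τ hτ
    have ht : S31_tK tw (cyc (k + fs.c)) τ = 2 := by
      unfold S31_tK
      rw [hε, Units.val_one, one_smul]
      exact hU _
    have h5 : (fs.act (d - 2)).baseChange (ZMod (p ^ (k + fs.c))) = 0 := by
      rw [← S31_iota_apply, map_sub, hι, ht, map_ofNat, sub_self]
    obtain ⟨t', ht'⟩ := fs.sat (k + fs.c) (d - 2) h5
    rw [Nat.add_sub_cancel] at ht'
    have h6 : H.π (d - 2) ∈ IsLocalRing.maximalIdeal T ^ k := by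
      rw [ht', map_mul, map_pow, map_natCast]
      exact Ideal.mul_mem_right _ _ (Ideal.pow_mem_pow hpT k)
    have h7 : H.ρ.trace τ - 2 = (H.ρ.trace τ - H.π d) + H.π (d - 2) := by
      rw [map_sub, map_ofNat]
      ring
    rw [h7]
    exact Ideal.add_mem _ hd h6
  have hbot : (⨅ k : ℕ, IsLocalRing.maximalIdeal T ^ k) = ⊥ :=
    Ideal.iInf_pow_eq_bot_of_isLocalRing _ (IsLocalRing.maximalIdeal.isMaximal T).ne_top
  have hmem : H.ρ.trace τ - 2 ∈ (⨅ k : ℕ, IsLocalRing.maximalIdeal T ^ k) := by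
    rw [Ideal.mem_iInf]
    exact key
  rw [hbot, Ideal.mem_bot, sub_eq_zero] at hmem
  exact hmem

/-- `2` is a non-zero-divisor of `T`. -/
theorem S34A_two_mul_eq_zero [CharZero 𝒪] {x : T} (h : (2 : T) * x = 0) : x = 0 := by
  have h1 : (2 : 𝒪) • x = 0 := by
    rw [Algebra.smul_def, map_ofNat]
    exact h
  have h2 : (2 : 𝒪) ≠ 0 := two_ne_zero
  exact (smul_eq_zero.mp h1).resolve_left h2

/-- **(ASM)**: S34 from the tower and `r_K τ + r_K τ⁻¹ = 2` on inertia at `q`. -/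
theorem S34A_asm [CharZero 𝒪] (hpS : p ∈ S) (hp𝒪 : (p : 𝒪) ∈ IsLocalRing.maximalIdeal 𝒪)
    (hNS : ∀ q : ℕ, q.Prime → q ∣ N → q ∈ S)
    (H : CuspForm.HeckeGaloisRepDatum N (↑S : Set ℕ) 𝒪 θ T)
    (tw : GR_Tower p N ↥(parInt N) (GR_hT N)) (fs : S31_FS N (↑S : Set ℕ) p)
    (hfde : S31_FDEStmt) (cyc : ∀ K : ℕ, S31_CycK p K)
    (q : ℕ) (hq : q.Prime) (hqp : q ≠ p)
    (hU : ∀ (K : ℕ) (P : ValuationSubring (AlgebraicClosure ℚ)), P.LiesOverPrime q →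
      ∀ τ ∈ P.inertiaSubgroupIn ℚ, tw.r K τ + tw.r K τ⁻¹ = 2) :
    H.ρ.IsUnipotentOnInertiaAt q := by
  intro P hP τ hτ
  have h1 : LinearMap.trace T H.ρ.V (H.ρ.ρ τ) = 2 :=
    S34A_trace_eq_two hpS hp𝒪 hNS H tw fs hfde cyc q hq hqp P hP τ hτ (fun K => hU K P hP τ hτ)
  have hτ2 : τ * τ ∈ P.inertiaSubgroupIn ℚ := mul_mem hτ hτ
  have h2 : LinearMap.trace T H.ρ.V (H.ρ.ρ (τ * τ)) = 2 :=
    S34A_trace_eq_two hpS hp𝒪 hNS H tw fs hfde cyc q hq hqp P hP (τ * τ) hτ2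
      (fun K => hU K P hP (τ * τ) hτ2)
  have h3 := LUC_trace_pow H.ρ.finrank_eq (H.ρ.ρ τ) 2
  rw [LUC_V_two, pow_two, ← map_mul, h2, h1] at h3
  have h4 : LinearMap.det (H.ρ.ρ τ) = 1 := by
    have h5 : (2 : T) * (LinearMap.det (H.ρ.ρ τ) - 1) = 0 := by
      linear_combination h3
    exact sub_eq_zero.mp (S34A_two_mul_eq_zero (𝒪 := 𝒪) h5)
  rw [LUC_charpoly_eq H.ρ.finrank_eq, h1, h4]
  simp only [map_ofNat, map_one]
  ring

/-- **S34 from the tower with explicit action.** -/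
theorem S34A_of_packages [CharZero 𝒪]
    (hKappa : GR_KappaStmt N)
    (hHecke : ∀ (ℓ : ℕ) [Fact ℓ.Prime], Nonempty (GR_HeckeES N ℓ))
    (hUnram : GR_UnramStmt N) (hFin : GR_FinStmt N)
    (hp : p.Prime)
    (hp𝒪 : (p : 𝒪) ∈ IsLocalRing.maximalIdeal 𝒪) (hpS : p ∈ S)
    (hNS : ∀ q : ℕ, q.Prime → q ∣ N → q ∈ S)
    (H : CuspForm.HeckeGaloisRepDatum N (↑S : Set ℕ) 𝒪 θ T)
    (q : ℕ) (hq : q.Prime) (hqp : q ≠ p) (hun : S34A_UnipStmt N q) :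
    H.ρ.IsUnipotentOnInertiaAt q :=
  haveI : Fact p.Prime := ⟨hp⟩
  S34A_asm hpS hp𝒪 hNS H (S34A_tower p hKappa hHecke hUnram hFin) (S31_fs N (↑S : Set ℕ) p)
    FDE_stmt (S31_cycK p) q hq hqp
    (fun K P hP τ hτ => S34A_tower_unip p hKappa hHecke hUnram hFin hq hqp hun K P hP τ hτ)

/-- **(ALG34)**: the statement of S34 from `S34A_UnipStmt N q` (all packages of track 4 are on
main). -/
theorem S34A_main [CharZero 𝒪] (hp : p.Prime)
    (hp𝒪 : (p : 𝒪) ∈ IsLocalRing.maximalIdeal 𝒪) (hpS : p ∈ S)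
    (hNS : ∀ q : ℕ, q.Prime → q ∣ N → q ∈ S)
    (H : CuspForm.HeckeGaloisRepDatum N (↑S : Set ℕ) 𝒪 θ T)
    (q : ℕ) (hq : q.Prime) (hqp : q ≠ p) (hun : S34A_UnipStmt N q) :
    H.ρ.IsUnipotentOnInertiaAt q :=
  S34A_of_packages (Fermat.Agent.GalRep.KMF_kappa_final N)
    (fun ℓ _ => Fermat.Agent.GalRep.GRHX_heckeES N ℓ)
    (Fermat.Agent.GalRep.ES_unram Fermat.Agent.GalRep.GRT3_s18 Fermat.Agent.GalRep.GRT3_ri N)
    (GR_fin N (Fermat.Agent.GalRep.KMF_kappa_final N))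
    hp hp𝒪 hpS hNS H q hq hqp hun

/-- the same from the form `(τ - 1)² = 0`. -/
theorem S34A_main_sq [CharZero 𝒪] (hp : p.Prime)
    (hp𝒪 : (p : 𝒪) ∈ IsLocalRing.maximalIdeal 𝒪) (hpS : p ∈ S)
    (hNS : ∀ q : ℕ, q.Prime → q ∣ N → q ∈ S)
    (H : CuspForm.HeckeGaloisRepDatum N (↑S : Set ℕ) 𝒪 θ T)
    (q : ℕ) (hq : q.Prime) (hqp : q ≠ p) (hun : S34A_UnipSqStmt N q) :
    H.ρ.IsUnipotentOnInertiaAt q :=
  S34A_main hp hp𝒪 hpS hNS H q hq hqp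
    (S34A_unip_of_sq (Fermat.Agent.GalRep.KMF_kappa_final N) hun)

end datum

end Fermat.Agent.S34
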