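import Mathlib
import Fermat.Agent.S34.Alg34
import Fermat.Agent.S35.Iface

/-!
# TRACK 7 (NODE), package ALG34 (helper11), part 2: S34 from the shared target (UNI-K)

`S35A_UniK N' q` (helper29's `S35/Iface.lean`, level `N' * q`) is the target of ASM.

* `S34A_unipSq_of_uniK` : `S35A_UniK N' q → S34A_UnipSqStmt (N' * q) q`;
* `S34A_unipSq_of_dvd`  : for `q ∣ N`: `S35A_UniK (N / q) q → S34A_UnipSqStmt N q`;
* `S34A_main_uniK`      : the statement of S34 from (UNI-K) at all levels `N' * q`, `q ∤ N'`.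
-/

set_option autoImplicit false
set_option linter.unusedSectionVars false
set_option linter.unusedVariables false
set_option linter.style.haveILetI false

open ModularCurve

namespace Fermat.Agent.S34

open Fermat.Agent.GalRep Fermat.Agent.S16 Fermat.Agent.S31 Fermat.Agent.S35 CuspForm

theorem S34A_unipSq_of_uniK (N' q : ℕ) [NeZero (N' * q)] (h : S35A_UniK N' q) :
    S34A_UnipSqStmt (N' * q) q := by
  intro n hn hqn P hP τ hτ f hf
  have h1 := h n hn hqn P hP τ hτ f hf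
  rwa [mul_right_comm] at h1

theorem S34A_unipSq_of_dvd {N q : ℕ} [NeZero N] (hqN : q ∣ N)
    (h : ∀ [NeZero (N / q * q)], S35A_UniK (N / q) q) : S34A_UnipSqStmt N q := by
  have hN : N / q * q = N := Nat.div_mul_cancel hqN
  haveI : NeZero (N / q * q) := ⟨by rw [hN]; exact NeZero.ne N⟩
  have h1 := S34A_unipSq_of_uniK (N / q) q h
  rwa [hN] at h1

variable {p : ℕ} {N : ℕ} [NeZero N] {S : Finset ℕ}
  {𝒪 : Type} [CommRing 𝒪] [IsDomain 𝒪] [IsDiscreteValuationRing 𝒪]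
  [IsAdicComplete (IsLocalRing.maximalIdeal 𝒪) 𝒪]
  {θ : CuspForm.heckeAlgebra N 2 (↑S : Set ℕ) →+* IsLocalRing.ResidueField 𝒪}
  {T : Type} [CommRing T] [IsLocalRing T] [IsNoetherianRing T]
  [IsAdicComplete (IsLocalRing.maximalIdeal T) T] [Algebra 𝒪 T] [IsLocalHom (algebraMap 𝒪 T)]
  [Module.Finite 𝒪 T] [Module.Free 𝒪 T]

/-- **S34 from (UNI-K)** at the levels `N' * q`, `q ∤ N'`. -/
theorem S34A_main_uniK [CharZero 𝒪]
    (huni : ∀ (N' q : ℕ) [NeZero (N' * q)], q.Prime → ¬ q ∣ N' → S35A_UniK N' q)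
    (hp : p.Prime)
    (hp𝒪 : (p : 𝒪) ∈ IsLocalRing.maximalIdeal 𝒪) (hpS : p ∈ S)
    (hNS : ∀ q : ℕ, q.Prime → q ∣ N → q ∈ S)
    (H : CuspForm.HeckeGaloisRepDatum N (↑S : Set ℕ) 𝒪 θ T)
    (q : ℕ) (hq : q.Prime) (hqp : q ≠ p) (hqN : q ∣ N) (hq2 : ¬ q ^ 2 ∣ N) :
    H.ρ.IsUnipotentOnInertiaAt q := by
  have hndvd : ¬ q ∣ N / q := by
    intro hd
    apply hq2
    obtain ⟨c, hc⟩ := hd
    refine ⟨c, ?_⟩
    have hN : N / q * q = N := Nat.div_mul_cancel hqN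
    rw [← hN, hc]
    ring
  exact S34A_main_sq hp hp𝒪 hpS hNS H q hq hqp
    (S34A_unipSq_of_dvd hqN (huni (N / q) q hq hndvd))

end Fermat.Agent.S34
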