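import Mathlib

/-!
# TRACK 7 (NODE), package DSTEP (helper12): the D-step, abstract form

Pure algebra in a field `F` (in the application: `F = modularFunctionFieldBar (N * q)`, the
elements are Kummer generators, `T` = the trivial generators `c · gⁿ`, `Kp` = the NORMALISED Kummer
generators of the classes of `K' = K₁ ∩ K₂`).

* `S34D_uni`     : **(UNI)** `(τ − 1)² = 0`, from (RED1) `(τ − 1) f ∈ K'` and (K-tau) `τ = 1` on `K'`.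
* `S34D_frob4`   : **(FROB4)** `(σ² − q²)(σ² − 1) = 0`, from (RED2) `(σ + w) f ∈ K'`, (K-sig2)
                   `σ² = q²` on `K'`, and `w² = 1`, `σ w = w σ`   (`w` = Atkin–Lehner).
* `S34D_frob4_U` : the same from (RED2') `(σ − U) f ∈ K'`, (K-sig2), `U² f ≡ f`, `σ U = U σ`
                   (`U` = multiplicative `U_q`).
* `S34D_bes`     : **(BES)** `(σ − q U)(σ − U) = 0` from (RED2) , (K-sigw) `σ = −q w` on `K'`,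
                   and `U ≡ −w` on the classes involved.

Everything is multiplicative: "`x ≡ y`" means `x * y⁻¹ ∈ T`.
-/

set_option autoImplicit false

namespace Fermat.Agent.S34

variable {F : Type*} [Field F]

/-- a set of "trivial" elements of a field: nonzero, contains `1`, closed under products and
inverses. -/
structure S34D_IsTriv (T : Set F) : Prop where
  ne_zero : ∀ {a : F}, a ∈ T → a ≠ 0
  one_mem : (1 : F) ∈ T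
  mul_mem : ∀ {a b : F}, a ∈ T → b ∈ T → a * b ∈ T
  inv_mem : ∀ {a : F}, a ∈ T → a⁻¹ ∈ T

namespace S34D_IsTriv

variable {T : Set F}

theorem pow_mem (hT : S34D_IsTriv T) {a : F} (ha : a ∈ T) (m : ℕ) : a ^ m ∈ T := by
  induction m with
  | zero => rw [pow_zero]; exact hT.one_mem
  | succ m ih => rw [pow_succ]; exact hT.mul_mem ih ha

theorem div_mem (hT : S34D_IsTriv T) {a b : F} (ha : a ∈ T) (hb : b ∈ T) : a * b⁻¹ ∈ T :=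
  hT.mul_mem ha (hT.inv_mem hb)

/-- `x ≡ y` and `y ≡ z` give `x ≡ z`. -/
theorem trans (hT : S34D_IsTriv T) {x y z : F} (hy : y ≠ 0) (h1 : x * y⁻¹ ∈ T)
    (h2 : y * z⁻¹ ∈ T) : x * z⁻¹ ∈ T := by
  have h := hT.mul_mem h1 h2
  have e : x * y⁻¹ * (y * z⁻¹) = x * z⁻¹ := by
    field_simp
  rwa [e] at h

end S34D_IsTriv

/-- **(UNI)**, abstract: if `(τ − 1) f` is, up to a trivial factor, an element `u` of `Kp`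
(RED1), and `τ u ≡ u` for `u ∈ Kp` (K-tau), then `(τ − 1)² f ≡ 0`, i.e.
`τ(τ f) · (τ f)⁻² · f ∈ T`. -/
theorem S34D_uni {T Kp : Set F} (hT : S34D_IsTriv T) (τ : F →+* F)
    (hτT : ∀ t ∈ T, τ t ∈ T) (hu0 : ∀ u ∈ Kp, u ≠ 0)
    (hK : ∀ u ∈ Kp, τ u * u⁻¹ ∈ T)
    (f : F) (hR : ∃ u ∈ Kp, τ f * f⁻¹ * u⁻¹ ∈ T) :
    τ (τ f) * ((τ f) ^ 2)⁻¹ * f ∈ T := by
  obtain ⟨u, hu, ht⟩ := hR
  have hu' : u ≠ 0 := hu0 u hu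
  have hτu : τ u ≠ 0 := (map_ne_zero τ).mpr hu'
  -- t := (τ f / f) / u ∈ T;  τ t / t ∈ T;  τ u / u ∈ T
  have h1 : τ (τ f * f⁻¹ * u⁻¹) * (τ f * f⁻¹ * u⁻¹)⁻¹ ∈ T :=
    hT.mul_mem (hτT _ ht) (hT.inv_mem ht)
  have h2 := hT.mul_mem h1 (hK u hu)
  have e : τ (τ f * f⁻¹ * u⁻¹) * (τ f * f⁻¹ * u⁻¹)⁻¹ * (τ u * u⁻¹)
      = τ (τ f) * ((τ f) ^ 2)⁻¹ * f := by
    simp only [map_mul, map_inv₀, mul_inv, inv_inv]
    field_simp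
  rwa [e] at h2

/-- **(FROB4)**, abstract, `w`-form: if `(σ + w) f` is, up to a trivial factor, an element of `Kp`
(RED2), `σ² u ≡ u^{q²}` for `u ∈ Kp` (K-sig2), `w² = 1` and `σ w = w σ`, then
`(σ² − q²)(σ² − 1) f ≡ 0`, i.e. `σ⁴f · (σ²f)^{−(1+q²)} · f^{q²} ∈ T`. -/
theorem S34D_frob4 {T Kp : Set F} (hT : S34D_IsTriv T) (σ w : F →+* F)
    (hσT : ∀ t ∈ T, σ t ∈ T) (hwT : ∀ t ∈ T, w t ∈ T)
    (hww : ∀ x, w (w x) = x) (hσw : ∀ x, σ (w x) = w (σ x))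
    (q : ℕ) (hu0 : ∀ u ∈ Kp, u ≠ 0)
    (hK : ∀ u ∈ Kp, σ (σ u) * (u ^ (q ^ 2))⁻¹ ∈ T)
    (f : F) (hf : f ≠ 0) (hR : ∃ u ∈ Kp, σ f * w f * u⁻¹ ∈ T) :
    σ (σ (σ (σ f))) * ((σ (σ f)) ^ (1 + q ^ 2))⁻¹ * f ^ (q ^ 2) ∈ T := by
  obtain ⟨u, hu, ht⟩ := hR
  have hu' : u ≠ 0 := hu0 u hu
  -- t := y / u ∈ T with y = σ f · w f;  (σ² − q²) t ∈ T, (σ² − q²) u ∈ T
  have h1 : σ (σ (σ f * w f * u⁻¹)) * ((σ f * w f * u⁻¹) ^ (q ^ 2))⁻¹ ∈ T :=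
    hT.mul_mem (hσT _ (hσT _ ht)) (hT.inv_mem (hT.pow_mem ht _))
  have h2 := hT.mul_mem h1 (hK u hu)
  -- t₂ := (σ² − q²) y ∈ T
  have e2 : σ (σ (σ f * w f * u⁻¹)) * ((σ f * w f * u⁻¹) ^ (q ^ 2))⁻¹
        * (σ (σ u) * (u ^ (q ^ 2))⁻¹)
      = σ (σ (σ f * w f)) * ((σ f * w f) ^ (q ^ 2))⁻¹ := by
    have hσu : σ (σ u) ≠ 0 := (map_ne_zero σ).mpr ((map_ne_zero σ).mpr hu')
    simp only [map_mul, map_inv₀, mul_pow, inv_pow, mul_inv, inv_inv]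
    field_simp
  rw [e2] at h2
  -- (σ − w) t₂ ∈ T
  have h3 := hT.mul_mem (hσT _ h2) (hT.inv_mem (hwT _ h2))
  have ha : f ≠ 0 := hf
  have hb : σ f ≠ 0 := (map_ne_zero σ).mpr ha
  have hc : σ (σ f) ≠ 0 := (map_ne_zero σ).mpr hb
  have hd : σ (σ (σ f)) ≠ 0 := (map_ne_zero σ).mpr hc
  have hwb : w (σ f) ≠ 0 := (map_ne_zero w).mpr hb
  have hwd : w (σ (σ (σ f))) ≠ 0 := (map_ne_zero w).mpr hd
  have e3 : σ (σ (σ (σ f * w f)) * ((σ f * w f) ^ (q ^ 2))⁻¹)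
        * (w (σ (σ (σ f * w f)) * ((σ f * w f) ^ (q ^ 2))⁻¹))⁻¹
      = σ (σ (σ (σ f))) * ((σ (σ f)) ^ (1 + q ^ 2))⁻¹ * f ^ (q ^ 2) := by
    simp only [map_mul, map_inv₀, map_pow, mul_pow, mul_inv, inv_inv, hσw, hww]
    field_simp
    ring
  rwa [e3] at h3

/-- **(FROB4)**, abstract, `U`-form: if `(σ − U) f` is, up to a trivial factor, an element of `Kp`
(RED2'), `σ² u ≡ u^{q²}` for `u ∈ Kp` (K-sig2), `U² f ≡ f` and `σ U = U σ`, then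
`(σ² − q²)(σ² − 1) f ≡ 0`. -/
theorem S34D_frob4_U {T Kp : Set F} (hT : S34D_IsTriv T) (σ : F →+* F) (U : F →*₀ F)
    (hσT : ∀ t ∈ T, σ t ∈ T) (hUT : ∀ t ∈ T, U t ∈ T)
    (hσU : ∀ x, σ (U x) = U (σ x))
    (q : ℕ) (hu0 : ∀ u ∈ Kp, u ≠ 0)
    (hK : ∀ u ∈ Kp, σ (σ u) * (u ^ (q ^ 2))⁻¹ ∈ T)
    (f : F) (hf : f ≠ 0) (hUU : U (U f) * f⁻¹ ∈ T)
    (hR : ∃ u ∈ Kp, σ f * (U f)⁻¹ * u⁻¹ ∈ T) :
    σ (σ (σ (σ f))) * ((σ (σ f)) ^ (1 + q ^ 2))⁻¹ * f ^ (q ^ 2) ∈ T := by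
  obtain ⟨u, hu, ht⟩ := hR
  have hu' : u ≠ 0 := hu0 u hu
  have h1 : σ (σ (σ f * (U f)⁻¹ * u⁻¹)) * ((σ f * (U f)⁻¹ * u⁻¹) ^ (q ^ 2))⁻¹ ∈ T :=
    hT.mul_mem (hσT _ (hσT _ ht)) (hT.inv_mem (hT.pow_mem ht _))
  have h2 := hT.mul_mem h1 (hK u hu)
  have e2 : σ (σ (σ f * (U f)⁻¹ * u⁻¹)) * ((σ f * (U f)⁻¹ * u⁻¹) ^ (q ^ 2))⁻¹
        * (σ (σ u) * (u ^ (q ^ 2))⁻¹)
      = σ (σ (σ f * (U f)⁻¹)) * ((σ f * (U f)⁻¹) ^ (q ^ 2))⁻¹ := by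
    have hσu : σ (σ u) ≠ 0 := (map_ne_zero σ).mpr ((map_ne_zero σ).mpr hu')
    simp only [map_mul, map_inv₀, mul_pow, inv_pow, mul_inv, inv_inv]
    field_simp
  rw [e2] at h2
  -- (σ + U) t₂ ∈ T
  have h3 := hT.mul_mem (hσT _ h2) (hUT _ h2)
  -- s := U² f / f ∈ T, (σ² − q²) s ∈ T
  have h4 : σ (σ (U (U f) * f⁻¹)) * ((U (U f) * f⁻¹) ^ (q ^ 2))⁻¹ ∈ T :=
    hT.mul_mem (hσT _ (hσT _ hUU)) (hT.inv_mem (hT.pow_mem hUU _))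
  have h5 := hT.mul_mem h3 h4
  have ha : f ≠ 0 := hf
  have hb : σ f ≠ 0 := (map_ne_zero σ).mpr ha
  have hc : σ (σ f) ≠ 0 := (map_ne_zero σ).mpr hb
  have hd : σ (σ (σ f)) ≠ 0 := (map_ne_zero σ).mpr hc
  have hUa : U f ≠ 0 := (map_ne_zero U).mpr ha
  have hUb : U (σ f) ≠ 0 := (map_ne_zero U).mpr hb
  have hUc : U (σ (σ f)) ≠ 0 := (map_ne_zero U).mpr hc
  have hUd : U (σ (σ (σ f))) ≠ 0 := (map_ne_zero U).mpr hd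
  have hUUa : U (U f) ≠ 0 := (map_ne_zero U).mpr hUa
  have hUUc : U (U (σ (σ f))) ≠ 0 := (map_ne_zero U).mpr hUc
  have e5 : σ (σ (σ (σ f * (U f)⁻¹)) * ((σ f * (U f)⁻¹) ^ (q ^ 2))⁻¹)
        * U (σ (σ (σ f * (U f)⁻¹)) * ((σ f * (U f)⁻¹) ^ (q ^ 2))⁻¹)
        * (σ (σ (U (U f) * f⁻¹)) * ((U (U f) * f⁻¹) ^ (q ^ 2))⁻¹)
      = σ (σ (σ (σ f))) * ((σ (σ f)) ^ (1 + q ^ 2))⁻¹ * f ^ (q ^ 2) := by
    simp only [map_mul, map_inv₀, map_pow, mul_pow, mul_inv, inv_inv, inv_pow, hσU]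
    field_simp
    ring
  rwa [e5] at h5

/-- **(BES)**, abstract: if `(σ + w) f` is, up to a trivial factor, an element of `Kp` (RED2),
`σ u ≡ (w u)^{−q}` for `u ∈ Kp` (K-sigw), `w² = 1`, `σ w = w σ`, `U (σ f) ≡ (w (σ f))⁻¹`
(U = −w on the new classes) and `U² f ≡ f`, then
`(σ − q U)(σ − U) f ≡ 0`, i.e. `σ²f · (U σ f)^{−(1+q)} · (U U f)^q ∈ T`. -/
theorem S34D_bes {T Kp : Set F} (hT : S34D_IsTriv T) (σ w : F →+* F) (U : F →*₀ F)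
    (hσT : ∀ t ∈ T, σ t ∈ T) (hwT : ∀ t ∈ T, w t ∈ T)
    (hww : ∀ x, w (w x) = x) (hσw : ∀ x, σ (w x) = w (σ x))
    (q : ℕ) (hu0 : ∀ u ∈ Kp, u ≠ 0)
    (hK : ∀ u ∈ Kp, σ u * (w u) ^ q ∈ T)
    (f : F) (hf : f ≠ 0)
    (hUσf : U (σ f) * w (σ f) ∈ T) (hUUf : U (U f) * f⁻¹ ∈ T)
    (hR : ∃ u ∈ Kp, σ f * w f * u⁻¹ ∈ T) :
    σ (σ f) * ((U (σ f)) ^ (1 + q))⁻¹ * (U (U f)) ^ q ∈ T := by
  obtain ⟨u, hu, ht⟩ := hR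
  have hu' : u ≠ 0 := hu0 u hu
  -- (σ + q w) t ∈ T,  (σ + q w) u ∈ T, hence (σ + q w)(σ + w) f ∈ T
  have h1 : σ (σ f * w f * u⁻¹) * (w (σ f * w f * u⁻¹)) ^ q ∈ T :=
    hT.mul_mem (hσT _ ht) (hT.pow_mem (hwT _ ht) _)
  have h2 := hT.mul_mem h1 (hK u hu)
  have hσu : σ u ≠ 0 := (map_ne_zero σ).mpr hu'
  have hwu : w u ≠ 0 := (map_ne_zero w).mpr hu'
  have e2 : σ (σ f * w f * u⁻¹) * (w (σ f * w f * u⁻¹)) ^ q * (σ u * (w u) ^ q)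
      = σ (σ f) * (w (σ f)) ^ (1 + q) * f ^ q := by
    simp only [map_mul, map_inv₀, mul_pow, inv_pow, hσw, hww]
    field_simp
    ring
  rw [e2] at h2
  -- replace w(σ f) by (U σ f)⁻¹ and f by U U f
  have h3 := hT.mul_mem h2 (hT.inv_mem (hT.pow_mem hUσf (1 + q)))
  have h4 := hT.mul_mem h3 (hT.pow_mem hUUf q)
  have hb : σ f ≠ 0 := (map_ne_zero σ).mpr hf
  have hwb : w (σ f) ≠ 0 := (map_ne_zero w).mpr hb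
  have hUb : U (σ f) ≠ 0 := (map_ne_zero U).mpr hb
  have e4 : σ (σ f) * (w (σ f)) ^ (1 + q) * f ^ q * ((U (σ f) * w (σ f)) ^ (1 + q))⁻¹
        * (U (U f) * f⁻¹) ^ q
      = σ (σ f) * ((U (σ f)) ^ (1 + q))⁻¹ * (U (U f)) ^ q := by
    simp only [mul_pow, mul_inv, inv_pow]
    field_simp
  rwa [e4] at h4

end Fermat.Agent.S34
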