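import Mathlib
import Fermat.Agent.S34.DStep
import Fermat.Agent.S35.Iface
import Fermat.Agent.GalRep.TwrAct

/-!
# TRACK 7 (NODE), package DSTEP (helper12): the D-step on Kummer generators

Concrete form of `S34/DStep.lean` for `F = modularFunctionFieldBar L`:

* `S34D_uniK_gen`   : (RED1) + (K-tau) ⇒ `τ²f · (τf)⁻² · f` trivial          (one `τ`, one `f`);
* `S34D_frob4K_gen` : (RED2) + (K-sig2) + `w² = 1`, `σ w = w σ` ⇒
                      `σ⁴f · (σ²f)^{−(1+q²)} · f^{q²}` trivial                 (one `σ`, one `f`);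
* `S34D_uniK`       : the target `S35A_UniK N q` of ALG34/ALG35;
* `S34D_frob4K`     : the target `S35A_Frob4K N q` of ALG35.

Shape of the inputs (`V₁ = O₁.valuation`, `V₂ = O₂.valuation`, the two Gauss valuations at the
place in question):
* (RED1)  `∀ u ≠ 0, ∃ c h, c ≠ 0 ∧ h ≠ 0 ∧ V_i (τu · u⁻¹ · c · hⁿ − 1) < 1`   (= `S34R_kummer`);
* (RED2)  `∃ c h, c ≠ 0 ∧ h ≠ 0 ∧ V_i (σf · w f · c · hⁿ − 1) < 1`   for `q`-new `f`
          (= BRIDGE + RED2);
* (K-tau) `KM_IsKum n u → V_i (u − 1) < 1 → GR_IsTriv (τu · u⁻¹)`;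
* (K-sig2) `KM_IsKum n u → V_i (u − 1) < 1 → GR_IsTriv (σσu · (u^{q²})⁻¹)`   (= KACT).
-/

set_option autoImplicit false

open ModularCurve AlgebraicCurve CongruenceSubgroup

namespace Fermat.Agent.S34

open Fermat.Agent.GalRep Fermat.Agent.S16 Fermat.Agent.S41 Fermat.Agent.S24 Fermat.Agent.S35

section gen

variable {L : ℕ}

/-- the order of a constant at a place is `0`. -/
theorem S34D_ord_const (v : Place (AlgebraicClosure ℚ) ↥(modularFunctionFieldBar L))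
    (a : AlgebraicClosure ℚ) :
    v.ord (algebraMap (AlgebraicClosure ℚ) ↥(modularFunctionFieldBar L) a) = 0 := by
  rcases eq_or_ne a 0 with rfl | ha
  · simp
  · have hu : IsUnit (algebraMap (AlgebraicClosure ℚ) v.toValuationSubring a) :=
      (IsUnit.mk0 a ha).map (algebraMap (AlgebraicClosure ℚ) v.toValuationSubring)
    have := v.ord_coe_unit hu.unit
    simpa using this

/-- trivial generators are Kummer generators. -/
theorem S34D_isKum_of_isTriv {n : ℕ} {f : ↥(modularFunctionFieldBar L)}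
    (h : GR_IsTriv L n f) :
    KM_IsKum (AlgebraicClosure ℚ) ↥(modularFunctionFieldBar L) n f := by
  obtain ⟨c, g, hc, hg, rfl⟩ := h
  have hc' : algebraMap (AlgebraicClosure ℚ) ↥(modularFunctionFieldBar L) c ≠ 0 := by
    rwa [Ne, map_eq_zero]
  refine ⟨mul_ne_zero hc' (pow_ne_zero _ hg), fun v => ?_⟩
  rw [v.ord_mul hc' (pow_ne_zero _ hg), S34D_ord_const, zero_add, ← zpow_natCast, v.ord_zpow]
  exact Dvd.intro _ rfl

theorem S34D_isTriv_mul {n : ℕ} {a b : ↥(modularFunctionFieldBar L)}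
    (ha : GR_IsTriv L n a) (hb : GR_IsTriv L n b) : GR_IsTriv L n (a * b) := by
  obtain ⟨c, g, hc, hg, rfl⟩ := ha
  obtain ⟨c', g', hc', hg', rfl⟩ := hb
  refine ⟨c * c', g * g', mul_ne_zero hc hc', mul_ne_zero hg hg', ?_⟩
  rw [map_mul, mul_pow]
  ring

theorem S34D_isTriv_inv {n : ℕ} {a : ↥(modularFunctionFieldBar L)}
    (ha : GR_IsTriv L n a) : GR_IsTriv L n a⁻¹ := by
  obtain ⟨c, g, hc, hg, rfl⟩ := ha
  refine ⟨c⁻¹, g⁻¹, inv_ne_zero hc, inv_ne_zero hg, ?_⟩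
  rw [map_inv₀, inv_pow, mul_inv]

theorem S34D_isTriv_ne_zero {n : ℕ} {a : ↥(modularFunctionFieldBar L)}
    (ha : GR_IsTriv L n a) : a ≠ 0 := by
  obtain ⟨c, g, hc, hg, rfl⟩ := ha
  have hc' : algebraMap (AlgebraicClosure ℚ) ↥(modularFunctionFieldBar L) c ≠ 0 := by
    rwa [Ne, map_eq_zero]
  exact mul_ne_zero hc' (pow_ne_zero _ hg)

/-- the trivial generators form a "trivial set" in the sense of `S34/DStep.lean`. -/
theorem S34D_isTriv_GR (L n : ℕ) :
    S34D_IsTriv {f : ↥(modularFunctionFieldBar L) | GR_IsTriv L n f} where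
  ne_zero := fun h => S34D_isTriv_ne_zero h
  one_mem := GRT_isTriv_one n
  mul_mem := fun ha hb => S34D_isTriv_mul ha hb
  inv_mem := fun ha => S34D_isTriv_inv ha

/-- a `K'`-generator is, up to a trivial factor, a normalised Kummer generator. -/
theorem S34D_exists_normalised {n : ℕ} (O₁ O₂ : ValuationSubring ↥(modularFunctionFieldBar L))
    {g : ↥(modularFunctionFieldBar L)}
    (hg : KM_IsKum (AlgebraicClosure ℚ) ↥(modularFunctionFieldBar L) n g)
    (h : ∃ (c : AlgebraicClosure ℚ) (h : ↥(modularFunctionFieldBar L)), c ≠ 0 ∧ h ≠ 0 ∧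
      O₁.valuation (g * algebraMap (AlgebraicClosure ℚ) ↥(modularFunctionFieldBar L) c * h ^ n - 1)
        < 1 ∧
      O₂.valuation (g * algebraMap (AlgebraicClosure ℚ) ↥(modularFunctionFieldBar L) c * h ^ n - 1)
        < 1) :
    ∃ u ∈ {u : ↥(modularFunctionFieldBar L) |
        KM_IsKum (AlgebraicClosure ℚ) ↥(modularFunctionFieldBar L) n u ∧
        O₁.valuation (u - 1) < 1 ∧ O₂.valuation (u - 1) < 1},
      g * u⁻¹ ∈ {f : ↥(modularFunctionFieldBar L) | GR_IsTriv L n f} := by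
  obtain ⟨c, h, hc, hh, h1, h2⟩ := h
  have ht : GR_IsTriv L n
      (algebraMap (AlgebraicClosure ℚ) ↥(modularFunctionFieldBar L) c * h ^ n) :=
    ⟨c, h, hc, hh, rfl⟩
  have ht0 := S34D_isTriv_ne_zero ht
  refine ⟨g * (algebraMap (AlgebraicClosure ℚ) ↥(modularFunctionFieldBar L) c * h ^ n),
    ⟨GRT_isKum_mul hg (S34D_isKum_of_isTriv ht), ?_, ?_⟩, ?_⟩
  · rwa [← mul_assoc]
  · rwa [← mul_assoc]
  · show GR_IsTriv L n _
    have e : g * (g * (algebraMap (AlgebraicClosure ℚ) ↥(modularFunctionFieldBar L) c * h ^ n))⁻¹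
        = (algebraMap (AlgebraicClosure ℚ) ↥(modularFunctionFieldBar L) c * h ^ n)⁻¹ := by
      have hg0 := hg.1
      field_simp
    rw [e]
    exact S34D_isTriv_inv ht

/-- **(UNI-K)** for one `τ` and one `f`, from (RED1) and (K-tau). -/
theorem S34D_uniK_gen (n : ℕ) (τ : GQ) (O₁ O₂ : ValuationSubring ↥(modularFunctionFieldBar L))
    (hgalK : ∀ f : ↥(modularFunctionFieldBar L),
      KM_IsKum (AlgebraicClosure ℚ) ↥(modularFunctionFieldBar L) n f →
      KM_IsKum (AlgebraicClosure ℚ) ↥(modularFunctionFieldBar L) n (GR_gal L τ f))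
    (hRED1 : ∀ u : ↥(modularFunctionFieldBar L), u ≠ 0 →
      ∃ (c : AlgebraicClosure ℚ) (h : ↥(modularFunctionFieldBar L)), c ≠ 0 ∧ h ≠ 0 ∧
        O₁.valuation (GR_gal L τ u * u⁻¹ *
          algebraMap (AlgebraicClosure ℚ) ↥(modularFunctionFieldBar L) c * h ^ n - 1) < 1 ∧
        O₂.valuation (GR_gal L τ u * u⁻¹ *
          algebraMap (AlgebraicClosure ℚ) ↥(modularFunctionFieldBar L) c * h ^ n - 1) < 1)
    (hK : ∀ u : ↥(modularFunctionFieldBar L),
      KM_IsKum (AlgebraicClosure ℚ) ↥(modularFunctionFieldBar L) n u →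
      O₁.valuation (u - 1) < 1 → O₂.valuation (u - 1) < 1 →
      GR_IsTriv L n (GR_gal L τ u * u⁻¹))
    (f : ↥(modularFunctionFieldBar L))
    (hf : KM_IsKum (AlgebraicClosure ℚ) ↥(modularFunctionFieldBar L) n f) :
    GR_IsTriv L n (GR_gal L τ (GR_gal L τ f) * ((GR_gal L τ f) ^ 2)⁻¹ * f) := by
  have hg : KM_IsKum (AlgebraicClosure ℚ) ↥(modularFunctionFieldBar L) n
      (GR_gal L τ f * f⁻¹) := GRT_isKum_mul (hgalK f hf) (GRT_isKum_inv hf)
  have hR := S34D_exists_normalised O₁ O₂ hg (hRED1 f hf.1)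
  exact S34D_uni (S34D_isTriv_GR L n) (GR_gal L τ).toRingHom
    (fun t ht => GRT_isTriv_gal τ ht) (fun u hu => hu.1.1)
    (fun u hu => hK u hu.1 hu.2.1 hu.2.2) f hR

/-- **(FROB4-K)** for one `σ` and one `f`, from (RED2) and (K-sig2); `w` = Atkin–Lehner. -/
theorem S34D_frob4K_gen (n q : ℕ) (σ : GQ)
    (w : ↥(modularFunctionFieldBar L) →+* ↥(modularFunctionFieldBar L))
    (hww : ∀ x, w (w x) = x) (hσw : ∀ x, GR_gal L σ (w x) = w (GR_gal L σ x))
    (hwT : ∀ t, GR_IsTriv L n t → GR_IsTriv L n (w t))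
    (hwK : ∀ f : ↥(modularFunctionFieldBar L),
      KM_IsKum (AlgebraicClosure ℚ) ↥(modularFunctionFieldBar L) n f →
      KM_IsKum (AlgebraicClosure ℚ) ↥(modularFunctionFieldBar L) n (w f))
    (hgalK : ∀ f : ↥(modularFunctionFieldBar L),
      KM_IsKum (AlgebraicClosure ℚ) ↥(modularFunctionFieldBar L) n f →
      KM_IsKum (AlgebraicClosure ℚ) ↥(modularFunctionFieldBar L) n (GR_gal L σ f))
    (O₁ O₂ : ValuationSubring ↥(modularFunctionFieldBar L))
    (hK : ∀ u : ↥(modularFunctionFieldBar L),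
      KM_IsKum (AlgebraicClosure ℚ) ↥(modularFunctionFieldBar L) n u →
      O₁.valuation (u - 1) < 1 → O₂.valuation (u - 1) < 1 →
      GR_IsTriv L n (GR_gal L σ (GR_gal L σ u) * (u ^ (q ^ 2))⁻¹))
    (f : ↥(modularFunctionFieldBar L))
    (hf : KM_IsKum (AlgebraicClosure ℚ) ↥(modularFunctionFieldBar L) n f)
    (hRED2 : ∃ (c : AlgebraicClosure ℚ) (h : ↥(modularFunctionFieldBar L)), c ≠ 0 ∧ h ≠ 0 ∧
        O₁.valuation (GR_gal L σ f * w f *
          algebraMap (AlgebraicClosure ℚ) ↥(modularFunctionFieldBar L) c * h ^ n - 1) < 1 ∧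
        O₂.valuation (GR_gal L σ f * w f *
          algebraMap (AlgebraicClosure ℚ) ↥(modularFunctionFieldBar L) c * h ^ n - 1) < 1) :
    GR_IsTriv L n
      (GR_gal L σ (GR_gal L σ (GR_gal L σ (GR_gal L σ f)))
        * ((GR_gal L σ (GR_gal L σ f)) ^ (1 + q ^ 2))⁻¹ * f ^ (q ^ 2)) := by
  have hg : KM_IsKum (AlgebraicClosure ℚ) ↥(modularFunctionFieldBar L) n
      (GR_gal L σ f * w f) := GRT_isKum_mul (hgalK f hf) (hwK f hf)
  have hR := S34D_exists_normalised O₁ O₂ hg hRED2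
  exact S34D_frob4 (S34D_isTriv_GR L n) (GR_gal L σ).toRingHom w
    (fun t ht => GRT_isTriv_gal σ ht) hwT hww hσw q (fun u hu => hu.1.1)
    (fun u hu => hK u hu.1 hu.2.1 hu.2.2) f hf.1 hR

end gen

/-- **(UNI-K)** = `S35A_UniK N q`, from (RED1) and (K-tau) at every place `P ∣ q`.
`O₁ P`, `O₂ P` are the two Gauss valuation rings of `F_{Nq}` at `P`. -/
theorem S34D_uniK (N q : ℕ) [NeZero (N * q)]
    (O₁ O₂ : ValuationSubring (AlgebraicClosure ℚ) →
      ValuationSubring ↥(modularFunctionFieldBar (N * q)))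
    (hgalK : ∀ (n : ℕ) (τ : GQ) (f : ↥(modularFunctionFieldBar (N * q))),
      KM_IsKum (AlgebraicClosure ℚ) ↥(modularFunctionFieldBar (N * q)) n f →
      KM_IsKum (AlgebraicClosure ℚ) ↥(modularFunctionFieldBar (N * q)) n (GR_gal (N * q) τ f))
    (hRED1 : ∀ (n : ℕ), 0 < n → ¬ q ∣ n →
      ∀ P : ValuationSubring (AlgebraicClosure ℚ), P.LiesOverPrime q →
      ∀ τ ∈ P.inertiaSubgroupIn ℚ, ∀ u : ↥(modularFunctionFieldBar (N * q)), u ≠ 0 →
      ∃ (c : AlgebraicClosure ℚ) (h : ↥(modularFunctionFieldBar (N * q))), c ≠ 0 ∧ h ≠ 0 ∧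
        (O₁ P).valuation (GR_gal (N * q) τ u * u⁻¹ *
          algebraMap (AlgebraicClosure ℚ) ↥(modularFunctionFieldBar (N * q)) c * h ^ n - 1) < 1 ∧
        (O₂ P).valuation (GR_gal (N * q) τ u * u⁻¹ *
          algebraMap (AlgebraicClosure ℚ) ↥(modularFunctionFieldBar (N * q)) c * h ^ n - 1) < 1)
    (hK : ∀ (n : ℕ), 0 < n → ¬ q ∣ n →
      ∀ P : ValuationSubring (AlgebraicClosure ℚ), P.LiesOverPrime q →
      ∀ τ ∈ P.inertiaSubgroupIn ℚ, ∀ u : ↥(modularFunctionFieldBar (N * q)),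
      KM_IsKum (AlgebraicClosure ℚ) ↥(modularFunctionFieldBar (N * q)) n u →
      (O₁ P).valuation (u - 1) < 1 → (O₂ P).valuation (u - 1) < 1 →
      GR_IsTriv (N * q) n (GR_gal (N * q) τ u * u⁻¹)) :
    S35A_UniK N q := by
  intro n hn hqn P hP τ hτ f hf
  exact S34D_uniK_gen n τ (O₁ P) (O₂ P) (hgalK n τ) (hRED1 n hn hqn P hP τ hτ)
    (hK n hn hqn P hP τ hτ) f hf

/-- **(FROB4-K)** = `S35A_Frob4K N q`, from (BRIDGE + RED2) and (K-sig2) at every place `A ∣ q`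
with Frobenius lift `σ`; `w` = Atkin–Lehner involution `w_q` of `F_{Nq}`. -/
theorem S34D_frob4K (N q : ℕ) [NeZero N] [NeZero q] [NeZero (N * q)] [Fact q.Prime]
    (w : ↥(modularFunctionFieldBar (N * q)) →+* ↥(modularFunctionFieldBar (N * q)))
    (hww : ∀ x, w (w x) = x)
    (hσw : ∀ (σ : GQ) (x : ↥(modularFunctionFieldBar (N * q))),
      GR_gal (N * q) σ (w x) = w (GR_gal (N * q) σ x))
    (hwT : ∀ (n : ℕ) (t : ↥(modularFunctionFieldBar (N * q))),
      GR_IsTriv (N * q) n t → GR_IsTriv (N * q) n (w t))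
    (hwK : ∀ (n : ℕ) (f : ↥(modularFunctionFieldBar (N * q))),
      KM_IsKum (AlgebraicClosure ℚ) ↥(modularFunctionFieldBar (N * q)) n f →
      KM_IsKum (AlgebraicClosure ℚ) ↥(modularFunctionFieldBar (N * q)) n (w f))
    (hgalK : ∀ (n : ℕ) (τ : GQ) (f : ↥(modularFunctionFieldBar (N * q))),
      KM_IsKum (AlgebraicClosure ℚ) ↥(modularFunctionFieldBar (N * q)) n f →
      KM_IsKum (AlgebraicClosure ℚ) ↥(modularFunctionFieldBar (N * q)) n (GR_gal (N * q) τ f))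
    (O₁ O₂ : ValuationSubring (AlgebraicClosure ℚ) →
      ValuationSubring ↥(modularFunctionFieldBar (N * q)))
    (hK : ∀ (n : ℕ), 0 < n → ¬ q ∣ n → ∀ (σ : GQ)
      (A : ValuationSubring (AlgebraicClosure ℚ)), A.LiesOverPrime q → A.IsFrobeniusAt σ q →
      ∀ u : ↥(modularFunctionFieldBar (N * q)),
      KM_IsKum (AlgebraicClosure ℚ) ↥(modularFunctionFieldBar (N * q)) n u →
      (O₁ A).valuation (u - 1) < 1 → (O₂ A).valuation (u - 1) < 1 →
      GR_IsTriv (N * q) n (GR_gal (N * q) σ (GR_gal (N * q) σ u) * (u ^ (q ^ 2))⁻¹))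
    (hRED2 : ∀ (n : ℕ), 0 < n → ¬ q ∣ n → ∀ (σ : GQ)
      (A : ValuationSubring (AlgebraicClosure ℚ)), A.LiesOverPrime q → A.IsFrobeniusAt σ q →
      ∀ (f : ↥(modularFunctionFieldBar (N * q))) (z : ↥(parInt (N * q))),
      z ∈ S41D_B N q →
      KM_IsKum (AlgebraicClosure ℚ) ↥(modularFunctionFieldBar (N * q)) n f →
      GR_KChar (N * q) n f
        ((GRT_red (N * q) n z : ↥(GRT_X (N * q) n)) : Additive (Gamma0 (N * q)) →+ ZMod n) →
      ∃ (c : AlgebraicClosure ℚ) (h : ↥(modularFunctionFieldBar (N * q))), c ≠ 0 ∧ h ≠ 0 ∧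
        (O₁ A).valuation (GR_gal (N * q) σ f * w f *
          algebraMap (AlgebraicClosure ℚ) ↥(modularFunctionFieldBar (N * q)) c * h ^ n - 1) < 1 ∧
        (O₂ A).valuation (GR_gal (N * q) σ f * w f *
          algebraMap (AlgebraicClosure ℚ) ↥(modularFunctionFieldBar (N * q)) c * h ^ n - 1) < 1) :
    S35A_Frob4K N q := by
  intro n hn hqn σ hσ f z hz hf hχ
  obtain ⟨A, hA, hAσ⟩ := hσ
  exact S34D_frob4K_gen n q σ w hww (hσw σ) (hwT n) (hwK n) (hgalK n σ) (O₁ A) (O₂ A)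
    (hK n hn hqn σ A hA hAσ) f hf (hRED2 n hn hqn σ A hA hAσ f z hz hf hχ)

end Fermat.Agent.S34
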