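import Mathlib
import Fermat.Agent.S24.EvDegEq
import Fermat.Agent.S24.FInd

/-!
# TRACK 7 (S34 + S35), package P-WQ (helper13): the Atkin–Lehner involution `w_q` of `F_N`, `N = q M`

For `q w - M y = 1` put `γ₁ = [[1, y], [M, q w]] ∈ SL(2, ℤ)` and `W τ = γ₁ • (q τ)`, i.e.
`W = [[q, y], [N, q w]]` (determinant `q`).  Then `j(d · Wτ) = j(q d τ)` and `j(q d · W τ) = j(d τ)`
for `d ∣ M`, so precomposition with `W` stabilises the analytic realisation of
`F_N = modularFunctionFieldBar N` and induces a `ℚ̄`-algebra automorphism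

  `S34WQ_wq : F_N ≃ₐ[ℚ̄] F_N`,  `w_q (j(q^d)) = j(q^{q d})`, `w_q (j(q^{q d})) = j(q^d)`  (`d ∣ M`),

which is an involution (checked on generators) and does not depend on `w, y`.
-/

set_option autoImplicit false
set_option synthInstance.maxHeartbeats 400000

open UpperHalfPlane hiding I
open scoped MatrixGroups Manifold ModularForm
open CongruenceSubgroup ModularCurve

noncomputable section

namespace Fermat.Agent.S34

open Fermat.Agent.S24 Fermat.Agent.S28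

/-- the matrix `[[a, b], [c, d]]` of determinant one. -/
def S34WQ_sl (a b c d : ℤ) (h : a * d - b * c = 1) : SL(2, ℤ) :=
  ⟨!![a, b; c, d], by rw [Matrix.det_fin_two_of]; exact h⟩

theorem S34WQ_coe_sl_smul (a b c d : ℤ) (h : a * d - b * c = 1) (z : ℍ) :
    ((S34WQ_sl a b c d h • z : ℍ) : ℂ) = ((a : ℂ) * z + b) / ((c : ℂ) * z + d) := by
  rw [UpperHalfPlane.coe_specialLinearGroup_apply]
  simp [S34WQ_sl]

/-- the Atkin–Lehner map `τ ↦ (q τ + y) / (N τ + q w)`, `N = q M`, `q w - M y = 1`. -/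
def S34WQ_w (q M : ℕ) (w y : ℤ) (h : (q : ℤ) * w - (M : ℤ) * y = 1) (τ : ℍ) : ℍ :=
  S34WQ_sl 1 y M (q * w) (by linear_combination h) • (ut q 0 1 • τ)

/-- a right inverse of `S34WQ_w`. -/
def S34WQ_wInv (q M : ℕ) (w y : ℤ) (h : (q : ℤ) * w - (M : ℤ) * y = 1) (τ : ℍ) : ℍ :=
  ut 1 0 q • ((S34WQ_sl 1 y M (q * w) (by linear_combination h))⁻¹ • τ)

theorem S34WQ_ut_ut {q : ℕ} (hq : 0 < q) (τ : ℍ) : ut q 0 1 • (ut 1 0 q • τ) = τ := by
  apply UpperHalfPlane.ext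
  rw [coe_ut_smul hq one_pos, coe_ut_smul one_pos hq]
  have h1 : (q : ℂ) ≠ 0 := Nat.cast_ne_zero.mpr hq.ne'
  simp only [Nat.cast_zero, Nat.cast_one, add_zero, div_one, one_mul]
  field_simp

theorem S34WQ_w_wInv {q M : ℕ} (hq : 0 < q) (w y : ℤ) (h : (q : ℤ) * w - (M : ℤ) * y = 1)
    (τ : ℍ) : S34WQ_w q M w y h (S34WQ_wInv q M w y h τ) = τ := by
  rw [S34WQ_w, S34WQ_wInv, S34WQ_ut_ut hq, smul_inv_smul]

theorem S34WQ_mdifferentiable_w (q M : ℕ) (w y : ℤ) (h : (q : ℤ) * w - (M : ℤ) * y = 1) :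
    MDifferentiable 𝓘(ℂ) 𝓘(ℂ) (S34WQ_w q M w y h) :=
  (mdifferentiable_SL_smul _).comp (mdifferentiable_ut_smul q)

theorem S34WQ_coe_w {q M : ℕ} (hq : 0 < q) (w y : ℤ) (h : (q : ℤ) * w - (M : ℤ) * y = 1)
    (τ : ℍ) :
    ((S34WQ_w q M w y h τ : ℍ) : ℂ) =
      ((q : ℂ) * τ + y) / ((M : ℂ) * ((q : ℂ) * τ) + (q : ℂ) * w) := by
  rw [S34WQ_w, S34WQ_coe_sl_smul, coe_ut_smul hq one_pos]
  simp

/-- `d · W τ = γ • (q d τ)` for `d e = M`. -/
theorem S34WQ_ut_smul_w {q M d e : ℕ} (hq : 0 < q) (hd : 0 < d) (hde : d * e = M)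
    (w y : ℤ) (h : (q : ℤ) * w - (M : ℤ) * y = 1) (τ : ℍ) :
    ut d 0 1 • S34WQ_w q M w y h τ =
      S34WQ_sl 1 (d * y) e (q * w) (by rw [← hde] at h; push_cast at h; linear_combination h) •
        (ut (q * d) 0 1 • τ) := by
  apply UpperHalfPlane.ext
  rw [coe_ut_smul hd one_pos, S34WQ_coe_w hq, S34WQ_coe_sl_smul,
    coe_ut_smul (Nat.mul_pos hq hd) one_pos]
  have hden : (M : ℂ) * ((q : ℂ) * τ) + (q : ℂ) * w ≠ 0 := by
    have := UpperHalfPlane.denom_ne_zero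
      (S34WQ_sl 1 y M (q * w) (by linear_combination h)) (ut q 0 1 • τ)
    rw [ModularGroup.denom_apply, coe_ut_smul hq one_pos] at this
    simpa [S34WQ_sl] using this
  have hM : (M : ℂ) = (d : ℂ) * e := by rw [← hde]; push_cast; ring
  have hden' : (e : ℂ) * (((q * d : ℕ) : ℂ) * τ) + (q : ℂ) * w ≠ 0 := by
    have e1 : (e : ℂ) * (((q * d : ℕ) : ℂ) * τ) + (q : ℂ) * w
        = (M : ℂ) * ((q : ℂ) * τ) + (q : ℂ) * w := by rw [hM]; push_cast; ring
    rw [e1]; exact hden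
  simp only [Nat.cast_zero, Nat.cast_one, add_zero, div_one, Int.cast_mul, Int.cast_natCast,
    Int.cast_one, one_mul]
  rw [mul_div_assoc', div_eq_div_iff hden hden']
  rw [hM]; push_cast; ring

/-- `q d · W τ = γ' • (d τ)` for `d e = M`. -/
theorem S34WQ_ut_smul_w' {q M d e : ℕ} (hq : 0 < q) (hd : 0 < d) (hde : d * e = M)
    (w y : ℤ) (h : (q : ℤ) * w - (M : ℤ) * y = 1) (τ : ℍ) :
    ut (q * d) 0 1 • S34WQ_w q M w y h τ =
      S34WQ_sl q (d * y) e w (by rw [← hde] at h; push_cast at h; linear_combination h) •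
        (ut d 0 1 • τ) := by
  apply UpperHalfPlane.ext
  rw [coe_ut_smul (Nat.mul_pos hq hd) one_pos, S34WQ_coe_w hq, S34WQ_coe_sl_smul,
    coe_ut_smul hd one_pos]
  have hq' : (q : ℂ) ≠ 0 := Nat.cast_ne_zero.mpr hq.ne'
  have hden : (M : ℂ) * ((q : ℂ) * τ) + (q : ℂ) * w ≠ 0 := by
    have := UpperHalfPlane.denom_ne_zero
      (S34WQ_sl 1 y M (q * w) (by linear_combination h)) (ut q 0 1 • τ)
    rw [ModularGroup.denom_apply, coe_ut_smul hq one_pos] at this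
    simpa [S34WQ_sl] using this
  have hM : (M : ℂ) = (d : ℂ) * e := by rw [← hde]; push_cast; ring
  have hden' : (e : ℂ) * ((d : ℂ) * τ) + (w : ℂ) ≠ 0 := by
    intro h0
    apply hden
    have : (M : ℂ) * ((q : ℂ) * τ) + (q : ℂ) * w = q * ((e : ℂ) * ((d : ℂ) * τ) + w) := by
      rw [hM]; ring
    rw [this, h0, mul_zero]
  simp only [Nat.cast_zero, Nat.cast_one, add_zero, div_one, Int.cast_mul, Int.cast_natCast]
  rw [mul_div_assoc', div_eq_div_iff hden hden']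
  rw [hM]; push_cast; ring

theorem S34WQ_jFun_w {q M d e : ℕ} (hq : 0 < q) (hd : 0 < d) (hde : d * e = M)
    (w y : ℤ) (h : (q : ℤ) * w - (M : ℤ) * y = 1) (τ : ℍ) :
    jFun d (S34WQ_w q M w y h τ) = jFun (q * d) τ := by
  rw [jFun_eq_jfun', jFun_eq_jfun', S34WQ_ut_smul_w hq hd hde, S24_jfun_smul]

theorem S34WQ_jFun_w' {q M d e : ℕ} (hq : 0 < q) (hd : 0 < d) (hde : d * e = M)
    (w y : ℤ) (h : (q : ℤ) * w - (M : ℤ) * y = 1) (τ : ℍ) :
    jFun (q * d) (S34WQ_w q M w y h τ) = jFun d τ := by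
  rw [jFun_eq_jfun', jFun_eq_jfun', S34WQ_ut_smul_w' hq hd hde, S24_jfun_smul]

/-! ### precomposition with `W` on holomorphic and meromorphic functions -/

/-- precomposition with `W` on holomorphic functions. -/
def S34WQ_holW (q M : ℕ) (w y : ℤ) (h : (q : ℤ) * w - (M : ℤ) * y = 1) : Hol →ₐ[ℂ] Hol where
  toFun f := ⟨fun τ => (f : ℍ → ℂ) (S34WQ_w q M w y h τ),
    f.2.comp (S34WQ_mdifferentiable_w q M w y h)⟩
  map_one' := rfl
  map_mul' _ _ := rfl
  map_zero' := rfl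
  map_add' _ _ := rfl
  commutes' _ := rfl

@[simp]
theorem S34WQ_holW_apply (q M : ℕ) (w y : ℤ) (h : (q : ℤ) * w - (M : ℤ) * y = 1) (f : Hol)
    (τ : ℍ) : (S34WQ_holW q M w y h f : ℍ → ℂ) τ = (f : ℍ → ℂ) (S34WQ_w q M w y h τ) := rfl

theorem S34WQ_holW_injective {q M : ℕ} (hq : 0 < q) (w y : ℤ)
    (h : (q : ℤ) * w - (M : ℤ) * y = 1) : Function.Injective (S34WQ_holW q M w y h) := by
  intro f g hfg
  rw [hol_ext_iff]
  intro τ
  have h1 := congrArg (fun F : Hol => (F : ℍ → ℂ) (S34WQ_wInv q M w y h τ)) hfg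
  simp only [S34WQ_holW_apply, S34WQ_w_wInv hq] at h1
  exact h1

theorem S34WQ_holW_jHol {q M d e : ℕ} (hq : 0 < q) (hd : 0 < d) (hde : d * e = M)
    (w y : ℤ) (h : (q : ℤ) * w - (M : ℤ) * y = 1) :
    S34WQ_holW q M w y h (jHol d) = jHol (q * d) := by
  rw [hol_ext_iff]
  intro τ
  rw [S34WQ_holW_apply, jHol_apply, jHol_apply, S34WQ_jFun_w hq hd hde]

theorem S34WQ_holW_jHol' {q M d e : ℕ} (hq : 0 < q) (hd : 0 < d) (hde : d * e = M)
    (w y : ℤ) (h : (q : ℤ) * w - (M : ℤ) * y = 1) :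
    S34WQ_holW q M w y h (jHol (q * d)) = jHol d := by
  rw [hol_ext_iff]
  intro τ
  rw [S34WQ_holW_apply, jHol_apply, jHol_apply, S34WQ_jFun_w' hq hd hde]

/-- precomposition with `W` on meromorphic functions. -/
def S34WQ_merW {q M : ℕ} (hq : 0 < q) (w y : ℤ) (h : (q : ℤ) * w - (M : ℤ) * y = 1) :
    Mer →+* Mer :=
  IsFractionRing.map (A := Hol) (B := Hol) (K := Mer) (L := Mer)
    (j := (S34WQ_holW q M w y h).toRingHom) (S34WQ_holW_injective hq w y h)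

theorem S34WQ_merW_algebraMap {q M : ℕ} (hq : 0 < q) (w y : ℤ)
    (h : (q : ℤ) * w - (M : ℤ) * y = 1) (f : Hol) :
    S34WQ_merW hq w y h (algebraMap Hol Mer f) = algebraMap Hol Mer (S34WQ_holW q M w y h f) := by
  rw [S34WQ_merW, IsFractionRing.map, IsLocalization.map_eq]
  rfl

theorem S34WQ_merW_const {q M : ℕ} (hq : 0 < q) (w y : ℤ)
    (h : (q : ℤ) * w - (M : ℤ) * y = 1) (c : ℂ) :
    S34WQ_merW hq w y h (algebraMap ℂ Mer c) = algebraMap ℂ Mer c := by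
  rw [IsScalarTower.algebraMap_apply ℂ Hol Mer, S34WQ_merW_algebraMap, AlgHom.commutes]

/-! ### the automorphism of `F_N` -/

section field

variable {q M N : ℕ} [NeZero N] (hq : q.Prime) (hN : q * M = N)
  (w y : ℤ) (h : (q : ℤ) * w - (M : ℤ) * y = 1)

theorem S34WQ_merW_ev_const (a : AlgebraicClosure ℚ) :
    S34WQ_merW hq.pos w y h
        (ev N (algebraMap (AlgebraicClosure ℚ) ↥(modularFunctionFieldBar N) a)) =
      ev N (algebraMap (AlgebraicClosure ℚ) ↥(modularFunctionFieldBar N) a) := by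
  rw [(isEv_ev N).const, S34WQ_merW_const]

include hN in
theorem S34WQ_merW_ev_jBar (d : ℕ) [NeZero d] [NeZero (q * d)] (hd : d ∣ M) :
    S34WQ_merW hq.pos w y h (ev N (jBar N d (hN ▸ hd.mul_left q))) =
      ev N (jBar N (q * d) (hN ▸ mul_dvd_mul_left q hd)) := by
  obtain ⟨e, he⟩ := hd
  rw [(isEv_ev N).gen, (isEv_ev N).gen, S34WQ_merW_algebraMap,
    S34WQ_holW_jHol hq.pos (Nat.pos_of_ne_zero (NeZero.ne d)) he.symm]

include hN in
theorem S34WQ_merW_ev_jBar' (d : ℕ) [NeZero d] [NeZero (q * d)] (hd : d ∣ M) :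
    S34WQ_merW hq.pos w y h (ev N (jBar N (q * d) (hN ▸ mul_dvd_mul_left q hd))) =
      ev N (jBar N d (hN ▸ hd.mul_left q)) := by
  obtain ⟨e, he⟩ := hd
  rw [(isEv_ev N).gen, (isEv_ev N).gen, S34WQ_merW_algebraMap,
    S34WQ_holW_jHol' hq.pos (Nat.pos_of_ne_zero (NeZero.ne d)) he.symm]

include hN in
/-- `W` preserves the analytic realisation of `F_N`. -/
theorem S34WQ_exists (f : ↥(modularFunctionFieldBar N)) :
    ∃ g : ↥(modularFunctionFieldBar N), ev N g = S34WQ_merW hq.pos w y h (ev N f) := by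
  revert f
  apply F_induction N
  · intro c
    exact ⟨_, (S34WQ_merW_ev_const (N := N) hq w y h c).symm⟩
  · intro d _ hd
    by_cases hqd : q ∣ d
    · obtain ⟨d', rfl⟩ := hqd
      have hd' : d' ∣ M := by
        rw [← hN] at hd
        exact (Nat.mul_dvd_mul_iff_left hq.pos).mp hd
      have : NeZero d' := ⟨by
        rintro rfl
        exact NeZero.ne (q * 0) (by simp)⟩
      exact ⟨jBar N d' (hN ▸ hd'.mul_left q), (S34WQ_merW_ev_jBar' hq hN w y h d' hd').symm⟩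
    · have hd' : d ∣ M := by
        rw [← hN] at hd
        exact (Nat.Coprime.dvd_mul_left
          ((Nat.Prime.coprime_iff_not_dvd hq).mpr hqd).symm).mp hd
      have : NeZero (q * d) := ⟨Nat.mul_ne_zero hq.ne_zero (NeZero.ne d)⟩
      exact ⟨jBar N (q * d) (hN ▸ mul_dvd_mul_left q hd'),
        (S34WQ_merW_ev_jBar hq hN w y h d hd').symm⟩
  · rintro x y' ⟨gx, hx⟩ ⟨gy, hy⟩
    exact ⟨gx + gy, by
      rw [RingHom.map_add (ev N), RingHom.map_add (ev N),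
        RingHom.map_add (S34WQ_merW hq.pos w y h), hx, hy]⟩
  · rintro x y' ⟨gx, hx⟩ ⟨gy, hy⟩
    exact ⟨gx * gy, by
      rw [RingHom.map_mul (ev N), RingHom.map_mul (ev N),
        RingHom.map_mul (S34WQ_merW hq.pos w y h), hx, hy]⟩
  · rintro x ⟨gx, hx⟩
    exact ⟨gx⁻¹, by
      rw [_root_.map_inv₀ (ev N), _root_.map_inv₀ (ev N),
        _root_.map_inv₀ (S34WQ_merW hq.pos w y h), hx]⟩

/-- the Atkin–Lehner map of `F_N` as a function. -/
def S34WQ_fun (f : ↥(modularFunctionFieldBar N)) : ↥(modularFunctionFieldBar N) :=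
  Classical.choose (S34WQ_exists hq hN w y h f)

theorem S34WQ_ev_fun (f : ↥(modularFunctionFieldBar N)) :
    ev N (S34WQ_fun hq hN w y h f) = S34WQ_merW hq.pos w y h (ev N f) :=
  Classical.choose_spec (S34WQ_exists hq hN w y h f)

theorem S34WQ_fun_eq {f g : ↥(modularFunctionFieldBar N)}
    (hfg : ev N g = S34WQ_merW hq.pos w y h (ev N f)) : S34WQ_fun hq hN w y h f = g :=
  (ev N).injective (by rw [S34WQ_ev_fun, hfg])

/-- the Atkin–Lehner map as a `ℚ̄`-algebra endomorphism of `F_N`. -/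
def S34WQ_hom : ↥(modularFunctionFieldBar N) →ₐ[AlgebraicClosure ℚ]
    ↥(modularFunctionFieldBar N) where
  toFun := S34WQ_fun hq hN w y h
  map_one' := S34WQ_fun_eq hq hN w y h (by rw [map_one, map_one])
  map_zero' := S34WQ_fun_eq hq hN w y h (by rw [map_zero, map_zero])
  map_mul' x y' := S34WQ_fun_eq hq hN w y h (by
    rw [RingHom.map_mul (ev N), S34WQ_ev_fun, S34WQ_ev_fun, RingHom.map_mul (ev N),
      RingHom.map_mul (S34WQ_merW hq.pos w y h)])
  map_add' x y' := S34WQ_fun_eq hq hN w y h (by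
    rw [RingHom.map_add (ev N), S34WQ_ev_fun, S34WQ_ev_fun, RingHom.map_add (ev N),
      RingHom.map_add (S34WQ_merW hq.pos w y h)])
  commutes' c := S34WQ_fun_eq hq hN w y h (S34WQ_merW_ev_const (N := N) hq w y h c).symm

theorem S34WQ_hom_jBar (d : ℕ) [NeZero d] [NeZero (q * d)] (hd : d ∣ M) :
    S34WQ_hom hq hN w y h (jBar N d (hN ▸ hd.mul_left q)) =
      jBar N (q * d) (hN ▸ mul_dvd_mul_left q hd) :=
  S34WQ_fun_eq hq hN w y h (S34WQ_merW_ev_jBar hq hN w y h d hd).symm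

theorem S34WQ_hom_jBar' (d : ℕ) [NeZero d] [NeZero (q * d)] (hd : d ∣ M) :
    S34WQ_hom hq hN w y h (jBar N (q * d) (hN ▸ mul_dvd_mul_left q hd)) =
      jBar N d (hN ▸ hd.mul_left q) :=
  S34WQ_fun_eq hq hN w y h (S34WQ_merW_ev_jBar' hq hN w y h d hd).symm

/-- `w_q` is an involution (checked on the generators). -/
theorem S34WQ_hom_hom (f : ↥(modularFunctionFieldBar N)) :
    S34WQ_hom hq hN w y h (S34WQ_hom hq hN w y h f) = f := by
  revert f
  apply F_induction N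
  · intro c
    rw [AlgHom.commutes, AlgHom.commutes]
  · intro d _ hd
    by_cases hqd : q ∣ d
    · obtain ⟨d', rfl⟩ := hqd
      have hd' : d' ∣ M := by
        rw [← hN] at hd
        exact (Nat.mul_dvd_mul_iff_left hq.pos).mp hd
      have : NeZero d' := ⟨by
        rintro rfl
        exact NeZero.ne (q * 0) (by simp)⟩
      rw [S34WQ_hom_jBar' hq hN w y h d' hd', S34WQ_hom_jBar hq hN w y h d' hd']
    · have hd' : d ∣ M := by
        rw [← hN] at hd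
        exact (Nat.Coprime.dvd_mul_left
          ((Nat.Prime.coprime_iff_not_dvd hq).mpr hqd).symm).mp hd
      have : NeZero (q * d) := ⟨Nat.mul_ne_zero hq.ne_zero (NeZero.ne d)⟩
      rw [S34WQ_hom_jBar hq hN w y h d hd', S34WQ_hom_jBar' hq hN w y h d hd']
  · intro x y' hx hy
    rw [map_add, map_add, hx, hy]
  · intro x y' hx hy
    rw [map_mul, map_mul, hx, hy]
  · intro x hx
    rw [map_inv₀, map_inv₀, hx]

end field

/-! ### the final automorphism, independent of choices -/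

theorem S34WQ_bezout {q M : ℕ} (hq : q.Prime) (hqM : ¬ q ∣ M) :
    ∃ w y : ℤ, (q : ℤ) * w - (M : ℤ) * y = 1 := by
  have hc : Nat.Coprime q M := (Nat.Prime.coprime_iff_not_dvd hq).mpr hqM
  have h1 := Int.gcd_eq_gcd_ab (q : ℤ) (M : ℤ)
  have h2 : Int.gcd (q : ℤ) (M : ℤ) = 1 := by
    rw [Int.gcd_natCast_natCast]; exact hc
  rw [h2] at h1
  refine ⟨Int.gcdA q M, -Int.gcdB q M, ?_⟩
  push_cast at h1
  linear_combination -h1

/-- the chosen Bezout coefficient `w`. -/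
def S34WQ_cw {q M : ℕ} (hq : q.Prime) (hqM : ¬ q ∣ M) : ℤ := (S34WQ_bezout hq hqM).choose

/-- the chosen Bezout coefficient `y`. -/
def S34WQ_cy {q M : ℕ} (hq : q.Prime) (hqM : ¬ q ∣ M) : ℤ :=
  (S34WQ_bezout hq hqM).choose_spec.choose

theorem S34WQ_ch {q M : ℕ} (hq : q.Prime) (hqM : ¬ q ∣ M) :
    (q : ℤ) * S34WQ_cw hq hqM - (M : ℤ) * S34WQ_cy hq hqM = 1 :=
  (S34WQ_bezout hq hqM).choose_spec.choose_spec

/-- the Atkin–Lehner endomorphism for the chosen Bezout coefficients. -/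
def S34WQ_homC {q M N : ℕ} [NeZero N] (hq : q.Prime) (hqM : ¬ q ∣ M) (hN : q * M = N) :
    ↥(modularFunctionFieldBar N) →ₐ[AlgebraicClosure ℚ] ↥(modularFunctionFieldBar N) :=
  S34WQ_hom hq hN (S34WQ_cw hq hqM) (S34WQ_cy hq hqM) (S34WQ_ch hq hqM)

theorem S34WQ_homC_homC {q M N : ℕ} [NeZero N] (hq : q.Prime) (hqM : ¬ q ∣ M)
    (hN : q * M = N) (f : ↥(modularFunctionFieldBar N)) :
    S34WQ_homC hq hqM hN (S34WQ_homC hq hqM hN f) = f :=
  S34WQ_hom_hom hq hN _ _ _ f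

/-- **The Atkin–Lehner involution `w_q` of `F_N`**, `N = q M`, `q` prime, `q ∤ M`:
a `ℚ̄`-algebra automorphism with `w_q (j(q^d)) = j(q^{q d})`, `w_q (j(q^{q d})) = j(q^d)` for `d ∣ M`. -/
def S34WQ_wq {q M N : ℕ} [NeZero N] (hq : q.Prime) (hqM : ¬ q ∣ M) (hN : q * M = N) :
    ↥(modularFunctionFieldBar N) ≃ₐ[AlgebraicClosure ℚ] ↥(modularFunctionFieldBar N) where
  toFun := S34WQ_homC hq hqM hN
  invFun := S34WQ_homC hq hqM hN
  left_inv := S34WQ_homC_homC hq hqM hN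
  right_inv := S34WQ_homC_homC hq hqM hN
  map_mul' := map_mul (S34WQ_homC hq hqM hN)
  map_add' := map_add (S34WQ_homC hq hqM hN)
  commutes' := AlgHom.commutes (S34WQ_homC hq hqM hN)

theorem S34WQ_wq_apply {q M N : ℕ} [NeZero N] (hq : q.Prime) (hqM : ¬ q ∣ M) (hN : q * M = N)
    (f : ↥(modularFunctionFieldBar N)) :
    S34WQ_wq hq hqM hN f = S34WQ_homC hq hqM hN f := rfl

section final

variable {q M N : ℕ} [NeZero N] (hq : q.Prime) (hqM : ¬ q ∣ M) (hN : q * M = N)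

/-- `w_q (j(q^d)) = j(q^{q d})` for `d ∣ M`. -/
theorem S34WQ_wq_jBar (d : ℕ) [NeZero d] [NeZero (q * d)] (hd : d ∣ M) :
    S34WQ_wq hq hqM hN (jBar N d (hN ▸ hd.mul_left q)) =
      jBar N (q * d) (hN ▸ mul_dvd_mul_left q hd) :=
  S34WQ_hom_jBar hq hN (S34WQ_cw hq hqM) (S34WQ_cy hq hqM) (S34WQ_ch hq hqM) d hd

/-- `w_q (j(q^{q d})) = j(q^d)` for `d ∣ M`. -/
theorem S34WQ_wq_jBar' (d : ℕ) [NeZero d] [NeZero (q * d)] (hd : d ∣ M) :
    S34WQ_wq hq hqM hN (jBar N (q * d) (hN ▸ mul_dvd_mul_left q hd)) =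
      jBar N d (hN ▸ hd.mul_left q) :=
  S34WQ_hom_jBar' hq hN (S34WQ_cw hq hqM) (S34WQ_cy hq hqM) (S34WQ_ch hq hqM) d hd

/-- `w_q² = 1`. -/
theorem S34WQ_wq_wq (f : ↥(modularFunctionFieldBar N)) :
    S34WQ_wq hq hqM hN (S34WQ_wq hq hqM hN f) = f :=
  S34WQ_homC_homC hq hqM hN f

theorem S34WQ_wq_symm_apply (f : ↥(modularFunctionFieldBar N)) :
    (S34WQ_wq hq hqM hN).symm f = S34WQ_wq hq hqM hN f := rfl

/-- analytic description: `w_q` is precomposition with `W = [[q, y], [N, q w]]`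
(`q w - M y = 1`) in the analytic realisation `ev N`. -/
theorem S34WQ_ev_wq : ∃ (w y : ℤ) (h : (q : ℤ) * w - (M : ℤ) * y = 1),
    ∀ f : ↥(modularFunctionFieldBar N),
      ev N (S34WQ_wq hq hqM hN f) = S34WQ_merW hq.pos w y h (ev N f) :=
  ⟨S34WQ_cw hq hqM, S34WQ_cy hq hqM, S34WQ_ch hq hqM,
    fun f => S34WQ_ev_fun hq hN (S34WQ_cw hq hqM) (S34WQ_cy hq hqM) (S34WQ_ch hq hqM) f⟩

/-- uniqueness: a ring endomorphism of `F_N` fixing the constants with the same values on the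
generators is `w_q`. -/
theorem S34WQ_wq_unique (φ : ↥(modularFunctionFieldBar N) →ₐ[AlgebraicClosure ℚ]
      ↥(modularFunctionFieldBar N))
    (h1 : ∀ (d : ℕ) [NeZero d] [NeZero (q * d)] (hd : d ∣ M),
      φ (jBar N d (hN ▸ hd.mul_left q)) = jBar N (q * d) (hN ▸ mul_dvd_mul_left q hd))
    (h2 : ∀ (d : ℕ) [NeZero d] [NeZero (q * d)] (hd : d ∣ M),
      φ (jBar N (q * d) (hN ▸ mul_dvd_mul_left q hd)) = jBar N d (hN ▸ hd.mul_left q))
    (f : ↥(modularFunctionFieldBar N)) : φ f = S34WQ_wq hq hqM hN f := by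
  revert f
  apply F_induction N
  · intro c
    rw [AlgHom.commutes, AlgEquiv.commutes]
  · intro d _ hd
    by_cases hqd : q ∣ d
    · obtain ⟨d', rfl⟩ := hqd
      have hd' : d' ∣ M := by
        rw [← hN] at hd
        exact (Nat.mul_dvd_mul_iff_left hq.pos).mp hd
      have : NeZero d' := ⟨by
        rintro rfl
        exact NeZero.ne (q * 0) (by simp)⟩
      rw [h2 d' hd', S34WQ_wq_jBar' hq hqM hN d' hd']
    · have hd' : d ∣ M := by
        rw [← hN] at hd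
        exact (Nat.Coprime.dvd_mul_left
          ((Nat.Prime.coprime_iff_not_dvd hq).mpr hqd).symm).mp hd
      have : NeZero (q * d) := ⟨Nat.mul_ne_zero hq.ne_zero (NeZero.ne d)⟩
      rw [h1 d hd', S34WQ_wq_jBar hq hqM hN d hd']
  · intro x y' hx hy
    rw [map_add, map_add, hx, hy]
  · intro x y' hx hy
    rw [map_mul, map_mul, hx, hy]
  · intro x hx
    rw [map_inv₀, map_inv₀, hx]

end final

end Fermat.Agent.S34
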