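import Mathlib
import Fermat.Prelude.Def_AlgebraicCurve_BaseChangeGalois

/-!
# TRACK 7 (S34 + S35), package RED1 (helper19), abstract part

`F / K` a function field (Prelude `Place`, `Divisor`, `Pic0`), `O₁ O₂` two valuation subrings of
`F` (the two Gauss valuations `V₁`, `V₂ = V₁ ∘ w_q`), `A` a valuation subring of `K`,
`g : SemilinearAut K F` acting trivially on the residue fields of `O₁`, `O₂` (an element of the
inertia group).  For every `n`-torsion class `x` of `Pic0 K F` the class `g • x - x` has a Kummer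
generator which is `≡ 1` at `O₁` and at `O₂`:

* `S34R_InK O₁ O₂ n x` : the predicate "`x ∈ K'`";
* `S34R_main` : `(n : ℤ) • x = 0 → S34R_InK O₁ O₂ n (g • x - x)`.

The Kummer generator `(g • u) / u` is `≡ 1` at `O₁` (after normalising `u` at `O₁`), but at `O₂` it
is only `≡ ζ` for a unit `ζ` of `A` (the tame character of `g`); it is corrected by `hⁿ` with
`h ≡ 1` at `O₁`, `h ≡ ζ^{-1/n}` at `O₂` (approximation).
-/

set_option autoImplicit false

open AlgebraicCurve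

namespace Fermat.Agent.S34

section val

variable {F : Type*} [Field F] (O : ValuationSubring F)

theorem S34R_val_eq_one_of_sub_one {a : F} (h : O.valuation (a - 1) < 1) : O.valuation a = 1 := by
  have e : a = 1 + (a - 1) := by ring
  rw [e]
  exact Valuation.map_one_add_of_lt _ h

theorem S34R_val_mul_sub_one {a b : F} (ha : O.valuation (a - 1) < 1)
    (hb : O.valuation (b - 1) < 1) : O.valuation (a * b - 1) < 1 := by
  have e : a * b - 1 = a * (b - 1) + (a - 1) := by ring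
  rw [e]
  refine lt_of_le_of_lt (O.valuation.map_add _ _) (max_lt ?_ ha)
  rw [map_mul, S34R_val_eq_one_of_sub_one O ha, one_mul]
  exact hb

theorem S34R_val_pow_sub_one {a : F} (ha : O.valuation (a - 1) < 1) (n : ℕ) :
    O.valuation (a ^ n - 1) < 1 := by
  induction n with
  | zero => simp
  | succ m ih =>
    rw [pow_succ]
    exact S34R_val_mul_sub_one O ih ha

/-- `a ≡ b` with `b` a unit implies `a / b ≡ 1` -/
theorem S34R_val_div_sub_one {a b : F} (hb : O.valuation b = 1)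
    (hab : O.valuation (a - b) < 1) : O.valuation (a * b⁻¹ - 1) < 1 := by
  have hb0 : b ≠ 0 := by
    intro h0
    rw [h0, map_zero] at hb
    exact zero_ne_one hb
  have e : a * b⁻¹ - 1 = (a - b) * b⁻¹ := by field_simp
  rw [e, map_mul, map_inv₀, hb, inv_one, mul_one]
  exact hab

end val

section ord

variable {K F : Type*} [Field K] [Field F] [Algebra K F]

theorem S34R_ord_algebraMap (P : Place K F) (a : K) : P.ord (algebraMap K F a) = 0 := by
  rcases eq_or_ne a 0 with rfl | ha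
  · simp
  · have hu : IsUnit (algebraMap K P.toValuationSubring a) :=
      (IsUnit.mk0 a ha).map (algebraMap K P.toValuationSubring)
    have := P.ord_coe_unit hu.unit
    simpa using this

theorem S34R_ord_mul_const_inv (P : Place K F) {u : F} (hu : u ≠ 0) {c : K} (hc : c ≠ 0) :
    P.ord (u * (algebraMap K F c)⁻¹) = P.ord u := by
  have hc' : algebraMap K F c ≠ 0 := by
    rw [Ne, map_eq_zero_iff _ (algebraMap K F).injective]
    exact hc
  rw [P.ord_mul hu (inv_ne_zero hc'), P.ord_inv, S34R_ord_algebraMap, neg_zero, add_zero]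

end ord

variable {K F : Type*} [Field K] [Field F] [Algebra K F]

/-- `x ∈ K'`: the class `x` has a Kummer generator `u` (`div u = n·D`, `[D] = x`) with
`u ≡ 1` at both valuations `O₁`, `O₂`. -/
def S34R_InK (O₁ O₂ : ValuationSubring F) (n : ℕ) (x : Pic0 K F) : Prop :=
  ∃ (D : Divisor.degZero (K := K) (F := F)) (u : F), u ≠ 0 ∧
    (∀ v : Place K F, (n : ℤ) * (D : Divisor K F) v = v.ord u) ∧ Pic0.mk D = x ∧
    O₁.valuation (u - 1) < 1 ∧ O₂.valuation (u - 1) < 1

/-- the zero class is in `K'` -/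
theorem S34R_inK_zero (O₁ O₂ : ValuationSubring F) (n : ℕ) :
    S34R_InK (K := K) O₁ O₂ n 0 :=
  ⟨0, 1, one_ne_zero, fun v => by simp, rfl, by simp, by simp⟩

/-- a Kummer generator of an `n`-torsion class -/
theorem S34R_exists_kummer (n : ℕ) (D : Divisor.degZero (K := K) (F := F))
    (hx : (n : ℤ) • Pic0.mk D = 0) :
    ∃ u : F, u ≠ 0 ∧ ∀ v : Place K F, (n : ℤ) * (D : Divisor K F) v = v.ord u := by
  have h1 : Pic0.mk ((n : ℤ) • D) = 0 := hx
  have h2 : ((n : ℤ) • D) ∈ (Divisor.principal (K := K) (F := F)).addSubgroupOf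
      (Divisor.degZero (K := K) (F := F)) := (QuotientAddGroup.eq_zero_iff _).1 h1
  obtain ⟨u, hu0, hu⟩ := (Divisor.mem_principal).1 (AddSubgroup.mem_addSubgroupOf.1 h2)
  refine ⟨u, hu0, fun v => ?_⟩
  rw [← hu v]
  simp

/-- a principal divisor of degree `0` has trivial class -/
theorem S34R_mk_eq_zero (Dh : Divisor.degZero (K := K) (F := F)) (h : F) (h0 : h ≠ 0)
    (hh : ∀ v : Place K F, (Dh : Divisor K F) v = v.ord h) : Pic0.mk Dh = 0 := by
  refine (QuotientAddGroup.eq_zero_iff _).2 ?_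
  exact AddSubgroup.mem_addSubgroupOf.2 ⟨h, h0, hh⟩

theorem S34R_smul_ne_zero (g : SemilinearAut K F) {f : F} (hf : f ≠ 0) : g • f ≠ 0 := by
  intro h0
  apply hf
  have := congrArg (fun x => g⁻¹ • x) h0
  simpa using this

theorem S34R_ord_smul' (g : SemilinearAut K F) (w : Place K F) (f : F) :
    w.ord (g • f) = (g⁻¹ • w).ord f := by
  have h1 := SemilinearAut.ord_smul g (g⁻¹ • w) f
  rw [smul_inv_smul] at h1
  exact h1

/-- **RED1, abstract form.** -/
theorem S34R_main [HasPrincipalDivisors K F]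
    (O₁ O₂ : ValuationSubring F) (A : ValuationSubring K) (n : ℕ)
    (g : SemilinearAut K F)
    (hA₁ : ∀ a : K, algebraMap K F a ∈ O₁ ↔ a ∈ A)
    (hA₂ : ∀ a : K, algebraMap K F a ∈ O₂ ↔ a ∈ A)
    (hc₁ : ∀ f : F, f ≠ 0 → ∃ c : K, c ≠ 0 ∧ O₁.valuation (f * (algebraMap K F c)⁻¹) = 1)
    (hc₂ : ∀ f : F, f ≠ 0 → ∃ c : K, c ≠ 0 ∧ O₂.valuation (f * (algebraMap K F c)⁻¹) = 1)
    (hg₁ : ∀ f ∈ O₁, O₁.valuation (g • f - f) < 1)
    (hg₂ : ∀ f ∈ O₂, O₂.valuation (g • f - f) < 1)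
    (hgv : ∀ c : K, c ≠ 0 → A.valuation (SemilinearAut.baseAut g c * c⁻¹) = 1)
    (happ : ∃ e : F, O₁.valuation (e - 1) < 1 ∧ O₂.valuation e < 1)
    (hroot : ∀ a : K, ∃ b : K, b ^ n = a)
    (x : Pic0 K F) (hx : (n : ℤ) • x = 0) :
    S34R_InK O₁ O₂ n (g • x - x) := by
  obtain ⟨D, rfl⟩ := Pic0.mk_surjective x
  obtain ⟨u, hu0, hu⟩ := S34R_exists_kummer n D hx
  -- normalise at `O₁`
  obtain ⟨c₁, hc₁0, hv₁⟩ := hc₁ u hu0
  set u₁ : F := u * (algebraMap K F c₁)⁻¹ with hu₁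
  have hc₁' : algebraMap K F c₁ ≠ 0 := by
    rw [Ne, map_eq_zero_iff _ (algebraMap K F).injective]; exact hc₁0
  have hu₁0 : u₁ ≠ 0 := mul_ne_zero hu0 (inv_ne_zero hc₁')
  have hu₁ord : ∀ v : Place K F, (n : ℤ) * (D : Divisor K F) v = v.ord u₁ := fun v => by
    rw [hu v, hu₁, S34R_ord_mul_const_inv v hu0 hc₁0]
  -- normalise at `O₂`
  obtain ⟨c₂, hc₂0, hv₂⟩ := hc₂ u₁ hu₁0
  set u₂ : F := u₁ * (algebraMap K F c₂)⁻¹ with hu₂
  have hc₂' : algebraMap K F c₂ ≠ 0 := by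
    rw [Ne, map_eq_zero_iff _ (algebraMap K F).injective]; exact hc₂0
  have hu₂0 : u₂ ≠ 0 := mul_ne_zero hu₁0 (inv_ne_zero hc₂')
  have hu₁₂ : u₁ = u₂ * algebraMap K F c₂ := by
    rw [hu₂]; field_simp
  -- the tame character value
  set ζ : K := SemilinearAut.baseAut g c₂ * c₂⁻¹ with hζ
  have hζv : A.valuation ζ = 1 := hgv c₂ hc₂0
  have hσc₂ : SemilinearAut.baseAut g c₂ ≠ 0 := by
    rw [Ne, map_eq_zero_iff _ (SemilinearAut.baseAut g).injective]; exact hc₂0
  have hζ0 : ζ ≠ 0 := mul_ne_zero hσc₂ (inv_ne_zero hc₂0)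
  obtain ⟨b, hb⟩ := hroot ζ⁻¹
  obtain ⟨e, he₁, he₂⟩ := happ
  rcases Nat.eq_zero_or_pos n with hn0 | hnpos
  · -- `n = 0`
    subst hn0
    obtain ⟨D', hD'⟩ := Pic0.mk_surjective (g • Pic0.mk D - Pic0.mk D)
    exact ⟨D', 1, one_ne_zero, fun v => by simp, hD', by simp, by simp⟩
  -- `b` is a unit of `A`
  have hbv : A.valuation b = 1 := by
    have h1 : A.valuation b ^ n = 1 := by
      rw [← map_pow, hb, map_inv₀, hζv, inv_one]
    rcases pow_eq_one_iff.1 h1 with h2 | h2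
    · exact h2
    · exact absurd h2 (Nat.pos_iff_ne_zero.1 hnpos)
  have hbA : b ∈ A := (A.valuation_le_one_iff b).1 hbv.le
  set b' : F := algebraMap K F b with hb'
  have hb'₁ : b' ∈ O₁ := (hA₁ b).2 hbA
  have hb'₂ : b' ∈ O₂ := (hA₂ b).2 hbA
  set h : F := e + b' * (1 - e) with hh
  -- `h ≡ 1` at `O₁`
  have hh₁ : O₁.valuation (h - 1) < 1 := by
    have e1 : h - 1 = (e - 1) * (1 - b') := by rw [hh]; ring
    rw [e1, map_mul]
    have h2 : O₁.valuation (1 - b') ≤ 1 :=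
      (O₁.valuation_le_one_iff _).2 (sub_mem O₁.one_mem hb'₁)
    exact mul_lt_one_of_lt_of_le he₁ h2
  -- `h ≡ b'` at `O₂`
  have hh₂ : O₂.valuation (h - b') < 1 := by
    have e1 : h - b' = e * (1 - b') := by rw [hh]; ring
    rw [e1, map_mul]
    have h2 : O₂.valuation (1 - b') ≤ 1 :=
      (O₂.valuation_le_one_iff _).2 (sub_mem O₂.one_mem hb'₂)
    exact mul_lt_one_of_lt_of_le he₂ h2
  have hh0 : h ≠ 0 := by
    intro h0
    rw [h0, zero_sub, Valuation.map_neg, map_one] at hh₁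
    exact lt_irrefl _ hh₁
  -- the divisor of `h`
  obtain ⟨Dh, hDh, hDhdeg⟩ := HasPrincipalDivisors.exists_divisor (K := K) h hh0
  set Dh' : Divisor.degZero (K := K) (F := F) := ⟨Dh, Divisor.mem_degZero.2 hDhdeg⟩ with hDh'
  have hDh0 : Pic0.mk Dh' = 0 := S34R_mk_eq_zero Dh' h hh0 hDh
  -- the new Kummer generator
  have hgu₁0 : g • u₁ ≠ 0 := S34R_smul_ne_zero g hu₁0
  refine ⟨SemilinearAut.degZeroSMulHom g D - D + Dh', g • u₁ * u₁⁻¹ * h ^ n,
    mul_ne_zero (mul_ne_zero hgu₁0 (inv_ne_zero hu₁0)) (pow_ne_zero n hh0), fun v => ?_, ?_, ?_, ?_⟩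
  · -- divisor
    rw [v.ord_mul (mul_ne_zero hgu₁0 (inv_ne_zero hu₁0)) (pow_ne_zero n hh0),
      v.ord_mul hgu₁0 (inv_ne_zero hu₁0), v.ord_inv, S34R_ord_smul', ← hu₁ord, ← hu₁ord]
    have e1 : v.ord (h ^ n) = (n : ℤ) * v.ord h := by
      have := v.ord_zpow h (n : ℤ)
      rwa [zpow_natCast] at this
    rw [e1, ← hDh v]
    have e2 : ((SemilinearAut.degZeroSMulHom g D - D + Dh' : Divisor.degZero (K := K) (F := F)) :
        Divisor K F) v = (D : Divisor K F) (g⁻¹ • v) - (D : Divisor K F) v + Dh v := by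
      rw [AddSubgroup.coe_add, AddSubgroup.coe_sub, SemilinearAut.coe_degZeroSMulHom,
        Finsupp.add_apply, Finsupp.sub_apply, SemilinearAut.divisor_smul_apply]
    rw [e2]
    ring
  · -- class
    rw [Pic0.mk_add, hDh0, add_zero, SemilinearAut.pic0_smul_mk]
    rfl
  · -- `≡ 1` at `O₁`
    have hu₁O : u₁ ∈ O₁ := (O₁.valuation_le_one_iff _).1 hv₁.le
    exact S34R_val_mul_sub_one O₁ (S34R_val_div_sub_one O₁ hv₁ (hg₁ u₁ hu₁O))
      (S34R_val_pow_sub_one O₁ hh₁ n)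
  · -- `≡ 1` at `O₂`
    have hu₂O : u₂ ∈ O₂ := (O₂.valuation_le_one_iff _).1 hv₂.le
    have hζ' : algebraMap K F ζ ≠ 0 := by
      rw [Ne, map_eq_zero_iff _ (algebraMap K F).injective]; exact hζ0
    -- rewrite the generator
    have e1 : g • u₁ * u₁⁻¹ * h ^ n = (g • u₂ * u₂⁻¹) * (algebraMap K F ζ * h ^ n) := by
      have hgu : g • u₁ = g • u₂ * algebraMap K F (SemilinearAut.baseAut g c₂) := by
        rw [hu₁₂, smul_mul', SemilinearAut.smul_algebraMap]
      rw [hgu, hu₁₂, hζ, map_mul, map_inv₀]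
      field_simp
    rw [e1]
    refine S34R_val_mul_sub_one O₂ (S34R_val_div_sub_one O₂ hv₂ (hg₂ u₂ hu₂O)) ?_
    -- `ζ hⁿ ≡ ζ b'ⁿ = 1`
    have hb'v : O₂.valuation b' = 1 := by
      have hbinvA : b⁻¹ ∈ A := by
        rw [← A.valuation_le_one_iff, map_inv₀, hbv, inv_one]
      have h1 : O₂.valuation b' ≤ 1 := (O₂.valuation_le_one_iff _).2 hb'₂
      have h2 : O₂.valuation b'⁻¹ ≤ 1 := by
        rw [hb', ← map_inv₀ (algebraMap K F)]
        exact (O₂.valuation_le_one_iff _).2 ((hA₂ _).2 hbinvA)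
      rw [map_inv₀] at h2
      have hb'0 : O₂.valuation b' ≠ 0 := by
        rw [Valuation.ne_zero_iff, hb', Ne, map_eq_zero_iff _ (algebraMap K F).injective]
        intro h0
        rw [h0, map_zero] at hbv
        exact zero_ne_one hbv
      exact le_antisymm h1 ((inv_le_one₀ (zero_lt_iff.2 hb'0)).1 h2)
    have h3 : O₂.valuation (h * b'⁻¹ - 1) < 1 := S34R_val_div_sub_one O₂ hb'v hh₂
    have h4 := S34R_val_pow_sub_one O₂ h3 n
    have e2 : algebraMap K F ζ * h ^ n = (h * b'⁻¹) ^ n := by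
      have hb'0 : b' ≠ 0 := by
        intro h0
        rw [h0, map_zero] at hb'v
        exact zero_ne_one hb'v
      have hbn : b' ^ n = (algebraMap K F ζ)⁻¹ := by
        rw [hb', ← map_pow, hb, map_inv₀]
      rw [mul_pow, inv_pow, hbn, inv_inv]
      ring
    rw [e2]
    exact h4

end Fermat.Agent.S34
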