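import Mathlib
import Fermat.Agent.S34.Lat
import Fermat.Agent.S34.AtkinLehner
import Fermat.Agent.S34.RedOne
import Fermat.Agent.S18.ValRep
import Fermat.Agent.S18.GaussModL

/-!
# TRACK 7 (S34 + S35), package DEFS (helper4 with helper24): the shared concrete objects

Level `N = M * q`, `q` prime, `q ∤ M`; `F = F_N = modularFunctionFieldBar (M * q)`;
`A` a valuation subring of `ℚ̄` (above `q`), `k = IsLocalRing.ResidueField A`,
`F̄ = modularFunctionFieldFullC k (M * q)` (`= modularFunctionFieldFullC k M` as a subfield of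
`k((t))`, VAL-HGEN).

* `S34DF_lat1 N A : S34L_Lat ℚ̄ F_N k F̄_N` — the `q`-expansion Gauss ring `S18_O A N` with
  `S18_red A N` as a lattice datum.  NO hypothesis (not even `hgen`): the unit ball is a subring.
* `S34DF_wq M q hq hqM : F ≃ₐ[ℚ̄] F` — Atkin–Lehner `w_q` (WQ, helper13).
* `S34DF_lat M q hq hqM A : S34L_Lat ℚ̄ F k (F̄ × F̄)` — THE two-valuation datum:
  `O = {f : f ∈ O₁ ∧ w_q f ∈ O₁}`, `red f = (red₁ f, red₁ (w_q f))`.
* `S34DF_O1 … hgen`, `S34DF_O2 … hgen : ValuationSubring F` — `V₁`, `V₂ = V₁ ∘ w_q` as valuation rings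
  (`hgen : PrincipalGeneratedByIntegral A (residue A) (M * q)` = VAL-HGEN, helper18).
* `S34DF_InK … hgen n : Pic0 ℚ̄ F → Prop` — the subgroup `K'` (helper19's `S34R_InK`).
* `α^* = heckeAlphaBar ℚ̄ M q`, `β^* = heckeBetaBar ℚ̄ M q : F_M → F` are the Prelude's maps.
-/

set_option autoImplicit false
set_option synthInstance.maxHeartbeats 400000
set_option linter.unusedSectionVars false

open HahnSeries IntermediateField AlgebraicCurve ModularCurve

noncomputable section

namespace Fermat.Agent.S34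

open Fermat.Agent.S18

section One

variable (N : ℕ) [NeZero N] (A : ValuationSubring (AlgebraicClosure ℚ))

/-- **(V₁) as a lattice datum**: the `q`-expansion Gauss ring `S18_O A N ⊂ F_N` with its reduction
`S18_red A N`.  No hypothesis on `N`, `A`. -/
def S34DF_lat1 : S34L_Lat (AlgebraicClosure ℚ) ↥(modularFunctionFieldBar N)
    (IsLocalRing.ResidueField A) ↥(modularFunctionFieldFullC (IsLocalRing.ResidueField A) N) where
  A := A
  res := IsLocalRing.residue A
  res_surjective := IsLocalRing.residue_surjective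
  res_eq_zero_iff a := by
    rw [IsLocalRing.residue_eq_zero_iff, IsLocalRing.mem_maximalIdeal, mem_nonunits_iff]
  O := S18_O A N
  red := S18_red A N
  algebraMap_mem a ha := (S18_algebraMap_mem_O_iff A N a).2 ha
  red_algebraMap a ha _ := S18_red_algebraMap A N ⟨a, ha⟩
  isUnit_of_red x hx := by
    have hx0 : (x : ↥(modularFunctionFieldBar N)) ≠ 0 := by
      intro h0
      have : x = 0 := Subtype.ext h0
      rw [this, map_zero] at hx
      exact not_isUnit_zero hx
    have hinv := S18_inv_mem_O A N x.2 hx.ne_zero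
    refine ⟨⟨x, ⟨_, hinv⟩, ?_, ?_⟩, rfl⟩
    · exact Subtype.ext (mul_inv_cancel₀ hx0)
    · exact Subtype.ext (inv_mul_cancel₀ hx0)

theorem S34DF_lat1_A : (S34DF_lat1 N A).A = A := rfl

theorem S34DF_lat1_res : (S34DF_lat1 N A).res = IsLocalRing.residue A := rfl

theorem S34DF_lat1_O : (S34DF_lat1 N A).O = S18_O A N := rfl

theorem S34DF_lat1_red : (S34DF_lat1 N A).red = S18_red A N := rfl

end One

section Two

variable (M q : ℕ) [NeZero (M * q)] (hq : q.Prime) (hqM : ¬ q ∣ M)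
  (A : ValuationSubring (AlgebraicClosure ℚ))

/-- **Atkin–Lehner** `w_q` on `F = F_{M q}` (WQ). -/
def S34DF_wq : ↥(modularFunctionFieldBar (M * q)) ≃ₐ[AlgebraicClosure ℚ]
    ↥(modularFunctionFieldBar (M * q)) :=
  S34WQ_wq hq hqM (mul_comm q M)

theorem S34DF_wq_wq (f : ↥(modularFunctionFieldBar (M * q))) :
    S34DF_wq M q hq hqM (S34DF_wq M q hq hqM f) = f :=
  S34WQ_wq_wq hq hqM (mul_comm q M) f

/-- **THE two-valuation lattice datum** of `F = F_{M q}`:
`O = {f : f ∈ O₁ ∧ w_q f ∈ O₁}`, `red f = (red₁ f, red₁ (w_q f))`. -/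
def S34DF_lat : S34L_Lat (AlgebraicClosure ℚ) ↥(modularFunctionFieldBar (M * q))
    (IsLocalRing.ResidueField A)
    (↥(modularFunctionFieldFullC (IsLocalRing.ResidueField A) (M * q)) ×
      ↥(modularFunctionFieldFullC (IsLocalRing.ResidueField A) (M * q))) :=
  (S34DF_lat1 (M * q) A).double (S34DF_wq M q hq hqM)

theorem S34DF_mem_lat_O {f : ↥(modularFunctionFieldBar (M * q))} :
    f ∈ (S34DF_lat M q hq hqM A).O ↔ f ∈ S18_O A (M * q) ∧ S34DF_wq M q hq hqM f ∈ S18_O A (M * q) :=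
  Iff.rfl

theorem S34DF_lat_red (x : (S34DF_lat M q hq hqM A).O) :
    (S34DF_lat M q hq hqM A).red x =
      (S18_red A (M * q) ⟨x.1, x.2.1⟩, S18_red A (M * q) ⟨S34DF_wq M q hq hqM x.1, x.2.2⟩) := rfl

theorem S34DF_lat_A : (S34DF_lat M q hq hqM A).A = A := rfl

theorem S34DF_lat_res : (S34DF_lat M q hq hqM A).res = IsLocalRing.residue A := rfl

variable (hgen : PrincipalGeneratedByIntegral A (IsLocalRing.residue A) (M * q))

/-- `V₁` as a valuation ring (needs VAL-HGEN). -/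
def S34DF_O1 : ValuationSubring ↥(modularFunctionFieldBar (M * q)) :=
  (S18_gaussModL (M * q) A hgen).O

/-- `V₂ = V₁ ∘ w_q` as a valuation ring. -/
def S34DF_O2 : ValuationSubring ↥(modularFunctionFieldBar (M * q)) :=
  (S34DF_O1 M q A hgen).comap ((S34DF_wq M q hq hqM : ↥(modularFunctionFieldBar (M * q)) ≃ₐ[
    AlgebraicClosure ℚ] ↥(modularFunctionFieldBar (M * q))) :
      ↥(modularFunctionFieldBar (M * q)) →+* ↥(modularFunctionFieldBar (M * q)))

theorem S34DF_mem_O1 {f : ↥(modularFunctionFieldBar (M * q))} :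
    f ∈ S34DF_O1 M q A hgen ↔ f ∈ S18_O A (M * q) := Iff.rfl

theorem S34DF_mem_O2 {f : ↥(modularFunctionFieldBar (M * q))} :
    f ∈ S34DF_O2 M q hq hqM A hgen ↔ S34DF_wq M q hq hqM f ∈ S18_O A (M * q) := Iff.rfl

/-- the unit ball of the two-valuation datum is `O₁ ∩ O₂`. -/
theorem S34DF_mem_lat_O_iff {f : ↥(modularFunctionFieldBar (M * q))} :
    f ∈ (S34DF_lat M q hq hqM A).O ↔ f ∈ S34DF_O1 M q A hgen ∧ f ∈ S34DF_O2 M q hq hqM A hgen :=
  Iff.rfl

/-- **the subgroup `K'`** of `Pic⁰(F)`: classes `[D]` with `n D = div u`, `u ≡ 1` at `V₁` and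
at `V₂`. -/
def S34DF_InK (n : ℕ) (x : Pic0 (AlgebraicClosure ℚ) ↥(modularFunctionFieldBar (M * q))) : Prop :=
  S34R_InK (S34DF_O1 M q A hgen) (S34DF_O2 M q hq hqM A hgen) n x

end Two

end Fermat.Agent.S34
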