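import Fermat.Agent.S34.Approx

/-!
# TRACK 7, package APPROX (helper15): valuation form of the approximation lemmas

`S34AP_small_iff_val : S34AP_Small O a ↔ O.valuation a < 1`, and the approximation statements of
`Approx.lean` in the shape `O.valuation (f - x) < 1` used by RED1 / RED2 / VAL:

* `S34AP_exists_idem_val`   : `∃ e, O₁.valuation (e - 1) < 1 ∧ O₂.valuation e < 1`  (= `happ` of RED1);
* `S34AP_exists_approx_val` : `∃ f, O₁.valuation (f - x₁) < 1 ∧ O₂.valuation (f - x₂) < 1`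
  for `x₁ ∈ O₁`, `x₂ ∈ O₂` (then automatically `f ∈ O₁ ∩ O₂`);
* `S34AP_exists_unit_approx_val` : the same with `O_i.valuation f = 1` when `O_i.valuation x_i = 1`;
* `S34AP_incomparable_of_witness` : two valuation subrings are incomparable as soon as there are
  `a` with `O₁.valuation a < 1`, `O₂.valuation a = 1` and `b` with `O₂.valuation b < 1`,
  `O₁.valuation b = 1`.
-/

set_option autoImplicit false

namespace Fermat.Agent.S34

variable {F : Type*} [Field F]

theorem S34AP_small_iff_val {O : ValuationSubring F} {a : F} :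
    S34AP_Small O a ↔ O.valuation a < 1 := by
  constructor
  · intro h
    rcases h with h | h
    · rw [h, map_zero]; exact zero_lt_one
    · by_contra hcon
      apply h
      have h1 : 1 ≤ O.valuation a := not_lt.1 hcon
      have ha0 : a ≠ 0 := by
        intro h0; rw [h0, map_zero] at h1
        exact absurd h1 (not_le.2 zero_lt_one)
      rw [← ValuationSubring.valuation_le_one_iff, map_inv₀]
      exact inv_le_one_of_one_le₀ h1
  · intro h
    by_cases ha0 : a = 0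
    · exact Or.inl ha0
    right
    intro hi
    have h1 : O.valuation a⁻¹ ≤ 1 := (ValuationSubring.valuation_le_one_iff O a⁻¹).2 hi
    rw [map_inv₀] at h1
    have h2 : O.valuation a ≠ 0 := (Valuation.ne_zero_iff _).2 ha0
    have h3 : 1 ≤ O.valuation a := by
      have := (inv_le_one₀ (zero_lt_iff.2 h2)).1 h1
      exact this
    exact absurd h (not_lt.2 h3)

theorem S34AP_exists_idem_val (O₁ O₂ : ValuationSubring F) (h12 : ¬ O₁ ≤ O₂) (h21 : ¬ O₂ ≤ O₁) :
    ∃ e : F, O₁.valuation (e - 1) < 1 ∧ O₂.valuation e < 1 := by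
  obtain ⟨e, -, -, h1, h2⟩ := S34AP_exists_idem O₁ O₂ h12 h21
  exact ⟨e, S34AP_small_iff_val.1 h1, S34AP_small_iff_val.1 h2⟩

theorem S34AP_exists_approx_val (O₁ O₂ : ValuationSubring F) (h12 : ¬ O₁ ≤ O₂)
    (h21 : ¬ O₂ ≤ O₁) (x₁ x₂ : F) (hx₁ : O₁.valuation x₁ ≤ 1) (hx₂ : O₂.valuation x₂ ≤ 1) :
    ∃ f : F, O₁.valuation f ≤ 1 ∧ O₂.valuation f ≤ 1 ∧
      O₁.valuation (f - x₁) < 1 ∧ O₂.valuation (f - x₂) < 1 := by
  obtain ⟨f, hf1, hf2, h1, h2⟩ := S34AP_exists_approx O₁ O₂ h12 h21 x₁ x₂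
    ((ValuationSubring.valuation_le_one_iff O₁ x₁).1 hx₁)
    ((ValuationSubring.valuation_le_one_iff O₂ x₂).1 hx₂)
  exact ⟨f, (ValuationSubring.valuation_le_one_iff O₁ f).2 hf1,
    (ValuationSubring.valuation_le_one_iff O₂ f).2 hf2,
    S34AP_small_iff_val.1 h1, S34AP_small_iff_val.1 h2⟩

/-- an element congruent to an element of valuation `1` has valuation `1` -/
theorem S34AP_val_eq_one_of_sub_lt {O : ValuationSubring F} {f x : F}
    (hx : O.valuation x = 1) (h : O.valuation (f - x) < 1) : O.valuation f = 1 := by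
  have h1 : f = x + (f - x) := by ring
  rw [h1]
  have h2 : O.valuation (f - x) < O.valuation x := by rw [hx]; exact h
  rw [Valuation.map_add_eq_of_lt_left _ h2, hx]

theorem S34AP_exists_unit_approx_val (O₁ O₂ : ValuationSubring F) (h12 : ¬ O₁ ≤ O₂)
    (h21 : ¬ O₂ ≤ O₁) (x₁ x₂ : F) (hx₁ : O₁.valuation x₁ = 1) (hx₂ : O₂.valuation x₂ = 1) :
    ∃ f : F, f ≠ 0 ∧ O₁.valuation f = 1 ∧ O₂.valuation f = 1 ∧
      O₁.valuation (f - x₁) < 1 ∧ O₂.valuation (f - x₂) < 1 := by
  obtain ⟨f, -, -, h1, h2⟩ := S34AP_exists_approx_val O₁ O₂ h12 h21 x₁ x₂ hx₁.le hx₂.le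
  have hf1 := S34AP_val_eq_one_of_sub_lt hx₁ h1
  refine ⟨f, ?_, hf1, S34AP_val_eq_one_of_sub_lt hx₂ h2, h1, h2⟩
  intro h0
  rw [h0, map_zero] at hf1
  exact zero_ne_one hf1

/-- incomparability from two witnesses -/
theorem S34AP_incomparable_of_witness (O₁ O₂ : ValuationSubring F) (a b : F)
    (ha1 : O₁.valuation a < 1) (ha2 : O₂.valuation a = 1)
    (hb2 : O₂.valuation b < 1) (hb1 : O₁.valuation b = 1) : ¬ O₁ ≤ O₂ ∧ ¬ O₂ ≤ O₁ := by
  have ha0 : a ≠ 0 := by
    intro h; rw [h, map_zero] at ha2; exact zero_ne_one ha2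
  have hb0 : b ≠ 0 := by
    intro h; rw [h, map_zero] at hb1; exact zero_ne_one hb1
  constructor
  · -- `b⁻¹ ∈ O₁ ∖ O₂`
    intro hle
    have h1 : b⁻¹ ∈ O₁ := by
      rw [← ValuationSubring.valuation_le_one_iff, map_inv₀, hb1, inv_one]
    have h2 : b⁻¹ ∈ O₂ := hle h1
    have h3 : S34AP_Small O₂ b := S34AP_small_iff_val.2 hb2
    rcases h3 with h3 | h3
    · exact hb0 h3
    · exact h3 h2
  · intro hle
    have h1 : a⁻¹ ∈ O₂ := by
      rw [← ValuationSubring.valuation_le_one_iff, map_inv₀, ha2, inv_one]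
    have h2 : a⁻¹ ∈ O₁ := hle h1
    have h3 : S34AP_Small O₁ a := S34AP_small_iff_val.2 ha1
    rcases h3 with h3 | h3
    · exact ha0 h3
    · exact h3 h2

end Fermat.Agent.S34
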