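import Fermat.Agent.GalRep.ESRed
import Fermat.Agent.S34.RedOne

/-!
# TRACK 7 (S34 + S35), package RED1 (helper19), Galois part

* `S34R_decomp_val` : an element `τ` of the decomposition group of a valuation subring `A` of an
  algebraic extension `L / ℚ` preserves the valuation: `τ c / c` is a unit of `A`;
* `S34R_inertia_O`  : an element of the inertia group acts trivially on the residue field of the
  `q`-expansion Gauss ring `S18_O A N` (any level `N`).
-/

set_option autoImplicit false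

open HahnSeries IntermediateField AlgebraicCurve ModularCurve
open scoped Pointwise

namespace Fermat.Agent.S34

open Fermat.Agent.S18 Fermat.Agent.GalRep

section decomp

variable {L : Type*} [Field L] [Algebra ℚ L] (A : ValuationSubring L)

theorem S34R_decomp_mem {τ : L ≃ₐ[ℚ] L} (hτ : τ ∈ A.decompositionSubgroup ℚ) (a : L) :
    τ a ∈ A ↔ a ∈ A := by
  have h1 : τ • A = A := hτ
  have h2 : τ⁻¹ • A = A := (A.decompositionSubgroup ℚ).inv_mem hτ
  constructor
  · intro h
    have h3 := ValuationSubring.smul_mem_pointwise_smul τ⁻¹ (τ a) A h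
    rw [h2] at h3
    have e : τ⁻¹ • τ a = a := by
      show τ⁻¹ (τ a) = a
      exact τ.symm_apply_apply a
    rwa [e] at h3
  · intro h
    have h3 := ValuationSubring.smul_mem_pointwise_smul τ a A h
    rw [h1] at h3
    exact h3

theorem S34R_decomp_val_le {τ : L ≃ₐ[ℚ] L} (hτ : τ ∈ A.decompositionSubgroup ℚ) (a : L) :
    A.valuation (τ a) ≤ 1 ↔ A.valuation a ≤ 1 := by
  rw [A.valuation_le_one_iff, A.valuation_le_one_iff]
  exact S34R_decomp_mem A hτ a

theorem S34R_decomp_val_lt {τ : L ≃ₐ[ℚ] L} (hτ : τ ∈ A.decompositionSubgroup ℚ) (a : L) :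
    A.valuation (τ a) < 1 ↔ A.valuation a < 1 := by
  rcases eq_or_ne a 0 with rfl | ha
  · simp
  have hτa : τ a ≠ 0 := by
    rw [Ne, map_eq_zero_iff _ τ.injective]; exact ha
  have key : ∀ b : L, b ≠ 0 → (A.valuation b < 1 ↔ ¬ A.valuation b⁻¹ ≤ 1) := by
    intro b hb
    rw [map_inv₀, not_le, one_lt_inv₀ (zero_lt_iff.2 ((Valuation.ne_zero_iff _).2 hb))]
  rw [key _ hτa, key _ ha, ← map_inv₀, S34R_decomp_val_le A hτ]

theorem S34R_decomp_pow_mem {τ : L ≃ₐ[ℚ] L} (hτ : τ ∈ A.decompositionSubgroup ℚ) (i : ℕ) :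
    τ ^ i ∈ A.decompositionSubgroup ℚ := (A.decompositionSubgroup ℚ).pow_mem hτ i

/-- telescoping product -/
theorem S34R_telescope (τ : L ≃ₐ[ℚ] L) (c : L) (hc : c ≠ 0) (m : ℕ) :
    ∏ i ∈ Finset.range m, (τ ^ i) (τ c * c⁻¹) = (τ ^ m) c * c⁻¹ := by
  induction m with
  | zero => simp [hc]
  | succ k ih =>
    rw [Finset.prod_range_succ, ih, map_mul, map_inv₀]
    have hk : (τ ^ k) c ≠ 0 := by
      rw [Ne, map_eq_zero_iff _ (τ ^ k).injective]; exact hc
    have e : (τ ^ k) (τ c) = (τ ^ (k + 1)) c := by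
      rw [pow_succ]; rfl
    rw [e]
    field_simp

variable [Algebra.IsAlgebraic ℚ L]

/-- some positive power of `τ` fixes `c` -/
theorem S34R_exists_pow_fix (τ : L ≃ₐ[ℚ] L) (c : L) : ∃ m : ℕ, 0 < m ∧ (τ ^ m) c = c := by
  classical
  have hfin : ((minpoly ℚ c).rootSet L).Finite := Polynomial.rootSet_finite _ _
  have hint : IsIntegral ℚ c := (Algebra.IsAlgebraic.isAlgebraic c).isIntegral
  have hmem : ∀ i : ℕ, (τ ^ i) c ∈ (minpoly ℚ c).rootSet L := by
    intro i
    rw [Polynomial.mem_rootSet]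
    refine ⟨minpoly.ne_zero hint, ?_⟩
    rw [Polynomial.aeval_algEquiv, AlgHom.comp_apply, minpoly.aeval]
    simp
  have : Finite ((minpoly ℚ c).rootSet L) := hfin.to_subtype
  obtain ⟨i, j, hij, h⟩ := Finite.exists_ne_map_eq_of_infinite
    (fun i : ℕ => (⟨(τ ^ i) c, hmem i⟩ : (minpoly ℚ c).rootSet L))
  have h' : (τ ^ i) c = (τ ^ j) c := congrArg Subtype.val h
  -- wlog i < j
  have main : ∀ i j : ℕ, i < j → (τ ^ i) c = (τ ^ j) c → ∃ m : ℕ, 0 < m ∧ (τ ^ m) c = c := by
    intro i j hlt h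
    refine ⟨j - i, Nat.sub_pos_of_lt hlt, ?_⟩
    have e : τ ^ j = τ ^ i * τ ^ (j - i) := by
      rw [← _root_.pow_add, Nat.add_sub_cancel' hlt.le]
    rw [e] at h
    have h2 : (τ ^ i) c = (τ ^ i) ((τ ^ (j - i)) c) := h
    exact ((τ ^ i).injective h2).symm
  rcases lt_or_gt_of_ne hij with hlt | hgt
  · exact main i j hlt h'
  · exact main j i hgt h'.symm

/-- **the decomposition group preserves the valuation.** -/
theorem S34R_decomp_val (τ : L ≃ₐ[ℚ] L) (hτ : τ ∈ A.decompositionSubgroup ℚ)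
    (c : L) (hc : c ≠ 0) : A.valuation (τ c * c⁻¹) = 1 := by
  obtain ⟨m, hm, hfix⟩ := S34R_exists_pow_fix τ c
  have hprod : ∏ i ∈ Finset.range m, (τ ^ i) (τ c * c⁻¹) = 1 := by
    rw [S34R_telescope τ c hc m, hfix, mul_inv_cancel₀ hc]
  have hτc : τ c ≠ 0 := by
    rw [Ne, map_eq_zero_iff _ τ.injective]; exact hc
  set ε : L := τ c * c⁻¹ with hε
  have hε0 : ε ≠ 0 := mul_ne_zero hτc (inv_ne_zero hc)
  -- if `v(ε) < 1` the product has valuation `< 1`
  have step : ∀ x : L, (∏ i ∈ Finset.range m, (τ ^ i) x = 1) → ¬ A.valuation x < 1 := by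
    intro x hx hlt
    have hall : ∀ k : ℕ, A.valuation (∏ i ∈ Finset.range (k + 1), (τ ^ i) x) < 1 := by
      intro k
      induction k with
      | zero => simpa using hlt
      | succ k ih =>
        rw [Finset.prod_range_succ, map_mul]
        exact mul_lt_one_of_lt_of_le ih
          ((S34R_decomp_val_lt A (S34R_decomp_pow_mem A hτ (k + 1)) x).2 hlt).le
    have h1 : A.valuation (∏ i ∈ Finset.range m, (τ ^ i) x) < 1 := by
      obtain ⟨k, rfl⟩ : ∃ k, m = k + 1 := ⟨m - 1, by omega⟩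
      exact hall k
    rw [hx, map_one] at h1
    exact lt_irrefl _ h1
  have h1 : ¬ A.valuation ε < 1 := step ε hprod
  have h2 : ¬ A.valuation ε⁻¹ < 1 := by
    refine step ε⁻¹ ?_
    have : ∏ i ∈ Finset.range m, (τ ^ i) ε⁻¹ = (∏ i ∈ Finset.range m, (τ ^ i) ε)⁻¹ := by
      rw [← Finset.prod_inv_distrib]
      exact Finset.prod_congr rfl fun i _ => map_inv₀ _ _
    rw [this, hprod, inv_one]
  rw [map_inv₀, not_lt] at h2
  rw [not_lt] at h1
  have h3 : A.valuation ε ≤ 1 := by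
    have hv0 : 0 < A.valuation ε := zero_lt_iff.2 ((Valuation.ne_zero_iff _).2 hε0)
    exact (one_le_inv₀ hv0).1 h2
  exact le_antisymm h3 h1

end decomp

section inertia

variable (N : ℕ) [NeZero N] (A : ValuationSubring (AlgebraicClosure ℚ))

/-- **inertia acts trivially on the residue field of the Gauss ring `S18_O A N`.** -/
theorem S34R_inertia_O
    (τ : AlgebraicClosure ℚ ≃ₐ[ℚ] AlgebraicClosure ℚ) (hτ : τ ∈ A.inertiaSubgroupIn ℚ)
    (f : ↥(modularFunctionFieldBar N)) (hf : f ∈ S18_O A N) :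
    ∃ hτf : arithmeticGalois (modularFunctionFieldFull N) τ • f ∈ S18_O A N,
      S18_red A N ⟨_, hτf⟩ = S18_red A N ⟨f, hf⟩ := by
  obtain ⟨g, hgI, rfl⟩ := hτ
  have hgid : MulSemiringAction.toRingHom (A.decompositionSubgroup ℚ)
      (IsLocalRing.ResidueField A) g = RingHom.id _ := by
    have h1 : MulSemiringAction.toRingAut (A.decompositionSubgroup ℚ)
        (IsLocalRing.ResidueField A) g = 1 := hgI
    ext x
    exact congrArg (fun e : RingAut (IsLocalRing.ResidueField A) => e x) h1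
  obtain ⟨s₁, h1, s₂, h2, hne, hfs⟩ := hf
  have hρ : ∀ y : LaurentSeries A, S18_ρ A (ES_act A g y) = S18_ρ A y := by
    intro y
    rw [ES_ρ_act, hgid, coeffMap_id]
  have hne' : S18_ρ A (ES_act A g s₂) ≠ 0 := by rw [hρ]; exact hne
  have hfs' : ((arithmeticGalois (modularFunctionFieldFull N)
      ((A.decompositionSubgroup ℚ).subtype g) • f : ↥(modularFunctionFieldBar N)) :
        LaurentSeries (AlgebraicClosure ℚ)) * S18_ι A (ES_act A g s₂) =
      S18_ι A (ES_act A g s₁) := by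
    rw [coe_arithmeticGalois_smul, ES_ι_act, ES_ι_act, ← hfs, map_mul]
    rfl
  have hmem : arithmeticGalois (modularFunctionFieldFull N)
      ((A.decompositionSubgroup ℚ).subtype g) • f ∈ S18_O A N :=
    ⟨ES_act A g s₁, ES_act_mem_B A N g h1, ES_act A g s₂, ES_act_mem_B A N g h2, hne', hfs'⟩
  refine ⟨hmem, ?_⟩
  apply Subtype.ext
  rw [S18_red_eq A N (ES_act_mem_B A N g h1) (ES_act_mem_B A N g h2) hne' hfs',
    S18_red_eq A N h1 h2 hne hfs, hρ, hρ]

end inertia

end Fermat.Agent.S34
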