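import Fermat.Agent.S34.RedOneKum
import Fermat.Agent.S34.RedOneGal
import Fermat.Agent.S34.ApproxVal
import Fermat.Agent.S18.GaussModL

/-!
# TRACK 7 (S34 + S35), package RED1 (helper19), concrete instance

`F = modularFunctionFieldBar N`, `O₁ = (S18_gaussModL N A hgen).O` (the `q`-expansion Gauss ring
`S18_O A N`), `w` a ring automorphism of `F` fixing the constants and commuting with the arithmetic
Galois action (Atkin–Lehner), `O₂` the valuation subring `{f | w f ∈ O₁}`, `O₁`, `O₂`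
incomparable.  For `τ` in the inertia group of `A` and every `u ≠ 0` there are `c ≠ 0`, `h ≠ 0`
with `(τ u) · u⁻¹ · c · hⁿ ≡ 1` at `O₁` and at `O₂`  (`S34R_concrete`).
-/

set_option autoImplicit false
set_option synthInstance.maxHeartbeats 400000
set_option maxHeartbeats 1000000

open HahnSeries IntermediateField AlgebraicCurve ModularCurve

namespace Fermat.Agent.S34

open Fermat.Agent.S18 Fermat.Agent.GalRep

section transfer

variable {F : Type*} [Field F] (O₁ O₂ : ValuationSubring F) (w : F ≃+* F)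

theorem S34R_tr_le (hO₂ : ∀ f, f ∈ O₂ ↔ w f ∈ O₁) (x : F) :
    O₂.valuation x ≤ 1 ↔ O₁.valuation (w x) ≤ 1 := by
  rw [O₂.valuation_le_one_iff, O₁.valuation_le_one_iff]
  exact hO₂ x

theorem S34R_tr_lt (hO₂ : ∀ f, f ∈ O₂ ↔ w f ∈ O₁) (x : F) :
    O₂.valuation x < 1 ↔ O₁.valuation (w x) < 1 := by
  rw [← S34AP_small_iff_val, ← S34AP_small_iff_val]
  unfold S34AP_Small
  rw [hO₂, map_inv₀, map_eq_zero_iff w w.injective]

theorem S34R_tr_eq (hO₂ : ∀ f, f ∈ O₂ ↔ w f ∈ O₁) (x : F) :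
    O₂.valuation x = 1 ↔ O₁.valuation (w x) = 1 := by
  have h1 := S34R_tr_le O₁ O₂ w hO₂ x
  have h2 := S34R_tr_lt O₁ O₂ w hO₂ x
  constructor
  · intro h
    have h3 : O₁.valuation (w x) ≤ 1 := h1.1 h.le
    rcases lt_or_eq_of_le h3 with h4 | h4
    · exact absurd (h2.2 h4) (by rw [h]; exact lt_irrefl _)
    · exact h4
  · intro h
    have h3 : O₂.valuation x ≤ 1 := h1.2 h.le
    rcases lt_or_eq_of_le h3 with h4 | h4
    · exact absurd (h2.1 h4) (by rw [h]; exact lt_irrefl _)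
    · exact h4

end transfer

section concrete

variable (N : ℕ) [NeZero N] (A : ValuationSubring (AlgebraicClosure ℚ))
  (hgen : PrincipalGeneratedByIntegral A (IsLocalRing.residue A) N)

/-- value group of the Gauss ring: every `f ≠ 0` is `c · unit`. -/
theorem S34R_gauss_const (f : ↥(modularFunctionFieldBar N)) (hf : f ≠ 0) :
    ∃ c : AlgebraicClosure ℚ, c ≠ 0 ∧ (S18_gaussModL N A hgen).O.valuation
      (f * (algebraMap (AlgebraicClosure ℚ) ↥(modularFunctionFieldBar N) c)⁻¹) = 1 := by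
  obtain ⟨c, u, hc, hu, hfu⟩ := (S18_gaussModL N A hgen).exists_const_mul_unit f hf
  refine ⟨c, hc, ?_⟩
  have hc' : algebraMap (AlgebraicClosure ℚ) ↥(modularFunctionFieldBar N) c ≠ 0 := by
    intro h0
    apply hc
    exact (algebraMap (AlgebraicClosure ℚ) ↥(modularFunctionFieldBar N)).injective
      (by rw [h0, map_zero])
  have e : f * (algebraMap (AlgebraicClosure ℚ) ↥(modularFunctionFieldBar N) c)⁻¹ = (u : _) := by
    rw [hfu]; field_simp
  rw [e]
  exact ((S18_gaussModL N A hgen).O.valuation_eq_one_iff u).1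
    (((S18_gaussModL N A hgen).red_ne_zero_iff u).1 hu)

/-- inertia acts trivially on the residue field of the Gauss ring, valuation form. -/
theorem S34R_gauss_inertia
    (τ : AlgebraicClosure ℚ ≃ₐ[ℚ] AlgebraicClosure ℚ) (hτ : τ ∈ A.inertiaSubgroupIn ℚ)
    (f : ↥(modularFunctionFieldBar N)) (hf : f ∈ (S18_gaussModL N A hgen).O) :
    (S18_gaussModL N A hgen).O.valuation
      (arithmeticGalois (modularFunctionFieldFull N) τ • f - f) < 1 := by
  obtain ⟨hτf, hred⟩ := S34R_inertia_O N A τ hτ f hf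
  set G := S18_gaussModL N A hgen with hG
  have hτf' : arithmeticGalois (modularFunctionFieldFull N) τ • f ∈ G.O := hτf
  have hsub : arithmeticGalois (modularFunctionFieldFull N) τ • f - f ∈ G.O :=
    sub_mem hτf' hf
  have h0 : G.red ⟨_, hsub⟩ = 0 := by
    have e : (⟨_, hsub⟩ : G.O) = ⟨_, hτf'⟩ - ⟨f, hf⟩ := rfl
    rw [e, map_sub, sub_eq_zero]
    exact hred
  have h1 : ¬ IsUnit (⟨_, hsub⟩ : G.O) := (G.red_eq_zero_iff _).1 h0
  have h2 := (G.O.valuation_lt_one_iff ⟨_, hsub⟩).1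
    (by rw [IsLocalRing.mem_maximalIdeal, mem_nonunits_iff]; exact h1)
  exact h2

/-- **RED1, concrete form** (Kummer generators). -/
theorem S34R_concrete
    (w : ↥(modularFunctionFieldBar N) ≃+* ↥(modularFunctionFieldBar N))
    (hwc : ∀ c : AlgebraicClosure ℚ,
      w (algebraMap (AlgebraicClosure ℚ) ↥(modularFunctionFieldBar N) c) =
        algebraMap (AlgebraicClosure ℚ) ↥(modularFunctionFieldBar N) c)
    (hwgal : ∀ (σ : AlgebraicClosure ℚ ≃ₐ[ℚ] AlgebraicClosure ℚ)
      (f : ↥(modularFunctionFieldBar N)),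
      w (arithmeticGalois (modularFunctionFieldFull N) σ • f) =
        arithmeticGalois (modularFunctionFieldFull N) σ • w f)
    (O₂ : ValuationSubring ↥(modularFunctionFieldBar N))
    (hO₂ : ∀ f, f ∈ O₂ ↔ w f ∈ (S18_gaussModL N A hgen).O)
    (h12 : ¬ (S18_gaussModL N A hgen).O ≤ O₂) (h21 : ¬ O₂ ≤ (S18_gaussModL N A hgen).O)
    (n : ℕ) (hn : 0 < n)
    (τ : AlgebraicClosure ℚ ≃ₐ[ℚ] AlgebraicClosure ℚ) (hτ : τ ∈ A.inertiaSubgroupIn ℚ)
    (u : ↥(modularFunctionFieldBar N)) (hu : u ≠ 0) :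
    ∃ (c : AlgebraicClosure ℚ) (h : ↥(modularFunctionFieldBar N)), c ≠ 0 ∧ h ≠ 0 ∧
      (S18_gaussModL N A hgen).O.valuation
        (arithmeticGalois (modularFunctionFieldFull N) τ • u * u⁻¹ *
          algebraMap (AlgebraicClosure ℚ) ↥(modularFunctionFieldBar N) c * h ^ n - 1) < 1 ∧
      O₂.valuation
        (arithmeticGalois (modularFunctionFieldFull N) τ • u * u⁻¹ *
          algebraMap (AlgebraicClosure ℚ) ↥(modularFunctionFieldBar N) c * h ^ n - 1) < 1 := by
  set G := S18_gaussModL N A hgen with hG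
  have hτD : τ ∈ A.decompositionSubgroup ℚ := by
    obtain ⟨g, -, rfl⟩ := hτ
    exact g.2
  refine S34R_kummer G.O O₂ A n hn (arithmeticGalois (modularFunctionFieldFull N) τ)
    (fun a => G.algebraMap_mem_iff a) ?_ (fun f hf => S34R_gauss_const N A hgen f hf) ?_
    (fun f hf => S34R_gauss_inertia N A hgen τ hτ f hf) ?_ ?_
    (S34AP_exists_idem_val G.O O₂ h12 h21) (fun a => ?_) u hu
  · -- `O₂ ∩ K = A`
    intro a
    rw [hO₂, hwc]
    exact G.algebraMap_mem_iff a
  · -- value group of `O₂`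
    intro f hf
    have hwf : w f ≠ 0 := by
      rw [Ne, map_eq_zero_iff w w.injective]; exact hf
    obtain ⟨c, hc, hv⟩ := S34R_gauss_const N A hgen (w f) hwf
    refine ⟨c, hc, ?_⟩
    rw [S34R_tr_eq G.O O₂ w hO₂, map_mul, map_inv₀, hwc]
    exact hv
  · -- inertia at `O₂`
    intro f hf
    rw [S34R_tr_lt G.O O₂ w hO₂, map_sub, hwgal]
    exact S34R_gauss_inertia N A hgen τ hτ (w f) ((hO₂ f).1 hf)
  · -- the decomposition group preserves the valuation
    intro c hc
    have : Algebra.IsAlgebraic ℚ (AlgebraicClosure ℚ) := AlgebraicClosure.isAlgebraic ℚ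
    exact S34R_decomp_val A τ hτD c hc
  · -- roots
    obtain ⟨b, hb⟩ := IsAlgClosed.exists_pow_nat_eq a hn
    exact ⟨b, hb⟩

end concrete

end Fermat.Agent.S34
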