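import Mathlib
import Fermat.Agent.S24.FInd
import Fermat.Agent.GalRep.KMDefs
import Fermat.Prelude.Def_ModularCurve_HeckeOperator

/-!
# TRACK 7 (S34 + S35), package WQ, generic part (helper6)

Everything that follows formally from the **values of the Atkin–Lehner automorphism on the
generators** of `F_N = ℚ̄(j(dτ) : d ∣ N)`, `N = M q`, `q` prime:

`S34WJ_IsAL M q w` : `w (j_d) = j_{q d}` and `w (j_{q d}) = j_d` for `d ∣ M`.

From this hypothesis alone (no analysis) we get

* `S34WJ_sq`            : `w (w f) = f`;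
* `S34WJ_galois`        : `w` commutes with the arithmetic Galois action on `F_N`;
* `S34WJ_sl_comm`       : the same in `SemilinearAut ℚ̄ F_N`;
* `S34WJ_comp_alpha/beta`: `w ∘ α^* = β^*` and `w ∘ β^* = α^*` (`heckeAlphaBar`, `heckeBetaBar`);
* `S34WJ_pic` / `S34WJ_tors` : the induced involution of `J₀(N)` and of `J₀(N)[n]`, commuting
  with `G_ℚ` (`JZero.torsionGaloisRep`);
* transport of places, `ord`, divisors of functions.

The analytic construction of `w` (helper13, `S34/AtkinLehner.lean`) is not imported here.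
-/

set_option autoImplicit false
set_option linter.unusedSectionVars false

open ModularCurve AlgebraicCurve IntermediateField HahnSeries

noncomputable section

namespace Fermat.Agent.S34

open Fermat.Agent.S24

/-- `jBar` only depends on the number `d`. -/
theorem S34WJ_jBar_congr (N : ℕ) [NeZero N] {d d' : ℕ} [NeZero d] [NeZero d'] (h : d = d')
    (hd : d ∣ N) (hd' : d' ∣ N) : jBar N d hd = jBar N d' hd' := by
  subst h
  rfl

variable (M q : ℕ) [NeZero M] [NeZero q]

/-- the function field of `X₀(M q)` over `ℚ̄`. -/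
abbrev S34WJ_F : Type := ↥(modularFunctionFieldBar (M * q))

/-- **The Atkin–Lehner values on generators**: `w (j_d) = j_{q d}`, `w (j_{q d}) = j_d`
for all `d ∣ M`. -/
structure S34WJ_IsAL
    (w : S34WJ_F M q ≃ₐ[AlgebraicClosure ℚ] S34WJ_F M q) : Prop where
  low : ∀ (d : ℕ) [NeZero d] (hd : d ∣ M),
    w (jBar (M * q) d (Dvd.dvd.mul_right hd q)) =
      jBar (M * q) (q * d) ((Nat.mul_dvd_mul_left q hd).trans (dvd_of_eq (mul_comm q M)))
  high : ∀ (d : ℕ) [NeZero d] (hd : d ∣ M),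
    w (jBar (M * q) (q * d) ((Nat.mul_dvd_mul_left q hd).trans (dvd_of_eq (mul_comm q M)))) =
      jBar (M * q) d (Dvd.dvd.mul_right hd q)

variable {M q}

/-- **Induction principle for `F_{Mq}`, `q` prime**: generated by constants, the `j_d` and
the `j_{qd}`, `d ∣ M`. -/
theorem S34WJ_ind (hq : q.Prime) (P : S34WJ_F M q → Prop)
    (hK : ∀ c : AlgebraicClosure ℚ, P (algebraMap (AlgebraicClosure ℚ) (S34WJ_F M q) c))
    (hlow : ∀ (d : ℕ) [NeZero d] (hd : d ∣ M), P (jBar (M * q) d (Dvd.dvd.mul_right hd q)))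
    (hhigh : ∀ (d : ℕ) [NeZero d] (hd : d ∣ M),
      P (jBar (M * q) (q * d) ((Nat.mul_dvd_mul_left q hd).trans (dvd_of_eq (mul_comm q M)))))
    (hadd : ∀ x y, P x → P y → P (x + y))
    (hmul : ∀ x y, P x → P y → P (x * y))
    (hinv : ∀ x, P x → P x⁻¹) : ∀ f, P f := by
  refine F_induction (M * q) P hK ?_ hadd hmul hinv
  intro d _ hd
  by_cases hqd : q ∣ d
  · obtain ⟨d', rfl⟩ := hqd
    have hd'0 : d' ≠ 0 := by
      rintro rfl
      exact NeZero.ne (q * 0) (mul_zero q)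
    have : NeZero d' := ⟨hd'0⟩
    have hd'M : d' ∣ M := by
      have h1 : q * d' ∣ q * M := by rwa [mul_comm q M]
      exact Nat.dvd_of_mul_dvd_mul_left hq.pos h1
    exact hhigh d' hd'M
  · have hcop : Nat.Coprime d q := (Nat.Coprime.symm ((Nat.Prime.coprime_iff_not_dvd hq).mpr hqd))
    have hdM : d ∣ M := hcop.dvd_of_dvd_mul_right hd
    exact hlow d hdM

section Generic

variable {w : S34WJ_F M q ≃ₐ[AlgebraicClosure ℚ] S34WJ_F M q}

/-- `w² = 1`. -/
theorem S34WJ_sq (hq : q.Prime) (hw : S34WJ_IsAL M q w) (f : S34WJ_F M q) : w (w f) = f := by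
  revert f
  apply S34WJ_ind hq
  · intro c
    rw [w.commutes, w.commutes]
  · intro d _ hd
    rw [hw.low d hd, hw.high d hd]
  · intro d _ hd
    rw [hw.high d hd, hw.low d hd]
  · intro x y hx hy
    rw [map_add, map_add, hx, hy]
  · intro x y hx hy
    rw [map_mul, map_mul, hx, hy]
  · intro x hx
    rw [map_inv₀, map_inv₀, hx]

theorem S34WJ_symm (hq : q.Prime) (hw : S34WJ_IsAL M q w) : w.symm = w := by
  refine AlgEquiv.ext fun f => ?_
  rw [AlgEquiv.symm_apply_eq, S34WJ_sq hq hw]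

theorem S34WJ_mul_self (hq : q.Prime) (hw : S34WJ_IsAL M q w) : w * w = 1 :=
  AlgEquiv.ext fun f => S34WJ_sq hq hw f

/-- the arithmetic Galois action fixes the generators. -/
theorem S34WJ_arith_jBar (N : ℕ) [NeZero N] (σ : AlgebraicClosure ℚ ≃ₐ[ℚ] AlgebraicClosure ℚ)
    (d : ℕ) [NeZero d] (hd : d ∣ N) :
    arithmeticRingAut (modularFunctionFieldFull N) σ (jBar N d hd) = jBar N d hd :=
  Subtype.ext (coeffMap_coeffEmb σ _)

/-- **`w` commutes with the arithmetic Galois action** on `F_{Mq}`. -/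
theorem S34WJ_galois (hq : q.Prime) (hw : S34WJ_IsAL M q w)
    (σ : AlgebraicClosure ℚ ≃ₐ[ℚ] AlgebraicClosure ℚ) (f : S34WJ_F M q) :
    w (arithmeticRingAut (modularFunctionFieldFull (M * q)) σ f) =
      arithmeticRingAut (modularFunctionFieldFull (M * q)) σ (w f) := by
  revert f
  apply S34WJ_ind hq
  · intro c
    rw [arithmeticRingAut_algebraMap, w.commutes, w.commutes, arithmeticRingAut_algebraMap]
  · intro d _ hd
    rw [S34WJ_arith_jBar, hw.low d hd, S34WJ_arith_jBar]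
  · intro d _ hd
    rw [S34WJ_arith_jBar, hw.high d hd, S34WJ_arith_jBar]
  · intro x y hx hy
    rw [map_add, map_add, map_add, map_add, hx, hy]
  · intro x y hx hy
    rw [map_mul, map_mul, map_mul, map_mul, hx, hy]
  · intro x hx
    rw [map_inv₀, map_inv₀, map_inv₀, map_inv₀, hx]

/-- the same in the group `SemilinearAut ℚ̄ F_{Mq}`. -/
theorem S34WJ_sl_comm (hq : q.Prime) (hw : S34WJ_IsAL M q w)
    (σ : AlgebraicClosure ℚ ≃ₐ[ℚ] AlgebraicClosure ℚ) :
    SemilinearAut.ofAlgAut w * arithmeticGalois (modularFunctionFieldFull (M * q)) σ =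
      arithmeticGalois (modularFunctionFieldFull (M * q)) σ * SemilinearAut.ofAlgAut w := by
  refine Subtype.ext (Prod.ext (RingEquiv.ext fun f => ?_) ?_)
  · exact S34WJ_galois hq hw σ f
  · show (1 : RingAut (AlgebraicClosure ℚ)) * σ.toRingEquiv = σ.toRingEquiv * 1
    rw [one_mul, mul_one]

theorem S34WJ_sl_sq (hq : q.Prime) (hw : S34WJ_IsAL M q w) :
    (SemilinearAut.ofAlgAut w : SemilinearAut (AlgebraicClosure ℚ) (S34WJ_F M q)) *
      SemilinearAut.ofAlgAut w = 1 := by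
  rw [← map_mul, S34WJ_mul_self hq hw, map_one]

theorem S34WJ_sl_inv (hq : q.Prime) (hw : S34WJ_IsAL M q w) :
    (SemilinearAut.ofAlgAut w : SemilinearAut (AlgebraicClosure ℚ) (S34WJ_F M q))⁻¹ =
      SemilinearAut.ofAlgAut w :=
  inv_eq_of_mul_eq_one_left (S34WJ_sl_sq hq hw)

end Generic

/-! ### `w ∘ α^* = β^*` -/

section Degeneracy

theorem S34WJ_coeffEmb_qExpand (L : Type*) [Field L] [Algebra ℚ L] (n : ℕ) [NeZero n]
    (x : LaurentSeries ℚ) : coeffEmb L (qExpand ℚ n x) = qExpand L n (coeffEmb L x) := by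
  ext k
  by_cases hk : (n : ℤ) ∣ k
  · obtain ⟨m, rfl⟩ := hk
    rw [coeffEmb_coeff, qExpand_coeff_mul, qExpand_coeff_mul, coeffEmb_coeff]
  · rw [coeffEmb_coeff, qExpand_coeff_of_not_dvd n _ hk, qExpand_coeff_of_not_dvd n _ hk,
      map_zero]

/-- `α^* (j_d) = j_d`. -/
theorem S34WJ_alpha_jBar (d : ℕ) [NeZero d] (hd : d ∣ M) :
    heckeAlphaBar (AlgebraicClosure ℚ) M q (jBar M d hd) =
      jBar (M * q) d (Dvd.dvd.mul_right hd q) :=
  Subtype.ext (coe_heckeAlphaBar M q _)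

/-- `β^* (j_d) = j_{q d}`. -/
theorem S34WJ_beta_jBar (d : ℕ) [NeZero d] (hd : d ∣ M) :
    heckeBetaBar (AlgebraicClosure ℚ) M q (jBar M d hd) =
      jBar (M * q) (q * d) ((Nat.mul_dvd_mul_left q hd).trans (dvd_of_eq (mul_comm q M))) := by
  apply Subtype.ext
  rw [coe_heckeBetaBar]
  show qExpand (AlgebraicClosure ℚ) q (coeffEmb (AlgebraicClosure ℚ) (qExpand ℚ d jq)) =
    coeffEmb (AlgebraicClosure ℚ) (qExpand ℚ (q * d) jq)
  rw [← S34WJ_coeffEmb_qExpand, qExpand_qExpand]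

variable {w : S34WJ_F M q ≃ₐ[AlgebraicClosure ℚ] S34WJ_F M q}

/-- **`w ∘ α^* = β^*`**. -/
theorem S34WJ_alpha (hw : S34WJ_IsAL M q w) (f : ↥(modularFunctionFieldBar M)) :
    w (heckeAlphaBar (AlgebraicClosure ℚ) M q f) = heckeBetaBar (AlgebraicClosure ℚ) M q f := by
  revert f
  apply F_induction M
  · intro c
    rw [AlgHom.commutes, AlgHom.commutes, w.commutes]
  · intro d _ hd
    rw [S34WJ_alpha_jBar, S34WJ_beta_jBar, hw.low d hd]
  · intro x y hx hy
    rw [map_add, map_add, map_add, hx, hy]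
  · intro x y hx hy
    rw [map_mul, map_mul, map_mul, hx, hy]
  · intro x hx
    rw [map_inv₀, map_inv₀, map_inv₀, hx]

/-- **`w ∘ β^* = α^*`**. -/
theorem S34WJ_beta (hw : S34WJ_IsAL M q w) (f : ↥(modularFunctionFieldBar M)) :
    w (heckeBetaBar (AlgebraicClosure ℚ) M q f) = heckeAlphaBar (AlgebraicClosure ℚ) M q f := by
  revert f
  apply F_induction M
  · intro c
    rw [AlgHom.commutes, AlgHom.commutes, w.commutes]
  · intro d _ hd
    rw [S34WJ_alpha_jBar, S34WJ_beta_jBar, hw.high d hd]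
  · intro x y hx hy
    rw [map_add, map_add, map_add, hx, hy]
  · intro x y hx hy
    rw [map_mul, map_mul, map_mul, hx, hy]
  · intro x hx
    rw [map_inv₀, map_inv₀, map_inv₀, hx]

theorem S34WJ_comp_alpha (hw : S34WJ_IsAL M q w) :
    (w : S34WJ_F M q →ₐ[AlgebraicClosure ℚ] S34WJ_F M q).comp
        (heckeAlphaBar (AlgebraicClosure ℚ) M q) = heckeBetaBar (AlgebraicClosure ℚ) M q :=
  AlgHom.ext fun f => S34WJ_alpha hw f

theorem S34WJ_comp_beta (hw : S34WJ_IsAL M q w) :
    (w : S34WJ_F M q →ₐ[AlgebraicClosure ℚ] S34WJ_F M q).comp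
        (heckeBetaBar (AlgebraicClosure ℚ) M q) = heckeAlphaBar (AlgebraicClosure ℚ) M q :=
  AlgHom.ext fun f => S34WJ_beta hw f

/-- `β^*` is integral as soon as `α^*` is. -/
theorem S34WJ_beta_integral (hw : S34WJ_IsAL M q w)
    (hα : HeckeAlphaBarIntegral (AlgebraicClosure ℚ) M q) :
    HeckeBetaBarIntegral (AlgebraicClosure ℚ) M q := by
  have h1 : (heckeBetaBar (AlgebraicClosure ℚ) M q).toRingHom =
      (w : S34WJ_F M q →+* S34WJ_F M q).comp
        (heckeAlphaBar (AlgebraicClosure ℚ) M q).toRingHom :=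
    RingHom.ext fun f => (S34WJ_alpha hw f).symm
  rw [HeckeBetaBarIntegral, h1]
  exact RingHom.IsIntegral.trans _ _ hα (RingHom.isIntegral_of_surjective _ w.surjective)

/-- **norms**: `N_β f = N_α (w f)` (norm of `F_{Mq}` over `F_M` along `β^*` resp. `α^*`). -/
theorem S34WJ_norm_beta (hw : S34WJ_IsAL M q w) (f : S34WJ_F M q) :
    @Algebra.norm ↥(modularFunctionFieldBar M) (S34WJ_F M q) _ _
        (heckeBetaBar (AlgebraicClosure ℚ) M q).toRingHom.toAlgebra f =
      @Algebra.norm ↥(modularFunctionFieldBar M) (S34WJ_F M q) _ _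
        (heckeAlphaBar (AlgebraicClosure ℚ) M q).toRingHom.toAlgebra (w f) := by
  have h := @Algebra.norm_eq_of_equiv_equiv ↥(modularFunctionFieldBar M) (S34WJ_F M q)
    ↥(modularFunctionFieldBar M) (S34WJ_F M q) _ _ _ _
    (heckeBetaBar (AlgebraicClosure ℚ) M q).toRingHom.toAlgebra
    (heckeAlphaBar (AlgebraicClosure ℚ) M q).toRingHom.toAlgebra
    (RingEquiv.refl _) (w : S34WJ_F M q ≃+* S34WJ_F M q)
    (RingHom.ext fun a => (S34WJ_beta hw a).symm) f
  exact h

/-- **norms**: `N_α f = N_β (w f)`. -/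
theorem S34WJ_norm_alpha (hq : q.Prime) (hw : S34WJ_IsAL M q w) (f : S34WJ_F M q) :
    @Algebra.norm ↥(modularFunctionFieldBar M) (S34WJ_F M q) _ _
        (heckeAlphaBar (AlgebraicClosure ℚ) M q).toRingHom.toAlgebra f =
      @Algebra.norm ↥(modularFunctionFieldBar M) (S34WJ_F M q) _ _
        (heckeBetaBar (AlgebraicClosure ℚ) M q).toRingHom.toAlgebra (w f) := by
  rw [S34WJ_norm_beta hw, S34WJ_sq hq hw]

end Degeneracy

/-! ### Kummer generators -/

section Kummer

open Fermat.Agent.GalRep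

/-- semilinear automorphisms preserve Kummer generators. -/
theorem S34WJ_isKum_smul {K F : Type} [Field K] [Field F] [Algebra K F]
    (g : SemilinearAut K F) {n : ℕ} {f : F} (hf : KM_IsKum K F n f) :
    KM_IsKum K F n (g • f) := by
  refine ⟨?_, fun v => ?_⟩
  · rw [SemilinearAut.smul_def]
    exact (map_ne_zero_iff _ (SemilinearAut.toRingAut g).injective).mpr hf.1
  · have h := SemilinearAut.ord_smul g (g⁻¹ • v) f
    rw [smul_inv_smul] at h
    rw [h]
    exact hf.2 _

/-- `K`-automorphisms preserve Kummer generators. -/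
theorem S34WJ_isKum {K F : Type} [Field K] [Field F] [Algebra K F]
    (w : F ≃ₐ[K] F) {n : ℕ} {f : F} (hf : KM_IsKum K F n f) : KM_IsKum K F n (w f) :=
  S34WJ_isKum_smul (SemilinearAut.ofAlgAut w) hf

theorem S34WJ_isKum_iff {K F : Type} [Field K] [Field F] [Algebra K F]
    (w : F ≃ₐ[K] F) {n : ℕ} {f : F} : KM_IsKum K F n (w f) ↔ KM_IsKum K F n f := by
  refine ⟨fun h => ?_, S34WJ_isKum w⟩
  have := S34WJ_isKum w.symm h
  rwa [AlgEquiv.symm_apply_apply] at this

end Kummer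

/-! ### The induced involution of `J₀(M q)` and of its torsion -/

section Jacobian

variable (w : S34WJ_F M q ≃ₐ[AlgebraicClosure ℚ] S34WJ_F M q)

/-- the action of `w` on `J₀(M q) = Pic⁰(F_{Mq})`. -/
def S34WJ_pic : JZero (M * q) →+ JZero (M * q) :=
  DistribSMul.toAddMonoidHom (JZero (M * q))
    (SemilinearAut.ofAlgAut w : SemilinearAut (AlgebraicClosure ℚ) (S34WJ_F M q))

theorem S34WJ_pic_apply (x : JZero (M * q)) :
    S34WJ_pic w x =
      (SemilinearAut.ofAlgAut w : SemilinearAut (AlgebraicClosure ℚ) (S34WJ_F M q)) • x := rfl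

theorem S34WJ_pic_mk (D : Divisor.degZero (K := AlgebraicClosure ℚ) (F := S34WJ_F M q)) :
    S34WJ_pic w (Pic0.mk D) = Pic0.mk (SemilinearAut.degZeroSMulHom (SemilinearAut.ofAlgAut w) D) :=
  rfl

variable {w}

theorem S34WJ_pic_pic (hq : q.Prime) (hw : S34WJ_IsAL M q w) (x : JZero (M * q)) :
    S34WJ_pic w (S34WJ_pic w x) = x := by
  rw [S34WJ_pic_apply, S34WJ_pic_apply, ← mul_smul, S34WJ_sl_sq hq hw, one_smul]

/-- `w` commutes with the Galois action on `J₀(M q)`. -/
theorem S34WJ_pic_galois (hq : q.Prime) (hw : S34WJ_IsAL M q w)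
    (σ : AlgebraicClosure ℚ ≃ₐ[ℚ] AlgebraicClosure ℚ) (x : JZero (M * q)) :
    S34WJ_pic w (σ • x) = σ • S34WJ_pic w x := by
  rw [S34WJ_pic_apply, S34WJ_pic_apply, galois_smul_pic0_def, galois_smul_pic0_def, ← mul_smul,
    ← mul_smul, S34WJ_sl_comm hq hw]

variable (w)

/-- the action of `w` on `J₀(M q)[n]`. -/
def S34WJ_tors (n : ℕ) :
    Module.End (ZMod n)
      (Pic0.torsion (AlgebraicClosure ℚ) (modularFunctionFieldBar (M * q)) n) :=
  SemilinearAut.torsionRep (AlgebraicClosure ℚ) (S34WJ_F M q) n (SemilinearAut.ofAlgAut w)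

theorem S34WJ_tors_coe (n : ℕ)
    (x : Pic0.torsion (AlgebraicClosure ℚ) (modularFunctionFieldBar (M * q)) n) :
    ((S34WJ_tors w n x : Pic0.torsion (AlgebraicClosure ℚ) (modularFunctionFieldBar (M * q)) n) :
      JZero (M * q)) = S34WJ_pic w (x : JZero (M * q)) := rfl

variable {w}

theorem S34WJ_tors_sq (hq : q.Prime) (hw : S34WJ_IsAL M q w) (n : ℕ) :
    S34WJ_tors w n * S34WJ_tors w n = 1 := by
  rw [S34WJ_tors, ← map_mul, S34WJ_sl_sq hq hw, map_one]

/-- `w` commutes with the Galois representation on `J₀(M q)[n]`. -/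
theorem S34WJ_tors_galois (hq : q.Prime) (hw : S34WJ_IsAL M q w) (n : ℕ)
    (σ : AlgebraicClosure ℚ ≃ₐ[ℚ] AlgebraicClosure ℚ) :
    S34WJ_tors w n * JZero.torsionGaloisRep (M * q) n σ =
      JZero.torsionGaloisRep (M * q) n σ * S34WJ_tors w n := by
  refine LinearMap.ext fun x => Subtype.ext ?_
  exact S34WJ_pic_galois hq hw σ (x : JZero (M * q))

end Jacobian

end Fermat.Agent.S34
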