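import Mathlib
import Fermat.Agent.S34.AtkinLehner
import Fermat.Agent.S34.WqJac
import Fermat.Agent.GalRep.Geom

/-!
# TRACK 7 (S34 + S35), package WQ: the Atkin–Lehner involution of `F_{M q}`, all formal properties

`S34WJ_wq hq hqM : F_{M q} ≃ₐ[ℚ̄] F_{M q}` is helper13's `S34WQ_wq` at the level `M * q` (the level
of `heckeAlphaBar _ M q`, `heckeBetaBar _ M q`, `GR_HeckeES (M * q) q`, `S41D_B M q`).  It satisfies

* `S34WJ_wq_wq`      : `w (w f) = f`;
* `S34WJ_wq_gal`     : `w (GR_gal σ f) = GR_gal σ (w f)`;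
* `S34WJ_wq_alpha`   : `w (α^* f) = β^* f`,   `S34WJ_wq_beta` : `w (β^* f) = α^* f`;
* `S34WJ_wq_norm_beta` : `N_β f = N_α (w f)`, `S34WJ_wq_norm_alpha` : `N_α f = N_β (w f)`;
* `S34WJ_wq_isKum`   : `w` preserves Kummer generators (`KM_IsKum`);
* `S34WJ_wq_isTriv`  : `w` preserves trivial Kummer generators (`GR_IsTriv`);
* `S34WJ_wq_pic_*`, `S34WJ_wq_tors_*` : the induced involution of `J₀(M q)`, `J₀(M q)[n]`,
  commuting with Galois.
-/

set_option autoImplicit false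
set_option linter.unusedSectionVars false

open ModularCurve AlgebraicCurve IntermediateField HahnSeries

noncomputable section

namespace Fermat.Agent.S34

open Fermat.Agent.S24 Fermat.Agent.GalRep

variable {M q : ℕ} [NeZero M] [NeZero q] (hq : q.Prime) (hqM : ¬ q ∣ M)

/-- **the Atkin–Lehner involution `w_q` of `F_{M q}`**. -/
def S34WJ_wq : S34WJ_F M q ≃ₐ[AlgebraicClosure ℚ] S34WJ_F M q :=
  S34WQ_wq hq hqM (mul_comm q M)

/-- it has the Atkin–Lehner values on the generators. -/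
theorem S34WJ_wq_isAL : S34WJ_IsAL M q (S34WJ_wq hq hqM) where
  low d _ hd := S34WQ_wq_jBar hq hqM (mul_comm q M) d hd
  high d _ hd := S34WQ_wq_jBar' hq hqM (mul_comm q M) d hd

theorem S34WJ_wq_wq (f : S34WJ_F M q) : S34WJ_wq hq hqM (S34WJ_wq hq hqM f) = f :=
  S34WQ_wq_wq hq hqM (mul_comm q M) f

theorem S34WJ_wq_injective : Function.Injective (S34WJ_wq hq hqM) :=
  (S34WJ_wq hq hqM).injective

/-- `w_q` commutes with the Galois action. -/
theorem S34WJ_wq_gal (σ : GQ) (f : S34WJ_F M q) :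
    S34WJ_wq hq hqM (GR_gal (M * q) σ f) = GR_gal (M * q) σ (S34WJ_wq hq hqM f) :=
  S34WJ_galois hq (S34WJ_wq_isAL hq hqM) σ f

/-- `w_q ∘ α^* = β^*`. -/
theorem S34WJ_wq_alpha (f : ↥(modularFunctionFieldBar M)) :
    S34WJ_wq hq hqM (heckeAlphaBar (AlgebraicClosure ℚ) M q f) =
      heckeBetaBar (AlgebraicClosure ℚ) M q f :=
  S34WJ_alpha (S34WJ_wq_isAL hq hqM) f

/-- `w_q ∘ β^* = α^*`. -/
theorem S34WJ_wq_beta (f : ↥(modularFunctionFieldBar M)) :
    S34WJ_wq hq hqM (heckeBetaBar (AlgebraicClosure ℚ) M q f) =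
      heckeAlphaBar (AlgebraicClosure ℚ) M q f :=
  S34WJ_beta (S34WJ_wq_isAL hq hqM) f

/-- `N_β f = N_α (w_q f)`. -/
theorem S34WJ_wq_norm_beta (f : S34WJ_F M q) :
    @Algebra.norm ↥(modularFunctionFieldBar M) (S34WJ_F M q) _ _
        (heckeBetaBar (AlgebraicClosure ℚ) M q).toRingHom.toAlgebra f =
      @Algebra.norm ↥(modularFunctionFieldBar M) (S34WJ_F M q) _ _
        (heckeAlphaBar (AlgebraicClosure ℚ) M q).toRingHom.toAlgebra (S34WJ_wq hq hqM f) :=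
  S34WJ_norm_beta (S34WJ_wq_isAL hq hqM) f

/-- `N_α f = N_β (w_q f)`. -/
theorem S34WJ_wq_norm_alpha (f : S34WJ_F M q) :
    @Algebra.norm ↥(modularFunctionFieldBar M) (S34WJ_F M q) _ _
        (heckeAlphaBar (AlgebraicClosure ℚ) M q).toRingHom.toAlgebra f =
      @Algebra.norm ↥(modularFunctionFieldBar M) (S34WJ_F M q) _ _
        (heckeBetaBar (AlgebraicClosure ℚ) M q).toRingHom.toAlgebra (S34WJ_wq hq hqM f) :=
  S34WJ_norm_alpha hq (S34WJ_wq_isAL hq hqM) f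

/-- `w_q` preserves Kummer generators. -/
theorem S34WJ_wq_isKum {n : ℕ} {f : S34WJ_F M q}
    (hf : KM_IsKum (AlgebraicClosure ℚ) ↥(modularFunctionFieldBar (M * q)) n f) :
    KM_IsKum (AlgebraicClosure ℚ) ↥(modularFunctionFieldBar (M * q)) n (S34WJ_wq hq hqM f) :=
  S34WJ_isKum (S34WJ_wq hq hqM) hf

/-- algebra automorphisms preserve trivial Kummer generators. -/
theorem S34WJ_isTriv {N : ℕ}
    (w : ↥(modularFunctionFieldBar N) ≃ₐ[AlgebraicClosure ℚ] ↥(modularFunctionFieldBar N))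
    {n : ℕ} {f : ↥(modularFunctionFieldBar N)} (hf : GR_IsTriv N n f) : GR_IsTriv N n (w f) := by
  obtain ⟨c, g, hc, hg, rfl⟩ := hf
  refine ⟨c, w g, hc, (map_ne_zero_iff _ w.injective).mpr hg, ?_⟩
  rw [map_mul, map_pow, w.commutes]

/-- `w_q` preserves trivial Kummer generators. -/
theorem S34WJ_wq_isTriv {n : ℕ} {f : S34WJ_F M q} (hf : GR_IsTriv (M * q) n f) :
    GR_IsTriv (M * q) n (S34WJ_wq hq hqM f) :=
  S34WJ_isTriv (S34WJ_wq hq hqM) hf

theorem S34WJ_wq_isTriv_iff {n : ℕ} {f : S34WJ_F M q} :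
    GR_IsTriv (M * q) n (S34WJ_wq hq hqM f) ↔ GR_IsTriv (M * q) n f := by
  refine ⟨fun h => ?_, S34WJ_wq_isTriv hq hqM⟩
  have := S34WJ_wq_isTriv hq hqM h
  rwa [S34WJ_wq_wq] at this

theorem S34WJ_wq_isKum_iff {n : ℕ} {f : S34WJ_F M q} :
    KM_IsKum (AlgebraicClosure ℚ) ↥(modularFunctionFieldBar (M * q)) n (S34WJ_wq hq hqM f) ↔
      KM_IsKum (AlgebraicClosure ℚ) ↥(modularFunctionFieldBar (M * q)) n f :=
  S34WJ_isKum_iff (S34WJ_wq hq hqM)

/-- the involution of `J₀(M q)[n]` induced by `w_q` squares to `1`. -/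
theorem S34WJ_wq_tors_sq (n : ℕ) :
    S34WJ_tors (S34WJ_wq hq hqM) n * S34WJ_tors (S34WJ_wq hq hqM) n = 1 :=
  S34WJ_tors_sq hq (S34WJ_wq_isAL hq hqM) n

/-- ... and commutes with the Galois representation. -/
theorem S34WJ_wq_tors_galois (n : ℕ) (σ : GQ) :
    S34WJ_tors (S34WJ_wq hq hqM) n * JZero.torsionGaloisRep (M * q) n σ =
      JZero.torsionGaloisRep (M * q) n σ * S34WJ_tors (S34WJ_wq hq hqM) n :=
  S34WJ_tors_galois hq (S34WJ_wq_isAL hq hqM) n σ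

end Fermat.Agent.S34
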