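import Mathlib
import Fermat.Agent.S34.DStepK
import Fermat.Agent.S34.Defs
import Fermat.Agent.S34.RedOneInst
import Fermat.Agent.S34.WqInst
import Fermat.Agent.GalRep.KMFinal

/-!
# TRACK 7 (NODE), package ASM (helper28): the top of the funnel, on the CONCRETE objects

Level `M * q`, `q` prime, `q ∤ M`; `F = modularFunctionFieldBar (M * q)`; for a place `A ∣ q` of `ℚ̄`
the two Gauss valuation rings `O₁ = S34DF_O1 M q A hgen`, `O₂ = S34DF_O2 M q hq hqM A hgen`
(`S34/Defs.lean`), `w = S34WJ_wq hq hqM` the Atkin–Lehner involution.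

The targets `S35A_UniK M q`, `S35A_Frob4K M q` (`S35/Iface.lean`) are proved from the following
named inputs, which are statements about the concrete objects only:

* `S34M_HGen M q`    (VAL-HGEN): `PrincipalGeneratedByIntegral` at every place above `q`;
* `S34M_Incomp M q`  (VAL-2):    `O₁`, `O₂` are incomparable;
* `S34M_KTau M q`    (KACT):     inertia is trivial on normalised Kummer generators;
* `S34M_KSig2 M q`   (KACT):     `σ² = q²` on normalised Kummer generators;
* `S34M_Red2 M q`    (BRIDGE + RED2): `σ f · w_q f` is trivial × normalised for `q`-new `f`.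

(RED1) is discharged here from `S34R_concrete` (helper19), (WQ) from `S34WJ_*` (helper6/helper13),
the algebra from `S34D_uniK`, `S34D_frob4K` (helper12).
-/

set_option autoImplicit false
set_option linter.unusedSectionVars false
set_option linter.unusedVariables false

open ModularCurve AlgebraicCurve CongruenceSubgroup

noncomputable section

namespace Fermat.Agent.S34

open Fermat.Agent.GalRep Fermat.Agent.S16 Fermat.Agent.S41 Fermat.Agent.S24 Fermat.Agent.S18
  Fermat.Agent.S35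

section inputs

variable (M q : ℕ) [NeZero (M * q)]

/-- **(VAL-HGEN)** at every place of `ℚ̄` above `q`. -/
def S34M_HGen : Prop :=
  ∀ A : ValuationSubring (AlgebraicClosure ℚ), A.LiesOverPrime q →
    PrincipalGeneratedByIntegral A (IsLocalRing.residue A) (M * q)

variable (hq : q.Prime) (hqM : ¬ q ∣ M)

/-- **(VAL-2)**: the two Gauss valuation rings `O₁`, `O₂ = O₁ ∘ w_q` are incomparable. -/
def S34M_Incomp : Prop :=
  ∀ (A : ValuationSubring (AlgebraicClosure ℚ)), A.LiesOverPrime q →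
    ∀ hgen : PrincipalGeneratedByIntegral A (IsLocalRing.residue A) (M * q),
      ¬ S34DF_O1 M q A hgen ≤ S34DF_O2 M q hq hqM A hgen ∧
      ¬ S34DF_O2 M q hq hqM A hgen ≤ S34DF_O1 M q A hgen

/-- **(K-tau)**: inertia at `A ∣ q` acts trivially on the normalised Kummer generators
(`u ≡ 1` at `V₁` and at `V₂`). -/
def S34M_KTau : Prop :=
  ∀ (n : ℕ), 0 < n → ¬ q ∣ n →
    ∀ (A : ValuationSubring (AlgebraicClosure ℚ)), A.LiesOverPrime q →
    ∀ hgen : PrincipalGeneratedByIntegral A (IsLocalRing.residue A) (M * q),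
    ∀ τ ∈ A.inertiaSubgroupIn ℚ, ∀ u : ↥(modularFunctionFieldBar (M * q)),
      KM_IsKum (AlgebraicClosure ℚ) ↥(modularFunctionFieldBar (M * q)) n u →
      (S34DF_O1 M q A hgen).valuation (u - 1) < 1 →
      (S34DF_O2 M q hq hqM A hgen).valuation (u - 1) < 1 →
      GR_IsTriv (M * q) n (GR_gal (M * q) τ u * u⁻¹)

/-- **(K-sig2)**: a Frobenius lift `σ` at `A ∣ q` satisfies `σ² = q²` on the normalised Kummer
generators. -/
def S34M_KSig2 : Prop :=
  ∀ (n : ℕ), 0 < n → ¬ q ∣ n → ∀ (σ : GQ)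
    (A : ValuationSubring (AlgebraicClosure ℚ)), A.LiesOverPrime q → A.IsFrobeniusAt σ q →
    ∀ hgen : PrincipalGeneratedByIntegral A (IsLocalRing.residue A) (M * q),
    ∀ u : ↥(modularFunctionFieldBar (M * q)),
      KM_IsKum (AlgebraicClosure ℚ) ↥(modularFunctionFieldBar (M * q)) n u →
      (S34DF_O1 M q A hgen).valuation (u - 1) < 1 →
      (S34DF_O2 M q hq hqM A hgen).valuation (u - 1) < 1 →
      GR_IsTriv (M * q) n (GR_gal (M * q) σ (GR_gal (M * q) σ u) * (u ^ (q ^ 2))⁻¹)

/-- **(BRIDGE + RED2)**: for a `q`-new Kummer generator `f` and a Frobenius lift `σ` at `A ∣ q`,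
`σ f · w_q f` is, up to a trivial factor `c · hⁿ`, normalised at `V₁` and at `V₂`. -/
def S34M_Red2 [NeZero M] [NeZero q] [Fact q.Prime] : Prop :=
  ∀ (n : ℕ), 0 < n → ¬ q ∣ n → ∀ (σ : GQ)
    (A : ValuationSubring (AlgebraicClosure ℚ)), A.LiesOverPrime q → A.IsFrobeniusAt σ q →
    ∀ hgen : PrincipalGeneratedByIntegral A (IsLocalRing.residue A) (M * q),
    ∀ (f : ↥(modularFunctionFieldBar (M * q))) (z : ↥(parInt (M * q))),
      z ∈ S41D_B M q →
      KM_IsKum (AlgebraicClosure ℚ) ↥(modularFunctionFieldBar (M * q)) n f →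
      GR_KChar (M * q) n f
        ((GRT_red (M * q) n z : ↥(GRT_X (M * q) n)) : Additive (Gamma0 (M * q)) →+ ZMod n) →
      ∃ (c : AlgebraicClosure ℚ) (h : ↥(modularFunctionFieldBar (M * q))), c ≠ 0 ∧ h ≠ 0 ∧
        (S34DF_O1 M q A hgen).valuation (GR_gal (M * q) σ f * S34DF_wq M q hq hqM f *
          algebraMap (AlgebraicClosure ℚ) ↥(modularFunctionFieldBar (M * q)) c * h ^ n - 1) < 1 ∧
        (S34DF_O2 M q hq hqM A hgen).valuation (GR_gal (M * q) σ f * S34DF_wq M q hq hqM f *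
          algebraMap (AlgebraicClosure ℚ) ↥(modularFunctionFieldBar (M * q)) c * h ^ n - 1) < 1

open Classical in
/-- `O₁` as a total function of the place (junk `⊤` where VAL-HGEN is not available). -/
def S34M_O1 (A : ValuationSubring (AlgebraicClosure ℚ)) :
    ValuationSubring ↥(modularFunctionFieldBar (M * q)) :=
  if hgen : PrincipalGeneratedByIntegral A (IsLocalRing.residue A) (M * q) then
    S34DF_O1 M q A hgen else ⊤

open Classical in
/-- `O₂` as a total function of the place. -/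
def S34M_O2 (A : ValuationSubring (AlgebraicClosure ℚ)) :
    ValuationSubring ↥(modularFunctionFieldBar (M * q)) :=
  if hgen : PrincipalGeneratedByIntegral A (IsLocalRing.residue A) (M * q) then
    S34DF_O2 M q hq hqM A hgen else ⊤

theorem S34M_O1_eq (A : ValuationSubring (AlgebraicClosure ℚ))
    (hgen : PrincipalGeneratedByIntegral A (IsLocalRing.residue A) (M * q)) :
    S34M_O1 M q A = S34DF_O1 M q A hgen := by
  unfold S34M_O1; rw [dif_pos hgen]

theorem S34M_O2_eq (A : ValuationSubring (AlgebraicClosure ℚ))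
    (hgen : PrincipalGeneratedByIntegral A (IsLocalRing.residue A) (M * q)) :
    S34M_O2 M q hq hqM A = S34DF_O2 M q hq hqM A hgen := by
  unfold S34M_O2; rw [dif_pos hgen]

end inputs

section main

variable (M q : ℕ) [NeZero M] [NeZero q] [NeZero (M * q)] (hq : q.Prime) (hqM : ¬ q ∣ M)

/-- (RED1) on the concrete objects: for `τ` in the inertia group of `A ∣ q` and `u ≠ 0`,
`τ u · u⁻¹` is, up to a trivial factor, normalised at `V₁` and `V₂`. -/
theorem S34M_red1 (hinc : S34M_Incomp M q hq hqM)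
    (n : ℕ) (hn : 0 < n) (A : ValuationSubring (AlgebraicClosure ℚ)) (hA : A.LiesOverPrime q)
    (hgen : PrincipalGeneratedByIntegral A (IsLocalRing.residue A) (M * q))
    (τ : GQ) (hτ : τ ∈ A.inertiaSubgroupIn ℚ)
    (u : ↥(modularFunctionFieldBar (M * q))) (hu : u ≠ 0) :
    ∃ (c : AlgebraicClosure ℚ) (h : ↥(modularFunctionFieldBar (M * q))), c ≠ 0 ∧ h ≠ 0 ∧
      (S34DF_O1 M q A hgen).valuation (GR_gal (M * q) τ u * u⁻¹ *
        algebraMap (AlgebraicClosure ℚ) ↥(modularFunctionFieldBar (M * q)) c * h ^ n - 1) < 1 ∧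
      (S34DF_O2 M q hq hqM A hgen).valuation (GR_gal (M * q) τ u * u⁻¹ *
        algebraMap (AlgebraicClosure ℚ) ↥(modularFunctionFieldBar (M * q)) c * h ^ n - 1) < 1 := by
  obtain ⟨h12, h21⟩ := hinc A hA hgen
  exact S34R_concrete (M * q) A hgen
    ((S34WJ_wq hq hqM : ↥(modularFunctionFieldBar (M * q)) ≃ₐ[AlgebraicClosure ℚ]
      ↥(modularFunctionFieldBar (M * q))) : ↥(modularFunctionFieldBar (M * q)) ≃+*
        ↥(modularFunctionFieldBar (M * q)))
    (fun c => (S34WJ_wq hq hqM).commutes c)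
    (fun σ f => S34WJ_wq_gal hq hqM σ f)
    (S34DF_O2 M q hq hqM A hgen) (fun f => Iff.rfl) h12 h21 n hn τ hτ u hu

/-- **(UNI-K)** from (VAL-HGEN), (VAL-2) and (K-tau). -/
theorem S34M_uniK (hgen : S34M_HGen M q) (hinc : S34M_Incomp M q hq hqM)
    (hK : S34M_KTau M q hq hqM) : S35A_UniK M q := by
  refine S34D_uniK M q (S34M_O1 M q) (S34M_O2 M q hq hqM) (KMF_kappa_final (M * q)).gal ?_ ?_
  · intro n hn _ P hP τ hτ u hu
    rw [S34M_O1_eq M q P (hgen P hP), S34M_O2_eq M q hq hqM P (hgen P hP)]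
    exact S34M_red1 M q hq hqM hinc n hn P hP (hgen P hP) τ hτ u hu
  · intro n hn hqn P hP τ hτ u hu h1 h2
    rw [S34M_O1_eq M q P (hgen P hP)] at h1
    rw [S34M_O2_eq M q hq hqM P (hgen P hP)] at h2
    exact hK n hn hqn P hP (hgen P hP) τ hτ u hu h1 h2

/-- **(FROB4-K)** from (VAL-HGEN), (K-sig2) and (BRIDGE + RED2). -/
theorem S34M_frob4K [Fact q.Prime] (hgen : S34M_HGen M q)
    (hK : S34M_KSig2 M q hq hqM) (hR : S34M_Red2 M q hq hqM) : S35A_Frob4K M q := by
  refine S34D_frob4K M q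
    (((S34WJ_wq hq hqM : ↥(modularFunctionFieldBar (M * q)) ≃ₐ[AlgebraicClosure ℚ]
      ↥(modularFunctionFieldBar (M * q))) : ↥(modularFunctionFieldBar (M * q)) ≃+*
        ↥(modularFunctionFieldBar (M * q))) : ↥(modularFunctionFieldBar (M * q)) →+*
          ↥(modularFunctionFieldBar (M * q)))
    (fun x => S34WJ_wq_wq hq hqM x)
    (fun σ x => (S34WJ_wq_gal hq hqM σ x).symm)
    (fun n t ht => S34WJ_wq_isTriv hq hqM ht)
    (fun n f hf => S34WJ_wq_isKum hq hqM hf)
    (KMF_kappa_final (M * q)).gal (S34M_O1 M q) (S34M_O2 M q hq hqM) ?_ ?_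
  · intro n hn hqn σ A hA hAσ u hu h1 h2
    rw [S34M_O1_eq M q A (hgen A hA)] at h1
    rw [S34M_O2_eq M q hq hqM A (hgen A hA)] at h2
    exact hK n hn hqn σ A hA hAσ (hgen A hA) u hu h1 h2
  · intro n hn hqn σ A hA hAσ f z hz hf hχ
    rw [S34M_O1_eq M q A (hgen A hA), S34M_O2_eq M q hq hqM A (hgen A hA)]
    exact hR n hn hqn σ A hA hAσ (hgen A hA) f z hz hf hχ

end main

end Fermat.Agent.S34
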