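import Mathlib
import Fermat.Agent.S34.AtkinLehner
import Fermat.Agent.GalRep.HeckePhiInf

/-!
# TRACK 7, package WQ (helper13): `β' ∘ w_q = φ_∞`  (the relation (WQ-φ) asked for by RED2)

Level `M * q` (`q` prime, `q ∤ M`), `w_q = S34WQ_wq` the Atkin–Lehner involution of `F_{Mq}`,
`φ_∞ = GRHP_phiInf M q y w h hq : F_{Mq} → F_{Mq·q}` (TRACK 4), `β' = heckeBetaBar (M*q) q`
(`= qExpand q` on series), `α = heckeAlphaBar M q`, `β = heckeBetaBar M q : F_M → F_{Mq}`.

* `S34WQ_beta_wq`   : `β' (w_q f) = φ_∞ f`;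
* `S34WQ_qExpand_wq`: `qExpand q ↑(w_q f) = ↑(φ_∞ f)`   (series form);
* `S34WQ_wq_alpha`  : `w_q (α f) = β f`,   `S34WQ_wq_beta` : `w_q (β f) = α f`.
-/

set_option autoImplicit false
set_option synthInstance.maxHeartbeats 400000
set_option maxHeartbeats 1000000

open ModularCurve

noncomputable section

namespace Fermat.Agent.S34

open Fermat.Agent.S24 Fermat.Agent.GalRep

variable (M q : ℕ) [NeZero M] [NeZero q] (hq : q.Prime) (hqM : ¬ q ∣ M)

/-- `w_q` at level `M * q`. -/
abbrev S34WQ_wqMq : ↥(modularFunctionFieldBar (M * q)) ≃ₐ[AlgebraicClosure ℚ]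
    ↥(modularFunctionFieldBar (M * q)) :=
  S34WQ_wq hq hqM (Nat.mul_comm q M)

theorem S34WQ_wqMq_jBar_old (d : ℕ) [NeZero d] (hd : d ∣ M) :
    S34WQ_wqMq M q hq hqM (jBar (M * q) d (hd.trans (dvd_mul_right M q))) =
      jBar (M * q) (q * d) (by rw [mul_comm M q]; exact mul_dvd_mul_left q hd) := by
  have : NeZero (q * d) := ⟨Nat.mul_ne_zero hq.ne_zero (NeZero.ne d)⟩
  exact S34WQ_wq_jBar hq hqM (Nat.mul_comm q M) d hd

theorem S34WQ_wqMq_jBar_new (d : ℕ) [NeZero d] (hd : d ∣ M) :
    S34WQ_wqMq M q hq hqM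
        (jBar (M * q) (q * d) (by rw [mul_comm M q]; exact mul_dvd_mul_left q hd)) =
      jBar (M * q) d (hd.trans (dvd_mul_right M q)) := by
  have : NeZero (q * d) := ⟨Nat.mul_ne_zero hq.ne_zero (NeZero.ne d)⟩
  exact S34WQ_wq_jBar' hq hqM (Nat.mul_comm q M) d hd

/-- `w_q ∘ α = β`. -/
theorem S34WQ_wq_alpha (f : ↥(modularFunctionFieldBar M)) :
    S34WQ_wqMq M q hq hqM (heckeAlphaBar (AlgebraicClosure ℚ) M q f) =
      heckeBetaBar (AlgebraicClosure ℚ) M q f := by
  have key : ((S34WQ_wqMq M q hq hqM : ↥(modularFunctionFieldBar (M * q)) →+*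
        ↥(modularFunctionFieldBar (M * q)))).comp
        (heckeAlphaBar (AlgebraicClosure ℚ) M q : ↥(modularFunctionFieldBar M) →+*
          ↥(modularFunctionFieldBar (M * q))) =
      (heckeBetaBar (AlgebraicClosure ℚ) M q : ↥(modularFunctionFieldBar M) →+*
          ↥(modularFunctionFieldBar (M * q))) := by
    apply ringHom_ext_gen M
    · intro a
      simp only [RingHom.comp_apply, RingHom.coe_coe, AlgHom.commutes, AlgEquiv.commutes]
    · intro d _ hd
      simp only [RingHom.comp_apply, RingHom.coe_coe]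
      rw [GRHF_alpha_jBar, GRHF_beta_jBar, S34WQ_wqMq_jBar_old M q hq hqM d hd]
  exact congrArg (fun φ : ↥(modularFunctionFieldBar M) →+* ↥(modularFunctionFieldBar (M * q)) =>
    φ f) key

/-- `w_q ∘ β = α`. -/
theorem S34WQ_wq_beta (f : ↥(modularFunctionFieldBar M)) :
    S34WQ_wqMq M q hq hqM (heckeBetaBar (AlgebraicClosure ℚ) M q f) =
      heckeAlphaBar (AlgebraicClosure ℚ) M q f := by
  rw [← S34WQ_wq_alpha M q hq hqM f]
  exact S34WQ_wq_wq hq hqM (Nat.mul_comm q M) _

variable (y w : ℤ) (h : (q : ℤ) * w - M * y = 1)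

/-- **(WQ-φ)**: `β' ∘ w_q = φ_∞`. -/
theorem S34WQ_beta_wq (f : ↥(modularFunctionFieldBar (M * q))) :
    heckeBetaBar (AlgebraicClosure ℚ) (M * q) q (S34WQ_wqMq M q hq hqM f) =
      GRHP_phiInf M q y w h hq f := by
  have key : ((heckeBetaBar (AlgebraicClosure ℚ) (M * q) q :
        ↥(modularFunctionFieldBar (M * q)) →+* ↥(modularFunctionFieldBar (M * q * q)))).comp
        ((S34WQ_wqMq M q hq hqM : ↥(modularFunctionFieldBar (M * q)) →+*
          ↥(modularFunctionFieldBar (M * q)))) =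
      (GRHP_phiInf M q y w h hq : ↥(modularFunctionFieldBar (M * q)) →+*
        ↥(modularFunctionFieldBar (M * q * q))) := by
    apply ringHom_ext_gen (M * q)
    · intro a
      simp only [RingHom.comp_apply, RingHom.coe_coe, AlgHom.commutes, AlgEquiv.commutes]
    · intro d _ hd
      simp only [RingHom.comp_apply, RingHom.coe_coe]
      by_cases hqd : q ∣ d
      · obtain ⟨d', rfl⟩ := hqd
        have hd' : d' ∣ M := by
          rw [mul_comm M q] at hd
          exact (Nat.mul_dvd_mul_iff_left hq.pos).mp hd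
        have : NeZero d' := ⟨by
          rintro rfl
          exact NeZero.ne (q * 0) (by simp)⟩
        rw [S34WQ_wqMq_jBar_new M q hq hqM d' hd', GRHF_beta_jBar]
        have e := GRHP_phiInf_jBar_new M q y w h hq d' hd'
        have e1 : jBar (M * q) (q * d') hd =
            jBar (M * q) (d' * q) (mul_dvd_mul hd' dvd_rfl) := by
          apply Subtype.ext
          show coeffEmb (AlgebraicClosure ℚ) (qExpand ℚ (q * d') jq) =
            coeffEmb (AlgebraicClosure ℚ) (qExpand ℚ (d' * q) jq)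
          rw [qExpand_congr (mul_comm q d')]
        rw [e1, e]
        apply Subtype.ext
        show coeffEmb (AlgebraicClosure ℚ) (qExpand ℚ (q * d') jq) =
            coeffEmb (AlgebraicClosure ℚ) (qExpand ℚ (d' * q) jq)
        rw [qExpand_congr (mul_comm q d')]
      · have hd' : d ∣ M := by
          rw [mul_comm M q] at hd
          exact (Nat.Coprime.dvd_mul_left
            ((Nat.Prime.coprime_iff_not_dvd hq).mpr hqd).symm).mp hd
        have : NeZero (q * d) := ⟨Nat.mul_ne_zero hq.ne_zero (NeZero.ne d)⟩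
        rw [S34WQ_wqMq_jBar_old M q hq hqM d hd', GRHF_beta_jBar,
          GRHP_phiInf_jBar_old M q y w h hq d hd']
        apply Subtype.ext
        show coeffEmb (AlgebraicClosure ℚ) (qExpand ℚ (q * (q * d)) jq) =
            coeffEmb (AlgebraicClosure ℚ) (qExpand ℚ (d * (q * q)) jq)
        rw [qExpand_congr (show q * (q * d) = d * (q * q) by ring)]
  exact congrArg (fun φ : ↥(modularFunctionFieldBar (M * q)) →+*
    ↥(modularFunctionFieldBar (M * q * q)) => φ f) key

/-- **(WQ-φ)**, series form: `(w_q f)(t^q) = (φ_∞ f)(t)`. -/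
theorem S34WQ_qExpand_wq (f : ↥(modularFunctionFieldBar (M * q))) :
    qExpand (AlgebraicClosure ℚ) q
        ((S34WQ_wqMq M q hq hqM f : ↥(modularFunctionFieldBar (M * q))) :
          LaurentSeries (AlgebraicClosure ℚ)) =
      ((GRHP_phiInf M q y w h hq f : ↥(modularFunctionFieldBar (M * q * q))) :
        LaurentSeries (AlgebraicClosure ℚ)) := by
  rw [← S34WQ_beta_wq M q hq hqM y w h f]
  rfl

end Fermat.Agent.S34
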