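import Mathlib
import Fermat.Agent.S18.LiftMore
import Fermat.Agent.S34.Approx

/-!
# TRACK 7 (S34 + S35), package VAL-2 (helper20): the second Gauss valuation `V₂ = V₁ ∘ w`

Abstract over a Gauss datum `G : S18_Gauss L F k Fk` (TRACK 3) and an `L`-automorphism `w` of `F`
(for `F = F_N`, `N = q M`: `G = ` the Gauss datum of `F_N` at a place over `q`, `w = w_q`).

* `S34V_comap G w : S18_Gauss L F k Fk` : the datum `O₂ = {f : w f ∈ O₁}`, `red₂ = red₁ ∘ w`;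
* `S34V_incomp` : if `u ∈ 𝔪₁` and `w u ∈ O₁ˣ` (and `w² = 1`) then `O₁`, `O₂` are incomparable
  (concretely `u = j^q - j(q z)`, by Kronecker's congruence);
* `S34V_small_iff` : `S34AP_Small` (helper15) in terms of the reduction map;
* `S34V_red_pair_surjective` : `(red₁, red₂) : O₁ ∩ O₂ → Fk₁ × Fk₂` is onto (weak approximation);
* `S34V_exists_norm` : every `f ≠ 0` is `c · y`, `c` constant, `y ∈ O₁ ∩ O₂` with
  `(red₁ y, red₂ y) ≠ (0, 0)` (the norm `max(|·|₁, |·|₂)` has the value group of `A`);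
* `S34V_exists_of_red_eq_zero` : the kernel of `(red₁, red₂)` on `O₁ ∩ O₂` is `𝔪_A · (O₁ ∩ O₂)`.
-/

set_option autoImplicit false

namespace Fermat.Agent.S34

open Fermat.Agent.S18

variable {L F k Fk : Type*} [Field L] [Field F] [Algebra L F] [Field k] [Field Fk]
  [Algebra k Fk]

section comap

variable (G : S18_Gauss L F k Fk) (w : F ≃ₐ[L] F)

/-- the ring homomorphism `w : O₂ = w⁻¹ O₁ → O₁`. -/
def S34V_comapHom : (G.O.comap (w : F →+* F)) →+* G.O where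
  toFun x := ⟨w (x : F), ValuationSubring.mem_comap.mp x.2⟩
  map_one' := Subtype.ext (map_one w)
  map_mul' _ _ := Subtype.ext (map_mul w _ _)
  map_zero' := Subtype.ext (map_zero w)
  map_add' _ _ := Subtype.ext (map_add w _ _)

@[simp] theorem S34V_comapHom_coe (x : G.O.comap (w : F →+* F)) :
    ((S34V_comapHom G w x : G.O) : F) = w (x : F) := rfl

theorem S34V_symm_mem (x : G.O) : w.symm (x : F) ∈ G.O.comap (w : F →+* F) := by
  rw [ValuationSubring.mem_comap]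
  change w (w.symm (x : F)) ∈ G.O
  rw [AlgEquiv.apply_symm_apply]
  exact x.2

theorem S34V_comapHom_symm (x : G.O) :
    S34V_comapHom G w ⟨w.symm (x : F), S34V_symm_mem G w x⟩ = x :=
  Subtype.ext (AlgEquiv.apply_symm_apply w _)

theorem S34V_isUnit_comapHom_iff (x : G.O.comap (w : F →+* F)) :
    IsUnit (S34V_comapHom G w x) ↔ IsUnit x := by
  constructor
  · intro h
    obtain ⟨v, hv⟩ := h.exists_right_inv
    rw [isUnit_iff_exists_inv]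
    refine ⟨⟨w.symm (v : F), S34V_symm_mem G w v⟩, Subtype.ext ?_⟩
    have h1 : w (x : F) * (v : F) = 1 := congrArg Subtype.val hv
    have h2 : w ((x : F) * w.symm (v : F)) = w 1 := by
      rw [map_mul, AlgEquiv.apply_symm_apply, h1, map_one]
    exact w.injective h2
  · intro h
    exact h.map _

/-- **VAL-2 (a)**: the Gauss datum `V₂ = V₁ ∘ w`. -/
def S34V_comap : S18_Gauss L F k Fk where
  A := G.A
  res := G.res
  res_surjective := G.res_surjective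
  res_eq_zero_iff := G.res_eq_zero_iff
  O := G.O.comap (w : F →+* F)
  red := G.red.comp (S34V_comapHom G w)
  red_surjective := by
    intro y
    obtain ⟨x, hx⟩ := G.red_surjective y
    refine ⟨⟨w.symm (x : F), S34V_symm_mem G w x⟩, ?_⟩
    rw [RingHom.comp_apply, S34V_comapHom_symm, hx]
  red_ne_zero_iff := by
    intro x
    rw [RingHom.comp_apply, G.red_ne_zero_iff, S34V_isUnit_comapHom_iff]
  algebraMap_mem_iff := by
    intro a
    rw [ValuationSubring.mem_comap]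
    change w (algebraMap L F a) ∈ G.O ↔ _
    rw [AlgEquiv.commutes]
    exact G.algebraMap_mem_iff a
  red_algebraMap := by
    intro a ha haO
    rw [RingHom.comp_apply]
    have h1 : S34V_comapHom G w ⟨algebraMap L F a, haO⟩ =
        ⟨algebraMap L F a, (G.algebraMap_mem_iff a).2 ha⟩ :=
      Subtype.ext (AlgEquiv.commutes w a)
    rw [h1]
    exact G.red_algebraMap a ha _
  exists_const_mul_unit := by
    intro f hf
    have hwf : w f ≠ 0 := by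
      intro h0
      exact hf (w.injective (by rw [h0, map_zero]))
    obtain ⟨c, u, hc, hu, hfu⟩ := G.exists_const_mul_unit (w f) hwf
    refine ⟨c, ⟨w.symm (u : F), S34V_symm_mem G w u⟩, hc, ?_, ?_⟩
    · rw [RingHom.comp_apply, S34V_comapHom_symm]
      exact hu
    · apply w.injective
      rw [map_mul, AlgEquiv.commutes, hfu]
      change _ = _ * w (w.symm (u : F))
      rw [AlgEquiv.apply_symm_apply]

@[simp] theorem S34V_comap_A : (S34V_comap G w).A = G.A := rfl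

@[simp] theorem S34V_comap_res : (S34V_comap G w).res = G.res := rfl

theorem S34V_mem_comap_O {f : F} : f ∈ (S34V_comap G w).O ↔ w f ∈ G.O :=
  ValuationSubring.mem_comap

theorem S34V_comap_red (f : F) (hf : f ∈ (S34V_comap G w).O) :
    (S34V_comap G w).red ⟨f, hf⟩ = G.red ⟨w f, (S34V_mem_comap_O G w).1 hf⟩ := rfl

/-- `red₂ (w⁻¹ x) = red₁ x`. -/
theorem S34V_comap_red_symm (x : G.O) :
    (S34V_comap G w).red ⟨w.symm (x : F), S34V_symm_mem G w x⟩ = G.red x := by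
  exact congrArg G.red (S34V_comapHom_symm G w x)

end comap

section small

variable {Fk₁ Fk₂ : Type*} [Field Fk₁] [Field Fk₂] [Algebra k Fk₁] [Algebra k Fk₂]

/-- `Small` (helper15) in terms of the reduction map of a valued function field. -/
theorem S34V_small_iff (S : S18_Val L F k Fk) {a : F} :
    S34AP_Small S.O a ↔ ∃ h : a ∈ S.O, S.red ⟨a, h⟩ = 0 := by
  rw [S34AP_small_iff]
  refine exists_congr fun h => ?_
  rw [IsLocalRing.mem_maximalIdeal, mem_nonunits_iff, S.red_eq_zero_iff]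

theorem S34V_red_eq_of_small_sub (S : S18_Val L F k Fk) {f x : F} (hf : f ∈ S.O) (hx : x ∈ S.O)
    (h : S34AP_Small S.O (f - x)) : S.red ⟨f, hf⟩ = S.red ⟨x, hx⟩ := by
  obtain ⟨h1, h2⟩ := (S34V_small_iff S).1 h
  have h3 : (⟨f - x, h1⟩ : S.O) = ⟨f, hf⟩ - ⟨x, hx⟩ := rfl
  rw [h3, map_sub, sub_eq_zero] at h2
  exact h2

/-- **VAL-2 (d)**: `(red₁, red₂) : O₁ ∩ O₂ → Fk₁ × Fk₂` is onto, for incomparable `O₁`, `O₂`. -/
theorem S34V_red_pair_surjective (S₁ : S18_Val L F k Fk₁) (S₂ : S18_Val L F k Fk₂)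
    (h12 : ¬ S₁.O ≤ S₂.O) (h21 : ¬ S₂.O ≤ S₁.O) (a : Fk₁) (b : Fk₂) :
    ∃ (f : F) (h₁ : f ∈ S₁.O) (h₂ : f ∈ S₂.O), S₁.red ⟨f, h₁⟩ = a ∧ S₂.red ⟨f, h₂⟩ = b := by
  obtain ⟨x₁, hx₁⟩ := S₁.red_surjective a
  obtain ⟨x₂, hx₂⟩ := S₂.red_surjective b
  obtain ⟨f, hf1, hf2, hs1, hs2⟩ :=
    S34AP_exists_approx S₁.O S₂.O h12 h21 (x₁ : F) (x₂ : F) x₁.2 x₂.2
  refine ⟨f, hf1, hf2, ?_, ?_⟩
  · rw [S34V_red_eq_of_small_sub S₁ hf1 x₁.2 hs1]
    exact hx₁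
  · rw [S34V_red_eq_of_small_sub S₂ hf2 x₂.2 hs2]
    exact hx₂

/-- approximate idempotent: `e ∈ O₁ ∩ O₂`, `red₁ e = 1`, `red₂ e = 0`. -/
theorem S34V_exists_idem (S₁ : S18_Val L F k Fk₁) (S₂ : S18_Val L F k Fk₂)
    (h12 : ¬ S₁.O ≤ S₂.O) (h21 : ¬ S₂.O ≤ S₁.O) :
    ∃ (e : F) (h₁ : e ∈ S₁.O) (h₂ : e ∈ S₂.O), S₁.red ⟨e, h₁⟩ = 1 ∧ S₂.red ⟨e, h₂⟩ = 0 :=
  S34V_red_pair_surjective S₁ S₂ h12 h21 1 0

end small

section incomp

variable (G : S18_Gauss L F k Fk) (w : F ≃ₐ[L] F)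

/-- **VAL-2 (b)**: if `u ∈ 𝔪₁` and `w u ∈ O₁ˣ`, `w (w u) = u`, then `O₁` and `O₂ = w⁻¹ O₁` are
incomparable. -/
theorem S34V_incomp (u : G.O) (hu : G.red u = 0) (hwu : w (u : F) ∈ G.O)
    (hwu' : G.red ⟨w (u : F), hwu⟩ ≠ 0) (hww : w (w (u : F)) = u) :
    ¬ G.O ≤ (S34V_comap G w).O ∧ ¬ (S34V_comap G w).O ≤ G.O := by
  have hwu0 : w (u : F) ≠ 0 := G.ne_zero_of_red_ne_zero hwu'
  have hu0 : (u : F) ≠ 0 := by
    intro h0
    exact hwu0 (by rw [h0, map_zero])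
  -- `u⁻¹ ∉ O₁`
  have huinv : (u : F)⁻¹ ∉ G.O := by
    intro h
    have hunit : IsUnit u := by
      rw [isUnit_iff_exists_inv]
      exact ⟨⟨(u : F)⁻¹, h⟩, Subtype.ext (mul_inv_cancel₀ hu0)⟩
    exact ((G.red_ne_zero_iff u).2 hunit) hu
  -- `(w u)⁻¹ ∈ O₁`
  have hwuinv : (w (u : F))⁻¹ ∈ G.O := by
    obtain ⟨v, hv⟩ := ((G.red_ne_zero_iff _).1 hwu').exists_right_inv
    have h1 : w (u : F) * (v : F) = 1 := congrArg Subtype.val hv
    have h2 : (w (u : F))⁻¹ = (v : F) := inv_eq_of_mul_eq_one_right h1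
    rw [h2]
    exact v.2
  constructor
  · intro hle
    have h1 : (w (u : F))⁻¹ ∈ (S34V_comap G w).O := hle hwuinv
    rw [S34V_mem_comap_O, map_inv₀, hww] at h1
    exact huinv h1
  · intro hle
    have h1 : (u : F)⁻¹ ∈ (S34V_comap G w).O := by
      rw [S34V_mem_comap_O, map_inv₀]
      exact hwuinv
    exact huinv (hle h1)

end incomp

section norm

variable {Fk₁ Fk₂ : Type*} [Field Fk₁] [Field Fk₂] [Algebra k Fk₁] [Algebra k Fk₂]

/-- **VAL-2 (c)**: the norm `max(|·|₁, |·|₂)` takes its values in the value group of `A`. -/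
theorem S34V_exists_norm (G₁ : S18_Gauss L F k Fk₁) (G₂ : S18_Gauss L F k Fk₂)
    (hA : G₁.A = G₂.A) (f : F) (hf : f ≠ 0) :
    ∃ (c : L) (y : F), c ≠ 0 ∧ f = algebraMap L F c * y ∧
      ∃ (h₁ : y ∈ G₁.O) (h₂ : y ∈ G₂.O), G₁.red ⟨y, h₁⟩ ≠ 0 ∨ G₂.red ⟨y, h₂⟩ ≠ 0 := by
  obtain ⟨c₁, u₁, hc₁, hu₁, hf₁⟩ := G₁.exists_const_mul_unit f hf
  obtain ⟨c₂, u₂, hc₂, hu₂, hf₂⟩ := G₂.exists_const_mul_unit f hf
  have hc₁F : algebraMap L F c₁ ≠ 0 := by rwa [Ne, map_eq_zero]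
  have hc₂F : algebraMap L F c₂ ≠ 0 := by rwa [Ne, map_eq_zero]
  rcases G₁.A.mem_or_inv_mem (c₂ / c₁) with h | h
  · -- `|c₂| ≤ |c₁|`: `y = u₁ = (c₂/c₁) u₂`
    refine ⟨c₁, u₁, hc₁, hf₁, u₁.2, ?_, Or.inl hu₁⟩
    have h1 : (u₁ : F) = algebraMap L F (c₂ / c₁) * (u₂ : F) := by
      rw [map_div₀, div_mul_eq_mul_div, eq_div_iff hc₁F, mul_comm, ← hf₁, hf₂]
    rw [h1]
    exact G₂.O.mul_mem _ _ ((G₂.algebraMap_mem_iff _).2 (hA ▸ h)) u₂.2
  · -- `|c₁| ≤ |c₂|`: `y = u₂ = (c₁/c₂) u₁`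
    have h' : c₁ / c₂ ∈ G₁.A := by
      rwa [inv_div] at h
    refine ⟨c₂, u₂, hc₂, hf₂, ?_, u₂.2, Or.inr hu₂⟩
    have h1 : (u₂ : F) = algebraMap L F (c₁ / c₂) * (u₁ : F) := by
      rw [map_div₀, div_mul_eq_mul_div, eq_div_iff hc₂F, mul_comm, ← hf₂, hf₁]
    rw [h1]
    exact G₁.O.mul_mem _ _ ((G₁.algebraMap_mem_iff _).2 h') u₁.2

/-- a constant `c` with `c · y ∈ O`, `y ∈ Oˣ` and `red (c · y) = 0` is a non-unit of `A`. -/
theorem S34V_const_small (G : S18_Gauss L F k Fk) {c : L} {x y : F}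
    (hxy : x = algebraMap L F c * y) (hx : x ∈ G.O) (hy : y ∈ G.O)
    (hrx : G.red ⟨x, hx⟩ = 0) (hry : G.red ⟨y, hy⟩ ≠ 0) :
    ∃ hcA : c ∈ G.A, G.res ⟨c, hcA⟩ = 0 := by
  obtain ⟨v, hv⟩ := ((G.red_ne_zero_iff _).1 hry).exists_right_inv
  have h1 : y * (v : F) = 1 := congrArg Subtype.val hv
  have hcO : algebraMap L F c ∈ G.O := by
    have h2 : algebraMap L F c = x * (v : F) := by
      rw [hxy, mul_assoc, h1, mul_one]
    rw [h2]
    exact G.O.mul_mem _ _ hx v.2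
  have hcA : c ∈ G.A := (G.algebraMap_mem_iff c).1 hcO
  refine ⟨hcA, ?_⟩
  have h3 : (⟨x, hx⟩ : G.O) = ⟨algebraMap L F c, hcO⟩ * ⟨y, hy⟩ := Subtype.ext hxy
  rw [h3, map_mul, G.red_algebraMap c hcA hcO] at hrx
  rcases mul_eq_zero.1 hrx with h | h
  · exact (algebraMap k Fk).injective (by rw [h, map_zero])
  · exact absurd h hry

/-- **VAL-2 (c')**: the kernel of `(red₁, red₂)` on `O₁ ∩ O₂` is `𝔪_A · (O₁ ∩ O₂)`; more
precisely a nonzero element of the kernel is `c · y` with `c ∈ 𝔪_A` and `y` normalised. -/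
theorem S34V_exists_of_red_eq_zero (G₁ : S18_Gauss L F k Fk₁) (G₂ : S18_Gauss L F k Fk₂)
    (hA : G₁.A = G₂.A) (x : F) (hx0 : x ≠ 0) (hx₁ : x ∈ G₁.O) (hx₂ : x ∈ G₂.O)
    (hr₁ : G₁.red ⟨x, hx₁⟩ = 0) (hr₂ : G₂.red ⟨x, hx₂⟩ = 0) :
    ∃ (c : L) (y : F), c ≠ 0 ∧ (∃ hcA : c ∈ G₁.A, G₁.res ⟨c, hcA⟩ = 0) ∧
      x = algebraMap L F c * y ∧
      ∃ (h₁ : y ∈ G₁.O) (h₂ : y ∈ G₂.O), G₁.red ⟨y, h₁⟩ ≠ 0 ∨ G₂.red ⟨y, h₂⟩ ≠ 0 := by
  obtain ⟨c, y, hc, hxy, h₁, h₂, hy⟩ := S34V_exists_norm G₁ G₂ hA x hx0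
  refine ⟨c, y, hc, ?_, hxy, h₁, h₂, hy⟩
  rcases hy with hy | hy
  · exact S34V_const_small G₁ hxy hx₁ h₁ hr₁ hy
  · obtain ⟨hcA, hres⟩ := S34V_const_small G₂ hxy hx₂ h₂ hr₂ hy
    have hcA₁ : c ∈ G₁.A := hA ▸ hcA
    refine ⟨hcA₁, ?_⟩
    rw [G₁.res_eq_zero_iff]
    rw [G₂.res_eq_zero_iff] at hres
    intro hunit
    apply hres
    obtain ⟨v, hv⟩ := hunit.exists_right_inv
    rw [isUnit_iff_exists_inv]
    refine ⟨⟨(v : L), hA ▸ v.2⟩, Subtype.ext ?_⟩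
    have h5 : c * (v : L) = 1 := congrArg Subtype.val hv
    exact h5

end norm

end Fermat.Agent.S34
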