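import Mathlib
import Fermat.Agent.S34.Defs
import Fermat.Agent.S34.ValTwo
import Fermat.Agent.S34.ApproxVal
import Fermat.Agent.S34.AtkinLehnerPhi
import Fermat.Agent.Lib.LaurentTheta
import Fermat.Agent.S18.ValDiv
import Fermat.Agent.S18.ResField
import Fermat.Agent.S18.AuxX0

/-!
# TRACK 7 (S34 + S35), package VAL, concrete wiring (helper24), prefix `S34VW_`

Level `N = M * q`, `q` prime, `q ∤ M`, `A ∣ q` a valuation subring of `ℚ̄`, `k` its residue field.

* `S34VW_jBar_mem`, `S34VW_red_jBar`: the generators `j(t^d)`, `d ∣ N`, lie in the Gauss ring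
  `S18_O A N` and reduce to `j̄(t^d)` (any `N`, any `A`).
* `S34VW_frob`: in characteristic `q`, `j̄(t^{q d}) = j̄(t^d)^q`.
* `S34VW_wit`: the witness `u = j^q − j(t^q)`: `red₁ u = 0`, `red₁ (w_q u) = j̄^{q²} − j̄ ≠ 0`.
* `S34VW_incomp`: `V₁` and `V₂ = V₁ ∘ w_q` are incomparable
  (`¬ O₁ ≤ O₂ ∧ ¬ O₂ ≤ O₁`, the inputs `h12`, `h21` of RED1 / CART2 / APPROX).
* `S34VW_happ`: the approximate idempotent `e ≡ 1 (V₁)`, `e ≡ 0 (V₂)`.
-/

set_option autoImplicit false
set_option synthInstance.maxHeartbeats 400000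
set_option maxHeartbeats 1000000
set_option linter.unusedSectionVars false
set_option linter.style.haveILetI false

open HahnSeries IntermediateField AlgebraicCurve ModularCurve Polynomial

noncomputable section

namespace Fermat.Agent.S34

open Fermat.Agent.S18 Fermat.Agent.S24 Fermat.Agent.Lib

section Gen

variable (N : ℕ) [NeZero N] (A : ValuationSubring (AlgebraicClosure ℚ))

/-- the generator `j(t^d)` is the image of the integral series `jqNModC A d`. -/
theorem S34VW_jBar_eq (d : ℕ) [NeZero d] (hd : d ∣ N) :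
    jBar N d hd = S18_Bι A N ⟨jqNModC A d, S18_jqN_mem_B A N hd⟩ := by
  apply Subtype.ext
  show coeffEmb (AlgebraicClosure ℚ) (qExpand ℚ d jq) = coeffMap A.subtype (jqNModC A d)
  rw [coeffMap_jqNModC]
  have h1 : jqNModC (AlgebraicClosure ℚ) d = coeffEmb (AlgebraicClosure ℚ) (jqNModC ℚ d) := by
    rw [coeffEmb, coeffMap_jqNModC]
  rw [h1]
  rfl

/-- the generators lie in the Gauss ring. -/
theorem S34VW_jBar_mem (d : ℕ) [NeZero d] (hd : d ∣ N) : jBar N d hd ∈ S18_O A N := by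
  rw [S34VW_jBar_eq N A d hd]
  exact S18_Bι_mem_O A N _

/-- `red₁ (j(t^d)) = j̄(t^d)`. -/
theorem S34VW_red_jBar (d : ℕ) [NeZero d] (hd : d ∣ N) :
    ((S18_red A N ⟨jBar N d hd, S34VW_jBar_mem N A d hd⟩ :
      ↥(modularFunctionFieldFullC (IsLocalRing.ResidueField A) N)) :
        LaurentSeries (IsLocalRing.ResidueField A)) =
      qExpand (IsLocalRing.ResidueField A) d (jqModC (IsLocalRing.ResidueField A)) := by
  have h1 : (⟨jBar N d hd, S34VW_jBar_mem N A d hd⟩ : S18_O A N) =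
      ⟨S18_Bι A N ⟨jqNModC A d, S18_jqN_mem_B A N hd⟩, S18_Bι_mem_O A N _⟩ :=
    Subtype.ext (S34VW_jBar_eq N A d hd)
  rw [h1, S18_red_Bι]
  show coeffMap (IsLocalRing.residue A) (jqNModC A d) = _
  rw [coeffMap_jqNModC]
  rfl

end Gen

section Frob

variable (k : Type*) [Field k] (q : ℕ) [Fact q.Prime] [CharP k q]

/-- **Frobenius**: in characteristic `q`, `j̄(t^{q d}) = j̄(t^d)^q`. -/
theorem S34VW_frob (d : ℕ) [NeZero d] [NeZero q] [NeZero (q * d)] :
    qExpand k (q * d) (jqModC k) = (qExpand k d (jqModC k)) ^ q := by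
  rw [LT_pow_char q (qExpand k d (jqModC k)), ModularCurve.coeffMap_qExpand, coeffMap_jqModC,
    qExpand_qExpand]

/-- `j̄^{q²} ≠ j̄`. -/
theorem S34VW_jq_pow_ne (n : ℕ) (hn : 1 < n) : (jqModC k) ^ n - jqModC k ≠ 0 := by
  intro h
  have htr := AX_transcendental_jqModC k
  have h1 : Polynomial.aeval (jqModC k) (X ^ n - X : k[X]) = 0 := by
    simpa using h
  have h2 := (transcendental_iff.1 htr) _ h1
  exact FiniteField.X_pow_card_sub_X_ne_zero k hn h2

end Frob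

section Wit

variable (M q : ℕ) [NeZero (M * q)] (hq : q.Prime) (hqM : ¬ q ∣ M)
  (A : ValuationSubring (AlgebraicClosure ℚ))

/-- `w_q j = j(t^q)`. -/
theorem S34VW_wq_jB [NeZero (q * 1)] :
    S34DF_wq M q hq hqM (jB (M * q)) =
      jBar (M * q) (q * 1) (by rw [mul_one]; exact dvd_mul_left q M) :=
  S34WQ_wq_jBar hq hqM (mul_comm q M) 1 (one_dvd M)

/-- the witness `u = j^q − w_q j = j^q − j(t^q)`. -/
def S34VW_u : ↥(modularFunctionFieldBar (M * q)) :=
  jB (M * q) ^ q - S34DF_wq M q hq hqM (jB (M * q))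

theorem S34VW_wq_u : S34DF_wq M q hq hqM (S34VW_u M q hq hqM) =
    S34DF_wq M q hq hqM (jB (M * q)) ^ q - jB (M * q) := by
  rw [S34VW_u, map_sub, map_pow, S34DF_wq_wq]

theorem S34VW_wq_jB_mem : S34DF_wq M q hq hqM (jB (M * q)) ∈ S18_O A (M * q) := by
  haveI : NeZero (q * 1) := ⟨by rw [mul_one]; exact hq.ne_zero⟩
  rw [S34VW_wq_jB M q hq hqM]
  exact S34VW_jBar_mem (M * q) A (q * 1) _

theorem S34VW_jB_mem : jB (M * q) ∈ S18_O A (M * q) :=
  S34VW_jBar_mem (M * q) A 1 (one_dvd _)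

theorem S34VW_red_jB :
    ((S18_red A (M * q) ⟨jB (M * q), S34VW_jB_mem M q A⟩ :
      ↥(modularFunctionFieldFullC (IsLocalRing.ResidueField A) (M * q))) :
        LaurentSeries (IsLocalRing.ResidueField A)) = jqModC (IsLocalRing.ResidueField A) := by
  have := S34VW_red_jBar (M * q) A 1 (one_dvd _)
  rw [qExpand_one_apply] at this
  exact this

theorem S34VW_red_wq_jB (hA : A.LiesOverPrime q) :
    ((S18_red A (M * q) ⟨S34DF_wq M q hq hqM (jB (M * q)), S34VW_wq_jB_mem M q hq hqM A⟩ :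
      ↥(modularFunctionFieldFullC (IsLocalRing.ResidueField A) (M * q))) :
        LaurentSeries (IsLocalRing.ResidueField A)) =
      jqModC (IsLocalRing.ResidueField A) ^ q := by
  haveI : NeZero (q * 1) := ⟨by rw [mul_one]; exact hq.ne_zero⟩
  haveI : NeZero q := ⟨hq.ne_zero⟩
  haveI : Fact q.Prime := ⟨hq⟩
  haveI : CharP (IsLocalRing.ResidueField A) q := S18_residue_charP A q hq hA
  have h1 : (⟨S34DF_wq M q hq hqM (jB (M * q)), S34VW_wq_jB_mem M q hq hqM A⟩ :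
      S18_O A (M * q)) = ⟨jBar (M * q) (q * 1) (by rw [mul_one]; exact dvd_mul_left q M),
        S34VW_jBar_mem (M * q) A (q * 1) _⟩ :=
    Subtype.ext (S34VW_wq_jB M q hq hqM)
  rw [h1, S34VW_red_jBar, S34VW_frob (IsLocalRing.ResidueField A) q 1, qExpand_one_apply]

theorem S34VW_u_mem : S34VW_u M q hq hqM ∈ S18_O A (M * q) :=
  sub_mem (pow_mem (S34VW_jB_mem M q A) q) (S34VW_wq_jB_mem M q hq hqM A)

theorem S34VW_wq_u_mem : S34DF_wq M q hq hqM (S34VW_u M q hq hqM) ∈ S18_O A (M * q) := by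
  rw [S34VW_wq_u]
  exact sub_mem (pow_mem (S34VW_wq_jB_mem M q hq hqM A) q) (S34VW_jB_mem M q A)

/-- `red₁ u = 0`: Kronecker's congruence `j(t^q) ≡ j^q`. -/
theorem S34VW_red_u (hA : A.LiesOverPrime q) :
    S18_red A (M * q) ⟨S34VW_u M q hq hqM, S34VW_u_mem M q hq hqM A⟩ = 0 := by
  have h1 : (⟨S34VW_u M q hq hqM, S34VW_u_mem M q hq hqM A⟩ : S18_O A (M * q)) =
      ⟨jB (M * q), S34VW_jB_mem M q A⟩ ^ q -
        ⟨S34DF_wq M q hq hqM (jB (M * q)), S34VW_wq_jB_mem M q hq hqM A⟩ := rfl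
  rw [h1, map_sub, map_pow]
  apply Subtype.ext
  simp only [AddSubgroupClass.coe_sub, SubmonoidClass.coe_pow, ZeroMemClass.coe_zero]
  rw [S34VW_red_jB, S34VW_red_wq_jB M q hq hqM A hA, sub_self]

/-- `red₁ (w_q u) = j̄^{q²} − j̄ ≠ 0`. -/
theorem S34VW_red_wq_u (hA : A.LiesOverPrime q) :
    S18_red A (M * q) ⟨S34DF_wq M q hq hqM (S34VW_u M q hq hqM),
      S34VW_wq_u_mem M q hq hqM A⟩ ≠ 0 := by
  have h1 : (⟨S34DF_wq M q hq hqM (S34VW_u M q hq hqM), S34VW_wq_u_mem M q hq hqM A⟩ :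
      S18_O A (M * q)) =
      ⟨S34DF_wq M q hq hqM (jB (M * q)), S34VW_wq_jB_mem M q hq hqM A⟩ ^ q -
        ⟨jB (M * q), S34VW_jB_mem M q A⟩ := Subtype.ext (S34VW_wq_u M q hq hqM)
  rw [h1, map_sub, map_pow]
  intro h
  have h2 := congrArg Subtype.val h
  simp only [AddSubgroupClass.coe_sub, SubmonoidClass.coe_pow, ZeroMemClass.coe_zero] at h2
  rw [S34VW_red_jB, S34VW_red_wq_jB M q hq hqM A hA, ← pow_mul] at h2
  exact S34VW_jq_pow_ne (IsLocalRing.ResidueField A) (q * q)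
    (by nlinarith [hq.two_le]) h2

variable (hgen : PrincipalGeneratedByIntegral A (IsLocalRing.residue A) (M * q))

/-- **VAL**: `V₁` and `V₂ = V₁ ∘ w_q` are incomparable. -/
theorem S34VW_incomp (hA : A.LiesOverPrime q) :
    ¬ S34DF_O1 M q A hgen ≤ S34DF_O2 M q hq hqM A hgen ∧
      ¬ S34DF_O2 M q hq hqM A hgen ≤ S34DF_O1 M q A hgen :=
  S34V_incomp (S18_gaussModL (M * q) A hgen) (S34DF_wq M q hq hqM)
    ⟨S34VW_u M q hq hqM, S34VW_u_mem M q hq hqM A⟩ (S34VW_red_u M q hq hqM A hA)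
    (S34VW_wq_u_mem M q hq hqM A) (S34VW_red_wq_u M q hq hqM A hA)
    (S34DF_wq_wq M q hq hqM _)

/-- **VAL**: the approximate idempotent `e ≡ 1 (V₁)`, `e ≡ 0 (V₂)` (`happ` of RED1). -/
theorem S34VW_happ (hA : A.LiesOverPrime q) :
    ∃ e : ↥(modularFunctionFieldBar (M * q)),
      (S34DF_O1 M q A hgen).valuation (e - 1) < 1 ∧
        (S34DF_O2 M q hq hqM A hgen).valuation e < 1 :=
  S34AP_exists_idem_val _ _ (S34VW_incomp M q hq hqM A hgen hA).1
    (S34VW_incomp M q hq hqM A hgen hA).2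

/-- `V₂` is the valuation ring of helper20's `S34V_comap`. -/
theorem S34VW_O2_eq :
    S34DF_O2 M q hq hqM A hgen =
      (S34V_comap (S18_gaussModL (M * q) A hgen) (S34DF_wq M q hq hqM)).O := rfl

end Wit

end Fermat.Agent.S34
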