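import Mathlib
import Fermat.Agent.S34.Asm
import Fermat.Agent.S34.ValWire
import Fermat.Agent.S34.Alg34Bridge

/-!
# TRACK 7 (NODE), package ASM (helper28), part 2: (VAL-2) discharged, S34 from two targets

* `S34M_incomp`  : `S34M_Incomp M q hq hqM` (from `S34VW_incomp`, helper24/helper20).
* `S34M_uniK'`   : `S35A_UniK M q` from `S34M_HGen M q` and `S34M_KTau M q hq hqM` only.
* `S34M_S34`     : the statement of S34 from these two targets at all levels `M * q`, `q ∤ M`.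
-/

set_option autoImplicit false
set_option linter.unusedSectionVars false
set_option linter.unusedVariables false
set_option linter.style.haveILetI false

open ModularCurve AlgebraicCurve CongruenceSubgroup

noncomputable section

namespace Fermat.Agent.S34

open Fermat.Agent.GalRep Fermat.Agent.S16 Fermat.Agent.S41 Fermat.Agent.S24 Fermat.Agent.S18
  Fermat.Agent.S35

/-- **(VAL-2)** holds: `O₁`, `O₂` are incomparable (witness `u = j^q − j_q`). -/
theorem S34M_incomp (M q : ℕ) [NeZero (M * q)] (hq : q.Prime) (hqM : ¬ q ∣ M) :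
    S34M_Incomp M q hq hqM :=
  fun A hA hgen => S34VW_incomp M q hq hqM A hgen hA

/-- **(UNI-K)** from (VAL-HGEN) and (K-tau). -/
theorem S34M_uniK' (M q : ℕ) [NeZero (M * q)] (hq : q.Prime) (hqM : ¬ q ∣ M)
    (hgen : S34M_HGen M q) (hK : S34M_KTau M q hq hqM) : S35A_UniK M q := by
  haveI : NeZero M := ⟨fun h => NeZero.ne (M * q) (by rw [h, zero_mul])⟩
  haveI : NeZero q := ⟨hq.ne_zero⟩
  exact S34M_uniK M q hq hqM hgen (S34M_incomp M q hq hqM) hK

/-- **(FROB4-K)** from (VAL-HGEN), (K-sig2) and (BRIDGE + RED2), with the instances derived. -/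
theorem S34M_frob4K' (M q : ℕ) [NeZero M] [NeZero q] [NeZero (M * q)] [Fact q.Prime]
    (hq : q.Prime) (hqM : ¬ q ∣ M)
    (hgen : S34M_HGen M q) (hK : S34M_KSig2 M q hq hqM) (hR : S34M_Red2 M q hq hqM) :
    S35A_Frob4K M q :=
  S34M_frob4K M q hq hqM hgen hK hR

section datum

open IsLocalRing CuspForm

variable {𝒪 : Type} [CommRing 𝒪] [IsDomain 𝒪] [IsDiscreteValuationRing 𝒪]
  [IsAdicComplete (maximalIdeal 𝒪) 𝒪] [Finite (ResidueField 𝒪)] [CharZero 𝒪]
  {p : ℕ} {N : ℕ} [NeZero N] {S : Finset ℕ}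
  {θ : CuspForm.heckeAlgebra N 2 (↑S : Set ℕ) →+* ResidueField 𝒪}
  {T : Type} [CommRing T] [IsLocalRing T] [IsNoetherianRing T]
  [IsAdicComplete (maximalIdeal T) T] [Algebra 𝒪 T] [IsLocalHom (algebraMap 𝒪 T)]
  [Module.Finite 𝒪 T] [Module.Free 𝒪 T]

/-- **S34 from the two targets** (VAL-HGEN) and (K-tau) at all levels `M * q`, `q ∤ M`. -/
theorem S34M_S34
    (hgen : ∀ (M q : ℕ) [NeZero (M * q)], q.Prime → ¬ q ∣ M → S34M_HGen M q)
    (hK : ∀ (M q : ℕ) [NeZero (M * q)] (hq : q.Prime) (hqM : ¬ q ∣ M), S34M_KTau M q hq hqM)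
    (hp : p.Prime) (hp𝒪 : (p : 𝒪) ∈ maximalIdeal 𝒪) (hpS : p ∈ S)
    (hNS : ∀ q : ℕ, q.Prime → q ∣ N → q ∈ S)
    (H : CuspForm.HeckeGaloisRepDatum N (↑S : Set ℕ) 𝒪 θ T)
    (q : ℕ) (hq : q.Prime) (hqp : q ≠ p) (hqN : q ∣ N) (hq2 : ¬ q ^ 2 ∣ N) :
    H.ρ.IsUnipotentOnInertiaAt q :=
  S34A_main_uniK
    (fun M q _ hq hqM => S34M_uniK' M q hq hqM (hgen M q hq hqM) (hK M q hq hqM))
    hp hp𝒪 hpS hNS H q hq hqp hqN hq2

end datum

end Fermat.Agent.S34
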