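import Mathlib

/-!
# TRACK 7 (S34 + S35), package (B): the gluing invariant by linear algebra

Abstract form of helper25's step (B) (`NOTES/items/33_wave5_helper25.md`): let `k` be a field,
`R₁, R₂` commutative `k`-algebras (the coordinate rings of the two components of the special
fibre), `e₁ i : R₁ →ₐ[k] k`, `e₂ i : R₂ →ₐ[k] k` (`i : ι`) the evaluations at the `s = card ι`
nodes, and assume that the joint evaluation `R₁ × R₂ → (ι → k) × (ι → k)` is onto.

If `M ⊂ R₁ × R₂` is a `k`-subspace of codimension `≤ s` such that for every `m ∈ M` and every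
node `i` the two values of `m ^ n` at the node agree (`n > 0`), then there are `c i` with
`c i ^ n = 1` and `M = {(a, b) | ∀ i, e₁ i a = c i * e₂ i b}` (`S34B_main`).
So the gluing invariant `γ = (c i) ∈ μ_n^ι` is defined; it is unique (`S34B_glued_injective`)
and multiplicative (`S34B_glued_mul`).

Everything is over Mathlib only.
-/

set_option autoImplicit false

open Module

namespace Fermat.Agent.S34

variable {k : Type*} [Field k] {R₁ R₂ : Type*} [CommRing R₁] [CommRing R₂]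
  [Algebra k R₁] [Algebra k R₂] {ι : Type*}

/-- joint evaluation at the nodes -/
def S34B_E (e₁ : ι → R₁ →ₐ[k] k) (e₂ : ι → R₂ →ₐ[k] k) :
    (R₁ × R₂) →ₗ[k] ((ι → k) × (ι → k)) where
  toFun p := (fun i => e₁ i p.1, fun i => e₂ i p.2)
  map_add' p p' := by
    ext i <;> simp
  map_smul' a p := by
    ext i <;> simp

@[simp] lemma S34B_E_fst (e₁ : ι → R₁ →ₐ[k] k) (e₂ : ι → R₂ →ₐ[k] k) (p : R₁ × R₂) (i : ι) :
    (S34B_E e₁ e₂ p).1 i = e₁ i p.1 := rfl

@[simp] lemma S34B_E_snd (e₁ : ι → R₁ →ₐ[k] k) (e₂ : ι → R₂ →ₐ[k] k) (p : R₁ × R₂) (i : ι) :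
    (S34B_E e₁ e₂ p).2 i = e₂ i p.2 := rfl

/-- the twisted difference of the two values at the nodes -/
def S34B_phi (e₁ : ι → R₁ →ₐ[k] k) (e₂ : ι → R₂ →ₐ[k] k) (c : ι → k) :
    (R₁ × R₂) →ₗ[k] (ι → k) where
  toFun p := fun i => e₁ i p.1 - c i * e₂ i p.2
  map_add' p p' := by
    ext i; simp; ring
  map_smul' a p := by
    ext i; simp; ring

@[simp] lemma S34B_phi_apply (e₁ : ι → R₁ →ₐ[k] k) (e₂ : ι → R₂ →ₐ[k] k) (c : ι → k)
    (p : R₁ × R₂) (i : ι) : S34B_phi e₁ e₂ c p i = e₁ i p.1 - c i * e₂ i p.2 := rfl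

/-- the module glued with the invariant `c` : `{(a, b) | a(P_i) = c_i · b(P_i')}`. -/
def S34B_glued (e₁ : ι → R₁ →ₐ[k] k) (e₂ : ι → R₂ →ₐ[k] k) (c : ι → k) :
    Submodule k (R₁ × R₂) :=
  LinearMap.ker (S34B_phi e₁ e₂ c)

lemma S34B_mem_glued (e₁ : ι → R₁ →ₐ[k] k) (e₂ : ι → R₂ →ₐ[k] k) (c : ι → k)
    (p : R₁ × R₂) : p ∈ S34B_glued e₁ e₂ c ↔ ∀ i, e₁ i p.1 = c i * e₂ i p.2 := by
  simp only [S34B_glued, LinearMap.mem_ker]
  constructor
  · intro h i
    have := congrFun h i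
    simpa [sub_eq_zero] using this
  · intro h
    ext i
    simp [h i]

/-- the fibre ring `W = {(a, b) | a(P_i) = b(P_i')}` of the nodal curve. -/
def S34B_W (e₁ : ι → R₁ →ₐ[k] k) (e₂ : ι → R₂ →ₐ[k] k) : Submodule k (R₁ × R₂) :=
  S34B_glued e₁ e₂ (fun _ => 1)

lemma S34B_mem_W (e₁ : ι → R₁ →ₐ[k] k) (e₂ : ι → R₂ →ₐ[k] k) (p : R₁ × R₂) :
    p ∈ S34B_W e₁ e₂ ↔ ∀ i, e₁ i p.1 = e₂ i p.2 := by
  simp [S34B_W, S34B_mem_glued]

lemma S34B_phi_surjective (e₁ : ι → R₁ →ₐ[k] k) (e₂ : ι → R₂ →ₐ[k] k)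
    (hE : Function.Surjective (S34B_E e₁ e₂)) (c : ι → k) :
    Function.Surjective (S34B_phi e₁ e₂ c) := by
  intro y
  obtain ⟨p, hp⟩ := hE (y, 0)
  refine ⟨p, ?_⟩
  ext i
  have h1 : e₁ i p.1 = y i := congrFun (congrArg Prod.fst hp) i
  have h2 : e₂ i p.2 = 0 := congrFun (congrArg Prod.snd hp) i
  simp [h1, h2]

/-- two values with equal `n`-th powers: the second one vanishes only if the first does. -/
lemma S34B_aux_zero {x y : k} {n : ℕ} (hn : 0 < n) (h : x ^ n = y ^ n) (hy : y = 0) :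
    x = 0 := by
  subst hy
  rw [zero_pow hn.ne'] at h
  exact pow_eq_zero_iff hn.ne' |>.1 h

/-- **(B), inclusion.**  A subspace all of whose members have equal `n`-th powers at the two
branches of every node lies in a glued module `S34B_glued c`, `c i ^ n = 1`. -/
theorem S34B_le_glued (e₁ : ι → R₁ →ₐ[k] k) (e₂ : ι → R₂ →ₐ[k] k) {n : ℕ} (hn : 0 < n)
    (M : Submodule k (R₁ × R₂))
    (hpow : ∀ m ∈ M, ∀ i, e₁ i m.1 ^ n = e₂ i m.2 ^ n) :
    ∃ c : ι → k, (∀ i, c i ^ n = 1) ∧ M ≤ S34B_glued e₁ e₂ c := by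
  classical
  -- the determinant of two members at a node vanishes
  have hdet : ∀ m ∈ M, ∀ m' ∈ M, ∀ i,
      e₁ i m.1 * e₂ i m'.2 = e₁ i m'.1 * e₂ i m.2 := by
    intro m hm m' hm' i
    by_contra hne
    set x := e₁ i m.1 with hx
    set y := e₂ i m.2 with hy
    set x' := e₁ i m'.1 with hx'
    set y' := e₂ i m'.2 with hy'
    have hd : x * y' - x' * y ≠ 0 := sub_ne_zero.2 hne
    -- the combination `y' m - y m'` has values `(x y' - x' y, 0)` at the node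
    have hmem : y' • m - y • m' ∈ M := M.sub_mem (M.smul_mem _ hm) (M.smul_mem _ hm')
    have h := hpow _ hmem i
    have h1 : e₁ i (y' • m - y • m').1 = x * y' - x' * y := by
      simp [hx, hx', mul_comm]
    have h2 : e₂ i (y' • m - y • m').2 = 0 := by
      simp [hy, hy', mul_comm]
    rw [h1, h2, zero_pow hn.ne'] at h
    exact hd (pow_eq_zero_iff hn.ne' |>.1 h)
  refine ⟨fun i => if h : ∃ m ∈ M, e₂ i m.2 ≠ 0 then
      e₁ i h.choose.1 / e₂ i h.choose.2 else 1, ?_, ?_⟩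
  · intro i
    by_cases h : ∃ m ∈ M, e₂ i m.2 ≠ 0
    · beta_reduce
      rw [dif_pos h]
      have hm := h.choose_spec
      rw [div_pow, hpow _ hm.1 i, div_self (pow_ne_zero _ hm.2)]
    · simp [h]
  · intro m hm
    rw [S34B_mem_glued]
    intro i
    by_cases h : ∃ m ∈ M, e₂ i m.2 ≠ 0
    · rw [dif_pos h]
      have hm₀ := h.choose_spec
      have := hdet m hm _ hm₀.1 i
      rw [div_mul_eq_mul_div, eq_div_iff hm₀.2]
      exact this
    · rw [dif_neg h, one_mul]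
      have hy : e₂ i m.2 = 0 := by
        by_contra hne
        exact h ⟨m, hm, hne⟩
      rw [hy]
      exact S34B_aux_zero hn (hpow m hm i) hy

/-- the quotient by a glued module is `k ^ ι`. -/
noncomputable def S34B_quotEquiv (e₁ : ι → R₁ →ₐ[k] k) (e₂ : ι → R₂ →ₐ[k] k)
    (hE : Function.Surjective (S34B_E e₁ e₂)) (c : ι → k) :
    ((R₁ × R₂) ⧸ S34B_glued e₁ e₂ c) ≃ₗ[k] (ι → k) :=
  (S34B_phi e₁ e₂ c).quotKerEquivOfSurjective (S34B_phi_surjective e₁ e₂ hE c)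

lemma S34B_finrank_quot [Fintype ι] (e₁ : ι → R₁ →ₐ[k] k) (e₂ : ι → R₂ →ₐ[k] k)
    (hE : Function.Surjective (S34B_E e₁ e₂)) (c : ι → k) :
    finrank k ((R₁ × R₂) ⧸ S34B_glued e₁ e₂ c) = Fintype.card ι := by
  rw [(S34B_quotEquiv e₁ e₂ hE c).finrank_eq, Module.finrank_pi]

/-- **(B), main statement.**  A subspace `M` of codimension `≤ s = card ι` all of whose members
have equal `n`-th powers at the two branches of every node IS a glued module. -/
theorem S34B_main [Fintype ι] (e₁ : ι → R₁ →ₐ[k] k) (e₂ : ι → R₂ →ₐ[k] k)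
    (hE : Function.Surjective (S34B_E e₁ e₂)) {n : ℕ} (hn : 0 < n)
    (M : Submodule k (R₁ × R₂))
    (hpow : ∀ m ∈ M, ∀ i, e₁ i m.1 ^ n = e₂ i m.2 ^ n)
    [Module.Finite k ((R₁ × R₂) ⧸ M)]
    (hcodim : finrank k ((R₁ × R₂) ⧸ M) ≤ Fintype.card ι) :
    ∃ c : ι → k, (∀ i, c i ^ n = 1) ∧ M = S34B_glued e₁ e₂ c := by
  obtain ⟨c, hc, hle⟩ := S34B_le_glued e₁ e₂ hn M hpow
  refine ⟨c, hc, le_antisymm hle ?_⟩
  -- the surjection `R/M → R/G`
  set G := S34B_glued e₁ e₂ c with hG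
  let f : ((R₁ × R₂) ⧸ M) →ₗ[k] ((R₁ × R₂) ⧸ G) := Submodule.mapQ M G LinearMap.id hle
  have hf : Function.Surjective f := by
    intro y
    obtain ⟨p, rfl⟩ := Submodule.Quotient.mk_surjective G y
    exact ⟨Submodule.Quotient.mk p, by simp [f]⟩
  have hGrank : finrank k ((R₁ × R₂) ⧸ G) = Fintype.card ι := S34B_finrank_quot e₁ e₂ hE c
  have hrn := LinearMap.finrank_range_add_finrank_ker f
  have hrange : LinearMap.range f = ⊤ := LinearMap.range_eq_top.2 hf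
  rw [hrange, finrank_top, hGrank] at hrn
  have hker0 : finrank k (LinearMap.ker f) = 0 := by omega
  have hker : LinearMap.ker f = ⊥ := Submodule.finrank_eq_zero.1 hker0
  intro g hg
  have h0 : f (Submodule.Quotient.mk g) = 0 := by
    simp only [f, Submodule.mapQ_apply, LinearMap.id_coe, id_eq]
    exact (Submodule.Quotient.mk_eq_zero G).2 hg
  have : (Submodule.Quotient.mk g : (R₁ × R₂) ⧸ M) ∈ LinearMap.ker f := h0
  rw [hker, Submodule.mem_bot] at this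
  exact (Submodule.Quotient.mk_eq_zero M).1 this

/-- the invariant is determined by the module. -/
theorem S34B_glued_injective (e₁ : ι → R₁ →ₐ[k] k) (e₂ : ι → R₂ →ₐ[k] k)
    (hE : Function.Surjective (S34B_E e₁ e₂)) {c c' : ι → k}
    (h : S34B_glued e₁ e₂ c ≤ S34B_glued e₁ e₂ c') : c = c' := by
  obtain ⟨p, hp⟩ := hE (c, fun _ => 1)
  have h1 : ∀ i, e₁ i p.1 = c i := fun i => congrFun (congrArg Prod.fst hp) i
  have h2 : ∀ i, e₂ i p.2 = 1 := fun i => congrFun (congrArg Prod.snd hp) i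
  have hp' : p ∈ S34B_glued e₁ e₂ c := by
    rw [S34B_mem_glued]; intro i; rw [h1, h2, mul_one]
  have := (S34B_mem_glued e₁ e₂ c' p).1 (h hp')
  funext i
  have hi := this i
  rw [h1, h2, mul_one] at hi
  exact hi

/-- the invariant is multiplicative. -/
theorem S34B_glued_mul (e₁ : ι → R₁ →ₐ[k] k) (e₂ : ι → R₂ →ₐ[k] k)
    (hE : Function.Surjective (S34B_E e₁ e₂)) {c c' c'' : ι → k}
    (h : ∀ m ∈ S34B_glued e₁ e₂ c, ∀ m' ∈ S34B_glued e₁ e₂ c', m * m' ∈ S34B_glued e₁ e₂ c'') :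
    c'' = c * c' := by
  obtain ⟨p, hp⟩ := hE (c, fun _ => 1)
  obtain ⟨p', hp'⟩ := hE (c', fun _ => 1)
  have h1 : ∀ i, e₁ i p.1 = c i := fun i => congrFun (congrArg Prod.fst hp) i
  have h2 : ∀ i, e₂ i p.2 = 1 := fun i => congrFun (congrArg Prod.snd hp) i
  have h1' : ∀ i, e₁ i p'.1 = c' i := fun i => congrFun (congrArg Prod.fst hp') i
  have h2' : ∀ i, e₂ i p'.2 = 1 := fun i => congrFun (congrArg Prod.snd hp') i
  have hm : p ∈ S34B_glued e₁ e₂ c := by
    rw [S34B_mem_glued]; intro i; rw [h1, h2, mul_one]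
  have hm' : p' ∈ S34B_glued e₁ e₂ c' := by
    rw [S34B_mem_glued]; intro i; rw [h1', h2', mul_one]
  have := (S34B_mem_glued e₁ e₂ c'' _).1 (h p hm p' hm')
  funext i
  have hi := this i
  simp only [Prod.fst_mul, Prod.snd_mul, map_mul, h1, h2, h1', h2', mul_one] at hi
  simpa using hi.symm

/-- the members of a glued module with invariant in `μ_n` have `n`-th powers in `W`. -/
theorem S34B_pow_mem_W (e₁ : ι → R₁ →ₐ[k] k) (e₂ : ι → R₂ →ₐ[k] k) {c : ι → k} {n : ℕ}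
    (hc : ∀ i, c i ^ n = 1) {m : R₁ × R₂} (hm : m ∈ S34B_glued e₁ e₂ c) :
    m ^ n ∈ S34B_W e₁ e₂ := by
  rw [S34B_mem_W]
  intro i
  have := (S34B_mem_glued e₁ e₂ c m).1 hm i
  simp only [Prod.pow_fst, Prod.pow_snd, map_pow, this, mul_pow, hc i, one_mul]

/-- a glued module is a module over `W`. -/
theorem S34B_W_mul_mem (e₁ : ι → R₁ →ₐ[k] k) (e₂ : ι → R₂ →ₐ[k] k) {c : ι → k}
    {w m : R₁ × R₂} (hw : w ∈ S34B_W e₁ e₂) (hm : m ∈ S34B_glued e₁ e₂ c) :
    w * m ∈ S34B_glued e₁ e₂ c := by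
  rw [S34B_mem_glued]
  intro i
  have h1 := (S34B_mem_W e₁ e₂ w).1 hw i
  have h2 := (S34B_mem_glued e₁ e₂ c m).1 hm i
  simp only [Prod.fst_mul, Prod.snd_mul, map_mul, h1, h2]
  ring

end Fermat.Agent.S34
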