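import Mathlib
import Fermat.Agent.S34.GlueAlg

/-!
# TRACK 7 (S34 + S35), package KACT (helper10): the action of `G_q` on `K'`, abstract form

`K'` = classes of `J_N[n]` with a Kummer generator `u ≡ 1` at both Gauss valuations `V₁, V₂`
("normalised" generators, the set `Kp`).  For `u ∈ Kp` the reduction `W u ⊂ R₁ × R₂` of the
lattice `M^u = {f | fⁿ u ∈ Λ}` is a glued module `{(a, b) | a(P_i) = c_i(u) · b(P_i')}`
(packages POLE + SAT + NODALG, `S34B_main`).  This file turns that description into the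
statements consumed by DSTEP/ASM:

* `S34K_Datum.c_mul`, `c_one`, `c_inv`, `c_pow` : `u ↦ c u` is multiplicative on `Kp`;
* `S34K_Datum.c_straight` / `c_swap` : equivariance of `c` under an automorphism of `F` acting
  on the fibre ring compatibly with the nodes (inertia, Frobenius lifts / the involution `w_q`);
* `S34K_Datum.tau_triv`   (K-tau)  : inertia acts trivially on `K'`;
* `S34K_Datum.sigma_sq_triv` (K-sig2) : `σ² = q²` on `K'` for every Frobenius lift `σ`;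
* `S34K_Datum.sigma_w_triv` (K-sigw) : `σ = -q · w_q` on `K'`.

Everything is over Mathlib + `GlueAlg.lean`; the concrete inputs are the fields of `S34K_Datum`
and of the two action structures.
-/

set_option autoImplicit false

namespace Fermat.Agent.S34

variable {k : Type*} [Field k] {R₁ R₂ : Type*} [CommRing R₁] [CommRing R₂]
  [Algebra k R₁] [Algebra k R₂] {ι : Type*}

/-- a member of the glued module with prescribed values `(c i, 1)` at the nodes. -/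
theorem S34K_exists_witness (e₁ : ι → R₁ →ₐ[k] k) (e₂ : ι → R₂ →ₐ[k] k)
    (hE : Function.Surjective (S34B_E e₁ e₂)) (c : ι → k) :
    ∃ m ∈ S34B_glued e₁ e₂ c, (∀ i, e₁ i m.1 = c i) ∧ ∀ i, e₂ i m.2 = 1 := by
  obtain ⟨p, hp⟩ := hE (c, fun _ => 1)
  have h1 : ∀ i, e₁ i p.1 = c i := fun i => congrFun (congrArg Prod.fst hp) i
  have h2 : ∀ i, e₂ i p.2 = 1 := fun i => congrFun (congrArg Prod.snd hp) i
  refine ⟨p, ?_, h1, h2⟩
  rw [S34B_mem_glued]
  intro i
  rw [h1, h2, mul_one]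

/-- **straight equivariance** of the gluing invariant: if `ψ` maps the glued module of `c` into
the glued module of `c'` and transports the evaluations at the node `i` to the evaluations at
the node `π i`, twisted by the field endomorphism `θ`, then `c' (π i) = θ (c i)`. -/
theorem S34K_glued_straight (e₁ : ι → R₁ →ₐ[k] k) (e₂ : ι → R₂ →ₐ[k] k)
    (hE : Function.Surjective (S34B_E e₁ e₂))
    (ψ : R₁ × R₂ → R₁ × R₂) (π : ι → ι) (θ : k →+* k)
    (h1 : ∀ m i, e₁ (π i) (ψ m).1 = θ (e₁ i m.1))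
    (h2 : ∀ m i, e₂ (π i) (ψ m).2 = θ (e₂ i m.2))
    {c c' : ι → k} (h : ∀ m ∈ S34B_glued e₁ e₂ c, ψ m ∈ S34B_glued e₁ e₂ c') (i : ι) :
    c' (π i) = θ (c i) := by
  obtain ⟨m, hm, hm1, hm2⟩ := S34K_exists_witness e₁ e₂ hE c
  have := (S34B_mem_glued e₁ e₂ c' _).1 (h m hm) (π i)
  rw [h1, h2, hm1, hm2, map_one, mul_one] at this
  exact this.symm

/-- **swapped equivariance** of the gluing invariant (for the involution `w_q`, which exchanges
the two components): `c' (π i) · θ (c i) = 1`. -/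
theorem S34K_glued_swap (e₁ : ι → R₁ →ₐ[k] k) (e₂ : ι → R₂ →ₐ[k] k)
    (hE : Function.Surjective (S34B_E e₁ e₂))
    (ψ : R₁ × R₂ → R₁ × R₂) (π : ι → ι) (θ : k →+* k)
    (h1 : ∀ m i, e₁ (π i) (ψ m).1 = θ (e₂ i m.2))
    (h2 : ∀ m i, e₂ (π i) (ψ m).2 = θ (e₁ i m.1))
    {c c' : ι → k} (h : ∀ m ∈ S34B_glued e₁ e₂ c, ψ m ∈ S34B_glued e₁ e₂ c') (i : ι) :
    c' (π i) * θ (c i) = 1 := by
  obtain ⟨m, hm, hm1, hm2⟩ := S34K_exists_witness e₁ e₂ hE c
  have := (S34B_mem_glued e₁ e₂ c' _).1 (h m hm) (π i)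
  rw [h1, h2, hm1, hm2, map_one] at this
  exact this.symm

/-- **The abstract datum of KACT.**
`Kp` = normalised Kummer generators of `K'`, `Triv` = trivial Kummer generators `c · gⁿ`,
`W u` = reduction of `M^u` in the chart `U`, `c u` = its gluing invariant. -/
structure S34K_Datum (F : Type*) [Field F] (k : Type*) [Field k] (R₁ R₂ : Type*) [CommRing R₁]
    [CommRing R₂] [Algebra k R₁] [Algebra k R₂] (ι : Type*) where
  /-- evaluation at the first branch of the node `i` -/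
  e₁ : ι → R₁ →ₐ[k] k
  /-- evaluation at the second branch of the node `i` -/
  e₂ : ι → R₂ →ₐ[k] k
  hE : Function.Surjective (S34B_E e₁ e₂)
  /-- the normalised Kummer generators -/
  Kp : Set F
  /-- the trivial Kummer generators -/
  Triv : Set F
  /-- the reduction of the lattice `M^u` -/
  W : F → Submodule k (R₁ × R₂)
  /-- the gluing invariant -/
  c : F → ι → k
  one_mem : (1 : F) ∈ Kp
  mul_mem : ∀ u ∈ Kp, ∀ v ∈ Kp, u * v ∈ Kp
  inv_mem : ∀ u ∈ Kp, u⁻¹ ∈ Kp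
  ne_zero : ∀ u ∈ Kp, u ≠ 0
  /-- (B): `W u` is the glued module of `c u` (POLE + SAT + NODALG + `S34B_main`) -/
  hW : ∀ u ∈ Kp, W u = S34B_glued e₁ e₂ (c u)
  /-- `1 ∈ M^1` -/
  one_mem_W : (1 : R₁ × R₂) ∈ W 1
  /-- `M^u · M^v ⊂ M^{uv}` -/
  mul_mem_W : ∀ u ∈ Kp, ∀ v ∈ Kp, ∀ m ∈ W u, ∀ m' ∈ W v, m * m' ∈ W (u * v)
  /-- (INJ): trivial gluing invariant ⇒ trivial class (INJABS + TORS + `L(D) = 0`) -/
  inj : ∀ u ∈ Kp, (∀ i, c u i = 1) → u ∈ Triv

namespace S34K_Datum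

variable {F : Type*} [Field F] (D : S34K_Datum F k R₁ R₂ ι)

theorem c_one (i : ι) : D.c 1 i = 1 := by
  have h := D.one_mem_W
  rw [D.hW 1 D.one_mem, S34B_mem_glued] at h
  have := h i
  simpa using this.symm

theorem c_mul {u v : F} (hu : u ∈ D.Kp) (hv : v ∈ D.Kp) : D.c (u * v) = D.c u * D.c v := by
  apply S34B_glued_mul D.e₁ D.e₂ D.hE
  intro m hm m' hm'
  rw [← D.hW u hu] at hm
  rw [← D.hW v hv] at hm'
  rw [← D.hW (u * v) (D.mul_mem u hu v hv)]
  exact D.mul_mem_W u hu v hv m hm m' hm'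

theorem c_mul_apply {u v : F} (hu : u ∈ D.Kp) (hv : v ∈ D.Kp) (i : ι) :
    D.c (u * v) i = D.c u i * D.c v i := by
  rw [D.c_mul hu hv]; rfl

theorem c_inv_apply {u : F} (hu : u ∈ D.Kp) (i : ι) : D.c u⁻¹ i * D.c u i = 1 := by
  rw [← D.c_mul_apply (D.inv_mem u hu) hu, inv_mul_cancel₀ (D.ne_zero u hu), D.c_one]

theorem c_ne_zero {u : F} (hu : u ∈ D.Kp) (i : ι) : D.c u i ≠ 0 := by
  intro h
  have := D.c_inv_apply hu i
  rw [h, mul_zero] at this
  exact zero_ne_one this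

theorem c_inv_apply' {u : F} (hu : u ∈ D.Kp) (i : ι) : D.c u⁻¹ i = (D.c u i)⁻¹ :=
  eq_inv_of_mul_eq_one_left (D.c_inv_apply hu i)

theorem pow_mem {u : F} (hu : u ∈ D.Kp) (r : ℕ) : u ^ r ∈ D.Kp := by
  induction r with
  | zero => simpa using D.one_mem
  | succ r ih => rw [pow_succ]; exact D.mul_mem _ ih _ hu

theorem c_pow_apply {u : F} (hu : u ∈ D.Kp) (r : ℕ) (i : ι) : D.c (u ^ r) i = D.c u i ^ r := by
  induction r with
  | zero => simpa using D.c_one i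
  | succ r ih => rw [pow_succ, D.c_mul_apply (D.pow_mem hu r) hu, ih, pow_succ]

/-- **straight action**: an automorphism `g` of `F` preserving `Kp`, acting on the fibre ring
through `ψ`, on the nodes through `π`, on the values through `θ`
(inertia: `ψ = id, π = id, θ = id`; Frobenius lift: `ψ = φ × φ`, `π = Fr`, `θ = (·)^q`). -/
structure Straight (g : F → F) (ψ : R₁ × R₂ → R₁ × R₂) (π : ι → ι) (θ : k →+* k) : Prop where
  map_Kp : ∀ u ∈ D.Kp, g u ∈ D.Kp
  map_W : ∀ u ∈ D.Kp, ∀ m ∈ D.W u, ψ m ∈ D.W (g u)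
  ev₁ : ∀ m i, D.e₁ (π i) (ψ m).1 = θ (D.e₁ i m.1)
  ev₂ : ∀ m i, D.e₂ (π i) (ψ m).2 = θ (D.e₂ i m.2)

/-- **swapped action** (the involution `w_q`: `ψ = swap`, `θ = id`). -/
structure Swapped (g : F → F) (ψ : R₁ × R₂ → R₁ × R₂) (π : ι → ι) (θ : k →+* k) : Prop where
  map_Kp : ∀ u ∈ D.Kp, g u ∈ D.Kp
  map_W : ∀ u ∈ D.Kp, ∀ m ∈ D.W u, ψ m ∈ D.W (g u)
  ev₁ : ∀ m i, D.e₁ (π i) (ψ m).1 = θ (D.e₂ i m.2)
  ev₂ : ∀ m i, D.e₂ (π i) (ψ m).2 = θ (D.e₁ i m.1)

variable {D}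

theorem c_straight {g : F → F} {ψ : R₁ × R₂ → R₁ × R₂} {π : ι → ι} {θ : k →+* k}
    (h : D.Straight g ψ π θ) {u : F} (hu : u ∈ D.Kp) (i : ι) :
    D.c (g u) (π i) = θ (D.c u i) := by
  apply S34K_glued_straight D.e₁ D.e₂ D.hE ψ π θ h.ev₁ h.ev₂
  intro m hm
  rw [← D.hW u hu] at hm
  rw [← D.hW (g u) (h.map_Kp u hu)]
  exact h.map_W u hu m hm

theorem c_swap {g : F → F} {ψ : R₁ × R₂ → R₁ × R₂} {π : ι → ι} {θ : k →+* k}
    (h : D.Swapped g ψ π θ) {u : F} (hu : u ∈ D.Kp) (i : ι) :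
    D.c (g u) (π i) * θ (D.c u i) = 1 := by
  apply S34K_glued_swap D.e₁ D.e₂ D.hE ψ π θ h.ev₁ h.ev₂
  intro m hm
  rw [← D.hW u hu] at hm
  rw [← D.hW (g u) (h.map_Kp u hu)]
  exact h.map_W u hu m hm

/-- **(K-tau)**: an automorphism acting trivially on the fibre ring (inertia) acts trivially
on `K'`: `τ u / u` is a trivial Kummer generator. -/
theorem tau_triv {τ : F → F} (h : D.Straight τ id id (RingHom.id k)) {u : F} (hu : u ∈ D.Kp) :
    τ u * u⁻¹ ∈ D.Triv := by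
  apply D.inj _ (D.mul_mem _ (h.map_Kp u hu) _ (D.inv_mem u hu))
  intro i
  rw [D.c_mul_apply (h.map_Kp u hu) (D.inv_mem u hu), D.c_inv_apply' hu]
  have := c_straight h hu i
  simp only [id_eq, RingHom.id_apply] at this
  rw [this, mul_inv_cancel₀ (D.c_ne_zero hu i)]

/-- **(K-sig2)**: `σ² = q²` on `K'` for a Frobenius lift `σ`
(`θ = (·)^q` on the values, the nodes are fixed by `π ∘ π`). -/
theorem sigma_sq_triv {σ : F → F} {ψ : R₁ × R₂ → R₁ × R₂} {π : ι → ι} {θ : k →+* k} {q : ℕ}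
    (h : D.Straight σ ψ π θ) (hθ : ∀ x : k, θ x = x ^ q) (hπ : ∀ i, π (π i) = i)
    {u : F} (hu : u ∈ D.Kp) :
    σ (σ u) * (u ^ (q ^ 2))⁻¹ ∈ D.Triv := by
  have hσu := h.map_Kp u hu
  have hσσu := h.map_Kp _ hσu
  have hpow := D.pow_mem hu (q ^ 2)
  apply D.inj _ (D.mul_mem _ hσσu _ (D.inv_mem _ hpow))
  intro i
  rw [D.c_mul_apply hσσu (D.inv_mem _ hpow), D.c_inv_apply' hpow, D.c_pow_apply hu]
  have h1 := c_straight h hσu (π i)
  have h2 := c_straight h hu i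
  rw [hπ] at h1
  rw [h1, h2, hθ, hθ, ← pow_mul, ← pow_two,
    mul_inv_cancel₀ (pow_ne_zero _ (D.c_ne_zero hu i))]

/-- **(K-sigw)**: `σ = -q · w_q` on `K'`: `σ u · (w u)^q` is a trivial Kummer generator, if the
Frobenius lift `σ` and the involution `w` induce the SAME permutation of the nodes. -/
theorem sigma_w_triv {σ w : F → F} {ψ ψ' : R₁ × R₂ → R₁ × R₂} {π : ι → ι} {θ : k →+* k} {q : ℕ}
    (h : D.Straight σ ψ π θ) (hθ : ∀ x : k, θ x = x ^ q)
    (hw : D.Swapped w ψ' π (RingHom.id k)) (hπ : Function.Surjective π)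
    {u : F} (hu : u ∈ D.Kp) :
    σ u * (w u) ^ q ∈ D.Triv := by
  have hσu := h.map_Kp u hu
  have hwu := hw.map_Kp u hu
  apply D.inj _ (D.mul_mem _ hσu _ (D.pow_mem hwu q))
  intro j
  obtain ⟨i, rfl⟩ := hπ j
  rw [D.c_mul_apply hσu (D.pow_mem hwu q), D.c_pow_apply hwu, c_straight h hu i, hθ]
  have := c_swap hw hu i
  simp only [RingHom.id_apply] at this
  rw [← mul_pow, mul_comm, this, one_pow]

end S34K_Datum

end Fermat.Agent.S34
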