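import Mathlib
import Fermat.Agent.S34.KAct

/-!
# TRACK 7 (S34 + S35), package KACT (helper10): the permutation of the nodes

The nodes `e₁ i, e₂ i` of the fibre ring `W = {(a, b) | a(P_i) = b(P_i')}` come out of the
structure theorem `S34NA_nodal` as ABSTRACT algebra homomorphisms.  This file shows that the
action of a semilinear endomorphism `ψ = (φ₁, φ₂)` of `R₁ × R₂` with `ψ W ⊂ W` on the nodes is
forced:

* `S34K_node_complete` : the list of nodes is complete: a pair `(P, P')` of points with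
  `a(P) = b(P')` for all `(a, b) ∈ W` is a node;
* `S34K_exists_perm`   : there is `ρ : ι → ι` with `e_j i ∘ φ_j = θ ∘ e_j (ρ i)`;
* `S34K_perm_invol`    : `ρ ∘ ρ = id` if the nodes are `φ²`-fixed, e.g. (`S34K_fix_of_pow`) if
  `(0, φ₂ (φ₂ b) - b ^ Q) ∈ W` for all `b` and `θ (θ x) = x ^ Q`   [(A3) of NODAL];
* `S34K_Datum.straight_of_perm` : the structure `Straight` of `KAct.lean` for a Frobenius lift,
  from `map_Kp`, `map_W` only;
* `S34K_Datum.sigma_sq_triv'`  : **(K-sig2)** without any reference to the nodes;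
* `S34K_Datum.tau_triv'`       : **(K-tau)** from `map_Kp`, `map_W` (`ψ = id`).

Everything is over Mathlib + `GlueAlg.lean` + `KAct.lean`.
-/

set_option autoImplicit false

namespace Fermat.Agent.S34

variable {k : Type*} [Field k] {R₁ R₂ : Type*} [CommRing R₁] [CommRing R₂]
  [Algebra k R₁] [Algebra k R₂] {ι : Type*}

/-- a point `P` vanishing on the functions that vanish at all the points `e i` (finitely many)
is one of them. -/
theorem S34K_eq_of_vanish {R : Type*} [CommRing R] [Algebra k R] [Finite ι]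
    (e : ι → R →ₐ[k] k) (P : R →ₐ[k] k)
    (h : ∀ a : R, (∀ i, e i a = 0) → P a = 0) : ∃ i, P = e i := by
  classical
  have := Fintype.ofFinite ι
  by_contra hne
  rw [not_exists] at hne
  have hb : ∀ i, ∃ b : R, e i b = 0 ∧ P b ≠ 0 := by
    intro i
    have : ∃ a : R, P a ≠ e i a := by
      by_contra hall
      rw [not_exists] at hall
      exact hne i (AlgHom.ext fun a => not_not.1 (hall a))
    obtain ⟨a, ha⟩ := this
    refine ⟨a - algebraMap k R (e i a), ?_, ?_⟩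
    · rw [map_sub, AlgHom.commutes]
      simp
    · rw [map_sub, AlgHom.commutes]
      simpa [sub_eq_zero] using ha
  choose b hb0 hb1 using hb
  have h0 : ∀ i, e i (∏ j, b j) = 0 := by
    intro i
    rw [map_prod]
    exact Finset.prod_eq_zero (Finset.mem_univ i) (hb0 i)
  have := h _ h0
  rw [map_prod] at this
  exact (Finset.prod_ne_zero_iff.2 fun i _ => hb1 i) this

/-- the evaluations at the nodes are pairwise different (first branch). -/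
theorem S34K_e₁_injective (e₁ : ι → R₁ →ₐ[k] k) (e₂ : ι → R₂ →ₐ[k] k)
    (hE : Function.Surjective (S34B_E e₁ e₂)) : Function.Injective e₁ := by
  classical
  intro i j hij
  by_contra hne
  obtain ⟨m, hm⟩ := hE (Pi.single i 1, 0)
  have h1 : e₁ i m.1 = 1 := by
    have := congrFun (congrArg Prod.fst hm) i
    simpa using this
  have h2 : e₁ j m.1 = 0 := by
    have := congrFun (congrArg Prod.fst hm) j
    simpa [Pi.single_apply, Ne.symm hne] using this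
  rw [hij, h2] at h1
  exact zero_ne_one h1

/-- the evaluations at the nodes are pairwise different (second branch). -/
theorem S34K_e₂_injective (e₁ : ι → R₁ →ₐ[k] k) (e₂ : ι → R₂ →ₐ[k] k)
    (hE : Function.Surjective (S34B_E e₁ e₂)) : Function.Injective e₂ := by
  classical
  intro i j hij
  by_contra hne
  obtain ⟨m, hm⟩ := hE (0, Pi.single i 1)
  have h1 : e₂ i m.2 = 1 := by
    have := congrFun (congrArg Prod.snd hm) i
    simpa using this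
  have h2 : e₂ j m.2 = 0 := by
    have := congrFun (congrArg Prod.snd hm) j
    simpa [Pi.single_apply, Ne.symm hne] using this
  rw [hij, h2] at h1
  exact zero_ne_one h1

/-- **the list of nodes is complete**: a pair of points `(P, P')` of the two components with
`a(P) = b(P')` for all `(a, b)` in the fibre ring `W` is one of the nodes. -/
theorem S34K_node_complete [Finite ι] (e₁ : ι → R₁ →ₐ[k] k) (e₂ : ι → R₂ →ₐ[k] k)
    (hE : Function.Surjective (S34B_E e₁ e₂)) (P : R₁ →ₐ[k] k) (P' : R₂ →ₐ[k] k)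
    (h : ∀ m ∈ S34B_W e₁ e₂, P m.1 = P' m.2) : ∃ i, P = e₁ i ∧ P' = e₂ i := by
  classical
  have h1 : ∀ a : R₁, (∀ i, e₁ i a = 0) → P a = 0 := by
    intro a ha
    have hm : ((a, 0) : R₁ × R₂) ∈ S34B_W e₁ e₂ := by
      rw [S34B_mem_W]
      intro i
      simp [ha i]
    have := h _ hm
    simpa using this
  have h2 : ∀ b : R₂, (∀ i, e₂ i b = 0) → P' b = 0 := by
    intro b hb
    have hm : ((0, b) : R₁ × R₂) ∈ S34B_W e₁ e₂ := by
      rw [S34B_mem_W]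
      intro i
      simp [hb i]
    have := h _ hm
    simpa using this.symm
  obtain ⟨i, hi⟩ := S34K_eq_of_vanish e₁ P h1
  obtain ⟨j, hj⟩ := S34K_eq_of_vanish e₂ P' h2
  refine ⟨i, hi, ?_⟩
  rcases eq_or_ne i j with rfl | hne
  · exact hj
  · exfalso
    obtain ⟨m, hm⟩ := hE (Pi.single i 1, Pi.single i 1)
    have hm1 : ∀ l, e₁ l m.1 = (Pi.single i (1 : k) : ι → k) l :=
      fun l => congrFun (congrArg Prod.fst hm) l
    have hm2 : ∀ l, e₂ l m.2 = (Pi.single i (1 : k) : ι → k) l :=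
      fun l => congrFun (congrArg Prod.snd hm) l
    have hmW : m ∈ S34B_W e₁ e₂ := by
      rw [S34B_mem_W]
      intro l
      rw [hm1, hm2]
    have := h m hmW
    rw [hi, hj, hm1, hm2] at this
    simp [hne.symm] at this

/-- the twist of a point by a semilinear endomorphism. -/
noncomputable def S34K_twist {R : Type*} [CommRing R] [Algebra k R] (θ : k ≃+* k) (φ : R →+* R)
    (hφ : ∀ c : k, φ (algebraMap k R c) = algebraMap k R (θ c)) (e : R →ₐ[k] k) : R →ₐ[k] k where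
  toRingHom := (θ.symm : k →+* k).comp ((e : R →+* k).comp φ)
  commutes' c := by
    show θ.symm (e (φ (algebraMap k R c))) = algebraMap k k c
    rw [hφ, AlgHom.commutes]
    simp

theorem S34K_twist_apply {R : Type*} [CommRing R] [Algebra k R] (θ : k ≃+* k) (φ : R →+* R)
    (hφ : ∀ c : k, φ (algebraMap k R c) = algebraMap k R (θ c)) (e : R →ₐ[k] k) (a : R) :
    S34K_twist θ φ hφ e a = θ.symm (e (φ a)) := rfl

/-- **the permutation of the nodes** induced by a semilinear endomorphism `(φ₁, φ₂)` of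
`R₁ × R₂` that maps the fibre ring `W` into itself: `e_j i ∘ φ_j = θ ∘ e_j (ρ i)`. -/
theorem S34K_exists_perm [Finite ι] (e₁ : ι → R₁ →ₐ[k] k) (e₂ : ι → R₂ →ₐ[k] k)
    (hE : Function.Surjective (S34B_E e₁ e₂)) (θ : k ≃+* k)
    (φ₁ : R₁ →+* R₁) (φ₂ : R₂ →+* R₂)
    (hφ₁ : ∀ c : k, φ₁ (algebraMap k R₁ c) = algebraMap k R₁ (θ c))
    (hφ₂ : ∀ c : k, φ₂ (algebraMap k R₂ c) = algebraMap k R₂ (θ c))
    (hW : ∀ m ∈ S34B_W e₁ e₂, (φ₁ m.1, φ₂ m.2) ∈ S34B_W e₁ e₂) :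
    ∃ ρ : ι → ι, (∀ i a, e₁ i (φ₁ a) = θ (e₁ (ρ i) a)) ∧ ∀ i b, e₂ i (φ₂ b) = θ (e₂ (ρ i) b) := by
  have key : ∀ i, ∃ j, S34K_twist θ φ₁ hφ₁ (e₁ i) = e₁ j ∧ S34K_twist θ φ₂ hφ₂ (e₂ i) = e₂ j := by
    intro i
    apply S34K_node_complete e₁ e₂ hE
    intro m hm
    have := (S34B_mem_W e₁ e₂ _).1 (hW m hm) i
    simp only at this
    rw [S34K_twist_apply, S34K_twist_apply, this]
  choose ρ hρ₁ hρ₂ using key
  refine ⟨ρ, fun i a => ?_, fun i b => ?_⟩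
  · have := congrArg (fun P : R₁ →ₐ[k] k => θ (P a)) (hρ₁ i)
    simpa [S34K_twist_apply] using this
  · have := congrArg (fun P : R₂ →ₐ[k] k => θ (P b)) (hρ₂ i)
    simpa [S34K_twist_apply] using this

/-- the nodes are `φ²`-fixed if `(0, φ₂ (φ₂ b) - b ^ Q) ∈ W` for all `b` (this is (A3) of NODAL,
`Q = q²`) and `θ² = (·)^Q`. -/
theorem S34K_fix_of_pow (e₁ : ι → R₁ →ₐ[k] k) (e₂ : ι → R₂ →ₐ[k] k) (θ : k ≃+* k)
    (φ₂ : R₂ →+* R₂) (Q : ℕ) (hθ : ∀ x : k, θ (θ x) = x ^ Q)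
    (hA3 : ∀ b : R₂, ((0 : R₁), φ₂ (φ₂ b) - b ^ Q) ∈ S34B_W e₁ e₂) (i : ι) (b : R₂) :
    e₂ i (φ₂ (φ₂ b)) = θ (θ (e₂ i b)) := by
  have := (S34B_mem_W e₁ e₂ _).1 (hA3 b) i
  simp only [map_zero, map_sub, map_pow] at this
  rw [hθ]
  exact (sub_eq_zero.1 this.symm)

/-- `ρ ∘ ρ = id` if the nodes are `φ²`-fixed. -/
theorem S34K_perm_invol (e₁ : ι → R₁ →ₐ[k] k) (e₂ : ι → R₂ →ₐ[k] k)
    (hE : Function.Surjective (S34B_E e₁ e₂)) (θ : k ≃+* k) (φ₂ : R₂ →+* R₂)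
    (ρ : ι → ι) (hρ : ∀ i b, e₂ i (φ₂ b) = θ (e₂ (ρ i) b))
    (hfix : ∀ i b, e₂ i (φ₂ (φ₂ b)) = θ (θ (e₂ i b))) (i : ι) : ρ (ρ i) = i := by
  apply S34K_e₂_injective e₁ e₂ hE
  apply AlgHom.ext
  intro b
  have h := hfix i b
  rw [hρ i (φ₂ b), hρ (ρ i) b] at h
  exact θ.injective (θ.injective h)

namespace S34K_Datum

variable {F : Type*} [Field F] (D : S34K_Datum F k R₁ R₂ ι)

/-- `W 1` is the fibre ring. -/
theorem W_one : D.W 1 = S34B_W D.e₁ D.e₂ := by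
  rw [D.hW 1 D.one_mem]
  have : D.c 1 = fun _ => 1 := funext D.c_one
  rw [this]
  rfl

variable {D}

/-- **`Straight` for a Frobenius lift, from `map_Kp` and `map_W` only.**
`g` = the automorphism of `F` (`g 1 = 1`), `(φ₁, φ₂)` = its action on the fibre ring,
`θ`-semilinear; `hfix` = the nodes are `φ²`-fixed. -/
theorem straight_of_perm [Finite ι] (g : F → F) (hg1 : g 1 = 1) (θ : k ≃+* k)
    (φ₁ : R₁ →+* R₁) (φ₂ : R₂ →+* R₂)
    (hφ₁ : ∀ c : k, φ₁ (algebraMap k R₁ c) = algebraMap k R₁ (θ c))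
    (hφ₂ : ∀ c : k, φ₂ (algebraMap k R₂ c) = algebraMap k R₂ (θ c))
    (map_Kp : ∀ u ∈ D.Kp, g u ∈ D.Kp)
    (map_W : ∀ u ∈ D.Kp, ∀ m ∈ D.W u, (φ₁ m.1, φ₂ m.2) ∈ D.W (g u))
    (hfix : ∀ i b, D.e₂ i (φ₂ (φ₂ b)) = θ (θ (D.e₂ i b))) :
    ∃ π : ι → ι, (∀ i, π (π i) = i) ∧
      D.Straight g (fun m => (φ₁ m.1, φ₂ m.2)) π (θ : k →+* k) := by
  have hW : ∀ m ∈ S34B_W D.e₁ D.e₂, (φ₁ m.1, φ₂ m.2) ∈ S34B_W D.e₁ D.e₂ := by
    intro m hm
    rw [← D.W_one] at hm ⊢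
    have := map_W 1 D.one_mem m hm
    rwa [hg1] at this
  obtain ⟨ρ, hρ₁, hρ₂⟩ := S34K_exists_perm D.e₁ D.e₂ D.hE θ φ₁ φ₂ hφ₁ hφ₂ hW
  have hinv := S34K_perm_invol D.e₁ D.e₂ D.hE θ φ₂ ρ hρ₂ hfix
  refine ⟨ρ, hinv, ⟨map_Kp, map_W, fun m i => ?_, fun m i => ?_⟩⟩
  · show D.e₁ (ρ i) (φ₁ m.1) = θ (D.e₁ i m.1)
    rw [hρ₁, hinv]
  · show D.e₂ (ρ i) (φ₂ m.2) = θ (D.e₂ i m.2)
    rw [hρ₂, hinv]

/-- **(K-sig2), node-free form**: `σ² = q²` on `K'` for a Frobenius lift `σ` acting on the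
fibre ring through the `θ`-semilinear pair `(φ₁, φ₂)`, `θ x = x ^ q`, if
`(0, φ₂ (φ₂ b) - b ^ (q²)) ∈ W` for all `b` [(A3)]. -/
theorem sigma_sq_triv' [Finite ι] (σ : F → F) (hσ1 : σ 1 = 1) (θ : k ≃+* k) (q : ℕ)
    (hθ : ∀ x : k, θ x = x ^ q)
    (φ₁ : R₁ →+* R₁) (φ₂ : R₂ →+* R₂)
    (hφ₁ : ∀ c : k, φ₁ (algebraMap k R₁ c) = algebraMap k R₁ (θ c))
    (hφ₂ : ∀ c : k, φ₂ (algebraMap k R₂ c) = algebraMap k R₂ (θ c))
    (map_Kp : ∀ u ∈ D.Kp, σ u ∈ D.Kp)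
    (map_W : ∀ u ∈ D.Kp, ∀ m ∈ D.W u, (φ₁ m.1, φ₂ m.2) ∈ D.W (σ u))
    (hA3 : ∀ b : R₂, ((0 : R₁), φ₂ (φ₂ b) - b ^ (q ^ 2)) ∈ D.W 1)
    {u : F} (hu : u ∈ D.Kp) :
    σ (σ u) * (u ^ (q ^ 2))⁻¹ ∈ D.Triv := by
  have hθ2 : ∀ x : k, θ (θ x) = x ^ (q ^ 2) := by
    intro x
    rw [hθ, hθ, ← pow_mul, pow_two]
  have hfix : ∀ i b, D.e₂ i (φ₂ (φ₂ b)) = θ (θ (D.e₂ i b)) := by
    intro i b
    apply S34K_fix_of_pow D.e₁ D.e₂ θ φ₂ (q ^ 2) hθ2
    intro b'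
    rw [← D.W_one]
    exact hA3 b'
  obtain ⟨π, hπ, hS⟩ := straight_of_perm σ hσ1 θ φ₁ φ₂ hφ₁ hφ₂ map_Kp map_W hfix
  exact sigma_sq_triv hS (fun x => hθ x) hπ hu

/-- **(K-tau), short form**: an automorphism acting trivially on the fibre ring acts trivially
on `K'`. -/
theorem tau_triv' (τ : F → F) (map_Kp : ∀ u ∈ D.Kp, τ u ∈ D.Kp)
    (map_W : ∀ u ∈ D.Kp, ∀ m ∈ D.W u, m ∈ D.W (τ u)) {u : F} (hu : u ∈ D.Kp) :
    τ u * u⁻¹ ∈ D.Triv :=
  tau_triv ⟨map_Kp, map_W, fun _ _ => rfl, fun _ _ => rfl⟩ hu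

end S34K_Datum

end Fermat.Agent.S34
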