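import Fermat.Agent.S34.KActRed
import Fermat.Agent.S34.KActPerm
import Fermat.Agent.GalRep.TwrAct

/-!
# TRACK 7 (S34 + S35), package KACT (helper10): (K-tau) and (K-sig2) at one place

The two outputs of KACT in EXACTLY the shape consumed by DSTEP (`S34/DStepK.lean`, `hK` of
`S34D_uniK` / `S34D_frob4K`), for a pair `S₁, S₂ : S18_Val` (`V₁`, `V₂ = V₁ ∘ w_q`; the valuation
rings of `DStepK` are `O₁ = S₁.O`, `O₂ = S₂.O`) and a chart `C`: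

* `S34K_mem_Norm_iff` : `u` normalised  ⇔  `V₁ (u - 1) < 1 ∧ V₂ (u - 1) < 1`;
* `S34K_hex_of_counts` : (B) for all normalised Kummer generators from NODAL (`hW1`) + COUNT;
* `S34K_tau_place`, `S34K_sig2_place` : general form (any field `F`, any sets `Kum`, `Triv`);
* `S34K_sig2_place'` : the same with the action on the fibre ring given on the residue FIELDS
  (`red_i (σ f) = Φ_i (red_i f)`, `Φ_i` the coefficientwise Frobenius);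
* `S34K_hK_tau`, `S34K_hK_sig2` : for `F = modularFunctionFieldBar L'`, `Kum = KM_IsKum`,
  `Triv = GR_IsTriv`, `g = GR_gal L' τ`.

Inputs: nodes `e₁ e₂ hE` + `hW1` (NODAL/NODALG), count (COUNT/POLE/SAT), `hinj` (INJ),
the action of the Galois element on `O₁, O₂, B` and on the reductions (STRAIGHT), (A3).
No input about the position of the nodes is needed (`KActPerm.lean`).
-/

set_option autoImplicit false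
set_option linter.unusedSectionVars false

open AlgebraicCurve ModularCurve

namespace Fermat.Agent.S34

open Fermat.Agent.S18 Fermat.Agent.GalRep

variable {L F k Fk₁ Fk₂ : Type*} [Field L] [Field F] [Algebra L F] [Field k]
  [Field Fk₁] [Field Fk₂] [Algebra k Fk₁] [Algebra k Fk₂]

/-- for one valuation datum: `V (u - 1) < 1` iff `u ∈ O` and `red u = 1`. -/
theorem S34K_val_sub_one_lt {Fk : Type*} [Field Fk] [Algebra k Fk] (S : S18_Val L F k Fk)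
    (u : F) : S.O.valuation (u - 1) < 1 ↔ ∃ h : u ∈ S.O, S.red ⟨u, h⟩ = 1 := by
  constructor
  · intro hlt
    have hmem : u - 1 ∈ S.O := (S.O.valuation_le_one_iff _).1 hlt.le
    have hu : u ∈ S.O := by
      have := S.O.add_mem _ _ hmem S.O.one_mem
      simpa using this
    refine ⟨hu, ?_⟩
    have hnu : ¬ IsUnit (⟨u - 1, hmem⟩ : S.O) := by
      intro hunit
      have := (S.O.valuation_eq_one_iff _).1 hunit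
      simp only at this
      rw [this] at hlt
      exact lt_irrefl _ hlt
    have h0 : S.red ⟨u - 1, hmem⟩ = 0 := by
      by_contra hne
      exact hnu ((S.red_ne_zero_iff _).1 hne)
    have e : (⟨u, hu⟩ : S.O) = ⟨u - 1, hmem⟩ + 1 := Subtype.ext (by simp)
    rw [e, map_add, h0, zero_add, map_one]
  · rintro ⟨hu, h1⟩
    have hmem : u - 1 ∈ S.O := sub_mem hu S.O.one_mem
    have h0 : S.red ⟨u - 1, hmem⟩ = 0 := by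
      have e : (⟨u - 1, hmem⟩ : S.O) = ⟨u, hu⟩ - 1 := Subtype.ext (by simp)
      rw [e, map_sub, h1, map_one, sub_self]
    have hnu : ¬ IsUnit (⟨u - 1, hmem⟩ : S.O) := by
      intro hunit
      exact ((S.red_ne_zero_iff _).2 hunit) h0
    have hle : S.O.valuation (u - 1) ≤ 1 := (S.O.valuation_le_one_iff _).2 hmem
    rcases lt_or_eq_of_le hle with h | h
    · exact h
    · exact absurd ((S.O.valuation_eq_one_iff ⟨u - 1, hmem⟩).2 h) hnu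

variable {S₁ : S18_Val L F k Fk₁} {S₂ : S18_Val L F k Fk₂}

/-- **normalised ⇔ `u ≡ 1` at both valuations.** -/
theorem S34K_mem_Norm_iff {u : F} :
    u ∈ S34K_Norm S₁ S₂ ↔ S₁.O.valuation (u - 1) < 1 ∧ S₂.O.valuation (u - 1) < 1 := by
  rw [S34K_val_sub_one_lt, S34K_val_sub_one_lt]
  constructor
  · rintro ⟨hu, h1⟩
    exact ⟨⟨hu.1, congrArg Prod.fst h1⟩, ⟨hu.2, congrArg Prod.snd h1⟩⟩
  · rintro ⟨⟨hu1, h1⟩, ⟨hu2, h2⟩⟩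
    exact ⟨⟨hu1, hu2⟩, Prod.ext h1 h2⟩

variable (hS : S34P_Same S₁ S₂)

/-- **(B) for all normalised Kummer generators**, from NODAL (`hW1`) and COUNT (`hcount`). -/
theorem S34K_hex_of_counts {n : ℕ} {ι : Type*} [Fintype ι]
    (C : S34K_Chart (L := L) (F := F) (k := k) (Fk₁ := Fk₁) (Fk₂ := Fk₂) n)
    (e₁ : ι → ↥C.Rb₁ →ₐ[k] k) (e₂ : ι → ↥C.Rb₂ →ₐ[k] k)
    (hE : Function.Surjective (S34B_E e₁ e₂))
    (hW1 : S34K_W hS C 1 = S34B_W e₁ e₂) (Kum : Set F)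
    (hcount : ∀ u ∈ Kum ∩ S34K_Norm S₁ S₂,
      Module.Finite k ((↥C.Rb₁ × ↥C.Rb₂) ⧸ S34K_W hS C u) ∧
      Module.finrank k ((↥C.Rb₁ × ↥C.Rb₂) ⧸ S34K_W hS C u) ≤ Fintype.card ι) :
    ∀ u ∈ Kum ∩ S34K_Norm S₁ S₂, ∃ c : ι → k, S34K_W hS C u = S34B_glued e₁ e₂ c := by
  intro u hu
  obtain ⟨hfin, hle⟩ := hcount u hu
  obtain ⟨c, -, hc⟩ := S34K_hex_of_count hS C e₁ e₂ hE hW1 hu.2 hle
  exact ⟨c, hc⟩

/-- **(K-tau) at one place, general form.**  `g` acts trivially on the reductions. -/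
theorem S34K_tau_place {n : ℕ} {ι : Type*}
    (C : S34K_Chart (L := L) (F := F) (k := k) (Fk₁ := Fk₁) (Fk₂ := Fk₂) n)
    (e₁ : ι → ↥C.Rb₁ →ₐ[k] k) (e₂ : ι → ↥C.Rb₂ →ₐ[k] k)
    (hE : Function.Surjective (S34B_E e₁ e₂))
    (Kum Triv : Set F) (hK1 : (1 : F) ∈ Kum) (hKmul : ∀ u ∈ Kum, ∀ v ∈ Kum, u * v ∈ Kum)
    (hKinv : ∀ u ∈ Kum, u⁻¹ ∈ Kum)
    (hex : ∀ u ∈ Kum ∩ S34K_Norm S₁ S₂, ∃ c : ι → k, S34K_W hS C u = S34B_glued e₁ e₂ c)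
    (hinj : ∀ u ∈ Kum ∩ S34K_Norm S₁ S₂, S34K_W hS C u = S34B_glued e₁ e₂ (fun _ => 1) →
      u ∈ Triv)
    (g : F →+* F) (hgK : ∀ u ∈ Kum, g u ∈ Kum)
    (hgO₁ : ∀ f ∈ S₁.O, g f ∈ S₁.O) (hgO₂ : ∀ f ∈ S₂.O, g f ∈ S₂.O)
    (hgB : ∀ f ∈ C.B, g f ∈ C.B)
    (hred₁ : ∀ f : S₁.O, S₁.red ⟨g f, hgO₁ f f.2⟩ = S₁.red f)
    (hred₂ : ∀ f : S₂.O, S₂.red ⟨g f, hgO₂ f f.2⟩ = S₂.red f)
    {u : F} (hu : u ∈ Kum) (h1 : S₁.O.valuation (u - 1) < 1)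
    (h2 : S₂.O.valuation (u - 1) < 1) :
    g u * u⁻¹ ∈ Triv := by
  have hgO : ∀ f ∈ S34P_O2 S₁ S₂, g f ∈ S34P_O2 S₁ S₂ :=
    fun f hf => ⟨hgO₁ f hf.1, hgO₂ f hf.2⟩
  have hred : ∀ f : S34P_O2 S₁ S₂, S34P_red S₁ S₂ ⟨g f, hgO f f.2⟩ = S34P_red S₁ S₂ f :=
    fun f => Prod.ext (hred₁ ⟨f, f.2.1⟩) (hred₂ ⟨f, f.2.2⟩)
  let D := S34K_mkDatum hS C e₁ e₂ hE Kum Triv hK1 hKmul hKinv hex hinj
  have hu' : u ∈ D.Kp := ⟨hu, S34K_mem_Norm_iff.2 ⟨h1, h2⟩⟩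
  refine S34K_Datum.tau_triv' (D := D) g (fun v hv => ⟨hgK v hv.1, ?_⟩) (fun v _ m hm => ?_) hu'
  · exact S34K_map_Norm g hgO (fun f hf => by rw [hred, hf]) hv.2
  · exact S34K_map_W hS C g hgO hgB id (fun f m hfm => by rw [hred, hfm]; rfl) hm

/-- **(K-sig2) at one place, general form** (action on the coordinate rings of the chart). -/
theorem S34K_sig2_place {n : ℕ} {ι : Type*} [Finite ι]
    (C : S34K_Chart (L := L) (F := F) (k := k) (Fk₁ := Fk₁) (Fk₂ := Fk₂) n)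
    (e₁ : ι → ↥C.Rb₁ →ₐ[k] k) (e₂ : ι → ↥C.Rb₂ →ₐ[k] k)
    (hE : Function.Surjective (S34B_E e₁ e₂))
    (Kum Triv : Set F) (hK1 : (1 : F) ∈ Kum) (hKmul : ∀ u ∈ Kum, ∀ v ∈ Kum, u * v ∈ Kum)
    (hKinv : ∀ u ∈ Kum, u⁻¹ ∈ Kum)
    (hex : ∀ u ∈ Kum ∩ S34K_Norm S₁ S₂, ∃ c : ι → k, S34K_W hS C u = S34B_glued e₁ e₂ c)
    (hinj : ∀ u ∈ Kum ∩ S34K_Norm S₁ S₂, S34K_W hS C u = S34B_glued e₁ e₂ (fun _ => 1) →
      u ∈ Triv)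
    (g : F →+* F) (hgK : ∀ u ∈ Kum, g u ∈ Kum)
    (hgO : ∀ f ∈ S34P_O2 S₁ S₂, g f ∈ S34P_O2 S₁ S₂) (hgB : ∀ f ∈ C.B, g f ∈ C.B)
    (q : ℕ) (θ : k ≃+* k) (hθ : ∀ x : k, θ x = x ^ q)
    (φ₁ : ↥C.Rb₁ →+* ↥C.Rb₁) (φ₂ : ↥C.Rb₂ →+* ↥C.Rb₂)
    (hφ₁ : ∀ c : k, φ₁ (algebraMap k ↥C.Rb₁ c) = algebraMap k ↥C.Rb₁ (θ c))
    (hφ₂ : ∀ c : k, φ₂ (algebraMap k ↥C.Rb₂ c) = algebraMap k ↥C.Rb₂ (θ c))
    (hred : ∀ (f : S34P_O2 S₁ S₂) (m : ↥C.Rb₁ × ↥C.Rb₂),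
      S34P_red S₁ S₂ f = ((m.1 : Fk₁), (m.2 : Fk₂)) →
      S34P_red S₁ S₂ ⟨g f, hgO f f.2⟩ = (((φ₁ m.1 : ↥C.Rb₁) : Fk₁), ((φ₂ m.2 : ↥C.Rb₂) : Fk₂)))
    (hA3 : ∀ b : ↥C.Rb₂, ((0 : ↥C.Rb₁), φ₂ (φ₂ b) - b ^ (q ^ 2)) ∈ S34K_W hS C 1)
    {u : F} (hu : u ∈ Kum) (h1 : S₁.O.valuation (u - 1) < 1)
    (h2 : S₂.O.valuation (u - 1) < 1) :
    g (g u) * (u ^ (q ^ 2))⁻¹ ∈ Triv := by
  let D := S34K_mkDatum hS C e₁ e₂ hE Kum Triv hK1 hKmul hKinv hex hinj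
  have hu' : u ∈ D.Kp := ⟨hu, S34K_mem_Norm_iff.2 ⟨h1, h2⟩⟩
  have hred1 : ∀ f : S34P_O2 S₁ S₂, S34P_red S₁ S₂ f = 1 →
      S34P_red S₁ S₂ ⟨g f, hgO f f.2⟩ = 1 := by
    intro f hf
    have := hred f 1 (by rw [hf]; rfl)
    rw [this]
    simp only [Prod.fst_one, Prod.snd_one, map_one]
    rfl
  refine S34K_Datum.sigma_sq_triv' (D := D) g (map_one g) θ q hθ φ₁ φ₂ hφ₁ hφ₂
    (fun v hv => ⟨hgK v hv.1, S34K_map_Norm g hgO hred1 hv.2⟩) (fun v _ m hm => ?_) hA3 hu'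
  exact S34K_map_W hS C g hgO hgB (fun m => (φ₁ m.1, φ₂ m.2)) hred hm

/-- restriction of a ring endomorphism of `Fk` to a stable subalgebra. -/
def S34K_restr {Fk : Type*} [Field Fk] [Algebra k Fk] (Rb : Subalgebra k Fk) (Φ : Fk →+* Fk)
    (h : ∀ a ∈ Rb, Φ a ∈ Rb) : ↥Rb →+* ↥Rb where
  toFun a := ⟨Φ a, h a a.2⟩
  map_one' := Subtype.ext (map_one Φ)
  map_mul' a b := Subtype.ext (map_mul Φ (a : Fk) (b : Fk))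
  map_zero' := Subtype.ext (map_zero Φ)
  map_add' a b := Subtype.ext (map_add Φ (a : Fk) (b : Fk))

@[simp] theorem S34K_restr_coe {Fk : Type*} [Field Fk] [Algebra k Fk] (Rb : Subalgebra k Fk)
    (Φ : Fk →+* Fk) (h : ∀ a ∈ Rb, Φ a ∈ Rb) (a : ↥Rb) :
    ((S34K_restr Rb Φ h a : ↥Rb) : Fk) = Φ a := rfl

/-- **(K-sig2) at one place**, with the action of the Frobenius lift given on the residue
fields: `red_i (g f) = Φ_i (red_i f)`, `Φ_i` `θ`-semilinear (coefficientwise Frobenius),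
`Φ_i Rb_i ⊂ Rb_i`; (A3): `(0, Φ₂ (Φ₂ b) - b ^ (q²))` is the reduction of a function of `B ∩ O₂`
for every `b ∈ Rb₂`. -/
theorem S34K_sig2_place' {n : ℕ} {ι : Type*} [Finite ι]
    (C : S34K_Chart (L := L) (F := F) (k := k) (Fk₁ := Fk₁) (Fk₂ := Fk₂) n)
    (e₁ : ι → ↥C.Rb₁ →ₐ[k] k) (e₂ : ι → ↥C.Rb₂ →ₐ[k] k)
    (hE : Function.Surjective (S34B_E e₁ e₂))
    (Kum Triv : Set F) (hK1 : (1 : F) ∈ Kum) (hKmul : ∀ u ∈ Kum, ∀ v ∈ Kum, u * v ∈ Kum)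
    (hKinv : ∀ u ∈ Kum, u⁻¹ ∈ Kum)
    (hex : ∀ u ∈ Kum ∩ S34K_Norm S₁ S₂, ∃ c : ι → k, S34K_W hS C u = S34B_glued e₁ e₂ c)
    (hinj : ∀ u ∈ Kum ∩ S34K_Norm S₁ S₂, S34K_W hS C u = S34B_glued e₁ e₂ (fun _ => 1) →
      u ∈ Triv)
    (g : F →+* F) (hgK : ∀ u ∈ Kum, g u ∈ Kum)
    (hgO₁ : ∀ f ∈ S₁.O, g f ∈ S₁.O) (hgO₂ : ∀ f ∈ S₂.O, g f ∈ S₂.O)
    (hgB : ∀ f ∈ C.B, g f ∈ C.B)
    (q : ℕ) (θ : k ≃+* k) (hθ : ∀ x : k, θ x = x ^ q)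
    (Φ₁ : Fk₁ →+* Fk₁) (Φ₂ : Fk₂ →+* Fk₂)
    (hΦ₁ : ∀ c : k, Φ₁ (algebraMap k Fk₁ c) = algebraMap k Fk₁ (θ c))
    (hΦ₂ : ∀ c : k, Φ₂ (algebraMap k Fk₂ c) = algebraMap k Fk₂ (θ c))
    (hΦRb₁ : ∀ a ∈ C.Rb₁, Φ₁ a ∈ C.Rb₁) (hΦRb₂ : ∀ a ∈ C.Rb₂, Φ₂ a ∈ C.Rb₂)
    (hred₁ : ∀ f : S₁.O, S₁.red ⟨g f, hgO₁ f f.2⟩ = Φ₁ (S₁.red f))
    (hred₂ : ∀ f : S₂.O, S₂.red ⟨g f, hgO₂ f f.2⟩ = Φ₂ (S₂.red f))
    (hA3 : ∀ b ∈ C.Rb₂, ∃ f : S34P_O2 S₁ S₂, (f : F) ∈ C.B ∧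
      S34P_red S₁ S₂ f = (0, Φ₂ (Φ₂ b) - b ^ (q ^ 2)))
    {u : F} (hu : u ∈ Kum) (h1 : S₁.O.valuation (u - 1) < 1)
    (h2 : S₂.O.valuation (u - 1) < 1) :
    g (g u) * (u ^ (q ^ 2))⁻¹ ∈ Triv := by
  have hgO : ∀ f ∈ S34P_O2 S₁ S₂, g f ∈ S34P_O2 S₁ S₂ :=
    fun f hf => ⟨hgO₁ f hf.1, hgO₂ f hf.2⟩
  refine S34K_sig2_place hS C e₁ e₂ hE Kum Triv hK1 hKmul hKinv hex hinj g hgK hgO hgB q θ hθ
    (S34K_restr C.Rb₁ Φ₁ hΦRb₁) (S34K_restr C.Rb₂ Φ₂ hΦRb₂) ?_ ?_ ?_ ?_ hu h1 h2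
  · intro c
    exact Subtype.ext (hΦ₁ c)
  · intro c
    exact Subtype.ext (hΦ₂ c)
  · intro f m hfm
    apply Prod.ext
    · show S₁.red ⟨g f, _⟩ = Φ₁ (m.1 : Fk₁)
      have := hred₁ ⟨f, f.2.1⟩
      rw [this]
      exact congrArg Φ₁ (congrArg Prod.fst hfm)
    · show S₂.red ⟨g f, _⟩ = Φ₂ (m.2 : Fk₂)
      have := hred₂ ⟨f, f.2.2⟩
      rw [this]
      exact congrArg Φ₂ (congrArg Prod.snd hfm)
  · intro b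
    rw [S34K_mem_W_one]
    obtain ⟨f, hfB, hf⟩ := hA3 b b.2
    refine ⟨f, hfB, ?_⟩
    rw [hf]
    rfl

/-! ### The concrete form for `F = modularFunctionFieldBar L'` -/

section concrete

variable {L' : ℕ} {Fk₁' Fk₂' : Type*} [Field Fk₁'] [Field Fk₂'] [Algebra k Fk₁']
  [Algebra k Fk₂']
  {T₁ : S18_Val (AlgebraicClosure ℚ) ↥(modularFunctionFieldBar L') k Fk₁'}
  {T₂ : S18_Val (AlgebraicClosure ℚ) ↥(modularFunctionFieldBar L') k Fk₂'}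
  (hT : S34P_Same T₁ T₂)

/-- **(K-tau)** in the shape of `hK` of `S34D_uniK` (one place, one `n`, one `τ`):
`O₁ = T₁.O`, `O₂ = T₂.O`. -/
theorem S34K_hK_tau {n : ℕ} {ι : Type*}
    (C : S34K_Chart (L := AlgebraicClosure ℚ) (F := ↥(modularFunctionFieldBar L')) (k := k)
      (Fk₁ := Fk₁') (Fk₂ := Fk₂') n)
    (e₁ : ι → ↥C.Rb₁ →ₐ[k] k) (e₂ : ι → ↥C.Rb₂ →ₐ[k] k)
    (hE : Function.Surjective (S34B_E e₁ e₂))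
    (hex : ∀ u ∈ {u | KM_IsKum (AlgebraicClosure ℚ) ↥(modularFunctionFieldBar L') n u} ∩
      S34K_Norm T₁ T₂, ∃ c : ι → k, S34K_W hT C u = S34B_glued e₁ e₂ c)
    (hinj : ∀ u ∈ {u | KM_IsKum (AlgebraicClosure ℚ) ↥(modularFunctionFieldBar L') n u} ∩
      S34K_Norm T₁ T₂, S34K_W hT C u = S34B_glued e₁ e₂ (fun _ => 1) → GR_IsTriv L' n u)
    (τ : GQ)
    (hgalK : ∀ f : ↥(modularFunctionFieldBar L'),
      KM_IsKum (AlgebraicClosure ℚ) ↥(modularFunctionFieldBar L') n f →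
      KM_IsKum (AlgebraicClosure ℚ) ↥(modularFunctionFieldBar L') n (GR_gal L' τ f))
    (hgO₁ : ∀ f ∈ T₁.O, GR_gal L' τ f ∈ T₁.O) (hgO₂ : ∀ f ∈ T₂.O, GR_gal L' τ f ∈ T₂.O)
    (hgB : ∀ f ∈ C.B, GR_gal L' τ f ∈ C.B)
    (hred₁ : ∀ f : T₁.O, T₁.red ⟨GR_gal L' τ f, hgO₁ f f.2⟩ = T₁.red f)
    (hred₂ : ∀ f : T₂.O, T₂.red ⟨GR_gal L' τ f, hgO₂ f f.2⟩ = T₂.red f) :
    ∀ u : ↥(modularFunctionFieldBar L'),
      KM_IsKum (AlgebraicClosure ℚ) ↥(modularFunctionFieldBar L') n u →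
      T₁.O.valuation (u - 1) < 1 → T₂.O.valuation (u - 1) < 1 →
      GR_IsTriv L' n (GR_gal L' τ u * u⁻¹) := by
  intro u hu h1 h2
  exact S34K_tau_place hT C e₁ e₂ hE
    {u | KM_IsKum (AlgebraicClosure ℚ) ↥(modularFunctionFieldBar L') n u}
    {t | GR_IsTriv L' n t}
    ⟨one_ne_zero, fun v => by simp⟩ (fun _ hu _ hv => GRT_isKum_mul hu hv)
    (fun _ hu => GRT_isKum_inv hu) hex hinj (GR_gal L' τ).toRingHom hgalK hgO₁ hgO₂ hgB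
    hred₁ hred₂ hu h1 h2

/-- **(K-sig2)** in the shape of `hK` of `S34D_frob4K` (one place, one `n`, one Frobenius lift
`σ`): `O₁ = T₁.O`, `O₂ = T₂.O`. -/
theorem S34K_hK_sig2 {n : ℕ} {ι : Type*} [Finite ι]
    (C : S34K_Chart (L := AlgebraicClosure ℚ) (F := ↥(modularFunctionFieldBar L')) (k := k)
      (Fk₁ := Fk₁') (Fk₂ := Fk₂') n)
    (e₁ : ι → ↥C.Rb₁ →ₐ[k] k) (e₂ : ι → ↥C.Rb₂ →ₐ[k] k)
    (hE : Function.Surjective (S34B_E e₁ e₂))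
    (hex : ∀ u ∈ {u | KM_IsKum (AlgebraicClosure ℚ) ↥(modularFunctionFieldBar L') n u} ∩
      S34K_Norm T₁ T₂, ∃ c : ι → k, S34K_W hT C u = S34B_glued e₁ e₂ c)
    (hinj : ∀ u ∈ {u | KM_IsKum (AlgebraicClosure ℚ) ↥(modularFunctionFieldBar L') n u} ∩
      S34K_Norm T₁ T₂, S34K_W hT C u = S34B_glued e₁ e₂ (fun _ => 1) → GR_IsTriv L' n u)
    (σ : GQ)
    (hgalK : ∀ f : ↥(modularFunctionFieldBar L'),
      KM_IsKum (AlgebraicClosure ℚ) ↥(modularFunctionFieldBar L') n f →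
      KM_IsKum (AlgebraicClosure ℚ) ↥(modularFunctionFieldBar L') n (GR_gal L' σ f))
    (hgO₁ : ∀ f ∈ T₁.O, GR_gal L' σ f ∈ T₁.O) (hgO₂ : ∀ f ∈ T₂.O, GR_gal L' σ f ∈ T₂.O)
    (hgB : ∀ f ∈ C.B, GR_gal L' σ f ∈ C.B)
    (q : ℕ) (θ : k ≃+* k) (hθ : ∀ x : k, θ x = x ^ q)
    (Φ₁ : Fk₁' →+* Fk₁') (Φ₂ : Fk₂' →+* Fk₂')
    (hΦ₁ : ∀ c : k, Φ₁ (algebraMap k Fk₁' c) = algebraMap k Fk₁' (θ c))
    (hΦ₂ : ∀ c : k, Φ₂ (algebraMap k Fk₂' c) = algebraMap k Fk₂' (θ c))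
    (hΦRb₁ : ∀ a ∈ C.Rb₁, Φ₁ a ∈ C.Rb₁) (hΦRb₂ : ∀ a ∈ C.Rb₂, Φ₂ a ∈ C.Rb₂)
    (hred₁ : ∀ f : T₁.O, T₁.red ⟨GR_gal L' σ f, hgO₁ f f.2⟩ = Φ₁ (T₁.red f))
    (hred₂ : ∀ f : T₂.O, T₂.red ⟨GR_gal L' σ f, hgO₂ f f.2⟩ = Φ₂ (T₂.red f))
    (hA3 : ∀ b ∈ C.Rb₂, ∃ f : S34P_O2 T₁ T₂, (f : ↥(modularFunctionFieldBar L')) ∈ C.B ∧
      S34P_red T₁ T₂ f = (0, Φ₂ (Φ₂ b) - b ^ (q ^ 2))) :
    ∀ u : ↥(modularFunctionFieldBar L'),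
      KM_IsKum (AlgebraicClosure ℚ) ↥(modularFunctionFieldBar L') n u →
      T₁.O.valuation (u - 1) < 1 → T₂.O.valuation (u - 1) < 1 →
      GR_IsTriv L' n (GR_gal L' σ (GR_gal L' σ u) * (u ^ (q ^ 2))⁻¹) := by
  intro u hu h1 h2
  exact S34K_sig2_place' hT C e₁ e₂ hE
    {u | KM_IsKum (AlgebraicClosure ℚ) ↥(modularFunctionFieldBar L') n u}
    {t | GR_IsTriv L' n t}
    ⟨one_ne_zero, fun v => by simp⟩ (fun _ hu _ hv => GRT_isKum_mul hu hv)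
    (fun _ hu => GRT_isKum_inv hu) hex hinj (GR_gal L' σ).toRingHom hgalK hgO₁ hgO₂ hgB
    q θ hθ Φ₁ Φ₂ hΦ₁ hΦ₂ hΦRb₁ hΦRb₂ hred₁ hred₂ hA3 hu h1 h2

end concrete

end Fermat.Agent.S34
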