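import Fermat.Agent.S34.SatLC
import Fermat.Agent.S34.Pole3

/-!
# TRACK 7 (S34 + S35), package SAT (helper9): the chain of the chart `U`

Abstract assembly, in the language of POLE (`S34/Pole*.lean`): a pair of valuation data `S₁ S₂` on
`F` with the same residue function field `Fk`, a chart function `x ∈ O₂` with
`red x = (x̄, x̄ ^ q)`.

* `S34S_chainU` : from POLE (`S34P_Hyp`, the lattice count, `hdeg`) and the two families
  (`hα`: lifts of `(u, *)`, `hξ`: lifts of `(0, ξ ^ a g)`) the filtration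
  `Wf m = red (L(m (x)_∞) ∩ O₂) ⊆ Rf m = L(m (x̄)_∞) × L(m (x̄ ^ q)_∞)` is an `S34S_Chain`
  with `s = g_F + 1 - 2 g_{Fk}`; hence (`S34S_Chain.finrank_quot`) `codim (W_U ⊂ R̄_U) = s`.
* `S34S_families` : the two families from the level `M`: degeneracy maps `α β : F_M → F`,
  `red (α f) = (f̄, Fr f̄)`, `red (β f) = (Fr f̄, f̄)`, filtered ONTO at level `M`, and the pole
  bookkeeping (T-POLE: `S34S_map_mem`, `S34S_Xa_mul_mem` of `S34/SatPole.lean`).
-/

set_option autoImplicit false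

open AlgebraicCurve WithZero

namespace Fermat.Agent.S34

open Fermat.Agent.Lib Fermat.Agent.S24 Fermat.Agent.S18

variable {L F k Fk : Type*} [Field L] [Field F] [Algebra L F] [Field k] [Field Fk]
  [Algebra k Fk]

theorem S34S_E_zero (hP : HasPrincipalDivisors L F) (x z : F) (a : ℕ) :
    S34P_E hP x z a 0 + 0 = a • RR_poleDiv hP x := by
  unfold S34P_E
  simp

theorem S34S_Rbar_zero (hP : HasPrincipalDivisors k Fk) (xb z₁ z₂ : Fk) (q m : ℕ) :
    S34P_Rbar hP hP xb z₁ (xb ^ q) z₂ m 0 = S34S_Rf hP xb q m := by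
  unfold S34P_Rbar S34S_Rf S34P_E
  simp

/-- **the chain of the chart `U`.** -/
theorem S34S_chainU (S₁ S₂ : S18_Val L F k Fk) (hS : S34P_Same S₁ S₂) (x : S34P_O2 S₁ S₂)
    (hH : S34P_Hyp S₁ S₂ hS x)
    (hcount : ∀ V : Submodule L F, FiniteDimensional L V →
      Module.finrank k (S34P_redSub S₁ S₂ hS V) = Module.finrank L V)
    (hF : RR_Hyp L F) (hk : RR_Hyp k Fk)
    (xb : Fk) (q : ℕ) (hq : 2 ≤ q) (hred : S34P_red S₁ S₂ x = (xb, xb ^ q))
    (hxb : ∃ v : Place k Fk, v.ord xb < 0)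
    (hdeg : (RR_poleDiv hk.principal xb).degree + (RR_poleDiv hk.principal (xb ^ q)).degree =
      (RR_poleDiv hF.principal (x : F)).degree)
    (hα : ∃ r₀ : ℕ, ∀ m, r₀ ≤ m → ∀ u ∈ riemannRochSpace (m • RR_poleDiv hk.principal xb),
      ∃ f : S34P_O2 S₁ S₂, (f : F) ∈ riemannRochSpace (m • RR_poleDiv hF.principal (x : F)) ∧
        (S34P_red S₁ S₂ f).1 = u)
    (hξ : ∃ C t₀ : ℕ, ∀ a t : ℕ, t₀ ≤ t → C * (t + 1) ≤ a →
      ∀ g ∈ riemannRochSpace ((q * (t + 1)) • RR_poleDiv hk.principal xb),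
        ∃ f : S34P_O2 S₁ S₂,
          (f : F) ∈ riemannRochSpace ((a * q + t + 1) • RR_poleDiv hF.principal (x : F)) ∧
          S34P_red S₁ S₂ f = ((0 : Fk), (xb ^ (q ^ 2) - xb) ^ a * g)) :
    ∃ m₀ s : ℕ, (s : ℤ) = (RR_genus L F : ℤ) + 1 - 2 * RR_genus k Fk ∧
      S34S_Chain
        (fun m => S34P_redSub S₁ S₂ hS (riemannRochSpace (m • RR_poleDiv hF.principal (x : F))))
        (S34S_Rf hk.principal xb q) s m₀ := by
  classical
  set Wf : ℕ → Submodule k (Fk × Fk) :=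
    fun m => S34P_redSub S₁ S₂ hS (riemannRochSpace (m • RR_poleDiv hF.principal (x : F)))
    with hWf
  have hx1 : (S34P_red S₁ S₂ x).1 = xb := by rw [hred]
  have hx2 : (S34P_red S₁ S₂ x).2 = xb ^ q := by rw [hred]
  -- POLE-1
  have hle : ∀ m, Wf m ≤ S34S_Rf hk.principal xb q m := by
    intro m
    have := S34P_redSub_le hH hF.principal hk.principal hk.principal m
    rw [hx1, hx2] at this
    exact this
  -- monotonicity
  have hmonoD : ∀ {m m' : ℕ}, m ≤ m' →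
      m • RR_poleDiv hF.principal (x : F) ≤ m' • RR_poleDiv hF.principal (x : F) := by
    intro m m' hmm'
    rw [Finsupp.le_def]
    intro v
    rw [S34S_nsmul_apply, S34S_nsmul_apply]
    have h0 : 0 ≤ RR_poleDiv hF.principal (x : F) v := by
      rw [RR_poleDiv_apply]; exact le_max_right _ _
    exact mul_le_mul_of_nonneg_right (by exact_mod_cast hmm') h0
  have hmonoW : Monotone Wf := fun m m' hmm' =>
    S34P_redSub_mono S₁ S₂ hS (RR_mono (hmonoD hmm'))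
  -- the count
  have hd₁ : 0 < (RR_poleDiv hk.principal xb).degree := by
    obtain ⟨v, hv⟩ := hxb
    exact RR_poleDiv_degree_pos hk.deg_one hk.principal v hv
  have hd₂ : 0 < (RR_poleDiv hk.principal (xb ^ q)).degree := by
    rw [S34S_poleDiv_pow, map_nsmul, nsmul_eq_mul]
    have : (0 : ℤ) < (q : ℤ) := by exact_mod_cast (by omega : 0 < q)
    positivity
  have hcount' : ∀ V : Submodule L F, FiniteDimensional L V →
      Module.finrank k ((S34P_lat hS).redSub V) = Module.finrank L V := by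
    intro V hV
    rw [S34P_lat_redSub]
    exact hcount V hV
  obtain ⟨m₁, hm₁⟩ := S34P_codim (S34P_lat hS) hcount' hF hk hk (x : F) 1 xb 1 (xb ^ q) 1 0
    (map_zero _) hd₁ hd₂ hdeg
  have hcnt : ∀ m, m₁ ≤ m → (Module.finrank k (S34S_Rf hk.principal xb q m) : ℤ) =
      Module.finrank k (Wf m) + ((RR_genus L F : ℤ) + 1 - RR_genus k Fk - RR_genus k Fk) := by
    intro m hm
    have := hm₁ m 0 (by omega)
    rw [S34S_E_zero, S34S_Rbar_zero, S34P_lat_redSub] at this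
    exact this
  -- the families
  have hα' : ∃ r₀ : ℕ, ∀ m, r₀ ≤ m → ∀ u ∈ riemannRochSpace (m • RR_poleDiv hk.principal xb),
      ∃ v : Fk, (u, v) ∈ Wf m := by
    obtain ⟨r₀, hr₀⟩ := hα
    refine ⟨r₀, fun m hm u hu => ?_⟩
    obtain ⟨f, hf, hfu⟩ := hr₀ m hm u hu
    refine ⟨(S34P_red S₁ S₂ f).2, ?_⟩
    rw [hWf]
    refine (S34P_mem_redSub S₁ S₂ hS).2 ⟨f, hf, ?_⟩
    rw [← hfu]
  have hξ' : ∃ C t₀ : ℕ, ∀ a t : ℕ, t₀ ≤ t → C * (t + 1) ≤ a →
      ∀ g ∈ riemannRochSpace ((q * (t + 1)) • RR_poleDiv hk.principal xb),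
        ((0 : Fk), (xb ^ (q ^ 2) - xb) ^ a * g) ∈ Wf (a * q + t + 1) := by
    obtain ⟨C, t₀, h⟩ := hξ
    refine ⟨C, t₀, fun a t ht hCa g hg => ?_⟩
    obtain ⟨f, hf, hfr⟩ := h a t ht hCa g hg
    rw [hWf]
    exact (S34P_mem_redSub S₁ S₂ hS).2 ⟨f, hf, hfr⟩
  obtain ⟨m₂, hm₂⟩ := S34S_lc hk xb hxb q hq Wf hle hα' hξ'
  -- the codimension as a natural number
  set m₀ : ℕ := max m₁ m₂ with hm₀
  have hfin : ∀ m, FiniteDimensional k (S34S_Rf hk.principal xb q m) :=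
    fun m => S34S_Rf_finite hk xb q m
  have hWR : Module.finrank k (Wf m₀) ≤ Module.finrank k (S34S_Rf hk.principal xb q m₀) := by
    have := hfin m₀
    exact Submodule.finrank_mono (hle m₀)
  set s : ℕ := Module.finrank k (S34S_Rf hk.principal xb q m₀) - Module.finrank k (Wf m₀) with hs
  have hsZ : (s : ℤ) = (RR_genus L F : ℤ) + 1 - 2 * RR_genus k Fk := by
    have h1 := hcnt m₀ (le_max_left _ _)
    have h2 : (s : ℤ) = (Module.finrank k (S34S_Rf hk.principal xb q m₀) : ℤ) -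
        Module.finrank k (Wf m₀) := by
      rw [hs]; push_cast [Nat.cast_sub hWR]; ring
    rw [h2, h1]; ring
  refine ⟨m₀, s, hsZ, ?_⟩
  refine
    { monoW := hmonoW
      monoR := S34S_Rf_mono hk.principal xb q
      le := hle
      fin := hfin
      count := ?_
      lc := ?_ }
  · intro m hm
    have h1 := hcnt m ((le_max_left _ _).trans hm)
    have : (Module.finrank k (S34S_Rf hk.principal xb q m) : ℤ) =
        ((Module.finrank k (Wf m) + s : ℕ) : ℤ) := by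
      push_cast
      rw [h1, hsZ]; ring
    exact_mod_cast this
  · intro m hm
    exact hm₂ m ((le_max_right _ _).trans hm)

/-- **the two families** from the level `M`. -/
theorem S34S_families {FM : Type*} [Field FM] [Algebra L FM]
    (S₁ S₂ : S18_Val L F k Fk) (x : S34P_O2 S₁ S₂)
    (hF : HasPrincipalDivisors L F) (hFM : HasPrincipalDivisors L FM)
    (hk : HasPrincipalDivisors k Fk)
    (SM : S18_Val L FM k Fk) (xM : SM.O) (α β : FM →ₐ[L] F) (Fr : Fk →+* Fk)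
    (xb : Fk) (q : ℕ) (hq : 2 ≤ q) (hxM : SM.red xM = xb) (hFr : Fr xb = xb ^ q)
    (hred : S34P_red S₁ S₂ x = (xb, xb ^ q))
    (hαx : α (xM : FM) = (x : F))
    (hαO : ∀ f : SM.O, ∃ hf : α (f : FM) ∈ S34P_O2 S₁ S₂,
      S34P_red S₁ S₂ ⟨α (f : FM), hf⟩ = (SM.red f, Fr (SM.red f)))
    (hβO : ∀ f : SM.O, ∃ hf : β (f : FM) ∈ S34P_O2 S₁ S₂,
      S34P_red S₁ S₂ ⟨β (f : FM), hf⟩ = (Fr (SM.red f), SM.red f))
    (honto : ∃ r₀ : ℕ, ∀ r, r₀ ≤ r → ∀ y ∈ riemannRochSpace (r • RR_poleDiv hk xb),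
      ∃ f : SM.O, (f : FM) ∈ riemannRochSpace (r • RR_poleDiv hFM (xM : FM)) ∧ SM.red f = y)
    (hmapα : ∀ (r : ℕ) (f : FM), f ∈ riemannRochSpace (r • RR_poleDiv hFM (xM : FM)) →
      α f ∈ riemannRochSpace (r • RR_poleDiv hF (α (xM : FM))))
    (hmapβ : ∀ (r : ℕ) (f : FM), f ∈ riemannRochSpace (r • RR_poleDiv hFM (xM : FM)) →
      β f ∈ riemannRochSpace (r • RR_poleDiv hF (β (xM : FM))))
    (hXa : ∃ C : ℕ, ∀ a t : ℕ, C * (t + 1) ≤ a →
      ∀ g ∈ riemannRochSpace ((q * (t + 1)) • RR_poleDiv hF (β (xM : FM))),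
        ((x : F) ^ q - β (xM : FM)) ^ a * g ∈
          riemannRochSpace ((a * q + t + 1) • RR_poleDiv hF (x : F))) :
    (∃ r₀ : ℕ, ∀ m, r₀ ≤ m → ∀ u ∈ riemannRochSpace (m • RR_poleDiv hk xb),
      ∃ f : S34P_O2 S₁ S₂, (f : F) ∈ riemannRochSpace (m • RR_poleDiv hF (x : F)) ∧
        (S34P_red S₁ S₂ f).1 = u) ∧
    (∃ C t₀ : ℕ, ∀ a t : ℕ, t₀ ≤ t → C * (t + 1) ≤ a →
      ∀ g ∈ riemannRochSpace ((q * (t + 1)) • RR_poleDiv hk xb),
        ∃ f : S34P_O2 S₁ S₂,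
          (f : F) ∈ riemannRochSpace ((a * q + t + 1) • RR_poleDiv hF (x : F)) ∧
          S34P_red S₁ S₂ f = ((0 : Fk), (xb ^ (q ^ 2) - xb) ^ a * g)) := by
  obtain ⟨r₀, honto⟩ := honto
  obtain ⟨C, hXa⟩ := hXa
  constructor
  · refine ⟨r₀, fun m hm u hu => ?_⟩
    obtain ⟨f, hf, hfu⟩ := honto m hm u hu
    obtain ⟨hfO, hfr⟩ := hαO f
    refine ⟨⟨α (f : FM), hfO⟩, ?_, ?_⟩
    · have := hmapα m (f : FM) hf
      rw [hαx] at this
      exact this
    · rw [hfr, hfu]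
  · refine ⟨C + 1, r₀, fun a t ht hCa g hg => ?_⟩
    have hr : r₀ ≤ q * (t + 1) :=
      calc r₀ ≤ t := ht
        _ ≤ t + 1 := Nat.le_succ t
        _ = 1 * (t + 1) := (one_mul _).symm
        _ ≤ q * (t + 1) := Nat.mul_le_mul_right _ (by omega)
    have ha1 : 1 ≤ a := by
      have : (C + 1) * (t + 1) ≤ a := hCa
      nlinarith
    have hCa' : C * (t + 1) ≤ a := by
      have : (C + 1) * (t + 1) ≤ a := hCa
      nlinarith
    obtain ⟨f, hf, hfg⟩ := honto _ hr g hg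
    obtain ⟨hfO, hfr⟩ := hβO f
    obtain ⟨hyO, hyr⟩ := hβO xM
    set X : S34P_O2 S₁ S₂ := x ^ q - ⟨β (xM : FM), hyO⟩ with hX
    refine ⟨X ^ a * ⟨β (f : FM), hfO⟩, ?_, ?_⟩
    · have := hXa a t hCa' (β (f : FM)) (hmapβ _ _ hf)
      exact this
    · rw [map_mul, map_pow, hfr, hfg, hX, map_sub, map_pow, hyr, hxM, hFr, hred]
      apply Prod.ext
      · simp only [Prod.fst_mul, Prod.pow_fst, Prod.fst_sub, sub_self]
        rw [zero_pow (by omega), zero_mul]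
      · simp only [Prod.snd_mul, Prod.pow_snd, Prod.snd_sub]
        rw [← pow_mul, ← pow_two]

end Fermat.Agent.S34
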