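import Fermat.Agent.S34.Count
import Fermat.Agent.S34.SatU
import Fermat.Agent.S24.GlobalA

/-!
# TRACK 7 (S34 + S35), package SAT, (BRIDGE-U) concrete: the chart of a function (helper14)

`S34/Count.lean` (helper16) turns the filtered counts of POLE / SAT into the codimension statements
that NODALG / KACT consume, for an ABSTRACT chart `C : S34K_Chart n` and four exhaustion hypotheses
`hRf_le`, `hRf_ex`, `hVf_le`, `hVf_ex`.  This file supplies the CONCRETE chart and proves the four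
hypotheses (and the chart inputs `hX`, `hloc`, `h2` of `S34/Chart.lean`).

One function field `F/K` with principal divisors `hP`:

* `S34SB_regOff K T`    : the functions regular off a set `T` of places (a root-closed subalgebra);
  `S34SB_RR_le_regOff`, `S34SB_regOff_ex` (exhaustion by `L(Ef m)`), `S34SB_twist_mem`.
* `S34SB_reg K x`       : the functions regular off the poles of `x` (chart `U`):
  `S34SB_mem_reg_iff_exists : f ∈ reg x ↔ ∃ m, f ∈ L(m·(x)_∞)`, `S34SB_reg_pow`, `S34SB_reg_root`.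
* `S34SB_regZ K z`, `S34SB_reg2 K x z` : charts `U' = {x ≠ c}` and `U'' = U ∩ U'`, with the levels
  `E(a,b) = a·(x)_∞ + b·(x − c)₀` of POLE: `S34SB_E_le_reg/regZ/reg2`, `S34SB_reg_ex_E`,
  `S34SB_regZ_ex`, `S34SB_reg2_ex`, `S34SB_clear` (`hX`), `S34SB_clear_twist` (`hloc`),
  `S34SB_mem_reg2_iff` (`reg2 = reg[1/(x − c)]`), `S34SB_inv_clear` (`h2` of `delta_chart`).

A pair of valuation data `S₁, S₂`:

* `S34SB_chart L k x x₁ x₂ n hn : S34K_Chart n`  (`B = reg x`, `Rbᵢ = reg xᵢ`);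
* `S34SB_hRf_le`, `S34SB_hRf_ex`, `S34SB_hVf_le`, `S34SB_hVf_ex`, `S34SB_hVf_le_twist`;
* `S34SB_one`     : chain of chart `U` ⇒ `Module.Finite ∧ finrank ((Rb₁ × Rb₂) ⧸ W^1) = s`;
* `S34SB_hcount`  : the input of `S34K_hex_of_count` for a twisted module `W^u`;
* `S34SB_one_frob`, `S34SB_codimU` : the same fed with SAT's chain `S34S_chainU`
  (`x₁ = x̄`, `x₂ = x̄^q`, `s = g_F + 1 − 2 g_k`).

Prefix `S34SB_`.
-/

set_option autoImplicit false
set_option linter.unusedSectionVars false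

open AlgebraicCurve

namespace Fermat.Agent.S34

open Fermat.Agent.Lib Fermat.Agent.S24 Fermat.Agent.S18

section regOff

variable {K F : Type*} [Field K] [Field F] [Algebra K F]

/-- the functions regular off the set `T` of places. -/
def S34SB_regOff (K : Type*) {F : Type*} [Field K] [Field F] [Algebra K F]
    (T : Set (Place K F)) : Subalgebra K F where
  carrier := {y | ∀ Q : Place K F, Q ∉ T → y ∈ Q.toValuationSubring}
  mul_mem' := fun ha hb Q hQ => (Q.toValuationSubring).mul_mem _ _ (ha Q hQ) (hb Q hQ)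
  add_mem' := fun ha hb Q hQ => (Q.toValuationSubring).add_mem _ _ (ha Q hQ) (hb Q hQ)
  algebraMap_mem' := fun r Q _ => Q.algebraMap_mem' r

theorem S34SB_mem_regOff {T : Set (Place K F)} {y : F} :
    y ∈ S34SB_regOff K T ↔ ∀ Q : Place K F, Q ∉ T → y ∈ Q.toValuationSubring := Iff.rfl

theorem S34SB_mem_regOff_iff {T : Set (Place K F)} {y : F} (hy : y ≠ 0) :
    y ∈ S34SB_regOff K T ↔ ∀ Q : Place K F, Q ∉ T → 0 ≤ Q.ord y := by
  rw [S34SB_mem_regOff]
  exact forall_congr' fun Q => imp_congr_right fun _ => BG_mem_iff_ord_nonneg Q hy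

theorem S34SB_regOff_mono {T T' : Set (Place K F)} (h : T ⊆ T') :
    S34SB_regOff K T ≤ S34SB_regOff K T' :=
  fun _ hy Q hQ => hy Q (fun hQT => hQ (h hQT))

/-- `regOff T` is root closed (valuation rings are integrally closed). -/
theorem S34SB_regOff_root (T : Set (Place K F)) {n : ℕ} (hn : 0 < n) (f : F)
    (hf : f ^ n ∈ S34SB_regOff K T) : f ∈ S34SB_regOff K T := by
  by_cases hf0 : f = 0
  · rw [hf0]; exact (S34SB_regOff K T).zero_mem
  have hfn : f ^ n ≠ 0 := pow_ne_zero _ hf0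
  rw [S34SB_mem_regOff_iff hfn] at hf
  rw [S34SB_mem_regOff_iff hf0]
  intro Q hQ
  have h := hf Q hQ
  rw [← zpow_natCast, Q.ord_zpow] at h
  have hn' : (0 : ℤ) < n := by exact_mod_cast hn
  by_contra hneg
  rw [not_le] at hneg
  have : (n : ℤ) * Q.ord f < 0 := mul_neg_of_pos_of_neg hn' hneg
  omega

/-- `L(E) ⊆ regOff T` if `E ≤ 0` off `T`. -/
theorem S34SB_RR_le_regOff (T : Set (Place K F)) (E : Divisor K F)
    (hE : ∀ Q : Place K F, Q ∉ T → E Q ≤ 0) {f : F} (hf : f ∈ riemannRochSpace E) :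
    f ∈ S34SB_regOff K T := by
  by_cases hf0 : f = 0
  · rw [hf0]; exact (S34SB_regOff K T).zero_mem
  rw [S34SB_mem_regOff_iff hf0]
  intro Q hQ
  rcases mem_riemannRochSpace_iff.mp hf Q with h | h
  · exact absurd h hf0
  · have := hE Q hQ
    omega

/-- exhaustion: a function regular off `T` lies in `L(Ef m)` for some `m`, if `Ef m ≥ 0`
everywhere and `Ef m ≥ m` on `T`. -/
theorem S34SB_regOff_ex (hP : HasPrincipalDivisors K F) (T : Set (Place K F))
    (Ef : ℕ → Divisor K F) (hE0 : ∀ (m : ℕ) (Q : Place K F), 0 ≤ Ef m Q)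
    (hET : ∀ (m : ℕ) (Q : Place K F), Q ∈ T → (m : ℤ) ≤ Ef m Q) {f : F}
    (hf : f ∈ S34SB_regOff K T) : ∃ m₀ : ℕ, ∀ m, m₀ ≤ m → f ∈ riemannRochSpace (Ef m) := by
  by_cases hf0 : f = 0
  · exact ⟨0, fun m _ => by rw [hf0]; exact (riemannRochSpace (Ef m)).zero_mem⟩
  rw [S34SB_mem_regOff_iff hf0] at hf
  -- bound of the pole orders of `f`
  refine ⟨((RR_div hP f).support.sum fun Q => (Q.ord f).natAbs), fun m hm => ?_⟩
  rw [mem_riemannRochSpace_iff]
  intro Q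
  right
  by_cases hQ : Q ∈ T
  · have h1 := hET m Q hQ
    by_cases hQs : Q ∈ (RR_div hP f).support
    · have h2 : (Q.ord f).natAbs ≤ (RR_div hP f).support.sum fun Q => (Q.ord f).natAbs :=
        Finset.single_le_sum (f := fun Q : Place K F => (Q.ord f).natAbs)
          (fun _ _ => Nat.zero_le _) hQs
      have h3 : ((Q.ord f).natAbs : ℤ) ≤ m := by exact_mod_cast h2.trans hm
      omega
    · rw [Finsupp.mem_support_iff, not_not, RR_div_apply] at hQs
      rw [hQs]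
      have := hE0 m Q
      omega
  · have h1 := hf Q hQ
    have h2 := hE0 m Q
    omega

end regOff

/-! ### The chart of a function `x`: `U = {x ≠ ∞}` -/

section fn

variable {K F : Type*} [Field K] [Field F] [Algebra K F]

/-- the poles of `x`. -/
def S34SB_poles (K : Type*) {F : Type*} [Field K] [Field F] [Algebra K F] (x : F) :
    Set (Place K F) := {Q | Q.ord x < 0}

/-- the zeros of `z`. -/
def S34SB_zeros (K : Type*) {F : Type*} [Field K] [Field F] [Algebra K F] (z : F) :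
    Set (Place K F) := {Q | 0 < Q.ord z}

theorem S34SB_mem_poles {x : F} {Q : Place K F} : Q ∈ S34SB_poles K x ↔ Q.ord x < 0 := Iff.rfl

theorem S34SB_mem_zeros {z : F} {Q : Place K F} : Q ∈ S34SB_zeros K z ↔ 0 < Q.ord z := Iff.rfl

/-- the functions regular off the poles of `x` (the coordinate ring of the chart `x ≠ ∞`). -/
def S34SB_reg (K : Type*) {F : Type*} [Field K] [Field F] [Algebra K F] (x : F) :
    Subalgebra K F := S34SB_regOff K (S34SB_poles K x)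

theorem S34SB_mem_reg {x y : F} :
    y ∈ S34SB_reg K x ↔ ∀ Q : Place K F, 0 ≤ Q.ord x → y ∈ Q.toValuationSubring := by
  unfold S34SB_reg
  rw [S34SB_mem_regOff]
  exact forall_congr' fun Q => by rw [S34SB_mem_poles, not_lt]

theorem S34SB_mem_reg_iff {x y : F} (hy : y ≠ 0) :
    y ∈ S34SB_reg K x ↔ ∀ Q : Place K F, 0 ≤ Q.ord x → 0 ≤ Q.ord y := by
  rw [S34SB_mem_reg]
  exact forall_congr' fun Q => imp_congr_right fun _ => BG_mem_iff_ord_nonneg Q hy

theorem S34SB_reg_root (x : F) {n : ℕ} (hn : 0 < n) (f : F) (hf : f ^ n ∈ S34SB_reg K x) :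
    f ∈ S34SB_reg K x :=
  S34SB_regOff_root _ hn f hf

theorem S34SB_self_mem_reg (x : F) : x ∈ S34SB_reg K x := by
  by_cases hx : x = 0
  · rw [hx]; exact (S34SB_reg K (0 : F)).zero_mem
  · rw [S34SB_mem_reg_iff hx]
    exact fun _ h => h

theorem S34SB_sub_const_mem_reg (x : F) (c : K) : x - algebraMap K F c ∈ S34SB_reg K x :=
  (S34SB_reg K x).sub_mem (S34SB_self_mem_reg x) ((S34SB_reg K x).algebraMap_mem c)

theorem S34SB_poles_pow (x : F) {q : ℕ} (hq : 0 < q) :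
    S34SB_poles K (x ^ q) = S34SB_poles K x := by
  ext Q
  rw [S34SB_mem_poles, S34SB_mem_poles, ← zpow_natCast, Q.ord_zpow]
  have hq' : (0 : ℤ) < q := by exact_mod_cast hq
  constructor
  · intro h
    by_contra hn
    rw [not_lt] at hn
    have := mul_nonneg hq'.le hn
    omega
  · intro h
    exact mul_neg_of_pos_of_neg hq' h

theorem S34SB_reg_pow (x : F) {q : ℕ} (hq : 0 < q) : S34SB_reg K (x ^ q) = S34SB_reg K x := by
  unfold S34SB_reg
  rw [S34SB_poles_pow x hq]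

theorem S34SB_poles_sub_const (x : F) (c : K) :
    S34SB_poles K (x - algebraMap K F c) = S34SB_poles K x := by
  ext Q
  rw [S34SB_mem_poles, S34SB_mem_poles]
  constructor
  · intro h
    by_contra hn
    rw [not_lt] at hn
    have := LC_ord_sub_const_nonneg Q hn c
    omega
  · intro h
    rw [LC_ord_sub_const_of_neg Q h c]
    exact h

variable (hP : HasPrincipalDivisors K F)

/-- the levels of the chart `U`: `E(a, 0) = a·(x)_∞`. -/
theorem S34SB_E_zero (x z : F) (a : ℕ) : S34P_E hP x z a 0 = a • RR_poleDiv hP x := by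
  unfold S34P_E
  rw [zero_smul, add_zero, add_zero]

theorem S34SB_nsmul_poleDiv_apply (x : F) (m : ℕ) (Q : Place K F) :
    (m • RR_poleDiv hP x) Q = (m : ℤ) * max (-Q.ord x) 0 := by
  rw [S18_semi_nsmul_apply, RR_poleDiv_apply]

/-- `L(m·(x)_∞) ⊆ reg x`. -/
theorem S34SB_RR_le_reg (x : F) (m : ℕ) {f : F}
    (hf : f ∈ riemannRochSpace (m • RR_poleDiv hP x)) : f ∈ S34SB_reg K x := by
  refine S34SB_RR_le_regOff _ _ (fun Q hQ => ?_) hf
  rw [S34SB_mem_poles, not_lt] at hQ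
  rw [S34SB_nsmul_poleDiv_apply, max_eq_right (by omega), mul_zero]

/-- exhaustion of the chart `U`: `reg x = ⋃ L(m·(x)_∞)`. -/
theorem S34SB_reg_ex (x : F) {f : F} (hf : f ∈ S34SB_reg K x) :
    ∃ m₀ : ℕ, ∀ m, m₀ ≤ m → f ∈ riemannRochSpace (m • RR_poleDiv hP x) := by
  refine S34SB_regOff_ex hP _ (fun m => m • RR_poleDiv hP x) (fun m Q => ?_) (fun m Q hQ => ?_) hf
  · rw [S34SB_nsmul_poleDiv_apply]
    exact mul_nonneg (by positivity) (le_max_right _ _)
  · rw [S34SB_mem_poles] at hQ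
    rw [S34SB_nsmul_poleDiv_apply, max_eq_left (by omega)]
    have h1 : (1 : ℤ) ≤ -Q.ord x := by omega
    have h2 : (0 : ℤ) ≤ m := by positivity
    nlinarith

theorem S34SB_mem_reg_iff_exists (x : F) {f : F} :
    f ∈ S34SB_reg K x ↔ ∃ m : ℕ, f ∈ riemannRochSpace (m • RR_poleDiv hP x) := by
  constructor
  · intro hf
    obtain ⟨m₀, h⟩ := S34SB_reg_ex hP x hf
    exact ⟨m₀, h m₀ le_rfl⟩
  · rintro ⟨m, hm⟩
    exact S34SB_RR_le_reg hP x m hm

/-- twisted levels lie in the twisted module of the chart: `f ∈ L(E + D)`, `E ≤ 0` off `T`,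
`n·D ≤ div u` off `T`  ⇒  `fⁿ·u` is regular off `T`. -/
theorem S34SB_twist_mem (T : Set (Place K F)) {n : ℕ} (hn : 0 < n) (u : F) (E D : Divisor K F)
    (hE : ∀ Q : Place K F, Q ∉ T → E Q ≤ 0)
    (hu : ∀ Q : Place K F, Q ∉ T → (n : ℤ) * D Q ≤ Q.ord u) {f : F}
    (hf : f ∈ riemannRochSpace (E + D)) : f ^ n * u ∈ S34SB_regOff K T := by
  by_cases hf0 : f = 0
  · rw [hf0, zero_pow hn.ne', zero_mul]; exact (S34SB_regOff K T).zero_mem
  by_cases hu0 : u = 0
  · rw [hu0, mul_zero]; exact (S34SB_regOff K T).zero_mem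
  have hfn : f ^ n ≠ 0 := pow_ne_zero _ hf0
  rw [S34SB_mem_regOff_iff (mul_ne_zero hfn hu0)]
  intro Q hQ
  rw [Q.ord_mul hfn hu0, ← zpow_natCast, Q.ord_zpow]
  rcases mem_riemannRochSpace_iff.mp hf Q with h | h
  · exact absurd h hf0
  · rw [Finsupp.add_apply] at h
    have h1 := hE Q hQ
    have h2 := hu Q hQ
    have hn' : (0 : ℤ) ≤ n := by positivity
    nlinarith

end fn

/-! ### The charts `U' = {x ≠ c}` and `U'' = U ∩ U'`, levels `E(a,b) = a·(x)_∞ + b·(x − c)₀` -/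

section two

variable {K F : Type*} [Field K] [Field F] [Algebra K F] (hP : HasPrincipalDivisors K F)
  (x : F) (c : K)

theorem S34SB_E_nonneg (a b : ℕ) (Q : Place K F) :
    0 ≤ S34P_E hP x (x - algebraMap K F c) a b Q := by
  rcases S34P_E_apply_sub hP x c a b Q with ⟨h1, h2⟩ | ⟨h1, h2, h3⟩
  · rw [h2]
    exact mul_nonneg (by positivity) (by omega)
  · rw [h3]
    exact mul_nonneg (by positivity) h2

/-- off the poles of `x` and the zeros of `x − c` the divisor `E(a,b)` vanishes. -/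
theorem S34SB_E_off (a b : ℕ) (Q : Place K F) (h1 : 0 ≤ Q.ord x)
    (h2 : ¬ 0 < Q.ord (x - algebraMap K F c)) :
    S34P_E hP x (x - algebraMap K F c) a b Q = 0 := by
  rcases S34P_E_apply_sub hP x c a b Q with ⟨h, _⟩ | ⟨_, h4, h5⟩
  · omega
  · rw [h5]
    have : Q.ord (x - algebraMap K F c) = 0 := by omega
    rw [this, mul_zero]

theorem S34SB_E_off_zeros (a : ℕ) (Q : Place K F) (h1 : 0 ≤ Q.ord x) :
    S34P_E hP x (x - algebraMap K F c) a 0 Q = 0 := by
  rcases S34P_E_apply_sub hP x c a 0 Q with ⟨h, _⟩ | ⟨_, _, h5⟩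
  · omega
  · rw [h5]
    simp

theorem S34SB_E_off_poles (b : ℕ) (Q : Place K F) (h2 : ¬ 0 < Q.ord (x - algebraMap K F c)) :
    S34P_E hP x (x - algebraMap K F c) 0 b Q = 0 := by
  rcases S34P_E_apply_sub hP x c 0 b Q with ⟨_, h⟩ | ⟨_, h4, h5⟩
  · rw [h]
    simp
  · rw [h5]
    have : Q.ord (x - algebraMap K F c) = 0 := by omega
    rw [this, mul_zero]

theorem S34SB_E_ge_poles (a b : ℕ) (Q : Place K F) (h : Q.ord x < 0) :
    (a : ℤ) ≤ S34P_E hP x (x - algebraMap K F c) a b Q := by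
  rcases S34P_E_apply_sub hP x c a b Q with ⟨_, h2⟩ | ⟨h1, _, _⟩
  · rw [h2]
    have h1 : (1 : ℤ) ≤ -Q.ord x := by omega
    have h2 : (0 : ℤ) ≤ a := by positivity
    nlinarith
  · omega

theorem S34SB_E_ge_zeros (a b : ℕ) (Q : Place K F) (h : 0 < Q.ord (x - algebraMap K F c)) :
    (b : ℤ) ≤ S34P_E hP x (x - algebraMap K F c) a b Q := by
  rcases S34P_E_apply_sub hP x c a b Q with ⟨h1, _⟩ | ⟨_, _, h3⟩
  · rw [LC_ord_sub_const_of_neg Q h1 c] at h
    omega
  · rw [h3]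
    have h1 : (1 : ℤ) ≤ Q.ord (x - algebraMap K F c) := by omega
    have h2 : (0 : ℤ) ≤ b := by positivity
    nlinarith

/-- the coordinate ring of the chart `U' = {x ≠ c}`: regular off the zeros of `x − c`. -/
def S34SB_regZ (K : Type*) {F : Type*} [Field K] [Field F] [Algebra K F] (z : F) :
    Subalgebra K F := S34SB_regOff K (S34SB_zeros K z)

/-- the coordinate ring of the chart `U'' = U ∩ U'`: regular off the poles of `x` and the zeros
of `z`. -/
def S34SB_reg2 (K : Type*) {F : Type*} [Field K] [Field F] [Algebra K F] (x z : F) :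
    Subalgebra K F := S34SB_regOff K (S34SB_poles K x ∪ S34SB_zeros K z)

theorem S34SB_reg_le_reg2 (z : F) : S34SB_reg K x ≤ S34SB_reg2 K x z :=
  S34SB_regOff_mono Set.subset_union_left

theorem S34SB_regZ_le_reg2 (z : F) : S34SB_regZ K z ≤ S34SB_reg2 K x z :=
  S34SB_regOff_mono Set.subset_union_right

/-- `L(E(a, 0)) ⊆ reg x` (chart `U`). -/
theorem S34SB_E_le_reg (a : ℕ) {f : F}
    (hf : f ∈ riemannRochSpace (S34P_E hP x (x - algebraMap K F c) a 0)) :
    f ∈ S34SB_reg K x := by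
  refine S34SB_RR_le_regOff _ _ (fun Q hQ => ?_) hf
  rw [S34SB_mem_poles, not_lt] at hQ
  exact (S34SB_E_off_zeros hP x c a Q hQ).le

/-- `L(E(0, b)) ⊆ regZ (x − c)` (chart `U'`). -/
theorem S34SB_E_le_regZ (b : ℕ) {f : F}
    (hf : f ∈ riemannRochSpace (S34P_E hP x (x - algebraMap K F c) 0 b)) :
    f ∈ S34SB_regZ K (x - algebraMap K F c) := by
  refine S34SB_RR_le_regOff _ _ (fun Q hQ => ?_) hf
  rw [S34SB_mem_zeros] at hQ
  exact (S34SB_E_off_poles hP x c b Q hQ).le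

/-- `L(E(a, b)) ⊆ reg2 x (x − c)` (chart `U''`). -/
theorem S34SB_E_le_reg2 (a b : ℕ) {f : F}
    (hf : f ∈ riemannRochSpace (S34P_E hP x (x - algebraMap K F c) a b)) :
    f ∈ S34SB_reg2 K x (x - algebraMap K F c) := by
  refine S34SB_RR_le_regOff _ _ (fun Q hQ => ?_) hf
  rw [Set.mem_union, not_or, S34SB_mem_poles, S34SB_mem_zeros, not_lt] at hQ
  exact (S34SB_E_off hP x c a b Q hQ.1 hQ.2).le

/-- exhaustion of the chart `U'`: `regZ (x − c) = ⋃ L(E(0, m))`. -/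
theorem S34SB_regZ_ex {f : F} (hf : f ∈ S34SB_regZ K (x - algebraMap K F c)) :
    ∃ m₀ : ℕ, ∀ m, m₀ ≤ m → f ∈ riemannRochSpace (S34P_E hP x (x - algebraMap K F c) 0 m) :=
  S34SB_regOff_ex hP _ (fun m => S34P_E hP x (x - algebraMap K F c) 0 m)
    (fun m Q => S34SB_E_nonneg hP x c 0 m Q)
    (fun m Q hQ => S34SB_E_ge_zeros hP x c 0 m Q hQ) hf

/-- exhaustion of the chart `U''`: `reg2 x (x − c) = ⋃ L(E(m, m))`. -/
theorem S34SB_reg2_ex {f : F} (hf : f ∈ S34SB_reg2 K x (x - algebraMap K F c)) :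
    ∃ m₀ : ℕ, ∀ m, m₀ ≤ m → f ∈ riemannRochSpace (S34P_E hP x (x - algebraMap K F c) m m) :=
  S34SB_regOff_ex hP _ (fun m => S34P_E hP x (x - algebraMap K F c) m m)
    (fun m Q => S34SB_E_nonneg hP x c m m Q)
    (fun m Q hQ => hQ.elim (fun h => S34SB_E_ge_poles hP x c m m Q h)
      (fun h => S34SB_E_ge_zeros hP x c m m Q h)) hf

/-- exhaustion of the chart `U` in POLE's shape: `reg x = ⋃ L(E(m, 0))`. -/
theorem S34SB_reg_ex_E {f : F} (hf : f ∈ S34SB_reg K x) :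
    ∃ m₀ : ℕ, ∀ m, m₀ ≤ m → f ∈ riemannRochSpace (S34P_E hP x (x - algebraMap K F c) m 0) :=
  S34SB_regOff_ex hP _ (fun m => S34P_E hP x (x - algebraMap K F c) m 0)
    (fun m Q => S34SB_E_nonneg hP x c m 0 Q)
    (fun m Q hQ => S34SB_E_ge_poles hP x c m 0 Q hQ) hf

/-- **clearing the poles at `D₀`** (`hloc` of CHART, twisted; `D = 0`, `u = 1`, `n = 1` gives `hX`):
`f ∈ L(E(a,b) + D)`, `n·D ≤ div u` off the poles of `x`  ⇒  `((x − c)^b · f)ⁿ · u ∈ reg x`. -/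
theorem S34SB_clear_twist {n : ℕ} (hn : 0 < n) (u : F) (D : Divisor K F)
    (hu : ∀ Q : Place K F, 0 ≤ Q.ord x → (n : ℤ) * D Q ≤ Q.ord u) (a b : ℕ) {f : F}
    (hf : f ∈ riemannRochSpace (S34P_E hP x (x - algebraMap K F c) a b + D)) :
    ((x - algebraMap K F c) ^ b * f) ^ n * u ∈ S34SB_reg K x := by
  by_cases hf0 : f = 0
  · rw [hf0, mul_zero, zero_pow hn.ne', zero_mul]; exact (S34SB_reg K x).zero_mem
  by_cases hu0 : u = 0
  · rw [hu0, mul_zero]; exact (S34SB_reg K x).zero_mem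
  by_cases hz0 : x - algebraMap K F c = 0
  · rcases Nat.eq_zero_or_pos b with hb | hb
    · -- `b = 0`
      subst hb
      rw [pow_zero, one_mul]
      refine S34SB_twist_mem (S34SB_poles K x) hn u _ D (fun Q hQ => ?_) (fun Q hQ => ?_) hf
      · rw [S34SB_mem_poles, not_lt] at hQ
        exact (S34SB_E_off_zeros hP x c a Q hQ).le
      · rw [S34SB_mem_poles, not_lt] at hQ
        exact hu Q hQ
    · rw [hz0, zero_pow hb.ne', zero_mul, zero_pow hn.ne', zero_mul]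
      exact (S34SB_reg K x).zero_mem
  have hzb : (x - algebraMap K F c) ^ b ≠ 0 := pow_ne_zero _ hz0
  have hg : (x - algebraMap K F c) ^ b * f ≠ 0 := mul_ne_zero hzb hf0
  have hgn : ((x - algebraMap K F c) ^ b * f) ^ n ≠ 0 := pow_ne_zero _ hg
  rw [S34SB_mem_reg_iff (mul_ne_zero hgn hu0)]
  intro Q hQ
  rw [Q.ord_mul hgn hu0, ← zpow_natCast, Q.ord_zpow, Q.ord_mul hzb hf0, ← zpow_natCast,
    Q.ord_zpow]
  rcases mem_riemannRochSpace_iff.mp hf Q with h | h
  · exact absurd h hf0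
  · rw [Finsupp.add_apply] at h
    have h2 := hu Q hQ
    rcases S34P_E_apply_sub hP x c a b Q with ⟨h3, _⟩ | ⟨_, h4, h5⟩
    · omega
    · rw [h5] at h
      have hn' : (0 : ℤ) ≤ n := by positivity
      nlinarith

/-- **clearing the poles at `D₀`** (`hX` of CHART): `f ∈ L(E(a,b))  ⇒  (x − c)^b · f ∈ reg x`. -/
theorem S34SB_clear (a b : ℕ) {f : F}
    (hf : f ∈ riemannRochSpace (S34P_E hP x (x - algebraMap K F c) a b)) :
    (x - algebraMap K F c) ^ b * f ∈ S34SB_reg K x := by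
  have h := S34SB_clear_twist hP x c (n := 1) Nat.one_pos 1 0
    (fun Q _ => by rw [Finsupp.zero_apply, mul_zero, Q.ord_one]) a b (f := f)
    (by rw [add_zero]; exact hf)
  rwa [pow_one, mul_one] at h

/-- `reg2 x (x − c) = (reg x)[1/(x − c)]`. -/
theorem S34SB_mem_reg2_iff (hP : HasPrincipalDivisors K F) (x : F) (c : K)
    (hz : x - algebraMap K F c ≠ 0) {f : F} :
    f ∈ S34SB_reg2 K x (x - algebraMap K F c) ↔
      ∃ m : ℕ, (x - algebraMap K F c) ^ m * f ∈ S34SB_reg K x := by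
  constructor
  · intro hf
    obtain ⟨m₀, h⟩ := S34SB_reg2_ex hP x c hf
    exact ⟨m₀, S34SB_clear hP x c m₀ m₀ (h m₀ le_rfl)⟩
  · rintro ⟨m, hm⟩
    by_cases hf0 : f = 0
    · rw [hf0]; exact (S34SB_reg2 K x _).zero_mem
    have hzm : (x - algebraMap K F c) ^ m ≠ 0 := pow_ne_zero _ hz
    unfold S34SB_reg2
    rw [S34SB_mem_regOff_iff hf0]
    intro Q hQ
    rw [Set.mem_union, not_or, S34SB_mem_poles, S34SB_mem_zeros, not_lt] at hQ
    rw [S34SB_mem_reg_iff (mul_ne_zero hzm hf0)] at hm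
    have h1 := hm Q hQ.1
    rw [Q.ord_mul hzm hf0, ← zpow_natCast, Q.ord_zpow] at h1
    have h2 := LC_ord_sub_const_nonneg Q hQ.1 c
    have h3 : Q.ord (x - algebraMap K F c) = 0 := by omega
    rw [h3, mul_zero, zero_add] at h1
    exact h1

/-- (`h2` of `S34CH_Data.delta_chart`): a function regular off the poles of `x` becomes regular
off the zeros of `x − c` after multiplication with a power of `(x − c)⁻¹`. -/
theorem S34SB_inv_clear (hP : HasPrincipalDivisors K F) (x : F) (c : K) {f : F}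
    (hf : f ∈ S34SB_reg K x) :
    ∃ m₀ : ℕ, ∀ m, m₀ ≤ m →
      (x - algebraMap K F c)⁻¹ ^ m * f ∈ S34SB_regZ K (x - algebraMap K F c) := by
  obtain ⟨m₀, h⟩ := S34SB_reg_ex hP x hf
  refine ⟨m₀, fun m hm => ?_⟩
  by_cases hf0 : f = 0
  · rw [hf0, mul_zero]; exact (S34SB_regZ K _).zero_mem
  by_cases hz0 : x - algebraMap K F c = 0
  · rcases Nat.eq_zero_or_pos m with hm0 | hm0
    · subst hm0
      rw [pow_zero, one_mul]
      -- `x = c` is constant: no poles at all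
      unfold S34SB_regZ
      rw [S34SB_mem_regOff_iff hf0]
      intro Q _
      rw [S34SB_mem_reg_iff hf0] at hf
      refine hf Q ?_
      have hx : x = algebraMap K F c := sub_eq_zero.mp hz0
      rw [hx, S18_Spec.ord_algebraMap]
    · rw [hz0, inv_zero, zero_pow hm0.ne', zero_mul]
      exact (S34SB_regZ K _).zero_mem
  have hzi : (x - algebraMap K F c)⁻¹ ^ m ≠ 0 := pow_ne_zero _ (inv_ne_zero hz0)
  unfold S34SB_regZ
  rw [S34SB_mem_regOff_iff (mul_ne_zero hzi hf0)]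
  intro Q hQ
  rw [S34SB_mem_zeros, not_lt] at hQ
  rw [Q.ord_mul hzi hf0, ← zpow_natCast, Q.ord_zpow, Q.ord_inv]
  rcases mem_riemannRochSpace_iff.mp (h m hm) Q with h1 | h1
  · exact absurd h1 hf0
  · rw [S34SB_nsmul_poleDiv_apply] at h1
    rcases lt_or_ge (Q.ord x) 0 with hx | hx
    · rw [LC_ord_sub_const_of_neg Q hx c]
      rw [max_eq_left (by omega)] at h1
      linarith
    · have h2 := LC_ord_sub_const_nonneg Q hx c
      have h3 : Q.ord (x - algebraMap K F c) = 0 := by omega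
      rw [max_eq_right (by omega), mul_zero] at h1
      rw [h3]
      simp only [neg_zero, mul_zero, zero_add]
      omega

end two

/-! ### The chart `U` of a pair of valuation data, and the inputs of COUNT -/

section pair

variable {L F k Fk₁ Fk₂ : Type*} [Field L] [Field F] [Algebra L F] [Field k]
  [Field Fk₁] [Field Fk₂] [Algebra k Fk₁] [Algebra k Fk₂]

/-- **the chart `U`** attached to a function `x` of `F` and functions `x₁, x₂` on the two
components (`x = j`, `x₁ = j̄`, `x₂ = j̄^q`): `B` = functions regular off the poles of `x`,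
`Rbᵢ` = functions regular off the poles of `xᵢ`. -/
def S34SB_chart (L : Type*) {F : Type*} (k : Type*) {Fk₁ Fk₂ : Type*} [Field L] [Field F]
    [Algebra L F] [Field k] [Field Fk₁] [Field Fk₂] [Algebra k Fk₁] [Algebra k Fk₂]
    (x : F) (x₁ : Fk₁) (x₂ : Fk₂) (n : ℕ) (hn : 0 < n) :
    S34K_Chart (L := L) (F := F) (k := k) (Fk₁ := Fk₁) (Fk₂ := Fk₂) n where
  B := S34SB_reg L x
  hn := hn
  root := fun f hf => S34SB_reg_root x hn f hf
  Rb₁ := S34SB_reg k x₁
  Rb₂ := S34SB_reg k x₂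

theorem S34SB_chart_B (x : F) (x₁ : Fk₁) (x₂ : Fk₂) (n : ℕ) (hn : 0 < n) :
    (S34SB_chart L k x x₁ x₂ n hn).B = S34SB_reg L x := rfl

theorem S34SB_chart_Rb₁ (x : F) (x₁ : Fk₁) (x₂ : Fk₂) (n : ℕ) (hn : 0 < n) :
    (S34SB_chart L k x x₁ x₂ n hn).Rb₁ = S34SB_reg k x₁ := rfl

theorem S34SB_chart_Rb₂ (x : F) (x₁ : Fk₁) (x₂ : Fk₂) (n : ℕ) (hn : 0 < n) :
    (S34SB_chart L k x x₁ x₂ n hn).Rb₂ = S34SB_reg k x₂ := rfl

/-- a product of subspaces of `reg x₁`, `reg x₂` lies in the range of the inclusion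
(the shape of `hRf_le` in COUNT). -/
theorem S34SB_prod_le_range (x₁ : Fk₁) (x₂ : Fk₂) (X₁ : Submodule k Fk₁) (X₂ : Submodule k Fk₂)
    (h₁ : ∀ f ∈ X₁, f ∈ S34SB_reg k x₁) (h₂ : ∀ f ∈ X₂, f ∈ S34SB_reg k x₂) :
    X₁.prod X₂ ≤ LinearMap.range (S34K_incl (S34SB_reg k x₁) (S34SB_reg k x₂)) := by
  rintro ⟨w₁, w₂⟩ ⟨hw₁, hw₂⟩
  exact ⟨(⟨w₁, h₁ w₁ hw₁⟩, ⟨w₂, h₂ w₂ hw₂⟩), rfl⟩

variable (hP : HasPrincipalDivisors L F) (hP₁ : HasPrincipalDivisors k Fk₁)
  (hP₂ : HasPrincipalDivisors k Fk₂)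

/-- `hRf_le` of COUNT for the levels `L(m (x₁)_∞) × L(m (x₂)_∞)`. -/
theorem S34SB_hRf_le (x₁ : Fk₁) (x₂ : Fk₂) (m : ℕ) :
    (riemannRochSpace (m • RR_poleDiv hP₁ x₁)).prod (riemannRochSpace (m • RR_poleDiv hP₂ x₂)) ≤
      LinearMap.range (S34K_incl (S34SB_reg k x₁) (S34SB_reg k x₂)) :=
  S34SB_prod_le_range x₁ x₂ _ _ (fun _ hf => S34SB_RR_le_reg hP₁ x₁ m hf)
    (fun _ hf => S34SB_RR_le_reg hP₂ x₂ m hf)

/-- `hRf_ex` of COUNT for the levels `L(m (x₁)_∞) × L(m (x₂)_∞)`. -/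
theorem S34SB_hRf_ex (x₁ : Fk₁) (x₂ : Fk₂) (w : ↥(S34SB_reg k x₁) × ↥(S34SB_reg k x₂)) :
    ∃ m : ℕ, S34K_incl (S34SB_reg k x₁) (S34SB_reg k x₂) w ∈
      (riemannRochSpace (m • RR_poleDiv hP₁ x₁)).prod
        (riemannRochSpace (m • RR_poleDiv hP₂ x₂)) := by
  obtain ⟨m₁, h₁⟩ := S34SB_reg_ex hP₁ x₁ w.1.2
  obtain ⟨m₂, h₂⟩ := S34SB_reg_ex hP₂ x₂ w.2.2
  exact ⟨max m₁ m₂, h₁ _ (le_max_left _ _), h₂ _ (le_max_right _ _)⟩

/-- `hVf_le` of COUNT, untwisted. -/
theorem S34SB_hVf_le (x : F) {n : ℕ} (hn : 0 < n) (m : ℕ) :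
    riemannRochSpace (m • RR_poleDiv hP x) ≤
      S34K_V (S34SB_reg L x) n hn (fun f hf => S34SB_reg_root x hn f hf) 1 := by
  intro f hf
  rw [S34K_mem_V, mul_one]
  exact (S34SB_reg L x).pow_mem (S34SB_RR_le_reg hP x m hf) n

/-- `hVf_ex` of COUNT, untwisted. -/
theorem S34SB_hVf_ex (x : F) {n : ℕ} (hn : 0 < n) (f : F)
    (hf : f ∈ S34K_V (S34SB_reg L x) n hn (fun f hf => S34SB_reg_root x hn f hf) 1) :
    ∃ m : ℕ, f ∈ riemannRochSpace (m • RR_poleDiv hP x) := by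
  rw [S34K_mem_V, mul_one] at hf
  exact (S34SB_mem_reg_iff_exists hP x).mp (S34SB_reg_root x hn f hf)

/-- `hVf_le` of COUNT, twisted: `L(m (x)_∞ + D) ⊆ V^u` if `n·D ≤ div u` off the poles of `x`. -/
theorem S34SB_hVf_le_twist (x : F) {n : ℕ} (hn : 0 < n) (u : F) (D : Divisor L F)
    (hu : ∀ Q : Place L F, 0 ≤ Q.ord x → (n : ℤ) * D Q ≤ Q.ord u) (m : ℕ) :
    riemannRochSpace (m • RR_poleDiv hP x + D) ≤
      S34K_V (S34SB_reg L x) n hn (fun f hf => S34SB_reg_root x hn f hf) u := by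
  intro f hf
  rw [S34K_mem_V]
  refine S34SB_twist_mem (S34SB_poles L x) hn u (m • RR_poleDiv hP x) D (fun Q hQ => ?_)
    (fun Q hQ => ?_) hf
  · rw [S34SB_mem_poles, not_lt] at hQ
    rw [S34SB_nsmul_poleDiv_apply, max_eq_right (by omega), mul_zero]
  · rw [S34SB_mem_poles, not_lt] at hQ
    exact hu Q hQ

/-- the hypothesis `hu` of `S34SB_hVf_le_twist` from POLE's `n • D = div u`. -/
theorem S34SB_hu_of_div (x : F) {n : ℕ} (u : F) (D : Divisor L F)
    (hD : n • D = RR_div hP u) (Q : Place L F) (_hQ : 0 ≤ Q.ord x) :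
    (n : ℤ) * D Q ≤ Q.ord u := by
  have := congrArg (fun E : Divisor L F => E Q) hD
  simp only [S18_semi_nsmul_apply, RR_div_apply] at this
  exact this.le

variable {S₁ : S18_Val L F k Fk₁} {S₂ : S18_Val L F k Fk₂} (hS : S34P_Same S₁ S₂)

/-- **(BRIDGE-U)**: the chain of the chart `U` gives `codim W^1 = s` in the coordinate ring of
the concrete chart (input of NODALG: exactly `s` nodes). -/
theorem S34SB_one (x : F) (x₁ : Fk₁) (x₂ : Fk₂) {n : ℕ} (hn : 0 < n) (s m₀ : ℕ)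
    (hchain : S34S_Chain
      (fun m => S34P_redSub S₁ S₂ hS (riemannRochSpace (m • RR_poleDiv hP x)))
      (fun m => (riemannRochSpace (m • RR_poleDiv hP₁ x₁)).prod
        (riemannRochSpace (m • RR_poleDiv hP₂ x₂))) s m₀) :
    Module.Finite k ((↥(S34SB_reg k x₁) × ↥(S34SB_reg k x₂)) ⧸
        S34K_W hS (S34SB_chart L k x x₁ x₂ n hn) 1) ∧
      Module.finrank k ((↥(S34SB_reg k x₁) × ↥(S34SB_reg k x₂)) ⧸
        S34K_W hS (S34SB_chart L k x x₁ x₂ n hn) 1) = s :=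
  S34CW_one hS (S34SB_chart L k x x₁ x₂ n hn) _ (fun m => S34SB_hRf_le hP₁ hP₂ x₁ x₂ m)
    (fun w => S34SB_hRf_ex hP₁ hP₂ x₁ x₂ w) s m₀
    (fun m => riemannRochSpace (m • RR_poleDiv hP x))
    (fun m => S34SB_hVf_le hP x hn m) (fun f hf => S34SB_hVf_ex hP x hn f hf) hchain

/-- **(BRIDGE-U), twisted**: the input `hcount` of `S34K_hex_of_count` (with `ι = Fin s'`) for the
concrete chart, from the chain of the chart `U` and the twisted pole control + count of POLE. -/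
theorem S34SB_hcount (x : F) (x₁ : Fk₁) (x₂ : Fk₂) {n : ℕ} (hn : 0 < n) (s m₀ : ℕ)
    (hchain : S34S_Chain
      (fun m => S34P_redSub S₁ S₂ hS (riemannRochSpace (m • RR_poleDiv hP x)))
      (fun m => (riemannRochSpace (m • RR_poleDiv hP₁ x₁)).prod
        (riemannRochSpace (m • RR_poleDiv hP₂ x₂))) s m₀)
    (u : F) (D : Divisor L F)
    (hu : ∀ Q : Place L F, 0 ≤ Q.ord x → (n : ℤ) * D Q ≤ Q.ord u)
    (hpole : ∀ m : ℕ, S34P_redSub S₁ S₂ hS (riemannRochSpace (m • RR_poleDiv hP x + D)) ≤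
      (riemannRochSpace (m • RR_poleDiv hP₁ x₁)).prod (riemannRochSpace (m • RR_poleDiv hP₂ x₂)))
    (hcount : ∀ m₁ : ℕ, ∃ m : ℕ, m₁ ≤ m ∧
      Module.finrank k ↥((riemannRochSpace (m • RR_poleDiv hP₁ x₁)).prod
          (riemannRochSpace (m • RR_poleDiv hP₂ x₂))) ≤
        Module.finrank k
          ↥(S34P_redSub S₁ S₂ hS (riemannRochSpace (m • RR_poleDiv hP x + D))) + s)
    {s' : ℕ} (hs' : s' = Module.finrank k ((↥(S34SB_reg k x₁) × ↥(S34SB_reg k x₂)) ⧸
        S34K_W hS (S34SB_chart L k x x₁ x₂ n hn) 1)) :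
    Module.Finite k ((↥(S34SB_reg k x₁) × ↥(S34SB_reg k x₂)) ⧸
        S34K_W hS (S34SB_chart L k x x₁ x₂ n hn) u) ∧
      Module.finrank k ((↥(S34SB_reg k x₁) × ↥(S34SB_reg k x₂)) ⧸
        S34K_W hS (S34SB_chart L k x x₁ x₂ n hn) u) ≤ Fintype.card (Fin s') :=
  S34CW_hcount hS (S34SB_chart L k x x₁ x₂ n hn) _ (fun m => S34SB_hRf_le hP₁ hP₂ x₁ x₂ m)
    (fun w => S34SB_hRf_ex hP₁ hP₂ x₁ x₂ w) s m₀
    (fun m => riemannRochSpace (m • RR_poleDiv hP x))
    (fun m => S34SB_hVf_le hP x hn m) (fun f hf => S34SB_hVf_ex hP x hn f hf) hchain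
    u (fun m => riemannRochSpace (m • RR_poleDiv hP x + D))
    (fun m => S34SB_hVf_le_twist hP x hn u D hu m) hpole hcount hs'

end pair

/-! ### The chart `U` for the Frobenius pair `(x̄, x̄^q)`: wiring with SAT's chain -/

section frob

variable {L F k Fk : Type*} [Field L] [Field F] [Algebra L F] [Field k] [Field Fk] [Algebra k Fk]

/-- **codim `W^1_U = s`** from a chain in SAT's shape (`S34S_chainU`, `S34P_chain_frob`). -/
theorem S34SB_one_frob {S₁ S₂ : S18_Val L F k Fk} (hS : S34P_Same S₁ S₂)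
    (hP : HasPrincipalDivisors L F) (hPk : HasPrincipalDivisors k Fk)
    (x : F) (xb : Fk) (q : ℕ) {n : ℕ} (hn : 0 < n) (s m₀ : ℕ)
    (hchain : S34S_Chain
      (fun m => S34P_redSub S₁ S₂ hS (riemannRochSpace (m • RR_poleDiv hP x)))
      (S34S_Rf hPk xb q) s m₀) :
    Module.Finite k ((↥(S34SB_reg k xb) × ↥(S34SB_reg k (xb ^ q))) ⧸
        S34K_W hS (S34SB_chart L k x xb (xb ^ q) n hn) 1) ∧
      Module.finrank k ((↥(S34SB_reg k xb) × ↥(S34SB_reg k (xb ^ q))) ⧸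
        S34K_W hS (S34SB_chart L k x xb (xb ^ q) n hn) 1) = s :=
  S34SB_one hP hPk hPk hS x xb (xb ^ q) hn s m₀ hchain

/-- **the count of the chart `U`**, all in one: the hypotheses of `S34S_chainU` (POLE + the
families `hα`, `hξ` of SAT) give `codim W^1_U = g_F + 1 − 2 g_k` in the concrete chart. -/
theorem S34SB_codimU (S₁ S₂ : S18_Val L F k Fk) (hS : S34P_Same S₁ S₂) (x : S34P_O2 S₁ S₂)
    (hH : S34P_Hyp S₁ S₂ hS x)
    (hcount : ∀ V : Submodule L F, FiniteDimensional L V →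
      Module.finrank k (S34P_redSub S₁ S₂ hS V) = Module.finrank L V)
    (hF : RR_Hyp L F) (hk : RR_Hyp k Fk)
    (xb : Fk) (q : ℕ) (hq : 2 ≤ q) (hred : S34P_red S₁ S₂ x = (xb, xb ^ q))
    (hxb : ∃ v : Place k Fk, v.ord xb < 0)
    (hdeg : (RR_poleDiv hk.principal xb).degree + (RR_poleDiv hk.principal (xb ^ q)).degree =
      (RR_poleDiv hF.principal (x : F)).degree)
    (hα : ∃ r₀ : ℕ, ∀ m, r₀ ≤ m → ∀ u ∈ riemannRochSpace (m • RR_poleDiv hk.principal xb),
      ∃ f : S34P_O2 S₁ S₂, (f : F) ∈ riemannRochSpace (m • RR_poleDiv hF.principal (x : F)) ∧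
        (S34P_red S₁ S₂ f).1 = u)
    (hξ : ∃ C t₀ : ℕ, ∀ a t : ℕ, t₀ ≤ t → C * (t + 1) ≤ a →
      ∀ g ∈ riemannRochSpace ((q * (t + 1)) • RR_poleDiv hk.principal xb),
        ∃ f : S34P_O2 S₁ S₂,
          (f : F) ∈ riemannRochSpace ((a * q + t + 1) • RR_poleDiv hF.principal (x : F)) ∧
          S34P_red S₁ S₂ f = ((0 : Fk), (xb ^ (q ^ 2) - xb) ^ a * g))
    {n : ℕ} (hn : 0 < n) :
    ∃ s : ℕ, (s : ℤ) = (RR_genus L F : ℤ) + 1 - 2 * RR_genus k Fk ∧
      Module.Finite k ((↥(S34SB_reg k xb) × ↥(S34SB_reg k (xb ^ q))) ⧸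
        S34K_W hS (S34SB_chart L k (x : F) xb (xb ^ q) n hn) 1) ∧
      Module.finrank k ((↥(S34SB_reg k xb) × ↥(S34SB_reg k (xb ^ q))) ⧸
        S34K_W hS (S34SB_chart L k (x : F) xb (xb ^ q) n hn) 1) = s := by
  obtain ⟨m₀, s, hs, hchain⟩ :=
    S34S_chainU S₁ S₂ hS x hH hcount hF hk xb q hq hred hxb hdeg hα hξ
  have h := S34SB_one_frob hS hF.principal hk.principal (x : F) xb q hn s m₀ hchain
  exact ⟨s, hs, h.1, h.2⟩

end frob

end Fermat.Agent.S34
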