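import Mathlib
import Fermat.Agent.S34.Asm2
import Fermat.Agent.S34.KActInst
import Fermat.Agent.S34.SatBridge

/-!
# TRACK 7 (NODE), package ASM (helper28), part 3: (K-tau), (K-sig2) on THE canonical objects

THE canonical concrete objects (captain's ruling #6): level `M * q`, `A ∣ q`,
`hgen : PrincipalGeneratedByIntegral A (residue A) (M * q)`,

* `S34M_T1 … = (S18_gaussModL (M * q) A hgen).toVal`, `S34M_T2 … = (S34V_comap G₁ w_q).toVal`,
  `S34M_same : S34P_Same T₁ T₂`;  `T₁.O = S34DF_O1`, `T₂.O = S34DF_O2` (by `rfl`);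
* `S34M_xb … : F̄` the reduction `j̄` of `j = jB (M * q)` at `V₁`;
* `S34M_chart … n hn = S34SB_chart ℚ̄ k j j̄ (j̄ ^ q) n hn` — the chart `U` (off the cusps).

The sub-targets (each is a `Prop` about these objects only):

* `S34M_Nodes`       (G1 + G2 + G3): nodes `e₁ e₂` with `hE`, (B) `hex` and (INJ) `hinj`;
* `S34M_StraightTau` (G4): `τ ∈ I_A` keeps `O₁`, `O₂`, `B` and acts trivially on the reductions;
* `S34M_StraightSig` (G4 + G5): a Frobenius lift `σ` keeps `O₁`, `O₂`, `B`, acts on the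
  reductions by ring endomorphisms `Φ₁ Φ₂` which are `x ↦ x^q` on `k` and preserve the fibre
  rings, and (A3) `(0, Φ₂ Φ₂ b − b^{q²}) ∈ W¹`.

`S34M_kTau`, `S34M_kSig2` : the targets `S34M_KTau`, `S34M_KSig2` of `Asm.lean` from them.
-/

set_option autoImplicit false
set_option synthInstance.maxHeartbeats 400000
set_option maxHeartbeats 800000
set_option linter.unusedSectionVars false
set_option linter.unusedVariables false
set_option linter.style.haveILetI false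

open HahnSeries IntermediateField ModularCurve AlgebraicCurve CongruenceSubgroup

noncomputable section

namespace Fermat.Agent.S34

open Fermat.Agent.GalRep Fermat.Agent.S16 Fermat.Agent.S41 Fermat.Agent.S24 Fermat.Agent.S18
  Fermat.Agent.S35

section generic

variable {L F k Fk : Type*} [Field L] [Field F] [Algebra L F] [Field k] [Field Fk]
  [Algebra k Fk] (G : S18_Gauss L F k Fk) (w : F ≃ₐ[L] F)

/-- a Gauss datum and its transport by an automorphism have the same base (generic form, cheap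
for the kernel). -/
theorem S34M_same_gen : S34P_Same G.toVal (S34V_comap G w).toVal :=
  ⟨rfl, fun _ _ _ => rfl⟩

theorem S34M_toVal_O_gen : G.toVal.O = G.O := rfl

theorem S34M_comap_toVal_O_gen : (S34V_comap G w).toVal.O = G.O.comap (w : F →+* F) := rfl

end generic

section canon

variable (M q : ℕ) [NeZero (M * q)] (hq : q.Prime) (hqM : ¬ q ∣ M)
  (A : ValuationSubring (AlgebraicClosure ℚ))
  (hgen : PrincipalGeneratedByIntegral A (IsLocalRing.residue A) (M * q))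

/-- `V₁` as an `S18_Val`. -/
def S34M_T1 : S18_Val (AlgebraicClosure ℚ) ↥(modularFunctionFieldBar (M * q))
    (IsLocalRing.ResidueField A)
    ↥(modularFunctionFieldFullC (IsLocalRing.ResidueField A) (M * q)) :=
  (S18_gaussModL (M * q) A hgen).toVal

/-- `V₂ = V₁ ∘ w_q` as an `S18_Val`. -/
def S34M_T2 : S18_Val (AlgebraicClosure ℚ) ↥(modularFunctionFieldBar (M * q))
    (IsLocalRing.ResidueField A)
    ↥(modularFunctionFieldFullC (IsLocalRing.ResidueField A) (M * q)) :=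
  (S34V_comap (S18_gaussModL (M * q) A hgen) (S34DF_wq M q hq hqM)).toVal

theorem S34M_T1_O : (S34M_T1 M q A hgen).O = S34DF_O1 M q A hgen :=
  S34M_toVal_O_gen (S18_gaussModL (M * q) A hgen)

theorem S34M_T2_O : (S34M_T2 M q hq hqM A hgen).O = S34DF_O2 M q hq hqM A hgen :=
  S34M_comap_toVal_O_gen (S18_gaussModL (M * q) A hgen) (S34DF_wq M q hq hqM)

theorem S34M_same : S34P_Same (S34M_T1 M q A hgen) (S34M_T2 M q hq hqM A hgen) :=
  S34M_same_gen (S18_gaussModL (M * q) A hgen) (S34DF_wq M q hq hqM)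

/-- `j̄`: the reduction of `j` at `V₁`. -/
def S34M_xb : ↥(modularFunctionFieldFullC (IsLocalRing.ResidueField A) (M * q)) :=
  S18_red A (M * q) ⟨jB (M * q), S34VW_jB_mem M q A⟩

/-- the chart `U` (off the cusps): `B` = regular off the poles of `j`, `Rb₁` = regular off the
poles of `j̄`, `Rb₂` = regular off the poles of `j̄ ^ q`. -/
def S34M_chart (n : ℕ) (hn : 0 < n) :
    S34K_Chart (L := AlgebraicClosure ℚ) (F := ↥(modularFunctionFieldBar (M * q)))
      (k := IsLocalRing.ResidueField A)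
      (Fk₁ := ↥(modularFunctionFieldFullC (IsLocalRing.ResidueField A) (M * q)))
      (Fk₂ := ↥(modularFunctionFieldFullC (IsLocalRing.ResidueField A) (M * q))) n :=
  S34SB_chart (AlgebraicClosure ℚ) (IsLocalRing.ResidueField A) (jB (M * q))
    (S34M_xb M q A) (S34M_xb M q A ^ q) n hn

/-- the normalised Kummer generators of exponent `n`. -/
def S34M_Kp (n : ℕ) : Set ↥(modularFunctionFieldBar (M * q)) :=
  {u | KM_IsKum (AlgebraicClosure ℚ) ↥(modularFunctionFieldBar (M * q)) n u} ∩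
    S34K_Norm (S34M_T1 M q A hgen) (S34M_T2 M q hq hqM A hgen)

/-- **(G1 + G2 + G3)**: the nodes, (B) and (INJ) in the chart `U`. -/
def S34M_Nodes (n : ℕ) (hn : 0 < n) : Prop :=
  ∃ (s : ℕ) (e₁ : Fin s → ↥(S34M_chart M q A n hn).Rb₁ →ₐ[IsLocalRing.ResidueField A]
      IsLocalRing.ResidueField A)
    (e₂ : Fin s → ↥(S34M_chart M q A n hn).Rb₂ →ₐ[IsLocalRing.ResidueField A]
      IsLocalRing.ResidueField A),
    Function.Surjective (S34B_E e₁ e₂) ∧
    (∀ u ∈ S34M_Kp M q hq hqM A hgen n, ∃ c : Fin s → IsLocalRing.ResidueField A,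
      S34K_W (S34M_same M q hq hqM A hgen) (S34M_chart M q A n hn) u = S34B_glued e₁ e₂ c) ∧
    (∀ u ∈ S34M_Kp M q hq hqM A hgen n,
      S34K_W (S34M_same M q hq hqM A hgen) (S34M_chart M q A n hn) u =
        S34B_glued e₁ e₂ (fun _ => 1) → GR_IsTriv (M * q) n u)

/-- **(G4), inertia**: `g` keeps `O₁`, `O₂`, `B` and acts trivially on the reductions. -/
def S34M_StraightTau (n : ℕ) (hn : 0 < n) (τ : GQ) : Prop :=
  ∃ (hgO₁ : ∀ f ∈ (S34M_T1 M q A hgen).O, GR_gal (M * q) τ f ∈ (S34M_T1 M q A hgen).O)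
    (hgO₂ : ∀ f ∈ (S34M_T2 M q hq hqM A hgen).O,
      GR_gal (M * q) τ f ∈ (S34M_T2 M q hq hqM A hgen).O),
    (∀ f ∈ (S34M_chart M q A n hn).B, GR_gal (M * q) τ f ∈ (S34M_chart M q A n hn).B) ∧
    (∀ f : (S34M_T1 M q A hgen).O,
      (S34M_T1 M q A hgen).red ⟨GR_gal (M * q) τ f, hgO₁ f f.2⟩ = (S34M_T1 M q A hgen).red f) ∧
    (∀ f : (S34M_T2 M q hq hqM A hgen).O,
      (S34M_T2 M q hq hqM A hgen).red ⟨GR_gal (M * q) τ f, hgO₂ f f.2⟩ =
        (S34M_T2 M q hq hqM A hgen).red f)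

/-- **(G4 + G5), Frobenius**: `σ` keeps `O₁`, `O₂`, `B`, acts on the reductions through ring
endomorphisms `Φ₁`, `Φ₂` of the residue fields which are `θ = (·)^q` on `k` and preserve the fibre
rings, and (A3) holds. -/
def S34M_StraightSig (n : ℕ) (hn : 0 < n) (σ : GQ) : Prop :=
  ∃ (hgO₁ : ∀ f ∈ (S34M_T1 M q A hgen).O, GR_gal (M * q) σ f ∈ (S34M_T1 M q A hgen).O)
    (hgO₂ : ∀ f ∈ (S34M_T2 M q hq hqM A hgen).O,
      GR_gal (M * q) σ f ∈ (S34M_T2 M q hq hqM A hgen).O)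
    (θ : IsLocalRing.ResidueField A ≃+* IsLocalRing.ResidueField A)
    (Φ₁ Φ₂ : ↥(modularFunctionFieldFullC (IsLocalRing.ResidueField A) (M * q)) →+*
      ↥(modularFunctionFieldFullC (IsLocalRing.ResidueField A) (M * q))),
    (∀ f ∈ (S34M_chart M q A n hn).B, GR_gal (M * q) σ f ∈ (S34M_chart M q A n hn).B) ∧
    (∀ x : IsLocalRing.ResidueField A, θ x = x ^ q) ∧
    (∀ c : IsLocalRing.ResidueField A, Φ₁ (algebraMap _ _ c) = algebraMap _ _ (θ c)) ∧
    (∀ c : IsLocalRing.ResidueField A, Φ₂ (algebraMap _ _ c) = algebraMap _ _ (θ c)) ∧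
    (∀ a ∈ (S34M_chart M q A n hn).Rb₁, Φ₁ a ∈ (S34M_chart M q A n hn).Rb₁) ∧
    (∀ a ∈ (S34M_chart M q A n hn).Rb₂, Φ₂ a ∈ (S34M_chart M q A n hn).Rb₂) ∧
    (∀ f : (S34M_T1 M q A hgen).O,
      (S34M_T1 M q A hgen).red ⟨GR_gal (M * q) σ f, hgO₁ f f.2⟩ =
        Φ₁ ((S34M_T1 M q A hgen).red f)) ∧
    (∀ f : (S34M_T2 M q hq hqM A hgen).O,
      (S34M_T2 M q hq hqM A hgen).red ⟨GR_gal (M * q) σ f, hgO₂ f f.2⟩ =
        Φ₂ ((S34M_T2 M q hq hqM A hgen).red f)) ∧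
    (∀ b ∈ (S34M_chart M q A n hn).Rb₂,
      ∃ f : S34P_O2 (S34M_T1 M q A hgen) (S34M_T2 M q hq hqM A hgen),
        (f : ↥(modularFunctionFieldBar (M * q))) ∈ (S34M_chart M q A n hn).B ∧
        S34P_red (S34M_T1 M q A hgen) (S34M_T2 M q hq hqM A hgen) f =
          (0, Φ₂ (Φ₂ b) - b ^ (q ^ 2)))

end canon

section main

variable (M q : ℕ) [NeZero (M * q)] (hq : q.Prime) (hqM : ¬ q ∣ M)

/-- **(K-tau)** from the nodes and the straightness of inertia. -/
theorem S34M_kTau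
    (hN : ∀ (n : ℕ) (hn : 0 < n), ¬ q ∣ n → ∀ (A : ValuationSubring (AlgebraicClosure ℚ)),
      A.LiesOverPrime q → ∀ hgen : PrincipalGeneratedByIntegral A (IsLocalRing.residue A) (M * q),
      S34M_Nodes M q hq hqM A hgen n hn)
    (hS : ∀ (n : ℕ) (hn : 0 < n), ¬ q ∣ n → ∀ (A : ValuationSubring (AlgebraicClosure ℚ)),
      A.LiesOverPrime q → ∀ hgen : PrincipalGeneratedByIntegral A (IsLocalRing.residue A) (M * q),
      ∀ τ ∈ A.inertiaSubgroupIn ℚ, S34M_StraightTau M q hq hqM A hgen n hn τ) :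
    S34M_KTau M q hq hqM := by
  intro n hn hqn A hA hgen τ hτ u hu h1 h2
  obtain ⟨s, e₁, e₂, hE, hex, hinj⟩ := hN n hn hqn A hA hgen
  obtain ⟨hgO₁, hgO₂, hgB, hred₁, hred₂⟩ := hS n hn hqn A hA hgen τ hτ
  exact S34K_hK_tau (S34M_same M q hq hqM A hgen) (S34M_chart M q A n hn) e₁ e₂ hE hex hinj τ
    ((KMF_kappa_final (M * q)).gal n τ) hgO₁ hgO₂ hgB hred₁ hred₂ u hu h1 h2

/-- **(K-sig2)** from the nodes and the straightness of Frobenius lifts. -/
theorem S34M_kSig2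
    (hN : ∀ (n : ℕ) (hn : 0 < n), ¬ q ∣ n → ∀ (A : ValuationSubring (AlgebraicClosure ℚ)),
      A.LiesOverPrime q → ∀ hgen : PrincipalGeneratedByIntegral A (IsLocalRing.residue A) (M * q),
      S34M_Nodes M q hq hqM A hgen n hn)
    (hS : ∀ (n : ℕ) (hn : 0 < n), ¬ q ∣ n → ∀ (σ : GQ)
      (A : ValuationSubring (AlgebraicClosure ℚ)), A.LiesOverPrime q → A.IsFrobeniusAt σ q →
      ∀ hgen : PrincipalGeneratedByIntegral A (IsLocalRing.residue A) (M * q),
      S34M_StraightSig M q hq hqM A hgen n hn σ) :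
    S34M_KSig2 M q hq hqM := by
  intro n hn hqn σ A hA hAσ hgen u hu h1 h2
  obtain ⟨s, e₁, e₂, hE, hex, hinj⟩ := hN n hn hqn A hA hgen
  obtain ⟨hgO₁, hgO₂, θ, Φ₁, Φ₂, hgB, hθ, hΦ₁, hΦ₂, hΦRb₁, hΦRb₂, hred₁, hred₂, hA3⟩ :=
    hS n hn hqn σ A hA hAσ hgen
  exact S34K_hK_sig2 (S34M_same M q hq hqM A hgen) (S34M_chart M q A n hn) e₁ e₂ hE hex hinj σ
    ((KMF_kappa_final (M * q)).gal n σ) hgO₁ hgO₂ hgB q θ hθ Φ₁ Φ₂ hΦ₁ hΦ₂ hΦRb₁ hΦRb₂
    hred₁ hred₂ hA3 u hu h1 h2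

end main

end Fermat.Agent.S34
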