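import Mathlib
import Fermat.Agent.S34.Asm3

/-!
# TRACK 7 (NODE), package ASM (helper28), part 4: (G4) for inertia

`S34M_straightTau` : `S34M_StraightTau M q hq hqM A hgen n hn τ` for `τ` in the inertia group of
`A`: `τ` keeps `O₁`, `O₂ = w_q⁻¹ O₁` and the chart ring `B` (functions regular off the poles of
`j`), and acts trivially on both reductions.

Inputs: `S34R_inertia_O` (helper19), `S34WJ_wq_gal` (helper6), `S34WJ_arith_jBar`,
`Place.ord_smul` (Prelude).
-/

set_option autoImplicit false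
set_option synthInstance.maxHeartbeats 400000
set_option maxHeartbeats 800000
set_option linter.unusedSectionVars false
set_option linter.unusedVariables false
set_option linter.style.haveILetI false

open HahnSeries IntermediateField ModularCurve AlgebraicCurve CongruenceSubgroup

noncomputable section

namespace Fermat.Agent.S34

open Fermat.Agent.GalRep Fermat.Agent.S16 Fermat.Agent.S41 Fermat.Agent.S24 Fermat.Agent.S18
  Fermat.Agent.S35

section regGal

variable (N : ℕ) [NeZero N]

/-- the arithmetic Galois action keeps the ring of functions regular off the poles of `j`. -/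
theorem S34M_gal_reg (σ : GQ) (f : ↥(modularFunctionFieldBar N))
    (hf : f ∈ S34SB_reg (AlgebraicClosure ℚ) (jB N)) :
    GR_gal N σ f ∈ S34SB_reg (AlgebraicClosure ℚ) (jB N) := by
  rw [S34SB_mem_reg] at hf ⊢
  intro Q hQ
  set g : SemilinearAut (AlgebraicClosure ℚ) ↥(modularFunctionFieldBar N) :=
    arithmeticGalois (modularFunctionFieldFull N) σ with hg
  have hgj : g • jB N = jB N := S34WJ_arith_jBar N σ 1 (one_dvd N)
  -- the place `v = g⁻¹ • Q`
  have hQv : g • (g⁻¹ • Q) = Q := by rw [smul_smul, mul_inv_cancel, one_smul]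
  have hord : (g⁻¹ • Q).ord (jB N) = Q.ord (jB N) := by
    have h := SemilinearAut.ord_smul g (g⁻¹ • Q) (jB N)
    rw [hQv, hgj] at h
    exact h.symm
  have hfv : f ∈ (g⁻¹ • Q).toValuationSubring := hf _ (by rw [hord]; exact hQ)
  have h2 : g • f ∈ (g • (g⁻¹ • Q)).toValuationSubring := by
    rw [SemilinearAut.smul_toValuationSubring]
    exact ValuationSubring.smul_mem_pointwise_smul g f _ hfv
  rw [hQv] at h2
  exact h2

end regGal

section tau

variable (M q : ℕ) [NeZero (M * q)] (hq : q.Prime) (hqM : ¬ q ∣ M)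
  (A : ValuationSubring (AlgebraicClosure ℚ))
  (hgen : PrincipalGeneratedByIntegral A (IsLocalRing.residue A) (M * q))

/-- **(G4) for inertia.** -/
theorem S34M_straightTau (n : ℕ) (hn : 0 < n) (τ : GQ) (hτ : τ ∈ A.inertiaSubgroupIn ℚ) :
    S34M_StraightTau M q hq hqM A hgen n hn τ := by
  haveI : NeZero M := ⟨fun h => NeZero.ne (M * q) (by rw [h, zero_mul])⟩
  haveI : NeZero q := ⟨hq.ne_zero⟩
  have hO₁ : ∀ f ∈ (S34M_T1 M q A hgen).O, GR_gal (M * q) τ f ∈ (S34M_T1 M q A hgen).O := by
    intro f hf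
    exact (S34R_inertia_O (M * q) A τ hτ f hf).1
  have hw : ∀ f : ↥(modularFunctionFieldBar (M * q)),
      S34DF_wq M q hq hqM (GR_gal (M * q) τ f) = GR_gal (M * q) τ (S34DF_wq M q hq hqM f) :=
    fun f => S34WJ_wq_gal hq hqM τ f
  have hO₂ : ∀ f ∈ (S34M_T2 M q hq hqM A hgen).O,
      GR_gal (M * q) τ f ∈ (S34M_T2 M q hq hqM A hgen).O := by
    intro f hf
    have hf' : S34DF_wq M q hq hqM f ∈ S18_O A (M * q) := hf
    have h1 := (S34R_inertia_O (M * q) A τ hτ _ hf').1
    show S34DF_wq M q hq hqM (GR_gal (M * q) τ f) ∈ S18_O A (M * q)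
    rw [hw]
    exact h1
  refine ⟨hO₁, hO₂, ?_, ?_, ?_⟩
  · intro f hf
    exact S34M_gal_reg (M * q) τ f hf
  · intro f
    exact (S34R_inertia_O (M * q) A τ hτ f f.2).2
  · intro f
    have hf' : S34DF_wq M q hq hqM (f : ↥(modularFunctionFieldBar (M * q))) ∈ S18_O A (M * q) :=
      f.2
    have h2 := (S34R_inertia_O (M * q) A τ hτ _ hf').2
    show S18_red A (M * q) ⟨S34DF_wq M q hq hqM (GR_gal (M * q) τ f), _⟩ =
      S18_red A (M * q) ⟨S34DF_wq M q hq hqM f, _⟩
    have e : (⟨S34DF_wq M q hq hqM (GR_gal (M * q) τ f), hO₂ f f.2⟩ : S18_O A (M * q)) =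
        ⟨arithmeticGalois (modularFunctionFieldFull (M * q)) τ • S34DF_wq M q hq hqM f,
          (S34R_inertia_O (M * q) A τ hτ _ hf').1⟩ := Subtype.ext (hw f)
    rw [e]
    exact h2

end tau

end Fermat.Agent.S34
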