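import Fermat.Agent.S34.RedU4
import Fermat.Agent.S34.Asm2
import Fermat.Agent.S35.BridgeB

/-!
# TRACK 7, package RED2 (helper26), part 5: `S34M_Red2` unconditionally

* `S34U_bridge`     : `S34U_Bridge M q` from helper8's `S35B_bridge` and `KMF_kappa_final M`;
* `S34U_Red2_final` : `S34M_Red2 M q hq hqM`, the named input (BRIDGE + RED2) of ASM
  (`S34M_frob4K`), with VAL-2 from `S34M_incomp`.
* `S34U_frob4K`     : `S35A_Frob4K M q` from (VAL-HGEN) and (K-sig2) only.
-/

set_option autoImplicit false
set_option synthInstance.maxHeartbeats 400000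
set_option maxHeartbeats 1000000
set_option linter.unusedSectionVars false
set_option linter.unusedVariables false

open ModularCurve AlgebraicCurve CongruenceSubgroup

noncomputable section

namespace Fermat.Agent.S34

open Fermat.Agent.GalRep Fermat.Agent.S16 Fermat.Agent.S41 Fermat.Agent.S24 Fermat.Agent.S18
  Fermat.Agent.S35

variable (M q : ℕ) [NeZero M] [NeZero q] [NeZero (M * q)] (hq : q.Prime) (hqM : ¬ q ∣ M)

include hqM in
/-- **(BRIDGE)** (helper8) in the shape consumed by RED2. -/
theorem S34U_bridge [Fact q.Prime] : S34U_Bridge M q := by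
  intro n hn _ f z hz hf hχ
  exact S35B_bridge hqM (KMF_kappa_final M) n hn f z hz hf hχ

/-- **the named input `S34M_Red2` of ASM**, unconditionally. -/
theorem S34U_Red2_final [Fact q.Prime] : S34M_Red2 M q hq hqM :=
  S34U_Red2 M q hq hqM (S34U_bridge M q hqM) (S34M_incomp M q hq hqM)

/-- **(FROB4-K)** from (VAL-HGEN) and (K-sig2) only. -/
theorem S34U_frob4K [Fact q.Prime] (hgen : S34M_HGen M q) (hK : S34M_KSig2 M q hq hqM) :
    S35A_Frob4K M q :=
  S34M_frob4K M q hq hqM hgen hK (S34U_Red2_final M q hq hqM)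

end Fermat.Agent.S34
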