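import Mathlib
import Fermat.Agent.GalRep.HeckeDeg
import Fermat.Agent.S37.HeckeP
import Fermat.Agent.S24.FInd

/-!
# TRACK 7 (S34 + S35), package VAL-HGEN, piece GEN (helper24), prefix `S34VG_`

`F_{Mq}` is generated as an `F_M`-ALGEBRA (along `α`) by the `β (j(t^d)) = j(t^{q d})`, `d ∣ M`.
-/

set_option autoImplicit false
set_option linter.style.haveILetI false
set_option synthInstance.maxHeartbeats 400000
set_option maxHeartbeats 1000000

open IntermediateField AlgebraicCurve ModularCurve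

namespace Fermat.Agent.S34

open Fermat.Agent.S24 Fermat.Agent.GalRep Fermat.Agent.S37

/-- a divisor of `M * q`, `q` prime, is `d` or `q * d` with `d ∣ M`. -/
theorem S34VG_dvd_cases {M q e : ℕ} (hq : q.Prime) (he : e ∣ M * q) :
    e ∣ M ∨ ∃ d, d ∣ M ∧ e = q * d := by
  by_cases hqe : q ∣ e
  · obtain ⟨d, rfl⟩ := hqe
    right
    refine ⟨d, ?_, rfl⟩
    rw [mul_comm M q] at he
    exact (Nat.mul_dvd_mul_iff_left hq.pos).mp he
  · left
    exact (Nat.Coprime.dvd_mul_right
      ((Nat.Prime.coprime_iff_not_dvd hq).mpr hqe).symm).mp he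

/-- **GEN**: `F_{Mq} = F_M[β j_d : d ∣ M]` (as an `F_M`-algebra along `α`). -/
theorem S34VG_adjoin_top (M q : ℕ) [NeZero M] [NeZero q] (hq : q.Prime) :
    letI := algebraAlong (heckeAlphaBar (AlgebraicClosure ℚ) M q)
    Algebra.adjoin ↥(modularFunctionFieldBar M)
      {y : ↥(modularFunctionFieldBar (M * q)) | ∃ (d : ℕ) (_ : NeZero d) (hd : d ∣ M),
        y = heckeBetaBar (AlgebraicClosure ℚ) M q (Fermat.Agent.S24.jBar M d hd)} = ⊤ := by
  letI := algebraAlong (heckeAlphaBar (AlgebraicClosure ℚ) M q)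
  rw [eq_top_iff]
  rintro f -
  set S := Algebra.adjoin ↥(modularFunctionFieldBar M)
      {y : ↥(modularFunctionFieldBar (M * q)) | ∃ (d : ℕ) (_ : NeZero d) (hd : d ∣ M),
        y = heckeBetaBar (AlgebraicClosure ℚ) M q (Fermat.Agent.S24.jBar M d hd)} with hS
  have halg : ∀ x : ↥(modularFunctionFieldBar (M * q)),
      IsAlgebraic ↥(modularFunctionFieldBar M) x := by
    intro x
    have h : IsIntegral ↥(modularFunctionFieldBar M) x :=
      S37P_alpha_integral M q x
    exact h.isAlgebraic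
  have hα : ∀ g : ↥(modularFunctionFieldBar M),
      heckeAlphaBar (AlgebraicClosure ℚ) M q g ∈ S := fun g => S.algebraMap_mem g
  refine F_induction (M * q) (fun f => f ∈ S) ?_ ?_ ?_ ?_ ?_ f
  · intro c
    have h := hα (algebraMap (AlgebraicClosure ℚ) ↥(modularFunctionFieldBar M) c)
    rwa [AlgHom.commutes] at h
  · intro e _ he
    rcases S34VG_dvd_cases hq he with h | ⟨d, hd, rfl⟩
    · have h1 := hα (jBar M e h)
      rwa [GRHF_alpha_jBar] at h1
    · haveI : NeZero d := ⟨by
        rintro rfl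
        exact NeZero.ne (q * 0) (by simp)⟩
      have h1 : heckeBetaBar (AlgebraicClosure ℚ) M q (jBar M d hd) ∈ S :=
        Algebra.subset_adjoin ⟨d, inferInstance, hd, rfl⟩
      rwa [GRHF_beta_jBar] at h1
  · intro x y hx hy
    exact S.add_mem hx hy
  · intro x y hx hy
    exact S.mul_mem hx hy
  · intro x hx
    exact Subalgebra.inv_mem_of_algebraic (A := S) (x := ⟨x, hx⟩) (halg x)

end Fermat.Agent.S34
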