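import Fermat.Agent.S34.ValHgenNorm
import Fermat.Agent.S34.ValGen
import Fermat.Agent.S37.FinrankAlpha

/-!
# TRACK 7 (S34 + S35), package VAL-HGEN, part 6 (helper18): assembly

`N = M q`, `q ∤ M` prime, `A ⊂ ℚ̄` over `q`.

* `S34VH_app_gen` : `β j_d = j(t^{qd})` is approximable by elements of `F_M` (Hensel);
* `S34VH_exists_rep` : every `f ∈ F_N^×` is `c · ι s₁ / ι s₂`, `s_i ∈ B_N`, `ρ s_i ≠ 0`;
* `S34VH_hgen` : `PrincipalGeneratedByIntegral A (residue A) (M q)`.
-/

set_option autoImplicit false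
set_option synthInstance.maxHeartbeats 400000
set_option maxHeartbeats 1000000
set_option linter.style.haveILetI false
set_option linter.unusedSectionVars false

open HahnSeries IntermediateField AlgebraicCurve ModularCurve

namespace Fermat.Agent.S34

open Fermat.Agent.S18 Fermat.Agent.S24 Fermat.Agent.S37 Fermat.Agent.GalRep Fermat.Agent.Lib

/-- `n` elements of `A` with pairwise distinct residues. -/
theorem S34VH_exists_points (A : ValuationSubring (AlgebraicClosure ℚ)) (n : ℕ) :
    ∃ c : Fin n → A, Function.Injective fun i => IsLocalRing.residue A (c i) := by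
  haveI : IsAlgClosed (IsLocalRing.ResidueField A) := S18_residue_isAlgClosed A
  have e := Infinite.natEmbedding (IsLocalRing.ResidueField A)
  refine ⟨fun i => (IsLocalRing.residue_surjective (e (i : ℕ))).choose, fun i j hij => ?_⟩
  have hi := (IsLocalRing.residue_surjective (R := A) (e (i : ℕ))).choose_spec
  have hj := (IsLocalRing.residue_surjective (R := A) (e (j : ℕ))).choose_spec
  have h1 : e (i : ℕ) = e (j : ℕ) := by
    rw [← hi, ← hj]; exact hij
  exact Fin.ext (e.injective h1)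

section

variable (M q : ℕ) [NeZero M] [NeZero q] (hq : q.Prime) (hqM : ¬ q ∣ M)
  (A : ValuationSubring (AlgebraicClosure ℚ)) (hA : A.LiesOverPrime q)

/-- `j̄(t^d)` as an element of `F̄_N`. -/
noncomputable def S34VH_jk (d : ℕ) [NeZero d] (hd : d ∣ M) :
    ↥(modularFunctionFieldFullC (IsLocalRing.ResidueField A) (M * q)) :=
  ⟨jqNModC (IsLocalRing.ResidueField A) d,
    IntermediateField.subset_adjoin _ _
      (mem_divisorExpansionsC _ _ (hd.trans (dvd_mul_right M q)))⟩

theorem S34VH_jk_coe (d : ℕ) [NeZero d] (hd : d ∣ M) :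
    ((S34VH_jk M q A d hd : ↥(modularFunctionFieldFullC (IsLocalRing.ResidueField A) (M * q))) :
      LaurentSeries (IsLocalRing.ResidueField A)) = jqNModC (IsLocalRing.ResidueField A) d :=
  Subtype.coe_mk _ _

theorem S34VH_jqd_mem (d : ℕ) [NeZero d] (hd : d ∣ M) :
    qExpand A q (jqNModC A d) ∈ S18_B A (M * q) := by
  refine ⟨?_, ?_⟩
  · show coeffMap A.subtype (qExpand A q (jqNModC A d)) ∈
      laurentBaseChange (AlgebraicClosure ℚ) (modularFunctionFieldFull (M * q))
    rw [GRHF_coeffMap_qExpand, coeffMap_jqNModC, ← S34VH_jBar_val M d hd]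
    exact (heckeBetaBar (AlgebraicClosure ℚ) M q (jBar M d hd)).2
  · show coeffMap (IsLocalRing.residue A) (qExpand A q (jqNModC A d)) ∈
      modularFunctionFieldFullC (IsLocalRing.ResidueField A) (M * q)
    rw [GRHF_coeffMap_qExpand, coeffMap_jqNModC, jqNModC, qExpand_qExpand]
    exact IntermediateField.subset_adjoin _ _
      (mem_divisorExpansionsC _ _ (mul_comm M q ▸ mul_dvd_mul_left q hd))

/-- `j(t^{qd})` as an element of `B_N`. -/
noncomputable def S34VH_jqd (d : ℕ) [NeZero d] (hd : d ∣ M) : S18_B A (M * q) :=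
  ⟨qExpand A q (jqNModC A d), S34VH_jqd_mem M q A d hd⟩

theorem S34VH_Bι_jqd (d : ℕ) [NeZero d] (hd : d ∣ M) :
    S18_Bι A (M * q) (S34VH_jqd M q A d hd) =
      heckeBetaBar (AlgebraicClosure ℚ) M q (jBar M d hd) := by
  apply Subtype.ext
  show coeffMap A.subtype (qExpand A q (jqNModC A d)) = qExpand (AlgebraicClosure ℚ) q _
  rw [GRHF_coeffMap_qExpand, coeffMap_jqNModC, S34VH_jBar_val M d hd]

include hq hA in
theorem S34VH_Bρ_jqd (d : ℕ) [NeZero d] (hd : d ∣ M) :
    S18_Bρ A (M * q) (S34VH_jqd M q A d hd) = S34VH_jk M q A d hd ^ q := by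
  haveI : Fact q.Prime := ⟨hq⟩
  haveI : CharP (IsLocalRing.ResidueField A) q := S18_residue_charP A q hq hA
  apply Subtype.ext
  rw [SubmonoidClass.coe_pow, S34VH_jk_coe, S34VH_jq_pow]
  show coeffMap (IsLocalRing.residue A) (qExpand A q (jqNModC A d)) = _
  rw [GRHF_coeffMap_qExpand, coeffMap_jqNModC]

/-- the reduction (in `F̄_N`) of `α (ι s)`, `s ∈ B_M`, as a series. -/
theorem S34VH_red_alpha_Bι (s : S18_B A M) :
    ((S18_red A (M * q) ⟨heckeAlphaBar (AlgebraicClosure ℚ) M q (S18_Bι A M s),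
      S34VH_alpha_mem M q A (S18_Bι_mem_O A M s)⟩ :
      ↥(modularFunctionFieldFullC (IsLocalRing.ResidueField A) (M * q))) :
        LaurentSeries (IsLocalRing.ResidueField A)) = S18_ρ A s.1 := by
  rw [S34VH_red_alpha M q A (S18_Bι_mem_O A M s), S18_red_Bι]
  exact S18_Bρ_coe A M s


include hq hqM hA in
/-- **Hensel**: `β j_d = j(t^{qd})` is approximable by elements of `F_M`. -/
theorem S34VH_app_gen (d : ℕ) [NeZero d] (hd : d ∣ M) :
    letI := algebraAlong (heckeAlphaBar (AlgebraicClosure ℚ) M q)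
    haveI := S34VH_tower M q
    (S34VH_datum M q hq hqM A hA).App
      (heckeBetaBar (AlgebraicClosure ℚ) M q (jBar M d hd)) := by
  letI := algebraAlong (heckeAlphaBar (AlgebraicClosure ℚ) M q)
  haveI := S34VH_tower M q
  haveI : Fact q.Prime := ⟨hq⟩
  haveI : CharP (IsLocalRing.ResidueField A) q := S18_residue_charP A q hq hA
  have hfr : Module.finrank ↥(modularFunctionFieldBar M) ↥(modularFunctionFieldBar (M * q)) =
      q + 1 := S37P_finrank_alpha M q hq hqM
  haveI : FiniteDimensional ↥(modularFunctionFieldBar M) ↥(modularFunctionFieldBar (M * q)) :=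
    Module.finite_of_finrank_pos (by rw [hfr]; omega)
  set D := S34VH_datum M q hq hqM A hA with hD
  set J := S34VH_jk M q A d hd with hJ
  -- the element `y`
  have hyO : heckeBetaBar (AlgebraicClosure ℚ) M q (jBar M d hd) ∈ S18_O A (M * q) := by
    rw [← S34VH_Bι_jqd]
    exact S18_Bι_mem_O A (M * q) _
  have hredy : S18_red A (M * q) ⟨_, hyO⟩ = J ^ q := by
    have e : (⟨_, hyO⟩ : S18_O A (M * q)) =
        ⟨S18_Bι A (M * q) (S34VH_jqd M q A d hd), S18_Bι_mem_O A (M * q) _⟩ :=
      Subtype.ext (S34VH_Bι_jqd M q A d hd).symm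
    rw [e, S18_red_Bι, S34VH_Bρ_jqd M q hq A hA]
  -- the reduced polynomial
  set Φbar : Polynomial ↥(modularFunctionFieldFullC (IsLocalRing.ResidueField A) (M * q)) :=
    (Polynomial.X - Polynomial.C (J ^ q)) * (Polynomial.X ^ q - Polynomial.C J) with hΦ
  have hdegbar : Φbar.degree < (Module.finrank ↥(modularFunctionFieldBar M)
      ↥(modularFunctionFieldBar (M * q)) + 1 : ℕ) := by
    rw [hfr, hΦ, Polynomial.degree_mul, Polynomial.degree_X_sub_C,
      Polynomial.degree_X_pow_sub_C hq.pos]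
    have : ((1 : ℕ) : WithBot ℕ) + (q : ℕ) < ((q + 1 + 1 : ℕ) : WithBot ℕ) := by
      exact_mod_cast (by omega : 1 + q < q + 1 + 1)
    exact_mod_cast this
  -- the points
  obtain ⟨c, hc⟩ := S34VH_exists_points A
    (Module.finrank ↥(modularFunctionFieldBar M) ↥(modularFunctionFieldBar (M * q)) + 1)
  have hvmem : ∀ i, algebraMap (AlgebraicClosure ℚ) ↥(modularFunctionFieldBar M)
      ((c i : A) : AlgebraicClosure ℚ) ∈ S18_O A M := fun i =>
    (S18_algebraMap_mem_O_iff A M _).mpr (c i).2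
  set v : Fin (Module.finrank ↥(modularFunctionFieldBar M)
      ↥(modularFunctionFieldBar (M * q)) + 1) → D.OK := fun i => ⟨_, hvmem i⟩ with hv
  have hρv : ∀ i, D.ρ (v i) = algebraMap (IsLocalRing.ResidueField A)
      ↥(modularFunctionFieldFullC (IsLocalRing.ResidueField A) (M * q))
        (IsLocalRing.residue A (c i)) := by
    intro i
    have e : (D.ι (v i) : S18_O A (M * q)) =
        ⟨algebraMap (AlgebraicClosure ℚ) ↥(modularFunctionFieldBar (M * q))
          ((c i : A) : AlgebraicClosure ℚ), (S18_algebraMap_mem_O_iff A (M * q) _).mpr (c i).2⟩ :=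
      Subtype.ext ((heckeAlphaBar (AlgebraicClosure ℚ) M q).commutes _)
    show S18_red A (M * q) (D.ι (v i)) = _
    rw [e]
    exact S18_red_algebraMap A (M * q) (c i)
  have hvinj : Function.Injective fun i => D.ρ (v i) := by
    intro i j hij
    simp only [hρv] at hij
    exact hc ((algebraMap (IsLocalRing.ResidueField A)
      ↥(modularFunctionFieldFullC (IsLocalRing.ResidueField A) (M * q))).injective hij)
  have hcoeC : ∀ a : IsLocalRing.ResidueField A,
      ((algebraMap (IsLocalRing.ResidueField A)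
        ↥(modularFunctionFieldFullC (IsLocalRing.ResidueField A) (M * q)) a :
        ↥(modularFunctionFieldFullC (IsLocalRing.ResidueField A) (M * q))) :
        LaurentSeries (IsLocalRing.ResidueField A)) = HahnSeries.C a := by
    intro a
    show algebraMap (IsLocalRing.ResidueField A) (LaurentSeries (IsLocalRing.ResidueField A)) a = _
    rw [algebraMap_laurentSeries_eq_single]
    rfl
  -- the base point
  set g₀ : D.OK := ⟨S18_Bι A M (S34VH_jd M A d hd ^ q), S18_Bι_mem_O A M _⟩ with hg₀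
  have hρg₀ : D.ρ g₀ = J ^ q := by
    apply Subtype.ext
    have e : ((D.ρ g₀ : ↥(modularFunctionFieldFullC (IsLocalRing.ResidueField A) (M * q))) :
        LaurentSeries (IsLocalRing.ResidueField A)) = S18_ρ A (S34VH_jd M A d hd ^ q).1 :=
      S34VH_red_alpha_Bι M q A (S34VH_jd M A d hd ^ q)
    rw [e, SubmonoidClass.coe_pow, hJ, SubmonoidClass.coe_pow, S34VH_jk_coe, map_pow,
      S34VH_ρ_jd]
  refine D.app_of_norm_values ?_ ⟨_, hyO⟩ Φbar hdegbar v hvinj ?_ g₀ ?_ ?_
  · -- the rank-one property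
    intro a ha haO hainv n
    have haA : a ∈ A := (S18_algebraMap_mem_O_iff A M a).mp haO
    have hainvA : a⁻¹ ∉ A := by
      intro hcon
      apply hainv
      rw [← map_inv₀]
      exact (S18_algebraMap_mem_O_iff A M _).mpr hcon
    obtain ⟨m, hm⟩ := S34VA_arch' q hq A hA a haA hainvA n
    exact ⟨m, (S18_algebraMap_mem_O_iff A M _).mpr hm⟩
  · -- the norms
    intro i
    obtain ⟨w, hw1, hw2⟩ := S34VH_norm_value M q hq hqM A hA d hd (c i)
    refine ⟨⟨S18_Bι A M w, S18_Bι_mem_O A M w⟩, ?_, ?_⟩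
    · show S18_Bι A M w = Algebra.norm ↥(modularFunctionFieldBar M)
        (heckeAlphaBar (AlgebraicClosure ℚ) M q
          (algebraMap (AlgebraicClosure ℚ) ↥(modularFunctionFieldBar M)
            ((c i : A) : AlgebraicClosure ℚ)) -
          heckeBetaBar (AlgebraicClosure ℚ) M q (jBar M d hd))
      rw [hw1]
      show Algebra.norm ↥(modularFunctionFieldBar M) (heckeBetaBar (AlgebraicClosure ℚ) M q _) = _
      congr 1
      rw [map_sub, AlgHom.commutes, AlgHom.commutes]
    · apply Subtype.ext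
      have e : ((D.ρ ⟨S18_Bι A M w, S18_Bι_mem_O A M w⟩ :
          ↥(modularFunctionFieldFullC (IsLocalRing.ResidueField A) (M * q))) :
          LaurentSeries (IsLocalRing.ResidueField A)) = S18_ρ A w.1 :=
        S34VH_red_alpha_Bι M q A w
      rw [e, hw2, hρv, hΦ]
      simp only [Polynomial.eval_mul, Polynomial.eval_sub, Polynomial.eval_X, Polynomial.eval_C,
        Polynomial.eval_pow, MulMemClass.coe_mul, AddSubgroupClass.coe_sub,
        SubmonoidClass.coe_pow, hcoeC, hJ, S34VH_jk_coe]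
  · -- the congruence
    have e1 : D.red (⟨_, hyO⟩ : D.O) = J ^ q := hredy
    have e2 : D.red (D.ι g₀) = J ^ q := hρg₀
    rw [map_sub, e1, e2, sub_self]
  · -- the derivative
    rw [hρg₀, hΦ]
    simp only [Polynomial.derivative_mul, Polynomial.derivative_sub, Polynomial.derivative_X,
      Polynomial.derivative_C, sub_zero, one_mul, Polynomial.eval_add, Polynomial.eval_mul,
      Polynomial.eval_sub, Polynomial.eval_X, Polynomial.eval_C, Polynomial.eval_pow, sub_self,
      zero_mul, add_zero]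
    intro h0
    have h1 : (J ^ q) ^ q = J := sub_eq_zero.mp h0
    have h2 := congrArg (fun x : ↥(modularFunctionFieldFullC (IsLocalRing.ResidueField A)
      (M * q)) => (x : LaurentSeries (IsLocalRing.ResidueField A))) h1
    simp only [SubmonoidClass.coe_pow] at h2
    rw [hJ, S34VH_jk_coe, ← pow_mul] at h2
    exact S34VH_jq_pow_ne (IsLocalRing.ResidueField A) d (q * q)
      (by nlinarith [hq.two_le]) h2

include hq hqM hA in
/-- **VAL-HGEN, function form**: every `f ∈ F_N^×` is `c · ι s₁ / ι s₂` with `c ∈ ℚ̄^×`,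
`s_i ∈ B_N`, `ρ s_i ≠ 0`. -/
theorem S34VH_exists_rep (f : ↥(modularFunctionFieldBar (M * q))) (hf : f ≠ 0) :
    ∃ (c : AlgebraicClosure ℚ) (s₁ s₂ : S18_B A (M * q)), c ≠ 0 ∧ S18_Bρ A (M * q) s₁ ≠ 0 ∧
      S18_Bρ A (M * q) s₂ ≠ 0 ∧
      f * S18_Bι A (M * q) s₂ =
        algebraMap (AlgebraicClosure ℚ) ↥(modularFunctionFieldBar (M * q)) c *
          S18_Bι A (M * q) s₁ := by
  letI := algebraAlong (heckeAlphaBar (AlgebraicClosure ℚ) M q)
  haveI := S34VH_tower M q
  set D := S34VH_datum M q hq hqM A hA with hD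
  have hY : ∀ y ∈ {y : ↥(modularFunctionFieldBar (M * q)) | ∃ (d : ℕ) (_ : NeZero d)
      (hd : d ∣ M), y = heckeBetaBar (AlgebraicClosure ℚ) M q (jBar M d hd)}, D.App y := by
    rintro y ⟨d, hd0, hd, rfl⟩
    exact S34VH_app_gen M q hq hqM A hA d hd
  obtain ⟨c, hc, u, hu, hfu⟩ := D.exists_const_mul_unit hY (S34VG_adjoin_top M q hq) hf
  obtain ⟨s₁, s₂, hne, h⟩ := (S18_mem_O' A (M * q)).mp u.2
  have hs1 : S18_Bρ A (M * q) s₁ ≠ 0 := by
    intro h0
    apply hu
    show S18_red A (M * q) ⟨u.1, u.2⟩ = 0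
    rw [S18_red_eq' A (M * q) u.2 hne h, h0, zero_div]
  refine ⟨c, s₁, s₂, hc, hs1, hne, ?_⟩
  rw [hfu, mul_assoc, h]

include hq hqM hA in
/-- **VAL-HGEN**: `PrincipalGeneratedByIntegral` at level `M q`, `q ∤ M`, for `A` over `q`. -/
theorem S34VH_hgen : PrincipalGeneratedByIntegral A (IsLocalRing.residue A) (M * q) := by
  intro D hD
  obtain ⟨f, hf, hDf⟩ := hD
  obtain ⟨c, s₁, s₂, hc, h1, h2, hrep⟩ := S34VH_exists_rep M q hq hqM A hA f hf
  have hs1 := S18_Bι_ne_zero A (M * q) h1
  have hs2 := S18_Bι_ne_zero A (M * q) h2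
  obtain ⟨D₁, hD₁, -⟩ := (S18_hPD (M * q)).exists_divisor _ hs1
  obtain ⟨D₂, hD₂, -⟩ := (S18_hPD (M * q)).exists_divisor _ hs2
  have hmem : ∀ (s : S18_B A (M * q))
      (E : Divisor (AlgebraicClosure ℚ) ↥(modularFunctionFieldBar (M * q))),
      S18_Bρ A (M * q) s ≠ 0 → (∀ P, E P = P.ord (S18_Bι A (M * q) s)) →
      E ∈ integralPrincipalDivisors A (IsLocalRing.residue A) (M * q) := fun s E hs hE =>
    ⟨s.1, s.2.1, s.2.2, fun h => hs (Subtype.ext h), hE⟩
  have hDeq : D = D₁ - D₂ := by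
    ext P
    rw [Finsupp.sub_apply, hDf P, hD₁ P, hD₂ P]
    have hcF : algebraMap (AlgebraicClosure ℚ) ↥(modularFunctionFieldBar (M * q)) c ≠ 0 := by
      rwa [Ne, map_eq_zero]
    have h3 := congrArg P.ord hrep
    rw [P.ord_mul hf hs2, P.ord_mul hcF hs1, S18_Spec.ord_algebraMap] at h3
    omega
  rw [hDeq]
  exact AddSubgroup.sub_mem _ (AddSubgroup.subset_closure (hmem s₁ D₁ h1 hD₁))
    (AddSubgroup.subset_closure (hmem s₂ D₂ h2 hD₂))

end

end Fermat.Agent.S34
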