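import Mathlib
import Fermat.Agent.S34.Asm4
import Fermat.Agent.S34.ValHgenAsm
import Fermat.Agent.S34.RedU5

/-!
# TRACK 7 (NODE), package ASM (helper28), part 5: everything except the nodes

(VAL-HGEN) `S34VH_hgen` (helper18), (BRIDGE + RED2) `S34U_Red2_final` (helper26, helper8, helper7)
and (G4) for inertia `S34M_straightTau` are proved.  Hence:

* `S34M_hgen`           : `S34M_HGen M q`;
* `S34M_NodesAll`       : the ONE remaining target for S34 — `S34M_Nodes` at every place `A ∣ q`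
                          and every exponent `n` prime to `q`;
* `S34M_uniK_of_nodes`  : `S35A_UniK M q` from `S34M_NodesAll`;
* `S34M_S34_of_nodes`   : the statement of S34 from `S34M_NodesAll` at all levels `M * q`, `q ∤ M`;
* `S34M_SigAll`, `S34M_frob4K_of_nodes` : `S35A_Frob4K M q` from `S34M_NodesAll` and (G4 + G5) for
  Frobenius lifts.
-/

set_option autoImplicit false
set_option synthInstance.maxHeartbeats 400000
set_option maxHeartbeats 800000
set_option linter.unusedSectionVars false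
set_option linter.unusedVariables false
set_option linter.style.haveILetI false

open HahnSeries IntermediateField ModularCurve AlgebraicCurve CongruenceSubgroup

noncomputable section

namespace Fermat.Agent.S34

open Fermat.Agent.GalRep Fermat.Agent.S16 Fermat.Agent.S41 Fermat.Agent.S24 Fermat.Agent.S18
  Fermat.Agent.S35

section level

variable (M q : ℕ) [NeZero (M * q)] (hq : q.Prime) (hqM : ¬ q ∣ M)

include hq hqM in
/-- **(VAL-HGEN)** holds at every place above `q`. -/
theorem S34M_hgen : S34M_HGen M q := by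
  haveI : NeZero M := ⟨fun h => NeZero.ne (M * q) (by rw [h, zero_mul])⟩
  haveI : NeZero q := ⟨hq.ne_zero⟩
  intro A hA
  exact S34VH_hgen M q hq hqM A hA

/-- **the remaining target for S34**: the nodes, (B) and (INJ) at every place `A ∣ q` and every
exponent `n` prime to `q`. -/
def S34M_NodesAll : Prop :=
  ∀ (n : ℕ) (hn : 0 < n), ¬ q ∣ n → ∀ (A : ValuationSubring (AlgebraicClosure ℚ)),
    A.LiesOverPrime q → ∀ hgen : PrincipalGeneratedByIntegral A (IsLocalRing.residue A) (M * q),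
    S34M_Nodes M q hq hqM A hgen n hn

/-- **the remaining target for S35** (besides the nodes): (G4 + G5) for Frobenius lifts. -/
def S34M_SigAll : Prop :=
  ∀ (n : ℕ) (hn : 0 < n), ¬ q ∣ n → ∀ (σ : GQ)
    (A : ValuationSubring (AlgebraicClosure ℚ)), A.LiesOverPrime q → A.IsFrobeniusAt σ q →
    ∀ hgen : PrincipalGeneratedByIntegral A (IsLocalRing.residue A) (M * q),
    S34M_StraightSig M q hq hqM A hgen n hn σ

/-- **(K-tau)** from the nodes. -/
theorem S34M_kTau_of_nodes (hN : S34M_NodesAll M q hq hqM) : S34M_KTau M q hq hqM :=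
  S34M_kTau M q hq hqM hN
    (fun n hn _ A _ hgen τ hτ => S34M_straightTau M q hq hqM A hgen n hn τ hτ)

/-- **(UNI-K)** from the nodes. -/
theorem S34M_uniK_of_nodes (hN : S34M_NodesAll M q hq hqM) : S35A_UniK M q :=
  S34M_uniK' M q hq hqM (S34M_hgen M q hq hqM) (S34M_kTau_of_nodes M q hq hqM hN)

/-- **(FROB4-K)** from the nodes and the straightness of Frobenius lifts. -/
theorem S34M_frob4K_of_nodes [NeZero M] [NeZero q] [Fact q.Prime]
    (hN : S34M_NodesAll M q hq hqM) (hS : S34M_SigAll M q hq hqM) : S35A_Frob4K M q :=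
  S34U_frob4K M q hq hqM (S34M_hgen M q hq hqM) (S34M_kSig2 M q hq hqM hN hS)

end level

section datum

open IsLocalRing CuspForm

variable {𝒪 : Type} [CommRing 𝒪] [IsDomain 𝒪] [IsDiscreteValuationRing 𝒪]
  [IsAdicComplete (maximalIdeal 𝒪) 𝒪] [Finite (ResidueField 𝒪)] [CharZero 𝒪]
  {p : ℕ} {N : ℕ} [NeZero N] {S : Finset ℕ}
  {θ : CuspForm.heckeAlgebra N 2 (↑S : Set ℕ) →+* ResidueField 𝒪}
  {T : Type} [CommRing T] [IsLocalRing T] [IsNoetherianRing T]
  [IsAdicComplete (maximalIdeal T) T] [Algebra 𝒪 T] [IsLocalHom (algebraMap 𝒪 T)]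
  [Module.Finite 𝒪 T] [Module.Free 𝒪 T]

/-- **S34 from the nodes** at all levels `M * q`, `q ∤ M`. -/
theorem S34M_S34_of_nodes
    (hN : ∀ (M q : ℕ) [NeZero (M * q)] (hq : q.Prime) (hqM : ¬ q ∣ M),
      S34M_NodesAll M q hq hqM)
    (hp : p.Prime) (hp𝒪 : (p : 𝒪) ∈ maximalIdeal 𝒪) (hpS : p ∈ S)
    (hNS : ∀ q : ℕ, q.Prime → q ∣ N → q ∈ S)
    (H : CuspForm.HeckeGaloisRepDatum N (↑S : Set ℕ) 𝒪 θ T)
    (q : ℕ) (hq : q.Prime) (hqp : q ≠ p) (hqN : q ∣ N) (hq2 : ¬ q ^ 2 ∣ N) :
    H.ρ.IsUnipotentOnInertiaAt q :=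
  S34A_main_uniK
    (fun M q _ hq hqM => S34M_uniK_of_nodes M q hq hqM (hN M q hq hqM))
    hp hp𝒪 hpS hNS H q hq hqp hqN hq2

end datum

end Fermat.Agent.S34
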