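import Mathlib
import Fermat.Agent.S34.ValWire
import Fermat.Agent.S18.Sep
import Fermat.Agent.S24.EvFormal

/-!
# TRACK 7 (S34 + S35), package FIBRE-ISO (helper9)

Level `N = M * q`, `q` prime, `k` a field of characteristic `q`.

* `S34FI_full_eq` : `modularFunctionFieldFullC k (M * q) = modularFunctionFieldFullC k M` as
  subfields of `k((t))` (Frobenius: `j̄(t^{q d}) = j̄(t^d)^q`).
* `S34FI_hk` : `RR_Hyp k F̄_{M q}` at a place `A ∣ q`, `q ∤ M` (transport of `S18_hk` at level `M`).
* `S34FI_alpha`, `S34FI_beta` : for `f` in the Gauss ring `S18_O A M` of level `M`, `α f` and `β f`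
  lie in the Gauss ring `S18_O A (M * q)` and `red (α f) = red f`, `red (β f) = (red f)(t^q)` as
  Laurent series over `k`.
* `S34FI_cast` and the transport of `L(D)` along an equality of intermediate fields.

Prefix `S34FI_`.
-/

set_option autoImplicit false
set_option linter.unusedSectionVars false
set_option linter.style.haveILetI false
set_option synthInstance.maxHeartbeats 400000

open HahnSeries IntermediateField AlgebraicCurve ModularCurve

noncomputable section

namespace Fermat.Agent.S34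

open Fermat.Agent.S18 Fermat.Agent.S24 Fermat.Agent.Lib

/-! ### the field of the fibre -/

section FullEq

variable (k : Type*) [Field k] (q : ℕ) [Fact q.Prime] [CharP k q] (M : ℕ) [NeZero M]
  [NeZero (M * q)]

/-- **the fibre field does not see `q`**: in characteristic `q`,
`F̄_{M q} = F̄_M` as subfields of `k((t))`. -/
theorem S34FI_full_eq :
    modularFunctionFieldFullC k (M * q) = modularFunctionFieldFullC k M := by
  have hq : q.Prime := Fact.out
  haveI : NeZero q := ⟨hq.ne_zero⟩
  apply le_antisymm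
  · rw [modularFunctionFieldFullC, adjoin_le_iff]
    rintro x ⟨d, hne, hdvd, rfl⟩
    haveI := hne
    by_cases hqd : q ∣ d
    · obtain ⟨d', rfl⟩ := hqd
      have hd'0 : d' ≠ 0 := by
        rintro rfl
        exact NeZero.ne (q * 0) (by simp)
      haveI : NeZero d' := ⟨hd'0⟩
      have hd'M : d' ∣ M := by
        have : q * d' ∣ q * M := by rwa [mul_comm q M]
        exact (Nat.mul_dvd_mul_iff_left hq.pos).1 this
      show qExpand k (q * d') (jqModC k) ∈ modularFunctionFieldFullC k M
      rw [S34VW_frob k q d']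
      exact pow_mem (jqModCd_mem_full k M hd'M) q
    · have hcop : Nat.Coprime d q := (Nat.Coprime.symm ((Nat.Prime.coprime_iff_not_dvd hq).2 hqd))
      have hdM : d ∣ M := hcop.dvd_of_dvd_mul_right hdvd
      exact jqModCd_mem_full k M hdM
  · exact full_degeneracyC_le k (dvd_mul_right M q)

end FullEq

/-! ### transport along an equality of intermediate fields -/

section Transport

variable {k Ω : Type*} [Field k] [Field Ω] [Algebra k Ω]

/-- the identification of the underlying fields of two equal intermediate fields. -/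
def S34FI_cast {E₁ E₂ : IntermediateField k Ω} (h : E₁ = E₂) : ↥E₁ ≃ₐ[k] ↥E₂ :=
  IntermediateField.equivOfEq h

@[simp]
theorem S34FI_cast_coe {E₁ E₂ : IntermediateField k Ω} (h : E₁ = E₂) (x : ↥E₁) :
    ((S34FI_cast h x : ↥E₂) : Ω) = (x : Ω) := rfl

theorem S34FI_cast_mk {E₁ E₂ : IntermediateField k Ω} (h : E₁ = E₂) (x : Ω) (hx : x ∈ E₁) :
    S34FI_cast h ⟨x, hx⟩ = ⟨x, h ▸ hx⟩ := rfl

theorem S34FI_RR_hyp {E₁ E₂ : IntermediateField k Ω} (h : E₁ = E₂) (h₁ : RR_Hyp k ↥E₁) :
    RR_Hyp k ↥E₂ := by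
  subst h
  exact h₁

/-- transport of `L(r (x)_∞)`. -/
theorem S34FI_mem_RR {E₁ E₂ : IntermediateField k Ω} (h : E₁ = E₂)
    (hP₁ : HasPrincipalDivisors k ↥E₁) (hP₂ : HasPrincipalDivisors k ↥E₂)
    (x y : ↥E₁) (r : ℕ) :
    S34FI_cast h y ∈ riemannRochSpace (r • RR_poleDiv hP₂ (S34FI_cast h x)) ↔
      y ∈ riemannRochSpace (r • RR_poleDiv hP₁ x) := by
  subst h
  exact Iff.rfl

/-- transport of a pole. -/
theorem S34FI_exists_pole {E₁ E₂ : IntermediateField k Ω} (h : E₁ = E₂) (x : ↥E₁)
    (hx : ∃ v : Place k ↥E₁, v.ord x < 0) :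
    ∃ v : Place k ↥E₂, v.ord (S34FI_cast h x) < 0 := by
  subst h
  exact hx

end Transport

/-! ### the Gauss rings of level `M` and `M q` -/

section Levels

variable (M q : ℕ) [NeZero M] [NeZero q] [NeZero (M * q)]
  (A : ValuationSubring (AlgebraicClosure ℚ))

/-- `α^* f` is in the Gauss ring of level `M q` and has the same reduction. -/
theorem S34FI_alpha (f : ↥(modularFunctionFieldBar M)) (hf : f ∈ S18_O A M) :
    ∃ h : heckeAlphaBar (AlgebraicClosure ℚ) M q f ∈ S18_O A (M * q),
      ((S18_red A (M * q) ⟨_, h⟩ : ↥(modularFunctionFieldFullC (IsLocalRing.ResidueField A)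
        (M * q))) : LaurentSeries (IsLocalRing.ResidueField A)) =
      ((S18_red A M ⟨f, hf⟩ : ↥(modularFunctionFieldFullC (IsLocalRing.ResidueField A) M)) :
        LaurentSeries (IsLocalRing.ResidueField A)) := by
  obtain ⟨s₁, h1, s₂, h2, hne, hfe⟩ := hf
  have key : ∀ s ∈ S18_B A M, s ∈ S18_B A (M * q) := by
    intro s hs
    refine ⟨?_, full_degeneracyC_le _ (dvd_mul_right M q) hs.2⟩
    have := (heckeAlphaBar (AlgebraicClosure ℚ) M q ⟨S18_ι A s, hs.1⟩).2
    rwa [coe_heckeAlphaBar] at this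
  have hfe' : ((heckeAlphaBar (AlgebraicClosure ℚ) M q f :
      ↥(modularFunctionFieldBar (M * q))) : LaurentSeries (AlgebraicClosure ℚ)) * S18_ι A s₂ =
      S18_ι A s₁ := by
    rw [coe_heckeAlphaBar]
    exact hfe
  refine ⟨⟨s₁, key s₁ h1, s₂, key s₂ h2, hne, hfe'⟩, ?_⟩
  show S18_redFun A (M * q) _ = S18_redFun A M f
  rw [S18_redFun_eq A (M * q) (key s₁ h1) (key s₂ h2) hne hfe', S18_redFun_eq A M h1 h2 hne hfe]

/-- `β^* f` is in the Gauss ring of level `M q` and `red (β^* f) = (red f)(t^q)`. -/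
theorem S34FI_beta (f : ↥(modularFunctionFieldBar M)) (hf : f ∈ S18_O A M) :
    ∃ h : heckeBetaBar (AlgebraicClosure ℚ) M q f ∈ S18_O A (M * q),
      ((S18_red A (M * q) ⟨_, h⟩ : ↥(modularFunctionFieldFullC (IsLocalRing.ResidueField A)
        (M * q))) : LaurentSeries (IsLocalRing.ResidueField A)) =
      qExpand (IsLocalRing.ResidueField A) q
        ((S18_red A M ⟨f, hf⟩ : ↥(modularFunctionFieldFullC (IsLocalRing.ResidueField A) M)) :
          LaurentSeries (IsLocalRing.ResidueField A)) := by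
  obtain ⟨s₁, h1, s₂, h2, hne, hfe⟩ := hf
  have key : ∀ s ∈ S18_B A M, qExpand A q s ∈ S18_B A (M * q) := by
    intro s hs
    rw [S18_mem_B] at hs ⊢
    constructor
    · have := (heckeBetaBar (AlgebraicClosure ℚ) M q ⟨S18_ι A s, hs.1⟩).2
      rw [coe_heckeBetaBar] at this
      rw [S18_ι, Fermat.Agent.S24.coeffMap_qExpand]
      exact this
    · rw [S18_ρ, Fermat.Agent.S24.coeffMap_qExpand]
      exact full_degeneracyC_map_le _ M q ⟨_, hs.2, rfl⟩
  have hne' : S18_ρ A (qExpand A q s₂) ≠ 0 := by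
    rw [S18_ρ, Fermat.Agent.S24.coeffMap_qExpand]
    intro h0
    apply hne
    apply qExpand_injective (R := IsLocalRing.ResidueField A) q
    rw [h0, map_zero]
  have hfe' : ((heckeBetaBar (AlgebraicClosure ℚ) M q f :
      ↥(modularFunctionFieldBar (M * q))) : LaurentSeries (AlgebraicClosure ℚ)) *
        S18_ι A (qExpand A q s₂) = S18_ι A (qExpand A q s₁) := by
    rw [coe_heckeBetaBar, S18_ι, Fermat.Agent.S24.coeffMap_qExpand,
      Fermat.Agent.S24.coeffMap_qExpand, ← map_mul]
    exact congrArg _ hfe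
  refine ⟨⟨_, key s₁ h1, _, key s₂ h2, hne', hfe'⟩, ?_⟩
  show S18_redFun A (M * q) _ = qExpand _ q (S18_redFun A M f)
  rw [S18_redFun_eq A (M * q) (key s₁ h1) (key s₂ h2) hne' hfe',
    S18_redFun_eq A M h1 h2 hne hfe, S18_ρ, Fermat.Agent.S24.coeffMap_qExpand,
    Fermat.Agent.S24.coeffMap_qExpand, map_div₀]

end Levels

/-! ### Riemann's theorem in the fibre of level `M q` -/

section Hk

variable (M q : ℕ) [NeZero M] [NeZero (M * q)]
  (A : ValuationSubring (AlgebraicClosure ℚ))

/-- **hk at level `M q`**: `RR_Hyp` for the fibre field of level `M q` at a place over `q ∤ M`. -/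
theorem S34FI_hk (hq : q.Prime) (hA : A.LiesOverPrime q) (hqM : ¬ q ∣ M) :
    RR_Hyp (IsLocalRing.ResidueField A)
      ↥(modularFunctionFieldFullC (IsLocalRing.ResidueField A) (M * q)) := by
  haveI : CharP (IsLocalRing.ResidueField A) q := S18_residue_charP A q hq hA
  haveI : Fact q.Prime := ⟨hq⟩
  exact S34FI_RR_hyp (S34FI_full_eq (IsLocalRing.ResidueField A) q M).symm
    (S18_hk M A hq hA hqM)

end Hk

end Fermat.Agent.S34
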