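import Fermat.Agent.S34.GlueAlg

/-!
# TRACK 7 (S34 + S35), package NODALG (helper16): the fibre ring is nodal — pure algebra

Abstract form of helper25's steps (A2) + (A3) (`NOTES/items/33_wave5_helper25.md`), over Mathlib and
`S34/GlueAlg.lean` (helper23) only.  `k` is an algebraically closed field, `R₁ R₂` commutative
`k`-algebras (coordinate rings of the two components), `W ⊆ R₁ × R₂` a `k`-subalgebra (the
reduction of the integral functions).

* `S34NA_I2`, `S34NA_thetaAlg`, `S34NA_quotEquiv` : **Goursat**.  If both projections of `W` are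
  onto, `I₂ = {b | (0, b) ∈ W}` is an ideal, `θ : R₁ →ₐ R₂ / I₂` is onto,
  `(a, b) ∈ W ↔ θ a = b mod I₂`, and `(R₁ × R₂) / W ≃ₗ R₂ / I₂`.
* `S34NA_isReduced_of_pow` : an Artinian ring in which every element is a `Q`-th power (`Q ≥ 2`)
  is reduced.
* `S34NA_split_reduced` : a finite-dimensional reduced algebra over an algebraically closed field
  has a bijective evaluation map to `k^s`.
* `S34NA_nodal` : **the fibre ring is nodal**: if `W` has finite codimension, both projections are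
  onto and every `b : R₂` is a `Q`-th power modulo `I₂`, then there are `s = codim W` pairs of
  points `e₁ i`, `e₂ i` with `W = S34B_W e₁ e₂` and joint evaluation onto (`S34B_E` surjective).
  `S34NA_nodal_of_span` : the same from a spanning set `G` of `R₂` with `(0, g^(q^r) − g) ∈ W`
  (the `𝔽_{q^r}`-structure), `char k = q`.
* `S34NA_finrank_quot_le` : **filtered count**: `V = ⋃ F m`, `N m ⊆ Mx ⊓ F m`,
  `dim F m ≤ dim N m + s` for arbitrarily large `m`  ⇒  `V / Mx` is finite-dimensional of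
  dimension `≤ s`.
* `S34NA_main` : `S34NA_nodal` + `S34B_main` in one statement: the gluing constants of a
  submodule `Mx` of codimension `≤ codim W` whose `n`-th powers lie in `W`.
-/

set_option autoImplicit false
set_option linter.style.haveILetI false
set_option linter.unusedSectionVars false

open Module

namespace Fermat.Agent.S34

section goursat

variable {k : Type*} [Field k] {R₁ R₂ : Type*} [CommRing R₁] [CommRing R₂]
  [Algebra k R₁] [Algebra k R₂]

/-- The conductor-type ideal `I₂ = {b : (0, b) ∈ W}` of a subalgebra `W ⊆ R₁ × R₂` with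
surjective second projection. -/
def S34NA_I2 (W : Subalgebra k (R₁ × R₂)) (h2 : ∀ b : R₂, ∃ a : R₁, (a, b) ∈ W) : Ideal R₂ where
  carrier := {b | ((0 : R₁), b) ∈ W}
  add_mem' := by
    intro b b' hb hb'
    have := W.add_mem hb hb'
    simpa using this
  zero_mem' := by
    show ((0 : R₁), (0 : R₂)) ∈ W
    exact W.zero_mem
  smul_mem' := by
    intro r b hb
    obtain ⟨a, ha⟩ := h2 r
    have := W.mul_mem ha hb
    simpa using this

lemma S34NA_mem_I2 (W : Subalgebra k (R₁ × R₂)) (h2 : ∀ b : R₂, ∃ a : R₁, (a, b) ∈ W) (b : R₂) :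
    b ∈ S34NA_I2 W h2 ↔ ((0 : R₁), b) ∈ W := Iff.rfl

/-- the Goursat map `R₁ → R₂ / I₂` -/
noncomputable def S34NA_theta (W : Subalgebra k (R₁ × R₂)) (h1 : ∀ a : R₁, ∃ b : R₂, (a, b) ∈ W)
    (h2 : ∀ b : R₂, ∃ a : R₁, (a, b) ∈ W) (a : R₁) : R₂ ⧸ S34NA_I2 W h2 :=
  Ideal.Quotient.mk _ (Classical.choose (h1 a))

lemma S34NA_theta_eq (W : Subalgebra k (R₁ × R₂)) (h1 : ∀ a : R₁, ∃ b : R₂, (a, b) ∈ W)
    (h2 : ∀ b : R₂, ∃ a : R₁, (a, b) ∈ W) {a : R₁} {b : R₂} (hab : (a, b) ∈ W) :
    S34NA_theta W h1 h2 a = Ideal.Quotient.mk _ b := by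
  unfold S34NA_theta
  rw [Ideal.Quotient.eq, S34NA_mem_I2]
  have := W.sub_mem (Classical.choose_spec (h1 a)) hab
  simpa using this

lemma S34NA_theta_eq_iff (W : Subalgebra k (R₁ × R₂)) (h1 : ∀ a : R₁, ∃ b : R₂, (a, b) ∈ W)
    (h2 : ∀ b : R₂, ∃ a : R₁, (a, b) ∈ W) (a : R₁) (b : R₂) :
    S34NA_theta W h1 h2 a = Ideal.Quotient.mk _ b ↔ (a, b) ∈ W := by
  refine ⟨fun h => ?_, fun h => S34NA_theta_eq W h1 h2 h⟩
  unfold S34NA_theta at h
  rw [Ideal.Quotient.eq, S34NA_mem_I2] at h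
  have := W.sub_mem (Classical.choose_spec (h1 a)) h
  simpa using this

/-- the Goursat map as an algebra homomorphism -/
noncomputable def S34NA_thetaAlg (W : Subalgebra k (R₁ × R₂))
    (h1 : ∀ a : R₁, ∃ b : R₂, (a, b) ∈ W) (h2 : ∀ b : R₂, ∃ a : R₁, (a, b) ∈ W) :
    R₁ →ₐ[k] (R₂ ⧸ S34NA_I2 W h2) where
  toFun := S34NA_theta W h1 h2
  map_one' := by
    rw [S34NA_theta_eq W h1 h2 (show ((1 : R₁), (1 : R₂)) ∈ W from W.one_mem)]; rfl
  map_mul' := by
    intro a a'
    have h := W.mul_mem (Classical.choose_spec (h1 a)) (Classical.choose_spec (h1 a'))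
    rw [S34NA_theta_eq W h1 h2 (show (a * a', _) ∈ W from h)]
    simp [S34NA_theta]
  map_zero' := by
    rw [S34NA_theta_eq W h1 h2 (show ((0 : R₁), (0 : R₂)) ∈ W from W.zero_mem)]; rfl
  map_add' := by
    intro a a'
    have h := W.add_mem (Classical.choose_spec (h1 a)) (Classical.choose_spec (h1 a'))
    rw [S34NA_theta_eq W h1 h2 (show (a + a', _) ∈ W from h)]
    simp [S34NA_theta]
  commutes' := by
    intro c
    have h : algebraMap k (R₁ × R₂) c ∈ W := W.algebraMap_mem c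
    rw [S34NA_theta_eq W h1 h2 (show (algebraMap k R₁ c, algebraMap k R₂ c) ∈ W from h)]
    rfl

lemma S34NA_thetaAlg_surjective (W : Subalgebra k (R₁ × R₂))
    (h1 : ∀ a : R₁, ∃ b : R₂, (a, b) ∈ W) (h2 : ∀ b : R₂, ∃ a : R₁, (a, b) ∈ W) :
    Function.Surjective (S34NA_thetaAlg W h1 h2) := by
  intro x
  obtain ⟨b, rfl⟩ := Ideal.Quotient.mk_surjective x
  obtain ⟨a, ha⟩ := h2 b
  exact ⟨a, S34NA_theta_eq W h1 h2 ha⟩

/-- the difference map `R₁ × R₂ → R₂ / I₂`, whose kernel is `W` -/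
noncomputable def S34NA_Theta (W : Subalgebra k (R₁ × R₂))
    (h1 : ∀ a : R₁, ∃ b : R₂, (a, b) ∈ W) (h2 : ∀ b : R₂, ∃ a : R₁, (a, b) ∈ W) :
    (R₁ × R₂) →ₗ[k] (R₂ ⧸ S34NA_I2 W h2) :=
  ((Ideal.Quotient.mkₐ k (S34NA_I2 W h2)).toLinearMap.comp (LinearMap.snd k R₁ R₂)) -
    ((S34NA_thetaAlg W h1 h2).toLinearMap.comp (LinearMap.fst k R₁ R₂))

lemma S34NA_Theta_apply (W : Subalgebra k (R₁ × R₂))
    (h1 : ∀ a : R₁, ∃ b : R₂, (a, b) ∈ W) (h2 : ∀ b : R₂, ∃ a : R₁, (a, b) ∈ W) (f : R₁ × R₂) :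
    S34NA_Theta W h1 h2 f = Ideal.Quotient.mk _ f.2 - S34NA_theta W h1 h2 f.1 := rfl

lemma S34NA_ker_Theta (W : Subalgebra k (R₁ × R₂))
    (h1 : ∀ a : R₁, ∃ b : R₂, (a, b) ∈ W) (h2 : ∀ b : R₂, ∃ a : R₁, (a, b) ∈ W) :
    LinearMap.ker (S34NA_Theta W h1 h2) = Subalgebra.toSubmodule W := by
  ext f
  rw [LinearMap.mem_ker, S34NA_Theta_apply, sub_eq_zero, eq_comm, S34NA_theta_eq_iff]
  rfl

lemma S34NA_Theta_surjective (W : Subalgebra k (R₁ × R₂))
    (h1 : ∀ a : R₁, ∃ b : R₂, (a, b) ∈ W) (h2 : ∀ b : R₂, ∃ a : R₁, (a, b) ∈ W) :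
    Function.Surjective (S34NA_Theta W h1 h2) := by
  intro x
  obtain ⟨b, rfl⟩ := Ideal.Quotient.mk_surjective x
  refine ⟨(0, b), ?_⟩
  rw [S34NA_Theta_apply]
  have : S34NA_theta W h1 h2 0 = 0 := (S34NA_thetaAlg W h1 h2).map_zero
  simp [this]

/-- `R₁ × R₂ / W ≅ R₂ / I₂` as `k`-vector spaces -/
noncomputable def S34NA_quotEquiv (W : Subalgebra k (R₁ × R₂))
    (h1 : ∀ a : R₁, ∃ b : R₂, (a, b) ∈ W) (h2 : ∀ b : R₂, ∃ a : R₁, (a, b) ∈ W) :
    ((R₁ × R₂) ⧸ Subalgebra.toSubmodule W) ≃ₗ[k] (R₂ ⧸ S34NA_I2 W h2) :=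
  (Submodule.quotEquivOfEq _ _ (S34NA_ker_Theta W h1 h2).symm).trans
    ((S34NA_Theta W h1 h2).quotKerEquivOfSurjective (S34NA_Theta_surjective W h1 h2))

end goursat

section split

variable {k : Type*} [Field k] {O : Type*} [CommRing O] [Algebra k O]

/-- If every element of an Artinian ring is a `Q`-th power (`Q ≥ 2`), the ring is reduced. -/
lemma S34NA_isReduced_of_pow [IsArtinianRing O] (Q : ℕ) (hQ : 2 ≤ Q)
    (hpow : ∀ x : O, ∃ y : O, y ^ Q = x) : IsReduced O := by
  have hnn : nilradical O ≤ nilradical O ^ 2 := by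
    intro x hx
    obtain ⟨y, rfl⟩ := hpow x
    have hy : y ∈ nilradical O := by
      rw [mem_nilradical] at hx ⊢
      exact (IsNilpotent.pow_iff_pos (by omega)).1 hx
    have h2 : y ^ Q = y ^ 2 * y ^ (Q - 2) := by
      rw [← pow_add]; congr 1; omega
    rw [h2]
    exact Ideal.mul_mem_right _ _ (Ideal.pow_mem_pow hy 2)
  have hall : ∀ j : ℕ, nilradical O ≤ nilradical O ^ (j + 1) := by
    intro j
    induction j with
    | zero => simp
    | succ j ih =>
      calc nilradical O ≤ nilradical O ^ 2 := hnn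
        _ = nilradical O * nilradical O := pow_two _
        _ ≤ nilradical O ^ (j + 1) * nilradical O := Ideal.mul_mono_left ih
        _ = nilradical O ^ (j + 1 + 1) := (pow_succ _ _).symm
  obtain ⟨m, hm⟩ := IsArtinianRing.isNilpotent_nilradical (R := O)
  have h0 : nilradical O = ⊥ := by
    apply le_antisymm _ bot_le
    calc nilradical O ≤ nilradical O ^ (m + 1) := hall m
      _ = nilradical O ^ m * nilradical O := pow_succ _ _
      _ = ⊥ := by rw [hm]; simp
  exact nilradical_eq_bot_iff.1 h0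

end split

section split2

variable {k : Type*} [Field k] [IsAlgClosed k] {O : Type*} [CommRing O] [Algebra k O]
  [Module.Finite k O]

/-- A finite-dimensional reduced commutative algebra over an algebraically closed field is split:
its `k`-points are jointly injective and the evaluation map is bijective. -/
theorem S34NA_split_reduced [IsReduced O] :
    ∃ (s : ℕ) (Qp : Fin s → O →ₐ[k] k),
      Function.Bijective (fun (x : O) (i : Fin s) => Qp i x) := by
  classical
  haveI : IsArtinianRing O := IsArtinianRing.of_finite k O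
  haveI : Finite (MaximalSpectrum O) := inferInstance
  haveI : Fintype (MaximalSpectrum O) := Fintype.ofFinite _
  -- the residue fields are `k`
  have hj : ∀ m : MaximalSpectrum O, ∃ P : O →ₐ[k] k, ∀ x, x ∈ m.asIdeal ↔ P x = 0 := by
    intro m
    letI : Field (O ⧸ m.asIdeal) := Ideal.Quotient.field m.asIdeal
    haveI : Module.Finite k (O ⧸ m.asIdeal) :=
      Module.Finite.of_surjective (Ideal.Quotient.mkₐ k m.asIdeal).toLinearMap
        (Ideal.Quotient.mkₐ_surjective k m.asIdeal)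
    haveI : Algebra.IsIntegral k (O ⧸ m.asIdeal) := Algebra.IsIntegral.of_finite k _
    have hb : Function.Bijective (algebraMap k (O ⧸ m.asIdeal)) :=
      IsAlgClosed.algebraMap_bijective_of_isIntegral
    let e : k ≃ₐ[k] (O ⧸ m.asIdeal) := AlgEquiv.ofBijective (Algebra.ofId k _) hb
    refine ⟨e.symm.toAlgHom.comp (Ideal.Quotient.mkₐ k m.asIdeal), fun x => ?_⟩
    show x ∈ m.asIdeal ↔ e.symm (Ideal.Quotient.mk m.asIdeal x) = 0
    rw [map_eq_zero_iff e.symm e.symm.injective]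
    exact (Ideal.Quotient.eq_zero_iff_mem (I := m.asIdeal) (a := x)).symm
  choose P hP using hj
  let eqv : MaximalSpectrum O ≃ Fin (Fintype.card (MaximalSpectrum O)) := Fintype.equivFin _
  refine ⟨Fintype.card (MaximalSpectrum O), fun i => P (eqv.symm i), ?_, ?_⟩
  · -- injective
    intro x y hxy
    have h0 : x - y ∈ nilradical O := by
      rw [IsArtinianRing.nilradical_eq_iInf, Ideal.mem_iInf]
      intro m
      rw [hP m, map_sub, sub_eq_zero]
      have := congrFun hxy (eqv m)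
      simpa using this
    rw [nilradical_eq_zero] at h0
    exact sub_eq_zero.1 ((Ideal.mem_bot).1 h0)
  · -- surjective
    intro v
    let w : ∀ m : MaximalSpectrum O, O ⧸ m.asIdeal := fun m =>
      algebraMap k (O ⧸ m.asIdeal) (v (eqv m))
    obtain ⟨x, hx⟩ := (IsArtinianRing.equivPi O).surjective w
    refine ⟨x, ?_⟩
    funext i
    have hxm := congrFun hx (eqv.symm i)
    simp only [IsArtinianRing.equivPi_apply, w, Equiv.apply_symm_apply] at hxm
    -- x ≡ v i mod m
    have : x - algebraMap k O (v i) ∈ (eqv.symm i).asIdeal := by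
      rw [← Ideal.Quotient.eq_zero_iff_mem, map_sub, sub_eq_zero]
      rw [show (Ideal.Quotient.mk (eqv.symm i).asIdeal) x = _ from hxm]
      rfl
    rw [hP, map_sub, sub_eq_zero, AlgHom.commutes] at this
    simpa using this

end split2

section nodal

variable {k : Type*} [Field k] [IsAlgClosed k] {R₁ R₂ : Type*} [CommRing R₁] [CommRing R₂]
  [Algebra k R₁] [Algebra k R₂]

/-- **Nodal structure.**  A subalgebra `W ⊆ R₁ × R₂` of finite codimension `s` with both
projections onto, such that every `b : R₂` is a `Q`-th power modulo `I₂ = {b : (0, b) ∈ W}`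
(`Q ≥ 2`), is the ring of a nodal curve: there are `s` pairs of points `(e₁ i, e₂ i)` with
`W = {(a, b) : a(P_i) = b(P_i') for all i}`, and the joint evaluation is onto. -/
theorem S34NA_nodal (W : Subalgebra k (R₁ × R₂))
    (h1 : ∀ a : R₁, ∃ b : R₂, (a, b) ∈ W) (h2 : ∀ b : R₂, ∃ a : R₁, (a, b) ∈ W)
    [Module.Finite k ((R₁ × R₂) ⧸ Subalgebra.toSubmodule W)]
    (Q : ℕ) (hQ : 2 ≤ Q) (hpow : ∀ b : R₂, ∃ y : R₂, ((0 : R₁), b - y ^ Q) ∈ W) :
    ∃ (s : ℕ) (e₁ : Fin s → R₁ →ₐ[k] k) (e₂ : Fin s → R₂ →ₐ[k] k),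
      s = Module.finrank k ((R₁ × R₂) ⧸ Subalgebra.toSubmodule W) ∧
      Function.Surjective (S34B_E e₁ e₂) ∧
      Subalgebra.toSubmodule W = S34B_W e₁ e₂ := by
  classical
  set O := R₂ ⧸ S34NA_I2 W h2 with hO
  have eqv := S34NA_quotEquiv W h1 h2
  haveI : Module.Finite k O := Module.Finite.equiv eqv
  haveI : IsArtinianRing O := IsArtinianRing.of_finite k O
  haveI : IsReduced O := by
    apply S34NA_isReduced_of_pow Q hQ
    intro x
    obtain ⟨b, rfl⟩ := Ideal.Quotient.mk_surjective x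
    obtain ⟨y, hy⟩ := hpow b
    refine ⟨Ideal.Quotient.mk _ y, ?_⟩
    rw [← map_pow, eq_comm, Ideal.Quotient.eq, S34NA_mem_I2]
    exact hy
  obtain ⟨s, Qp, hQp⟩ := S34NA_split_reduced (k := k) (O := O)
  refine ⟨s, fun i => (Qp i).comp (S34NA_thetaAlg W h1 h2),
    fun i => (Qp i).comp (Ideal.Quotient.mkₐ k (S34NA_I2 W h2)), ?_, ?_, ?_⟩
  · -- dimension
    let ev : O →ₗ[k] (Fin s → k) := LinearMap.pi fun i => (Qp i).toLinearMap
    have hev : Function.Bijective ev := hQp
    have e2 : O ≃ₗ[k] (Fin s → k) := LinearEquiv.ofBijective ev hev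
    rw [LinearEquiv.finrank_eq (eqv.trans e2)]
    simp
  · rintro ⟨v, v'⟩
    obtain ⟨x, hx⟩ := hQp.2 v
    obtain ⟨a, ha⟩ := S34NA_thetaAlg_surjective W h1 h2 x
    obtain ⟨x', hx'⟩ := hQp.2 v'
    obtain ⟨b, hb⟩ := Ideal.Quotient.mk_surjective x'
    refine ⟨(a, b), ?_⟩
    apply Prod.ext
    · funext i
      have := congrFun hx i
      show (Qp i) (S34NA_thetaAlg W h1 h2 a) = v i
      rw [ha]
      exact this
    · funext i
      have := congrFun hx' i
      show (Qp i) (Ideal.Quotient.mk _ b) = v' i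
      rw [hb]
      exact this
  · ext f
    rw [S34B_mem_W, Subalgebra.mem_toSubmodule,
      show f ∈ W ↔ (f.1, f.2) ∈ W from Iff.rfl, ← S34NA_theta_eq_iff W h1 h2]
    constructor
    · intro h i
      show (Qp i) (S34NA_theta W h1 h2 f.1) = (Qp i) (Ideal.Quotient.mk _ f.2)
      exact congrArg (Qp i) h
    · intro h
      apply hQp.1
      funext i
      exact h i

/-- `S34NA_nodal` from an `𝔽_{q^r}`-structure: a spanning set `G` of `R₂` with
`(0, g ^ (q ^ r) - g) ∈ W` for `g ∈ G`, in characteristic `q`. -/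
theorem S34NA_nodal_of_span (W : Subalgebra k (R₁ × R₂))
    (h1 : ∀ a : R₁, ∃ b : R₂, (a, b) ∈ W) (h2 : ∀ b : R₂, ∃ a : R₁, (a, b) ∈ W)
    [Module.Finite k ((R₁ × R₂) ⧸ Subalgebra.toSubmodule W)]
    (q : ℕ) [Fact q.Prime] [CharP k q] (r : ℕ) (hr : r ≠ 0)
    (G : Set R₂) (hG : Submodule.span k G = ⊤)
    (hGQ : ∀ g ∈ G, ((0 : R₁), g ^ (q ^ r) - g) ∈ W) :
    ∃ (s : ℕ) (e₁ : Fin s → R₁ →ₐ[k] k) (e₂ : Fin s → R₂ →ₐ[k] k),
      s = Module.finrank k ((R₁ × R₂) ⧸ Subalgebra.toSubmodule W) ∧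
      Function.Surjective (S34B_E e₁ e₂) ∧
      Subalgebra.toSubmodule W = S34B_W e₁ e₂ := by
  have hq2 : 2 ≤ q := (Fact.out : q.Prime).two_le
  have hQ : 2 ≤ q ^ r := by
    calc 2 ≤ q := hq2
      _ = q ^ 1 := (pow_one q).symm
      _ ≤ q ^ r := Nat.pow_le_pow_right (by omega) (Nat.one_le_iff_ne_zero.2 hr)
  refine S34NA_nodal W h1 h2 (q ^ r) hQ ?_
  rcases subsingleton_or_nontrivial R₂ with hs | hn
  · intro b
    refine ⟨0, ?_⟩
    have : b - 0 ^ (q ^ r) = 0 := Subsingleton.elim _ _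
    rw [this]
    exact W.zero_mem
  · haveI : CharP R₂ q := charP_of_injective_algebraMap (algebraMap k R₂).injective q
    intro b
    have hb : b ∈ Submodule.span k G := by rw [hG]; trivial
    induction hb using Submodule.span_induction with
    | mem g hg =>
      refine ⟨g, ?_⟩
      have := W.neg_mem (hGQ g hg)
      simpa using this
    | zero =>
      refine ⟨0, ?_⟩
      rw [zero_pow (by positivity), sub_zero]
      exact W.zero_mem
    | add x y _ _ hx hy =>
      obtain ⟨yx, hyx⟩ := hx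
      obtain ⟨yy, hyy⟩ := hy
      refine ⟨yx + yy, ?_⟩
      rw [add_pow_char_pow]
      have := W.add_mem hyx hyy
      have e : x + y - (yx ^ q ^ r + yy ^ q ^ r) = (x - yx ^ q ^ r) + (y - yy ^ q ^ r) := by ring
      rw [e]
      simpa using this
    | smul c x _ hx =>
      obtain ⟨yx, hyx⟩ := hx
      obtain ⟨d, hd⟩ := IsAlgClosed.exists_pow_nat_eq c (n := q ^ r) (by positivity)
      refine ⟨d • yx, ?_⟩
      rw [smul_pow, hd, ← smul_sub]
      have := W.smul_mem hyx c
      simpa using this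

end nodal

section filt

variable {k : Type*} [Field k] {V : Type*} [AddCommGroup V] [Module k V]

/-- **Filtered codimension count.**  If `V` is exhausted by an increasing sequence of subspaces
`F m`, and for arbitrarily large `m` the subspace `F m` is finite-dimensional and contains a
subspace `N m ⊆ Mx` of codimension at most `s` in `F m`, then `V / Mx` is finite-dimensional of
dimension at most `s`. -/
theorem S34NA_finrank_quot_le (Mx : Submodule k V) (F N : ℕ → Submodule k V)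
    (hmono : Monotone F) (hex : ∀ x : V, ∃ m, x ∈ F m) (s : ℕ)
    (hNM : ∀ m, N m ≤ Mx) (hNF : ∀ m, N m ≤ F m)
    (hF : ∀ m₀ : ℕ, ∃ m, m₀ ≤ m ∧ Module.Finite k (F m) ∧
      Module.finrank k (F m) ≤ Module.finrank k (N m) + s) :
    Module.Finite k (V ⧸ Mx) ∧ Module.finrank k (V ⧸ Mx) ≤ s := by
  classical
  have key : ∀ S : Finset (V ⧸ Mx), LinearIndependent k (fun i : S => (i : V ⧸ Mx)) →
      S.card ≤ s := by
    intro S hS
    -- lift the elements
    choose lift hlift using fun v : V ⧸ Mx => Submodule.mkQ_surjective Mx v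
    choose mm hmm using fun v : V ⧸ Mx => hex (lift v)
    obtain ⟨m, hm0, hfin, hcount⟩ := hF (S.sup mm)
    haveI := hfin
    have hin : ∀ v ∈ S, lift v ∈ F m := fun v hv =>
      hmono ((Finset.le_sup hv).trans hm0) (hmm v)
    -- the map `F m → V / Mx`
    set ψ : F m →ₗ[k] (V ⧸ Mx) := Mx.mkQ.comp (F m).subtype with hψ
    have hrange : ∀ v ∈ S, v ∈ LinearMap.range ψ := fun v hv =>
      ⟨⟨lift v, hin v hv⟩, by simp [hψ, hlift v]⟩
    -- `N m` sits in the kernel
    have hker : Module.finrank k (N m) ≤ Module.finrank k (LinearMap.ker ψ) := by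
      let j : N m →ₗ[k] LinearMap.ker ψ :=
        { toFun := fun x => ⟨⟨x.1, hNF m x.2⟩, by
            rw [LinearMap.mem_ker]; simp [hψ, hNM m x.2]⟩
          map_add' := fun x y => rfl
          map_smul' := fun c x => rfl }
      have hj : Function.Injective j := by
        intro x y hxy
        have := congrArg (fun z : LinearMap.ker ψ => (z.1.1 : V)) hxy
        exact Subtype.ext this
      exact LinearMap.finrank_le_finrank_of_injective hj
    have hrk : Module.finrank k (LinearMap.range ψ) + Module.finrank k (LinearMap.ker ψ)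
        = Module.finrank k (F m) := LinearMap.finrank_range_add_finrank_ker ψ
    have hrs : Module.finrank k (LinearMap.range ψ) ≤ s := by omega
    -- the independent family lives in the range
    let g : S → LinearMap.range ψ := fun i => ⟨i.1, hrange i.1 i.2⟩
    have hg : LinearIndependent k g := by
      apply LinearIndependent.of_comp (LinearMap.range ψ).subtype
      exact hS
    have := hg.fintype_card_le_finrank
    simp only [Fintype.card_coe] at this
    exact this.trans hrs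
  have hrank : Module.rank k (V ⧸ Mx) ≤ s := rank_le key
  have hfin : Module.Finite k (V ⧸ Mx) := by
    rw [← Module.rank_lt_aleph0_iff]
    exact hrank.trans_lt (Cardinal.natCast_lt_aleph0)
  refine ⟨hfin, ?_⟩
  have := Module.finrank_le_of_rank_le (R := k) (M := V ⧸ Mx) hrank
  exact this

end filt

section main

variable {k : Type*} [Field k] [IsAlgClosed k] {R₁ R₂ : Type*} [CommRing R₁] [CommRing R₂]
  [Algebra k R₁] [Algebra k R₂]

/-- **NODALG, assembled.**  For a nodal fibre ring `W` (hypotheses of `S34NA_nodal`) there are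
nodes `e₁ i, e₂ i` (`i < s = codim W`) such that `W = S34B_W e₁ e₂` and EVERY subspace `Mx` of
codimension `≤ s` whose elements have their `n`-th power in `W` is `S34B_glued e₁ e₂ c` for
(unique) `n`-th roots of unity `c i`. -/
theorem S34NA_main (W : Subalgebra k (R₁ × R₂))
    (h1 : ∀ a : R₁, ∃ b : R₂, (a, b) ∈ W) (h2 : ∀ b : R₂, ∃ a : R₁, (a, b) ∈ W)
    [Module.Finite k ((R₁ × R₂) ⧸ Subalgebra.toSubmodule W)]
    (Q : ℕ) (hQ : 2 ≤ Q) (hpow : ∀ b : R₂, ∃ y : R₂, ((0 : R₁), b - y ^ Q) ∈ W) :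
    ∃ (s : ℕ) (e₁ : Fin s → R₁ →ₐ[k] k) (e₂ : Fin s → R₂ →ₐ[k] k),
      s = Module.finrank k ((R₁ × R₂) ⧸ Subalgebra.toSubmodule W) ∧
      Function.Surjective (S34B_E e₁ e₂) ∧
      Subalgebra.toSubmodule W = S34B_W e₁ e₂ ∧
      ∀ (n : ℕ), 0 < n → ∀ (Mx : Submodule k (R₁ × R₂)),
        (∀ f ∈ Mx, f ^ n ∈ W) → ∀ [Module.Finite k ((R₁ × R₂) ⧸ Mx)],
        Module.finrank k ((R₁ × R₂) ⧸ Mx) ≤ s →
        ∃ c : Fin s → k, (∀ i, c i ^ n = 1) ∧ Mx = S34B_glued e₁ e₂ c := by
  obtain ⟨s, e₁, e₂, hs, hE, hW⟩ := S34NA_nodal W h1 h2 Q hQ hpow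
  refine ⟨s, e₁, e₂, hs, hE, hW, fun n hn Mx hMx _ hdim => ?_⟩
  refine S34B_main e₁ e₂ hE hn Mx (fun f hf i => ?_) (by simpa using hdim)
  have h := hMx f hf
  rw [← Subalgebra.mem_toSubmodule, hW, S34B_mem_W] at h
  have := h i
  simpa using this

end main

end Fermat.Agent.S34
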