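import Mathlib
import Fermat.Agent.S34.KActRed
import Fermat.Agent.S34.NodalAlg

/-!
# TRACK 7 (S34 + S35), package NODAL (helper12), abstract part

For a pair of valuation data `S₁, S₂` on `F` (`= F_N`, `N = M q`) and a chart
`C : S34K_Chart n` (`C.B` = functions regular on the chart, `C.Rb₁, C.Rb₂` = coordinate rings of the
two components of the fibre), the **fibre ring** is

  `S34N_W hS C = {(a, b) ∈ Rb₁ × Rb₂ | ∃ f ∈ B ∩ O₂, red f = (a, b)}`   (a `k`-subalgebra),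

with `Subalgebra.toSubmodule (S34N_W hS C) = S34K_W hS C 1` (`S34N_W_toSubmodule`).

`S34N_nodal_inputs` proves the three inputs `h1`, `h2`, `hpow` (with `Q = q²`) of
`S34NA_nodal` / `S34NA_main` (NODALG, helper16) for `W = S34N_W hS C` from

* the level-`M` datum `S₀` on `F₀ = F_M` with its chart `B₀`, `Rb₀` and **ONTO-M**
  (`red₀ (B₀ ∩ O₀) ⊇ Rb₀`),
* the two degeneracy maps `α, β : F₀ → F` with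
  `red (α f) = (ι₁ f̄, ι₂ (Fr f̄))`, `red (β f) = (ι₁ (Fr f̄), ι₂ f̄)`,
* `Fr y = (τ y)^q` with `τ` a ring endomorphism of `F̄₀` preserving `Rb₀`
  (`Fr` = substitution `t ↦ t^q`, `τ` = coefficientwise inverse Frobenius),
* `Rbᵢ = ιᵢ (Rb₀)`.

`S34N_nodal` is the conclusion of `S34NA_nodal` for this `W`.
-/

set_option autoImplicit false
set_option linter.unusedSectionVars false

open AlgebraicCurve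

namespace Fermat.Agent.S34

open Fermat.Agent.S18

variable {L F k Fk₁ Fk₂ : Type*} [Field L] [Field F] [Algebra L F] [Field k]
  [Field Fk₁] [Field Fk₂] [Algebra k Fk₁] [Algebra k Fk₂]
  {S₁ : S18_Val L F k Fk₁} {S₂ : S18_Val L F k Fk₂} (hS : S34P_Same S₁ S₂)

/-- the fibre ring `W = red (B ∩ O₂) ∩ (Rb₁ × Rb₂)` of a chart, as a `k`-subalgebra of
`Rb₁ × Rb₂`. -/
def S34N_W {n : ℕ} (C : S34K_Chart (L := L) (F := F) (k := k) (Fk₁ := Fk₁) (Fk₂ := Fk₂) n) :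
    Subalgebra k (↥C.Rb₁ × ↥C.Rb₂) where
  carrier := {m | ∃ f : S34P_O2 S₁ S₂, (f : F) ∈ C.B ∧
    S34P_red S₁ S₂ f = ((m.1 : Fk₁), (m.2 : Fk₂))}
  mul_mem' := by
    rintro m m' ⟨f, hf, hfm⟩ ⟨f', hf', hfm'⟩
    refine ⟨f * f', C.B.mul_mem hf hf', ?_⟩
    rw [map_mul, hfm, hfm']
    rfl
  add_mem' := by
    rintro m m' ⟨f, hf, hfm⟩ ⟨f', hf', hfm'⟩
    refine ⟨f + f', C.B.add_mem hf hf', ?_⟩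
    rw [map_add, hfm, hfm']
    rfl
  algebraMap_mem' := by
    intro r
    obtain ⟨a, rfl⟩ := S₁.res_surjective r
    refine ⟨⟨algebraMap L F a, S34P_const_mem hS a⟩, C.B.algebraMap_mem _, ?_⟩
    rw [S34P_red_const hS a]
    rfl

theorem S34N_mem_W {n : ℕ}
    (C : S34K_Chart (L := L) (F := F) (k := k) (Fk₁ := Fk₁) (Fk₂ := Fk₂) n)
    (m : ↥C.Rb₁ × ↥C.Rb₂) :
    m ∈ S34N_W hS C ↔ ∃ f : S34P_O2 S₁ S₂, (f : F) ∈ C.B ∧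
      S34P_red S₁ S₂ f = ((m.1 : Fk₁), (m.2 : Fk₂)) := Iff.rfl

/-- the fibre ring is the twisted module of `u = 1`. -/
theorem S34N_W_toSubmodule {n : ℕ}
    (C : S34K_Chart (L := L) (F := F) (k := k) (Fk₁ := Fk₁) (Fk₂ := Fk₂) n) :
    Subalgebra.toSubmodule (S34N_W hS C) = S34K_W hS C 1 := by
  ext m
  rw [Subalgebra.mem_toSubmodule, S34N_mem_W, S34K_mem_W]
  constructor
  · rintro ⟨f, hf, hfm⟩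
    refine ⟨f, ?_, hfm⟩
    rw [mul_one]
    exact C.B.pow_mem hf n
  · rintro ⟨f, hf, hfm⟩
    rw [mul_one] at hf
    exact ⟨f, C.root _ hf, hfm⟩

section inputs

variable {F₀ Fk₀ : Type*} [Field F₀] [Algebra L F₀] [Field Fk₀] [Algebra k Fk₀]

/-- **NODAL, abstract**: the inputs `h1`, `h2`, `hpow` (`Q = q²`) of `S34NA_nodal` for the fibre
ring `W = S34N_W hS C`. -/
theorem S34N_nodal_inputs {n : ℕ}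
    (C : S34K_Chart (L := L) (F := F) (k := k) (Fk₁ := Fk₁) (Fk₂ := Fk₂) n)
    (S₀ : S18_Val L F₀ k Fk₀) (α β : F₀ →+* F)
    (B₀ : Set F₀) (Rb₀ : Set Fk₀)
    (ι₁ : Fk₀ →+* Fk₁) (ι₂ : Fk₀ →+* Fk₂)
    (Fr : Fk₀ → Fk₀) (τ : Fk₀ →+* Fk₀) (q : ℕ)
    (hFr : ∀ y, Fr y = (τ y) ^ q)
    (hτ : ∀ y ∈ Rb₀, τ y ∈ Rb₀)
    (hpowR : ∀ y ∈ Rb₀, y ^ q ∈ Rb₀)
    (hR₁ : ∀ a ∈ C.Rb₁, ∃ y ∈ Rb₀, ι₁ y = a) (hR₁' : ∀ y ∈ Rb₀, ι₁ y ∈ C.Rb₁)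
    (hR₂ : ∀ b ∈ C.Rb₂, ∃ y ∈ Rb₀, ι₂ y = b) (hR₂' : ∀ y ∈ Rb₀, ι₂ y ∈ C.Rb₂)
    (hα : ∀ f : S₀.O, (f : F₀) ∈ B₀ → ∃ h : α f ∈ S34P_O2 S₁ S₂, α f ∈ C.B ∧
      S34P_red S₁ S₂ ⟨α f, h⟩ = (ι₁ (S₀.red f), ι₂ (Fr (S₀.red f))))
    (hβ : ∀ f : S₀.O, (f : F₀) ∈ B₀ → ∃ h : β f ∈ S34P_O2 S₁ S₂, β f ∈ C.B ∧
      S34P_red S₁ S₂ ⟨β f, h⟩ = (ι₁ (Fr (S₀.red f)), ι₂ (S₀.red f)))
    (honto : ∀ y ∈ Rb₀, ∃ f : S₀.O, (f : F₀) ∈ B₀ ∧ S₀.red f = y) :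
    (∀ a : ↥C.Rb₁, ∃ b : ↥C.Rb₂, (a, b) ∈ S34N_W hS C) ∧
    (∀ b : ↥C.Rb₂, ∃ a : ↥C.Rb₁, (a, b) ∈ S34N_W hS C) ∧
    (∀ b : ↥C.Rb₂, ∃ y : ↥C.Rb₂, ((0 : ↥C.Rb₁), b - y ^ (q ^ 2)) ∈ S34N_W hS C) := by
  have hFrR : ∀ y ∈ Rb₀, Fr y ∈ Rb₀ := fun y hy => by
    rw [hFr]; exact hpowR _ (hτ y hy)
  refine ⟨?_, ?_, ?_⟩
  · -- `h1`: via `α`
    rintro ⟨a, ha⟩
    obtain ⟨y, hy, rfl⟩ := hR₁ a ha
    obtain ⟨f, hfB, hfy⟩ := honto y hy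
    obtain ⟨h, hB, hred⟩ := hα f hfB
    refine ⟨⟨ι₂ (Fr y), hR₂' _ (hFrR y hy)⟩, ?_⟩
    rw [S34N_mem_W]
    refine ⟨⟨α f, h⟩, hB, ?_⟩
    rw [hred, hfy]
  · -- `h2`: via `β`
    rintro ⟨b, hb⟩
    obtain ⟨y, hy, rfl⟩ := hR₂ b hb
    obtain ⟨f, hfB, hfy⟩ := honto y hy
    obtain ⟨h, hB, hred⟩ := hβ f hfB
    refine ⟨⟨ι₁ (Fr y), hR₁' _ (hFrR y hy)⟩, ?_⟩
    rw [S34N_mem_W]
    refine ⟨⟨β f, h⟩, hB, ?_⟩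
    rw [hred, hfy]
  · -- `hpow`: `(0, b − (τ² b)^{q²}) = red (β f − α g)`, `red₀ f = y`, `red₀ g = Fr y`
    rintro ⟨b, hb⟩
    obtain ⟨y, hy, rfl⟩ := hR₂ b hb
    obtain ⟨f, hfB, hfy⟩ := honto y hy
    obtain ⟨g, hgB, hgy⟩ := honto (Fr y) (hFrR y hy)
    obtain ⟨h, hB, hred⟩ := hβ f hfB
    obtain ⟨h', hB', hred'⟩ := hα g hgB
    refine ⟨⟨ι₂ (τ (τ y)), hR₂' _ (hτ _ (hτ y hy))⟩, ?_⟩
    rw [S34N_mem_W]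
    refine ⟨⟨β f, h⟩ - ⟨α g, h'⟩, ?_, ?_⟩
    · exact C.B.sub_mem hB hB'
    · rw [map_sub, hred, hred', hfy, hgy]
      have e : Fr (Fr y) = (τ (τ y)) ^ (q ^ 2) := by
        rw [hFr (Fr y), hFr y, map_pow, ← pow_mul, pow_two]
      apply Prod.ext
      · simp
      · simp only [Prod.snd_sub, e, map_pow]
        rfl

/-- **NODAL**: the fibre ring is nodal — the conclusion of `S34NA_nodal` for `W = S34N_W hS C`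
(`s` = codimension of `W`, `e₁ i`, `e₂ i` = the two branches of the `i`-th node). -/
theorem S34N_nodal [IsAlgClosed k] {n : ℕ}
    (C : S34K_Chart (L := L) (F := F) (k := k) (Fk₁ := Fk₁) (Fk₂ := Fk₂) n)
    (S₀ : S18_Val L F₀ k Fk₀) (α β : F₀ →+* F)
    (B₀ : Set F₀) (Rb₀ : Set Fk₀)
    (ι₁ : Fk₀ →+* Fk₁) (ι₂ : Fk₀ →+* Fk₂)
    (Fr : Fk₀ → Fk₀) (τ : Fk₀ →+* Fk₀) (q : ℕ) (hq : 2 ≤ q)
    (hFr : ∀ y, Fr y = (τ y) ^ q)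
    (hτ : ∀ y ∈ Rb₀, τ y ∈ Rb₀)
    (hpowR : ∀ y ∈ Rb₀, y ^ q ∈ Rb₀)
    (hR₁ : ∀ a ∈ C.Rb₁, ∃ y ∈ Rb₀, ι₁ y = a) (hR₁' : ∀ y ∈ Rb₀, ι₁ y ∈ C.Rb₁)
    (hR₂ : ∀ b ∈ C.Rb₂, ∃ y ∈ Rb₀, ι₂ y = b) (hR₂' : ∀ y ∈ Rb₀, ι₂ y ∈ C.Rb₂)
    (hα : ∀ f : S₀.O, (f : F₀) ∈ B₀ → ∃ h : α f ∈ S34P_O2 S₁ S₂, α f ∈ C.B ∧
      S34P_red S₁ S₂ ⟨α f, h⟩ = (ι₁ (S₀.red f), ι₂ (Fr (S₀.red f))))
    (hβ : ∀ f : S₀.O, (f : F₀) ∈ B₀ → ∃ h : β f ∈ S34P_O2 S₁ S₂, β f ∈ C.B ∧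
      S34P_red S₁ S₂ ⟨β f, h⟩ = (ι₁ (Fr (S₀.red f)), ι₂ (S₀.red f)))
    (honto : ∀ y ∈ Rb₀, ∃ f : S₀.O, (f : F₀) ∈ B₀ ∧ S₀.red f = y)
    [Module.Finite k ((↥C.Rb₁ × ↥C.Rb₂) ⧸ Subalgebra.toSubmodule (S34N_W hS C))] :
    ∃ (s : ℕ) (e₁ : Fin s → ↥C.Rb₁ →ₐ[k] k) (e₂ : Fin s → ↥C.Rb₂ →ₐ[k] k),
      s = Module.finrank k ((↥C.Rb₁ × ↥C.Rb₂) ⧸ Subalgebra.toSubmodule (S34N_W hS C)) ∧
      Function.Surjective (S34B_E e₁ e₂) ∧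
      Subalgebra.toSubmodule (S34N_W hS C) = S34B_W e₁ e₂ := by
  obtain ⟨h1, h2, hpow⟩ := S34N_nodal_inputs hS C S₀ α β B₀ Rb₀ ι₁ ι₂ Fr τ q hFr hτ hpowR
    hR₁ hR₁' hR₂ hR₂' hα hβ honto
  have hQ : 2 ≤ q ^ 2 := by nlinarith
  exact S34NA_nodal (S34N_W hS C) h1 h2 (q ^ 2) hQ hpow

end inputs

end Fermat.Agent.S34
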