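import Mathlib
import Fermat.Agent.Lib.RiemannThm

/-!
# TRACK 7 (S34 + S35), package SAT, task T-POLE (helper6): pole bookkeeping

Abstract (`Place.ord` arithmetic + integrality), statements of helper9's SAT plan:

* `S34S_map_mem`   : a field embedding `α` maps `L(r·(x)_∞)` into `L(r·(α x)_∞)`;
* `S34S_Xa_mul_mem`: (F3) `(x^q − y)^a · g ∈ L((a q + t + 1)·(x)_∞)` for `g ∈ L(q (t+1)·(y)_∞)`
  and `a ≥ C (t + 1)` (`x = j`, `y = j_q`, `g = β^* f`).
-/

set_option autoImplicit false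

open AlgebraicCurve

namespace Fermat.Agent.S34

open Fermat.Agent.Lib Fermat.Agent.S24

section ord

variable {L F : Type*} [Field L] [Field F] [Algebra L F]

/-- ultrametric inequality for `Place.ord`, no nonvanishing hypotheses (`n ≤ 0`). -/
theorem S34S_tp_ord_sub_ge (v : Place L F) {f g : F} {n : ℤ} (hn : n ≤ 0) (hf : n ≤ v.ord f)
    (hg : n ≤ v.ord g) : n ≤ v.ord (f - g) := by
  have h1 : v.adicValuation f ≤ WithZero.exp (-n) :=
    v.adicValuation_le_exp_iff.mpr (Or.inr (by rwa [neg_neg]))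
  have h2 : v.adicValuation g ≤ WithZero.exp (-n) :=
    v.adicValuation_le_exp_iff.mpr (Or.inr (by rwa [neg_neg]))
  have h3 : v.adicValuation (f - g) ≤ WithZero.exp (-n) :=
    (Valuation.map_sub _ _ _).trans (max_le h1 h2)
  rcases v.adicValuation_le_exp_iff.mp h3 with h | h
  · rw [h, Place.ord_zero]
    exact hn
  · rwa [neg_neg] at h

theorem S34S_tp_ord_pow (v : Place L F) (f : F) (n : ℕ) : v.ord (f ^ n) = n * v.ord f := by
  rw [← zpow_natCast, v.ord_zpow]

/-- every pole order of `x` is bounded by one natural number. -/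
theorem S34S_tp_exists_pole_bound (hP : HasPrincipalDivisors L F) (x : F) :
    ∃ E : ℕ, ∀ v : Place L F, -v.ord x ≤ (E : ℤ) := by
  classical
  refine ⟨(RR_poleDiv hP x).support.sup (fun v => (RR_poleDiv hP x v).toNat), fun v => ?_⟩
  by_cases hv : v ∈ (RR_poleDiv hP x).support
  · have h1 := Finset.le_sup (f := fun v => (RR_poleDiv hP x v).toNat) hv
    have h2 : (RR_poleDiv hP x v) ≤ ((RR_poleDiv hP x v).toNat : ℤ) := Int.self_le_toNat _
    have h3 : -v.ord x ≤ RR_poleDiv hP x v := by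
      rw [RR_poleDiv_apply]
      exact le_max_left _ _
    have h4 : ((RR_poleDiv hP x v).toNat : ℤ) ≤
        (((RR_poleDiv hP x).support.sup (fun v => (RR_poleDiv hP x v).toNat) : ℕ) : ℤ) := by
      exact_mod_cast h1
    linarith
  · rw [Finsupp.mem_support_iff, not_not, RR_poleDiv_apply] at hv
    have h3 : -v.ord x ≤ max (-v.ord x) 0 := le_max_left _ _
    have h4 : (0 : ℤ) ≤ (((RR_poleDiv hP x).support.sup
        (fun v => (RR_poleDiv hP x v).toNat) : ℕ) : ℤ) := Int.natCast_nonneg _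
    linarith

end ord

section F3

variable {L F : Type*} [Field L] [Field F] [Algebra L F]

/-- **(F3)** pole bookkeeping for `X̃^a · g`, `X̃ = x^q − y`. -/
theorem S34S_Xa_mul_mem (hP : HasPrincipalDivisors L F) (x y : F) (q : ℕ) (hq : 2 ≤ q)
    (hreg : ∀ P : Place L F, 0 ≤ P.ord x → 0 ≤ P.ord y)
    (hcusp : ∀ P : Place L F, P.ord x < 0 →
        (P.ord y = q * P.ord x ∧ q * P.ord x < P.ord (x ^ q - y)) ∨ (q * P.ord y = P.ord x)) :
    ∃ C : ℕ, ∀ a t : ℕ, C * (t + 1) ≤ a →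
      ∀ g ∈ riemannRochSpace ((q * (t + 1)) • RR_poleDiv hP y),
        (x ^ q - y) ^ a * g ∈ riemannRochSpace ((a * q + t + 1) • RR_poleDiv hP x) := by
  obtain ⟨E, hE⟩ := S34S_tp_exists_pole_bound hP x
  refine ⟨E * (q ^ 2 - 1), fun a t hat g hg => ?_⟩
  rw [mem_riemannRochSpace_iff] at hg ⊢
  intro v
  by_cases h0 : (x ^ q - y) ^ a * g = 0
  · exact Or.inl h0
  right
  have hX : (x ^ q - y) ^ a ≠ 0 := left_ne_zero_of_mul h0
  have hg0 : g ≠ 0 := right_ne_zero_of_mul h0
  have hgv := (hg v).resolve_left hg0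
  rw [Finsupp.smul_apply, RR_poleDiv_apply, nsmul_eq_mul] at hgv ⊢
  rw [v.ord_mul hX hg0, S34S_tp_ord_pow]
  have hq1 : (1 : ℤ) ≤ (q : ℤ) := by exact_mod_cast (by omega : 1 ≤ q)
  have hq2 : (2 : ℤ) ≤ (q : ℤ) := by exact_mod_cast hq
  have ha0 : (0 : ℤ) ≤ (a : ℤ) := Int.natCast_nonneg a
  have ht0 : (0 : ℤ) ≤ (t : ℤ) := Int.natCast_nonneg t
  push_cast at hgv ⊢
  rcases le_or_gt 0 (v.ord x) with hx | hx
  · -- `x` regular at `v`
    have hy := hreg v hx
    have h1 : max (-v.ord x) 0 = 0 := max_eq_right (by omega)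
    have h2 : max (-v.ord y) 0 = 0 := max_eq_right (by omega)
    rw [h1, mul_zero, neg_zero]
    rw [h2, mul_zero, neg_zero] at hgv
    have h3 : (0 : ℤ) ≤ v.ord (x ^ q - y) := by
      refine S34S_tp_ord_sub_ge v le_rfl ?_ hy
      rw [S34S_tp_ord_pow]
      positivity
    have h4 : (0 : ℤ) ≤ (a : ℤ) * v.ord (x ^ q - y) := mul_nonneg ha0 h3
    linarith
  · -- `x` has a pole at `v`
    have h1 : max (-v.ord x) 0 = -v.ord x := max_eq_left (by omega)
    rw [h1]
    have hEv := hE v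
    have hat' : ((E : ℤ) * ((q : ℤ) ^ 2 - 1)) * ((t : ℤ) + 1) ≤ (a : ℤ) := by
      have hq2' : 1 ≤ q ^ 2 := Nat.one_le_pow _ _ (by omega)
      have := (Nat.cast_le (α := ℤ)).mpr hat
      push_cast [Nat.cast_sub hq2'] at this
      exact this
    rcases hcusp v hx with ⟨hy, hXv⟩ | hy
    · -- kind 1
      have h2 : max (-v.ord y) 0 = -v.ord y := max_eq_left (by rw [hy]; nlinarith)
      rw [h2, hy] at hgv
      have h3 : (q : ℤ) * v.ord x + 1 ≤ v.ord (x ^ q - y) := by omega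
      have h4 : (a : ℤ) * ((q : ℤ) * v.ord x + 1) ≤ (a : ℤ) * v.ord (x ^ q - y) :=
        mul_le_mul_of_nonneg_left h3 ha0
      -- `(q² − 1)(t + 1) e ≤ a`
      have h5 : (-v.ord x) * (((q : ℤ) ^ 2 - 1) * ((t : ℤ) + 1)) ≤ (a : ℤ) := by
        have h6 : (0 : ℤ) ≤ ((q : ℤ) ^ 2 - 1) * ((t : ℤ) + 1) := by
          apply mul_nonneg
          · nlinarith
          · linarith
        have h7 := mul_le_mul_of_nonneg_right hEv h6
        nlinarith
      nlinarith
    · -- kind 2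
      have hyneg : v.ord y < 0 := by
        by_contra h
        push Not at h
        have : (0 : ℤ) ≤ (q : ℤ) * v.ord y := mul_nonneg (by linarith) h
        omega
      have h2 : max (-v.ord y) 0 = -v.ord y := max_eq_left (by omega)
      rw [h2] at hgv
      have h3 : (q : ℤ) * v.ord x ≤ v.ord (x ^ q - y) := by
        refine S34S_tp_ord_sub_ge v (by nlinarith) ?_ ?_
        · rw [S34S_tp_ord_pow]
        · -- `q · ord x = q² · ord y ≤ ord y`
          rw [← hy]
          nlinarith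
      have h4 : (a : ℤ) * ((q : ℤ) * v.ord x) ≤ (a : ℤ) * v.ord (x ^ q - y) :=
        mul_le_mul_of_nonneg_left h3 ha0
      -- `ord g ≥ −q (t+1) b = (t + 1) · ord x`
      have h5 : (t + 1 : ℤ) * v.ord x ≤ v.ord g := by
        have : -((q : ℤ) * ((t : ℤ) + 1) * -v.ord y) = ((t : ℤ) + 1) * ((q : ℤ) * v.ord y) := by
          ring
        rw [this, hy] at hgv
        exact hgv
      nlinarith

end F3

section map

variable {L FM F : Type*} [Field L] [Field FM] [Field F] [Algebra L FM] [Algebra L F]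

/-- `α` restricted to `L[t] → L[α t]`. -/
def S34S_tp_adjoinMap (α : FM →ₐ[L] F) (t : FM) :
    Algebra.adjoin L ({t} : Set FM) →+* Algebra.adjoin L ({α t} : Set F) where
  toFun a := ⟨α (a : FM), by
    have h : α (a : FM) ∈ (Algebra.adjoin L ({t} : Set FM)).map α := ⟨a, a.2, rfl⟩
    rwa [AlgHom.map_adjoin, Set.image_singleton] at h⟩
  map_one' := Subtype.ext (map_one α)
  map_mul' _ _ := Subtype.ext (map_mul α _ _)
  map_zero' := Subtype.ext (map_zero α)
  map_add' _ _ := Subtype.ext (map_add α _ _)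

/-- integrality over `L[t]` is transported by a field embedding. -/
theorem S34S_tp_isIntegral_map (α : FM →ₐ[L] F) {t b : FM}
    (hb : IsIntegral (Algebra.adjoin L ({t} : Set FM)) b) :
    IsIntegral (Algebra.adjoin L ({α t} : Set F)) (α b) :=
  IsIntegral.map_of_comp_eq (S34S_tp_adjoinMap α t) (α : FM →+* F) (RingHom.ext fun _ => rfl) hb

/-- **(α/β-pole)** a field embedding maps `L(r·(x)_∞)` into `L(r·(α x)_∞)`. -/
theorem S34S_map_mem (α : FM →ₐ[L] F) (hPM : HasPrincipalDivisors L FM)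
    (hP : HasPrincipalDivisors L F) (x : FM)
    (reg : ∀ f : FM, (∀ P : Place L FM, 0 ≤ P.ord x → 0 ≤ P.ord f) →
      IsIntegral (Algebra.adjoin L ({x} : Set FM)) f)
    (reg_inv : ∀ f : FM, (∀ P : Place L FM, P.ord x ≤ 0 → 0 ≤ P.ord f) →
      IsIntegral (Algebra.adjoin L ({x⁻¹} : Set FM)) f)
    (r : ℕ) {f : FM} (hf : f ∈ riemannRochSpace (r • RR_poleDiv hPM x)) :
    α f ∈ riemannRochSpace (r • RR_poleDiv hP (α x)) := by
  rw [mem_riemannRochSpace_iff] at hf ⊢
  have hr0 : (0 : ℤ) ≤ (r : ℤ) := Int.natCast_nonneg r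
  -- `f` is regular where `x` is
  have h1 : ∀ P : Place L FM, 0 ≤ P.ord x → 0 ≤ P.ord f := by
    intro P hx
    rcases hf P with h | h
    · rw [h, Place.ord_zero]
    · rw [Finsupp.smul_apply, RR_poleDiv_apply, nsmul_eq_mul,
        max_eq_right (by omega : -P.ord x ≤ 0), mul_zero, neg_zero] at h
      exact h
  have hint1 := S34S_tp_isIntegral_map α (reg f h1)
  -- `f / x^r` is regular where `x⁻¹` is
  have h2 : ∀ P : Place L FM, P.ord x ≤ 0 → 0 ≤ P.ord (f * x⁻¹ ^ r) := by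
    intro P hx
    by_cases h0 : f * x⁻¹ ^ r = 0
    · rw [h0, Place.ord_zero]
    have hf0 : f ≠ 0 := left_ne_zero_of_mul h0
    have hx0 : x⁻¹ ^ r ≠ 0 := right_ne_zero_of_mul h0
    have h := (hf P).resolve_left hf0
    rw [Finsupp.smul_apply, RR_poleDiv_apply, nsmul_eq_mul,
      max_eq_left (by omega : 0 ≤ -P.ord x)] at h
    rw [P.ord_mul hf0 hx0, S34S_tp_ord_pow, P.ord_inv]
    linarith
  have hint2 := S34S_tp_isIntegral_map α (reg_inv _ h2)
  intro Q
  by_cases hf0 : f = 0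
  · left
    rw [hf0, map_zero]
  right
  have hαf0 : α f ≠ 0 := (map_ne_zero_iff _ α.toRingHom.injective).mpr hf0
  rw [Finsupp.smul_apply, RR_poleDiv_apply, nsmul_eq_mul]
  rcases le_or_gt 0 (Q.ord (α x)) with hx | hx
  · rw [max_eq_right (by omega : -Q.ord (α x) ≤ 0), mul_zero, neg_zero]
    have hmem : α x ∈ Q.toValuationSubring := by
      by_cases hx0 : α x = 0
      · rw [hx0]
        exact Q.toValuationSubring.zero_mem
      · exact (BL_mem_iff_ord_nonneg Q hx0).mpr hx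
    exact BL_ord_nonneg Q ⟨α f, BL_mem_of_isIntegral Q hmem hint1⟩
  · rw [max_eq_left (by omega : 0 ≤ -Q.ord (α x))]
    have hx0 : α x ≠ 0 := by
      intro h
      rw [h, Place.ord_zero] at hx
      exact lt_irrefl _ hx
    have hxi0 : (α x)⁻¹ ≠ 0 := inv_ne_zero hx0
    have hmem : α x⁻¹ ∈ Q.toValuationSubring := by
      rw [map_inv₀]
      refine (BL_mem_iff_ord_nonneg Q hxi0).mpr ?_
      rw [Q.ord_inv]
      omega
    have h3 := BL_ord_nonneg Q ⟨α (f * x⁻¹ ^ r), BL_mem_of_isIntegral Q hmem hint2⟩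
    simp only at h3
    rw [map_mul, map_pow, map_inv₀, Q.ord_mul hαf0 (pow_ne_zero _ hxi0), S34S_tp_ord_pow,
      Q.ord_inv] at h3
    linarith

end map

end Fermat.Agent.S34
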