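import Fermat.Agent.S34.SatXB

/-!
# TRACK 7 (S34/S35), package SAT, piece (XB) + (hreg)

`F = modularFunctionFieldBar N` over `ℚ̄`, `j = jB N`, `j_d = jBar N d`.

* `S34SX_finite_rel` : every finite place is an analytic point: `e₀ · ord_v f =
  ord_v (j − c) · ord_{τ₀} (f ∘ γ)`;
* `S34SX_reg_jBar` (**hreg**) : `j_d` is regular at every place where `j` is regular;
* `S34SX_hcusp` (**hcusp**, = (CK) + (XB)) : at every pole `v` of `j`, for a prime `q ∣ N`:
  `(ord_v j_q = q · ord_v j ∧ q · ord_v j < ord_v (j^q − j_q)) ∨ q · ord_v j_q = ord_v j`.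
-/

set_option autoImplicit false
set_option maxHeartbeats 400000

open UpperHalfPlane hiding I
open scoped MatrixGroups Manifold ModularForm Real Topology
open CongruenceSubgroup ModularCurve IntermediateField AlgebraicCurve Complex Filter
open Fermat.Agent.S20 Fermat.Agent.S24 Fermat.Agent.S18 Fermat.Agent.S28

noncomputable section

namespace Fermat.Agent.S34

variable (N : ℕ) [NeZero N]

/-- every finite place is an analytic point of `ℍ`, up to a conjugate. -/
theorem S34SX_finite_rel (c : AlgebraicClosure ℚ)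
    (v : Place (AlgebraicClosure ℚ) ↥(modularFunctionFieldBar N))
    (hv : 0 < v.ord (jB N - algebraMap (AlgebraicClosure ℚ) ↥(modularFunctionFieldBar N) c)) :
    ∃ (τ₀ : ℍ) (e₀ : ℤ) (γ : S20_Q N), 0 < e₀ ∧
      ∀ f : ↥(modularFunctionFieldBar N), f ≠ 0 →
        e₀ * v.ord f =
          v.ord (jB N - algebraMap (AlgebraicClosure ℚ) ↥(modularFunctionFieldBar N) c) *
            S24_ordM τ₀ (S24_sig N (ev N) γ f) := by
  classical
  obtain ⟨τ₀, e₀, he₀, hord⟩ : ∃ (τ₀ : ℍ) (e₀ : ℤ), 0 < e₀ ∧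
      S24_ordM τ₀ (algebraMap Hol Mer (jHol 1) - algebraMap ℂ Mer (kEmb c)) = e₀ := by
    obtain ⟨τ₀, -, h | h | h⟩ := S24_exists_basepoint (kEmb c)
    · exact ⟨τ₀, 2, by norm_num, S24_ordM_j_sub (kEmb c) τ₀ 2 (by rw [h.2.2]; rfl)⟩
    · exact ⟨τ₀, 3, by norm_num, S24_ordM_j_sub (kEmb c) τ₀ 3 (by rw [h.2.2]; rfl)⟩
    · exact ⟨τ₀, 1, by norm_num, S24_ordM_j_sub (kEmb c) τ₀ 1 (by rw [h.2.2.2.2]; rfl)⟩
  have he := isEv_ev N
  have hinv := S24_hinv N (ev N) (isEv_ev N)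
  have hfd := finiteDimensional_jB N
  have hdeg : Module.finrank (AlgebraicClosure ℚ)⟮jB N⟯ ↥(modularFunctionFieldBar N) =
      Nat.card (S20_Q N) := (finrank_eq_psi N).trans (S20_card_Q N).symm
  have hadj := S24_adjoin_sub_const (K := AlgebraicClosure ℚ) (jB N) c
  have hfd' : FiniteDimensional (AlgebraicClosure ℚ)⟮jB N - algebraMap (AlgebraicClosure ℚ)
      ↥(modularFunctionFieldBar N) c⟯ ↥(modularFunctionFieldBar N) :=
    S24_finiteDimensional_congr hadj.symm hfd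
  have htr := W_transcendental_sub (transcendental_jB N) c
  set w : S20_Q N → ↥(modularFunctionFieldBar N) → ℤ :=
    fun γ f => S24_ordM τ₀ (S24_sig N (ev N) γ f) with hw
  have hne : ∀ γ (f : ↥(modularFunctionFieldBar N)), f ≠ 0 → S24_sig N (ev N) γ f ≠ 0 :=
    fun γ f hf => (map_ne_zero (S24_sig N (ev N) γ)).mpr hf
  have hval : ∀ γ, IsVal (K := AlgebraicClosure ℚ) (w γ) :=
    fun γ => S24_isVal_ordM kEmb (S24_sig N (ev N) γ) (S24_sig_const he γ) τ₀
  have hwx : ∀ γ, w γ (jB N - algebraMap (AlgebraicClosure ℚ) ↥(modularFunctionFieldBar N) c)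
      = e₀ := by
    intro γ
    show S24_ordM τ₀ (S24_sig N (ev N) γ _) = _
    rw [map_sub, S24_sig_jB he, S24_sig_const he, hord]
  have hXne : Nonempty (S20_Q N) := by
    have : 0 < Nat.card (S20_Q N) := by rw [← hdeg]; exact Module.finrank_pos
    exact (Nat.card_pos_iff.mp this).1
  have hXfin : Finite (S20_Q N) := by
    have : 0 < Nat.card (S20_Q N) := by rw [← hdeg]; exact Module.finrank_pos
    exact (Nat.card_pos_iff.mp this).2
  have hx0 : jB N - algebraMap (AlgebraicClosure ℚ) ↥(modularFunctionFieldBar N) c ≠ 0 :=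
    fun h => htr (h ▸ isAlgebraic_zero)
  obtain ⟨-, γ, hγ⟩ := X0_ord_dvd_abs _ hx0 (BG_approx htr) (BG_norm htr)
    w hval e₀ he₀ hwx
    (fun f hf γ₀ => by
      rw [S24_norm_congr hadj f]
      show ∑ᶠ γ, S24_ordM τ₀ (S24_sig N (ev N) γ f) = S24_ordM τ₀ (S24_sig N (ev N) γ₀ _)
      rw [S24_sig_norm he hinv hdeg.le f γ₀, S24_ordM_finprod _ (fun γ => hne γ f hf)])
    v hv
  exact ⟨τ₀, e₀, γ, he₀, hγ⟩

/-- **(hreg)** the generators `j_d` are regular wherever `j` is regular. -/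
theorem S34SX_reg_jBar
    (v : Place (AlgebraicClosure ℚ) ↥(modularFunctionFieldBar N)) (hv : 0 ≤ v.ord (jB N))
    (d : ℕ) [NeZero d] (hd : d ∣ N) : 0 ≤ v.ord (jBar N d hd) := by
  obtain ⟨c, hc⟩ := X0_exists_const N v hv
  obtain ⟨τ₀, e₀, γ, he₀, hγ⟩ := S34SX_finite_rel N c v hc
  have he := isEv_ev N
  have hne := S34SX_jBar_ne_zero N d hd
  have h1 := hγ _ hne
  have h2 : S24_sig N (ev N) γ (jBar N d hd) =
      algebraMap Hol Mer (holComp (Quotient.out γ)⁻¹ (jHol d)) := by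
    show merComp _ (ev N (jBar N d hd)) = _
    rw [he.gen d hd, merComp_algebraMap]
  have hne' : holComp (Quotient.out γ)⁻¹ (jHol d) ≠ 0 := by
    intro h0
    have := (map_ne_zero (S24_sig N (ev N) γ)).mpr hne
    rw [h2, h0, map_zero] at this
    exact this rfl
  rw [h2, S24_ordM_of_hol τ₀ hne'] at h1
  have h3 := S24_ordH_nonneg τ₀ (holComp (Quotient.out γ)⁻¹ (jHol d))
  by_contra hcon
  push Not at hcon
  have h4 : e₀ * v.ord (jBar N d hd) < 0 := mul_neg_of_pos_of_neg he₀ hcon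
  have h5 : 0 ≤ v.ord (jB N - algebraMap (AlgebraicClosure ℚ) ↥(modularFunctionFieldBar N) c) *
      S24_ordH τ₀ (holComp (Quotient.out γ)⁻¹ (jHol d)) := mul_nonneg hc.le h3
  omega

/-! ### cancellation of leading terms at the cusp -/

section Core

variable {N}

/-- cancellation of the leading terms: two functions with the same order and the same leading
coefficient at `i∞` have a difference of strictly larger order. -/
theorem S34SX_core {g₁ g₂ : ℍ → ℂ} (h₁ : MeroCusp N g₁) (h₂ : MeroCusp N g₂)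
    (hne₁ : g₁ ≠ 0) (hne₂ : g₂ ≠ 0)
    (hord : cuspOrd N g₁ = cuspOrd N g₂) (hlc : cuspLC N g₁ = cuspLC N g₂)
    (hsub : g₁ - g₂ ≠ 0) :
    cuspOrd N g₁ < cuspOrd N (g₁ - g₂) := by
  have hm₁ := h₁.meromorphicAt
  have hm₂ := h₂.meromorphicAt
  have e₁ := (h₁.coe_cuspOrd hne₁).symm
  have e₂ := (h₂.coe_cuspOrd hne₂).symm
  rw [← hord] at e₂
  obtain ⟨H₁, hHa₁, hH0₁, hHe₁⟩ := (meromorphicOrderAt_eq_int_iff hm₁).1 e₁
  obtain ⟨H₂, hHa₂, hH0₂, hHe₂⟩ := (meromorphicOrderAt_eq_int_iff hm₂).1 e₂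
  have l₁ : cuspLC N g₁ = H₁ 0 := by
    unfold cuspLC
    rw [hHa₁.meromorphicTrailingCoeffAt_of_ne_zero_of_eq_nhdsNE hH0₁ hHe₁]
  have l₂ : cuspLC N g₂ = H₂ 0 := by
    unfold cuspLC
    rw [hHa₂.meromorphicTrailingCoeffAt_of_ne_zero_of_eq_nhdsNE hH0₂ hHe₂]
  have hH : H₁ 0 = H₂ 0 := by rw [← l₁, ← l₂, hlc]
  have h₃ : MeroCusp N (g₁ - g₂) := h₁.sub h₂
  have e₃ := (h₃.coe_cuspOrd hsub).symm
  -- the difference near 0
  have hsubE : cuspFunction (N : ℝ) (g₁ - g₂) =ᶠ[𝓝[≠] 0]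
      fun z ↦ (z - 0) ^ (cuspOrd N g₁) • (H₁ z - H₂ z) := by
    have hE : cuspFunction (N : ℝ) (g₁ - g₂) =ᶠ[𝓝[≠] 0]
        cuspFunction (N : ℝ) g₁ - cuspFunction (N : ℝ) g₂ := by
      filter_upwards [self_mem_nhdsWithin] with q hq
      rw [Pi.sub_apply, cuspFunction_apply_of_ne _ _ hq, cuspFunction_apply_of_ne _ _ hq,
        cuspFunction_apply_of_ne _ _ hq, Pi.sub_apply]
    filter_upwards [hE, hHe₁, hHe₂] with z hz hz₁ hz₂
    rw [hz, Pi.sub_apply, hz₁, hz₂, smul_sub]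
  have hD : AnalyticAt ℂ (fun z ↦ H₁ z - H₂ z) 0 := hHa₁.sub hHa₂
  have hD0 : (fun z ↦ H₁ z - H₂ z) 0 = 0 := by simp [hH]
  have hDpos : 0 < meromorphicOrderAt (fun z ↦ H₁ z - H₂ z) 0 := by
    rw [← tendsto_zero_iff_meromorphicOrderAt_pos hD.meromorphicAt]
    have := hD.continuousAt.tendsto
    have hD0' : H₁ 0 - H₂ 0 = 0 := by rw [hH, sub_self]
    simp only [hD0'] at this
    exact this.mono_left nhdsWithin_le_nhds
  have hpow : MeromorphicAt (fun z : ℂ ↦ (z - 0) ^ (cuspOrd N g₁)) 0 := by fun_prop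
  have hordE : meromorphicOrderAt (cuspFunction (N : ℝ) (g₁ - g₂)) 0 =
      (cuspOrd N g₁ : WithTop ℤ) + meromorphicOrderAt (fun z ↦ H₁ z - H₂ z) 0 := by
    rw [meromorphicOrderAt_congr hsubE]
    have := meromorphicOrderAt_smul hpow hD.meromorphicAt
    have h2 : meromorphicOrderAt (fun z : ℂ ↦ (z - 0) ^ (cuspOrd N g₁)) 0 =
        (cuspOrd N g₁ : WithTop ℤ) := meromorphicOrderAt_zpow_id_sub_const
    rw [h2] at this
    exact this
  rw [e₃] at hordE
  -- conclude in `WithTop ℤ`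
  have hlt : ((cuspOrd N g₁ : ℤ) : WithTop ℤ) < ((cuspOrd N (g₁ - g₂) : ℤ) : WithTop ℤ) := by
    rw [hordE]
    cases hx : meromorphicOrderAt (fun z ↦ H₁ z - H₂ z) 0 with
    | top => rw [hx] at hordE; simp at hordE
    | coe n =>
      rw [hx] at hDpos
      have hn : 0 < n := by exact_mod_cast hDpos
      rw [← WithTop.coe_add]
      exact_mod_cast (by omega : cuspOrd N g₁ < cuspOrd N g₁ + n)
  exact_mod_cast hlt


/-- cancellation for quotients: same order and same leading coefficient ⇒ the difference has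
strictly larger order. -/
theorem S34SX_cancel {φ ψ : Mer} {n : ℤ} {c : ℂ} (h : CuspFrac N φ n c)
    (h' : CuspFrac N ψ n c) (hs : φ - ψ ≠ 0) :
    ∃ k e, CuspFrac N (φ - ψ) k e ∧ n < k := by
  obtain ⟨a, b, hma, hmb, ha, hb, e, hn, hc⟩ := h
  obtain ⟨a', b', hma', hmb', ha', hb', e', hn', hc'⟩ := h'
  have hsum : (φ - ψ) * algebraMap Hol Mer (b * b') = algebraMap Hol Mer (a * b' - a' * b) := by
    rw [map_mul, map_sub, map_mul, map_mul, ← e, ← e']
    ring
  have hnum : a * b' - a' * b ≠ 0 := by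
    intro h0
    rw [h0, map_zero] at hsum
    rcases mul_eq_zero.mp hsum with h1 | h1
    · exact hs h1
    · exact algebraMap_hol_ne_zero (mul_ne_zero hb hb') h1
  have hnumf : ((a : ℍ → ℂ) * (b' : ℍ → ℂ) - (a' : ℍ → ℂ) * (b : ℍ → ℂ)) ≠ 0 := by
    have := hol_coe_ne_zero hnum
    simpa using this
  have hab' : ((a : ℍ → ℂ) * (b' : ℍ → ℂ)) ≠ 0 := by
    simpa using hol_coe_ne_zero (mul_ne_zero ha hb')
  have ha'b : ((a' : ℍ → ℂ) * (b : ℍ → ℂ)) ≠ 0 := by
    simpa using hol_coe_ne_zero (mul_ne_zero ha' hb)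
  have o1 := cuspOrd_mul hma hmb' (hol_coe_ne_zero ha) (hol_coe_ne_zero hb')
  have o2 := cuspOrd_mul hma' hmb (hol_coe_ne_zero ha') (hol_coe_ne_zero hb)
  have o3 := cuspOrd_mul hmb hmb' (hol_coe_ne_zero hb) (hol_coe_ne_zero hb')
  have l1 := cuspLC_mul hma hmb'
  have l2 := cuspLC_mul hma' hmb
  have hb0 := cuspLC_ne_zero hmb (hol_coe_ne_zero hb)
  have hb0' := cuspLC_ne_zero hmb' (hol_coe_ne_zero hb')
  have hord : cuspOrd N ((a : ℍ → ℂ) * (b' : ℍ → ℂ)) =
      cuspOrd N ((a' : ℍ → ℂ) * (b : ℍ → ℂ)) := by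
    rw [o1, o2]; omega
  have hlc : cuspLC N ((a : ℍ → ℂ) * (b' : ℍ → ℂ)) =
      cuspLC N ((a' : ℍ → ℂ) * (b : ℍ → ℂ)) := by
    rw [l1, l2]
    have h1 : cuspLC N (a : ℍ → ℂ) / cuspLC N (b : ℍ → ℂ) =
        cuspLC N (a' : ℍ → ℂ) / cuspLC N (b' : ℍ → ℂ) := by rw [← hc, ← hc']
    field_simp at h1
    linear_combination h1
  have key := S34SX_core (hma.mul hmb') (hma'.mul hmb) hab' ha'b hord hlc hnumf
  refine ⟨_, _, ⟨a * b' - a' * b, b * b', ?_, hmb.mul hmb', hnum, mul_ne_zero hb hb', hsum,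
    rfl, rfl⟩, ?_⟩
  · have := (hma.mul hmb').sub (hma'.mul hmb)
    simpa using this
  · have e1 : (((a * b' - a' * b : Hol) : ℍ → ℂ)) =
        (a : ℍ → ℂ) * (b' : ℍ → ℂ) - (a' : ℍ → ℂ) * (b : ℍ → ℂ) := rfl
    have e2 : (((b * b' : Hol) : ℍ → ℂ)) = (b : ℍ → ℂ) * (b' : ℍ → ℂ) := rfl
    rw [e1, e2, o3]
    rw [o1] at key
    omega

/-- powers. -/
theorem S34SX_cuspFrac_pow {φ : Mer} {n : ℤ} {c : ℂ} (h : CuspFrac N φ n c) (m : ℕ) :
    CuspFrac N (φ ^ m) (m * n) (c ^ m) := by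
  induction m with
  | zero =>
    have := CuspFrac.const (N := N) (z := 1) one_ne_zero
    simpa using this
  | succ m ih =>
    have := ih.mul h
    rw [pow_succ, pow_succ]
    convert this using 1
    push_cast
    ring

end Core

/-! ### the conjugates of the generators with their leading coefficients -/

/-- the conjugate `τ ↦ j(d · gτ)` has order `− a N / d'` and leading coefficient
`rootU b d' ⁻¹` at `i∞` (Hermite normal form `ut d 0 1 · g = γ' · ut a b d'`). -/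
theorem S34SX_cuspFrac_lc (g : SL(2, ℤ)) {d : ℕ} (hd : 0 < d) (hdN : d ∣ N) :
    ∃ (a b d' : ℕ), 0 < a ∧ 0 < d' ∧ a * d' = d ∧ b < d' ∧
      CuspFrac N (merComp g (algebraMap Hol Mer (jHol d))) (-((a * (N / d') : ℕ) : ℤ))
        (rootU b d')⁻¹ := by
  obtain ⟨γ', a, b, d', ha, hd', hadd, -, hb, h⟩ := hnf_GL g d hd
  have hN : 0 < N := Nat.pos_of_ne_zero (NeZero.ne N)
  have hd'N : d' ∣ N := (Dvd.intro_left a hadd).trans hdN
  have he : a * (N / d') * d' = a * N := by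
    rw [mul_assoc, Nat.div_mul_cancel hd'N]
  set e := a * (N / d') with he_def
  have he0 : 0 < e := Nat.mul_pos ha (Nat.div_pos (Nat.le_of_dvd hN hd'N) hd')
  obtain ⟨hmA, hA0, hoA⟩ := cuspOrd_num (N := N) (b := b) ha hd' _ he
  obtain ⟨hmB, hB0, hoB⟩ := cuspOrd_den (N := N) (b := b) ha hd' _ he
  -- leading coefficients
  have hniceA := nice_slash_ut true (b := b) ha hd' hN e he
  have hsA := fun τ ↦ hasSum_slash_ut (baseForm true) (b := b) ha hd' hN e he τ
  rw [coe_baseForm] at hsA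
  have hcA : conjCoeff 12 a b d' e (fun m ↦ (qExpansion 1 (baseFn true)).coeff m) 0 =
      slashConst 12 a d' := by
    simp only [conjCoeff, dvd_zero, if_true, Nat.zero_div, pow_zero, one_mul]
    rw [coeff_zero_baseFn_true, mul_one]
  have hlA : cuspLC N (baseFn true ∣[(12 : ℤ)] ut a b d') = slashConst 12 a d' := by
    rw [cuspLC_of_hasSum (N := N) hniceA.2.1 hsA (n₀ := 0)
      (fun k hk ↦ absurd hk (Nat.not_lt_zero k)) (by rw [hcA]; exact slashConst_ne_zero 12 ha hd'),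
      hcA]
  have hniceB := nice_slash_ut false (b := b) ha hd' hN e he
  have hsB := fun τ ↦ hasSum_slash_ut (baseForm false) (b := b) ha hd' hN e he τ
  rw [coe_baseForm] at hsB
  have hcB : conjCoeff 12 a b d' e (fun m ↦ (qExpansion 1 (baseFn false)).coeff m) e =
      slashConst 12 a d' * rootU b d' := by
    simp only [conjCoeff, dvd_refl, if_true, Nat.div_self he0, pow_one]
    rw [coeff_one_baseFn_false, mul_one]
  have hltB : ∀ k < e, conjCoeff 12 a b d' e
      (fun m ↦ (qExpansion 1 (baseFn false)).coeff m) k = 0 := by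
    intro k hk
    simp only [conjCoeff]
    split_ifs with hdvd
    · have hk0 : k = 0 := Nat.eq_zero_of_dvd_of_lt hdvd hk
      subst hk0
      simp [coeff_zero_baseFn_false]
    · rfl
  have hlB : cuspLC N (baseFn false ∣[(12 : ℤ)] ut a b d') = slashConst 12 a d' * rootU b d' := by
    rw [cuspLC_of_hasSum (N := N) hniceB.2.1 hsB hltB
      (by rw [hcB]; exact mul_ne_zero (slashConst_ne_zero 12 ha hd') (rootU_ne_zero b d')), hcB]
  let A : Hol := ⟨baseFn true ∣[(12 : ℤ)] ut a b d', mdiff_slash_ut true ha hd'⟩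
  let B : Hol := ⟨baseFn false ∣[(12 : ℤ)] ut a b d', mdiff_slash_ut false ha hd'⟩
  have hA : A ≠ 0 := fun h0 ↦ hA0 (congrArg Subtype.val h0)
  have hB : B ≠ 0 := fun h0 ↦ hB0 (congrArg Subtype.val h0)
  refine ⟨a, b, d', ha, hd', hadd, hb, A, B, hmA, hmB, hA, hB, ?_, ?_, ?_⟩
  · rw [merComp_algebraMap, ← map_mul]
    congr 1
    rw [hol_ext_iff]
    intro τ
    exact jFun_smul_mul_slash g hd γ' h τ
  · show _ = cuspOrd N (baseFn true ∣[(12 : ℤ)] ut a b d') -
      cuspOrd N (baseFn false ∣[(12 : ℤ)] ut a b d')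
    rw [hoA, hoB]
    ring
  · show _ = cuspLC N (baseFn true ∣[(12 : ℤ)] ut a b d') /
      cuspLC N (baseFn false ∣[(12 : ℤ)] ut a b d')
    rw [hlA, hlB]
    have h1 := slashConst_ne_zero 12 ha hd'
    have h2 := rootU_ne_zero b d'
    field_simp

theorem S34SX_rootU_zero (d : ℕ) : rootU 0 d = 1 := by
  unfold rootU
  simp

/-- `j` itself has order `−N` and leading coefficient `1` at `i∞`. -/
theorem S34SX_cuspFrac_j : CuspFrac N (algebraMap Hol Mer (jHol 1)) (-(N : ℤ)) 1 := by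
  obtain ⟨a, b, d', ha, hd', hadd, hb, h⟩ := S34SX_cuspFrac_lc N 1 one_pos (one_dvd N)
  have ha1 : a = 1 := Nat.eq_one_of_mul_eq_one_right hadd
  have hd1 : d' = 1 := Nat.eq_one_of_mul_eq_one_left hadd
  subst ha1 hd1
  have hb0 : b = 0 := by omega
  subst hb0
  have h1 : merComp 1 (algebraMap Hol Mer (jHol 1)) = algebraMap Hol Mer (jHol 1) := by
    rw [merComp_algebraMap, holComp_one]
    rfl
  rw [h1, S34SX_rootU_zero, inv_one] at h
  simpa using h

/-- **(hcusp)** = (CK) + (XB): at every pole `v` of `j`, for a prime `q ∣ N`, either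
`ord_v j_q = q · ord_v j` and the leading terms of `j^q` and `j_q` cancel
(`q · ord_v j < ord_v (j^q − j_q)`), or `q · ord_v j_q = ord_v j`. -/
theorem S34SX_hcusp
    (v : Place (AlgebraicClosure ℚ) ↥(modularFunctionFieldBar N)) (hv : v.ord (jB N) < 0)
    (q : ℕ) [NeZero q] (hq : q.Prime) (hd : q ∣ N) :
    (v.ord (jBar N q hd) = (q : ℤ) * v.ord (jB N) ∧
        (q : ℤ) * v.ord (jB N) < v.ord ((jB N) ^ q - jBar N q hd)) ∨
      (q : ℤ) * v.ord (jBar N q hd) = v.ord (jB N) := by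
  have he := isEv_ev N
  have hN0 : (0 : ℤ) < (N : ℤ) := by exact_mod_cast Nat.pos_of_ne_zero (NeZero.ne N)
  have hq0 : (0 : ℤ) < (q : ℤ) := by exact_mod_cast hq.pos
  obtain ⟨γ, hγ⟩ := S34SX_cusp_rel N v hv
  have hne := S34SX_jBar_ne_zero N q hd
  have h1 : S24_sig N (ev N) γ (jBar N q hd) =
      merComp (Quotient.out γ)⁻¹ (algebraMap Hol Mer (jHol q)) := by
    show merComp _ (ev N (jBar N q hd)) = _
    rw [he.gen q hd]
  obtain ⟨a, b, d', ha, hd', hadd, hb, hF⟩ :=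
    S34SX_cuspFrac_lc N (Quotient.out γ)⁻¹ hq.pos hd
  rw [← h1] at hF
  have hwq := cuspW_eq hF
  have hrel := hγ _ hne
  rw [hwq] at hrel
  have hdvd : a ∣ q := Dvd.intro _ hadd
  rcases (Nat.dvd_prime hq).mp hdvd with ha1 | haq
  · -- kind 2: a = 1, d' = q
    right
    subst ha1
    rw [one_mul] at hadd
    subst hadd
    obtain ⟨m, hm⟩ := hd
    have hdiv : N / d' = m := by
      rw [hm]; exact Nat.mul_div_cancel_left m hd'
    rw [hdiv] at hrel
    have hNm : (N : ℤ) = (d' : ℤ) * (m : ℤ) := by exact_mod_cast hm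
    have hm0 : (m : ℤ) ≠ 0 := by
      intro h0
      rw [h0, mul_zero] at hNm
      omega
    push_cast at hrel
    rw [hNm] at hrel
    have h2 : (m : ℤ) * ((d' : ℤ) * v.ord (jBar N d' ⟨m, hm⟩)) = (m : ℤ) * v.ord (jB N) := by
      linear_combination hrel
    exact mul_left_cancel₀ hm0 h2
  · -- kind 1: a = q, d' = 1, b = 0
    left
    subst haq
    have hd1 : d' = 1 := Nat.eq_of_mul_eq_mul_left ha (hadd.trans (mul_one a).symm)
    subst hd1
    have hb0 : b = 0 := by omega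
    subst hb0
    rw [S34SX_rootU_zero, inv_one, Nat.div_one] at hF
    rw [Nat.div_one] at hrel
    push_cast at hrel
    have hordq : v.ord (jBar N a hd) = (a : ℤ) * v.ord (jB N) := by
      have h2 : (N : ℤ) * v.ord (jBar N a hd) = (N : ℤ) * ((a : ℤ) * v.ord (jB N)) := by
        linear_combination hrel
      exact mul_left_cancel₀ hN0.ne' h2
    refine ⟨hordq, ?_⟩
    by_cases hX : (jB N) ^ a - jBar N a hd = 0
    · rw [hX]
      have h0 : v.ord (0 : ↥(modularFunctionFieldBar N)) = 0 := by simp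
      rw [h0]
      exact mul_neg_of_pos_of_neg hq0 hv
    · -- cancellation of the leading terms
      have hj : CuspFrac N (S24_sig N (ev N) γ (jB N)) (-(N : ℤ)) 1 := by
        rw [S24_sig_jB he γ]
        exact S34SX_cuspFrac_j N
      have hjq := S34SX_cuspFrac_pow hj a
      rw [one_pow, ← map_pow] at hjq
      have hFq : CuspFrac N (S24_sig N (ev N) γ (jBar N a hd)) ((a : ℤ) * -(N : ℤ)) 1 := by
        convert hF using 1
        push_cast
        ring
      have hsub : S24_sig N (ev N) γ ((jB N) ^ a) - S24_sig N (ev N) γ (jBar N a hd) ≠ 0 := by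
        rw [← map_sub]
        exact (map_ne_zero (S24_sig N (ev N) γ)).mpr hX
      obtain ⟨k, e, hk, hlt⟩ := S34SX_cancel hjq hFq hsub
      rw [← map_sub] at hk
      have hwX := cuspW_eq hk
      have hrelX := hγ _ hX
      rw [hwX] at hrelX
      -- N * ord X = (- ord j) * k,  k > - a N
      have h3 : (N : ℤ) * ((a : ℤ) * v.ord (jB N)) < (N : ℤ) * v.ord ((jB N) ^ a - jBar N a hd) := by
        rw [hrelX]
        have h4 : (a : ℤ) * -(N : ℤ) + 1 ≤ k := by omega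
        have h5 : 0 < - v.ord (jB N) := by omega
        nlinarith [mul_le_mul_of_nonneg_left h4 h5.le]
      exact lt_of_mul_lt_mul_left h3 hN0.le

end Fermat.Agent.S34
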