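import Mathlib
import Fermat.Agent.S34.SatPole
import Fermat.Agent.S34.SatXB2
import Fermat.Agent.S34.WqJac
import Fermat.Agent.S18.SemiReg
import Fermat.Agent.S18.Reduce

/-!
# TRACK 7 (S34 + S35), package SAT: (α-pole), (β-pole), (F3) for the modular function fields

Level `M * q`, `α = heckeAlphaBar ℚ̄ M q`, `β = heckeBetaBar ℚ̄ M q : F_M → F_{Mq}`,
`j = jB _`, `j_q = jBar (M * q) q _`.

* `S34SP_reg`, `S34SP_reg_inv` : (P0) for `(F_N, j)`;
* `S34SP_alpha_mem` : `f ∈ L(r (j)_∞)` on `F_M`  ⇒  `α f ∈ L(r (j)_∞)` on `F_{Mq}`;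
* `S34SP_beta_mem`  : `f ∈ L(r (j)_∞)` on `F_M`  ⇒  `β f ∈ L(r (j_q)_∞)` on `F_{Mq}`;
* `S34SP_Xa_mul_mem`: (F3) on `F_{Mq}`: `(j^q − j_q)^a · g ∈ L((a q + t + 1)(j)_∞)` for
  `g ∈ L(q (t + 1)(j_q)_∞)`, `a ≥ C (t + 1)`;
* `S34SP_Xa_beta_mem`: the combination used by (LC-U): `(j^q − j_q)^a · β f ∈ L((a q + t + 1)(j)_∞)`
  for `f ∈ L(q (t + 1)(j)_∞)` on `F_M`.
-/

set_option autoImplicit false
set_option linter.unusedSectionVars false
set_option linter.style.haveILetI false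
set_option synthInstance.maxHeartbeats 400000
set_option maxHeartbeats 1000000

open ModularCurve AlgebraicCurve IntermediateField

namespace Fermat.Agent.S34

open Fermat.Agent.Lib Fermat.Agent.S24 Fermat.Agent.S18

section P0

variable (N : ℕ) [NeZero N]

/-- (P0) regular where `j` is regular ⇒ integral over `ℚ̄[j]`. -/
theorem S34SP_reg (f : ↥(modularFunctionFieldBar N))
    (hf : ∀ P : Place (AlgebraicClosure ℚ) ↥(modularFunctionFieldBar N),
      0 ≤ P.ord (jB N) → 0 ≤ P.ord f) :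
    IsIntegral (Algebra.adjoin (AlgebraicClosure ℚ)
      ({jB N} : Set ↥(modularFunctionFieldBar N))) f := by
  haveI := finiteDimensional_jB N
  haveI : CharZero (AlgebraicClosure ℚ)⟮jB N⟯ :=
    charZero_of_injective_algebraMap
      (algebraMap (AlgebraicClosure ℚ) (AlgebraicClosure ℚ)⟮jB N⟯).injective
  haveI : Algebra.IsSeparable (AlgebraicClosure ℚ)⟮jB N⟯ ↥(modularFunctionFieldBar N) :=
    Algebra.IsSeparable.of_integral _ _
  exact S18_semi_isIntegral_of_regular (transcendental_jB N) f hf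

/-- (P0) at infinity. -/
theorem S34SP_reg_inv (f : ↥(modularFunctionFieldBar N))
    (hf : ∀ P : Place (AlgebraicClosure ℚ) ↥(modularFunctionFieldBar N),
      P.ord (jB N) ≤ 0 → 0 ≤ P.ord f) :
    IsIntegral (Algebra.adjoin (AlgebraicClosure ℚ)
      ({(jB N)⁻¹} : Set ↥(modularFunctionFieldBar N))) f := by
  haveI := finiteDimensional_jB N
  haveI : CharZero (AlgebraicClosure ℚ)⟮jB N⟯ :=
    charZero_of_injective_algebraMap
      (algebraMap (AlgebraicClosure ℚ) (AlgebraicClosure ℚ)⟮jB N⟯).injective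
  haveI : Algebra.IsSeparable (AlgebraicClosure ℚ)⟮jB N⟯ ↥(modularFunctionFieldBar N) :=
    Algebra.IsSeparable.of_integral _ _
  exact S18_semi_isIntegral_of_regular_inv (transcendental_jB N) f hf

end P0

section poles

variable (M q : ℕ) [NeZero M] [NeZero q]

/-- `j_q = j(q τ)` as an element of `F_{Mq}`. -/
noncomputable abbrev S34SP_jq : ↥(modularFunctionFieldBar (M * q)) :=
  jBar (M * q) q (Dvd.intro_left M rfl)

theorem S34SP_alpha_jB :
    heckeAlphaBar (AlgebraicClosure ℚ) M q (jB M) = jB (M * q) :=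
  S34WJ_alpha_jBar 1 (one_dvd M)

theorem S34SP_beta_jB :
    heckeBetaBar (AlgebraicClosure ℚ) M q (jB M) = S34SP_jq M q := by
  have h := S34WJ_beta_jBar (M := M) (q := q) 1 (one_dvd M)
  rw [show jBar M 1 (one_dvd M) = jB M from rfl] at h
  rw [h]
  exact S34WJ_jBar_congr (M * q) (mul_one q) _ _

/-- **(α-pole)**. -/
theorem S34SP_alpha_mem
    (hPM : HasPrincipalDivisors (AlgebraicClosure ℚ) ↥(modularFunctionFieldBar M))
    (hP : HasPrincipalDivisors (AlgebraicClosure ℚ) ↥(modularFunctionFieldBar (M * q)))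
    (r : ℕ) {f : ↥(modularFunctionFieldBar M)}
    (hf : f ∈ riemannRochSpace (r • RR_poleDiv hPM (jB M))) :
    heckeAlphaBar (AlgebraicClosure ℚ) M q f ∈
      riemannRochSpace (r • RR_poleDiv hP (jB (M * q))) := by
  have h := S34S_map_mem (heckeAlphaBar (AlgebraicClosure ℚ) M q) hPM hP (jB M)
    (S34SP_reg M) (S34SP_reg_inv M) r hf
  rwa [S34SP_alpha_jB] at h

/-- **(β-pole)**. -/
theorem S34SP_beta_mem
    (hPM : HasPrincipalDivisors (AlgebraicClosure ℚ) ↥(modularFunctionFieldBar M))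
    (hP : HasPrincipalDivisors (AlgebraicClosure ℚ) ↥(modularFunctionFieldBar (M * q)))
    (r : ℕ) {f : ↥(modularFunctionFieldBar M)}
    (hf : f ∈ riemannRochSpace (r • RR_poleDiv hPM (jB M))) :
    heckeBetaBar (AlgebraicClosure ℚ) M q f ∈
      riemannRochSpace (r • RR_poleDiv hP (S34SP_jq M q)) := by
  have h := S34S_map_mem (heckeBetaBar (AlgebraicClosure ℚ) M q) hPM hP (jB M)
    (S34SP_reg M) (S34SP_reg_inv M) r hf
  rwa [S34SP_beta_jB] at h

/-- **(F3)** on `F_{Mq}`. -/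
theorem S34SP_Xa_mul_mem (hq : q.Prime)
    (hP : HasPrincipalDivisors (AlgebraicClosure ℚ) ↥(modularFunctionFieldBar (M * q))) :
    ∃ C : ℕ, ∀ a t : ℕ, C * (t + 1) ≤ a →
      ∀ g ∈ riemannRochSpace ((q * (t + 1)) • RR_poleDiv hP (S34SP_jq M q)),
        (jB (M * q) ^ q - S34SP_jq M q) ^ a * g ∈
          riemannRochSpace ((a * q + t + 1) • RR_poleDiv hP (jB (M * q))) :=
  S34S_Xa_mul_mem hP (jB (M * q)) (S34SP_jq M q) q hq.two_le
    (fun P hP' => S34SX_reg_jBar (M * q) P hP' q (Dvd.intro_left M rfl))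
    (fun P hP' => S34SX_hcusp (M * q) P hP' q hq (Dvd.intro_left M rfl))

/-- **(F3) ∘ (β-pole)**: the family `X̃^a · β^* f` of (LC-U). -/
theorem S34SP_Xa_beta_mem (hq : q.Prime)
    (hPM : HasPrincipalDivisors (AlgebraicClosure ℚ) ↥(modularFunctionFieldBar M))
    (hP : HasPrincipalDivisors (AlgebraicClosure ℚ) ↥(modularFunctionFieldBar (M * q))) :
    ∃ C : ℕ, ∀ a t : ℕ, C * (t + 1) ≤ a →
      ∀ f ∈ riemannRochSpace ((q * (t + 1)) • RR_poleDiv hPM (jB M)),
        (jB (M * q) ^ q - S34SP_jq M q) ^ a * heckeBetaBar (AlgebraicClosure ℚ) M q f ∈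
          riemannRochSpace ((a * q + t + 1) • RR_poleDiv hP (jB (M * q))) := by
  obtain ⟨C, hC⟩ := S34SP_Xa_mul_mem M q hq hP
  exact ⟨C, fun a t hat f hf => hC a t hat _ (S34SP_beta_mem M q hPM hP _ hf)⟩

end poles

end Fermat.Agent.S34
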