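import Mathlib
import Fermat.Agent.S34.SatPoleX0
import Fermat.Agent.S34.SatBridge

/-!
# TRACK 7 (S34 + S35), package NODAL concrete, piece (P2): the degeneracy maps keep the chart

Level `M * q`, `α = heckeAlphaBar ℚ̄ M q`, `β = heckeBetaBar ℚ̄ M q : F_M → F_{Mq}`,
`j = jB _`.  The chart `U = {j ≠ ∞}` has coordinate ring `S34SB_reg ℚ̄ (jB _)`.

* `S34NC_jBar_mem_reg` : `j_d ∈ reg (j)` on `F_N` (`d ∣ N`);
* `S34NC_reg_jBar_le`  : `reg (j_d) ≤ reg (j)` on `F_N` (where `j` is regular, `j_d` is regular);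
* `S34NC_alpha_reg`    : `f ∈ reg (j_M)  ⇒  α f ∈ reg (j_{Mq})`;
* `S34NC_beta_reg_jq`  : `f ∈ reg (j_M)  ⇒  β f ∈ reg (j_q)` (the sharper form);
* `S34NC_beta_reg`     : `f ∈ reg (j_M)  ⇒  β f ∈ reg (j_{Mq})`;
* `S34NC_alpha_map`, `S34NC_beta_map` : the same as inclusions of images (`Set.image`);
* `S34NC_alpha_map_le`, `S34NC_beta_map_le` : the same as `Subalgebra.map _ _ ≤ _`.

Prefix `S34NC_`.
-/

set_option autoImplicit false
set_option linter.unusedSectionVars false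
set_option linter.style.haveILetI false
set_option synthInstance.maxHeartbeats 400000
set_option maxHeartbeats 1000000

open ModularCurve AlgebraicCurve IntermediateField

namespace Fermat.Agent.S34

open Fermat.Agent.Lib Fermat.Agent.S24 Fermat.Agent.S18

section general

variable (N : ℕ) [NeZero N]

/-- `j_d = j(d τ)` is regular wherever `j` is. -/
theorem S34NC_jBar_mem_reg (d : ℕ) [NeZero d] (hd : d ∣ N) :
    jBar N d hd ∈ S34SB_reg (AlgebraicClosure ℚ) (jB N) := by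
  rw [S34SB_mem_reg_iff (S34SX_jBar_ne_zero N d hd)]
  exact fun Q hQ => S34SX_reg_jBar N Q hQ d hd

/-- regular off the poles of `j_d`  ⇒  regular off the poles of `j`. -/
theorem S34NC_reg_jBar_le (d : ℕ) [NeZero d] (hd : d ∣ N) :
    S34SB_reg (AlgebraicClosure ℚ) (jBar N d hd) ≤ S34SB_reg (AlgebraicClosure ℚ) (jB N) := by
  intro f hf
  rw [S34SB_mem_reg] at hf ⊢
  exact fun Q hQ => hf Q (S34SX_reg_jBar N Q hQ d hd)

end general

section chart

variable (M q : ℕ) [NeZero M] [NeZero q]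

/-- **(P2, α)**: `α` maps the coordinate ring of `{j ≠ ∞}` on `X₀(M)` into that on `X₀(Mq)`. -/
theorem S34NC_alpha_reg {f : ↥(modularFunctionFieldBar M)}
    (hf : f ∈ S34SB_reg (AlgebraicClosure ℚ) (jB M)) :
    heckeAlphaBar (AlgebraicClosure ℚ) M q f ∈
      S34SB_reg (AlgebraicClosure ℚ) (jB (M * q)) := by
  obtain ⟨m, hm⟩ := (S34SB_mem_reg_iff_exists (S18_hPD M) (jB M)).1 hf
  exact S34SB_RR_le_reg (S18_hPD (M * q)) _ m
    (S34SP_alpha_mem M q (S18_hPD M) (S18_hPD (M * q)) m hm)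

/-- **(P2, β)**, sharp form: `β f` is regular off the poles of `j_q = j(q τ)`. -/
theorem S34NC_beta_reg_jq {f : ↥(modularFunctionFieldBar M)}
    (hf : f ∈ S34SB_reg (AlgebraicClosure ℚ) (jB M)) :
    heckeBetaBar (AlgebraicClosure ℚ) M q f ∈
      S34SB_reg (AlgebraicClosure ℚ) (S34SP_jq M q) := by
  obtain ⟨m, hm⟩ := (S34SB_mem_reg_iff_exists (S18_hPD M) (jB M)).1 hf
  exact S34SB_RR_le_reg (S18_hPD (M * q)) _ m
    (S34SP_beta_mem M q (S18_hPD M) (S18_hPD (M * q)) m hm)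

/-- **(P2, β)**: `β` maps the coordinate ring of `{j ≠ ∞}` on `X₀(M)` into that on `X₀(Mq)`. -/
theorem S34NC_beta_reg {f : ↥(modularFunctionFieldBar M)}
    (hf : f ∈ S34SB_reg (AlgebraicClosure ℚ) (jB M)) :
    heckeBetaBar (AlgebraicClosure ℚ) M q f ∈
      S34SB_reg (AlgebraicClosure ℚ) (jB (M * q)) :=
  S34NC_reg_jBar_le (M * q) q (Dvd.intro_left M rfl) (S34NC_beta_reg_jq M q hf)

/-- (P2, α) as an inclusion of images. -/
theorem S34NC_alpha_map :
    (heckeAlphaBar (AlgebraicClosure ℚ) M q) '' (S34SB_reg (AlgebraicClosure ℚ) (jB M) :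
      Set ↥(modularFunctionFieldBar M)) ⊆
      (S34SB_reg (AlgebraicClosure ℚ) (jB (M * q)) : Set ↥(modularFunctionFieldBar (M * q))) := by
  rintro _ ⟨f, hf, rfl⟩
  exact S34NC_alpha_reg M q hf

/-- (P2, β) as an inclusion of images. -/
theorem S34NC_beta_map :
    (heckeBetaBar (AlgebraicClosure ℚ) M q) '' (S34SB_reg (AlgebraicClosure ℚ) (jB M) :
      Set ↥(modularFunctionFieldBar M)) ⊆
      (S34SB_reg (AlgebraicClosure ℚ) (jB (M * q)) : Set ↥(modularFunctionFieldBar (M * q))) := by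
  rintro _ ⟨f, hf, rfl⟩
  exact S34NC_beta_reg M q hf

/-- (P2, α) as `Subalgebra.map ≤`. -/
theorem S34NC_alpha_map_le :
    (S34SB_reg (AlgebraicClosure ℚ) (jB M)).map (heckeAlphaBar (AlgebraicClosure ℚ) M q) ≤
      S34SB_reg (AlgebraicClosure ℚ) (jB (M * q)) := by
  rintro _ ⟨f, hf, rfl⟩
  exact S34NC_alpha_reg M q hf

/-- (P2, β) as `Subalgebra.map ≤`. -/
theorem S34NC_beta_map_le :
    (S34SB_reg (AlgebraicClosure ℚ) (jB M)).map (heckeBetaBar (AlgebraicClosure ℚ) M q) ≤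
      S34SB_reg (AlgebraicClosure ℚ) (jB (M * q)) := by
  rintro _ ⟨f, hf, rfl⟩
  exact S34NC_beta_reg M q hf

end chart

end Fermat.Agent.S34
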