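import Mathlib
import Fermat.Agent.S34.ValWire

/-!
# TRACK 7 (S34 + S35), package VAL, input (I1) (helper24), prefix `S34VW_`

The two degeneracy maps `α` (inclusion) and `β` (`f ↦ f(t^q)`) `F_M → F_{Mq}` and the Gauss rings.
NO hypothesis (`hgen`, characteristic) is needed for the first part:

* `S34VW_alpha_mem`, `S34VW_red_alpha`: `f ∈ O_M ⇒ α f ∈ O_{Mq}`, `red (α f) = red_M f` in `k((t))`;
* `S34VW_beta_mem`, `S34VW_red_beta`: `f ∈ O_M ⇒ β f ∈ O_{Mq}`, `red (β f) = (red_M f)(t^q)`;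
* on the two-valuation lattice `S34DF_lat` (`red = (red₁, red₁ ∘ w_q)`):
  `red (α f) = (f̄, Fr f̄)`, `red (β g) = (Fr ḡ, ḡ)`, `Fr := qExpand k q` (`S34VW_lat_red_alpha`,
  `S34VW_lat_red_beta`).
-/

set_option autoImplicit false
set_option synthInstance.maxHeartbeats 400000
set_option maxHeartbeats 1000000
set_option linter.unusedSectionVars false
set_option linter.style.haveILetI false

open HahnSeries IntermediateField AlgebraicCurve ModularCurve Polynomial

noncomputable section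

namespace Fermat.Agent.S34

open Fermat.Agent.S18 Fermat.Agent.S24 Fermat.Agent.Lib

section AB

variable (M q : ℕ) [NeZero M] [NeZero q] (A : ValuationSubring (AlgebraicClosure ℚ))

/-- `B_M ⊂ B_{Mq}`. -/
theorem S34VW_B_alpha {s : LaurentSeries A} (hs : s ∈ S18_B A M) : s ∈ S18_B A (M * q) :=
  ⟨(heckeAlphaBar (AlgebraicClosure ℚ) M q ⟨_, hs.1⟩).2,
    full_degeneracyC_le (IsLocalRing.ResidueField A) (dvd_mul_right M q) hs.2⟩

/-- `s ∈ B_M ⇒ s(t^q) ∈ B_{Mq}`. -/
theorem S34VW_B_beta {s : LaurentSeries A} (hs : s ∈ S18_B A M) :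
    qExpand A q s ∈ S18_B A (M * q) := by
  refine ⟨?_, ?_⟩
  · show coeffMap A.subtype (qExpand A q s) ∈
      laurentBaseChange (AlgebraicClosure ℚ) (modularFunctionFieldFull (M * q))
    rw [ModularCurve.coeffMap_qExpand]
    exact (heckeBetaBar (AlgebraicClosure ℚ) M q ⟨_, hs.1⟩).2
  · show coeffMap (IsLocalRing.residue A) (qExpand A q s) ∈
      modularFunctionFieldFullC (IsLocalRing.ResidueField A) (M * q)
    rw [ModularCurve.coeffMap_qExpand]
    exact full_degeneracyC_map_le (IsLocalRing.ResidueField A) M q ⟨_, hs.2, rfl⟩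

variable {M}

/-- `f ∈ O_M ⇒ α f ∈ O_{Mq}`. -/
theorem S34VW_alpha_mem {f : ↥(modularFunctionFieldBar M)} (hf : f ∈ S18_O A M) :
    heckeAlphaBar (AlgebraicClosure ℚ) M q f ∈ S18_O A (M * q) := by
  obtain ⟨s₁, h1, s₂, h2, hne, hfs⟩ := hf
  exact ⟨s₁, S34VW_B_alpha M q A h1, s₂, S34VW_B_alpha M q A h2, hne, hfs⟩

/-- `red (α f) = red_M f` in `k((t))`. -/
theorem S34VW_red_alpha {f : ↥(modularFunctionFieldBar M)} (hf : f ∈ S18_O A M) :
    ((S18_red A (M * q) ⟨heckeAlphaBar (AlgebraicClosure ℚ) M q f, S34VW_alpha_mem q A hf⟩ :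
      ↥(modularFunctionFieldFullC (IsLocalRing.ResidueField A) (M * q))) :
        LaurentSeries (IsLocalRing.ResidueField A)) =
      ((S18_red A M ⟨f, hf⟩ : ↥(modularFunctionFieldFullC (IsLocalRing.ResidueField A) M)) :
        LaurentSeries (IsLocalRing.ResidueField A)) := by
  have hf' := hf
  obtain ⟨s₁, h1, s₂, h2, hne, hfs⟩ := hf'
  have e1 : ((S18_red A (M * q) ⟨heckeAlphaBar (AlgebraicClosure ℚ) M q f,
      S34VW_alpha_mem q A hf⟩ :
      ↥(modularFunctionFieldFullC (IsLocalRing.ResidueField A) (M * q))) :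
        LaurentSeries (IsLocalRing.ResidueField A)) = S18_ρ A s₁ / S18_ρ A s₂ :=
    S18_redFun_eq A (M * q) (S34VW_B_alpha M q A h1) (S34VW_B_alpha M q A h2) hne hfs
  have e2 : ((S18_red A M ⟨f, hf⟩ :
      ↥(modularFunctionFieldFullC (IsLocalRing.ResidueField A) M)) :
        LaurentSeries (IsLocalRing.ResidueField A)) = S18_ρ A s₁ / S18_ρ A s₂ :=
    S18_redFun_eq A M h1 h2 hne hfs
  rw [e1, e2]

/-- `f ∈ O_M ⇒ β f ∈ O_{Mq}`. -/
theorem S34VW_beta_mem {f : ↥(modularFunctionFieldBar M)} (hf : f ∈ S18_O A M) :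
    heckeBetaBar (AlgebraicClosure ℚ) M q f ∈ S18_O A (M * q) := by
  obtain ⟨s₁, h1, s₂, h2, hne, hfs⟩ := hf
  refine ⟨qExpand A q s₁, S34VW_B_beta M q A h1, qExpand A q s₂, S34VW_B_beta M q A h2, ?_, ?_⟩
  · rw [ModularCurve.coeffMap_qExpand]
    intro h
    apply hne
    apply qExpand_injective (R := IsLocalRing.ResidueField A) q
    rw [h, map_zero]
  · show qExpand (AlgebraicClosure ℚ) q (f : LaurentSeries (AlgebraicClosure ℚ)) *
        coeffMap A.subtype (qExpand A q s₂) = coeffMap A.subtype (qExpand A q s₁)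
    rw [ModularCurve.coeffMap_qExpand, ModularCurve.coeffMap_qExpand, ← map_mul]
    exact congrArg _ hfs

/-- `red (β f) = (red_M f)(t^q)` in `k((t))`. -/
theorem S34VW_red_beta {f : ↥(modularFunctionFieldBar M)} (hf : f ∈ S18_O A M) :
    ((S18_red A (M * q) ⟨heckeBetaBar (AlgebraicClosure ℚ) M q f, S34VW_beta_mem q A hf⟩ :
      ↥(modularFunctionFieldFullC (IsLocalRing.ResidueField A) (M * q))) :
        LaurentSeries (IsLocalRing.ResidueField A)) =
      qExpand (IsLocalRing.ResidueField A) q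
        ((S18_red A M ⟨f, hf⟩ : ↥(modularFunctionFieldFullC (IsLocalRing.ResidueField A) M)) :
          LaurentSeries (IsLocalRing.ResidueField A)) := by
  have hf' := hf
  obtain ⟨s₁, h1, s₂, h2, hne, hfs⟩ := hf'
  have hne' : S18_ρ A (qExpand A q s₂) ≠ 0 := by
    rw [ModularCurve.coeffMap_qExpand]
    intro h
    apply hne
    apply qExpand_injective (R := IsLocalRing.ResidueField A) q
    rw [h, map_zero]
  have hfs' : ((heckeBetaBar (AlgebraicClosure ℚ) M q f : ↥(modularFunctionFieldBar (M * q))) :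
      LaurentSeries (AlgebraicClosure ℚ)) * S18_ι A (qExpand A q s₂) =
        S18_ι A (qExpand A q s₁) := by
    show qExpand (AlgebraicClosure ℚ) q (f : LaurentSeries (AlgebraicClosure ℚ)) *
        coeffMap A.subtype (qExpand A q s₂) = coeffMap A.subtype (qExpand A q s₁)
    rw [ModularCurve.coeffMap_qExpand, ModularCurve.coeffMap_qExpand, ← map_mul]
    exact congrArg _ hfs
  have e1 : ((S18_red A (M * q) ⟨heckeBetaBar (AlgebraicClosure ℚ) M q f,
      S34VW_beta_mem q A hf⟩ :
      ↥(modularFunctionFieldFullC (IsLocalRing.ResidueField A) (M * q))) :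
        LaurentSeries (IsLocalRing.ResidueField A)) =
      S18_ρ A (qExpand A q s₁) / S18_ρ A (qExpand A q s₂) :=
    S18_redFun_eq A (M * q) (S34VW_B_beta M q A h1) (S34VW_B_beta M q A h2) hne' hfs'
  have e2 : ((S18_red A M ⟨f, hf⟩ :
      ↥(modularFunctionFieldFullC (IsLocalRing.ResidueField A) M)) :
        LaurentSeries (IsLocalRing.ResidueField A)) = S18_ρ A s₁ / S18_ρ A s₂ :=
    S18_redFun_eq A M h1 h2 hne hfs
  rw [e1, e2, ModularCurve.coeffMap_qExpand, ModularCurve.coeffMap_qExpand]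
  have hinj := qExpand_injective (R := IsLocalRing.ResidueField A) q
  have h0 : qExpand (IsLocalRing.ResidueField A) q (S18_ρ A s₂) ≠ 0 := by
    intro h
    exact hne (hinj (by rw [h, map_zero]))
  rw [div_eq_iff h0, ← map_mul, div_mul_cancel₀ _ hne]

end AB

section Lat

variable (M q : ℕ) [NeZero M] [NeZero q] (hq : q.Prime) (hqM : ¬ q ∣ M)
  (A : ValuationSubring (AlgebraicClosure ℚ))

theorem S34VW_wq_alpha (f : ↥(modularFunctionFieldBar M)) :
    S34DF_wq M q hq hqM (heckeAlphaBar (AlgebraicClosure ℚ) M q f) =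
      heckeBetaBar (AlgebraicClosure ℚ) M q f :=
  S34WQ_wq_alpha M q hq hqM f

theorem S34VW_wq_beta (f : ↥(modularFunctionFieldBar M)) :
    S34DF_wq M q hq hqM (heckeBetaBar (AlgebraicClosure ℚ) M q f) =
      heckeAlphaBar (AlgebraicClosure ℚ) M q f :=
  S34WQ_wq_beta M q hq hqM f

variable {M}

/-- `α f` lies in the unit ball `O₁ ∩ O₂` of the two-valuation lattice. -/
theorem S34VW_alpha_mem_lat {f : ↥(modularFunctionFieldBar M)} (hf : f ∈ S18_O A M) :
    heckeAlphaBar (AlgebraicClosure ℚ) M q f ∈ (S34DF_lat M q hq hqM A).O := by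
  rw [S34DF_mem_lat_O]
  refine ⟨S34VW_alpha_mem q A hf, ?_⟩
  rw [S34VW_wq_alpha]
  exact S34VW_beta_mem q A hf

/-- `β f` lies in the unit ball `O₁ ∩ O₂` of the two-valuation lattice. -/
theorem S34VW_beta_mem_lat {f : ↥(modularFunctionFieldBar M)} (hf : f ∈ S18_O A M) :
    heckeBetaBar (AlgebraicClosure ℚ) M q f ∈ (S34DF_lat M q hq hqM A).O := by
  rw [S34DF_mem_lat_O]
  refine ⟨S34VW_beta_mem q A hf, ?_⟩
  rw [S34VW_wq_beta]
  exact S34VW_alpha_mem q A hf

/-- **(A1)**: `red (α f) = (f̄, Fr f̄)`. -/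
theorem S34VW_lat_red_alpha {f : ↥(modularFunctionFieldBar M)} (hf : f ∈ S18_O A M) :
    ((((S34DF_lat M q hq hqM A).red ⟨_, S34VW_alpha_mem_lat q hq hqM A hf⟩).1 :
        ↥(modularFunctionFieldFullC (IsLocalRing.ResidueField A) (M * q))) :
          LaurentSeries (IsLocalRing.ResidueField A)) =
        ((S18_red A M ⟨f, hf⟩ : ↥(modularFunctionFieldFullC (IsLocalRing.ResidueField A) M)) :
          LaurentSeries (IsLocalRing.ResidueField A)) ∧
      ((((S34DF_lat M q hq hqM A).red ⟨_, S34VW_alpha_mem_lat q hq hqM A hf⟩).2 :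
        ↥(modularFunctionFieldFullC (IsLocalRing.ResidueField A) (M * q))) :
          LaurentSeries (IsLocalRing.ResidueField A)) =
        qExpand (IsLocalRing.ResidueField A) q
          ((S18_red A M ⟨f, hf⟩ : ↥(modularFunctionFieldFullC (IsLocalRing.ResidueField A) M)) :
            LaurentSeries (IsLocalRing.ResidueField A)) := by
  constructor
  · exact S34VW_red_alpha q A hf
  · have h := S34VW_red_beta q A hf
    rw [← h, S34DF_lat_red]
    have e : (⟨S34DF_wq M q hq hqM (heckeAlphaBar (AlgebraicClosure ℚ) M q f),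
        (S34VW_alpha_mem_lat q hq hqM A hf).2⟩ : S18_O A (M * q)) =
        ⟨heckeBetaBar (AlgebraicClosure ℚ) M q f, S34VW_beta_mem q A hf⟩ :=
      Subtype.ext (S34VW_wq_alpha M q hq hqM f)
    exact congrArg (fun x : S18_O A (M * q) =>
      ((S18_red A (M * q) x : ↥(modularFunctionFieldFullC (IsLocalRing.ResidueField A) (M * q))) :
        LaurentSeries (IsLocalRing.ResidueField A))) e

/-- **(A1)**: `red (β g) = (Fr ḡ, ḡ)`. -/
theorem S34VW_lat_red_beta {f : ↥(modularFunctionFieldBar M)} (hf : f ∈ S18_O A M) :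
    ((((S34DF_lat M q hq hqM A).red ⟨_, S34VW_beta_mem_lat q hq hqM A hf⟩).1 :
        ↥(modularFunctionFieldFullC (IsLocalRing.ResidueField A) (M * q))) :
          LaurentSeries (IsLocalRing.ResidueField A)) =
        qExpand (IsLocalRing.ResidueField A) q
          ((S18_red A M ⟨f, hf⟩ : ↥(modularFunctionFieldFullC (IsLocalRing.ResidueField A) M)) :
            LaurentSeries (IsLocalRing.ResidueField A)) ∧
      ((((S34DF_lat M q hq hqM A).red ⟨_, S34VW_beta_mem_lat q hq hqM A hf⟩).2 :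
        ↥(modularFunctionFieldFullC (IsLocalRing.ResidueField A) (M * q))) :
          LaurentSeries (IsLocalRing.ResidueField A)) =
        ((S18_red A M ⟨f, hf⟩ : ↥(modularFunctionFieldFullC (IsLocalRing.ResidueField A) M)) :
          LaurentSeries (IsLocalRing.ResidueField A)) := by
  constructor
  · exact S34VW_red_beta q A hf
  · have h := S34VW_red_alpha q A hf
    rw [← h, S34DF_lat_red]
    have e : (⟨S34DF_wq M q hq hqM (heckeBetaBar (AlgebraicClosure ℚ) M q f),
        (S34VW_beta_mem_lat q hq hqM A hf).2⟩ : S18_O A (M * q)) =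
        ⟨heckeAlphaBar (AlgebraicClosure ℚ) M q f, S34VW_alpha_mem q A hf⟩ :=
      Subtype.ext (S34VW_wq_beta M q hq hqM f)
    exact congrArg (fun x : S18_O A (M * q) =>
      ((S18_red A (M * q) x : ↥(modularFunctionFieldFullC (IsLocalRing.ResidueField A) (M * q))) :
        LaurentSeries (IsLocalRing.ResidueField A))) e

end Lat

end Fermat.Agent.S34
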