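import Mathlib
import Fermat.Agent.S34.Nodal
import Fermat.Agent.S34.ValAB
import Fermat.Agent.S34.FibreIso
import Fermat.Agent.S34.NodalChart
import Fermat.Agent.S34.Asm3

/-!
# TRACK 7 (S34 + S35), sub-target G1 (NODES), inputs `hα`, `hβ` (helper12), prefix `S34NI_`

The two hypotheses `hα`, `hβ` of `S34N_nodal` / `S34N_nodal_inputs` (S34/Nodal.lean) on the
canonical objects of ruling #6:

* pair `T₁ = S34M_T1 M q A hgen`, `T₂ = S34M_T2 M q hq hqM A hgen`, chart `S34M_chart M q A n hn`;
* level-`M` datum `S₀ = (S18_gaussModL M A hgenM).toVal` (`= (AX_G M A hgenM).toVal`);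
* `α = heckeAlphaBar ℚ̄ M q`, `β = heckeBetaBar ℚ̄ M q`, `B₀ = S34SB_reg ℚ̄ (jB M)`;
* `ι₁ = ι₂ = S34FI_cast hE` for ANY proof `hE : F̄_M = F̄_{Mq}`;
* `Fr` ANY map of `F̄_M` with `(Fr y : k((t))) = qExpand k q y` (e.g. `S34NF_Fr`).

All conversions between the concrete Gauss data are proved generically first (kernel-cheap).
-/

set_option autoImplicit false
set_option synthInstance.maxHeartbeats 400000
set_option maxHeartbeats 1000000
set_option linter.unusedSectionVars false
set_option linter.unusedVariables false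
set_option linter.style.haveILetI false

open HahnSeries IntermediateField AlgebraicCurve ModularCurve

noncomputable section

namespace Fermat.Agent.S34

open Fermat.Agent.S18 Fermat.Agent.S24 Fermat.Agent.Lib

/-! ### generic conversions -/

section General

variable {L : Type*} [Field L] [Algebra ℚ L] (A : ValuationSubring L) (N : ℕ) [NeZero N]
  (hPD : HasPrincipalDivisors L ↥(laurentBaseChange L (modularFunctionFieldFull N)))
  (hconst : ∀ f : ↥(laurentBaseChange L (modularFunctionFieldFull N)), f ≠ 0 →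
    (∀ P : Place L ↥(laurentBaseChange L (modularFunctionFieldFull N)), P.ord f = 0) →
    ∃ c : L, f = algebraMap L ↥(laurentBaseChange L (modularFunctionFieldFull N)) c)
  (hgen : PrincipalGeneratedByIntegral A (IsLocalRing.residue A) N)
  (w : ↥(laurentBaseChange L (modularFunctionFieldFull N)) ≃ₐ[L]
    ↥(laurentBaseChange L (modularFunctionFieldFull N)))

theorem S34NI_gauss_mem {f : ↥(laurentBaseChange L (modularFunctionFieldFull N))} :
    f ∈ (S18_gauss A N hPD hconst hgen).toVal.O ↔ f ∈ S18_O A N := Iff.rfl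

theorem S34NI_gauss_red (x : (S18_gauss A N hPD hconst hgen).toVal.O) :
    (S18_gauss A N hPD hconst hgen).toVal.red x = S18_red A N ⟨x.1, x.2⟩ := rfl

theorem S34NI_comap_mem {f : ↥(laurentBaseChange L (modularFunctionFieldFull N))} :
    f ∈ (S34V_comap (S18_gauss A N hPD hconst hgen) w).toVal.O ↔ w f ∈ S18_O A N := Iff.rfl

theorem S34NI_comap_red (x : (S34V_comap (S18_gauss A N hPD hconst hgen) w).toVal.O) :
    (S34V_comap (S18_gauss A N hPD hconst hgen) w).toVal.red x = S18_red A N ⟨w x.1, x.2⟩ :=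
  rfl

/-- membership in the intersection of the pair. -/
theorem S34NI_pair_mem {f : ↥(laurentBaseChange L (modularFunctionFieldFull N))}
    (h₁ : f ∈ S18_O A N) (h₂ : w f ∈ S18_O A N) :
    f ∈ S34P_O2 (S18_gauss A N hPD hconst hgen).toVal
      (S34V_comap (S18_gauss A N hPD hconst hgen) w).toVal :=
  ⟨h₁, h₂⟩

/-- the reduction of the pair, generic form. -/
theorem S34NI_pair_red {f : ↥(laurentBaseChange L (modularFunctionFieldFull N))}
    (h₁ : f ∈ S18_O A N) (h₂ : w f ∈ S18_O A N) :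
    S34P_red (S18_gauss A N hPD hconst hgen).toVal
        (S34V_comap (S18_gauss A N hPD hconst hgen) w).toVal
        ⟨f, S34NI_pair_mem A N hPD hconst hgen w h₁ h₂⟩ =
      (S18_red A N ⟨f, h₁⟩, S18_red A N ⟨w f, h₂⟩) := rfl

end General

/-! ### the canonical objects -/

section Canon

variable (M q : ℕ) [NeZero M] [NeZero q] [NeZero (M * q)] (hq : q.Prime) (hqM : ¬ q ∣ M)
  (A : ValuationSubring (AlgebraicClosure ℚ))
  (hgen : PrincipalGeneratedByIntegral A (IsLocalRing.residue A) (M * q))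
  (hgenM : PrincipalGeneratedByIntegral A (IsLocalRing.residue A) M)

/-- the unit ball of the level-`M` datum is the Gauss ring `S18_O A M`. -/
theorem S34NI_T0_mem {f : ↥(modularFunctionFieldBar M)} :
    f ∈ (S18_gaussModL M A hgenM).toVal.O ↔ f ∈ S18_O A M :=
  S34NI_gauss_mem A M (S18_hPD M) (S18_hconst M) hgenM

/-- the reduction of the level-`M` datum is `S18_red A M`. -/
theorem S34NI_T0_red (x : (S18_gaussModL M A hgenM).toVal.O) :
    (S18_gaussModL M A hgenM).toVal.red x =
      S18_red A M ⟨x.1, (S34NI_T0_mem M A hgenM).1 x.2⟩ :=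
  S34NI_gauss_red A M (S18_hPD M) (S18_hconst M) hgenM x

/-- membership in `O₁ ∩ O₂` of the canonical pair. -/
theorem S34NI_pair_mem_X0 {f : ↥(modularFunctionFieldBar (M * q))}
    (h₁ : f ∈ S18_O A (M * q)) (h₂ : S34DF_wq M q hq hqM f ∈ S18_O A (M * q)) :
    f ∈ S34P_O2 (S34M_T1 M q A hgen) (S34M_T2 M q hq hqM A hgen) :=
  S34NI_pair_mem A (M * q) (S18_hPD (M * q)) (S18_hconst (M * q)) hgen (S34DF_wq M q hq hqM)
    h₁ h₂

/-- the reduction of the canonical pair is `(red₁ f, red₁ (w_q f))`. -/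
theorem S34NI_pair_red_X0 {f : ↥(modularFunctionFieldBar (M * q))}
    (h₁ : f ∈ S18_O A (M * q)) (h₂ : S34DF_wq M q hq hqM f ∈ S18_O A (M * q)) :
    S34P_red (S34M_T1 M q A hgen) (S34M_T2 M q hq hqM A hgen)
        ⟨f, S34NI_pair_mem_X0 M q hq hqM A hgen h₁ h₂⟩ =
      (S18_red A (M * q) ⟨f, h₁⟩, S18_red A (M * q) ⟨S34DF_wq M q hq hqM f, h₂⟩) :=
  S34NI_pair_red A (M * q) (S18_hPD (M * q)) (S18_hconst (M * q)) hgen (S34DF_wq M q hq hqM)
    h₁ h₂

/-- the chart ring `B` of the canonical chart is `S34SB_reg ℚ̄ (jB (M q))`. -/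
theorem S34NI_chart_B (n : ℕ) (hn : 0 < n) :
    (S34M_chart M q A n hn).B = S34SB_reg (AlgebraicClosure ℚ) (jB (M * q)) :=
  S34SB_chart_B (jB (M * q)) (S34M_xb M q A) (S34M_xb M q A ^ q) n hn

/-- **`hα` of `S34N_nodal` on the canonical objects**: for `f` in the Gauss ring of level `M`,
regular off the cusps, `α f ∈ O₁ ∩ O₂`, `α f` is regular off the cusps and
`red (α f) = (ι f̄, ι (Fr f̄))`. -/
theorem S34NI_halpha
    (hE : modularFunctionFieldFullC (IsLocalRing.ResidueField A) M =
      modularFunctionFieldFullC (IsLocalRing.ResidueField A) (M * q))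
    (Fr : ↥(modularFunctionFieldFullC (IsLocalRing.ResidueField A) M) →
      ↥(modularFunctionFieldFullC (IsLocalRing.ResidueField A) M))
    (hFr : ∀ y : ↥(modularFunctionFieldFullC (IsLocalRing.ResidueField A) M),
      ((Fr y : ↥(modularFunctionFieldFullC (IsLocalRing.ResidueField A) M)) :
        LaurentSeries (IsLocalRing.ResidueField A)) =
        qExpand (IsLocalRing.ResidueField A) q (y : LaurentSeries (IsLocalRing.ResidueField A)))
    (n : ℕ) (hn : 0 < n)
    (f : (S18_gaussModL M A hgenM).toVal.O)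
    (hfB : (f : ↥(modularFunctionFieldBar M)) ∈ S34SB_reg (AlgebraicClosure ℚ) (jB M)) :
    ∃ h : heckeAlphaBar (AlgebraicClosure ℚ) M q (f : ↥(modularFunctionFieldBar M)) ∈
        S34P_O2 (S34M_T1 M q A hgen) (S34M_T2 M q hq hqM A hgen),
      heckeAlphaBar (AlgebraicClosure ℚ) M q (f : ↥(modularFunctionFieldBar M)) ∈
        (S34M_chart M q A n hn).B ∧
      S34P_red (S34M_T1 M q A hgen) (S34M_T2 M q hq hqM A hgen)
          ⟨heckeAlphaBar (AlgebraicClosure ℚ) M q (f : ↥(modularFunctionFieldBar M)), h⟩ =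
        (S34FI_cast hE ((S18_gaussModL M A hgenM).toVal.red f),
          S34FI_cast hE (Fr ((S18_gaussModL M A hgenM).toVal.red f))) := by
  have hf : (f : ↥(modularFunctionFieldBar M)) ∈ S18_O A M := (S34NI_T0_mem M A hgenM).1 f.2
  have h₁ := S34VW_alpha_mem q A hf
  have h₂ : S34DF_wq M q hq hqM
      (heckeAlphaBar (AlgebraicClosure ℚ) M q (f : ↥(modularFunctionFieldBar M))) ∈
        S18_O A (M * q) := by
    rw [S34VW_wq_alpha]
    exact S34VW_beta_mem q A hf
  refine ⟨S34NI_pair_mem_X0 M q hq hqM A hgen h₁ h₂, ?_, ?_⟩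
  · rw [S34NI_chart_B]
    exact S34NC_alpha_reg M q hfB
  · rw [S34NI_pair_red_X0 M q hq hqM A hgen h₁ h₂, S34NI_T0_red]
    apply Prod.ext
    · apply Subtype.ext
      rw [S34FI_cast_coe]
      exact S34VW_red_alpha q A hf
    · apply Subtype.ext
      rw [S34FI_cast_coe, hFr]
      have e : (⟨S34DF_wq M q hq hqM
          (heckeAlphaBar (AlgebraicClosure ℚ) M q (f : ↥(modularFunctionFieldBar M))), h₂⟩ :
            S18_O A (M * q)) =
          ⟨heckeBetaBar (AlgebraicClosure ℚ) M q (f : ↥(modularFunctionFieldBar M)),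
            S34VW_beta_mem q A hf⟩ :=
        Subtype.ext (S34VW_wq_alpha M q hq hqM _)
      rw [e]
      exact S34VW_red_beta q A hf

/-- **`hβ` of `S34N_nodal` on the canonical objects**: `red (β f) = (ι (Fr f̄), ι f̄)`. -/
theorem S34NI_hbeta
    (hE : modularFunctionFieldFullC (IsLocalRing.ResidueField A) M =
      modularFunctionFieldFullC (IsLocalRing.ResidueField A) (M * q))
    (Fr : ↥(modularFunctionFieldFullC (IsLocalRing.ResidueField A) M) →
      ↥(modularFunctionFieldFullC (IsLocalRing.ResidueField A) M))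
    (hFr : ∀ y : ↥(modularFunctionFieldFullC (IsLocalRing.ResidueField A) M),
      ((Fr y : ↥(modularFunctionFieldFullC (IsLocalRing.ResidueField A) M)) :
        LaurentSeries (IsLocalRing.ResidueField A)) =
        qExpand (IsLocalRing.ResidueField A) q (y : LaurentSeries (IsLocalRing.ResidueField A)))
    (n : ℕ) (hn : 0 < n)
    (f : (S18_gaussModL M A hgenM).toVal.O)
    (hfB : (f : ↥(modularFunctionFieldBar M)) ∈ S34SB_reg (AlgebraicClosure ℚ) (jB M)) :
    ∃ h : heckeBetaBar (AlgebraicClosure ℚ) M q (f : ↥(modularFunctionFieldBar M)) ∈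
        S34P_O2 (S34M_T1 M q A hgen) (S34M_T2 M q hq hqM A hgen),
      heckeBetaBar (AlgebraicClosure ℚ) M q (f : ↥(modularFunctionFieldBar M)) ∈
        (S34M_chart M q A n hn).B ∧
      S34P_red (S34M_T1 M q A hgen) (S34M_T2 M q hq hqM A hgen)
          ⟨heckeBetaBar (AlgebraicClosure ℚ) M q (f : ↥(modularFunctionFieldBar M)), h⟩ =
        (S34FI_cast hE (Fr ((S18_gaussModL M A hgenM).toVal.red f)),
          S34FI_cast hE ((S18_gaussModL M A hgenM).toVal.red f)) := by
  have hf : (f : ↥(modularFunctionFieldBar M)) ∈ S18_O A M := (S34NI_T0_mem M A hgenM).1 f.2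
  have h₁ := S34VW_beta_mem q A hf
  have h₂ : S34DF_wq M q hq hqM
      (heckeBetaBar (AlgebraicClosure ℚ) M q (f : ↥(modularFunctionFieldBar M))) ∈
        S18_O A (M * q) := by
    rw [S34VW_wq_beta]
    exact S34VW_alpha_mem q A hf
  refine ⟨S34NI_pair_mem_X0 M q hq hqM A hgen h₁ h₂, ?_, ?_⟩
  · rw [S34NI_chart_B]
    exact S34NC_beta_reg M q hfB
  · rw [S34NI_pair_red_X0 M q hq hqM A hgen h₁ h₂, S34NI_T0_red]
    apply Prod.ext
    · apply Subtype.ext
      rw [S34FI_cast_coe, hFr]
      exact S34VW_red_beta q A hf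
    · apply Subtype.ext
      rw [S34FI_cast_coe]
      have e : (⟨S34DF_wq M q hq hqM
          (heckeBetaBar (AlgebraicClosure ℚ) M q (f : ↥(modularFunctionFieldBar M))), h₂⟩ :
            S18_O A (M * q)) =
          ⟨heckeAlphaBar (AlgebraicClosure ℚ) M q (f : ↥(modularFunctionFieldBar M)),
            S34VW_alpha_mem q A hf⟩ :=
        Subtype.ext (S34VW_wq_beta M q hq hqM _)
      rw [e]
      exact S34VW_red_alpha q A hf

end Canon

end Fermat.Agent.S34
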