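import Mathlib
import Fermat.Agent.Lib.LaurentTheta
import Fermat.Agent.GalRep.ESRed
import Fermat.Agent.S34.FibreIso
import Fermat.Agent.S34.SatBridge
import Fermat.Agent.S18.Sep
import Fermat.Agent.S18.SemiReg
import Fermat.Agent.S18.Norm

/-!
# TRACK 7 (S34 + S35), package NODAL concrete, piece (P4) (helper21), prefix `S34NF_`

`k` a perfect field of characteristic `q`, `F̄_M = modularFunctionFieldFullC k M ⊂ k((t))`.

* `S34NF_tau k q M : F̄_M →+* F̄_M` — the coefficientwise inverse Frobenius
  (`coeffMap (frobeniusEquiv k q).symm`);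
* `S34NF_Fr k q M : F̄_M →+* F̄_M` — the substitution `t ↦ t^q` (`qExpand k q`);
* `S34NF_Fr_eq` : `Fr y = (τ y)^q`;
* `S34NF_tau_jbar` : `τ j̄ = j̄`;
* `S34NF_tau_reg` : `τ` keeps the ring `S34SB_reg k j̄` of the functions which are regular where
  `j̄` is regular (it is the integral closure of `k[j̄]`, and `τ` maps `k[j̄]` into itself);
* `S34NF_tau_reg_res`, `S34NF_Fr_reg_res` : the same at `k = A / 𝔪`, `A ⊂ ℚ̄` over `q ∤ M`.
-/

set_option autoImplicit false
set_option synthInstance.maxHeartbeats 400000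
set_option linter.unusedSectionVars false
set_option linter.style.haveILetI false

open HahnSeries IntermediateField AlgebraicCurve ModularCurve
open scoped IntermediateField.algebraAdjoinAdjoin

noncomputable section

namespace Fermat.Agent.S34

open Fermat.Agent.S18 Fermat.Agent.S24 Fermat.Agent.Lib Fermat.Agent.GalRep

section Defs

variable (k : Type*) [Field k] (q : ℕ) [Fact q.Prime] [CharP k q] [PerfectRing k q]
  (M : ℕ) [NeZero M]

/-- the inverse Frobenius of `k` as a ring homomorphism. -/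
abbrev S34NF_frobInv : k →+* k := ((frobeniusEquiv k q).symm : k →+* k)

theorem S34NF_frob_comp_frobInv :
    (frobenius k q).comp (S34NF_frobInv k q) = RingHom.id k := by
  ext c
  simp [S34NF_frobInv]

/-- `τ` : the coefficientwise inverse Frobenius on `F̄_M`. -/
def S34NF_tau : ↥(modularFunctionFieldFullC k M) →+* ↥(modularFunctionFieldFullC k M) where
  toFun x := ⟨coeffMap (S34NF_frobInv k q) x.1, ES_coeffMap_mem M (S34NF_frobInv k q) x.2⟩
  map_zero' := Subtype.ext (map_zero _)
  map_one' := Subtype.ext (map_one _)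
  map_add' _ _ := Subtype.ext (map_add _ _ _)
  map_mul' _ _ := Subtype.ext (map_mul _ _ _)

theorem S34NF_tau_coe (y : ↥(modularFunctionFieldFullC k M)) :
    ((S34NF_tau k q M y : ↥(modularFunctionFieldFullC k M)) : LaurentSeries k) =
      coeffMap ((frobeniusEquiv k q).symm : k →+* k) (y : LaurentSeries k) := rfl

/-- `qExpand k q` maps `F̄_M` into itself (characteristic `q`). -/
theorem S34NF_qExpand_mem {y : LaurentSeries k} (hy : y ∈ modularFunctionFieldFullC k M) :
    haveI : NeZero q := ⟨(Fact.out : q.Prime).ne_zero⟩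
    qExpand k q y ∈ modularFunctionFieldFullC k M := by
  haveI : NeZero q := ⟨(Fact.out : q.Prime).ne_zero⟩
  haveI : NeZero (M * q) := ⟨Nat.mul_ne_zero (NeZero.ne M) (NeZero.ne q)⟩
  rw [← S34FI_full_eq k q M]
  exact full_degeneracyC_map_le k M q ⟨y, hy, rfl⟩

/-- `Fr` : the substitution `t ↦ t^q` on `F̄_M`. -/
def S34NF_Fr : ↥(modularFunctionFieldFullC k M) →+* ↥(modularFunctionFieldFullC k M) where
  toFun x :=
    haveI : NeZero q := ⟨(Fact.out : q.Prime).ne_zero⟩
    ⟨qExpand k q x.1, S34NF_qExpand_mem k q M x.2⟩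
  map_zero' := Subtype.ext (map_zero _)
  map_one' := Subtype.ext (map_one _)
  map_add' _ _ := Subtype.ext (map_add _ _ _)
  map_mul' _ _ := Subtype.ext (map_mul _ _ _)

theorem S34NF_Fr_coe (y : ↥(modularFunctionFieldFullC k M)) :
    haveI : NeZero q := ⟨(Fact.out : q.Prime).ne_zero⟩
    ((S34NF_Fr k q M y : ↥(modularFunctionFieldFullC k M)) : LaurentSeries k) =
      qExpand k q (y : LaurentSeries k) := rfl

/-- **`Fr y = (τ y)^q`.** -/
theorem S34NF_Fr_eq (y : ↥(modularFunctionFieldFullC k M)) :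
    S34NF_Fr k q M y = (S34NF_tau k q M y) ^ q := by
  haveI : NeZero q := ⟨(Fact.out : q.Prime).ne_zero⟩
  apply Subtype.ext
  have h1 : (((S34NF_tau k q M y) ^ q : ↥(modularFunctionFieldFullC k M)) : LaurentSeries k) =
      (coeffMap (S34NF_frobInv k q) (y : LaurentSeries k)) ^ q := by
    simp only [SubmonoidClass.coe_pow]
    rfl
  rw [h1]
  show qExpand k q (y : LaurentSeries k) = (coeffMap (S34NF_frobInv k q) (y : LaurentSeries k)) ^ q
  rw [LT_pow_char q, coeffMap_coeffMap, S34NF_frob_comp_frobInv, coeffMap_id]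

/-- `τ` fixes `j̄`. -/
theorem S34NF_tau_jbar : S34NF_tau k q M (S18_jbar M k) = S18_jbar M k := by
  apply Subtype.ext
  show coeffMap (S34NF_frobInv k q) (jqModC k) = jqModC k
  exact coeffMap_jqModC _

/-- `τ` on the constants. -/
theorem S34NF_tau_algebraMap (c : k) :
    S34NF_tau k q M (algebraMap k ↥(modularFunctionFieldFullC k M) c) =
      algebraMap k ↥(modularFunctionFieldFullC k M) ((frobeniusEquiv k q).symm c) := by
  apply Subtype.ext
  show coeffMap (S34NF_frobInv k q) (algebraMap k (LaurentSeries k) c) =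
    algebraMap k (LaurentSeries k) ((frobeniusEquiv k q).symm c)
  exact coeffMap_algebraMap _ c

end Defs

section Reg

variable (k : Type*) [Field k] (q : ℕ) [Fact q.Prime] [CharP k q] [PerfectRing k q]
  (M : ℕ) [NeZero M]

/-- `τ` maps `k[j̄]` into itself. -/
theorem S34NF_tau_mem_adjoin {r : ↥(modularFunctionFieldFullC k M)}
    (hr : r ∈ Algebra.adjoin k ({S18_jbar M k} : Set ↥(modularFunctionFieldFullC k M))) :
    S34NF_tau k q M r ∈
      Algebra.adjoin k ({S18_jbar M k} : Set ↥(modularFunctionFieldFullC k M)) := by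
  induction hr using Algebra.adjoin_induction with
  | mem x hx =>
    rw [Set.mem_singleton_iff] at hx
    rw [hx, S34NF_tau_jbar]
    exact Algebra.subset_adjoin rfl
  | algebraMap c =>
    rw [S34NF_tau_algebraMap]
    exact Subalgebra.algebraMap_mem _ _
  | add x y _ _ hx hy =>
    rw [map_add]
    exact Subalgebra.add_mem _ hx hy
  | mul x y _ _ hx hy =>
    rw [map_mul]
    exact Subalgebra.mul_mem _ hx hy

/-- the restriction of `τ` to `k[j̄]`. -/
def S34NF_tauAdjoin :
    ↥(Algebra.adjoin k ({S18_jbar M k} : Set ↥(modularFunctionFieldFullC k M))) →+*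
      ↥(Algebra.adjoin k ({S18_jbar M k} : Set ↥(modularFunctionFieldFullC k M))) where
  toFun r := ⟨S34NF_tau k q M r.1, S34NF_tau_mem_adjoin k q M r.2⟩
  map_zero' := Subtype.ext (map_zero _)
  map_one' := Subtype.ext (map_one _)
  map_add' _ _ := Subtype.ext (map_add _ _ _)
  map_mul' _ _ := Subtype.ext (map_mul _ _ _)

/-- `τ` keeps integrality over `k[j̄]`. -/
theorem S34NF_tau_isIntegral {y : ↥(modularFunctionFieldFullC k M)}
    (hy : IsIntegral (Algebra.adjoin k ({S18_jbar M k} : Set ↥(modularFunctionFieldFullC k M)))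
      y) :
    IsIntegral (Algebra.adjoin k ({S18_jbar M k} : Set ↥(modularFunctionFieldFullC k M)))
      (S34NF_tau k q M y) := by
  refine IsIntegral.map_of_comp_eq (S34NF_tauAdjoin k q M) (S34NF_tau k q M) ?_ hy
  ext r
  rfl

/-- **`τ` keeps the ring of the functions regular where `j̄` is regular.** -/
theorem S34NF_tau_reg (hx : Transcendental k (S18_jbar M k))
    [FiniteDimensional k⟮S18_jbar M k⟯ ↥(modularFunctionFieldFullC k M)]
    [Algebra.IsSeparable k⟮S18_jbar M k⟯ ↥(modularFunctionFieldFullC k M)]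
    {y : ↥(modularFunctionFieldFullC k M)} (hy : y ∈ S34SB_reg k (S18_jbar M k)) :
    S34NF_tau k q M y ∈ S34SB_reg k (S18_jbar M k) := by
  rw [S34SB_mem_reg] at hy ⊢
  have hint : IsIntegral
      (Algebra.adjoin k ({S18_jbar M k} : Set ↥(modularFunctionFieldFullC k M))) y := by
    refine S18_semi_isIntegral_of_regular hx y fun P hP => ?_
    rcases eq_or_ne y 0 with rfl | h0
    · rw [Place.ord_zero]
    · exact (BG_mem_iff_ord_nonneg P h0).1 (hy P hP)
  have hint' := S34NF_tau_isIntegral k q M hint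
  intro Q hQ
  have h1 := NM_regular_of_isIntegral (S18_jbar M k) _ hint' Q hQ
  rcases eq_or_ne (S34NF_tau k q M y) 0 with h0 | h0
  · rw [h0]
    exact zero_mem _
  · exact (BG_mem_iff_ord_nonneg Q h0).2 h1

/-- `Fr` keeps the ring of the functions regular where `j̄` is regular. -/
theorem S34NF_Fr_reg (hx : Transcendental k (S18_jbar M k))
    [FiniteDimensional k⟮S18_jbar M k⟯ ↥(modularFunctionFieldFullC k M)]
    [Algebra.IsSeparable k⟮S18_jbar M k⟯ ↥(modularFunctionFieldFullC k M)]
    {y : ↥(modularFunctionFieldFullC k M)} (hy : y ∈ S34SB_reg k (S18_jbar M k)) :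
    S34NF_Fr k q M y ∈ S34SB_reg k (S18_jbar M k) := by
  rw [S34NF_Fr_eq]
  exact Subalgebra.pow_mem _ (S34NF_tau_reg k q M hx hy) q

end Reg

section Res

variable (M q : ℕ) [NeZero M] (A : ValuationSubring (AlgebraicClosure ℚ))

/-- the residue field of `A ∣ q` is perfect of characteristic `q`: the instances. -/
theorem S34NF_res_inst (hq : q.Prime) (hA : A.LiesOverPrime q) :
    ∃ (_ : Fact q.Prime) (_ : CharP (IsLocalRing.ResidueField A) q),
      Nonempty (PerfectRing (IsLocalRing.ResidueField A) q) := by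
  haveI : Fact q.Prime := ⟨hq⟩
  haveI : IsAlgClosed (IsLocalRing.ResidueField A) := S18_residue_isAlgClosed A
  haveI : CharP (IsLocalRing.ResidueField A) q := S18_residue_charP A q hq hA
  exact ⟨inferInstance, inferInstance, ⟨inferInstance⟩⟩

/-- **(P4) at `k = A / 𝔪`**, `A` over `q ∤ M`: `τ` keeps `S34SB_reg k j̄`. -/
theorem S34NF_tau_reg_res (hq : q.Prime) (hqM : ¬ q ∣ M) (hA : A.LiesOverPrime q)
    [Fact q.Prime] [CharP (IsLocalRing.ResidueField A) q]
    [PerfectRing (IsLocalRing.ResidueField A) q]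
    {y : ↥(modularFunctionFieldFullC (IsLocalRing.ResidueField A) M)}
    (hy : y ∈ S34SB_reg (IsLocalRing.ResidueField A)
      (S18_jbar M (IsLocalRing.ResidueField A))) :
    S34NF_tau (IsLocalRing.ResidueField A) q M y ∈
      S34SB_reg (IsLocalRing.ResidueField A) (S18_jbar M (IsLocalRing.ResidueField A)) := by
  haveI : IsAlgClosed (IsLocalRing.ResidueField A) := S18_residue_isAlgClosed A
  haveI := S18_finite_jbar M hq hqM (S18_ψ A hq hA)
  haveI := S18_isSeparable_jbar M hqM (S18_ψ A hq hA)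
  exact S34NF_tau_reg (IsLocalRing.ResidueField A) q M
    (S18_transcendental_jbar (k := IsLocalRing.ResidueField A) M) hy

/-- **(P4) at `k = A / 𝔪`**, `A` over `q ∤ M`: `Fr` keeps `S34SB_reg k j̄`. -/
theorem S34NF_Fr_reg_res (hq : q.Prime) (hqM : ¬ q ∣ M) (hA : A.LiesOverPrime q)
    [Fact q.Prime] [CharP (IsLocalRing.ResidueField A) q]
    [PerfectRing (IsLocalRing.ResidueField A) q]
    {y : ↥(modularFunctionFieldFullC (IsLocalRing.ResidueField A) M)}
    (hy : y ∈ S34SB_reg (IsLocalRing.ResidueField A)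
      (S18_jbar M (IsLocalRing.ResidueField A))) :
    S34NF_Fr (IsLocalRing.ResidueField A) q M y ∈
      S34SB_reg (IsLocalRing.ResidueField A) (S18_jbar M (IsLocalRing.ResidueField A)) := by
  rw [S34NF_Fr_eq]
  exact Subalgebra.pow_mem _ (S34NF_tau_reg_res M q A hq hqM hA hy) q

end Res

end Fermat.Agent.S34
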