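import Mathlib
import Fermat.Agent.S34.Asm3
import Fermat.Agent.S34.FibreIso

/-!
# TRACK 7 (NODE), sub-target G1 (backup, helper11 + helper18), shared definitions, prefix `S34NX_`

Level `M * q`, `A ∣ q`, `k` the residue field of `A`.

* `S34NX_iota M q A hq hA : F̄_M →+* F̄_{M q}` : the inclusion of the fibre fields (an isomorphism in
  characteristic `q`, `S34FI_full_eq`); `S34NX_iota_coe`: it is the identity on Laurent series.
* `S34NX_RbSpec M q A hq hA n hn` : **(P3)** the coordinate rings `Rb₁`, `Rb₂` of the canonical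
  chart `S34M_chart M q A n hn` are the image under `ι` of `Rb₀ = S34SB_reg k j̄_M`
  (the inputs `hR₁ hR₁' hR₂ hR₂'` of `S34N_nodal`).

KERNEL RULE (helper18): no `rfl` between the levels `M` and `M * q`; everything is proved for two
equal intermediate fields `E₁ = E₂` and instantiated.
-/

set_option autoImplicit false
set_option linter.unusedSectionVars false
set_option linter.unusedVariables false
set_option linter.style.haveILetI false

open HahnSeries IntermediateField ModularCurve AlgebraicCurve

noncomputable section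

namespace Fermat.Agent.S34

open Fermat.Agent.S24 Fermat.Agent.S18

section generic

variable {k Ω : Type*} [Field k] [Field Ω] [Algebra k Ω]

/-- the identification of two equal intermediate fields, as a ring homomorphism. -/
def S34NX_incl {E₁ E₂ : IntermediateField k Ω} (h : E₁ = E₂) : ↥E₁ →+* ↥E₂ :=
  ((S34FI_cast h : ↥E₁ ≃ₐ[k] ↥E₂) : ↥E₁ →+* ↥E₂)

theorem S34NX_incl_coe {E₁ E₂ : IntermediateField k Ω} (h : E₁ = E₂) (y : ↥E₁) :
    ((S34NX_incl h y : ↥E₂) : Ω) = (y : Ω) := rfl

theorem S34NX_incl_injective {E₁ E₂ : IntermediateField k Ω} (h : E₁ = E₂) :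
    Function.Injective (S34NX_incl h) := by
  subst h
  intro x y hxy
  exact Subtype.ext (congrArg Subtype.val hxy)

theorem S34NX_incl_surjective {E₁ E₂ : IntermediateField k Ω} (h : E₁ = E₂) :
    Function.Surjective (S34NX_incl h) := by
  subst h
  intro z
  exact ⟨z, Subtype.ext rfl⟩

theorem S34NX_incl_algebraMap {E₁ E₂ : IntermediateField k Ω} (h : E₁ = E₂) (c : k) :
    S34NX_incl h (algebraMap k ↥E₁ c) = algebraMap k ↥E₂ c := by
  subst h
  exact Subtype.ext rfl

theorem S34NX_incl_eq_iff {E₁ E₂ : IntermediateField k Ω} (h : E₁ = E₂) (y : ↥E₁) (z : ↥E₂) :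
    S34NX_incl h y = z ↔ (y : Ω) = (z : Ω) := by
  subst h
  exact ⟨fun e => congrArg Subtype.val e, fun e => Subtype.ext e⟩

end generic

variable (M q : ℕ) [NeZero M] [NeZero (M * q)]
  (A : ValuationSubring (AlgebraicClosure ℚ)) (hq : q.Prime) (hA : A.LiesOverPrime q)

include hq hA

/-- `F̄_M = F̄_{M q}` at a place `A ∣ q`. -/
theorem S34NX_full_eq :
    modularFunctionFieldFullC (IsLocalRing.ResidueField A) M =
      modularFunctionFieldFullC (IsLocalRing.ResidueField A) (M * q) := by
  haveI : Fact q.Prime := ⟨hq⟩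
  haveI : CharP (IsLocalRing.ResidueField A) q := S18_residue_charP A q hq hA
  exact (S34FI_full_eq (IsLocalRing.ResidueField A) q M).symm

/-- the inclusion `ι : F̄_M → F̄_{M q}` of the fibre fields at a place `A ∣ q`
(both are subfields of `k((t))`, and they are equal). -/
def S34NX_iota :
    ↥(modularFunctionFieldFullC (IsLocalRing.ResidueField A) M) →+*
      ↥(modularFunctionFieldFullC (IsLocalRing.ResidueField A) (M * q)) :=
  S34NX_incl (S34NX_full_eq M q A hq hA)

theorem S34NX_iota_coe (y : ↥(modularFunctionFieldFullC (IsLocalRing.ResidueField A) M)) :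
    ((S34NX_iota M q A hq hA y :
      ↥(modularFunctionFieldFullC (IsLocalRing.ResidueField A) (M * q))) :
        LaurentSeries (IsLocalRing.ResidueField A)) =
      (y : LaurentSeries (IsLocalRing.ResidueField A)) :=
  S34NX_incl_coe (S34NX_full_eq M q A hq hA) y

theorem S34NX_iota_eq_iff (y : ↥(modularFunctionFieldFullC (IsLocalRing.ResidueField A) M))
    (z : ↥(modularFunctionFieldFullC (IsLocalRing.ResidueField A) (M * q))) :
    S34NX_iota M q A hq hA y = z ↔
      (y : LaurentSeries (IsLocalRing.ResidueField A)) =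
        (z : LaurentSeries (IsLocalRing.ResidueField A)) :=
  S34NX_incl_eq_iff (S34NX_full_eq M q A hq hA) y z

theorem S34NX_iota_injective : Function.Injective (S34NX_iota M q A hq hA) :=
  S34NX_incl_injective (S34NX_full_eq M q A hq hA)

theorem S34NX_iota_surjective : Function.Surjective (S34NX_iota M q A hq hA) :=
  S34NX_incl_surjective (S34NX_full_eq M q A hq hA)

theorem S34NX_iota_algebraMap (c : IsLocalRing.ResidueField A) :
    S34NX_iota M q A hq hA (algebraMap _ _ c) = algebraMap _ _ c :=
  S34NX_incl_algebraMap (S34NX_full_eq M q A hq hA) c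

/-- **(P3)**: `Rb₁ = ι (Rb₀)` and `Rb₂ = ι (Rb₀)` for the canonical chart. -/
def S34NX_RbSpec (n : ℕ) (hn : 0 < n) : Prop :=
  (∀ a ∈ (S34M_chart M q A n hn).Rb₁, ∃ y ∈ S34SB_reg (IsLocalRing.ResidueField A)
      (S18_jbar M (IsLocalRing.ResidueField A)), S34NX_iota M q A hq hA y = a) ∧
  (∀ y ∈ S34SB_reg (IsLocalRing.ResidueField A) (S18_jbar M (IsLocalRing.ResidueField A)),
      S34NX_iota M q A hq hA y ∈ (S34M_chart M q A n hn).Rb₁) ∧
  (∀ b ∈ (S34M_chart M q A n hn).Rb₂, ∃ y ∈ S34SB_reg (IsLocalRing.ResidueField A)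
      (S18_jbar M (IsLocalRing.ResidueField A)), S34NX_iota M q A hq hA y = b) ∧
  (∀ y ∈ S34SB_reg (IsLocalRing.ResidueField A) (S18_jbar M (IsLocalRing.ResidueField A)),
      S34NX_iota M q A hq hA y ∈ (S34M_chart M q A n hn).Rb₂)

end Fermat.Agent.S34
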