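import Mathlib
import Fermat.Agent.S34.NodalX0Defs
import Fermat.Agent.S34.Nodal
import Fermat.Agent.S34.OntoM
import Fermat.Agent.S34.NodalFrob

/-!
# TRACK 7 (NODE), sub-target G1 on the canonical objects (helper11), prefix `S34NX_`

Level `M * q`, `q ∤ M`, `A ∣ q`, `k` the residue field of `A`, canonical pair
`T₁ = S34M_T1`, `T₂ = S34M_T2`, canonical chart `C = S34M_chart M q A n hn`.

* `S34NX_Fr`, `S34NX_tau` : `Fr`, `τ` of `S34/NodalFrob.lean` at the place `A` (instances derived);
* `S34NX_S0`     : the level-`M` Gauss datum `(S18_gaussModL M A (RIG_hgen …)).toVal`;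
* `S34NX_honto`  : **ONTO-M** in the form of `S34N_nodal` (from `S34OM_onto`);
* `S34NX_HAlpha`, `S34NX_HBeta` : the inputs `hα`, `hβ` of `S34N_nodal` on the canonical objects
  (named Props; discharged in `S34/NodalAB.lean`, helper12);
* `S34NX_nodes_of` : **G1** — the nodes `e₁ e₂` with `hE` and `W¹ = S34B_W e₁ e₂` — from
  `hα`, `hβ`, (P3) `S34NX_RbSpec` and the finiteness of the quotient (helper18).
-/

set_option autoImplicit false
set_option synthInstance.maxHeartbeats 400000
set_option maxHeartbeats 1000000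
set_option linter.unusedSectionVars false
set_option linter.unusedVariables false
set_option linter.style.haveILetI false

open HahnSeries IntermediateField ModularCurve AlgebraicCurve

noncomputable section

namespace Fermat.Agent.S34

open Fermat.Agent.Lib Fermat.Agent.S24 Fermat.Agent.S18

variable (M q : ℕ) [NeZero M] [NeZero q] [NeZero (M * q)]
  (A : ValuationSubring (AlgebraicClosure ℚ)) (hq : q.Prime) (hqM : ¬ q ∣ M)
  (hA : A.LiesOverPrime q)

/-- the substitution `t ↦ t^q` on `F̄_M` at a place `A ∣ q` (`= S34NF_Fr`, instances derived). -/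
def S34NX_Fr : ↥(modularFunctionFieldFullC (IsLocalRing.ResidueField A) M) →+*
    ↥(modularFunctionFieldFullC (IsLocalRing.ResidueField A) M) :=
  haveI : Fact q.Prime := ⟨hq⟩
  haveI : IsAlgClosed (IsLocalRing.ResidueField A) := S18_residue_isAlgClosed A
  haveI : CharP (IsLocalRing.ResidueField A) q := S18_residue_charP A q hq hA
  S34NF_Fr (IsLocalRing.ResidueField A) q M

/-- the coefficientwise inverse Frobenius on `F̄_M` at a place `A ∣ q` (`= S34NF_tau`). -/
def S34NX_tau : ↥(modularFunctionFieldFullC (IsLocalRing.ResidueField A) M) →+*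
    ↥(modularFunctionFieldFullC (IsLocalRing.ResidueField A) M) :=
  haveI : Fact q.Prime := ⟨hq⟩
  haveI : IsAlgClosed (IsLocalRing.ResidueField A) := S18_residue_isAlgClosed A
  haveI : CharP (IsLocalRing.ResidueField A) q := S18_residue_charP A q hq hA
  S34NF_tau (IsLocalRing.ResidueField A) q M

theorem S34NX_Fr_coe (y : ↥(modularFunctionFieldFullC (IsLocalRing.ResidueField A) M)) :
    ((S34NX_Fr M q A hq hA y : ↥(modularFunctionFieldFullC (IsLocalRing.ResidueField A) M)) :
      LaurentSeries (IsLocalRing.ResidueField A)) =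
      qExpand (IsLocalRing.ResidueField A) q (y : LaurentSeries (IsLocalRing.ResidueField A)) :=
  rfl

theorem S34NX_Fr_eq (y : ↥(modularFunctionFieldFullC (IsLocalRing.ResidueField A) M)) :
    S34NX_Fr M q A hq hA y = (S34NX_tau M q A hq hA y) ^ q := by
  haveI : Fact q.Prime := ⟨hq⟩
  haveI : IsAlgClosed (IsLocalRing.ResidueField A) := S18_residue_isAlgClosed A
  haveI : CharP (IsLocalRing.ResidueField A) q := S18_residue_charP A q hq hA
  exact S34NF_Fr_eq (IsLocalRing.ResidueField A) q M y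

include hqM in
theorem S34NX_tau_reg {y : ↥(modularFunctionFieldFullC (IsLocalRing.ResidueField A) M)}
    (hy : y ∈ S34SB_reg (IsLocalRing.ResidueField A)
      (S18_jbar M (IsLocalRing.ResidueField A))) :
    S34NX_tau M q A hq hA y ∈
      S34SB_reg (IsLocalRing.ResidueField A) (S18_jbar M (IsLocalRing.ResidueField A)) := by
  haveI : Fact q.Prime := ⟨hq⟩
  haveI : IsAlgClosed (IsLocalRing.ResidueField A) := S18_residue_isAlgClosed A
  haveI : CharP (IsLocalRing.ResidueField A) q := S18_residue_charP A q hq hA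
  exact S34NF_tau_reg_res M q A hq hqM hA hy

/-- the level-`M` Gauss datum at `A ∣ q` (`q ∤ M`). -/
def S34NX_S0 : S18_Val (AlgebraicClosure ℚ) ↥(modularFunctionFieldBar M)
    (IsLocalRing.ResidueField A) ↥(modularFunctionFieldFullC (IsLocalRing.ResidueField A) M) :=
  (S18_gaussModL M A (RIG_hgen M A hq hA hqM)).toVal

/-- **ONTO-M** in the form of `S34N_nodal`. -/
theorem S34NX_honto :
    ∀ y ∈ (S34SB_reg (IsLocalRing.ResidueField A) (S18_jbar M (IsLocalRing.ResidueField A)) :
        Set ↥(modularFunctionFieldFullC (IsLocalRing.ResidueField A) M)),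
      ∃ f : (S34NX_S0 M q A hq hqM hA).O,
        (f : ↥(modularFunctionFieldBar M)) ∈
          (S34SB_reg (AlgebraicClosure ℚ) (jB M) : Set ↥(modularFunctionFieldBar M)) ∧
        (S34NX_S0 M q A hq hqM hA).red f = y := by
  intro y hy
  have hy' := (S34SB_mem_reg (K := IsLocalRing.ResidueField A)).1 hy
  obtain ⟨f, hf, hfy⟩ := S34OM_onto M A (RIG_hgen M A hq hA hqM) hq hqM hA y (fun Q hQ => by
    rcases eq_or_ne y 0 with rfl | h0
    · rw [Place.ord_zero]
    · exact (BG_mem_iff_ord_nonneg Q h0).1 (hy' Q hQ))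
  refine ⟨f, ?_, hfy⟩
  show (f : ↥(modularFunctionFieldBar M)) ∈ S34SB_reg (AlgebraicClosure ℚ) (jB M)
  rw [S34SB_mem_reg]
  intro P hP
  rcases eq_or_ne (f : ↥(modularFunctionFieldBar M)) 0 with h0 | h0
  · rw [h0]
    exact zero_mem _
  · exact (BG_mem_iff_ord_nonneg P h0).2 (hf P hP)

variable (hgen : PrincipalGeneratedByIntegral A (IsLocalRing.residue A) (M * q))

/-- the input `hα` of `S34N_nodal` on the canonical objects. -/
def S34NX_HAlpha (n : ℕ) (hn : 0 < n) : Prop :=
  ∀ f : (S34NX_S0 M q A hq hqM hA).O,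
    (f : ↥(modularFunctionFieldBar M)) ∈
      (S34SB_reg (AlgebraicClosure ℚ) (jB M) : Set ↥(modularFunctionFieldBar M)) →
    ∃ h : ((heckeAlphaBar (AlgebraicClosure ℚ) M q : ↥(modularFunctionFieldBar M) →ₐ[_]
          ↥(modularFunctionFieldBar (M * q))) : ↥(modularFunctionFieldBar M) →+*
          ↥(modularFunctionFieldBar (M * q))) f ∈
        S34P_O2 (S34M_T1 M q A hgen) (S34M_T2 M q hq hqM A hgen),
      ((heckeAlphaBar (AlgebraicClosure ℚ) M q : ↥(modularFunctionFieldBar M) →ₐ[_]
          ↥(modularFunctionFieldBar (M * q))) : ↥(modularFunctionFieldBar M) →+*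
          ↥(modularFunctionFieldBar (M * q))) f ∈ (S34M_chart M q A n hn).B ∧
      S34P_red (S34M_T1 M q A hgen) (S34M_T2 M q hq hqM A hgen) ⟨_, h⟩ =
        (S34NX_iota M q A hq hA ((S34NX_S0 M q A hq hqM hA).red f),
          S34NX_iota M q A hq hA
            (S34NX_Fr M q A hq hA ((S34NX_S0 M q A hq hqM hA).red f)))

/-- the input `hβ` of `S34N_nodal` on the canonical objects. -/
def S34NX_HBeta (n : ℕ) (hn : 0 < n) : Prop :=
  ∀ f : (S34NX_S0 M q A hq hqM hA).O,
    (f : ↥(modularFunctionFieldBar M)) ∈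
      (S34SB_reg (AlgebraicClosure ℚ) (jB M) : Set ↥(modularFunctionFieldBar M)) →
    ∃ h : ((heckeBetaBar (AlgebraicClosure ℚ) M q : ↥(modularFunctionFieldBar M) →ₐ[_]
          ↥(modularFunctionFieldBar (M * q))) : ↥(modularFunctionFieldBar M) →+*
          ↥(modularFunctionFieldBar (M * q))) f ∈
        S34P_O2 (S34M_T1 M q A hgen) (S34M_T2 M q hq hqM A hgen),
      ((heckeBetaBar (AlgebraicClosure ℚ) M q : ↥(modularFunctionFieldBar M) →ₐ[_]
          ↥(modularFunctionFieldBar (M * q))) : ↥(modularFunctionFieldBar M) →+*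
          ↥(modularFunctionFieldBar (M * q))) f ∈ (S34M_chart M q A n hn).B ∧
      S34P_red (S34M_T1 M q A hgen) (S34M_T2 M q hq hqM A hgen) ⟨_, h⟩ =
        (S34NX_iota M q A hq hA
            (S34NX_Fr M q A hq hA ((S34NX_S0 M q A hq hqM hA).red f)),
          S34NX_iota M q A hq hA ((S34NX_S0 M q A hq hqM hA).red f))

/-- **G1 on the canonical objects**, from `hα`, `hβ`, (P3) and the finiteness of the quotient. -/
theorem S34NX_nodes_of (n : ℕ) (hn : 0 < n)
    (hα : S34NX_HAlpha M q A hq hqM hA hgen n hn)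
    (hβ : S34NX_HBeta M q A hq hqM hA hgen n hn)
    (hRb : S34NX_RbSpec M q A hq hA n hn)
    (hfin : Module.Finite (IsLocalRing.ResidueField A)
      ((↥(S34M_chart M q A n hn).Rb₁ × ↥(S34M_chart M q A n hn).Rb₂) ⧸
        Subalgebra.toSubmodule (S34N_W (S34M_same M q hq hqM A hgen) (S34M_chart M q A n hn)))) :
    ∃ (s : ℕ) (e₁ : Fin s → ↥(S34M_chart M q A n hn).Rb₁ →ₐ[IsLocalRing.ResidueField A]
        IsLocalRing.ResidueField A)
      (e₂ : Fin s → ↥(S34M_chart M q A n hn).Rb₂ →ₐ[IsLocalRing.ResidueField A]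
        IsLocalRing.ResidueField A),
      s = Module.finrank (IsLocalRing.ResidueField A)
        ((↥(S34M_chart M q A n hn).Rb₁ × ↥(S34M_chart M q A n hn).Rb₂) ⧸
          S34K_W (S34M_same M q hq hqM A hgen) (S34M_chart M q A n hn) 1) ∧
      Function.Surjective (S34B_E e₁ e₂) ∧
      S34K_W (S34M_same M q hq hqM A hgen) (S34M_chart M q A n hn) 1 = S34B_W e₁ e₂ := by
  haveI : Fact q.Prime := ⟨hq⟩
  haveI : IsAlgClosed (IsLocalRing.ResidueField A) := S18_residue_isAlgClosed A
  haveI : CharP (IsLocalRing.ResidueField A) q := S18_residue_charP A q hq hA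
  obtain ⟨hR₁, hR₁', hR₂, hR₂'⟩ := hRb
  have key := S34N_nodal (S34M_same M q hq hqM A hgen) (S34M_chart M q A n hn)
    (S34NX_S0 M q A hq hqM hA)
    ((heckeAlphaBar (AlgebraicClosure ℚ) M q : ↥(modularFunctionFieldBar M) →ₐ[_]
      ↥(modularFunctionFieldBar (M * q))) : ↥(modularFunctionFieldBar M) →+*
      ↥(modularFunctionFieldBar (M * q)))
    ((heckeBetaBar (AlgebraicClosure ℚ) M q : ↥(modularFunctionFieldBar M) →ₐ[_]
      ↥(modularFunctionFieldBar (M * q))) : ↥(modularFunctionFieldBar M) →+*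
      ↥(modularFunctionFieldBar (M * q)))
    (S34SB_reg (AlgebraicClosure ℚ) (jB M) : Set ↥(modularFunctionFieldBar M))
    (S34SB_reg (IsLocalRing.ResidueField A) (S18_jbar M (IsLocalRing.ResidueField A)) :
      Set ↥(modularFunctionFieldFullC (IsLocalRing.ResidueField A) M))
    (S34NX_iota M q A hq hA) (S34NX_iota M q A hq hA)
    (fun y => S34NX_Fr M q A hq hA y)
    (S34NX_tau M q A hq hA) q hq.two_le
    (fun y => S34NX_Fr_eq M q A hq hA y)
    (fun y hy => S34NX_tau_reg M q A hq hqM hA hy)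
    (fun y hy => Subalgebra.pow_mem _ hy q)
    hR₁ hR₁' hR₂ hR₂' hα hβ (S34NX_honto M q A hq hqM hA)
  obtain ⟨s, e₁, e₂, hs, hE, hW⟩ := key
  rw [S34N_W_toSubmodule] at hW
  refine ⟨s, e₁, e₂, ?_, hE, hW⟩
  rw [hs]
  exact (LinearEquiv.finrank_eq (Submodule.quotEquivOfEq _ _
    (S34N_W_toSubmodule (S34M_same M q hq hqM A hgen) (S34M_chart M q A n hn)))).symm ▸ rfl

end Fermat.Agent.S34
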