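import Mathlib

/-!
# TRACK 7 (S34 + S35), package SAT, abstract part (helper14)

Saturation of a filtered family of "reduced lattices" `Wf m ⊂ Rf m` inside the filtered
space `⨆ Rf m`, from

* the count  `finrank (Rf m) = finrank (Wf m) + s`  (`m ≥ m₀`), and
* (LC)  `Rf (m+1) ≤ Wf (m+1) ⊔ Rf m`  (`m ≥ m₀`).

Output: `Wf m' ⊓ Rf m = Wf m` (`m₀ ≤ m ≤ m'`), `(⨆ Wf) ⊓ Rf m = Wf m`,
`⨆ Rf ≤ (⨆ Wf) ⊔ Rf m`, and `finrank ((⨆ Rf) ⧸ (⨆ Wf)) = s`.

Everything is linear algebra over a field; only Mathlib is imported.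
All declarations carry the prefix `S34S_`.
-/

set_option autoImplicit false

namespace Fermat.Agent.S34

open Module Submodule

variable {k V : Type*} [Field k] [AddCommGroup V] [Module k V]

/-- ONE STEP.  `W₀ ≤ R₀`, `W₀ ≤ W₁ ≤ R₁`, `R₀ ≤ R₁`, same codimension, and
`R₁ ≤ W₁ ⊔ R₀` (LC).  Then `W₁ ⊓ R₀ = W₀`. -/
theorem S34S_step {W₀ W₁ R₀ R₁ : Submodule k V} [FiniteDimensional k R₁]
    (hW : W₀ ≤ W₁) (hWR₀ : W₀ ≤ R₀) (hWR₁ : W₁ ≤ R₁) (hR : R₀ ≤ R₁)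
    (hcount : finrank k R₀ + finrank k W₁ = finrank k R₁ + finrank k W₀)
    (hLC : R₁ ≤ W₁ ⊔ R₀) :
    W₁ ⊓ R₀ = W₀ := by
  have hsup : W₁ ⊔ R₀ = R₁ := le_antisymm (sup_le hWR₁ hR) hLC
  have : FiniteDimensional k W₁ := Submodule.finiteDimensional_of_le hWR₁
  have : FiniteDimensional k R₀ := Submodule.finiteDimensional_of_le hR
  have : FiniteDimensional k W₀ := Submodule.finiteDimensional_of_le (hW.trans hWR₁)
  have hdim := Submodule.finrank_sup_add_finrank_inf_eq W₁ R₀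
  rw [hsup] at hdim
  have hle : W₀ ≤ W₁ ⊓ R₀ := le_inf hW hWR₀
  have : FiniteDimensional k ↥(W₁ ⊓ R₀) :=
    Submodule.finiteDimensional_of_le (inf_le_left.trans hWR₁)
  have hfr : finrank k ↥(W₁ ⊓ R₀) = finrank k W₀ := by omega
  exact (Submodule.eq_of_le_of_finrank_eq hle hfr.symm).symm

section chain

variable (Wf Rf : ℕ → Submodule k V) (s m₀ : ℕ)

/-- the hypotheses of the chain version, bundled -/
structure S34S_Chain : Prop where
  monoW : Monotone Wf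
  monoR : Monotone Rf
  le : ∀ m, Wf m ≤ Rf m
  fin : ∀ m, FiniteDimensional k (Rf m)
  count : ∀ m, m₀ ≤ m → finrank k (Rf m) = finrank k (Wf m) + s
  lc : ∀ m, m₀ ≤ m → Rf (m + 1) ≤ Wf (m + 1) ⊔ Rf m

variable {Wf Rf s m₀}

theorem S34S_Chain.step (h : S34S_Chain Wf Rf s m₀) {m : ℕ} (hm : m₀ ≤ m) :
    Wf (m + 1) ⊓ Rf m = Wf m := by
  have := h.fin (m + 1)
  refine S34S_step (h.monoW (Nat.le_succ m)) (h.le m) (h.le (m + 1)) (h.monoR (Nat.le_succ m))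
    ?_ (h.lc m hm)
  have h1 := h.count m hm
  have h2 := h.count (m + 1) (by omega)
  omega

/-- (SAT) for a chain: `Wf m' ⊓ Rf m = Wf m` for `m₀ ≤ m ≤ m'`. -/
theorem S34S_Chain.sat (h : S34S_Chain Wf Rf s m₀) {m m' : ℕ} (hm : m₀ ≤ m) (hmm' : m ≤ m') :
    Wf m' ⊓ Rf m = Wf m := by
  induction m', hmm' using Nat.le_induction with
  | base => exact inf_eq_left.mpr (h.le m)
  | succ n hn ih =>
    apply le_antisymm
    · intro x hx
      have hx1 : x ∈ Wf (n + 1) ⊓ Rf n := ⟨hx.1, h.monoR hn hx.2⟩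
      rw [h.step (hm.trans hn)] at hx1
      have : x ∈ Wf n ⊓ Rf m := ⟨hx1, hx.2⟩
      rwa [ih] at this
    · exact le_inf (h.monoW (hn.trans (Nat.le_succ n))) (h.le m)

/-- iterated (LC): `Rf m' ≤ Wf m' ⊔ Rf m` for `m₀ ≤ m ≤ m'`. -/
theorem S34S_Chain.lc_iter (h : S34S_Chain Wf Rf s m₀) {m m' : ℕ} (hm : m₀ ≤ m)
    (hmm' : m ≤ m') : Rf m' ≤ Wf m' ⊔ Rf m := by
  induction m', hmm' using Nat.le_induction with
  | base => exact le_sup_right
  | succ n hn ih =>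
    refine (h.lc n (hm.trans hn)).trans (sup_le le_sup_left ?_)
    exact ih.trans (sup_le_sup_right (h.monoW (Nat.le_succ n)) _)

/-- (SAT) against the union: `(⨆ Wf) ⊓ Rf m = Wf m` for `m ≥ m₀`. -/
theorem S34S_Chain.iSup_inf (h : S34S_Chain Wf Rf s m₀) {m : ℕ} (hm : m₀ ≤ m) :
    (⨆ i, Wf i) ⊓ Rf m = Wf m := by
  apply le_antisymm
  · rintro x ⟨hx1, hx2⟩
    obtain ⟨i, hi⟩ := (Submodule.mem_iSup_of_directed Wf h.monoW.directed_le).mp hx1
    have hi' : x ∈ Wf (max i m) := h.monoW (le_max_left i m) hi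
    have : x ∈ Wf (max i m) ⊓ Rf m := ⟨hi', hx2⟩
    rwa [h.sat hm (le_max_right i m)] at this
  · exact le_inf (le_iSup Wf m) (h.le m)

/-- the union of the `Rf` is `(⨆ Wf) + Rf m` for `m ≥ m₀`. -/
theorem S34S_Chain.iSup_le_sup (h : S34S_Chain Wf Rf s m₀) {m : ℕ} (hm : m₀ ≤ m) :
    (⨆ i, Rf i) ≤ (⨆ i, Wf i) ⊔ Rf m := by
  refine iSup_le fun i => ?_
  have h1 : Rf i ≤ Rf (max i m) := h.monoR (le_max_left i m)
  have h2 := h.lc_iter hm (le_max_right i m)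
  exact h1.trans (h2.trans (sup_le_sup_right (le_iSup Wf _) _))

theorem S34S_Chain.iSupW_le (h : S34S_Chain Wf Rf s m₀) : (⨆ i, Wf i) ≤ ⨆ i, Rf i :=
  iSup_mono h.le

/-- the codimension of `⨆ Wf` in `⨆ Rf` is `s`:
`finrank (⨆ Rf) ⧸ (⨆ Wf) = s`  (quotient of the submodule `⨆ Rf` by the preimage of `⨆ Wf`). -/
theorem S34S_Chain.finrank_quot (h : S34S_Chain Wf Rf s m₀) :
    finrank k (↥(⨆ i, Rf i) ⧸ (⨆ i, Wf i).comap (⨆ i, Rf i).subtype) = s := by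
  set R := ⨆ i, Rf i with hR
  set W := ⨆ i, Wf i with hW
  have := h.fin m₀
  -- the map `Rf m₀ → R ⧸ W`
  let ι : ↥(Rf m₀) →ₗ[k] ↥R := Submodule.inclusion (le_iSup Rf m₀)
  let φ : ↥(Rf m₀) →ₗ[k] (↥R ⧸ W.comap R.subtype) := (W.comap R.subtype).mkQ.comp ι
  have hsurj : Function.Surjective φ := by
    intro y
    obtain ⟨x, rfl⟩ := Submodule.mkQ_surjective _ y
    have hx : (x : V) ∈ W ⊔ Rf m₀ := h.iSup_le_sup le_rfl x.2
    obtain ⟨w, hw, r, hr, hwr⟩ := Submodule.mem_sup.mp hx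
    refine ⟨⟨r, hr⟩, ?_⟩
    simp only [φ, LinearMap.comp_apply, Submodule.mkQ_apply]
    rw [Submodule.Quotient.eq]
    simp only [Submodule.mem_comap, Submodule.subtype_apply, AddSubgroupClass.coe_sub]
    have : ((ι ⟨r, hr⟩ : ↥R) : V) = r := rfl
    rw [this, ← hwr]
    simpa using W.neg_mem hw
  have hker : LinearMap.ker φ = (Wf m₀).comap (Rf m₀).subtype := by
    ext x
    simp only [φ, LinearMap.mem_ker, LinearMap.comp_apply, Submodule.mkQ_apply,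
      Submodule.Quotient.mk_eq_zero, Submodule.mem_comap, Submodule.subtype_apply]
    have : ((ι x : ↥R) : V) = (x : V) := rfl
    rw [this]
    constructor
    · intro hx
      have : (x : V) ∈ W ⊓ Rf m₀ := ⟨hx, x.2⟩
      rwa [h.iSup_inf le_rfl] at this
    · intro hx
      exact (le_iSup Wf m₀) hx
  have e := (φ.quotKerEquivOfSurjective hsurj)
  rw [← e.finrank_eq, hker]
  have h1 := Submodule.finrank_quotient_add_finrank ((Wf m₀).comap (Rf m₀).subtype)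
  have h2 : finrank k ↥((Wf m₀).comap (Rf m₀).subtype) = finrank k (Wf m₀) := by
    have := (Submodule.comapSubtypeEquivOfLe (h.le m₀)).finrank_eq
    exact this
  have h3 := h.count m₀ le_rfl
  omega

end chain

section grid

variable (Wf Rf : ℕ → ℕ → Submodule k V) (s m₀ : ℕ)

/-- two-parameter version (two pole sets `D_∞`, `D₀`): every row and every column is a chain,
the `Rf` intersect as pole conditions do, and the dimension of `Wf a b` is affine in `(a,b)`. -/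
structure S34S_Grid : Prop where
  row : ∀ b, m₀ ≤ b → S34S_Chain (fun a => Wf a b) (fun a => Rf a b) s m₀
  col : ∀ a, m₀ ≤ a → S34S_Chain (fun b => Wf a b) (fun b => Rf a b) s m₀
  inter : ∀ a b, m₀ ≤ a → m₀ ≤ b → Rf a m₀ ⊓ Rf m₀ b ≤ Rf m₀ m₀
  affine : ∀ a b, m₀ ≤ a → m₀ ≤ b →
    finrank k (Wf a b) + finrank k (Wf m₀ m₀) = finrank k (Wf a m₀) + finrank k (Wf m₀ b)

variable {Wf Rf s m₀}

/-- (SAT) on the grid: `Wf a b ⊓ Rf a' b' = Wf a' b'` for `m₀ ≤ a' ≤ a`, `m₀ ≤ b' ≤ b`. -/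
theorem S34S_Grid.sat (h : S34S_Grid Wf Rf s m₀) {a a' b b' : ℕ} (ha' : m₀ ≤ a') (haa' : a' ≤ a)
    (hb' : m₀ ≤ b') (hbb' : b' ≤ b) : Wf a b ⊓ Rf a' b' = Wf a' b' := by
  have h1 : Wf a b ⊓ Rf a' b = Wf a' b := (h.row b (hb'.trans hbb')).sat ha' haa'
  have h2 : Wf a' b ⊓ Rf a' b' = Wf a' b' := (h.col a' ha').sat hb' hbb'
  apply le_antisymm
  · rintro x ⟨hx1, hx2⟩
    have hx3 : x ∈ Rf a' b := (h.col a' ha').monoR hbb' hx2
    have hx4 : x ∈ Wf a b ⊓ Rf a' b := ⟨hx1, hx3⟩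
    rw [h1] at hx4
    have : x ∈ Wf a' b ⊓ Rf a' b' := ⟨hx4, hx2⟩
    rwa [h2] at this
  · refine le_inf ?_ ((h.col a' ha').le b')
    exact ((h.col a' ha').monoW hbb').trans ((h.row b (hb'.trans hbb')).monoW haa')

/-- the Mayer–Vietoris identity on the grid (input of (C1)):
`Wf a m₀ ⊔ Wf m₀ b = Wf a b` for `a, b ≥ m₀`. -/
theorem S34S_Grid.sup_eq (h : S34S_Grid Wf Rf s m₀) {a b : ℕ} (ha : m₀ ≤ a) (hb : m₀ ≤ b) :
    Wf a m₀ ⊔ Wf m₀ b = Wf a b := by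
  have hfinR : FiniteDimensional k (Rf a b) := (h.row b hb).fin a
  have hWR : Wf a b ≤ Rf a b := (h.row b hb).le a
  have hfin : FiniteDimensional k (Wf a b) := Submodule.finiteDimensional_of_le hWR
  have hle1 : Wf a m₀ ≤ Wf a b := (h.col a ha).monoW hb
  have hle2 : Wf m₀ b ≤ Wf a b := (h.row b hb).monoW ha
  have hle : Wf a m₀ ⊔ Wf m₀ b ≤ Wf a b := sup_le hle1 hle2
  have hf1 : FiniteDimensional k (Wf a m₀) := Submodule.finiteDimensional_of_le hle1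
  have hf2 : FiniteDimensional k (Wf m₀ b) := Submodule.finiteDimensional_of_le hle2
  have hinf : Wf a m₀ ⊓ Wf m₀ b = Wf m₀ m₀ := by
    apply le_antisymm
    · rintro x ⟨hx1, hx2⟩
      have hxR : x ∈ Rf m₀ m₀ :=
        h.inter a b ha hb ⟨(h.row m₀ le_rfl).le a hx1, (h.col m₀ le_rfl).le b hx2⟩
      have : x ∈ Wf a b ⊓ Rf m₀ m₀ := ⟨hle1 hx1, hxR⟩
      rwa [h.sat le_rfl ha le_rfl hb] at this
    · exact le_inf ((h.row m₀ le_rfl).monoW ha) ((h.col m₀ le_rfl).monoW hb)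
  have hdim := Submodule.finrank_sup_add_finrank_inf_eq (Wf a m₀) (Wf m₀ b)
  rw [hinf] at hdim
  have haff := h.affine a b ha hb
  have hfs : FiniteDimensional k ↥(Wf a m₀ ⊔ Wf m₀ b) := Submodule.finiteDimensional_of_le hle
  exact Submodule.eq_of_le_of_finrank_eq hle (by omega)

end grid

end Fermat.Agent.S34
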