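import Fermat.Agent.S34.SatGR
import Fermat.Agent.S34.SatAbs

/-!
# TRACK 7 (S34 + S35), package SAT (helper9): the abstract (LC) in the chart `U`

`Fk / k` a function field with Riemann's theorem, `x ∈ Fk` (`= j̄`) with a pole, `q ≥ 2`,
`ξ = x ^ (q ^ 2) - x`.  The fibre of the filtration is

  `Rf m = L(m • (x)_∞) × L(m • (x ^ q)_∞)  ⊆  Fk × Fk`.

`S34S_lc` : if a family of subspaces `Wf m ≤ Rf m` (the reductions of the integral functions with
poles `≤ m (j)_∞`) contains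

* `(hα)` for every `u ∈ L(m • (x)_∞)` an element `(u, v)` of `Wf m`   (`m ≥ r₀`; from `α^* f`),
* `(hξ)` the elements `(0, ξ ^ a * g)`, `g ∈ L(q (t + 1) • (x)_∞)`, in `Wf (a q + t + 1)` whenever
  `C (t + 1) ≤ a`, `t ≥ t₀`   (from `X̃ ^ a · β^* f`, `X̃ = j ^ q - j_q`),

then `Rf (m + 1) ≤ Wf (m + 1) ⊔ Rf m` for `m ≫ 0`, which is the hypothesis `lc` of `S34S_Chain`.
-/

set_option autoImplicit false

open AlgebraicCurve WithZero

namespace Fermat.Agent.S34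

open Fermat.Agent.Lib Fermat.Agent.S24

variable {k Fk : Type*} [Field k] [Field Fk] [Algebra k Fk]

/-- `(x ^ n)_∞ = n • (x)_∞`. -/
theorem S34S_poleDiv_pow (hP : HasPrincipalDivisors k Fk) (x : Fk) (n : ℕ) :
    RR_poleDiv hP (x ^ n) = n • RR_poleDiv hP x := by
  ext v
  rw [S34S_nsmul_apply, RR_poleDiv_apply, RR_poleDiv_apply]
  by_cases hx : x = 0
  · subst hx
    rcases Nat.eq_zero_or_pos n with h0 | hpos
    · subst h0; simp
    · rw [zero_pow (by omega)]; simp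
  rw [(S24_isVal_ord v).pow hx n]
  rcases le_or_gt 0 (v.ord x) with h | h
  · have h1 : (0 : ℤ) ≤ (n : ℤ) * v.ord x := mul_nonneg (by positivity) h
    rw [max_eq_right (by omega), max_eq_right (by omega), mul_zero]
  · have h1 : (n : ℤ) * v.ord x ≤ 0 :=
      mul_nonpos_of_nonneg_of_nonpos (by positivity) h.le
    rw [max_eq_left (by omega), max_eq_left (by omega)]
    ring

/-- at a pole of `x`, `ξ = x ^ Q - x` (`Q ≥ 2`) has order `Q * ord x`. -/
theorem S34S_xi_ord_of_pole (v : Place k Fk) {x : Fk} {Q : ℕ} (hQ : 2 ≤ Q) (hx : v.ord x < 0) :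
    x ^ Q - x ≠ 0 ∧ v.ord (x ^ Q - x) = (Q : ℤ) * v.ord x := by
  have hx0 : x ≠ 0 := by
    rintro rfl
    simp at hx
  have hw := S24_isVal_ord (K := k) v
  have hpow : v.ord (x ^ Q) = (Q : ℤ) * v.ord x := hw.pow hx0 Q
  have hlt : v.ord (x ^ Q) < v.ord (-x) := by
    rw [hpow, hw.neg hx0]
    have : (2 : ℤ) ≤ (Q : ℤ) := by exact_mod_cast hQ
    nlinarith
  have := hw.add_eq_of_lt (pow_ne_zero Q hx0) (neg_ne_zero.mpr hx0) hlt
  rw [← sub_eq_add_neg] at this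
  exact ⟨this.1, this.2.trans hpow⟩

/-- away from the poles of `x`, `ξ = x ^ Q - x` is regular. -/
theorem S34S_xi_ord_nonneg (v : Place k Fk) {x : Fk} (Q : ℕ) (hx : 0 ≤ v.ord x) :
    0 ≤ v.ord (x ^ Q - x) := by
  by_cases hx0 : x = 0
  · subst hx0
    rcases Nat.eq_zero_or_pos Q with h0 | hpos
    · subst h0; simp
    · rw [zero_pow (by omega)]; simp
  by_cases hξ : x ^ Q - x = 0
  · rw [hξ]; simp
  have hw := S24_isVal_ord (K := k) v
  have h1 := hw.sub (pow_ne_zero Q hx0) hx0 hξ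
  rw [hw.pow hx0 Q] at h1
  have h2 : (0 : ℤ) ≤ (Q : ℤ) * v.ord x := mul_nonneg (by positivity) hx
  have h3 : 0 ≤ min ((Q : ℤ) * v.ord x) (v.ord x) := le_min h2 hx
  omega

/-- the fibre of the filtration in the chart `U`: `L(m (x)_∞) × L(m (x ^ q)_∞)`. -/
noncomputable def S34S_Rf (hP : HasPrincipalDivisors k Fk) (x : Fk) (q : ℕ) (m : ℕ) :
    Submodule k (Fk × Fk) :=
  (riemannRochSpace (m • RR_poleDiv hP x)).prod (riemannRochSpace (m • RR_poleDiv hP (x ^ q)))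

theorem S34S_mem_Rf (hP : HasPrincipalDivisors k Fk) (x : Fk) (q : ℕ) (m : ℕ) (z : Fk × Fk) :
    z ∈ S34S_Rf hP x q m ↔ z.1 ∈ riemannRochSpace (m • RR_poleDiv hP x) ∧
      z.2 ∈ riemannRochSpace ((m * q) • RR_poleDiv hP x) := by
  rw [S34S_Rf, Submodule.mem_prod, S34S_poleDiv_pow, smul_smul]

theorem S34S_Rf_mono (hP : HasPrincipalDivisors k Fk) (x : Fk) (q : ℕ) :
    Monotone (S34S_Rf hP x q) := by
  intro m m' hmm'
  have key : ∀ y : Fk, m • RR_poleDiv hP y ≤ m' • RR_poleDiv hP y := by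
    intro y
    rw [Finsupp.le_def]
    intro v
    rw [S34S_nsmul_apply, S34S_nsmul_apply]
    have h0 : 0 ≤ RR_poleDiv hP y v := by
      rw [RR_poleDiv_apply]; exact le_max_right _ _
    exact mul_le_mul_of_nonneg_right (by exact_mod_cast hmm') h0
  exact Submodule.prod_mono (RR_mono (key x)) (RR_mono (key (x ^ q)))

theorem S34S_Rf_finite (h : RR_Hyp k Fk) (x : Fk) (q : ℕ) (m : ℕ) :
    FiniteDimensional k (S34S_Rf h.principal x q m) := by
  have h1 : Module.Finite k (riemannRochSpace (m • RR_poleDiv h.principal x)) := RR_finite h _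
  have h2 : Module.Finite k (riemannRochSpace (m • RR_poleDiv h.principal (x ^ q))) :=
    RR_finite h _
  rw [S34S_Rf]
  exact Module.Finite.iff_fg.mpr
    (Submodule.FG.prod (Module.Finite.iff_fg.mp h1) (Module.Finite.iff_fg.mp h2))

/-- **(LC) in the chart `U`, abstract form.** -/
theorem S34S_lc (h : RR_Hyp k Fk) (x : Fk) (hx : ∃ v : Place k Fk, v.ord x < 0)
    (q : ℕ) (hq : 2 ≤ q) (Wf : ℕ → Submodule k (Fk × Fk))
    (hle : ∀ m, Wf m ≤ S34S_Rf h.principal x q m)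
    (hα : ∃ r₀ : ℕ, ∀ m, r₀ ≤ m → ∀ u ∈ riemannRochSpace (m • RR_poleDiv h.principal x),
      ∃ v : Fk, (u, v) ∈ Wf m)
    (hξ : ∃ C t₀ : ℕ, ∀ a t : ℕ, t₀ ≤ t → C * (t + 1) ≤ a →
      ∀ g ∈ riemannRochSpace ((q * (t + 1)) • RR_poleDiv h.principal x),
        ((0 : Fk), (x ^ (q ^ 2) - x) ^ a * g) ∈ Wf (a * q + t + 1)) :
    ∃ m₂ : ℕ, ∀ m, m₂ ≤ m →
      S34S_Rf h.principal x q (m + 1) ≤ Wf (m + 1) ⊔ S34S_Rf h.principal x q m := by
  classical
  obtain ⟨c, hGR⟩ := S34S_GR h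
  obtain ⟨r₀, hα⟩ := hα
  obtain ⟨C, t₀, hξ⟩ := hξ
  set hP := h.principal with hhP
  set D := RR_poleDiv hP x with hD
  have hD0 : 0 ≤ D := RR_poleDiv_nonneg hP x
  have hDapp : ∀ v : Place k Fk, D v = max (-v.ord x) 0 := fun v => RR_poleDiv_apply hP x v
  have hdeg : 0 < D.degree := by
    obtain ⟨v, hv⟩ := hx
    exact RR_poleDiv_degree_pos h.deg_one hP v hv
  -- the parameters
  set t₁ : ℕ := max t₀ c.toNat with ht₁
  set m₂ : ℕ := max r₀ (t₁ + q * (C * (t₁ + q))) with hm₂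
  refine ⟨m₂, fun m hm => ?_⟩
  have hm1 : r₀ ≤ m + 1 := (le_max_left _ _).trans (hm.trans (Nat.le_succ m))
  have hm2 : t₁ + q * (C * (t₁ + q)) ≤ m := (le_max_right _ _).trans hm
  have hq0 : 0 < q := by omega
  set a : ℕ := (m - t₁) / q with ha
  set ρ : ℕ := (m - t₁) % q with hρ
  set t : ℕ := t₁ + ρ with ht
  have hdm : q * a + ρ = m - t₁ := Nat.div_add_mod (m - t₁) q
  have hρq : ρ < q := Nat.mod_lt _ hq0
  have hmt : m = a * q + t := by
    have : t₁ ≤ m := le_trans (Nat.le_add_right _ _) hm2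
    rw [ht]
    have := hdm
    rw [mul_comm] at this
    omega
  have ht0 : t₀ ≤ t := (le_max_left _ _).trans (Nat.le_add_right _ _)
  have hCa : C * (t + 1) ≤ a := by
    have h1 : q * (C * (t₁ + q)) ≤ m - t₁ := by omega
    have h2 : C * (t₁ + q) ≤ a := by
      rw [ha, Nat.le_div_iff_mul_le hq0]
      rw [mul_comm]
      exact h1
    have h3 : C * (t + 1) ≤ C * (t₁ + q) := Nat.mul_le_mul_left C (by omega)
    exact h3.trans h2
  -- the multiplier
  set ξ : Fk := x ^ (q ^ 2) - x with hξdef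
  have hq2 : 2 ≤ q ^ 2 := by nlinarith
  have hξ0 : ξ ≠ 0 := by
    obtain ⟨v, hv⟩ := hx
    exact (S34S_xi_ord_of_pole v hq2 hv).1
  set φ : Fk := ξ ^ a with hφ
  have hφ0 : φ ≠ 0 := pow_ne_zero a hξ0
  set p : ℕ := a * q ^ 2 with hp
  have hφ1 : ∀ Q : Place k Fk, 0 < D Q → Q.ord φ = -((p : ℤ) * D Q) := by
    intro Q hQ
    have hQx : Q.ord x < 0 := by
      rw [hDapp] at hQ
      by_contra hcon
      rw [max_eq_right (by omega)] at hQ
      exact lt_irrefl _ hQ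
    rw [hφ, (S24_isVal_ord (K := k) Q).pow hξ0 a, (S34S_xi_ord_of_pole Q hq2 hQx).2, hDapp,
      max_eq_left (by omega), hp]
    push_cast
    ring
  have hφ2 : ∀ Q : Place k Fk, D Q = 0 → 0 ≤ Q.ord φ := by
    intro Q hQ
    have hQx : 0 ≤ Q.ord x := by
      rw [hDapp] at hQ
      by_contra hcon
      rw [max_eq_left (by omega)] at hQ
      omega
    rw [hφ, (S24_isVal_ord (K := k) Q).pow hξ0 a]
    exact mul_nonneg (by positivity) (S34S_xi_ord_nonneg Q (q ^ 2) hQx)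
  have hcr : c ≤ ((q * t : ℕ) : ℤ) * D.degree := by
    have h1 : c ≤ (c.toNat : ℤ) := Int.self_le_toNat c
    have h2 : (c.toNat : ℤ) ≤ (t₁ : ℤ) := by exact_mod_cast le_max_right t₀ c.toNat
    have h3 : (t₁ : ℤ) ≤ ((q * t : ℕ) : ℤ) := by
      have : t₁ ≤ q * t := by
        calc t₁ ≤ t := Nat.le_add_right _ _
          _ = 1 * t := (one_mul t).symm
          _ ≤ q * t := Nat.mul_le_mul_right t hq0
      exact_mod_cast this
    have h4 : (0 : ℤ) ≤ ((q * t : ℕ) : ℤ) := by positivity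
    have h5 : ((q * t : ℕ) : ℤ) * 1 ≤ ((q * t : ℕ) : ℤ) * D.degree :=
      mul_le_mul_of_nonneg_left (by omega) h4
    linarith
  have hGR' := hGR D hD0 φ hφ0 p hφ1 hφ2 (q * t) (q * (t + 1))
    (Nat.mul_le_mul_left q (Nat.le_succ t)) hcr
  have hidx1 : q * (t + 1) + p = (m + 1) * q := by rw [hp, hmt]; ring
  have hidx2 : q * t + p = m * q := by rw [hp, hmt]; ring
  rw [hidx1, hidx2] at hGR'
  -- the argument
  rintro ⟨u, v⟩ huv
  rw [S34S_mem_Rf] at huv
  obtain ⟨v₀, hv₀⟩ := hα (m + 1) hm1 u huv.1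
  have hv₀R := hle (m + 1) hv₀
  rw [S34S_mem_Rf] at hv₀R
  have hdiff : v - v₀ ∈ riemannRochSpace (((m + 1) * q) • D) :=
    Submodule.sub_mem _ huv.2 hv₀R.2
  obtain ⟨y, hy, w, hw, hyw⟩ := Submodule.mem_sup.mp (hGR' hdiff)
  obtain ⟨g, hg, rfl⟩ := hy
  have hmem := hξ a t ht0 hCa g hg
  have hWidx : a * q + t + 1 = m + 1 := by omega
  rw [hWidx] at hmem
  have hsplit : ((u, v) : Fk × Fk) = ((u, v₀) + ((0 : Fk), φ * g)) + ((0 : Fk), w) := by
    have : φ * g + w = v - v₀ := hyw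
    ext
    · simp
    · simp only [Prod.mk_add_mk]
      rw [add_assoc, this]
      ring
  rw [hsplit]
  refine Submodule.add_mem _ (Submodule.mem_sup_left (Submodule.add_mem _ hv₀ hmem))
    (Submodule.mem_sup_right ?_)
  rw [S34S_mem_Rf]
  exact ⟨Submodule.zero_mem _, hw⟩

end Fermat.Agent.S34
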