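/-
TRACK 7 "NODE" (S34 + S35), package POLE, part 5 (helper2): the one-parameter CHAIN of the chart `U`.

`Wf m = red (L(m (x)_∞) ∩ O₂)`, `Rf m = L(m (x̄₁)_∞) × L(m (x̄₂)_∞)`:  all fields of helper14's `S34S_Chain`
except (LC) are consequences of POLE (pole control + the counts); with (LC) as a hypothesis we get the
chain, and with helper9's `S34S_lc` (inputs `hα`, `hξ`) the chain in the Frobenius-twisted case
`x̄₂ = x̄₁ ^ q`.
-/
import Mathlib
import Fermat.Agent.S34.PoleInt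
import Fermat.Agent.S34.SatAbs
import Fermat.Agent.S34.SatLC

set_option autoImplicit false

open AlgebraicCurve IntermediateField

namespace Fermat.Agent.S34

open Fermat.Agent.Lib Fermat.Agent.S24 Fermat.Agent.S18

section Zero

variable {K E : Type*} [Field K] [Field E] [Algebra K E]

theorem S34P_E_zero (hP : HasPrincipalDivisors K E) (x z : E) (a : ℕ) :
    S34P_E hP x z a 0 = a • RR_poleDiv hP x := by
  unfold S34P_E
  rw [add_zero, zero_smul, add_zero]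

theorem S34P_nsmul_poleDiv_mono (hP : HasPrincipalDivisors K E) (x : E) {m m' : ℕ} (h : m ≤ m') :
    m • RR_poleDiv hP x ≤ m' • RR_poleDiv hP x := by
  rw [Finsupp.le_def]
  intro v
  rw [S18_semi_nsmul_apply, S18_semi_nsmul_apply]
  have h0 : 0 ≤ RR_poleDiv hP x v := by
    rw [RR_poleDiv_apply]; exact le_max_right _ _
  exact mul_le_mul_of_nonneg_right (by exact_mod_cast h) h0

end Zero

variable {L F k Fk₁ Fk₂ : Type*} [Field L] [Field F] [Algebra L F] [Field k]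
  [Field Fk₁] [Field Fk₂] [Algebra k Fk₁] [Algebra k Fk₂]

theorem S34P_Rbar_zero (hP₁ : HasPrincipalDivisors k Fk₁) (hP₂ : HasPrincipalDivisors k Fk₂)
    (x₁ z₁ : Fk₁) (x₂ z₂ : Fk₂) (a : ℕ) :
    S34P_Rbar hP₁ hP₂ x₁ z₁ x₂ z₂ a 0 =
      (riemannRochSpace (a • RR_poleDiv hP₁ x₁)).prod (riemannRochSpace (a • RR_poleDiv hP₂ x₂)) := by
  unfold S34P_Rbar
  rw [S34P_E_zero, S34P_E_zero]

theorem S34P_Rbar_eq_Rf {Fk : Type*} [Field Fk] [Algebra k Fk] (hP : HasPrincipalDivisors k Fk)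
    (x z₁ z₂ : Fk) (q m : ℕ) :
    S34P_Rbar hP hP x z₁ (x ^ q) z₂ m 0 = S34S_Rf hP x q m := by
  rw [S34P_Rbar_zero]
  rfl

variable {S₁ : S18_Val L F k Fk₁} {S₂ : S18_Val L F k Fk₂}

section Chain

variable {hS : S34P_Same S₁ S₂} {x : S34P_O2 S₁ S₂}

/-- the untwisted levels of the chart `U`. -/
noncomputable def S34P_Wf (hS : S34P_Same S₁ S₂) (hP : HasPrincipalDivisors L F)
    (x : S34P_O2 S₁ S₂) (m : ℕ) : Submodule k (Fk₁ × Fk₂) :=
  S34P_redSub S₁ S₂ hS (riemannRochSpace (m • RR_poleDiv hP (x : F)))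

/-- the fibre levels of the chart `U`. -/
noncomputable def S34P_Rf (hP₁ : HasPrincipalDivisors k Fk₁) (hP₂ : HasPrincipalDivisors k Fk₂)
    (x₁ : Fk₁) (x₂ : Fk₂) (m : ℕ) : Submodule k (Fk₁ × Fk₂) :=
  (riemannRochSpace (m • RR_poleDiv hP₁ x₁)).prod (riemannRochSpace (m • RR_poleDiv hP₂ x₂))

theorem S34P_Rf_eq_Rf {Fk : Type*} [Field Fk] [Algebra k Fk] (hP : HasPrincipalDivisors k Fk)
    (x : Fk) (q : ℕ) : S34P_Rf hP hP x (x ^ q) = S34S_Rf hP x q := rfl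

theorem S34P_Wf_mono (hS : S34P_Same S₁ S₂) (hP : HasPrincipalDivisors L F)
    (x : S34P_O2 S₁ S₂) : Monotone (S34P_Wf hS hP x) := fun _ _ hmm' =>
  S34P_redSub_mono S₁ S₂ hS (RR_mono (S34P_nsmul_poleDiv_mono hP _ hmm'))

theorem S34P_Rf_mono (hP₁ : HasPrincipalDivisors k Fk₁) (hP₂ : HasPrincipalDivisors k Fk₂)
    (x₁ : Fk₁) (x₂ : Fk₂) : Monotone (S34P_Rf hP₁ hP₂ x₁ x₂) := fun _ _ hmm' =>
  Submodule.prod_mono (RR_mono (S34P_nsmul_poleDiv_mono hP₁ _ hmm'))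
    (RR_mono (S34P_nsmul_poleDiv_mono hP₂ _ hmm'))

theorem S34P_Rf_finite (h₁ : RR_Hyp k Fk₁) (h₂ : RR_Hyp k Fk₂) (x₁ : Fk₁) (x₂ : Fk₂) (m : ℕ) :
    FiniteDimensional k (S34P_Rf h₁.principal h₂.principal x₁ x₂ m) := by
  have := RR_finite h₁ (m • RR_poleDiv h₁.principal x₁)
  have := RR_finite h₂ (m • RR_poleDiv h₂.principal x₂)
  exact S34P_finite_prod _ _

/-- POLE-1 in chain form. -/
theorem S34P_Wf_le (h : S34P_Hyp S₁ S₂ hS x) (hP : HasPrincipalDivisors L F)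
    (hP₁ : HasPrincipalDivisors k Fk₁) (hP₂ : HasPrincipalDivisors k Fk₂) (m : ℕ) :
    S34P_Wf hS hP x m ≤ S34P_Rf hP₁ hP₂ (S34P_red S₁ S₂ x).1 (S34P_red S₁ S₂ x).2 m :=
  S34P_redSub_le h hP hP₁ hP₂ m

/-- POLE-4 in chain form: `finrank Rf m = finrank Wf m + s` for `m ≥ m₀`, with
`s = g_F + 1 − g₁ − g₂ ≥ 0`. -/
theorem S34P_chain_count (h : S34P_Hyp S₁ S₂ hS x)
    (hcount : ∀ V : Submodule L F, FiniteDimensional L V →
      Module.finrank k (S34P_redSub S₁ S₂ hS V) = Module.finrank L V)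
    (hF : RR_Hyp L F) (h₁ : RR_Hyp k Fk₁) (h₂ : RR_Hyp k Fk₂)
    (hd₁ : 0 < (RR_poleDiv h₁.principal (S34P_red S₁ S₂ x).1).degree)
    (hd₂ : 0 < (RR_poleDiv h₂.principal (S34P_red S₁ S₂ x).2).degree)
    (hdeg : (RR_poleDiv h₁.principal (S34P_red S₁ S₂ x).1).degree +
      (RR_poleDiv h₂.principal (S34P_red S₁ S₂ x).2).degree =
        (RR_poleDiv hF.principal (x : F)).degree) :
    ∃ s m₀ : ℕ, (s : ℤ) = (RR_genus L F : ℤ) + 1 - RR_genus k Fk₁ - RR_genus k Fk₂ ∧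
      ∀ m, m₀ ≤ m →
        Module.finrank k (S34P_Rf h₁.principal h₂.principal (S34P_red S₁ S₂ x).1
          (S34P_red S₁ S₂ x).2 m) = Module.finrank k (S34P_Wf hS hF.principal x m) + s := by
  have hcount' : ∀ V : Submodule L F, FiniteDimensional L V →
      Module.finrank k ((S34P_lat hS).redSub V) = Module.finrank L V := by
    intro V hV
    rw [S34P_lat_redSub]
    exact hcount V hV
  obtain ⟨m₀, hm₀⟩ := S34P_codim (S34P_lat hS) hcount' hF h₁ h₂ (x : F) (x : F)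
    (S34P_red S₁ S₂ x).1 (S34P_red S₁ S₂ x).1 (S34P_red S₁ S₂ x).2 (S34P_red S₁ S₂ x).2 0
    (map_zero _) hd₁ hd₂ hdeg
  have key : ∀ m, m₀ ≤ m →
      (Module.finrank k (S34P_Rf h₁.principal h₂.principal (S34P_red S₁ S₂ x).1
        (S34P_red S₁ S₂ x).2 m) : ℤ) = Module.finrank k (S34P_Wf hS hF.principal x m) +
          ((RR_genus L F : ℤ) + 1 - RR_genus k Fk₁ - RR_genus k Fk₂) := by
    intro m hm
    have := hm₀ m 0 (by omega)
    rw [S34P_Rbar_zero, S34P_E_zero, add_zero, S34P_lat_redSub] at this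
    exact this
  -- `s ≥ 0` since `Wf m₀ ≤ Rf m₀`
  have hle := S34P_Wf_le h hF.principal h₁.principal h₂.principal m₀
  have hfin := S34P_Rf_finite h₁ h₂ (S34P_red S₁ S₂ x).1 (S34P_red S₁ S₂ x).2 m₀
  have hmono := Submodule.finrank_mono hle
  have h0 := key m₀ le_rfl
  have hs : 0 ≤ (RR_genus L F : ℤ) + 1 - RR_genus k Fk₁ - RR_genus k Fk₂ := by
    have : (Module.finrank k (S34P_Wf hS hF.principal x m₀) : ℤ) ≤
        Module.finrank k (S34P_Rf h₁.principal h₂.principal (S34P_red S₁ S₂ x).1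
          (S34P_red S₁ S₂ x).2 m₀) := by exact_mod_cast hmono
    omega
  refine ⟨((RR_genus L F : ℤ) + 1 - RR_genus k Fk₁ - RR_genus k Fk₂).toNat, m₀,
    Int.toNat_of_nonneg hs, fun m hm => ?_⟩
  have := key m hm
  have h2 := Int.toNat_of_nonneg hs
  omega

/-- **the chain of the chart `U`** from POLE and (LC). -/
theorem S34P_chain (h : S34P_Hyp S₁ S₂ hS x)
    (hcount : ∀ V : Submodule L F, FiniteDimensional L V →
      Module.finrank k (S34P_redSub S₁ S₂ hS V) = Module.finrank L V)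
    (hF : RR_Hyp L F) (h₁ : RR_Hyp k Fk₁) (h₂ : RR_Hyp k Fk₂)
    (hd₁ : 0 < (RR_poleDiv h₁.principal (S34P_red S₁ S₂ x).1).degree)
    (hd₂ : 0 < (RR_poleDiv h₂.principal (S34P_red S₁ S₂ x).2).degree)
    (hdeg : (RR_poleDiv h₁.principal (S34P_red S₁ S₂ x).1).degree +
      (RR_poleDiv h₂.principal (S34P_red S₁ S₂ x).2).degree =
        (RR_poleDiv hF.principal (x : F)).degree)
    (hlc : ∃ m₂ : ℕ, ∀ m, m₂ ≤ m →
      S34P_Rf h₁.principal h₂.principal (S34P_red S₁ S₂ x).1 (S34P_red S₁ S₂ x).2 (m + 1) ≤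
        S34P_Wf hS hF.principal x (m + 1) ⊔
          S34P_Rf h₁.principal h₂.principal (S34P_red S₁ S₂ x).1 (S34P_red S₁ S₂ x).2 m) :
    ∃ s m₀ : ℕ, (s : ℤ) = (RR_genus L F : ℤ) + 1 - RR_genus k Fk₁ - RR_genus k Fk₂ ∧
      S34S_Chain (S34P_Wf hS hF.principal x)
        (S34P_Rf h₁.principal h₂.principal (S34P_red S₁ S₂ x).1 (S34P_red S₁ S₂ x).2) s m₀ := by
  obtain ⟨s, m₀, hs, hc⟩ := S34P_chain_count h hcount hF h₁ h₂ hd₁ hd₂ hdeg
  obtain ⟨m₂, hm₂⟩ := hlc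
  refine ⟨s, max m₀ m₂, hs, ?_⟩
  exact
    { monoW := S34P_Wf_mono hS hF.principal x
      monoR := S34P_Rf_mono h₁.principal h₂.principal _ _
      le := S34P_Wf_le h hF.principal h₁.principal h₂.principal
      fin := S34P_Rf_finite h₁ h₂ _ _
      count := fun m hm => hc m (le_trans (le_max_left _ _) hm)
      lc := fun m hm => hm₂ m (le_trans (le_max_right _ _) hm) }

end Chain

section Frob

variable {Fk : Type*} [Field Fk] [Algebra k Fk]
variable {T₁ T₂ : S18_Val L F k Fk} {hT : S34P_Same T₁ T₂} {x : S34P_O2 T₁ T₂}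

/-- **the chain of the chart `U`, Frobenius-twisted case** `x̄₂ = x̄₁ ^ q`, from POLE and helper9's
`S34S_lc` (inputs `hα`, `hξ`). -/
theorem S34P_chain_frob (h : S34P_Hyp T₁ T₂ hT x)
    (hcount : ∀ V : Submodule L F, FiniteDimensional L V →
      Module.finrank k (S34P_redSub T₁ T₂ hT V) = Module.finrank L V)
    (hF : RR_Hyp L F) (hk : RR_Hyp k Fk) (q : ℕ) (hq : 2 ≤ q)
    (hx₂ : (S34P_red T₁ T₂ x).2 = (S34P_red T₁ T₂ x).1 ^ q)
    (hpole : ∃ v : Place k Fk, v.ord (S34P_red T₁ T₂ x).1 < 0)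
    (hdeg : (RR_poleDiv hk.principal (S34P_red T₁ T₂ x).1).degree +
      (RR_poleDiv hk.principal ((S34P_red T₁ T₂ x).1 ^ q)).degree =
        (RR_poleDiv hF.principal (x : F)).degree)
    (hα : ∃ r₀ : ℕ, ∀ m, r₀ ≤ m →
      ∀ u ∈ riemannRochSpace (m • RR_poleDiv hk.principal (S34P_red T₁ T₂ x).1),
        ∃ v : Fk, (u, v) ∈ S34P_Wf hT hF.principal x m)
    (hξ : ∃ C t₀ : ℕ, ∀ a t : ℕ, t₀ ≤ t → C * (t + 1) ≤ a →
      ∀ g ∈ riemannRochSpace ((q * (t + 1)) • RR_poleDiv hk.principal (S34P_red T₁ T₂ x).1),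
        ((0 : Fk), ((S34P_red T₁ T₂ x).1 ^ (q ^ 2) - (S34P_red T₁ T₂ x).1) ^ a * g) ∈
          S34P_Wf hT hF.principal x (a * q + t + 1)) :
    ∃ s m₀ : ℕ, (s : ℤ) = (RR_genus L F : ℤ) + 1 - 2 * RR_genus k Fk ∧
      S34S_Chain (S34P_Wf hT hF.principal x)
        (S34S_Rf hk.principal (S34P_red T₁ T₂ x).1 q) s m₀ := by
  have hle : ∀ m, S34P_Wf hT hF.principal x m ≤ S34S_Rf hk.principal (S34P_red T₁ T₂ x).1 q m := by
    intro m
    have := S34P_Wf_le h hF.principal hk.principal hk.principal m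
    rw [hx₂] at this
    exact this
  have hlc := S34S_lc hk (S34P_red T₁ T₂ x).1 hpole q hq (S34P_Wf hT hF.principal x) hle hα hξ
  have hd₁ : 0 < (RR_poleDiv hk.principal (S34P_red T₁ T₂ x).1).degree := by
    obtain ⟨v, hv⟩ := hpole
    exact RR_poleDiv_degree_pos hk.deg_one hk.principal v hv
  have hd₂ : 0 < (RR_poleDiv hk.principal (S34P_red T₁ T₂ x).2).degree := by
    rw [hx₂, S34S_poleDiv_pow, map_nsmul]
    have : 0 < q := by omega
    positivity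
  obtain ⟨s, m₀, hs, hc⟩ := S34P_chain h hcount hF hk hk hd₁ hd₂ (by rw [hx₂]; exact hdeg)
    (by rw [hx₂]; exact hlc)
  refine ⟨s, m₀, by rw [hs]; ring, ?_⟩
  rw [hx₂] at hc
  exact hc

end Frob

end Fermat.Agent.S34
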