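import Mathlib
import Fermat.Agent.Lib.HurwitzGlue
import Fermat.Agent.S18.SemiCart
import Fermat.Agent.S18.RIDeg
import Fermat.Agent.S18.Sep
import Fermat.Agent.S18.Wire
import Fermat.Agent.S20.PsiRec

/-!
# TRACK 7 (S34 + S35), package VAL (helper20): the degrees of the pole divisors (`hdeg` of POLE)

Level `N = M * q`, `q` prime, `q ∤ M`, `A ⊂ ℚ̄` a valuation ring over `q`, `k` its residue field.
`F = F_N`, residue fields `Fk₁ = Fk₂ = F̄` with `x₁ = red₁ j = j̄`, `x₂ = red₂ j = j̄^q`.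

* `S34VD_poleDiv_pow` : `(x^n)_∞ = n • (x)_∞` (any function field with principal divisors);
* `S34VD_deg_jB` : `deg (j)_∞ = ψ(N)` on `F_N` (characteristic `0`);
* `S34VD_deg_jbar` : `deg (j̄)_∞ = ψ(M)` on `F̄_M` (characteristic `q ∤ M`);
* `S34VD_deg_jbar_of_eq` : the same on any subfield `E = F̄_M` of `k((t))`
  (for `E = modularFunctionFieldFullC k (M * q)`, VAL-HGEN);
* `S34VD_hdeg` : `deg (j̄)_∞ + deg (j̄^q)_∞ = deg (j)_∞` — the hypothesis `hdeg` of `S34P_codim`
  (`F̄ / k(j̄^q)` is inseparable, so the second term is computed from `(x^q)_∞ = q (x)_∞`).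
-/

set_option autoImplicit false
set_option synthInstance.maxHeartbeats 400000
set_option maxHeartbeats 1000000

open HahnSeries IntermediateField AlgebraicCurve ModularCurve

namespace Fermat.Agent.S34

open Fermat.Agent.Lib Fermat.Agent.S18 Fermat.Agent.S24

section Abstract

variable {K F : Type*} [Field K] [Field F] [Algebra K F]

/-- `(x^n)_∞ = n • (x)_∞`. -/
theorem S34VD_poleDiv_pow (hP : HasPrincipalDivisors K F) (x : F) (n : ℕ) :
    RR_poleDiv hP (x ^ n) = n • RR_poleDiv hP x := by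
  ext v
  rw [Finsupp.smul_apply, RR_poleDiv_apply, RR_poleDiv_apply, ← zpow_natCast, v.ord_zpow,
    nsmul_eq_mul]
  rcases le_total (v.ord x) 0 with h | h
  · have h1 : (0 : ℤ) ≤ -((n : ℤ) * v.ord x) := by
      have := mul_nonneg (Int.natCast_nonneg n) (neg_nonneg.mpr h)
      linarith
    rw [max_eq_left h1, max_eq_left (neg_nonneg.mpr h)]
    ring
  · have h1 : -((n : ℤ) * v.ord x) ≤ 0 := by
      have := mul_nonneg (Int.natCast_nonneg n) h
      linarith
    rw [max_eq_right h1, max_eq_right (neg_nonpos.mpr h), mul_zero]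

theorem S34VD_poleDiv_pow_degree (hP : HasPrincipalDivisors K F) (x : F) (n : ℕ) :
    (RR_poleDiv hP (x ^ n)).degree = n * (RR_poleDiv hP x).degree := by
  rw [S34VD_poleDiv_pow, map_nsmul, nsmul_eq_mul]

end Abstract

section Zero

variable (N : ℕ) [NeZero N]

/-- `deg (j)_∞ = ψ(N)` on `F_N`. -/
theorem S34VD_deg_jB (hP : HasPrincipalDivisors (AlgebraicClosure ℚ) ↥(modularFunctionFieldBar N)) :
    (RR_poleDiv hP (jB N)).degree = (dedekindPsi N : ℤ) := by
  have hfin := finiteDimensional_jB N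
  have h := HWG_poleDiv_degree (transcendental_jB N) (S18_hRR N)
  rw [finrank_eq_psi] at h
  exact h

end Zero

section Residue

variable (M : ℕ) [NeZero M] (A : ValuationSubring (AlgebraicClosure ℚ))
  {q : ℕ} (hq : q.Prime) (hA : A.LiesOverPrime q) (hqM : ¬ q ∣ M)

include hq hA hqM

/-- `deg (j̄)_∞ = ψ(M)` on `F̄_M`. -/
theorem S34VD_deg_jbar
    (hP : HasPrincipalDivisors (IsLocalRing.ResidueField A)
      ↥(modularFunctionFieldFullC (IsLocalRing.ResidueField A) M)) :
    (RR_poleDiv hP (S18_jbar M (IsLocalRing.ResidueField A))).degree = (dedekindPsi M : ℤ) := by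
  have : IsAlgClosed (IsLocalRing.ResidueField A) := S18_residue_isAlgClosed A
  have : CharP (IsLocalRing.ResidueField A) q := S18_residue_charP A q hq hA
  have : Fact q.Prime := ⟨hq⟩
  have := S18_finite_jbar M hq hqM (S18_ψ A hq hA)
  have := S18_isSeparable_jbar M hqM (S18_ψ A hq hA)
  have h := S18_semi_poleDiv_degree (S18_transcendental_jbar M)
    (fun v => S18_deg_one_k M hqM (S18_ψ A hq hA) v) hP
  rw [RIG_finrank_eq_psi M A hq hA hqM] at h
  exact h

/-- `deg (j̄)_∞ = ψ(M)` on any subfield `E` of `k((t))` equal to `F̄_M`. -/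
theorem S34VD_deg_jbar_of_eq
    (E : IntermediateField (IsLocalRing.ResidueField A)
      (LaurentSeries (IsLocalRing.ResidueField A)))
    (hE : E = modularFunctionFieldFullC (IsLocalRing.ResidueField A) M)
    (hP : HasPrincipalDivisors (IsLocalRing.ResidueField A) ↥E) (x : ↥E)
    (hx : (x : LaurentSeries (IsLocalRing.ResidueField A)) =
      jqModC (IsLocalRing.ResidueField A)) :
    (RR_poleDiv hP x).degree = (dedekindPsi M : ℤ) := by
  subst hE
  have hx' : x = S18_jbar M (IsLocalRing.ResidueField A) := Subtype.ext hx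
  rw [hx']
  exact S34VD_deg_jbar M A hq hA hqM hP

/-- **`hdeg` of POLE**: `deg (j̄)_∞ + deg (j̄^q)_∞ = deg (j)_∞`, for residue fields `E₁`, `E₂`
equal to `F̄_M` as subfields of `k((t))`. -/
theorem S34VD_hdeg [NeZero (M * q)]
    (E₁ E₂ : IntermediateField (IsLocalRing.ResidueField A)
      (LaurentSeries (IsLocalRing.ResidueField A)))
    (hE₁ : E₁ = modularFunctionFieldFullC (IsLocalRing.ResidueField A) M)
    (hE₂ : E₂ = modularFunctionFieldFullC (IsLocalRing.ResidueField A) M)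
    (hP₁ : HasPrincipalDivisors (IsLocalRing.ResidueField A) ↥E₁)
    (hP₂ : HasPrincipalDivisors (IsLocalRing.ResidueField A) ↥E₂)
    (hP : HasPrincipalDivisors (AlgebraicClosure ℚ) ↥(modularFunctionFieldBar (M * q)))
    (x₁ : ↥E₁) (x₂ : ↥E₂)
    (hx₁ : (x₁ : LaurentSeries (IsLocalRing.ResidueField A)) =
      jqModC (IsLocalRing.ResidueField A))
    (hx₂ : (x₂ : LaurentSeries (IsLocalRing.ResidueField A)) =
      jqModC (IsLocalRing.ResidueField A) ^ q) :
    (RR_poleDiv hP₁ x₁).degree + (RR_poleDiv hP₂ x₂).degree =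
      (RR_poleDiv hP (jB (M * q))).degree := by
  have h1 := S34VD_deg_jbar_of_eq M A hq hA hqM E₁ hE₁ hP₁ x₁ hx₁
  -- `x₂ = y^q` with `y = j̄ ∈ E₂`
  have hy : jqModC (IsLocalRing.ResidueField A) ∈ E₂ := by
    rw [hE₂]
    exact jqModC_mem_full _ M
  have hx₂' : x₂ = (⟨jqModC (IsLocalRing.ResidueField A), hy⟩ : ↥E₂) ^ q := by
    apply Subtype.ext
    rw [hx₂]
    rfl
  have h2 := S34VD_deg_jbar_of_eq M A hq hA hqM E₂ hE₂ hP₂
    ⟨jqModC (IsLocalRing.ResidueField A), hy⟩ rfl
  rw [hx₂', S34VD_poleDiv_pow_degree, h1, h2, S34VD_deg_jB (M * q) hP, mul_comm M q,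
    Fermat.Agent.S20.S20_dedekindPsi_prime_mul_of_not_dvd hq (NeZero.ne M) hqM]
  push_cast
  ring

end Residue

end Fermat.Agent.S34
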