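import Mathlib
import Fermat.Agent.Lib.LaurentTheta
import Fermat.Agent.S24.EvFormal
import Fermat.Agent.S18.Sep
import Fermat.Agent.S18.RIDeg
import Fermat.Agent.S34.ValDeg
import Fermat.Agent.GalRep.HeckeDeg

/-!
# TRACK 7 (S34 + S35), package VAL (helper20): the residue field at level `M q` is `F̄_M`

`k` a field of characteristic `q` (`q` prime).

* `S34VF_frob`  : `j̄(t^{q d}) = j̄(t^d)^q` in `k((t))`;
* `S34VF_FkN`   : `modularFunctionFieldFullC k (M * q) = modularFunctionFieldFullC k M`
  (as subfields of `k((t))`);  `S34VF_FkN'` the same for `q * M`;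
* transports to `F̄_{M q}` for `k` = the residue field of a valuation ring `A ⊂ ℚ̄` over `q ∤ M`:
  `S34VF_hk` (`RR_Hyp`), `S34VF_genus` (`RR_genus k F̄_{Mq} = RR_genus k F̄_M`),
  `S34VF_finrank` (`[F̄_{Mq} : k(j̄)] = ψ(M)`), `S34VF_finite`, `S34VF_isSeparable`,
  `S34VF_transcendental`;
* `S34VF_hdeg` : `hdeg` of POLE for `Fk₁ = Fk₂ = F̄_{Mq}`, `x₁ = j̄`, `x₂ = j̄^q`.
-/

set_option autoImplicit false
set_option synthInstance.maxHeartbeats 400000
set_option maxHeartbeats 1000000

open HahnSeries IntermediateField AlgebraicCurve ModularCurve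

namespace Fermat.Agent.S34

open Fermat.Agent.Lib Fermat.Agent.S18 Fermat.Agent.S24

section Frob

variable (k : Type*) [Field k] (q : ℕ) [Fact q.Prime] [CharP k q]

/-- **Frobenius**: in characteristic `q`, `j̄(t^{q d}) = j̄(t^d)^q`. -/
theorem S34VF_frob (d : ℕ) [NeZero d] [NeZero q] [NeZero (q * d)] :
    qExpand k (q * d) (jqModC k) = (qExpand k d (jqModC k)) ^ q := by
  rw [LT_pow_char q (qExpand k d (jqModC k)), Fermat.Agent.S24.coeffMap_qExpand, coeffMap_jqModC,
    qExpand_qExpand]

/-- **the residue field at level `M q`**: `F̄_{M q} = F̄_M` inside `k((t))`. -/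
theorem S34VF_FkN (M : ℕ) [NeZero M] [NeZero (M * q)] :
    modularFunctionFieldFullC k (M * q) = modularFunctionFieldFullC k M := by
  have hq : q.Prime := Fact.out
  have : NeZero q := ⟨hq.ne_zero⟩
  apply le_antisymm
  · rw [modularFunctionFieldFullC, adjoin_le_iff]
    rintro x ⟨d, hne, hdvd, rfl⟩
    have := hne
    by_cases hqd : q ∣ d
    · obtain ⟨d', rfl⟩ := hqd
      have hd'0 : d' ≠ 0 := by
        rintro rfl
        exact (NeZero.ne (q * 0)) (by simp)
      have : NeZero d' := ⟨hd'0⟩
      have hd'M : d' ∣ M := by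
        rw [mul_comm M q] at hdvd
        exact (Nat.mul_dvd_mul_iff_left hq.pos).1 hdvd
      rw [SetLike.mem_coe, S34VF_frob k q d']
      exact pow_mem (jqModCd_mem_full k M hd'M) q
    · have hcop : Nat.Coprime d q := ((Nat.Prime.coprime_iff_not_dvd hq).2 hqd).symm
      exact jqModCd_mem_full k M (hcop.dvd_of_dvd_mul_right hdvd)
  · exact full_degeneracyC_le k (dvd_mul_right M q)

end Frob

section Residue

variable (M : ℕ) [NeZero M] (A : ValuationSubring (AlgebraicClosure ℚ))
  {q : ℕ} (hq : q.Prime) (hA : A.LiesOverPrime q) (hqM : ¬ q ∣ M) [NeZero (M * q)]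

omit [NeZero M] in
/-- `j̄` is transcendental (any level). -/
theorem S34VF_transcendental :
    Transcendental (IsLocalRing.ResidueField A)
      (S18_jbar (M * q) (IsLocalRing.ResidueField A)) := by
  have : IsAlgClosed (IsLocalRing.ResidueField A) := S18_residue_isAlgClosed A
  exact S18_transcendental_jbar (M * q)

include hq hA in
/-- `F̄_{M q} = F̄_M` for the residue field of a place over `q`. -/
theorem S34VF_FkN_res :
    modularFunctionFieldFullC (IsLocalRing.ResidueField A) (M * q) =
      modularFunctionFieldFullC (IsLocalRing.ResidueField A) M := by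
  have : CharP (IsLocalRing.ResidueField A) q := S18_residue_charP A q hq hA
  have : Fact q.Prime := ⟨hq⟩
  exact S34VF_FkN (IsLocalRing.ResidueField A) q M

include hq hA hqM

/-- **`RR_Hyp k F̄_{M q}`**. -/
theorem S34VF_hk :
    RR_Hyp (IsLocalRing.ResidueField A)
      ↥(modularFunctionFieldFullC (IsLocalRing.ResidueField A) (M * q)) := by
  rw [S34VF_FkN_res M A hq hA]
  exact S18_hk M A hq hA hqM

omit hqM in
/-- **`g(F̄_{M q}) = g(F̄_M)`**. -/
theorem S34VF_genus :
    RR_genus (IsLocalRing.ResidueField A)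
        ↥(modularFunctionFieldFullC (IsLocalRing.ResidueField A) (M * q)) =
      RR_genus (IsLocalRing.ResidueField A)
        ↥(modularFunctionFieldFullC (IsLocalRing.ResidueField A) M) := by
  rw [S34VF_FkN_res M A hq hA]

/-- **`[F̄_{M q} : k(j̄)] = ψ(M)`**, in the form: for every subfield `E = F̄_{Mq}`-like. -/
theorem S34VF_finrank :
    Module.finrank (IsLocalRing.ResidueField A)⟮S18_jbar (M * q) (IsLocalRing.ResidueField A)⟯
      ↥(modularFunctionFieldFullC (IsLocalRing.ResidueField A) (M * q)) = dedekindPsi M := by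
  have key : ∀ (E : IntermediateField (IsLocalRing.ResidueField A)
      (LaurentSeries (IsLocalRing.ResidueField A)))
      (hE : E = modularFunctionFieldFullC (IsLocalRing.ResidueField A) M) (x : ↥E)
      (_ : (x : LaurentSeries (IsLocalRing.ResidueField A)) =
        jqModC (IsLocalRing.ResidueField A)),
      Module.finrank (IsLocalRing.ResidueField A)⟮x⟯ ↥E = dedekindPsi M := by
    intro E hE x hx
    subst hE
    have hx' : x = S18_jbar M (IsLocalRing.ResidueField A) := Subtype.ext hx
    rw [hx']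
    exact RIG_finrank_eq_psi M A hq hA hqM
  exact key _ (S34VF_FkN_res M A hq hA) _ rfl

/-- `F̄_{M q} / k(j̄)` is finite. -/
theorem S34VF_finite :
    FiniteDimensional (IsLocalRing.ResidueField A)⟮S18_jbar (M * q) (IsLocalRing.ResidueField A)⟯
      ↥(modularFunctionFieldFullC (IsLocalRing.ResidueField A) (M * q)) := by
  have h := S34VF_finrank M A hq hA hqM
  have hpos : 0 < dedekindPsi M := Fermat.Agent.GalRep.GRHF_dedekindPsi_pos M
  exact Module.finite_of_finrank_pos (by rw [h]; exact hpos)

/-- `F̄_{M q} / k(j̄)` is separable. -/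
theorem S34VF_isSeparable :
    Algebra.IsSeparable
      (IsLocalRing.ResidueField A)⟮S18_jbar (M * q) (IsLocalRing.ResidueField A)⟯
      ↥(modularFunctionFieldFullC (IsLocalRing.ResidueField A) (M * q)) := by
  have key : ∀ (E : IntermediateField (IsLocalRing.ResidueField A)
      (LaurentSeries (IsLocalRing.ResidueField A)))
      (hE : E = modularFunctionFieldFullC (IsLocalRing.ResidueField A) M) (x : ↥E)
      (_ : (x : LaurentSeries (IsLocalRing.ResidueField A)) =
        jqModC (IsLocalRing.ResidueField A)),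
      Algebra.IsSeparable (IsLocalRing.ResidueField A)⟮x⟯ ↥E := by
    intro E hE x hx
    subst hE
    have hx' : x = S18_jbar M (IsLocalRing.ResidueField A) := Subtype.ext hx
    rw [hx']
    have : IsAlgClosed (IsLocalRing.ResidueField A) := S18_residue_isAlgClosed A
    have : CharP (IsLocalRing.ResidueField A) q := S18_residue_charP A q hq hA
    have : Fact q.Prime := ⟨hq⟩
    exact S18_isSeparable_jbar M hqM (S18_ψ A hq hA)
  exact key _ (S34VF_FkN_res M A hq hA) _ rfl

/-- **`hdeg` of POLE** on the concrete residue fields `Fk₁ = Fk₂ = F̄_{M q}`,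
`x₁ = red₁ j = j̄`, `x₂ = red₂ j = j̄^q`. -/
theorem S34VF_hdeg
    (hP₁ hP₂ : HasPrincipalDivisors (IsLocalRing.ResidueField A)
      ↥(modularFunctionFieldFullC (IsLocalRing.ResidueField A) (M * q)))
    (hP : HasPrincipalDivisors (AlgebraicClosure ℚ) ↥(modularFunctionFieldBar (M * q))) :
    (RR_poleDiv hP₁ (S18_jbar (M * q) (IsLocalRing.ResidueField A))).degree +
        (RR_poleDiv hP₂ (S18_jbar (M * q) (IsLocalRing.ResidueField A) ^ q)).degree =
      (RR_poleDiv hP (jB (M * q))).degree :=
  S34VD_hdeg M A hq hA hqM _ _ (S34VF_FkN_res M A hq hA) (S34VF_FkN_res M A hq hA)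
    hP₁ hP₂ hP _ _ rfl rfl

end Residue

end Fermat.Agent.S34
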