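/-
TRACK 7 "NODE" (S34 + S35), package POLE, part 6 (helper2): the CONCRETE instance for `F = F_{M q}`.

Level `N = M * q`, `q` prime, `q ∤ M`, `A ∣ q` a valuation subring of `ℚ̄`, `k` its residue field,
`hgen` = VAL-HGEN.  `S₁ = S34PX_S1` = the `q`-expansion Gauss valuation, `S₂ = S34PX_S2 = S₁ ∘ w_q`,
chart function `x = j = S34PX_j`, `red j = (j̄, j̄^q)`.

From a cartesian chart `hcart` (CART2-X0) we get: `S34PX_hyp` (all hypotheses of pole control),
`S34PX_count` (the lattice count), `S34PX_le` / `S34PX_le_twist` (pole control),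
`S34PX_chain_count` / `S34PX_twist_count` (the codimension `s = g_N + 1 − 2 g(F̄)`), and the chain
`S34PX_chain` from SAT's `hα`, `hξ`.
-/
import Mathlib
import Fermat.Agent.S34.PoleChain
import Fermat.Agent.S34.ValWire
import Fermat.Agent.S34.ValFk
import Fermat.Agent.S18.Wire

set_option autoImplicit false
set_option synthInstance.maxHeartbeats 400000
set_option maxHeartbeats 1000000
set_option linter.unusedSectionVars false

open HahnSeries IntermediateField AlgebraicCurve ModularCurve

noncomputable section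

namespace Fermat.Agent.S34

open Fermat.Agent.Lib Fermat.Agent.S18 Fermat.Agent.S24

section X0

variable (M q : ℕ) [NeZero (M * q)] (hq : q.Prime) (hqM : ¬ q ∣ M)
  (A : ValuationSubring (AlgebraicClosure ℚ))
  (hgen : PrincipalGeneratedByIntegral A (IsLocalRing.residue A) (M * q))

/-- `V₁`: the `q`-expansion Gauss valuation of `F_{M q}` at `A`. -/
def S34PX_S1 : S18_Val (AlgebraicClosure ℚ) ↥(modularFunctionFieldBar (M * q))
    (IsLocalRing.ResidueField A)
    ↥(modularFunctionFieldFullC (IsLocalRing.ResidueField A) (M * q)) :=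
  (S18_gaussModL (M * q) A hgen).toVal

/-- `V₂ = V₁ ∘ w_q`. -/
def S34PX_S2 : S18_Val (AlgebraicClosure ℚ) ↥(modularFunctionFieldBar (M * q))
    (IsLocalRing.ResidueField A)
    ↥(modularFunctionFieldFullC (IsLocalRing.ResidueField A) (M * q)) :=
  (S34V_comap (S18_gaussModL (M * q) A hgen) (S34DF_wq M q hq hqM)).toVal

theorem S34PX_same : S34P_Same (S34PX_S1 M q A hgen) (S34PX_S2 M q hq hqM A hgen) :=
  ⟨rfl, fun _ _ _ => rfl⟩

theorem S34PX_S1_O : (S34PX_S1 M q A hgen).O = S34DF_O1 M q A hgen := rfl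

theorem S34PX_S2_O : (S34PX_S2 M q hq hqM A hgen).O = S34DF_O2 M q hq hqM A hgen := rfl

theorem S34PX_mem_O2 {f : ↥(modularFunctionFieldBar (M * q))} :
    f ∈ S34P_O2 (S34PX_S1 M q A hgen) (S34PX_S2 M q hq hqM A hgen) ↔
      f ∈ S18_O A (M * q) ∧ S34DF_wq M q hq hqM f ∈ S18_O A (M * q) := Iff.rfl

theorem S34PX_red_fst (f : S34P_O2 (S34PX_S1 M q A hgen) (S34PX_S2 M q hq hqM A hgen)) :
    (S34P_red (S34PX_S1 M q A hgen) (S34PX_S2 M q hq hqM A hgen) f).1 =
      S18_red A (M * q) ⟨f, f.2.1⟩ := rfl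

theorem S34PX_red_snd (f : S34P_O2 (S34PX_S1 M q A hgen) (S34PX_S2 M q hq hqM A hgen)) :
    (S34P_red (S34PX_S1 M q A hgen) (S34PX_S2 M q hq hqM A hgen) f).2 =
      S18_red A (M * q) ⟨S34DF_wq M q hq hqM f, f.2.2⟩ := rfl

/-- the chart function `j`. -/
def S34PX_j : S34P_O2 (S34PX_S1 M q A hgen) (S34PX_S2 M q hq hqM A hgen) :=
  ⟨jB (M * q), S34VW_jB_mem M q A, S34VW_wq_jB_mem M q hq hqM A⟩

theorem S34PX_j_coe :
    ((S34PX_j M q hq hqM A hgen : S34P_O2 (S34PX_S1 M q A hgen) (S34PX_S2 M q hq hqM A hgen)) :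
      ↥(modularFunctionFieldBar (M * q))) = jB (M * q) := rfl

/-- `red₁ j = j̄`. -/
theorem S34PX_red_j_fst :
    (S34P_red (S34PX_S1 M q A hgen) (S34PX_S2 M q hq hqM A hgen) (S34PX_j M q hq hqM A hgen)).1 =
      S18_jbar (M * q) (IsLocalRing.ResidueField A) :=
  Subtype.ext (S34VW_red_jB M q A)

/-- `red₂ j = j̄^q`. -/
theorem S34PX_red_j_snd (hA : A.LiesOverPrime q) :
    (S34P_red (S34PX_S1 M q A hgen) (S34PX_S2 M q hq hqM A hgen) (S34PX_j M q hq hqM A hgen)).2 =
      S18_jbar (M * q) (IsLocalRing.ResidueField A) ^ q :=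
  Subtype.ext (S34VW_red_wq_jB M q hq hqM A hA)

/-- the input from CART2-X0: a cartesian chart of `O₁ ∩ O₂` over `j`. -/
def S34PX_Cart : Prop :=
  ∃ (n : ℕ) (y : Fin n → (S34P_lat (S34PX_same M q hq hqM A hgen)).O),
    (S34P_lat (S34PX_same M q hq hqM A hgen)).IsCart (S34PX_j M q hq hqM A hgen) y

variable {M q hq hqM A hgen}

/-- **all hypotheses of pole control** for `(F_{M q}, V₁, V₂, j)`. -/
theorem S34PX_hyp (hcart : S34PX_Cart M q hq hqM A hgen) :
    S34P_Hyp (S34PX_S1 M q A hgen) (S34PX_S2 M q hq hqM A hgen) (S34PX_same M q hq hqM A hgen)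
      (S34PX_j M q hq hqM A hgen) := by
  obtain ⟨n, y, hC⟩ := hcart
  have key : ∀ (x : S34P_O2 (S34PX_S1 M q A hgen) (S34PX_S2 M q hq hqM A hgen))
      (_ : (x : ↥(modularFunctionFieldBar (M * q))) = jB (M * q))
      (y : Fin n → (S34P_lat (S34PX_same M q hq hqM A hgen)).O)
      (_ : (S34P_lat (S34PX_same M q hq hqM A hgen)).IsCart x y),
      S34P_Hyp (S34PX_S1 M q A hgen) (S34PX_S2 M q hq hqM A hgen)
        (S34PX_same M q hq hqM A hgen) x := by
    intro x hx y hC
    have hfd : FiniteDimensional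
        (AlgebraicClosure ℚ)⟮(x : ↥(modularFunctionFieldBar (M * q)))⟯
        ↥(modularFunctionFieldBar (M * q)) := by
      rw [hx]; exact finiteDimensional_jB (M * q)
    have hcz : CharZero (AlgebraicClosure ℚ)⟮(x : ↥(modularFunctionFieldBar (M * q)))⟯ :=
      charZero_of_injective_algebraMap
        (algebraMap (AlgebraicClosure ℚ)
          (AlgebraicClosure ℚ)⟮(x : ↥(modularFunctionFieldBar (M * q)))⟯).injective
    have hsep : Algebra.IsSeparable
        (AlgebraicClosure ℚ)⟮(x : ↥(modularFunctionFieldBar (M * q)))⟯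
        ↥(modularFunctionFieldBar (M * q)) := Algebra.IsSeparable.of_integral _ _
    exact S34P_Hyp_of_isCart (S34PX_same M q hq hqM A hgen) x y hC
  exact key (S34PX_j M q hq hqM A hgen) rfl y hC

/-- **the lattice count** for `O₁ ∩ O₂ ⊂ F_{M q}`. -/
theorem S34PX_count (hcart : S34PX_Cart M q hq hqM A hgen)
    (V : Submodule (AlgebraicClosure ℚ) ↥(modularFunctionFieldBar (M * q)))
    (hV : FiniteDimensional (AlgebraicClosure ℚ) V) :
    Module.finrank (IsLocalRing.ResidueField A)
      (S34P_redSub (S34PX_S1 M q A hgen) (S34PX_S2 M q hq hqM A hgen)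
        (S34PX_same M q hq hqM A hgen) V) = Module.finrank (AlgebraicClosure ℚ) V := by
  obtain ⟨n, y, hC⟩ := hcart
  have := S34P_count_of_isCart (S34PX_same M q hq hqM A hgen) hC V hV
  rw [S34P_lat_redSub] at this
  exact this

end X0

section Counts

variable {M q : ℕ} [NeZero M] [NeZero (M * q)] {hq : q.Prime} {hqM : ¬ q ∣ M}
  {A : ValuationSubring (AlgebraicClosure ℚ)}
  {hgen : PrincipalGeneratedByIntegral A (IsLocalRing.residue A) (M * q)}

/-- `j̄` has a pole. -/
theorem S34PX_pole (hA : A.LiesOverPrime q) :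
    0 < (RR_poleDiv (S34VF_hk M A hq hA hqM).principal
      (S18_jbar (M * q) (IsLocalRing.ResidueField A))).degree := by
  have h := S34VF_hdeg M A hq hA hqM (S34VF_hk M A hq hA hqM).principal
    (S34VF_hk M A hq hA hqM).principal (S18_hRR (M * q)).principal
  rw [S34VD_poleDiv_pow_degree, S34VD_deg_jB] at h
  have hψ : 0 < dedekindPsi (M * q) := Fermat.Agent.GalRep.GRHF_dedekindPsi_pos (M * q)
  have hq0 : (0 : ℤ) ≤ (q : ℤ) := Int.natCast_nonneg q
  by_contra hcon
  have h0 : (RR_poleDiv (S34VF_hk M A hq hA hqM).principal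
      (S18_jbar (M * q) (IsLocalRing.ResidueField A))).degree ≤ 0 := not_lt.mp hcon
  have h1 := mul_nonpos_of_nonneg_of_nonpos hq0 h0
  have h2 : (0 : ℤ) < (dedekindPsi (M * q) : ℤ) := by exact_mod_cast hψ
  omega

/-- **POLE-4, concrete (untwisted chain)**: `finrank R̄(m) = finrank W(m) + s` for `m ≥ m₀`,
`s = g(F_{M q}) + 1 − 2 g(F̄)`. -/
theorem S34PX_chain_count (hA : A.LiesOverPrime q) (hcart : S34PX_Cart M q hq hqM A hgen) :
    ∃ s m₀ : ℕ, (s : ℤ) = (RR_genus (AlgebraicClosure ℚ) ↥(modularFunctionFieldBar (M * q)) : ℤ)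
        + 1 - 2 * RR_genus (IsLocalRing.ResidueField A)
          ↥(modularFunctionFieldFullC (IsLocalRing.ResidueField A) (M * q)) ∧
      ∀ m, m₀ ≤ m →
        Module.finrank (IsLocalRing.ResidueField A)
          (S34S_Rf (S34VF_hk M A hq hA hqM).principal
            (S18_jbar (M * q) (IsLocalRing.ResidueField A)) q m) =
        Module.finrank (IsLocalRing.ResidueField A)
          (S34P_Wf (S34PX_same M q hq hqM A hgen) (S18_hRR (M * q)).principal
            (S34PX_j M q hq hqM A hgen) m) + s := by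
  have hk := S34VF_hk M A hq hA hqM
  have h1 := S34PX_red_j_fst M q hq hqM A hgen
  have h2 := S34PX_red_j_snd M q hq hqM A hgen hA
  have hd₁ := S34PX_pole (M := M) (hq := hq) (hqM := hqM) hA
  have hq0 : 0 < q := hq.pos
  obtain ⟨s, m₀, hs, hc⟩ := S34P_chain_count (S34PX_hyp hcart)
    (fun V hV => S34PX_count hcart V hV) (S18_hRR (M * q)) hk hk
    (by rw [h1]; exact hd₁)
    (by
      rw [h2, S34VD_poleDiv_pow_degree]
      have : (0 : ℤ) < (q : ℤ) := by exact_mod_cast hq0
      exact mul_pos this hd₁)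
    (by rw [h1, h2]; exact S34VF_hdeg M A hq hA hqM hk.principal hk.principal _)
  refine ⟨s, m₀, by rw [hs]; ring, fun m hm => ?_⟩
  have := hc m hm
  rw [h1, h2] at this
  exact this

/-- **the chain of the chart `U`, concrete**, from SAT's `hα`, `hξ`. -/
theorem S34PX_chain (hA : A.LiesOverPrime q) (hcart : S34PX_Cart M q hq hqM A hgen)
    (hα : ∃ r₀ : ℕ, ∀ m, r₀ ≤ m →
      ∀ u ∈ riemannRochSpace (m • RR_poleDiv (S34VF_hk M A hq hA hqM).principal
          (S18_jbar (M * q) (IsLocalRing.ResidueField A))),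
        ∃ v : ↥(modularFunctionFieldFullC (IsLocalRing.ResidueField A) (M * q)),
          (u, v) ∈ S34P_Wf (S34PX_same M q hq hqM A hgen) (S18_hRR (M * q)).principal
            (S34PX_j M q hq hqM A hgen) m)
    (hξ : ∃ C t₀ : ℕ, ∀ a t : ℕ, t₀ ≤ t → C * (t + 1) ≤ a →
      ∀ g ∈ riemannRochSpace ((q * (t + 1)) • RR_poleDiv (S34VF_hk M A hq hA hqM).principal
          (S18_jbar (M * q) (IsLocalRing.ResidueField A))),
        ((0 : ↥(modularFunctionFieldFullC (IsLocalRing.ResidueField A) (M * q))),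
          (S18_jbar (M * q) (IsLocalRing.ResidueField A) ^ (q ^ 2) -
            S18_jbar (M * q) (IsLocalRing.ResidueField A)) ^ a * g) ∈
          S34P_Wf (S34PX_same M q hq hqM A hgen) (S18_hRR (M * q)).principal
            (S34PX_j M q hq hqM A hgen) (a * q + t + 1)) :
    ∃ s m₀ : ℕ, (s : ℤ) = (RR_genus (AlgebraicClosure ℚ) ↥(modularFunctionFieldBar (M * q)) : ℤ)
        + 1 - 2 * RR_genus (IsLocalRing.ResidueField A)
          ↥(modularFunctionFieldFullC (IsLocalRing.ResidueField A) (M * q)) ∧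
      S34S_Chain (S34P_Wf (S34PX_same M q hq hqM A hgen) (S18_hRR (M * q)).principal
          (S34PX_j M q hq hqM A hgen))
        (S34S_Rf (S34VF_hk M A hq hA hqM).principal
          (S18_jbar (M * q) (IsLocalRing.ResidueField A)) q) s m₀ := by
  have hk := S34VF_hk M A hq hA hqM
  have h1 := S34PX_red_j_fst M q hq hqM A hgen
  have h2 := S34PX_red_j_snd M q hq hqM A hgen hA
  have hd₁ := S34PX_pole (M := M) (hq := hq) (hqM := hqM) hA
  have hpole : ∃ v : Place (IsLocalRing.ResidueField A)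
      ↥(modularFunctionFieldFullC (IsLocalRing.ResidueField A) (M * q)),
      v.ord (S18_jbar (M * q) (IsLocalRing.ResidueField A)) < 0 := by
    by_contra hno
    simp only [not_exists, not_lt] at hno
    have h0 : RR_poleDiv hk.principal (S18_jbar (M * q) (IsLocalRing.ResidueField A)) = 0 := by
      ext v
      rw [RR_poleDiv_apply, Finsupp.zero_apply]
      exact max_eq_right (by have := hno v; omega)
    rw [h0, map_zero] at hd₁
    exact lt_irrefl _ hd₁
  have key := S34P_chain_frob (S34PX_hyp hcart) (fun V hV => S34PX_count hcart V hV)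
    (S18_hRR (M * q)) hk q hq.two_le (by rw [h1, h2]) (by rw [h1]; exact hpole)
    (by rw [h1]; exact S34VF_hdeg M A hq hA hqM hk.principal hk.principal _)
    (by rw [h1]; exact hα) (by rw [h1]; exact hξ)
  rw [h1] at key
  exact key

/-! ### The second pole set `D₀ = zeros of j − c` and the twisted grid -/

/-- `z = j − c`, `c ∈ A`. -/
def S34PX_z (M q : ℕ) [NeZero (M * q)] (hq : q.Prime) (hqM : ¬ q ∣ M)
    (A : ValuationSubring (AlgebraicClosure ℚ))
    (hgen : PrincipalGeneratedByIntegral A (IsLocalRing.residue A) (M * q)) (c : A) :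
    S34P_O2 (S34PX_S1 M q A hgen) (S34PX_S2 M q hq hqM A hgen) :=
  S34PX_j M q hq hqM A hgen -
    ⟨algebraMap (AlgebraicClosure ℚ) ↥(modularFunctionFieldBar (M * q)) c,
      S34P_const_mem (S34PX_same M q hq hqM A hgen) c⟩

theorem S34PX_z_coe (c : A) :
    ((S34PX_z M q hq hqM A hgen c : S34P_O2 (S34PX_S1 M q A hgen) (S34PX_S2 M q hq hqM A hgen)) :
      ↥(modularFunctionFieldBar (M * q))) =
      jB (M * q) - algebraMap (AlgebraicClosure ℚ) ↥(modularFunctionFieldBar (M * q)) c := rfl

theorem S34PX_red_z (hA : A.LiesOverPrime q) (c : A) :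
    S34P_red (S34PX_S1 M q A hgen) (S34PX_S2 M q hq hqM A hgen) (S34PX_z M q hq hqM A hgen c) =
      (S18_jbar (M * q) (IsLocalRing.ResidueField A) -
          algebraMap (IsLocalRing.ResidueField A)
            ↥(modularFunctionFieldFullC (IsLocalRing.ResidueField A) (M * q))
            (IsLocalRing.residue A c),
        S18_jbar (M * q) (IsLocalRing.ResidueField A) ^ q -
          algebraMap (IsLocalRing.ResidueField A)
            ↥(modularFunctionFieldFullC (IsLocalRing.ResidueField A) (M * q))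
            (IsLocalRing.residue A c)) := by
  unfold S34PX_z
  rw [map_sub, S34P_red_const (S34PX_same M q hq hqM A hgen) c]
  apply Prod.ext
  · rw [Prod.fst_sub, S34PX_red_j_fst]
    rfl
  · rw [Prod.snd_sub, S34PX_red_j_snd M q hq hqM A hgen hA]
    rfl

omit [NeZero M] in
theorem S34PX_sub_const_ne (n : ℕ) (hn : 0 < n) (γ : IsLocalRing.ResidueField A) :
    S18_jbar (M * q) (IsLocalRing.ResidueField A) ^ n -
      algebraMap (IsLocalRing.ResidueField A)
        ↥(modularFunctionFieldFullC (IsLocalRing.ResidueField A) (M * q)) γ ≠ 0 := by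
  intro h0
  have ht := S34VF_transcendental M A (q := q)
  apply ht
  refine ⟨Polynomial.X ^ n - Polynomial.C γ, ?_, ?_⟩
  · intro h
    have := congrArg Polynomial.natDegree h
    rw [Polynomial.natDegree_X_pow_sub_C, Polynomial.natDegree_zero] at this
    omega
  · rw [map_sub, map_pow, Polynomial.aeval_X, Polynomial.aeval_C]
    exact h0

/-- **twisted pole control, concrete**: `W^y(E(a,b)) ⊂ R̄(Ē(a,b))`. -/
theorem S34PX_le_twist (hA : A.LiesOverPrime q) (hcart : S34PX_Cart M q hq hqM A hgen) (c : A)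
    (u : S34P_O2 (S34PX_S1 M q A hgen) (S34PX_S2 M q hq hqM A hgen))
    (hu : S34P_red (S34PX_S1 M q A hgen) (S34PX_S2 M q hq hqM A hgen) u = 1)
    {n : ℕ} (hn : 0 < n)
    (D : Divisor (AlgebraicClosure ℚ) ↥(modularFunctionFieldBar (M * q)))
    (hD : n • D = RR_div (S18_hRR (M * q)).principal
      (u : ↥(modularFunctionFieldBar (M * q)))) (a b : ℕ) :
    S34P_redSub (S34PX_S1 M q A hgen) (S34PX_S2 M q hq hqM A hgen)
        (S34PX_same M q hq hqM A hgen)
        (riemannRochSpace (S34P_E (S18_hRR (M * q)).principal (jB (M * q))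
          (jB (M * q) - algebraMap (AlgebraicClosure ℚ) ↥(modularFunctionFieldBar (M * q)) c)
          a b + D)) ≤
      S34P_Rbar (S34VF_hk M A hq hA hqM).principal (S34VF_hk M A hq hA hqM).principal
        (S18_jbar (M * q) (IsLocalRing.ResidueField A))
        (S18_jbar (M * q) (IsLocalRing.ResidueField A) -
          algebraMap (IsLocalRing.ResidueField A)
            ↥(modularFunctionFieldFullC (IsLocalRing.ResidueField A) (M * q))
            (IsLocalRing.residue A c))
        (S18_jbar (M * q) (IsLocalRing.ResidueField A) ^ q)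
        (S18_jbar (M * q) (IsLocalRing.ResidueField A) ^ q -
          algebraMap (IsLocalRing.ResidueField A)
            ↥(modularFunctionFieldFullC (IsLocalRing.ResidueField A) (M * q))
            (IsLocalRing.residue A c)) a b := by
  have hk := S34VF_hk M A hq hA hqM
  have h1 := S34PX_red_j_fst M q hq hqM A hgen
  have h2 := S34PX_red_j_snd M q hq hqM A hgen hA
  have hz := S34PX_red_z (M := M) (hq := hq) (hqM := hqM) (hgen := hgen) hA c
  have hz₁ : (S34P_red (S34PX_S1 M q A hgen) (S34PX_S2 M q hq hqM A hgen)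
      (S34PX_z M q hq hqM A hgen c)).1 ≠ 0 := by
    rw [hz]
    have := S34PX_sub_const_ne (M := M) (q := q) (A := A) 1 one_pos (IsLocalRing.residue A c)
    rwa [pow_one] at this
  have hz₂ : (S34P_red (S34PX_S1 M q A hgen) (S34PX_S2 M q hq hqM A hgen)
      (S34PX_z M q hq hqM A hgen c)).2 ≠ 0 := by
    rw [hz]
    exact S34PX_sub_const_ne (M := M) (q := q) (A := A) q hq.pos (IsLocalRing.residue A c)
  have key := S34P_redSub_le_twist (S34PX_hyp hcart) (S18_hRR (M * q)).principal
    hk.principal hk.principal (S34PX_z M q hq hqM A hgen c) u hz₁ hz₂ hu hn D hD a b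
  rw [hz, h1, h2] at key
  exact key

/-- **POLE-4, concrete (twisted grid)**: the codimension of `W^y(E(a,b))` in `R̄(Ē(a,b))` is
`g(F_{M q}) + 1 − 2 g(F̄)` for `a + b ≥ m₀`. -/
theorem S34PX_twist_count (hA : A.LiesOverPrime q) (hcart : S34PX_Cart M q hq hqM A hgen)
    (z : ↥(modularFunctionFieldBar (M * q)))
    (z₁ z₂ : ↥(modularFunctionFieldFullC (IsLocalRing.ResidueField A) (M * q)))
    (D : Divisor (AlgebraicClosure ℚ) ↥(modularFunctionFieldBar (M * q)))
    (hD : D.degree = 0) :
    ∃ m₀ : ℕ, ∀ a b : ℕ, m₀ ≤ a + b →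
      (Module.finrank (IsLocalRing.ResidueField A)
        (S34P_Rbar (S34VF_hk M A hq hA hqM).principal (S34VF_hk M A hq hA hqM).principal
          (S18_jbar (M * q) (IsLocalRing.ResidueField A)) z₁
          (S18_jbar (M * q) (IsLocalRing.ResidueField A) ^ q) z₂ a b) : ℤ) =
      Module.finrank (IsLocalRing.ResidueField A)
        (S34P_redSub (S34PX_S1 M q A hgen) (S34PX_S2 M q hq hqM A hgen)
          (S34PX_same M q hq hqM A hgen)
          (riemannRochSpace (S34P_E (S18_hRR (M * q)).principal (jB (M * q)) z a b + D))) +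
        ((RR_genus (AlgebraicClosure ℚ) ↥(modularFunctionFieldBar (M * q)) : ℤ) + 1 -
          2 * RR_genus (IsLocalRing.ResidueField A)
            ↥(modularFunctionFieldFullC (IsLocalRing.ResidueField A) (M * q))) := by
  have hk := S34VF_hk M A hq hA hqM
  have hd₁ := S34PX_pole (M := M) (hq := hq) (hqM := hqM) hA
  have hcount' : ∀ V : Submodule (AlgebraicClosure ℚ) ↥(modularFunctionFieldBar (M * q)),
      FiniteDimensional (AlgebraicClosure ℚ) V →
      Module.finrank (IsLocalRing.ResidueField A)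
        ((S34P_lat (S34PX_same M q hq hqM A hgen)).redSub V) =
          Module.finrank (AlgebraicClosure ℚ) V := by
    intro V hV
    rw [S34P_lat_redSub]
    exact S34PX_count hcart V hV
  obtain ⟨m₀, hm₀⟩ := S34P_codim (S34P_lat (S34PX_same M q hq hqM A hgen)) hcount'
    (S18_hRR (M * q)) hk hk (jB (M * q)) z
    (S18_jbar (M * q) (IsLocalRing.ResidueField A)) z₁
    (S18_jbar (M * q) (IsLocalRing.ResidueField A) ^ q) z₂ D hD hd₁
    (by
      rw [S34VD_poleDiv_pow_degree]
      have : (0 : ℤ) < (q : ℤ) := by exact_mod_cast hq.pos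
      exact mul_pos this hd₁)
    (S34VF_hdeg M A hq hA hqM hk.principal hk.principal _)
  refine ⟨m₀, fun a b hab => ?_⟩
  have := hm₀ a b hab
  rw [S34P_lat_redSub] at this
  rw [this]
  ring

end Counts

end Fermat.Agent.S34
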