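import Mathlib
import Fermat.Agent.S34.FibreIso
import Fermat.Agent.S34.ValAB
import Fermat.Agent.S34.OntoM
import Fermat.Agent.S34.SatPoleX0
import Fermat.Agent.S34.SatU

/-!
# TRACK 7 (S34 + S35), package SAT (helper9): the two families on the concrete objects

Level `M * q`, `q` prime, `q ∤ M`, `A` a place of `ℚ̄` above `q`, `k` its residue field,
`lat = S34DF_lat M q hq hqM A` the two-valuation lattice datum of `F = F_{M q}`
(`O = O₁ ∩ O₂`, `red f = (red₁ f, red₁ (w_q f))`), `j̄ = S18_jbar (M * q) k`.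

* `S34SI_halpha` : for `m ≫ 0` every `u ∈ L(m (j̄)_∞)` is the first component of the reduction of
  some `f ∈ O ∩ L(m (j)_∞)`   (`f = α^* f₀`, ONTO at level `M`);
* `S34SI_hxi` : for `t ≫ 0`, `a ≥ C (t + 1)` and `g ∈ L(q (t + 1) (j̄)_∞)` the pair
  `(0, (j̄ ^ (q ^ 2) - j̄) ^ a g)` is the reduction of some `f ∈ O ∩ L((a q + t + 1) (j)_∞)`
  (`f = (j ^ q - j_q) ^ a · β^* f₀`).

These are the inputs `hα`, `hξ` of `S34S_lc` / `S34S_chainU` / `S34P_chain_frob`.
Prefix `S34SI_`.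
-/

set_option autoImplicit false
set_option synthInstance.maxHeartbeats 400000
set_option maxHeartbeats 1000000
set_option linter.unusedSectionVars false
set_option linter.unusedVariables false
set_option linter.style.haveILetI false

open HahnSeries IntermediateField AlgebraicCurve ModularCurve

noncomputable section

namespace Fermat.Agent.S34

open Fermat.Agent.Lib Fermat.Agent.S24 Fermat.Agent.S18

variable (M q : ℕ) [NeZero M] [NeZero q] [NeZero (M * q)] (hq : q.Prime) (hqM : ¬ q ∣ M)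
  (A : ValuationSubring (AlgebraicClosure ℚ))

include hq hqM in
/-- ONTO at level `M`, transported to the fibre field of level `M q`: every
`u ∈ L(m (j̄)_∞) ⊂ F̄_{M q}` (`m ≫ 0`) is the reduction of some `f₀ ∈ O_M ∩ L(m (j)_∞)`. -/
theorem S34SI_onto (hA : A.LiesOverPrime q)
    (hkN : HasPrincipalDivisors (IsLocalRing.ResidueField A)
      ↥(modularFunctionFieldFullC (IsLocalRing.ResidueField A) (M * q)))
    (hPM : HasPrincipalDivisors (AlgebraicClosure ℚ) ↥(modularFunctionFieldBar M)) :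
    ∃ r₀ : ℕ, ∀ m, r₀ ≤ m →
      ∀ u ∈ riemannRochSpace (m • RR_poleDiv hkN (S18_jbar (M * q) (IsLocalRing.ResidueField A))),
        ∃ (f₀ : ↥(modularFunctionFieldBar M)) (hf₀ : f₀ ∈ S18_O A M),
          f₀ ∈ riemannRochSpace (m • RR_poleDiv hPM (jB M)) ∧
          ((S18_red A M ⟨f₀, hf₀⟩ : ↥(modularFunctionFieldFullC (IsLocalRing.ResidueField A) M)) :
            LaurentSeries (IsLocalRing.ResidueField A)) =
          (u : LaurentSeries (IsLocalRing.ResidueField A)) := by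
  haveI : Fact q.Prime := ⟨hq⟩
  haveI : CharP (IsLocalRing.ResidueField A) q := S18_residue_charP A q hq hA
  have hgenM := RIG_hgen M A hq hA hqM
  obtain ⟨m₀, hm₀⟩ := S34OM_onto_rr M A hgenM hq hqM hA
  refine ⟨m₀, fun m hm u hu => ?_⟩
  have hE := S34FI_full_eq (IsLocalRing.ResidueField A) q M
  have hu' := (S34FI_mem_RR hE hkN (S18_hk M A hq hA hqM).principal
    (S18_jbar (M * q) (IsLocalRing.ResidueField A)) u m).2 hu
  have hcj : S34FI_cast hE (S18_jbar (M * q) (IsLocalRing.ResidueField A)) =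
      (AX_G M A hgenM).toVal.red (RIF_j M A hgenM) := by
    have h1 : (AX_G M A hgenM).toVal.red (RIF_j M A hgenM) =
        S18_jbar M (IsLocalRing.ResidueField A) := DG_jbarN_eq M A hgenM
    rw [h1]
    rfl
  rw [hcj] at hu'
  obtain ⟨f, hf, hfu⟩ := hm₀ m hm _ hu'
  refine ⟨(f : ↥(modularFunctionFieldBar M)), f.2, hf, ?_⟩
  have := congrArg (fun z : ↥(modularFunctionFieldFullC (IsLocalRing.ResidueField A) M) =>
    (z : LaurentSeries (IsLocalRing.ResidueField A))) hfu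
  exact this

/-- **(hα)** on the concrete lattice datum. -/
theorem S34SI_halpha (hA : A.LiesOverPrime q)
    (hkN : HasPrincipalDivisors (IsLocalRing.ResidueField A)
      ↥(modularFunctionFieldFullC (IsLocalRing.ResidueField A) (M * q)))
    (hPN : HasPrincipalDivisors (AlgebraicClosure ℚ) ↥(modularFunctionFieldBar (M * q))) :
    ∃ r₀ : ℕ, ∀ m, r₀ ≤ m →
      ∀ u ∈ riemannRochSpace (m • RR_poleDiv hkN (S18_jbar (M * q) (IsLocalRing.ResidueField A))),
        ∃ f : (S34DF_lat M q hq hqM A).O,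
          (f : ↥(modularFunctionFieldBar (M * q))) ∈
            riemannRochSpace (m • RR_poleDiv hPN (jB (M * q))) ∧
          ((S34DF_lat M q hq hqM A).red f).1 = u := by
  obtain ⟨r₀, h⟩ := S34SI_onto M q hq hqM A hA hkN (S18_hRR M).principal
  refine ⟨r₀, fun m hm u hu => ?_⟩
  obtain ⟨f₀, hf₀, hfL, hfr⟩ := h m hm u hu
  refine ⟨⟨_, S34VW_alpha_mem_lat q hq hqM A hf₀⟩, ?_, ?_⟩
  · exact S34SP_alpha_mem M q (S18_hRR M).principal hPN m hfL
  · apply Subtype.ext
    rw [(S34VW_lat_red_alpha q hq hqM A hf₀).1]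
    exact hfr

/-- the reduction of `X̃ = j ^ q - j_q`: `(0, j̄ ^ (q ^ 2) - j̄)`. -/
theorem S34SI_red_X (hA : A.LiesOverPrime q) :
    ∃ hX : jB (M * q) ^ q - S34SP_jq M q ∈ (S34DF_lat M q hq hqM A).O,
      (S34DF_lat M q hq hqM A).red ⟨_, hX⟩ =
        ((0 : ↥(modularFunctionFieldFullC (IsLocalRing.ResidueField A) (M * q))),
          S18_jbar (M * q) (IsLocalRing.ResidueField A) ^ (q ^ 2) -
            S18_jbar (M * q) (IsLocalRing.ResidueField A)) := by
  haveI : NeZero (q * 1) := ⟨by rw [mul_one]; exact hq.ne_zero⟩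
  have hjq : S34SP_jq M q = S34DF_wq M q hq hqM (jB (M * q)) := by
    rw [S34VW_wq_jB M q hq hqM]
    apply Subtype.ext
    simp only [S34SP_jq, jBar, mul_one]
  have hu : jB (M * q) ^ q - S34SP_jq M q = S34VW_u M q hq hqM := by
    rw [S34VW_u, hjq]
  have hmem : S34VW_u M q hq hqM ∈ (S34DF_lat M q hq hqM A).O :=
    ⟨S34VW_u_mem M q hq hqM A, S34VW_wq_u_mem M q hq hqM A⟩
  refine ⟨hu ▸ hmem, ?_⟩
  have e : (⟨jB (M * q) ^ q - S34SP_jq M q, hu ▸ hmem⟩ : (S34DF_lat M q hq hqM A).O) =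
      ⟨S34VW_u M q hq hqM, hmem⟩ := Subtype.ext hu
  rw [e, S34DF_lat_red]
  apply Prod.ext
  · exact S34VW_red_u M q hq hqM A hA
  · apply Subtype.ext
    show ((S18_red A (M * q) ⟨S34DF_wq M q hq hqM (S34VW_u M q hq hqM), _⟩ :
      ↥(modularFunctionFieldFullC (IsLocalRing.ResidueField A) (M * q))) :
        LaurentSeries (IsLocalRing.ResidueField A)) = _
    have e2 : (⟨S34DF_wq M q hq hqM (S34VW_u M q hq hqM), S34VW_wq_u_mem M q hq hqM A⟩ :
        S18_O A (M * q)) =
        (⟨S34DF_wq M q hq hqM (jB (M * q)), S34VW_wq_jB_mem M q hq hqM A⟩ : S18_O A (M * q)) ^ q -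
          ⟨jB (M * q), S34VW_jB_mem M q A⟩ := Subtype.ext (S34VW_wq_u M q hq hqM)
    rw [e2, map_sub, map_pow]
    simp only [AddSubgroupClass.coe_sub, SubmonoidClass.coe_pow]
    rw [S34VW_red_wq_jB M q hq hqM A hA, S34VW_red_jB M q A, ← pow_mul, ← pow_two]
    rfl

/-- **(hξ)** on the concrete lattice datum. -/
theorem S34SI_hxi (hA : A.LiesOverPrime q)
    (hkN : HasPrincipalDivisors (IsLocalRing.ResidueField A)
      ↥(modularFunctionFieldFullC (IsLocalRing.ResidueField A) (M * q)))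
    (hPN : HasPrincipalDivisors (AlgebraicClosure ℚ) ↥(modularFunctionFieldBar (M * q))) :
    ∃ C t₀ : ℕ, ∀ a t : ℕ, t₀ ≤ t → C * (t + 1) ≤ a →
      ∀ g ∈ riemannRochSpace ((q * (t + 1)) •
          RR_poleDiv hkN (S18_jbar (M * q) (IsLocalRing.ResidueField A))),
        ∃ f : (S34DF_lat M q hq hqM A).O,
          (f : ↥(modularFunctionFieldBar (M * q))) ∈
            riemannRochSpace ((a * q + t + 1) • RR_poleDiv hPN (jB (M * q))) ∧
          (S34DF_lat M q hq hqM A).red f =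
            ((0 : ↥(modularFunctionFieldFullC (IsLocalRing.ResidueField A) (M * q))),
              (S18_jbar (M * q) (IsLocalRing.ResidueField A) ^ (q ^ 2) -
                S18_jbar (M * q) (IsLocalRing.ResidueField A)) ^ a * g) := by
  obtain ⟨r₀, honto⟩ := S34SI_onto M q hq hqM A hA hkN (S18_hRR M).principal
  obtain ⟨C, hC⟩ := S34SP_Xa_beta_mem M q hq (S18_hRR M).principal hPN
  obtain ⟨hX, hXr⟩ := S34SI_red_X M q hq hqM A hA
  refine ⟨C + 1, r₀, fun a t ht hCa g hg => ?_⟩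
  have hq0 : 0 < q := hq.pos
  have hr : r₀ ≤ q * (t + 1) :=
    calc r₀ ≤ t := ht
      _ ≤ t + 1 := Nat.le_succ t
      _ = 1 * (t + 1) := (one_mul _).symm
      _ ≤ q * (t + 1) := Nat.mul_le_mul_right _ hq0
  have ha1 : 1 ≤ a := by
    have : (C + 1) * (t + 1) ≤ a := hCa
    nlinarith
  have hCa' : C * (t + 1) ≤ a := by
    have : (C + 1) * (t + 1) ≤ a := hCa
    nlinarith
  obtain ⟨f₀, hf₀, hfL, hfr⟩ := honto _ hr g hg
  have hβ := S34VW_beta_mem_lat q hq hqM A hf₀
  set X : (S34DF_lat M q hq hqM A).O := ⟨_, hX⟩ with hXdef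
  set B : (S34DF_lat M q hq hqM A).O := ⟨_, hβ⟩ with hBdef
  refine ⟨X ^ a * B, hC a t hCa' f₀ hfL, ?_⟩
  rw [map_mul, map_pow, hXr]
  have hB2 : ((S34DF_lat M q hq hqM A).red B).2 = g := by
    apply Subtype.ext
    rw [(S34VW_lat_red_beta q hq hqM A hf₀).2]
    exact hfr
  apply Prod.ext
  · simp only [Prod.fst_mul, Prod.pow_fst]
    rw [zero_pow (by omega), zero_mul]
  · simp only [Prod.snd_mul, Prod.pow_snd]
    rw [hB2]

end Fermat.Agent.S34
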