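import Mathlib
import Fermat.Agent.S34.SatInst
import Fermat.Agent.S34.PoleX0

/-!
# TRACK 7 (S34 + S35), sub-target G0 (helper9): the CHAIN of the chart `U` on the canonical pair

Canonical objects (captain's ruling 6 = helper2's `PoleX0.lean`): level `M * q`, `A` above `q`,
`hgen : PrincipalGeneratedByIntegral A (residue A) (M * q)`,
`S₁ = S34PX_S1`, `S₂ = S34PX_S2`, `x = S34PX_j` (`= jB (M * q)`), `x̄₁ = j̄`, `x̄₂ = j̄ ^ q`.

* `S34SI_red_eq` : `S34P_red S₁ S₂ f = (S34DF_lat M q hq hqM A).red f` (by definition);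
* `S34SI_halpha_X0`, `S34SI_hxi_X0` : `hα`, `hξ` exactly as `S34PX_chain` / `S34P_chain_frob`
  want them (UNCONDITIONAL);
* `S34SI_chain_X0` : **the chain** `S34S_Chain Wf Rf s m₀`, `s = g(F_{M q}) + 1 - 2 g(F̄)`, with
  the ONLY hypothesis `S34PX_Cart` (CART2-X0) besides `hgen`, `hA`;
* `S34SI_chain_fun` : the same in the form used by `S34HX_hex` / `S34S_chainU`.
-/

set_option autoImplicit false
set_option synthInstance.maxHeartbeats 400000
set_option maxHeartbeats 1000000
set_option linter.unusedSectionVars false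
set_option linter.unusedVariables false
set_option linter.style.haveILetI false

open HahnSeries IntermediateField AlgebraicCurve ModularCurve

noncomputable section

namespace Fermat.Agent.S34

open Fermat.Agent.Lib Fermat.Agent.S24 Fermat.Agent.S18

variable (M q : ℕ) [NeZero M] [NeZero q] [NeZero (M * q)] (hq : q.Prime) (hqM : ¬ q ∣ M)
  (A : ValuationSubring (AlgebraicClosure ℚ))
  (hgen : PrincipalGeneratedByIntegral A (IsLocalRing.residue A) (M * q))

theorem S34SI_mem_O2 {f : ↥(modularFunctionFieldBar (M * q))} :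
    f ∈ S34P_O2 (S34PX_S1 M q A hgen) (S34PX_S2 M q hq hqM A hgen) ↔
      f ∈ (S34DF_lat M q hq hqM A).O := Iff.rfl

/-- the reduction of the pair is the reduction of the lattice datum. -/
theorem S34SI_red_eq (f : S34P_O2 (S34PX_S1 M q A hgen) (S34PX_S2 M q hq hqM A hgen)) :
    S34P_red (S34PX_S1 M q A hgen) (S34PX_S2 M q hq hqM A hgen) f =
      (S34DF_lat M q hq hqM A).red ⟨f, (S34SI_mem_O2 M q hq hqM A hgen).1 f.2⟩ := rfl

/-- an element of the unit ball of the lattice datum, as an element of `O₁ ∩ O₂` of the pair. -/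
def S34SI_toPair (f : (S34DF_lat M q hq hqM A).O) :
    S34P_O2 (S34PX_S1 M q A hgen) (S34PX_S2 M q hq hqM A hgen) :=
  ⟨f.1, (S34SI_mem_O2 M q hq hqM A hgen).2 f.2⟩

theorem S34SI_toPair_coe (f : (S34DF_lat M q hq hqM A).O) :
    ((S34SI_toPair M q hq hqM A hgen f :
      S34P_O2 (S34PX_S1 M q A hgen) (S34PX_S2 M q hq hqM A hgen)) :
        ↥(modularFunctionFieldBar (M * q))) = (f : ↥(modularFunctionFieldBar (M * q))) := rfl

theorem S34SI_red_toPair (f : (S34DF_lat M q hq hqM A).O) :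
    S34P_red (S34PX_S1 M q A hgen) (S34PX_S2 M q hq hqM A hgen)
      (S34SI_toPair M q hq hqM A hgen f) = (S34DF_lat M q hq hqM A).red f := rfl

/-- **(hα)** in the form of `S34PX_chain`. -/
theorem S34SI_halpha_X0 (hA : A.LiesOverPrime q)
    (hkN : HasPrincipalDivisors (IsLocalRing.ResidueField A)
      ↥(modularFunctionFieldFullC (IsLocalRing.ResidueField A) (M * q)))
    (hPN : HasPrincipalDivisors (AlgebraicClosure ℚ) ↥(modularFunctionFieldBar (M * q))) :
    ∃ r₀ : ℕ, ∀ m, r₀ ≤ m →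
      ∀ u ∈ riemannRochSpace (m • RR_poleDiv hkN (S18_jbar (M * q) (IsLocalRing.ResidueField A))),
        ∃ v : ↥(modularFunctionFieldFullC (IsLocalRing.ResidueField A) (M * q)),
          (u, v) ∈ S34P_Wf (S34PX_same M q hq hqM A hgen) hPN (S34PX_j M q hq hqM A hgen) m := by
  obtain ⟨r₀, h⟩ := S34SI_halpha M q hq hqM A hA hkN hPN
  refine ⟨r₀, fun m hm u hu => ?_⟩
  obtain ⟨f, hf, hfu⟩ := h m hm u hu
  refine ⟨((S34DF_lat M q hq hqM A).red f).2, S34SI_toPair M q hq hqM A hgen f, hf, ?_⟩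
  rw [S34SI_red_toPair]
  exact Prod.ext hfu rfl

/-- **(hξ)** in the form of `S34PX_chain`. -/
theorem S34SI_hxi_X0 (hA : A.LiesOverPrime q)
    (hkN : HasPrincipalDivisors (IsLocalRing.ResidueField A)
      ↥(modularFunctionFieldFullC (IsLocalRing.ResidueField A) (M * q)))
    (hPN : HasPrincipalDivisors (AlgebraicClosure ℚ) ↥(modularFunctionFieldBar (M * q))) :
    ∃ C t₀ : ℕ, ∀ a t : ℕ, t₀ ≤ t → C * (t + 1) ≤ a →
      ∀ g ∈ riemannRochSpace ((q * (t + 1)) •
          RR_poleDiv hkN (S18_jbar (M * q) (IsLocalRing.ResidueField A))),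
        ((0 : ↥(modularFunctionFieldFullC (IsLocalRing.ResidueField A) (M * q))),
          (S18_jbar (M * q) (IsLocalRing.ResidueField A) ^ (q ^ 2) -
            S18_jbar (M * q) (IsLocalRing.ResidueField A)) ^ a * g) ∈
          S34P_Wf (S34PX_same M q hq hqM A hgen) hPN (S34PX_j M q hq hqM A hgen)
            (a * q + t + 1) := by
  obtain ⟨C, t₀, h⟩ := S34SI_hxi M q hq hqM A hA hkN hPN
  refine ⟨C, t₀, fun a t ht hCa g hg => ?_⟩
  obtain ⟨f, hf, hfu⟩ := h a t ht hCa g hg
  refine ⟨S34SI_toPair M q hq hqM A hgen f, hf, ?_⟩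
  rw [S34SI_red_toPair]
  exact hfu

/-- **G0: the chain of the chart `U` on the canonical pair**; ONLY input `S34PX_Cart`
(CART2-X0). -/
theorem S34SI_chain_X0 (hA : A.LiesOverPrime q) (hcart : S34PX_Cart M q hq hqM A hgen) :
    ∃ s m₀ : ℕ, (s : ℤ) = (RR_genus (AlgebraicClosure ℚ) ↥(modularFunctionFieldBar (M * q)) : ℤ)
        + 1 - 2 * RR_genus (IsLocalRing.ResidueField A)
          ↥(modularFunctionFieldFullC (IsLocalRing.ResidueField A) (M * q)) ∧
      S34S_Chain (S34P_Wf (S34PX_same M q hq hqM A hgen) (S18_hRR (M * q)).principal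
          (S34PX_j M q hq hqM A hgen))
        (S34S_Rf (S34VF_hk M A hq hA hqM).principal
          (S18_jbar (M * q) (IsLocalRing.ResidueField A)) q) s m₀ :=
  S34PX_chain hA hcart
    (S34SI_halpha_X0 M q hq hqM A hgen hA (S34VF_hk M A hq hA hqM).principal
      (S18_hRR (M * q)).principal)
    (S34SI_hxi_X0 M q hq hqM A hgen hA (S34VF_hk M A hq hA hqM).principal
      (S18_hRR (M * q)).principal)

/-- **G0 in the form of `S34HX_hex`**: for ANY `RR_Hyp`'s `hF`, `h₁`, `h₂` and any `x₁`, `x₂`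
with `red j = (x₁, x₂)`. -/
theorem S34SI_chain_fun (hA : A.LiesOverPrime q) (hcart : S34PX_Cart M q hq hqM A hgen)
    (hF : RR_Hyp (AlgebraicClosure ℚ) ↥(modularFunctionFieldBar (M * q)))
    (h₁ h₂ : RR_Hyp (IsLocalRing.ResidueField A)
      ↥(modularFunctionFieldFullC (IsLocalRing.ResidueField A) (M * q)))
    (x₁ x₂ : ↥(modularFunctionFieldFullC (IsLocalRing.ResidueField A) (M * q)))
    (hred : S34P_red (S34PX_S1 M q A hgen) (S34PX_S2 M q hq hqM A hgen)
      (S34PX_j M q hq hqM A hgen) = (x₁, x₂)) :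
    ∃ s m₀ : ℕ, (s : ℤ) = (RR_genus (AlgebraicClosure ℚ) ↥(modularFunctionFieldBar (M * q)) : ℤ)
        + 1 - 2 * RR_genus (IsLocalRing.ResidueField A)
          ↥(modularFunctionFieldFullC (IsLocalRing.ResidueField A) (M * q)) ∧
      S34S_Chain
        (fun m => S34P_redSub (S34PX_S1 M q A hgen) (S34PX_S2 M q hq hqM A hgen)
          (S34PX_same M q hq hqM A hgen) (riemannRochSpace (m • RR_poleDiv hF.principal
            ((S34PX_j M q hq hqM A hgen : S34P_O2 (S34PX_S1 M q A hgen)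
              (S34PX_S2 M q hq hqM A hgen)) : ↥(modularFunctionFieldBar (M * q))))))
        (fun m => (riemannRochSpace (m • RR_poleDiv h₁.principal x₁)).prod
          (riemannRochSpace (m • RR_poleDiv h₂.principal x₂))) s m₀ := by
  have h1 : x₁ = S18_jbar (M * q) (IsLocalRing.ResidueField A) := by
    rw [← S34PX_red_j_fst M q hq hqM A hgen, hred]
  have h2 : x₂ = S18_jbar (M * q) (IsLocalRing.ResidueField A) ^ q := by
    rw [← S34PX_red_j_snd M q hq hqM A hgen hA, hred]
  subst h1 h2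
  exact S34SI_chain_X0 M q hq hqM A hgen hA hcart

end Fermat.Agent.S34
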