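import Mathlib
import Fermat.Agent.S18.LiftMore
import Fermat.Agent.S34.Lat
import Fermat.Agent.S34.ApproxVal

/-!
# TRACK 7 (S34 + S35), package CART2 (helper5), part 1: numeric criterion for a cartesian chart
# of a PAIR of valuations

Built on helper4's `S34L_Lat` / `S34L_ofPair` (`S34/Lat.lean`) and helper15's approximation
lemma (`S34/ApproxVal.lean`).

* `S34CB_isCart_of_indep` : port of `S18_Val.IsCart.of_indep` to `S34L_Lat`:
  `[F : L(x)] ≤ n`, `y : Fin n → O` with reductions independent over `k[red x]` ⇒ `IsCart x y`;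
* `S34CB_red_surjective_pair` : for two INCOMPARABLE valuation rings the joint reduction
  `(red₁, red₂) : O₁ ∩ O₂ → Fk₁ × Fk₂` is onto;
* `S34CB_exists_isCart_pair` : **fundamental equality ⇒ cartesian chart**: if `red₁ x`, `red₂ x`
  are transcendental and `[F : L(x)] ≤ n₁ + n₂` with `n_i ≤ [Fk_i : k(red_i x)]`, then there is
  `y : Fin (n₁ + n₂) → O₁ ∩ O₂` with `(S34L_ofPair S₁ S₂ hA hres).IsCart x y`.
-/

set_option autoImplicit false

open Polynomial IntermediateField

namespace Fermat.Agent.S34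

open Fermat.Agent.S18

section Abstract

variable {L F k R : Type*} [Field L] [Field F] [Algebra L F] [Field k] [CommRing R]
  [Algebra k R]

variable {S : S34L_Lat L F k R}

/-- the family `x^j y_i` has independent reductions (from the independence over `k[red x]`). -/
theorem S34CB_linearIndependent_cartFam_of_indep {x : S.O} {n : ℕ} {y : Fin n → S.O}
    (hind : ∀ p : Fin n → k[X], ∑ i, aeval (S.red x) (p i) * S.red (y i) = 0 → ∀ i, p i = 0)
    (m : ℕ) : LinearIndependent k (fun ij => S.red (S34L_Lat.cartFam x y m ij)) := by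
  classical
  rw [Fintype.linearIndependent_iff]
  intro γ hγ ij₀
  have h1 : ∑ i, aeval (S.red x) (∑ j : Fin m, C (γ (i, j)) * X ^ (j : ℕ)) * S.red (y i) = 0 := by
    rw [← hγ, Fintype.sum_prod_type]
    refine Finset.sum_congr rfl fun i _ => ?_
    rw [map_sum, Finset.sum_mul]
    refine Finset.sum_congr rfl fun j _ => ?_
    simp only [S34L_Lat.cartFam, map_mul, aeval_C, map_pow, aeval_X, Algebra.smul_def]
    ring
  have h2 := hind _ h1 ij₀.1
  have h3 := congrArg (fun p => p.coeff (ij₀.2 : ℕ)) h2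
  simp only [finsetSum_coeff, coeff_C_mul, coeff_X_pow, coeff_zero] at h3
  rw [Finset.sum_eq_single ij₀.2] at h3
  · simpa using h3
  · intro j _ hj
    have : ((ij₀.2 : Fin m) : ℕ) ≠ (j : ℕ) := fun h => hj (Fin.ext h.symm)
    simp [this]
  · intro h
    exact absurd (Finset.mem_univ _) h

/-- polynomial relations between the `y_i` are trivial. -/
theorem S34CB_eq_zero_of_sum_aeval_eq_zero {x : S.O} {n : ℕ} {y : Fin n → S.O}
    (hind : ∀ p : Fin n → k[X], ∑ i, aeval (S.red x) (p i) * S.red (y i) = 0 → ∀ i, p i = 0)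
    (P : Fin n → L[X]) (hP : ∑ i, aeval (x : F) (P i) * (y i : F) = 0) : ∀ i, P i = 0 := by
  classical
  set m : ℕ := (Finset.univ.sup fun i => (P i).natDegree) + 1 with hm
  have hPm : ∀ i, (P i).natDegree < m := fun i => by
    rw [hm, Nat.lt_succ_iff]
    exact Finset.le_sup (f := fun i => (P i).natDegree) (Finset.mem_univ i)
  have hLI := S.linearIndependent_of_red (S34L_Lat.cartFam x y m)
    (S34CB_linearIndependent_cartFam_of_indep hind m)
  rw [Fintype.linearIndependent_iff] at hLI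
  have h1 : ∑ ij : Fin n × Fin m,
      (P ij.1).coeff ij.2 • ((S34L_Lat.cartFam x y m ij : S.O) : F) = 0 := by
    rw [← hP, Fintype.sum_prod_type]
    refine Finset.sum_congr rfl fun i _ => ?_
    rw [aeval_eq_sum_range' (hPm i), Finset.sum_range, Finset.sum_mul]
    refine Finset.sum_congr rfl fun j _ => ?_
    simp only [S34L_Lat.cartFam, Algebra.smul_def]
    push_cast
    ring
  have h2 := hLI (fun ij => (P ij.1).coeff ij.2) h1
  intro i
  ext j
  rw [coeff_zero]
  by_cases hj : j < m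
  · exact h2 (i, ⟨j, hj⟩)
  · exact coeff_eq_zero_of_natDegree_lt (lt_of_lt_of_le (hPm i) (not_lt.mp hj))

/-- **numeric degree preservation ⇒ `IsCart`**, with prescribed reductions
(port of `S18_Val.IsCart.of_indep`). -/
theorem S34CB_isCart_of_indep (S : S34L_Lat L F k R) (x : S.O)
    (hx : ∀ p : k[X], p ≠ 0 → IsUnit (aeval (S.red x) p))
    {n : ℕ} [FiniteDimensional L⟮(x : F)⟯ F] (hn : Module.finrank L⟮(x : F)⟯ F ≤ n)
    (y : Fin n → S.O)
    (hind : ∀ p : Fin n → k[X], ∑ i, aeval (S.red x) (p i) * S.red (y i) = 0 → ∀ i, p i = 0) :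
    S.IsCart x y := by
  classical
  refine ⟨hx, ?_, hind⟩
  -- the `y i` are independent over `L(x)`
  have hrepr : ∀ g : L⟮(x : F)⟯, ∃ P Q : L[X], aeval (x : F) Q ≠ 0 ∧
      (g : F) = aeval (x : F) P / aeval (x : F) Q := by
    intro g
    obtain ⟨P, Q, hPQ⟩ := (mem_adjoin_simple_iff L (g : F)).mp g.2
    by_cases hQ : aeval (x : F) Q = 0
    · refine ⟨0, 1, by simp, ?_⟩
      rw [hPQ, hQ, div_zero, map_zero, zero_div]
    · exact ⟨P, Q, hQ, hPQ⟩
  have hLI : LinearIndependent L⟮(x : F)⟯ (fun i => (y i : F)) := by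
    rw [Fintype.linearIndependent_iff]
    intro g hg
    choose P Q hQ hPQ using fun i => hrepr (g i)
    have h1 : ∑ i, aeval (x : F) (P i * ∏ j ∈ Finset.univ.erase i, Q j) * (y i : F) = 0 := by
      have h2 : ∀ i, aeval (x : F) (P i * ∏ j ∈ Finset.univ.erase i, Q j) * (y i : F) =
          aeval (x : F) (∏ j, Q j) * (g i • (y i : F)) := by
        intro i
        rw [← Finset.mul_prod_erase Finset.univ Q (Finset.mem_univ i), map_mul, map_mul,
          IntermediateField.smul_def, smul_eq_mul, hPQ i]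
        field_simp [hQ i]
      rw [Finset.sum_congr rfl fun i _ => h2 i, ← Finset.mul_sum, hg, mul_zero]
    have h3 := S34CB_eq_zero_of_sum_aeval_eq_zero hind _ h1
    intro i
    have h4 : P i = 0 := by
      rcases mul_eq_zero.mp (h3 i) with h | h
      · exact h
      · exfalso
        rw [Finset.prod_eq_zero_iff] at h
        obtain ⟨j, -, hj⟩ := h
        exact hQ j (by rw [hj, map_zero])
    apply Subtype.ext
    rw [hPQ i, h4, map_zero, zero_div]
    rfl
  have hcard : Fintype.card (Fin n) = Module.finrank L⟮(x : F)⟯ F := by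
    refine le_antisymm ?_ (by simpa using hn)
    exact hLI.fintype_card_le_finrank
  have hspan := hLI.span_eq_top_of_card_eq_finrank' hcard
  intro f
  have hf : f ∈ Submodule.span L⟮(x : F)⟯ (Set.range fun i => (y i : F)) := by
    rw [hspan]; trivial
  rw [Submodule.mem_span_range_iff_exists_fun] at hf
  obtain ⟨g, hg⟩ := hf
  choose P Q hQ hPQ using fun i => hrepr (g i)
  refine ⟨∏ j, Q j, fun i => P i * ∏ j ∈ Finset.univ.erase i, Q j, ?_, ?_⟩
  · rw [Finset.prod_ne_zero_iff]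
    intro j _ hj
    exact hQ j (by rw [hj, map_zero])
  · rw [← hg, Finset.mul_sum]
    refine Finset.sum_congr rfl fun i _ => ?_
    rw [← Finset.mul_prod_erase Finset.univ Q (Finset.mem_univ i), map_mul, map_mul,
      IntermediateField.smul_def, smul_eq_mul, hPQ i]
    field_simp [hQ i]

end Abstract

section Pair

variable {L F k Fk₁ Fk₂ : Type*} [Field L] [Field F] [Algebra L F] [Field k]
  [Field Fk₁] [Algebra k Fk₁] [Field Fk₂] [Algebra k Fk₂]

/-- `red x = 0` iff `valuation x < 1`, for a valued function field. -/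
theorem S34CB_red_eq_zero_iff_val (S : S18_Val L F k Fk₁) (x : S.O) :
    S.red x = 0 ↔ S.O.valuation (x : F) < 1 := by
  rw [S.red_eq_zero_iff]
  constructor
  · intro h
    by_contra hcon
    apply h
    have h1 : S.O.valuation (x : F) = 1 :=
      le_antisymm ((ValuationSubring.valuation_le_one_iff S.O (x : F)).2 x.2) (not_lt.1 hcon)
    exact (ValuationSubring.valuation_eq_one_iff S.O x).2 h1
  · intro h hu
    have h1 : S.O.valuation (x : F) = 1 := (ValuationSubring.valuation_eq_one_iff S.O x).1 hu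
    rw [h1] at h
    exact lt_irrefl _ h

/-- two elements of `O` whose difference has valuation `< 1` have the same reduction. -/
theorem S34CB_red_eq_of_val_sub_lt (S : S18_Val L F k Fk₁) (f x : S.O)
    (h : S.O.valuation ((f : F) - (x : F)) < 1) : S.red f = S.red x := by
  have h1 : S.red (f - x) = 0 := (S34CB_red_eq_zero_iff_val S (f - x)).2 (by simpa using h)
  rw [map_sub, sub_eq_zero] at h1
  exact h1

variable (S₁ : S18_Val L F k Fk₁) (S₂ : S18_Val L F k Fk₂) (hA : S₁.A = S₂.A)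
  (hres : ∀ (a : L) (h₁ : a ∈ S₁.A) (h₂ : a ∈ S₂.A), S₁.res ⟨a, h₁⟩ = S₂.res ⟨a, h₂⟩)

/-- **approximation**: for incomparable valuation rings the joint reduction
`O₁ ∩ O₂ → Fk₁ × Fk₂` is onto. -/
theorem S34CB_red_surjective_pair (h12 : ¬ S₁.O ≤ S₂.O) (h21 : ¬ S₂.O ≤ S₁.O) :
    Function.Surjective (S34L_ofPair S₁ S₂ hA hres).red := by
  rintro ⟨a, b⟩
  obtain ⟨x₁, hx₁⟩ := S₁.red_surjective a
  obtain ⟨x₂, hx₂⟩ := S₂.red_surjective b
  obtain ⟨f, hf1, hf2, h1, h2⟩ := S34AP_exists_approx_val S₁.O S₂.O h12 h21 (x₁ : F) (x₂ : F)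
    ((ValuationSubring.valuation_le_one_iff S₁.O _).2 x₁.2)
    ((ValuationSubring.valuation_le_one_iff S₂.O _).2 x₂.2)
  have hfO1 : f ∈ S₁.O := (ValuationSubring.valuation_le_one_iff S₁.O f).1 hf1
  have hfO2 : f ∈ S₂.O := (ValuationSubring.valuation_le_one_iff S₂.O f).1 hf2
  refine ⟨⟨f, hfO1, hfO2⟩, ?_⟩
  rw [S34L_ofPair_red]
  refine Prod.ext ?_ ?_
  · show S₁.red ⟨f, hfO1⟩ = a
    rw [← hx₁]
    exact S34CB_red_eq_of_val_sub_lt S₁ ⟨f, hfO1⟩ x₁ h1
  · show S₂.red ⟨f, hfO2⟩ = b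
    rw [← hx₂]
    exact S34CB_red_eq_of_val_sub_lt S₂ ⟨f, hfO2⟩ x₂ h2

/-- evaluation of a polynomial at a pair. -/
theorem S34CB_aeval_pair (a : Fk₁) (b : Fk₂) (p : k[X]) :
    aeval ((a, b) : Fk₁ × Fk₂) p = (aeval a p, aeval b p) := by
  refine Prod.ext ?_ ?_
  · have := Polynomial.aeval_algHom_apply (AlgHom.fst k Fk₁ Fk₂) ((a, b) : Fk₁ × Fk₂) p
    simpa using this.symm
  · have := Polynomial.aeval_algHom_apply (AlgHom.snd k Fk₁ Fk₂) ((a, b) : Fk₁ × Fk₂) p
    simpa using this.symm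

/-- a `k(a)`-independent family is independent over `k[a]` in the polynomial form. -/
theorem S34CB_indep_of_linearIndependent {E : Type*} [Field E] [Algebra k E] {a : E}
    (ha : Transcendental k a) {n : ℕ} {w : Fin n → E} (hw : LinearIndependent k⟮a⟯ w)
    (p : Fin n → k[X]) (hp : ∑ i, aeval a (p i) * w i = 0) : ∀ i, p i = 0 := by
  classical
  rw [Fintype.linearIndependent_iff] at hw
  have h1 : ∀ q : k[X], aeval a q ∈ k⟮a⟯ := by
    intro q
    have : aeval a q ∈ Algebra.adjoin k {a} := by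
      rw [Algebra.adjoin_singleton_eq_range_aeval]
      exact ⟨q, rfl⟩
    exact algebra_adjoin_le_adjoin k _ this
  have h2 := hw (fun i => ⟨aeval a (p i), h1 _⟩) (by
    rw [← hp]
    refine Finset.sum_congr rfl fun i _ => ?_
    rw [IntermediateField.smul_def, smul_eq_mul])
  intro i
  have h3 := congrArg (fun z : k⟮a⟯ => (z : E)) (h2 i)
  exact (transcendental_iff.mp ha) _ h3

/-- **fundamental equality ⇒ cartesian chart for a pair of valuations.**
`x ∈ O₁ ∩ O₂` with both reductions transcendental, `O₁`, `O₂` incomparable,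
`[F : L(x)] ≤ n₁ + n₂`, `n_i ≤ [Fk_i : k(red_i x)]`.  Then `F / L(x)` has a basis in `O₁ ∩ O₂`
whose joint reductions are independent over `k[red x]`. -/
theorem S34CB_exists_isCart_pair (h12 : ¬ S₁.O ≤ S₂.O) (h21 : ¬ S₂.O ≤ S₁.O)
    (x : (S34L_ofPair S₁ S₂ hA hres).O)
    (hx₁ : Transcendental k (S₁.red ⟨x.1, x.2.1⟩))
    (hx₂ : Transcendental k (S₂.red ⟨x.1, x.2.2⟩))
    (n₁ n₂ : ℕ) [FiniteDimensional L⟮(x : F)⟯ F]
    (hn : Module.finrank L⟮(x : F)⟯ F ≤ n₁ + n₂)
    (hn₁ : n₁ ≤ Module.finrank k⟮S₁.red ⟨x.1, x.2.1⟩⟯ Fk₁)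
    (hn₂ : n₂ ≤ Module.finrank k⟮S₂.red ⟨x.1, x.2.2⟩⟯ Fk₂) :
    ∃ y : Fin (n₁ + n₂) → (S34L_ofPair S₁ S₂ hA hres).O,
      (S34L_ofPair S₁ S₂ hA hres).IsCart x y := by
  classical
  obtain ⟨w₁, hw₁⟩ := exists_linearIndependent_of_le_finrank hn₁
  obtain ⟨w₂, hw₂⟩ := exists_linearIndependent_of_le_finrank hn₂
  -- the joint family in `Fk₁ × Fk₂`
  set wbar : Fin (n₁ + n₂) → Fk₁ × Fk₂ :=
    Fin.append (fun i => ((w₁ i, 0) : Fk₁ × Fk₂)) (fun j => ((0, w₂ j) : Fk₁ × Fk₂)) with hwbar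
  choose y hy using fun i => S34CB_red_surjective_pair S₁ S₂ hA hres h12 h21 (wbar i)
  have hunit : ∀ p : k[X], p ≠ 0 →
      IsUnit (aeval ((S34L_ofPair S₁ S₂ hA hres).red x) p) := by
    intro p hp
    rw [S34L_ofPair_red]
    exact S34L_isUnit_aeval_pair hx₁ hx₂ p hp
  refine ⟨y, S34CB_isCart_of_indep (S34L_ofPair S₁ S₂ hA hres) x hunit hn y ?_⟩
  intro p hp
  simp only [hy] at hp
  rw [S34L_ofPair_red] at hp
  simp only [S34CB_aeval_pair] at hp
  rw [Fin.sum_univ_add] at hp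
  simp only [hwbar, Fin.append_left, Fin.append_right, Prod.mk_mul_mk, mul_zero] at hp
  have hp1 := congrArg Prod.fst hp
  have hp2 := congrArg Prod.snd hp
  simp only [Prod.fst_add, Prod.snd_add, Prod.fst_sum, Prod.snd_sum, Finset.sum_const_zero,
    add_zero, zero_add, Prod.fst_zero, Prod.snd_zero] at hp1 hp2
  have k1 := S34CB_indep_of_linearIndependent hx₁ hw₁ (fun i => p (Fin.castAdd n₂ i)) hp1
  have k2 := S34CB_indep_of_linearIndependent hx₂ hw₂ (fun j => p (Fin.natAdd n₁ j)) hp2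
  intro i
  refine Fin.addCases (fun i => ?_) (fun j => ?_) i
  · exact k1 i
  · exact k2 j

end Pair

end Fermat.Agent.S34
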