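import Mathlib
import Fermat.Agent.S34.Cart2

/-!
# TRACK 7 (S34 + S35), package CART2 (helper5), part 2: the Frobenius-twisted pair

The situation of `F_N`, `N = q M`: two valuations `V₁`, `V₂ = V₁ ∘ w_q` with the SAME residue field
`Fk = F̄_M`, a chart `x = j` with `red₁ x = t` and `red₂ x = t ^ q` (`t = j̄`).

* `S34CB_exists_isCart_pair_of_fam` : variant of `S34CB_exists_isCart_pair` with prescribed
  reductions (families independent over `k[red_i x]` in the polynomial form);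
* `S34CB_expand_indep` : `∑_{l < q} P_l(X^q) X^l = 0 ⇒ P_l = 0`;
* `S34CB_frob_indep` : if `w_i` is independent over `k[t]` then `t^l w_i` (`l < q`) is independent
  over `k[t^q]`;
* `S34CB_exists_isCart_frob` : **the cartesian chart of a Frobenius-twisted pair**:
  `[F : L(x)] ≤ (q + 1)·m`, `m = [Fk : k(t)]` ⇒ `∃ y, IsCart x y`.
-/

set_option autoImplicit false

open Polynomial IntermediateField

namespace Fermat.Agent.S34

open Fermat.Agent.S18

section Pair

variable {L F k Fk₁ Fk₂ : Type*} [Field L] [Field F] [Algebra L F] [Field k]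
  [Field Fk₁] [Algebra k Fk₁] [Field Fk₂] [Algebra k Fk₂]

variable (S₁ : S18_Val L F k Fk₁) (S₂ : S18_Val L F k Fk₂) (hA : S₁.A = S₂.A)
  (hres : ∀ (a : L) (h₁ : a ∈ S₁.A) (h₂ : a ∈ S₂.A), S₁.res ⟨a, h₁⟩ = S₂.res ⟨a, h₂⟩)

/-- **cartesian chart of a pair with prescribed reductions.** -/
theorem S34CB_exists_isCart_pair_of_fam (h12 : ¬ S₁.O ≤ S₂.O) (h21 : ¬ S₂.O ≤ S₁.O)
    (x : (S34L_ofPair S₁ S₂ hA hres).O)
    (hx₁ : Transcendental k (S₁.red ⟨x.1, x.2.1⟩))
    (hx₂ : Transcendental k (S₂.red ⟨x.1, x.2.2⟩))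
    (n₁ n₂ : ℕ) [FiniteDimensional L⟮(x : F)⟯ F]
    (hn : Module.finrank L⟮(x : F)⟯ F ≤ n₁ + n₂)
    (w₁ : Fin n₁ → Fk₁)
    (hw₁ : ∀ p : Fin n₁ → k[X],
      ∑ i, aeval (S₁.red ⟨x.1, x.2.1⟩) (p i) * w₁ i = 0 → ∀ i, p i = 0)
    (w₂ : Fin n₂ → Fk₂)
    (hw₂ : ∀ p : Fin n₂ → k[X],
      ∑ i, aeval (S₂.red ⟨x.1, x.2.2⟩) (p i) * w₂ i = 0 → ∀ i, p i = 0) :
    ∃ y : Fin (n₁ + n₂) → (S34L_ofPair S₁ S₂ hA hres).O,
      (S34L_ofPair S₁ S₂ hA hres).IsCart x y ∧
      (∀ i, (S34L_ofPair S₁ S₂ hA hres).red (y (Fin.castAdd n₂ i)) = (w₁ i, 0)) ∧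
      (∀ j, (S34L_ofPair S₁ S₂ hA hres).red (y (Fin.natAdd n₁ j)) = (0, w₂ j)) := by
  classical
  set wbar : Fin (n₁ + n₂) → Fk₁ × Fk₂ :=
    Fin.append (fun i => ((w₁ i, 0) : Fk₁ × Fk₂)) (fun j => ((0, w₂ j) : Fk₁ × Fk₂)) with hwbar
  choose y hy using fun i => S34CB_red_surjective_pair S₁ S₂ hA hres h12 h21 (wbar i)
  have hunit : ∀ p : k[X], p ≠ 0 →
      IsUnit (aeval ((S34L_ofPair S₁ S₂ hA hres).red x) p) := by
    intro p hp
    rw [S34L_ofPair_red]
    exact S34L_isUnit_aeval_pair hx₁ hx₂ p hp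
  refine ⟨y, S34CB_isCart_of_indep (S34L_ofPair S₁ S₂ hA hres) x hunit hn y ?_, ?_, ?_⟩
  · intro p hp
    simp only [hy] at hp
    rw [S34L_ofPair_red] at hp
    simp only [S34CB_aeval_pair] at hp
    rw [Fin.sum_univ_add] at hp
    simp only [hwbar, Fin.append_left, Fin.append_right, Prod.mk_mul_mk, mul_zero] at hp
    have hp1 := congrArg Prod.fst hp
    have hp2 := congrArg Prod.snd hp
    simp only [Prod.fst_add, Prod.snd_add, Prod.fst_sum, Prod.snd_sum, Finset.sum_const_zero,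
      add_zero, zero_add, Prod.fst_zero, Prod.snd_zero] at hp1 hp2
    have k1 := hw₁ (fun i => p (Fin.castAdd n₂ i)) hp1
    have k2 := hw₂ (fun j => p (Fin.natAdd n₁ j)) hp2
    intro i
    refine Fin.addCases (fun i => ?_) (fun j => ?_) i
    · exact k1 i
    · exact k2 j
  · intro i
    rw [hy, hwbar, Fin.append_left]
  · intro j
    rw [hy, hwbar, Fin.append_right]

end Pair

section Frob

variable {k : Type*} [Field k]

/-- `∑_{l < q} P_l(X^q) X^l = 0 ⇒ P_l = 0`. -/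
theorem S34CB_expand_indep {q : ℕ} (hq : 0 < q) (P : Fin q → k[X])
    (h : ∑ l : Fin q, expand k q (P l) * X ^ (l : ℕ) = 0) : ∀ l, P l = 0 := by
  classical
  intro l
  ext a
  have h1 := congrArg (fun f : k[X] => f.coeff (q * a + (l : ℕ))) h
  simp only [finsetSum_coeff, coeff_zero] at h1
  rw [Finset.sum_eq_single l] at h1
  · rw [coeff_mul_X_pow, mul_comm q a, coeff_expand_mul hq] at h1
    rw [h1, coeff_zero]
  · intro l' _ hl'
    rw [coeff_mul_X_pow']
    split_ifs with hle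
    · rw [coeff_expand hq]
      rw [if_neg]
      intro hdvd
      apply hl'
      -- `q ∣ q * a + l - l'` with `l' ≤ q * a + l`, `l, l' < q` forces `l = l'`
      have h2 : (q * a + (l : ℕ) - (l' : ℕ)) % q = 0 := Nat.mod_eq_zero_of_dvd hdvd
      have hl := l.2
      have hl'' := l'.2
      apply Fin.ext
      by_contra hne
      rcases Nat.lt_or_gt_of_ne hne with hlt | hgt
      · -- l' < l
        have h3 : q * a + (l : ℕ) - (l' : ℕ) = q * a + ((l : ℕ) - (l' : ℕ)) := by omega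
        rw [h3, Nat.mul_add_mod] at h2
        have h4 : ((l : ℕ) - (l' : ℕ)) % q = (l : ℕ) - (l' : ℕ) := Nat.mod_eq_of_lt (by omega)
        omega
      · -- l < l'
        have ha : 0 < a := by
          by_contra ha0
          have : a = 0 := by omega
          subst this
          omega
        obtain ⟨a', rfl⟩ : ∃ a', a = a' + 1 := ⟨a - 1, by omega⟩
        have h3 : q * (a' + 1) + (l : ℕ) - (l' : ℕ) = q * a' + (q + (l : ℕ) - (l' : ℕ)) := by
          rw [Nat.mul_succ]; omega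
        rw [h3, Nat.mul_add_mod] at h2
        have h4 : (q + (l : ℕ) - (l' : ℕ)) % q = q + (l : ℕ) - (l' : ℕ) :=
          Nat.mod_eq_of_lt (by omega)
        omega
    · rfl
  · intro hl
    exact absurd (Finset.mem_univ _) hl

variable {E : Type*} [Field E] [Algebra k E]

/-- if the `w_i` are independent over `k[t]` (polynomial form), then the `t^l w_i`, `l < q`, are
independent over `k[t^q]`. -/
theorem S34CB_frob_indep {q : ℕ} (hq : 0 < q) (t : E) {m : ℕ} (w : Fin m → E)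
    (hw : ∀ p : Fin m → k[X], ∑ i, aeval t (p i) * w i = 0 → ∀ i, p i = 0)
    (p : Fin m × Fin q → k[X])
    (hp : ∑ il : Fin m × Fin q, aeval (t ^ q) (p il) * (t ^ (il.2 : ℕ) * w il.1) = 0) :
    ∀ il, p il = 0 := by
  classical
  have h1 : ∑ i : Fin m, aeval t (∑ l : Fin q, expand k q (p (i, l)) * X ^ (l : ℕ)) * w i = 0 := by
    rw [← hp, Fintype.sum_prod_type]
    refine Finset.sum_congr rfl fun i _ => ?_
    rw [map_sum, Finset.sum_mul]
    refine Finset.sum_congr rfl fun l _ => ?_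
    rw [map_mul, expand_aeval, map_pow, aeval_X]
    ring
  have h2 := hw _ h1
  rintro ⟨i, l⟩
  exact S34CB_expand_indep hq (fun l => p (i, l)) (h2 i) l

end Frob

section FrobPair

variable {L F k Fk : Type*} [Field L] [Field F] [Algebra L F] [Field k]
  [Field Fk] [Algebra k Fk]

variable (S₁ : S18_Val L F k Fk) (S₂ : S18_Val L F k Fk) (hA : S₁.A = S₂.A)
  (hres : ∀ (a : L) (h₁ : a ∈ S₁.A) (h₂ : a ∈ S₂.A), S₁.res ⟨a, h₁⟩ = S₂.res ⟨a, h₂⟩)

/-- **the cartesian chart of a Frobenius-twisted pair.**  `red₁ x = t`, `red₂ x = t ^ q`,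
`m ≤ [Fk : k(t)]` and `[F : L(x)] ≤ m + m·q`.  Then there is a basis `y` of `F / L(x)` in
`O₁ ∩ O₂` whose joint reductions are independent over `k[(t, t^q)]`. -/
theorem S34CB_exists_isCart_frob (h12 : ¬ S₁.O ≤ S₂.O) (h21 : ¬ S₂.O ≤ S₁.O)
    (x : (S34L_ofPair S₁ S₂ hA hres).O) (t : Fk) (ht : Transcendental k t)
    {q : ℕ} (hq : 0 < q)
    (hx₁ : S₁.red ⟨x.1, x.2.1⟩ = t) (hx₂ : S₂.red ⟨x.1, x.2.2⟩ = t ^ q)
    (m : ℕ) (hm : m ≤ Module.finrank k⟮t⟯ Fk)
    [FiniteDimensional L⟮(x : F)⟯ F]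
    (hn : Module.finrank L⟮(x : F)⟯ F ≤ m + m * q) :
    ∃ y : Fin (m + m * q) → (S34L_ofPair S₁ S₂ hA hres).O,
      (S34L_ofPair S₁ S₂ hA hres).IsCart x y := by
  classical
  obtain ⟨w, hw⟩ := exists_linearIndependent_of_le_finrank hm
  have hwp : ∀ p : Fin m → k[X], ∑ i, aeval t (p i) * w i = 0 → ∀ i, p i = 0 :=
    S34CB_indep_of_linearIndependent ht hw
  have htq : Transcendental k (t ^ q) := ht.pow hq
  -- the second family, indexed by `Fin (m * q)`
  set e : Fin m × Fin q ≃ Fin (m * q) := finProdFinEquiv with he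
  set w₂ : Fin (m * q) → Fk := fun a => t ^ ((e.symm a).2 : ℕ) * w (e.symm a).1 with hw₂
  have hw₂p : ∀ p : Fin (m * q) → k[X],
      ∑ a, aeval (t ^ q) (p a) * w₂ a = 0 → ∀ a, p a = 0 := by
    intro p hp a
    have h1 : ∑ il : Fin m × Fin q,
        aeval (t ^ q) (p (e il)) * (t ^ (il.2 : ℕ) * w il.1) = 0 := by
      rw [← hp]
      refine Fintype.sum_equiv e _ _ fun il => ?_
      simp only [hw₂, Equiv.symm_apply_apply]
    have h2 := S34CB_frob_indep hq t w hwp (fun il => p (e il)) h1 (e.symm a)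
    simpa using h2
  obtain ⟨y, hy, -, -⟩ := S34CB_exists_isCart_pair_of_fam S₁ S₂ hA hres h12 h21 x
    (by rw [hx₁]; exact ht) (by rw [hx₂]; exact htq) m (m * q) hn w
    (by rw [hx₁]; exact hwp) w₂ (by rw [hx₂]; exact hw₂p)
  exact ⟨y, hy⟩

end FrobPair

end Fermat.Agent.S34
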