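import Mathlib
import Fermat.Agent.S34.PoleX0
import Fermat.Agent.S34.Cart2Frob
import Fermat.Agent.S34.ValFk
import Fermat.Agent.S20.PsiRec
import Fermat.Agent.S24.EvDegEq

/-!
# TRACK 7 (S34 + S35), CART2-X0 wiring (helper24, backup of helper5's `Cart2X0`), prefix `S34VW_`

`S34VW_cart : S34PX_Cart M q hq hqM A hgen` — the canonical pair `(V₁, V₂ = V₁ ∘ w_q)` of
`F_{Mq}` has a cartesian chart over `j`, from helper5's `S34CB_exists_isCart_frob`,
`S34VW_incomp`, `red j = (j̄, j̄^q)`, `[F̄ : k(j̄)] = ψ(M)` (helper20) and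
`[F_{Mq} : ℚ̄(j)] = ψ(Mq) = (q + 1) ψ(M)`.
-/

set_option autoImplicit false
set_option synthInstance.maxHeartbeats 400000
set_option maxHeartbeats 1000000
set_option linter.unusedSectionVars false
set_option linter.style.haveILetI false

open HahnSeries IntermediateField AlgebraicCurve ModularCurve

noncomputable section

namespace Fermat.Agent.S34

open Fermat.Agent.Lib Fermat.Agent.S18 Fermat.Agent.S24 Fermat.Agent.S20

variable (M q : ℕ) [NeZero M] [NeZero (M * q)] (hq : q.Prime) (hqM : ¬ q ∣ M)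
  (A : ValuationSubring (AlgebraicClosure ℚ))
  (hgen : PrincipalGeneratedByIntegral A (IsLocalRing.residue A) (M * q))

/-- **CART2-X0**: the cartesian chart of the canonical pair over `j`. -/
theorem S34VW_cart (hA : A.LiesOverPrime q) : S34PX_Cart M q hq hqM A hgen := by
  have hinc := S34VW_incomp M q hq hqM A hgen hA
  haveI hfd : FiniteDimensional
      (AlgebraicClosure ℚ)⟮((S34PX_j M q hq hqM A hgen :
        S34P_O2 (S34PX_S1 M q A hgen) (S34PX_S2 M q hq hqM A hgen)) :
          ↥(modularFunctionFieldBar (M * q)))⟯ ↥(modularFunctionFieldBar (M * q)) :=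
    finiteDimensional_jB (M * q)
  have hψ : dedekindPsi (M * q) = dedekindPsi M + dedekindPsi M * q := by
    rw [mul_comm M q, S20_dedekindPsi_prime_mul_of_not_dvd hq (NeZero.ne M) hqM]
    ring
  have hfin : Module.finrank
      (AlgebraicClosure ℚ)⟮((S34PX_j M q hq hqM A hgen :
        S34P_O2 (S34PX_S1 M q A hgen) (S34PX_S2 M q hq hqM A hgen)) :
          ↥(modularFunctionFieldBar (M * q)))⟯ ↥(modularFunctionFieldBar (M * q)) ≤
      dedekindPsi M + dedekindPsi M * q := by
    have h := finrank_eq_psi (M * q)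
    rw [hψ] at h
    exact h.le
  have hm : dedekindPsi M ≤ Module.finrank
      (IsLocalRing.ResidueField A)⟮S18_jbar (M * q) (IsLocalRing.ResidueField A)⟯
      ↥(modularFunctionFieldFullC (IsLocalRing.ResidueField A) (M * q)) :=
    (S34VF_finrank M A hq hA hqM).ge
  obtain ⟨y, hy⟩ := S34CB_exists_isCart_frob (S34PX_S1 M q A hgen) (S34PX_S2 M q hq hqM A hgen)
    (S34PX_same M q hq hqM A hgen).A_eq (S34PX_same M q hq hqM A hgen).res_eq
    hinc.1 hinc.2 (S34PX_j M q hq hqM A hgen)
    (S18_jbar (M * q) (IsLocalRing.ResidueField A)) (S34VF_transcendental M A) hq.pos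
    (S34PX_red_j_fst M q hq hqM A hgen) (S34PX_red_j_snd M q hq hqM A hgen hA)
    (dedekindPsi M) hm hfin
  exact ⟨_, y, hy⟩

end Fermat.Agent.S34
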