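import Mathlib
import Fermat.Agent.S34.SatX0
import Fermat.Agent.S34.ValCart

/-!
# TRACK 7 (S34 + S35), sub-target G0 (helper9): the chain of the chart `U`, FINAL form

`S34SI_chain_X0` (SatX0) fed with `S34VW_cart` (helper24, CART2-X0): the ONLY hypotheses left are
`hq`, `hqM`, `hA : A.LiesOverPrime q` and `hgen` (VAL-HGEN, F4).

* `S34SI_G0` : `∃ s m₀, s = g(F_{M q}) + 1 - 2 g(F̄) ∧ S34S_Chain Wf Rf s m₀` on the canonical pair;
* `S34SI_G0_fun` : the same in the form `hchain` of `S34HX_hex` / `S34HX_hex_Kum`.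
-/

set_option autoImplicit false
set_option synthInstance.maxHeartbeats 400000
set_option maxHeartbeats 1000000
set_option linter.unusedSectionVars false
set_option linter.unusedVariables false

open HahnSeries IntermediateField AlgebraicCurve ModularCurve

noncomputable section

namespace Fermat.Agent.S34

open Fermat.Agent.Lib Fermat.Agent.S24 Fermat.Agent.S18

variable (M q : ℕ) [NeZero M] [NeZero q] [NeZero (M * q)] (hq : q.Prime) (hqM : ¬ q ∣ M)
  (A : ValuationSubring (AlgebraicClosure ℚ))
  (hgen : PrincipalGeneratedByIntegral A (IsLocalRing.residue A) (M * q))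

/-- **G0, final**: the chain of the chart `U` on the canonical pair. -/
theorem S34SI_G0 (hA : A.LiesOverPrime q) :
    ∃ s m₀ : ℕ, (s : ℤ) = (RR_genus (AlgebraicClosure ℚ) ↥(modularFunctionFieldBar (M * q)) : ℤ)
        + 1 - 2 * RR_genus (IsLocalRing.ResidueField A)
          ↥(modularFunctionFieldFullC (IsLocalRing.ResidueField A) (M * q)) ∧
      S34S_Chain (S34P_Wf (S34PX_same M q hq hqM A hgen) (S18_hRR (M * q)).principal
          (S34PX_j M q hq hqM A hgen))
        (S34S_Rf (S34VF_hk M A hq hA hqM).principal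
          (S18_jbar (M * q) (IsLocalRing.ResidueField A)) q) s m₀ :=
  S34SI_chain_X0 M q hq hqM A hgen hA (S34VW_cart M q hq hqM A hgen hA)

/-- **G0, final, in the form of `S34HX_hex`**. -/
theorem S34SI_G0_fun (hA : A.LiesOverPrime q)
    (hF : RR_Hyp (AlgebraicClosure ℚ) ↥(modularFunctionFieldBar (M * q)))
    (h₁ h₂ : RR_Hyp (IsLocalRing.ResidueField A)
      ↥(modularFunctionFieldFullC (IsLocalRing.ResidueField A) (M * q)))
    (x₁ x₂ : ↥(modularFunctionFieldFullC (IsLocalRing.ResidueField A) (M * q)))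
    (hred : S34P_red (S34PX_S1 M q A hgen) (S34PX_S2 M q hq hqM A hgen)
      (S34PX_j M q hq hqM A hgen) = (x₁, x₂)) :
    ∃ s m₀ : ℕ, (s : ℤ) = (RR_genus (AlgebraicClosure ℚ) ↥(modularFunctionFieldBar (M * q)) : ℤ)
        + 1 - 2 * RR_genus (IsLocalRing.ResidueField A)
          ↥(modularFunctionFieldFullC (IsLocalRing.ResidueField A) (M * q)) ∧
      S34S_Chain
        (fun m => S34P_redSub (S34PX_S1 M q A hgen) (S34PX_S2 M q hq hqM A hgen)
          (S34PX_same M q hq hqM A hgen) (riemannRochSpace (m • RR_poleDiv hF.principal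
            ((S34PX_j M q hq hqM A hgen : S34P_O2 (S34PX_S1 M q A hgen)
              (S34PX_S2 M q hq hqM A hgen)) : ↥(modularFunctionFieldBar (M * q))))))
        (fun m => (riemannRochSpace (m • RR_poleDiv h₁.principal x₁)).prod
          (riemannRochSpace (m • RR_poleDiv h₂.principal x₂))) s m₀ :=
  S34SI_chain_fun M q hq hqM A hgen hA (S34VW_cart M q hq hqM A hgen hA) hF h₁ h₂ x₁ x₂ hred

end Fermat.Agent.S34
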