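import Mathlib
import Fermat.Agent.S34.Asm3
import Fermat.Agent.S34.SatG0
import Fermat.Agent.S34.Nodal

/-!
# TRACK 7 (S34 + S35), sub-target G1, piece "codim" (helper9): `(Rb₁ × Rb₂) ⧸ W¹` is
finite-dimensional on THE canonical chart `S34M_chart`

From the chain of the chart `U` (`S34SI_G0_fun`, SatG0) and (BRIDGE-U) `S34SB_one` (helper14).

* `S34NXF_xb` : `S34M_xb M q A = S18_jbar (M * q) k`;
* `S34NXF_red_j` : `S34P_red T₁ T₂ j = (S34M_xb, S34M_xb ^ q)` on the canonical pair;
* `S34NXF_chain` : the chain in the form of `S34SB_one` / `S34HX_hex` on `S34M_T1`, `S34M_T2`,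
  `S34M_same`, `x₁ = S34M_xb`, `x₂ = S34M_xb ^ q`;
* `S34NXF_codim` : `Module.Finite` and `finrank = s = g(F_{M q}) + 1 - 2 g(F̄)` for
  `(Rb₁ × Rb₂) ⧸ S34K_W hS (S34M_chart M q A n hn) 1`;
* `S34NXF_finite` : the instance argument of `S34N_nodal` for `C = S34M_chart M q A n hn`.
-/

set_option autoImplicit false
set_option synthInstance.maxHeartbeats 400000
set_option maxHeartbeats 1000000
set_option linter.unusedSectionVars false
set_option linter.unusedVariables false
set_option linter.style.haveILetI false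

open HahnSeries IntermediateField AlgebraicCurve ModularCurve

noncomputable section

namespace Fermat.Agent.S34

open Fermat.Agent.Lib Fermat.Agent.S24 Fermat.Agent.S18

variable (M q : ℕ) [NeZero (M * q)] (hq : q.Prime) (hqM : ¬ q ∣ M)
  (A : ValuationSubring (AlgebraicClosure ℚ))
  (hgen : PrincipalGeneratedByIntegral A (IsLocalRing.residue A) (M * q))

theorem S34NXF_xb : S34M_xb M q A = S18_jbar (M * q) (IsLocalRing.ResidueField A) :=
  Subtype.ext (S34VW_red_jB M q A)

/-- `red j = (x̄, x̄ ^ q)` with `x̄ = S34M_xb`. -/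
theorem S34NXF_red_j (hA : A.LiesOverPrime q) :
    S34P_red (S34PX_S1 M q A hgen) (S34PX_S2 M q hq hqM A hgen) (S34PX_j M q hq hqM A hgen) =
      (S34M_xb M q A, S34M_xb M q A ^ q) := by
  apply Prod.ext
  · rw [S34PX_red_j_fst, S34NXF_xb]
  · rw [S34PX_red_j_snd M q hq hqM A hgen hA, S34NXF_xb]

/-- the chain of the chart `U` for the pair `S34PX_S1`, `S34PX_S2` with `x₁ = S34M_xb`. -/
theorem S34NXF_chain (hA : A.LiesOverPrime q)
    (hF : RR_Hyp (AlgebraicClosure ℚ) ↥(modularFunctionFieldBar (M * q)))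
    (hk : RR_Hyp (IsLocalRing.ResidueField A)
      ↥(modularFunctionFieldFullC (IsLocalRing.ResidueField A) (M * q))) :
    ∃ s m₀ : ℕ, (s : ℤ) = (RR_genus (AlgebraicClosure ℚ) ↥(modularFunctionFieldBar (M * q)) : ℤ)
        + 1 - 2 * RR_genus (IsLocalRing.ResidueField A)
          ↥(modularFunctionFieldFullC (IsLocalRing.ResidueField A) (M * q)) ∧
      S34S_Chain
        (fun m => S34P_redSub (S34PX_S1 M q A hgen) (S34PX_S2 M q hq hqM A hgen)
          (S34PX_same M q hq hqM A hgen) (riemannRochSpace (m • RR_poleDiv hF.principal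
            (jB (M * q)))))
        (fun m => (riemannRochSpace (m • RR_poleDiv hk.principal (S34M_xb M q A))).prod
          (riemannRochSpace (m • RR_poleDiv hk.principal (S34M_xb M q A ^ q)))) s m₀ := by
  haveI : NeZero M := ⟨fun h => NeZero.ne (M * q) (by rw [h, zero_mul])⟩
  haveI : NeZero q := ⟨hq.ne_zero⟩
  exact S34SI_G0_fun M q hq hqM A hgen hA hF hk hk _ _ (S34NXF_red_j M q hq hqM A hgen hA)

/-- **codim `W¹ = s`** on the canonical chart. -/
theorem S34NXF_codim (hA : A.LiesOverPrime q) (n : ℕ) (hn : 0 < n) :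
    ∃ s : ℕ, (s : ℤ) = (RR_genus (AlgebraicClosure ℚ) ↥(modularFunctionFieldBar (M * q)) : ℤ)
        + 1 - 2 * RR_genus (IsLocalRing.ResidueField A)
          ↥(modularFunctionFieldFullC (IsLocalRing.ResidueField A) (M * q)) ∧
      Module.Finite (IsLocalRing.ResidueField A)
        ((↥(S34M_chart M q A n hn).Rb₁ × ↥(S34M_chart M q A n hn).Rb₂) ⧸
          S34K_W (S34M_same M q hq hqM A hgen) (S34M_chart M q A n hn) 1) ∧
      Module.finrank (IsLocalRing.ResidueField A)
        ((↥(S34M_chart M q A n hn).Rb₁ × ↥(S34M_chart M q A n hn).Rb₂) ⧸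
          S34K_W (S34M_same M q hq hqM A hgen) (S34M_chart M q A n hn) 1) = s := by
  haveI : NeZero M := ⟨fun h => NeZero.ne (M * q) (by rw [h, zero_mul])⟩
  have hF := S18_hRR (M * q)
  have hk := S34VF_hk M A hq hA hqM
  obtain ⟨s, m₀, hs, hchain⟩ := S34NXF_chain M q hq hqM A hgen hA hF hk
  have h := S34SB_one hF.principal hk.principal hk.principal (S34PX_same M q hq hqM A hgen)
    (jB (M * q)) (S34M_xb M q A) (S34M_xb M q A ^ q) hn s m₀ hchain
  exact ⟨s, hs, h.1, h.2⟩

/-- the `Module.Finite` argument of `S34N_nodal` for `C = S34M_chart M q A n hn`. -/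
theorem S34NXF_finite (hA : A.LiesOverPrime q) (n : ℕ) (hn : 0 < n) :
    Module.Finite (IsLocalRing.ResidueField A)
      ((↥(S34M_chart M q A n hn).Rb₁ × ↥(S34M_chart M q A n hn).Rb₂) ⧸
        Subalgebra.toSubmodule
          (S34N_W (S34M_same M q hq hqM A hgen) (S34M_chart M q A n hn))) := by
  rw [S34N_W_toSubmodule]
  obtain ⟨s, -, h, -⟩ := S34NXF_codim M q hq hqM A hgen hA n hn
  exact h

/-- `finrank` of the quotient in the form of `S34N_nodal`. -/
theorem S34NXF_finrank (hA : A.LiesOverPrime q) (n : ℕ) (hn : 0 < n) :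
    ((Module.finrank (IsLocalRing.ResidueField A)
      ((↥(S34M_chart M q A n hn).Rb₁ × ↥(S34M_chart M q A n hn).Rb₂) ⧸
        Subalgebra.toSubmodule
          (S34N_W (S34M_same M q hq hqM A hgen) (S34M_chart M q A n hn))) : ℕ) : ℤ) =
      (RR_genus (AlgebraicClosure ℚ) ↥(modularFunctionFieldBar (M * q)) : ℤ)
        + 1 - 2 * RR_genus (IsLocalRing.ResidueField A)
          ↥(modularFunctionFieldFullC (IsLocalRing.ResidueField A) (M * q)) := by
  rw [S34N_W_toSubmodule]
  obtain ⟨s, hs, -, h⟩ := S34NXF_codim M q hq hqM A hgen hA n hn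
  rw [h, hs]

end Fermat.Agent.S34
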