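import Mathlib
import Fermat.Agent.S34.Asm3
import Fermat.Agent.S34.ValFk
import Fermat.Agent.S34.NodalX0Defs

/-!
# TRACK 7 (S34 + S35), G1 backup, part (P3) (helper18): the coordinate rings of the canonical chart
are the images of the coordinate ring of level `M`

Level `M * q`, `A ∣ q`, `k = A / 𝔪`.  `F̄_{M q} = F̄_M` inside `k((t))` (`S34VF_FkN_res`).  For ANY
ring homomorphism `ι : F̄_M →+* F̄_{M q}` which is the identity on the underlying Laurent series
(`hι`), and `Rb₀ = S34SB_reg k (S18_jbar M k)` (functions of `F̄_M` regular off the poles of `j̄`):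

* `S34NXR_hR₁`, `S34NXR_hR₁'` : `ι (Rb₀) = (S34M_chart M q A n hn).Rb₁`;
* `S34NXR_hR₂`, `S34NXR_hR₂'` : `ι (Rb₀) = (S34M_chart M q A n hn).Rb₂`;
* `S34NXR_all` : the four together (the inputs `hR₁ hR₁' hR₂ hR₂'` of `S34N_nodal`,
  `ι₁ = ι₂ = ι`);
* `S34NXR_iota` : a concrete `ι` (the cast along `F̄_{M q} = F̄_M`) with `S34NXR_iota_coe`;
* **`S34NXR_RbSpec : S34NX_RbSpec M q A hq hA n hn`** — helper11's target (P3) of
  `S34/NodalX0Defs.lean` (`ι = S34NX_iota M q A hq hA`).

The proofs go through the generic `S34NXR_gen` (two EQUAL intermediate fields, `subst`), never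
through a definitional unfolding across the two levels.

Prefix `S34NXR_`.
-/

set_option autoImplicit false
set_option synthInstance.maxHeartbeats 400000
set_option maxHeartbeats 800000
set_option linter.unusedSectionVars false
set_option linter.unusedVariables false
set_option linter.style.haveILetI false

open HahnSeries IntermediateField AlgebraicCurve ModularCurve

noncomputable section

namespace Fermat.Agent.S34

open Fermat.Agent.Lib Fermat.Agent.S18 Fermat.Agent.S24

section generic

variable {k Ω : Type*} [Field k] [Field Ω] [Algebra k Ω]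

/-- **generic transport**: for two EQUAL intermediate fields and a ring homomorphism which is the
identity on the ambient field, `reg x₀` is carried ONTO `reg x` (`x = x₀` in the ambient field). -/
theorem S34NXR_gen (E₀ E : IntermediateField k Ω) (h : E₀ = E) (x₀ : ↥E₀) (x : ↥E)
    (hx : (x : Ω) = (x₀ : Ω)) (ι : ↥E₀ →+* ↥E) (hι : ∀ y : ↥E₀, ((ι y : ↥E) : Ω) = (y : Ω)) :
    (∀ a ∈ S34SB_reg k x, ∃ y ∈ (S34SB_reg k x₀ : Set ↥E₀), ι y = a) ∧
      (∀ y ∈ (S34SB_reg k x₀ : Set ↥E₀), ι y ∈ S34SB_reg k x) := by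
  subst h
  have hx' : x = x₀ := Subtype.ext hx
  subst hx'
  have hι' : ∀ y, ι y = y := fun y => Subtype.ext (hι y)
  refine ⟨fun a ha => ⟨a, ha, hι' a⟩, fun y hy => ?_⟩
  rw [hι' y]
  exact hy

/-- the cast along an equality of intermediate fields, as a ring homomorphism. -/
def S34NXR_castHom (E₀ E : IntermediateField k Ω) (h : E₀ = E) : ↥E₀ →+* ↥E :=
  ((IntermediateField.equivOfEq h : ↥E₀ ≃ₐ[k] ↥E) : ↥E₀ →+* ↥E)

theorem S34NXR_castHom_coe (E₀ E : IntermediateField k Ω) (h : E₀ = E) (y : ↥E₀) :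
    ((S34NXR_castHom E₀ E h y : ↥E) : Ω) = (y : Ω) := by
  subst h
  rfl

theorem S34NXR_castHom_algebraMap (E₀ E : IntermediateField k Ω) (h : E₀ = E) (c : k) :
    S34NXR_castHom E₀ E h (algebraMap k ↥E₀ c) = algebraMap k ↥E c := by
  subst h
  rfl

theorem S34NXR_castHom_bijective (E₀ E : IntermediateField k Ω) (h : E₀ = E) :
    Function.Bijective (S34NXR_castHom E₀ E h) := by
  subst h
  exact (IntermediateField.equivOfEq (rfl : E₀ = E₀)).bijective

end generic

section canon

variable (M q : ℕ) [NeZero M] [NeZero (M * q)] (hq : q.Prime)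
  (A : ValuationSubring (AlgebraicClosure ℚ)) (hA : A.LiesOverPrime q)

/-- the underlying series of `j̄` at level `M q` and at level `M` agree. -/
theorem S34NXR_xb_coe :
    ((S34M_xb M q A : ↥(modularFunctionFieldFullC (IsLocalRing.ResidueField A) (M * q))) :
        LaurentSeries (IsLocalRing.ResidueField A)) =
      ((S18_jbar M (IsLocalRing.ResidueField A) :
        ↥(modularFunctionFieldFullC (IsLocalRing.ResidueField A) M)) :
          LaurentSeries (IsLocalRing.ResidueField A)) := by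
  rw [S18_jbar_coe]
  exact S34VW_red_jB M q A

variable (ι : ↥(modularFunctionFieldFullC (IsLocalRing.ResidueField A) M) →+*
    ↥(modularFunctionFieldFullC (IsLocalRing.ResidueField A) (M * q)))
  (hι : ∀ y : ↥(modularFunctionFieldFullC (IsLocalRing.ResidueField A) M),
    ((ι y : ↥(modularFunctionFieldFullC (IsLocalRing.ResidueField A) (M * q))) :
      LaurentSeries (IsLocalRing.ResidueField A)) = (y : LaurentSeries (IsLocalRing.ResidueField A)))

include hq hA hι

/-- `reg j̄_M` is carried onto `reg j̄` (level `M q`). -/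
theorem S34NXR_reg :
    (∀ a ∈ S34SB_reg (IsLocalRing.ResidueField A) (S34M_xb M q A),
      ∃ y ∈ (S34SB_reg (IsLocalRing.ResidueField A)
        (S18_jbar M (IsLocalRing.ResidueField A)) :
          Set ↥(modularFunctionFieldFullC (IsLocalRing.ResidueField A) M)), ι y = a) ∧
    (∀ y ∈ (S34SB_reg (IsLocalRing.ResidueField A)
        (S18_jbar M (IsLocalRing.ResidueField A)) :
          Set ↥(modularFunctionFieldFullC (IsLocalRing.ResidueField A) M)),
      ι y ∈ S34SB_reg (IsLocalRing.ResidueField A) (S34M_xb M q A)) :=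
  S34NXR_gen _ _ (S34VF_FkN_res M A hq hA).symm _ _ (S34NXR_xb_coe M q A) ι hι

/-- **`hR₁`** of `S34N_nodal` for the canonical chart. -/
theorem S34NXR_hR₁ (n : ℕ) (hn : 0 < n) :
    ∀ a ∈ (S34M_chart M q A n hn).Rb₁,
      ∃ y ∈ (S34SB_reg (IsLocalRing.ResidueField A)
        (S18_jbar M (IsLocalRing.ResidueField A)) :
          Set ↥(modularFunctionFieldFullC (IsLocalRing.ResidueField A) M)), ι y = a :=
  (S34NXR_reg M q hq A hA ι hι).1

/-- **`hR₁'`** of `S34N_nodal` for the canonical chart. -/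
theorem S34NXR_hR₁' (n : ℕ) (hn : 0 < n) :
    ∀ y ∈ (S34SB_reg (IsLocalRing.ResidueField A)
        (S18_jbar M (IsLocalRing.ResidueField A)) :
          Set ↥(modularFunctionFieldFullC (IsLocalRing.ResidueField A) M)),
      ι y ∈ (S34M_chart M q A n hn).Rb₁ :=
  (S34NXR_reg M q hq A hA ι hι).2

/-- the second coordinate ring of the canonical chart is the first one. -/
theorem S34NXR_Rb₂_eq (n : ℕ) (hn : 0 < n) :
    (S34M_chart M q A n hn).Rb₂ = S34SB_reg (IsLocalRing.ResidueField A) (S34M_xb M q A) :=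
  S34SB_reg_pow (S34M_xb M q A) hq.pos

/-- **`hR₂`** of `S34N_nodal` for the canonical chart. -/
theorem S34NXR_hR₂ (n : ℕ) (hn : 0 < n) :
    ∀ b ∈ (S34M_chart M q A n hn).Rb₂,
      ∃ y ∈ (S34SB_reg (IsLocalRing.ResidueField A)
        (S18_jbar M (IsLocalRing.ResidueField A)) :
          Set ↥(modularFunctionFieldFullC (IsLocalRing.ResidueField A) M)), ι y = b := by
  intro b hb
  rw [S34NXR_Rb₂_eq M q hq A hA ι hι n hn] at hb
  exact (S34NXR_reg M q hq A hA ι hι).1 b hb

/-- **`hR₂'`** of `S34N_nodal` for the canonical chart. -/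
theorem S34NXR_hR₂' (n : ℕ) (hn : 0 < n) :
    ∀ y ∈ (S34SB_reg (IsLocalRing.ResidueField A)
        (S18_jbar M (IsLocalRing.ResidueField A)) :
          Set ↥(modularFunctionFieldFullC (IsLocalRing.ResidueField A) M)),
      ι y ∈ (S34M_chart M q A n hn).Rb₂ := by
  intro y hy
  rw [S34NXR_Rb₂_eq M q hq A hA ι hι n hn]
  exact (S34NXR_reg M q hq A hA ι hι).2 y hy

end canon

section iota

variable (M q : ℕ) [NeZero M] [NeZero (M * q)] (hq : q.Prime)
  (A : ValuationSubring (AlgebraicClosure ℚ)) (hA : A.LiesOverPrime q)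

/-- a concrete `ι : F̄_M →+* F̄_{M q}`: the cast along `F̄_{M q} = F̄_M`. -/
def S34NXR_iota : ↥(modularFunctionFieldFullC (IsLocalRing.ResidueField A) M) →+*
    ↥(modularFunctionFieldFullC (IsLocalRing.ResidueField A) (M * q)) :=
  S34NXR_castHom _ _ (S34VF_FkN_res M A hq hA).symm

theorem S34NXR_iota_coe (y : ↥(modularFunctionFieldFullC (IsLocalRing.ResidueField A) M)) :
    ((S34NXR_iota M q hq A hA y :
      ↥(modularFunctionFieldFullC (IsLocalRing.ResidueField A) (M * q))) :
        LaurentSeries (IsLocalRing.ResidueField A)) =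
      (y : LaurentSeries (IsLocalRing.ResidueField A)) :=
  S34NXR_castHom_coe _ _ _ y

theorem S34NXR_iota_algebraMap (c : IsLocalRing.ResidueField A) :
    S34NXR_iota M q hq A hA (algebraMap _ _ c) = algebraMap _ _ c :=
  S34NXR_castHom_algebraMap _ _ _ c

theorem S34NXR_iota_bijective : Function.Bijective (S34NXR_iota M q hq A hA) :=
  S34NXR_castHom_bijective _ _ _

theorem S34NXR_iota_xb :
    S34NXR_iota M q hq A hA (S18_jbar M (IsLocalRing.ResidueField A)) = S34M_xb M q A :=
  Subtype.ext ((S34NXR_iota_coe M q hq A hA _).trans (S34NXR_xb_coe M q A).symm)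

/-- **(P3)**: helper11's target `S34NX_RbSpec` (the inputs `hR₁ hR₁' hR₂ hR₂'` of `S34N_nodal`
for the canonical chart, `ι₁ = ι₂ = S34NX_iota M q A hq hA`). -/
theorem S34NXR_RbSpec (n : ℕ) (hn : 0 < n) : S34NX_RbSpec M q A hq hA n hn :=
  ⟨S34NXR_hR₁ M q hq A hA (S34NX_iota M q A hq hA) (S34NX_iota_coe M q A hq hA) n hn,
    S34NXR_hR₁' M q hq A hA (S34NX_iota M q A hq hA) (S34NX_iota_coe M q A hq hA) n hn,
    S34NXR_hR₂ M q hq A hA (S34NX_iota M q A hq hA) (S34NX_iota_coe M q A hq hA) n hn,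
    S34NXR_hR₂' M q hq A hA (S34NX_iota M q A hq hA) (S34NX_iota_coe M q A hq hA) n hn⟩

end iota

end Fermat.Agent.S34
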