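import Fermat.Agent.S34.Hex
import Fermat.Agent.S34.PoleX0
import Fermat.Agent.S34.Asm3
import Fermat.Agent.S34.SatG0

/-!
# TRACK 7 (S34 + S35), sub-target G2 (HEX), step 2 (helper14): the canonical objects

`hex` of `S34M_Nodes` (captain's `S34/Asm3.lean`) on the canonical pair `S34M_T1`, `S34M_T2` and the
canonical chart `S34M_chart`, from

* `hcart : S34PX_Cart …` (CART2-X0, helper5),
* the chain of the chart `U` (G0, helper9: `S34PX_chain` fed with `hα`, `hξ`),
* the nodes `e₁ e₂ hE hW1` (G1, helper12).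

Prefix `S34HX_`.
-/

set_option autoImplicit false
set_option synthInstance.maxHeartbeats 400000
set_option maxHeartbeats 1000000
set_option linter.unusedSectionVars false

open HahnSeries IntermediateField AlgebraicCurve ModularCurve

namespace Fermat.Agent.S34

open Fermat.Agent.Lib Fermat.Agent.S18 Fermat.Agent.S24 Fermat.Agent.GalRep

section X0

variable (M q : ℕ) [NeZero M] [NeZero (M * q)] (hq : q.Prime) (hqM : ¬ q ∣ M)
  (A : ValuationSubring (AlgebraicClosure ℚ))
  (hgen : PrincipalGeneratedByIntegral A (IsLocalRing.residue A) (M * q))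

/-- the captain's `j̄` is `S18_jbar`. -/
theorem S34HX_xb_eq : S34M_xb M q A = S18_jbar (M * q) (IsLocalRing.ResidueField A) :=
  Subtype.ext (S34VW_red_jB M q A)

/-- `red j = (j̄, j̄ ^ q)` on the canonical pair. -/
theorem S34HX_red_j (hA : A.LiesOverPrime q) :
    S34P_red (S34M_T1 M q A hgen) (S34M_T2 M q hq hqM A hgen) (S34PX_j M q hq hqM A hgen) =
      (S34M_xb M q A, S34M_xb M q A ^ q) := by
  refine Prod.ext rfl ?_
  rw [S34HX_xb_eq]
  exact S34PX_red_j_snd M q hq hqM A hgen hA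

/-- **G2 (HEX) on the canonical objects, with the chain as a hypothesis.** -/
theorem S34HX_hex_X0_of_chain (hA : A.LiesOverPrime q) (hcart : S34PX_Cart M q hq hqM A hgen)
    {n : ℕ} (hn : 0 < n) {s m₀ : ℕ}
    (hchain : S34S_Chain
      (fun m => S34P_redSub (S34M_T1 M q A hgen) (S34M_T2 M q hq hqM A hgen)
        (S34M_same M q hq hqM A hgen)
        (riemannRochSpace (m • RR_poleDiv (S18_hRR (M * q)).principal
          ((S34PX_j M q hq hqM A hgen :
            S34P_O2 (S34M_T1 M q A hgen) (S34M_T2 M q hq hqM A hgen)) :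
              ↥(modularFunctionFieldBar (M * q))))))
      (fun m => (riemannRochSpace (m • RR_poleDiv (S34VF_hk M A hq hA hqM).principal
          (S34M_xb M q A))).prod
        (riemannRochSpace (m • RR_poleDiv (S34VF_hk M A hq hA hqM).principal
          (S34M_xb M q A ^ q)))) s m₀)
    {ι : Type*} [Fintype ι]
    (e₁ : ι → ↥(S34M_chart M q A n hn).Rb₁ →ₐ[IsLocalRing.ResidueField A]
      IsLocalRing.ResidueField A)
    (e₂ : ι → ↥(S34M_chart M q A n hn).Rb₂ →ₐ[IsLocalRing.ResidueField A]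
      IsLocalRing.ResidueField A)
    (hE : Function.Surjective (S34B_E e₁ e₂))
    (hW1 : S34K_W (S34M_same M q hq hqM A hgen) (S34M_chart M q A n hn) 1 = S34B_W e₁ e₂) :
    ∀ u ∈ S34M_Kp M q hq hqM A hgen n, ∃ c : ι → IsLocalRing.ResidueField A,
      S34K_W (S34M_same M q hq hqM A hgen) (S34M_chart M q A n hn) u = S34B_glued e₁ e₂ c := by
  have hk := S34VF_hk M A hq hA hqM
  have hxb := S34HX_xb_eq M q A
  have hd₁ : 0 < (RR_poleDiv hk.principal (S34M_xb M q A)).degree := by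
    rw [hxb]; exact S34PX_pole (M := M) (hq := hq) (hqM := hqM) hA
  have hd₂ : 0 < (RR_poleDiv hk.principal (S34M_xb M q A ^ q)).degree := by
    rw [S34VD_poleDiv_pow_degree]
    have : (0 : ℤ) < (q : ℤ) := by exact_mod_cast hq.pos
    exact mul_pos this hd₁
  have hdeg : (RR_poleDiv hk.principal (S34M_xb M q A)).degree +
      (RR_poleDiv hk.principal (S34M_xb M q A ^ q)).degree =
      (RR_poleDiv (S18_hRR (M * q)).principal
        ((S34PX_j M q hq hqM A hgen : S34P_O2 (S34M_T1 M q A hgen) (S34M_T2 M q hq hqM A hgen)) :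
          ↥(modularFunctionFieldBar (M * q)))).degree := by
    rw [hxb]
    exact S34VF_hdeg M A hq hA hqM hk.principal hk.principal _
  exact S34HX_hex_Kum (S₁ := S34M_T1 M q A hgen) (S₂ := S34M_T2 M q hq hqM A hgen)
    (hS := S34M_same M q hq hqM A hgen) (x := S34PX_j M q hq hqM A hgen)
    (S34PX_hyp hcart) (fun V hV => S34PX_count hcart V hV) (S18_hRR (M * q)) hk hk
    (S34HX_red_j M q hq hqM A hgen hA) hd₁ hd₂ hdeg hn hchain e₁ e₂ hE hW1

/-- **G2 (HEX), FINAL**: `hex` of `S34M_Nodes` on the canonical objects.  The only inputs are the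
nodes `e₁ e₂ hE hW1` of G1 (NODAL); everything else (CART2-X0, POLE, G0 = the chain of the chart
`U`) is discharged. -/
theorem S34HX_hex_X0 (hA : A.LiesOverPrime q) {n : ℕ} (hn : 0 < n)
    {ι : Type*} [Fintype ι]
    (e₁ : ι → ↥(S34M_chart M q A n hn).Rb₁ →ₐ[IsLocalRing.ResidueField A]
      IsLocalRing.ResidueField A)
    (e₂ : ι → ↥(S34M_chart M q A n hn).Rb₂ →ₐ[IsLocalRing.ResidueField A]
      IsLocalRing.ResidueField A)
    (hE : Function.Surjective (S34B_E e₁ e₂))
    (hW1 : S34K_W (S34M_same M q hq hqM A hgen) (S34M_chart M q A n hn) 1 = S34B_W e₁ e₂) :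
    ∀ u ∈ S34M_Kp M q hq hqM A hgen n, ∃ c : ι → IsLocalRing.ResidueField A,
      S34K_W (S34M_same M q hq hqM A hgen) (S34M_chart M q A n hn) u = S34B_glued e₁ e₂ c := by
  have : NeZero q := ⟨hq.ne_zero⟩
  obtain ⟨s, m₀, -, hchain⟩ := S34SI_G0_fun M q hq hqM A hgen hA (S18_hRR (M * q))
    (S34VF_hk M A hq hA hqM) (S34VF_hk M A hq hA hqM) (S34M_xb M q A) (S34M_xb M q A ^ q)
    (S34HX_red_j M q hq hqM A hgen hA)
  exact S34HX_hex_X0_of_chain M q hq hqM A hgen hA (S34VW_cart M q hq hqM A hgen hA) hn hchain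
    e₁ e₂ hE hW1

/-- the number of nodes is forced: `card ι = g(F_{Mq}) + 1 − 2 g(F̄)`. -/
theorem S34HX_card_X0 (hA : A.LiesOverPrime q) {n : ℕ} (hn : 0 < n)
    {ι : Type*} [Fintype ι]
    (e₁ : ι → ↥(S34M_chart M q A n hn).Rb₁ →ₐ[IsLocalRing.ResidueField A]
      IsLocalRing.ResidueField A)
    (e₂ : ι → ↥(S34M_chart M q A n hn).Rb₂ →ₐ[IsLocalRing.ResidueField A]
      IsLocalRing.ResidueField A)
    (hE : Function.Surjective (S34B_E e₁ e₂))
    (hW1 : S34K_W (S34M_same M q hq hqM A hgen) (S34M_chart M q A n hn) 1 = S34B_W e₁ e₂) :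
    (Fintype.card ι : ℤ) =
      (RR_genus (AlgebraicClosure ℚ) ↥(modularFunctionFieldBar (M * q)) : ℤ) + 1 -
        2 * RR_genus (IsLocalRing.ResidueField A)
          ↥(modularFunctionFieldFullC (IsLocalRing.ResidueField A) (M * q)) := by
  have : NeZero q := ⟨hq.ne_zero⟩
  obtain ⟨s, m₀, hs, hchain⟩ := S34SI_G0_fun M q hq hqM A hgen hA (S18_hRR (M * q))
    (S34VF_hk M A hq hA hqM) (S34VF_hk M A hq hA hqM) (S34M_xb M q A) (S34M_xb M q A ^ q)
    (S34HX_red_j M q hq hqM A hgen hA)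
  have hone := S34SB_one (S18_hRR (M * q)).principal (S34VF_hk M A hq hA hqM).principal
    (S34VF_hk M A hq hA hqM).principal (S34M_same M q hq hqM A hgen)
    (jB (M * q)) (S34M_xb M q A) (S34M_xb M q A ^ q) hn s m₀ hchain
  have hcard : Fintype.card ι = s := by
    rw [← hone.2]
    have h2 := S34B_finrank_quot e₁ e₂ hE (fun _ => 1)
    rw [← h2]
    exact congrArg (fun W => Module.finrank (IsLocalRing.ResidueField A)
      ((↥(S34M_chart M q A n hn).Rb₁ × ↥(S34M_chart M q A n hn).Rb₂) ⧸ W)) hW1.symm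
  rw [hcard, hs]

end X0

end Fermat.Agent.S34
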