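import Fermat.Agent.S34.InjGrid
import Fermat.Agent.S34.SatBridge
import Fermat.Agent.S34.RankOne

/-!
# TRACK 7 (S34 + S35), package INJ concrete, part 3 (helper25): wiring

* `S34IW_hCB` : the chart `U` of BRIDGE (`S34SB_chart`, helper14) is the chart `S34IX_reg (S34IX_TU x)`
  of INJ;
* `S34IW_hnk` : `n` is invertible in the residue field (`q ∤ n`, `A` over `q`);
* `S34IW_hinj` : `S34IG_hinj` for a pair of valuation data over a valuation ring `A ⊂ ℚ̄` above `q`
  and the chart `S34SB_chart` — the remaining inputs are a cartesian chart (CART2) and the level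
  description (LEV).
-/

set_option autoImplicit false
set_option linter.unusedSectionVars false

open AlgebraicCurve

namespace Fermat.Agent.S34

open Fermat.Agent.Lib Fermat.Agent.S18 Fermat.Agent.S24

section

variable {L F k Fk₁ Fk₂ : Type*} [Field L] [Field F] [Algebra L F] [Field k]
  [Field Fk₁] [Field Fk₂] [Algebra k Fk₁] [Algebra k Fk₂]

/-- the chart `U` of BRIDGE is the chart `U` of INJ. -/
theorem S34IW_reg_eq (x : F) : S34SB_reg L x = S34IX_reg (S34IX_TU (K := L) x) := by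
  ext f
  rw [S34SB_mem_reg, S34IX_mem_reg]
  exact Iff.rfl

theorem S34IW_hCB (x : F) (x₁ : Fk₁) (x₂ : Fk₂) (n : ℕ) (hn : 0 < n) (f : F) :
    f ∈ (S34SB_chart L k x x₁ x₂ n hn).B ↔ f ∈ S34IX_reg (S34IX_TU (K := L) x) := by
  rw [S34SB_chart_B, S34IW_reg_eq]

/-- `n` is invertible in the residue field if `q ∤ n` and `A` lies over `q`. -/
theorem S34IW_hnk [CharZero L] {R : Type*} [CommRing R] [Algebra k R] (S : S34L_Lat L F k R)
    {q n : ℕ}
    (hq : q.Prime) (hA : S.A.LiesOverPrime q) (hqn : ¬ q ∣ n) : (n : k) ≠ 0 := by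
  have hcop : IsCoprime (n : ℤ) (q : ℤ) := by
    rw [Int.isCoprime_iff_gcd_eq_one]
    have : Nat.Coprime n q := ((Nat.Prime.coprime_iff_not_dvd hq).2 hqn).symm
    simpa [Int.gcd_natCast_natCast] using this
  have hu : IsUnit (((n : ℤ) : ℤ) : S.A) := S34RO_isUnit_of_coprime S.A hA (n : ℤ) hcop
  have hu' : IsUnit ((n : ℕ) : S.A) := by simpa using hu
  intro h0
  have h1 : S.res ((n : ℕ) : S.A) = 0 := by rw [map_natCast]; exact h0
  exact ((S.res_eq_zero_iff _).1 h1) hu'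

end

section Qbar

variable {F k Fk₁ Fk₂ : Type*} [Field F] [Algebra (AlgebraicClosure ℚ) F] [Field k]
  [Field Fk₁] [Field Fk₂] [Algebra k Fk₁] [Algebra k Fk₂]
  {S₁ : S18_Val (AlgebraicClosure ℚ) F k Fk₁} {S₂ : S18_Val (AlgebraicClosure ℚ) F k Fk₂}
  (hS : S34P_Same S₁ S₂)

/-- **INJ, wired**: for a pair of valuation data of `F/ℚ̄` over a valuation ring above `q`, `q ∤ n`,
and the chart `U = {x ≠ ∞}`: a normalised generator `u` (`n·D = div u`) whose levels are described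
by an intersection-stable family `G` containing `1` on both sides is a trivial Kummer generator.
Remaining inputs: a cartesian chart `hC` (CART2) and the level description (LEV). -/
theorem S34IW_hinj (hRR : RR_Hyp (AlgebraicClosure ℚ) F) {q : ℕ} (hq : q.Prime)
    (hA : S₁.A.LiesOverPrime q)
    {x₀ : (S34P_lat hS).O} {r : ℕ} {y : Fin r → (S34P_lat hS).O}
    (hC : (S34P_lat hS).IsCart x₀ y)
    {n : ℕ} (hn : 0 < n) (hqn : ¬ q ∣ n)
    (x : F) (x₁ : Fk₁) (x₂ : Fk₂) (c : AlgebraicClosure ℚ)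
    (hx : 0 < (RR_poleDiv hRR.principal x).degree)
    (u : F) (hu : u ∈ S34K_Norm S₁ S₂) (D : Divisor (AlgebraicClosure ℚ) F)
    (hD : n • D = RR_div hRR.principal u)
    (m₀ : ℕ) (G : ℕ → ℕ → Submodule k (Fk₁ × Fk₂))
    (hG : ∀ a b a' b', G a b ⊓ G a' b' ≤ G (min a a') (min b b'))
    (hlev : ∀ a b, m₀ ≤ a + b →
      (S34P_lat hS).redSub (riemannRochSpace
        (S34P_E hRR.principal x (x - algebraMap (AlgebraicClosure ℚ) F c) a b + D)) = G a b)
    (hone : ∃ a, m₀ ≤ a ∧ (1 : Fk₁ × Fk₂) ∈ G a 0)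
    (hone' : ∃ b, m₀ ≤ b ∧ (1 : Fk₁ × Fk₂) ∈ G 0 b) :
    ∃ (c' : AlgebraicClosure ℚ) (g : F), c' ≠ 0 ∧ g ≠ 0 ∧
      u = algebraMap (AlgebraicClosure ℚ) F c' * g ^ n :=
  S34IG_hinj hS hRR hC
    (fun c hc hc0 a ha => S34RO_rank_one_Qbar S₁.A hq hA c hc hc0 a ha)
    (S34IW_hnk (S34P_lat hS) hq hA hqn)
    (S34SB_chart (AlgebraicClosure ℚ) k x x₁ x₂ n hn) x c hx
    (S34IW_hCB x x₁ x₂ n hn) u hu D hD m₀ G hG hlev hone hone'

end Qbar

end Fermat.Agent.S34
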