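import Fermat.Agent.S34.ChartLevX1
import Fermat.Agent.S34.InjWire
import Fermat.Agent.S34.HexX0

/-!
# TRACK 7 (S34 + S35): G3 (HINJ) and `S34M_Nodes` on the canonical objects from G1's output ONLY

* `S34CL_hinj_nodes` : the component `hinj` of `S34M_Nodes` (captain's `S34/Asm3.lean`) from the
  nodes `e₁ e₂ hE hW1` of G1:  `S34IW_hinj` (helper25) ∘ `S34CL_LEV_nodes` (LEV) ∘ `S34VW_cart`
  (CART2-X0) ∘ `S34HX_exists_D`;
* `S34CL_nodes_of_G1` : `S34M_Nodes M q hq hqM A hgen n hn` from the output of G1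
  (`∃ s e₁ e₂, hE ∧ hW1`), with G2 = `S34HX_hex_X0` (helper14) and G3 = `S34CL_hinj_nodes`.
-/

set_option autoImplicit false
set_option synthInstance.maxHeartbeats 400000
set_option maxHeartbeats 1000000
set_option linter.unusedSectionVars false
set_option linter.unusedVariables false
set_option linter.style.haveILetI false

open HahnSeries IntermediateField AlgebraicCurve ModularCurve

noncomputable section

namespace Fermat.Agent.S34

open Fermat.Agent.Lib Fermat.Agent.S18 Fermat.Agent.S24 Fermat.Agent.GalRep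

section X0

variable (M q : ℕ) [NeZero (M * q)] (hq : q.Prime) (hqM : ¬ q ∣ M)
  (A : ValuationSubring (AlgebraicClosure ℚ))
  (hgen : PrincipalGeneratedByIntegral A (IsLocalRing.residue A) (M * q))

/-- **G3 (HINJ) on the canonical objects from G1's output only**: the component `hinj` of
`S34M_Nodes`. -/
theorem S34CL_hinj_nodes (hA : A.LiesOverPrime q) {n : ℕ} (hn : 0 < n) (hqn : ¬ q ∣ n)
    {ι : Type*} [Fintype ι]
    (e₁ : ι → ↥(S34M_chart M q A n hn).Rb₁ →ₐ[IsLocalRing.ResidueField A]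
      IsLocalRing.ResidueField A)
    (e₂ : ι → ↥(S34M_chart M q A n hn).Rb₂ →ₐ[IsLocalRing.ResidueField A]
      IsLocalRing.ResidueField A)
    (hE : Function.Surjective (S34B_E e₁ e₂))
    (hW1 : S34K_W (S34M_same M q hq hqM A hgen) (S34M_chart M q A n hn) 1 = S34B_W e₁ e₂) :
    ∀ u ∈ S34M_Kp M q hq hqM A hgen n,
      S34K_W (S34M_same M q hq hqM A hgen) (S34M_chart M q A n hn) u =
        S34B_glued e₁ e₂ (fun _ => 1) → GR_IsTriv (M * q) n u := by
  intro u hu hWu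
  haveI : NeZero M := S34CL_neZero_M M q
  obtain ⟨D, hD⟩ := S34HX_exists_D (S18_hRR (M * q)).principal u hu.1.2
  obtain ⟨c, m₀, G, hG, hlev, hone, hone'⟩ :=
    S34CL_LEV_nodes M q hq hqM A hgen hA hn e₁ e₂ hE hW1 u hu hWu D hD
  obtain ⟨r, y, hC⟩ := S34VW_cart M q hq hqM A hgen hA
  have hx : 0 < (RR_poleDiv (S18_hRR (M * q)).principal (jB (M * q))).degree := by
    rw [S34VD_deg_jB]
    exact_mod_cast Fermat.Agent.GalRep.GRHF_dedekindPsi_pos (M * q)
  exact S34IW_hinj (S34M_same M q hq hqM A hgen) (S18_hRR (M * q)) hq hA hC hn hqn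
    (jB (M * q)) (S34M_xb M q A) (S34M_xb M q A ^ q) c hx u hu.2 D hD m₀ G hG hlev hone hone'

/-- **`S34M_Nodes` from the output of G1** (`S34NX_nodes`): G1 + G2 + G3. -/
theorem S34CL_nodes_of_G1 (hA : A.LiesOverPrime q) {n : ℕ} (hn : 0 < n) (hqn : ¬ q ∣ n)
    (hG1 : ∃ (s : ℕ) (e₁ : Fin s → ↥(S34M_chart M q A n hn).Rb₁ →ₐ[IsLocalRing.ResidueField A]
        IsLocalRing.ResidueField A)
      (e₂ : Fin s → ↥(S34M_chart M q A n hn).Rb₂ →ₐ[IsLocalRing.ResidueField A]
        IsLocalRing.ResidueField A),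
      Function.Surjective (S34B_E e₁ e₂) ∧
      S34K_W (S34M_same M q hq hqM A hgen) (S34M_chart M q A n hn) 1 = S34B_W e₁ e₂) :
    S34M_Nodes M q hq hqM A hgen n hn := by
  haveI : NeZero M := S34CL_neZero_M M q
  obtain ⟨s, e₁, e₂, hE, hW1⟩ := hG1
  exact ⟨s, e₁, e₂, hE, S34HX_hex_X0 M q hq hqM A hgen hA hn e₁ e₂ hE hW1,
    S34CL_hinj_nodes M q hq hqM A hgen hA hn hqn e₁ e₂ hE hW1⟩

end X0

end Fermat.Agent.S34
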