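import Mathlib
import Fermat.Agent.S34.NodalX0
import Fermat.Agent.S34.NodalAB
import Fermat.Agent.S34.NodalX0Rb
import Fermat.Agent.S34.NodalX0Fin
import Fermat.Agent.S34.NodesX0
import Fermat.Agent.S34.Asm5

/-!
# TRACK 7 (NODE): G1 on the canonical objects and `S34M_NodesAll` (helper11), prefix `S34NX_`

* `S34NX_halpha`, `S34NX_hbeta` : `S34NX_HAlpha`, `S34NX_HBeta` (from helper12's `S34NI_halpha`,
  `S34NI_hbeta`, `S34/NodalAB.lean`);
* `S34NX_nodes` : **G1** — `∃ s e₁ e₂, hE ∧ W¹ = S34B_W e₁ e₂` for the canonical chart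
  (captain's exact target), from `S34NX_nodes_of` + (P3) `S34NXR_RbSpec` (helper18) +
  `S34NXF_finite` (helper9);
* `S34NX_nodesAll` : **`S34M_NodesAll M q hq hqM`** (G1 + G2 + G3, via helper16's
  `S34CL_nodes_of_G1`) — the last open target of S34.
-/

set_option autoImplicit false
set_option synthInstance.maxHeartbeats 400000
set_option maxHeartbeats 1000000
set_option linter.unusedSectionVars false
set_option linter.unusedVariables false
set_option linter.style.haveILetI false

open HahnSeries IntermediateField ModularCurve AlgebraicCurve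

noncomputable section

namespace Fermat.Agent.S34

open Fermat.Agent.Lib Fermat.Agent.S24 Fermat.Agent.S18

section generic

variable {k Ω : Type*} [Field k] [Field Ω] [Algebra k Ω]

theorem S34NX_incl_apply {E₁ E₂ : IntermediateField k Ω} (h : E₁ = E₂) (y : ↥E₁) :
    S34NX_incl h y = S34FI_cast h y := rfl

end generic

section canon

variable (M q : ℕ) [NeZero M] [NeZero q] [NeZero (M * q)]
  (A : ValuationSubring (AlgebraicClosure ℚ)) (hq : q.Prime) (hqM : ¬ q ∣ M)
  (hA : A.LiesOverPrime q)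
  (hgen : PrincipalGeneratedByIntegral A (IsLocalRing.residue A) (M * q))

theorem S34NX_iota_apply (y : ↥(modularFunctionFieldFullC (IsLocalRing.ResidueField A) M)) :
    S34NX_iota M q A hq hA y = S34FI_cast (S34NX_full_eq M q A hq hA) y :=
  S34NX_incl_apply (S34NX_full_eq M q A hq hA) y

/-- `hα` on the canonical objects. -/
theorem S34NX_halpha (n : ℕ) (hn : 0 < n) : S34NX_HAlpha M q A hq hqM hA hgen n hn := by
  intro f hfB
  obtain ⟨h, hB, hred⟩ := S34NI_halpha M q hq hqM A hgen (RIG_hgen M A hq hA hqM)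
    (S34NX_full_eq M q A hq hA) (fun y => S34NX_Fr M q A hq hA y)
    (fun y => S34NX_Fr_coe M q A hq hA y) n hn f hfB
  refine ⟨h, hB, ?_⟩
  rw [S34NX_iota_apply, S34NX_iota_apply]
  exact hred

/-- `hβ` on the canonical objects. -/
theorem S34NX_hbeta (n : ℕ) (hn : 0 < n) : S34NX_HBeta M q A hq hqM hA hgen n hn := by
  intro f hfB
  obtain ⟨h, hB, hred⟩ := S34NI_hbeta M q hq hqM A hgen (RIG_hgen M A hq hA hqM)
    (S34NX_full_eq M q A hq hA) (fun y => S34NX_Fr M q A hq hA y)
    (fun y => S34NX_Fr_coe M q A hq hA y) n hn f hfB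
  refine ⟨h, hB, ?_⟩
  rw [S34NX_iota_apply, S34NX_iota_apply]
  exact hred

end canon

/-- **G1 on the canonical objects** (captain's target). -/
theorem S34NX_nodes (M q : ℕ) [NeZero (M * q)] (hq : q.Prime) (hqM : ¬ q ∣ M)
    (A : ValuationSubring (AlgebraicClosure ℚ)) (hA : A.LiesOverPrime q)
    (hgen : PrincipalGeneratedByIntegral A (IsLocalRing.residue A) (M * q))
    (n : ℕ) (hn : 0 < n) :
    ∃ (s : ℕ) (e₁ : Fin s → ↥(S34M_chart M q A n hn).Rb₁ →ₐ[IsLocalRing.ResidueField A]
        IsLocalRing.ResidueField A)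
      (e₂ : Fin s → ↥(S34M_chart M q A n hn).Rb₂ →ₐ[IsLocalRing.ResidueField A]
        IsLocalRing.ResidueField A),
      Function.Surjective (S34B_E e₁ e₂) ∧
      S34K_W (S34M_same M q hq hqM A hgen) (S34M_chart M q A n hn) 1 = S34B_W e₁ e₂ := by
  haveI : NeZero M := ⟨fun h => NeZero.ne (M * q) (by rw [h, zero_mul])⟩
  haveI : NeZero q := ⟨hq.ne_zero⟩
  obtain ⟨s, e₁, e₂, -, hE, hW⟩ := S34NX_nodes_of M q A hq hqM hA hgen n hn
    (S34NX_halpha M q A hq hqM hA hgen n hn) (S34NX_hbeta M q A hq hqM hA hgen n hn)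
    (S34NXR_RbSpec M q hq A hA n hn) (S34NXF_finite M q hq hqM A hgen hA n hn)
  exact ⟨s, e₁, e₂, hE, hW⟩

/-- **`S34M_NodesAll`**: the nodes, (B) and (INJ) at every place over `q` and every `n` prime to
`q`. -/
theorem S34NX_nodesAll (M q : ℕ) [NeZero (M * q)] (hq : q.Prime) (hqM : ¬ q ∣ M) :
    S34M_NodesAll M q hq hqM := by
  intro n hn hqn A hA hgen
  exact S34CL_nodes_of_G1 M q hq hqM A hgen hA hn hqn (S34NX_nodes M q hq hqM A hA hgen n hn)

end Fermat.Agent.S34
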