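/-
TRACK 7 (S34 + S35), package (C)-ALG (helper1): abstract "Zariski connectedness by hand".

Setting: `A` a domain (in the application a rank-one valuation ring), `Fp` a commutative `A`-algebra
(in the application the field `F' = F(θ)`), three subalgebras `OU, OU' ≤ OUU` (integral functions on the
charts `U`, `U'`, `U ∩ U'`).  If

* `OU ∩ OU' = A` (global integral functions are constants),
* the torsion of `OUU / (OU + OU')` is killed by one `c₀ ≠ 0` (e.g. because it is finitely generated),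
* `e ∈ OU`, `e' ∈ OU'` are idempotent modulo `c₁` and agree modulo `c₁` on `U ∩ U'`,

then `e` is congruent modulo `c₁` to a constant `a ∈ A`.

Mathlib only.  All names carry the prefix `S34CN_`.
-/
import Mathlib

set_option autoImplicit false

namespace Fermat.Agent.S34

variable {A Fp : Type*} [CommRing A] [CommRing Fp] [Algebra A Fp]

/-- Newton's improvement of an approximate idempotent. -/
def S34CN_newton (e : Fp) : Fp := 3 * e ^ 2 - 2 * e ^ 3

theorem S34CN_newton_sub (e : Fp) :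
    S34CN_newton e - e = (e ^ 2 - e) * (1 - 2 * e) := by
  unfold S34CN_newton; ring

theorem S34CN_newton_sq (e : Fp) :
    (S34CN_newton e) ^ 2 - S34CN_newton e = (e ^ 2 - e) ^ 2 * ((2 * e - 3) * (2 * e + 1)) := by
  unfold S34CN_newton; ring

theorem S34CN_newton_mem (S : Subalgebra A Fp) {e : Fp} (he : e ∈ S) : S34CN_newton e ∈ S := by
  unfold S34CN_newton
  have h3 : (3 : Fp) ∈ S := by
    exact ofNat_mem S 3
  have h2 : (2 : Fp) ∈ S := by
    exact ofNat_mem S 2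
  exact S.sub_mem (S.mul_mem h3 (S.pow_mem he 2)) (S.mul_mem h2 (S.pow_mem he 3))

/-- Iterated Newton: an idempotent modulo `c` is congruent modulo `c` to an idempotent modulo
`c ^ (2 ^ k)`. -/
theorem S34CN_iter (S : Subalgebra A Fp) (c : A) (e : Fp) (he : e ∈ S)
    (h : ∃ f ∈ S, e ^ 2 - e = c • f) (k : ℕ) :
    ∃ ek ∈ S, (∃ f ∈ S, ek ^ 2 - ek = (c ^ (2 ^ k)) • f) ∧ (∃ f ∈ S, ek - e = c • f) := by
  induction k with
  | zero =>
    obtain ⟨f, hf, hfe⟩ := h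
    refine ⟨e, he, ⟨f, hf, ?_⟩, ⟨0, S.zero_mem, ?_⟩⟩
    · rw [hfe]; simp
    · simp
  | succ k ih =>
    obtain ⟨ek, hek, ⟨f, hf, hfe⟩, ⟨f', hf', hfe'⟩⟩ := ih
    obtain ⟨f0, hf0, hfe0⟩ := h
    have h3 : (3 : Fp) ∈ S := by
      exact ofNat_mem S 3
    have h2 : (2 : Fp) ∈ S := by
      exact ofNat_mem S 2
    have h1 : (1 : Fp) ∈ S := S.one_mem
    refine ⟨S34CN_newton ek, S34CN_newton_mem S hek, ⟨f ^ 2 * ((2 * ek - 3) * (2 * ek + 1)), ?_, ?_⟩,
      ⟨(c ^ (2 ^ k - 1)) • (f * (1 - 2 * ek)) + f', ?_, ?_⟩⟩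
    · exact S.mul_mem (S.pow_mem hf 2)
        (S.mul_mem (S.sub_mem (S.mul_mem h2 hek) h3) (S.add_mem (S.mul_mem h2 hek) h1))
    · have e0 : c ^ (2 ^ (k + 1)) = (c ^ (2 ^ k)) ^ 2 := by
        rw [← pow_mul, pow_succ]
      rw [S34CN_newton_sq, hfe, e0]
      simp only [Algebra.smul_def, map_pow]
      ring
    · exact S.add_mem (S.smul_mem (S.mul_mem hf (S.sub_mem h1 (S.mul_mem h2 hek))) _) hf'
    · have hk : 2 ^ k = (2 ^ k - 1) + 1 := by
        have : 0 < 2 ^ k := by positivity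
        omega
      have e1 : S34CN_newton ek - e = (S34CN_newton ek - ek) + (ek - e) := by ring
      rw [e1, S34CN_newton_sub, hfe, hfe']
      have e2 : c ^ (2 ^ k) = c * c ^ (2 ^ k - 1) := by
        conv_lhs => rw [hk]
        rw [pow_succ]; ring
      rw [e2]
      simp only [Algebra.smul_def, map_mul, map_pow]
      ring

/-- The polynomial identity behind uniqueness of idempotent lifts. -/
theorem S34CN_cube_id (x y α β : Fp) (hx : x ^ 2 - x = α) (hy : y ^ 2 - y = β) :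
    (x - y) ^ 3 - (x - y) = α * (1 + x - 3 * y) - β * (1 + y - 3 * x) := by
  subst hx hy; ring

/-- Uniqueness of idempotent lifts: two idempotents modulo `c ^ M` that agree modulo `c` agree
modulo `c ^ M`. -/
theorem S34CN_unique (S : Subalgebra A Fp) (c : A) (M : ℕ) (x y : Fp) (hx : x ∈ S) (hy : y ∈ S)
    (hxx : ∃ f ∈ S, x ^ 2 - x = (c ^ M) • f) (hyy : ∃ f ∈ S, y ^ 2 - y = (c ^ M) • f)
    (hxy : ∃ f ∈ S, x - y = c • f) :
    ∃ h ∈ S, x - y = (c ^ M) • h := by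
  obtain ⟨fx, hfx, hfxe⟩ := hxx
  obtain ⟨fy, hfy, hfye⟩ := hyy
  have h3 : (3 : Fp) ∈ S := by
    exact ofNat_mem S 3
  have h1 : (1 : Fp) ∈ S := S.one_mem
  -- `d = d ^ 3 - c ^ M • t`
  set t : Fp := fx * (1 + x - 3 * y) - fy * (1 + y - 3 * x) with ht
  have htS : t ∈ S :=
    S.sub_mem (S.mul_mem hfx (S.sub_mem (S.add_mem h1 hx) (S.mul_mem h3 hy)))
      (S.mul_mem hfy (S.sub_mem (S.add_mem h1 hy) (S.mul_mem h3 hx)))
  have hd : (x - y) ^ 3 - (x - y) = (c ^ M) • t := by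
    rw [S34CN_cube_id x y _ _ hfxe hfye, ht]
    simp only [Algebra.smul_def]
    ring
  -- induction on `j ≤ M`
  have key : ∀ j : ℕ, j ≤ M → ∃ h ∈ S, x - y = (c ^ j) • h := by
    intro j
    induction j with
    | zero => intro _; exact ⟨x - y, S.sub_mem hx hy, by simp⟩
    | succ j ih =>
      intro hj
      rcases Nat.eq_zero_or_pos j with hj0 | hjpos
      · subst hj0
        obtain ⟨f, hf, hfe⟩ := hxy
        exact ⟨f, hf, by simpa using hfe⟩
      · obtain ⟨h, hh, hhe⟩ := ih (by omega)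
        -- x - y = (x-y)^3 - c^M t = c^(3j) h^3 - c^M t
        refine ⟨(c ^ (3 * j - (j + 1))) • h ^ 3 - (c ^ (M - (j + 1))) • t, ?_, ?_⟩
        · exact S.sub_mem (S.smul_mem (S.pow_mem hh 3) _) (S.smul_mem htS _)
        · have e1 : x - y = (x - y) ^ 3 - (c ^ M) • t := by rw [← hd]; ring
          have e3 : c ^ (3 * j) = c ^ (j + 1) * c ^ (3 * j - (j + 1)) := by
            rw [← pow_add]; congr 1; omega
          have e4 : c ^ M = c ^ (j + 1) * c ^ (M - (j + 1)) := by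
            rw [← pow_add]; congr 1; omega
          have e5 : (x - y) ^ 3 = (c ^ (3 * j)) • h ^ 3 := by
            rw [hhe]
            simp only [Algebra.smul_def, map_pow]
            ring
          rw [e1, e5, e3, e4]
          simp only [Algebra.smul_def, map_mul, map_pow]
          ring
  exact key M le_rfl

/-- **Abstract connectedness lemma** (core form, explicit modulus `c₁`). -/
theorem S34CN_conn [IsDomain A]
    (OU OU' OUU : Subalgebra A Fp) (hU : OU ≤ OUU) (hU' : OU' ≤ OUU)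
    (hconst : ∀ f : Fp, f ∈ OU → f ∈ OU' → ∃ a : A, algebraMap A Fp a = f)
    (c₀ : A)
    (htors : ∀ h : Fp, h ∈ OUU → ∀ c : A, c ≠ 0 →
      (∃ g ∈ OU, ∃ g' ∈ OU', c • h = g + g') → ∃ g ∈ OU, ∃ g' ∈ OU', c₀ • h = g + g')
    (hsat : ∀ f : Fp, f ∈ OU → ∀ a : A, c₀ • f = algebraMap A Fp a →
      ∃ a' : A, algebraMap A Fp a' = f)
    (c₁ : A) (harch : ∃ N : ℕ, c₀ * c₁ ∣ c₁ ^ N)
    (e e' : Fp) (he : e ∈ OU) (he' : e' ∈ OU')
    (h1 : ∃ f ∈ OU, e ^ 2 - e = c₁ • f) (h2 : ∃ f ∈ OU', e' ^ 2 - e' = c₁ • f)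
    (h3 : ∃ h ∈ OUU, e - e' = c₁ • h) :
    ∃ a : A, ∃ f ∈ OU, e - algebraMap A Fp a = c₁ • f := by
  by_cases hc1 : c₁ = 0
  · -- then `e = e'` is a global function
    obtain ⟨h, _, hh⟩ := h3
    have hee' : e = e' := by
      have : e - e' = 0 := by rw [hh, hc1, zero_smul]
      exact sub_eq_zero.mp this
    obtain ⟨a, ha⟩ := hconst e he (hee' ▸ he')
    exact ⟨a, 0, OU.zero_mem, by rw [ha]; simp⟩
  obtain ⟨N, hN⟩ := harch
  -- Newton on both charts, `k = N`, exponent `2 ^ N ≥ N`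
  obtain ⟨ek, hek, ⟨fk, hfk, hfke⟩, ⟨gk, hgk, hgke⟩⟩ := S34CN_iter OU c₁ e he h1 N
  obtain ⟨ek', hek', ⟨fk', hfk', hfke'⟩, ⟨gk', hgk', hgke'⟩⟩ := S34CN_iter OU' c₁ e' he' h2 N
  obtain ⟨h0, hh0, hh0e⟩ := h3
  -- uniqueness on the overlap
  have hxy : ∃ f ∈ OUU, ek - ek' = c₁ • f := by
    refine ⟨gk + h0 - gk', OUU.sub_mem (OUU.add_mem (hU hgk) hh0) (hU' hgk'), ?_⟩
    have : ek - ek' = (ek - e) + (e - e') - (ek' - e') := by ring
    rw [this, hgke, hh0e, hgke']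
    simp only [Algebra.smul_def]
    ring
  obtain ⟨h, hh, hhe⟩ := S34CN_unique OUU c₁ (2 ^ N) ek ek' (hU hek) (hU' hek')
    ⟨fk, hU hfk, hfke⟩ ⟨fk', hU' hfk', hfke'⟩ hxy
  -- torsion bound
  have hcN : c₁ ^ (2 ^ N) ≠ 0 := pow_ne_zero _ hc1
  obtain ⟨g, hg, g', hg', hgg'⟩ := htors h hh (c₁ ^ (2 ^ N)) hcN
    ⟨ek, hek, -ek', OU'.neg_mem hek', by rw [← hhe]; ring⟩
  -- the global function
  have hz : c₀ • ek - (c₁ ^ (2 ^ N)) • g = c₀ • ek' + (c₁ ^ (2 ^ N)) • g' := by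
    have e1 : c₀ • (ek - ek') = (c₁ ^ (2 ^ N)) • (g + g') := by
      rw [hhe, ← hgg', smul_comm]
    have e2 : c₀ • ek - c₀ • ek' = (c₁ ^ (2 ^ N)) • g + (c₁ ^ (2 ^ N)) • g' := by
      rw [← smul_sub, e1, smul_add]
    have e3 : c₀ • ek - (c₁ ^ (2 ^ N)) • g - (c₀ • ek' + (c₁ ^ (2 ^ N)) • g')
        = (c₀ • ek - c₀ • ek') - ((c₁ ^ (2 ^ N)) • g + (c₁ ^ (2 ^ N)) • g') := by ring
    exact sub_eq_zero.mp (by rw [e3, e2, sub_self])
  obtain ⟨a₀, ha₀⟩ := hconst (c₀ • ek - (c₁ ^ (2 ^ N)) • g)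
    (OU.sub_mem (OU.smul_mem hek _) (OU.smul_mem hg _))
    (hz ▸ OU'.add_mem (OU'.smul_mem hek' _) (OU'.smul_mem hg' _))
  -- divisibility `c₁ ^ (2 ^ N) = c₀ * c₁ * b`
  have hNle : N ≤ 2 ^ N := Nat.lt_two_pow_self.le
  obtain ⟨b₀, hb₀⟩ := hN
  have hb : c₁ ^ (2 ^ N) = c₀ * c₁ * (b₀ * c₁ ^ (2 ^ N - N)) := by
    have : c₁ ^ (2 ^ N) = c₁ ^ N * c₁ ^ (2 ^ N - N) := by
      rw [← pow_add]; congr 1; omega
    rw [this, hb₀]; ring
  set b : A := b₀ * c₁ ^ (2 ^ N - N) with hbdef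
  have hf₀ : c₀ • (ek - (c₁ * b) • g) = algebraMap A Fp a₀ := by
    rw [ha₀, hb]
    simp only [Algebra.smul_def, map_mul]
    ring
  obtain ⟨a', ha'⟩ := hsat (ek - (c₁ * b) • g) (OU.sub_mem hek (OU.smul_mem hg _)) a₀ hf₀
  refine ⟨a', b • g - gk, OU.sub_mem (OU.smul_mem hg _) hgk, ?_⟩
  rw [ha']
  have : e - (ek - (c₁ * b) • g) = (c₁ * b) • g - (ek - e) := by ring
  rw [this, hgke]
  simp only [Algebra.smul_def, map_mul]
  ring

end Fermat.Agent.S34
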