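/-
TRACK 7 (S34 + S35), package (C)-ALG (helper1), part 2: valuation-ring forms of the abstract
connectedness lemma `S34CN_conn`, and "finitely generated ⇒ bounded torsion" over a valuation ring.

Mathlib only.  Prefix `S34CN_`.
-/
import Fermat.Agent.S34.ConnAlg

set_option autoImplicit false

namespace Fermat.Agent.S34

open Submodule

section torsion

variable {A : Type*} [CommRing A] [IsDomain A] [ValuationRing A]

/-- Over a valuation domain the torsion of a finitely generated module is killed by ONE nonzero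
element. -/
theorem S34CN_torsion_bounded (M : Type*) [AddCommGroup M] [Module A M] [Module.Finite A M] :
    ∃ c₀ : A, c₀ ≠ 0 ∧ ∀ m : M, (∃ c : A, c ≠ 0 ∧ c • m = 0) → c₀ • m = 0 := by
  classical
  -- the torsion-free quotient is free, hence projective
  let T : Submodule A M := torsion A M
  have : Module.Finite A (M ⧸ T) := inferInstance
  have hflat : Module.Flat A (M ⧸ T) :=
    (Module.Flat.flat_iff_torsion_eq_bot_of_isBezout (R := A) (M := M ⧸ T)).2
      (Submodule.QuotientTorsion.torsion_eq_bot (R := A) (M := M))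
  have hfree : Module.Free A (M ⧸ T) := Module.free_of_flat_of_isLocalRing
  obtain ⟨s, hs⟩ := Module.projective_lifting_property (T.mkQ) (LinearMap.id : (M ⧸ T) →ₗ[A] (M ⧸ T))
    (Submodule.mkQ_surjective T)
  -- the projection onto the torsion
  let p : M →ₗ[A] M := LinearMap.id - s.comp T.mkQ
  have hp_mem : ∀ m, p m ∈ T := by
    intro m
    have : T.mkQ (p m) = 0 := by
      have h1 : T.mkQ (s (T.mkQ m)) = T.mkQ m := by
        have := congrArg (fun f => f (T.mkQ m)) hs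
        simpa using this
      simp only [p, LinearMap.sub_apply, LinearMap.id_apply, LinearMap.comp_apply, map_sub, h1,
        sub_self]
    simpa [Submodule.mkQ_apply, Submodule.Quotient.mk_eq_zero] using this
  have hp_id : ∀ m ∈ T, p m = m := by
    intro m hm
    have : T.mkQ m = 0 := by
      simpa [Submodule.mkQ_apply, Submodule.Quotient.mk_eq_zero] using hm
    simp [p, this]
  -- finitely many generators of `M`, projected to `T`
  obtain ⟨S, hS⟩ := (Module.Finite.fg_top : (⊤ : Submodule A M).FG)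
  -- each `p x`, `x ∈ S`, is killed by a nonzero element
  have hkill : ∀ x : M, ∃ c : A, c ≠ 0 ∧ c • p x = 0 := by
    intro x
    have hx := hp_mem x
    rw [show T = torsion A M from rfl, Submodule.mem_torsion_iff] at hx
    obtain ⟨a, ha⟩ := hx
    exact ⟨(a : A), nonZeroDivisors.coe_ne_zero a, ha⟩
  choose cf hcf0 hcf using hkill
  refine ⟨∏ x ∈ S, cf x, Finset.prod_ne_zero_iff.mpr (fun x _ => hcf0 x), ?_⟩
  intro m hm
  have hmT : m ∈ T := by
    rw [show T = torsion A M from rfl, Submodule.mem_torsion_iff]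
    obtain ⟨c, hc, hcm⟩ := hm
    exact ⟨⟨c, mem_nonZeroDivisors_of_ne_zero hc⟩, hcm⟩
  -- `m = p m`, and `p m` is a combination of the `p x`
  have hmspan : m ∈ Submodule.span A (S : Set M) := by rw [hS]; trivial
  have hall : ∀ y ∈ Submodule.span A (S : Set M), (∏ x ∈ S, cf x) • p y = 0 := by
    intro y hy
    induction hy using Submodule.span_induction with
    | mem x hx =>
      have hxS : x ∈ S := hx
      rw [← Finset.mul_prod_erase S cf hxS, mul_comm, mul_smul, hcf x, smul_zero]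
    | zero => simp
    | add x y _ _ hx hy => rw [map_add, smul_add, hx, hy, add_zero]
    | smul a x _ hx => rw [map_smul, smul_comm, hx, smul_zero]
  have := hall m hmspan
  rwa [hp_id m hmT] at this

end torsion

section conn

variable {A Fp : Type*} [CommRing A] [IsDomain A] [ValuationRing A] [CommRing Fp] [Algebra A Fp]

/-- **Abstract connectedness lemma, valuation-ring form.**  `A` is a valuation domain of rank one
(`harch`), `OU, OU' ≤ OUU` are `A`-subalgebras with `OU ∩ OU' = A`, the torsion of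
`OUU / (OU + OU')` is bounded by `c₀`, constants of `OU` are saturated.  If `e ∈ OU`, `e' ∈ OU'` are
idempotent modulo the maximal ideal and agree modulo the maximal ideal on the overlap, then `e` is
congruent to a constant modulo the maximal ideal. -/
theorem S34CN_conn_val
    (harch : ∀ c₀ c₁ : A, c₀ ≠ 0 → c₁ ≠ 0 → c₁ ∈ IsLocalRing.maximalIdeal A → ∃ N : ℕ, c₀ ∣ c₁ ^ N)
    (OU OU' OUU : Subalgebra A Fp) (hU : OU ≤ OUU) (hU' : OU' ≤ OUU)
    (hconst : ∀ f : Fp, f ∈ OU → f ∈ OU' → ∃ a : A, algebraMap A Fp a = f)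
    (c₀ : A) (hc₀ : c₀ ≠ 0)
    (htors : ∀ h : Fp, h ∈ OUU → ∀ c : A, c ≠ 0 →
      (∃ g ∈ OU, ∃ g' ∈ OU', c • h = g + g') → ∃ g ∈ OU, ∃ g' ∈ OU', c₀ • h = g + g')
    (hsat : ∀ f : Fp, f ∈ OU → ∀ a : A, c₀ • f = algebraMap A Fp a →
      ∃ a' : A, algebraMap A Fp a' = f)
    (e e' : Fp) (he : e ∈ OU) (he' : e' ∈ OU')
    (h1 : ∃ c ∈ IsLocalRing.maximalIdeal A, ∃ f ∈ OU, e ^ 2 - e = c • f)
    (h2 : ∃ c ∈ IsLocalRing.maximalIdeal A, ∃ f ∈ OU', e' ^ 2 - e' = c • f)
    (h3 : ∃ c ∈ IsLocalRing.maximalIdeal A, ∃ h ∈ OUU, e - e' = c • h) :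
    ∃ a : A, ∃ c ∈ IsLocalRing.maximalIdeal A, ∃ f ∈ OU, e - algebraMap A Fp a = c • f := by
  obtain ⟨ca, hca, fa, hfa, hfae⟩ := h1
  obtain ⟨cb, hcb, fb, hfb, hfbe⟩ := h2
  obtain ⟨cc, hcc, fc, hfc, hfce⟩ := h3
  -- a common modulus
  have hcommon : ∃ c₁ ∈ IsLocalRing.maximalIdeal A, c₁ ∣ ca ∧ c₁ ∣ cb ∧ c₁ ∣ cc := by
    have two : ∀ x y : A, x ∈ IsLocalRing.maximalIdeal A → y ∈ IsLocalRing.maximalIdeal A →
        ∃ z ∈ IsLocalRing.maximalIdeal A, z ∣ x ∧ z ∣ y := by
      intro x y hx hy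
      rcases ValuationRing.dvd_total x y with h | h
      · exact ⟨x, hx, dvd_rfl, h⟩
      · exact ⟨y, hy, h, dvd_rfl⟩
    obtain ⟨z, hz, hzx, hzy⟩ := two ca cb hca hcb
    obtain ⟨w, hw, hwz, hwc⟩ := two z cc hz hcc
    exact ⟨w, hw, hwz.trans hzx, hwz.trans hzy, hwc⟩
  obtain ⟨c₁, hc₁, ⟨da, hda⟩, ⟨db, hdb⟩, ⟨dc, hdc⟩⟩ := hcommon
  have harch' : ∃ N : ℕ, c₀ * c₁ ∣ c₁ ^ N := by
    by_cases h0 : c₁ = 0
    · exact ⟨1, by simp [h0]⟩
    · exact harch (c₀ * c₁) c₁ (mul_ne_zero hc₀ h0) h0 hc₁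
  obtain ⟨a, f, hf, hfe⟩ := S34CN_conn OU OU' OUU hU hU' hconst c₀ htors hsat c₁ harch' e e' he he'
    ⟨da • fa, OU.smul_mem hfa _, by rw [hfae, hda, mul_smul]⟩
    ⟨db • fb, OU'.smul_mem hfb _, by rw [hfbe, hdb, mul_smul]⟩
    ⟨dc • fc, OUU.smul_mem hfc _, by rw [hfce, hdc, mul_smul]⟩
  exact ⟨a, c₁, hc₁, f, hf, hfe⟩

/-- The torsion bound `htors` of `S34CN_conn` follows from finite generation of
`OUU` modulo `OU + OU'`: generator form.  `gens` is a finite family in `OUU` such that every element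
of `OUU` is an `A`-combination of `gens` plus an element of `OU + OU'`. -/
theorem S34CN_htors_of_gens
    (OU OU' OUU : Subalgebra A Fp) (hU : OU ≤ OUU) (hU' : OU' ≤ OUU)
    {ι : Type*} [Fintype ι] (gens : ι → Fp)
    (hgen : ∀ h : Fp, h ∈ OUU → ∃ (coef : ι → A), ∃ g ∈ OU, ∃ g' ∈ OU',
      h = ∑ i, coef i • gens i + g + g') :
    ∃ c₀ : A, c₀ ≠ 0 ∧ ∀ h : Fp, h ∈ OUU → ∀ c : A, c ≠ 0 →
      (∃ g ∈ OU, ∃ g' ∈ OU', c • h = g + g') → ∃ g ∈ OU, ∃ g' ∈ OU', c₀ • h = g + g' := by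
  classical
  -- the submodule `P = OU + OU'` of `Fp` and the quotient `Q = (ι → A) / {coef : Σ coef • gens ∈ P}`
  let P : Submodule A Fp := Subalgebra.toSubmodule OU ⊔ Subalgebra.toSubmodule OU'
  let φ : (ι → A) →ₗ[A] Fp := Fintype.linearCombination A gens
  let K : Submodule A (ι → A) := P.comap φ
  have : Module.Finite A ((ι → A) ⧸ K) := inferInstance
  obtain ⟨c₀, hc₀, hkill⟩ := S34CN_torsion_bounded (A := A) ((ι → A) ⧸ K)
  have hPmem : ∀ x : Fp, x ∈ P ↔ ∃ g ∈ OU, ∃ g' ∈ OU', x = g + g' := by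
    intro x
    constructor
    · intro hx
      obtain ⟨g, hg, g', hg', hgg'⟩ := Submodule.mem_sup.mp hx
      exact ⟨g, hg, g', hg', hgg'.symm⟩
    · rintro ⟨g, hg, g', hg', rfl⟩
      exact Submodule.mem_sup.mpr ⟨g, hg, g', hg', rfl⟩
  refine ⟨c₀, hc₀, ?_⟩
  intro h hh c hc hch
  obtain ⟨coef, g, hg, g', hg', hdec⟩ := hgen h hh
  have hgP : g + g' ∈ P := (hPmem _).2 ⟨g, hg, g', hg', rfl⟩
  have hφ : φ coef = ∑ i, coef i • gens i := by
    simp [φ, Fintype.linearCombination_apply]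
  -- `c • coef ∈ K`
  have hcK : c • coef ∈ K := by
    show φ (c • coef) ∈ P
    rw [map_smul, hφ]
    have : c • ∑ i, coef i • gens i = c • h - c • (g + g') := by
      rw [hdec]; simp only [smul_add]; abel
    rw [this]
    exact P.sub_mem ((hPmem _).2 hch) (P.smul_mem c hgP)
  have hq : c • (K.mkQ coef) = 0 := by
    have : K.mkQ (c • coef) = 0 := by
      rw [Submodule.mkQ_apply]
      exact (Submodule.Quotient.mk_eq_zero K).2 hcK
    rwa [map_smul] at this
  have h0 := hkill (K.mkQ coef) ⟨c, hc, hq⟩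
  have hc0K : c₀ • coef ∈ K := by
    have : K.mkQ (c₀ • coef) = 0 := by rw [map_smul]; exact h0
    rw [Submodule.mkQ_apply] at this
    exact (Submodule.Quotient.mk_eq_zero K).1 this
  have hc0P : c₀ • ∑ i, coef i • gens i ∈ P := by
    have : φ (c₀ • coef) ∈ P := hc0K
    rwa [map_smul, hφ] at this
  have : c₀ • h ∈ P := by
    rw [hdec, add_assoc, smul_add]
    exact P.add_mem hc0P (P.smul_mem c₀ hgP)
  exact (hPmem _).1 this

end conn

end Fermat.Agent.S34
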