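import Fermat.Agent.S34.InjAbs
import Fermat.Agent.S34.Lat
import Fermat.Agent.S34.ConnVal

/-!
# TRACK 7 (S34 + S35), package INJ (helper25): `S34I_false` instantiated on a lattice datum

`S : S34L_Lat L F k R` (helper4's LAT: `A ⊂ L` valuation ring, `O ⊂ F` the unit ball of
`min(V₁, V₂)`, `red : O → R = Fk₁ × Fk₂`), three charts given by their rings of regular functions
`B, B' ≤ B''` (`L`-subalgebras of `F`, `n`-root closed, `B ⊓ B' = L`), a NORMALISED Kummer
generator `u ∈ O`, `red u = 1`.  The integral sections of `O(D)` on a chart are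
`S34IC_M S B n u = {f ∈ O | fⁿ·u ∈ B}`.

`S34IC_inj`: if `H¹` has bounded torsion (`htors`, package TORS) and the reductions of the sections
on `U` and on `U'` both contain `1` (`f₁, f₁'`: trivial gluing invariant, package GAMMA in the
charts `U`, `U'`), then `u = c·gⁿ` is a trivial Kummer generator.
-/

set_option autoImplicit false

namespace Fermat.Agent.S34

variable {L F k R : Type*} [Field L] [Field F] [Algebra L F] [Field k] [CommRing R]
  [Algebra k R]

section rootclosed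

variable {A : Type*} [CommRing A] [Algebra A F]

/-- products of `n` elements `f` with `fⁿ·u ∈ B` times `u` lie in `B`, if `B` is `n`-root closed. -/
theorem S34IC_prod_mem (B : Subalgebra A F) (n : ℕ)
    (hroot : ∀ y : F, y ^ n ∈ B → y ∈ B) (u : F) (t : Multiset F) (ht : Multiset.card t = n)
    (h : ∀ f ∈ t, f ^ n * u ∈ B) : t.prod * u ∈ B := by
  apply hroot
  have key : ∀ s : Multiset F, (∀ f ∈ s, f ^ n * u ∈ B) →
      s.prod ^ n * u ^ Multiset.card s ∈ B := by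
    intro s
    induction s using Multiset.induction_on with
    | empty => intro _; simp
    | cons a s ih =>
      intro hs
      have h1 := hs a (Multiset.mem_cons_self a s)
      have h2 := ih (fun f hf => hs f (Multiset.mem_cons_of_mem hf))
      have : (a ::ₘ s).prod ^ n * u ^ Multiset.card (a ::ₘ s)
          = (a ^ n * u) * (s.prod ^ n * u ^ Multiset.card s) := by
        rw [Multiset.prod_cons, Multiset.card_cons, mul_pow, pow_succ]
        ring
      rw [this]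
      exact B.mul_mem h1 h2
  have := key t h
  rwa [ht, ← mul_pow] at this

end rootclosed

/-- the integral functions on a chart, as an `A`-subalgebra. -/
def S34IC_Lam (S : S34L_Lat L F k R) (B : Subalgebra L F) : Subalgebra S.A F where
  carrier := {f | f ∈ S.O ∧ f ∈ B}
  mul_mem' := fun ha hb => ⟨S.O.mul_mem ha.1 hb.1, B.mul_mem ha.2 hb.2⟩
  add_mem' := fun ha hb => ⟨S.O.add_mem ha.1 hb.1, B.add_mem ha.2 hb.2⟩
  algebraMap_mem' := fun a => ⟨S.algebraMap_mem a a.2, B.algebraMap_mem (a : L)⟩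

theorem S34IC_mem_Lam (S : S34L_Lat L F k R) (B : Subalgebra L F) (f : F) :
    f ∈ S34IC_Lam S B ↔ f ∈ S.O ∧ f ∈ B := Iff.rfl

/-- the integral sections of `O(D)` on a chart (`div u = n·D`), as an `A`-submodule. -/
def S34IC_M (S : S34L_Lat L F k R) (B : Subalgebra L F) (n : ℕ)
    (hroot : ∀ y : F, y ^ n ∈ B → y ∈ B) (u : F) : Submodule S.A F where
  carrier := {f | f ∈ S.O ∧ f ^ n * u ∈ B}
  zero_mem' := by
    refine ⟨S.O.zero_mem, ?_⟩
    rcases Nat.eq_zero_or_pos n with h0 | h0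
    · subst h0
      have : (u : F) ∈ B := hroot u (by simp)
      simpa using this
    · rw [zero_pow (by omega), zero_mul]
      exact B.zero_mem
  add_mem' := by
    rintro f g ⟨hfO, hf⟩ ⟨hgO, hg⟩
    refine ⟨S.O.add_mem hfO hgO, ?_⟩
    rw [add_pow, Finset.sum_mul]
    refine B.sum_mem fun i hi => ?_
    have hi' : i ≤ n := by
      have := Finset.mem_range.mp hi
      omega
    have h1 : f ^ i * g ^ (n - i) * u ∈ B := by
      have := S34IC_prod_mem B n hroot u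
        (Multiset.replicate i f + Multiset.replicate (n - i) g) (by simp; omega) (by
          intro x hx
          simp only [Multiset.mem_add, Multiset.mem_replicate] at hx
          rcases hx with ⟨_, rfl⟩ | ⟨_, rfl⟩
          · exact hf
          · exact hg)
      simpa [Multiset.prod_replicate] using this
    have h2 : f ^ i * g ^ (n - i) * (n.choose i : F) * u
        = (n.choose i : F) * (f ^ i * g ^ (n - i) * u) := by ring
    rw [h2]
    exact B.mul_mem (natCast_mem B _) h1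
  smul_mem' := by
    rintro a f ⟨hfO, hf⟩
    refine ⟨?_, ?_⟩
    · rw [Algebra.smul_def]
      exact S.O.mul_mem (S.algebraMap_mem a a.2) hfO
    · have : (a • f) ^ n * u = algebraMap L F ((a : L) ^ n) * (f ^ n * u) := by
        rw [Algebra.smul_def, mul_pow, map_pow]
        have : algebraMap (↥S.A) F a = algebraMap L F (a : L) := rfl
        rw [this]
        ring
      rw [this]
      exact B.mul_mem (B.algebraMap_mem _) hf

theorem S34IC_mem_M (S : S34L_Lat L F k R) (B : Subalgebra L F) (n : ℕ)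
    (hroot : ∀ y : F, y ^ n ∈ B → y ∈ B) (u : F) (f : F) :
    f ∈ S34IC_M S B n hroot u ↔ f ∈ S.O ∧ f ^ n * u ∈ B := Iff.rfl

/-- bounded torsion from finitely many generators of `M''` modulo `M + M'` (submodule form of
helper1's `S34CN_htors_of_gens`). -/
theorem S34IC_htors_of_gens {A V : Type*} [CommRing A] [IsDomain A] [ValuationRing A]
    [AddCommGroup V] [Module A V] (P M'' : Submodule A V)
    {ι : Type*} [Fintype ι] (gens : ι → V)
    (hgen : ∀ h ∈ M'', ∃ (coef : ι → A), ∃ p ∈ P, h = ∑ i, coef i • gens i + p) :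
    ∃ c₀ : A, c₀ ≠ 0 ∧ ∀ h ∈ M'', ∀ c : A, c ≠ 0 → c • h ∈ P → c₀ • h ∈ P := by
  classical
  let φ : (ι → A) →ₗ[A] V := Fintype.linearCombination A gens
  let K : Submodule A (ι → A) := P.comap φ
  have : Module.Finite A ((ι → A) ⧸ K) := inferInstance
  obtain ⟨c₀, hc₀, hkill⟩ := S34CN_torsion_bounded (A := A) ((ι → A) ⧸ K)
  refine ⟨c₀, hc₀, ?_⟩
  intro h hh c hc hch
  obtain ⟨coef, p, hp, hdec⟩ := hgen h hh
  have hφ : φ coef = ∑ i, coef i • gens i := by
    simp [φ, Fintype.linearCombination_apply]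
  have hcK : c • coef ∈ K := by
    show φ (c • coef) ∈ P
    rw [map_smul, hφ]
    have : c • ∑ i, coef i • gens i = c • h - c • p := by
      rw [hdec]; simp only [smul_add]; abel
    rw [this]
    exact P.sub_mem hch (P.smul_mem c hp)
  have hq : c • (K.mkQ coef) = 0 := by
    have : K.mkQ (c • coef) = 0 := by
      rw [Submodule.mkQ_apply]
      exact (Submodule.Quotient.mk_eq_zero K).2 hcK
    rwa [map_smul] at this
  have h0 := hkill (K.mkQ coef) ⟨c, hc, hq⟩
  have hc0K : c₀ • coef ∈ K := by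
    have : K.mkQ (c₀ • coef) = 0 := by rw [map_smul]; exact h0
    rw [Submodule.mkQ_apply] at this
    exact (Submodule.Quotient.mk_eq_zero K).1 this
  have hc0P : c₀ • ∑ i, coef i • gens i ∈ P := by
    have : φ (c₀ • coef) ∈ P := hc0K
    rwa [map_smul, hφ] at this
  rw [hdec, smul_add]
  exact P.add_mem hc0P (P.smul_mem c₀ hp)

/-- **INJ on a lattice datum**: a normalised Kummer generator whose sections are trivial modulo the
maximal ideal on the charts `U` and `U'` is a trivial Kummer generator. -/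
theorem S34IC_inj [Nontrivial R] (S : S34L_Lat L F k R)
    (hker : ∀ f : S.O, (f : F) ≠ 0 → S.red f = 0 →
      ∃ (c : S.A) (g : S.O), ¬ IsUnit c ∧ f = S.const c * g)
    (hrank : ∀ c : S.A, ¬ IsUnit c → c ≠ 0 → ∀ a : S.A, a ≠ 0 → ∃ N : ℕ, a ∣ c ^ N)
    (n : ℕ) (hn : 0 < n) (hnk : (n : k) ≠ 0)
    (B B' B'' : Subalgebra L F) (hB : B ≤ B'') (hB' : B' ≤ B'')
    (hroot : ∀ y : F, y ^ n ∈ B → y ∈ B) (hroot' : ∀ y : F, y ^ n ∈ B' → y ∈ B')
    (hroot'' : ∀ y : F, y ^ n ∈ B'' → y ∈ B'')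
    (hconst : ∀ f : F, f ∈ B → f ∈ B' → ∃ a : L, f = algebraMap L F a)
    (u : S.O) (hu : S.red u = 1)
    (htors : ∃ c₀ : S.A, c₀ ≠ 0 ∧ ∀ h ∈ S34IC_M S B'' n hroot'' u, ∀ a : S.A, a ≠ 0 →
      a • h ∈ S34IC_M S B n hroot u ⊔ S34IC_M S B' n hroot' u →
      c₀ • h ∈ S34IC_M S B n hroot u ⊔ S34IC_M S B' n hroot' u)
    (f₁ f₁' : S.O) (hf₁ : (f₁ : F) ^ n * u ∈ B) (hf₁' : (f₁' : F) ^ n * u ∈ B')
    (hr : S.red f₁ = 1) (hr' : S.red f₁' = 1) :
    ∃ (c : L) (g : F), c ≠ 0 ∧ g ≠ 0 ∧ (u : F) = algebraMap L F c * g ^ n := by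
  classical
  by_contra hnt
  -- generalities
  have hn0 : n ≠ 0 := by omega
  have hne_of_red : ∀ x : S.O, S.red x = 1 → (x : F) ≠ 0 := by
    intro x hx h0
    have : x = 0 := Subtype.ext h0
    rw [this, map_zero] at hx
    exact zero_ne_one hx
  have hu0 : (u : F) ≠ 0 := hne_of_red u hu
  -- a nonzero section `f` with `fⁿ u` constant makes `u` trivial
  have htriv : ∀ f : F, f ≠ 0 → ∀ a : L, f ^ n * u = algebraMap L F a → False := by
    intro f hf a ha
    apply hnt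
    have ha0 : a ≠ 0 := by
      rintro rfl
      rw [map_zero] at ha
      exact mul_ne_zero (pow_ne_zero _ hf) hu0 ha
    refine ⟨a, f⁻¹, ha0, inv_ne_zero hf, ?_⟩
    rw [← ha, inv_pow]
    field_simp
  -- the three charts
  set Λ := S34IC_Lam S B with hΛ
  set Λ' := S34IC_Lam S B' with hΛ'
  set Λ'' := S34IC_Lam S B'' with hΛ''
  set M := S34IC_M S B n hroot u with hMdef
  set M' := S34IC_M S B' n hroot' u with hM'def
  set M'' := S34IC_M S B'' n hroot'' u with hM''def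
  have hf₁M : (f₁ : F) ∈ M := ⟨f₁.2, hf₁⟩
  have hf₁'M : (f₁' : F) ∈ M' := ⟨f₁'.2, hf₁'⟩
  have hMle : M ≤ M'' := fun f hf => ⟨hf.1, hB hf.2⟩
  have hM'le : M' ≤ M'' := fun f hf => ⟨hf.1, hB' hf.2⟩
  -- `n` is a unit of `A`
  have hnA : IsUnit ((n : ℕ) : S.A) := by
    by_contra h
    have := (S.res_eq_zero_iff (n : S.A)).2 h
    rw [map_natCast] at this
    exact hnk this
  -- kernel of `red`, with membership in the chart
  have hkerB : ∀ (C : Subalgebra L F) (e : S.O), (e : F) ∈ C → (e : F) ≠ 0 → S.red e = 0 →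
      ∃ (c : S.A) (g : F), ¬ IsUnit c ∧ c ≠ 0 ∧ g ∈ S.O ∧ g ∈ C ∧ (e : F) = c • g := by
    intro C e heC he0 hred
    obtain ⟨c, g, hc, hcg⟩ := hker e he0 hred
    have hcg' : (e : F) = algebraMap L F (c : L) * (g : F) := by
      have := congrArg (fun z : S.O => (z : F)) hcg
      simpa using this
    have hc0 : c ≠ 0 := by
      rintro rfl
      apply he0
      rw [hcg']
      simp
    have hcL : (c : L) ≠ 0 := fun h => hc0 (Subtype.ext h)
    refine ⟨c, g, hc, hc0, g.2, ?_, ?_⟩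
    · have : (g : F) = algebraMap L F ((c : L)⁻¹) * (e : F) := by
        rw [hcg', ← mul_assoc, ← map_mul, inv_mul_cancel₀ hcL, map_one, one_mul]
      rw [this]
      exact C.mul_mem (C.algebraMap_mem _) heC
    · rw [hcg', Algebra.smul_def]
      rfl
  -- the three congruences
  have h1 : ∃ (c : S.A) (l : F), ¬ IsUnit c ∧ c ≠ 0 ∧ l ∈ Λ ∧ (f₁ : F) ^ n * u - 1 = c • l := by
    have hmem : (f₁ : F) ^ n * u - 1 ∈ B := B.sub_mem hf₁ B.one_mem
    have hne : (f₁ : F) ^ n * u - 1 ≠ 0 := by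
      intro h0
      refine htriv f₁ (hne_of_red f₁ hr) 1 ?_
      rw [map_one]
      exact sub_eq_zero.mp h0
    obtain ⟨c, g, hc, hc0, hgO, hgB, he⟩ := hkerB B (f₁ ^ n * u - 1) (by simpa using hmem)
      (by simpa using hne) (by rw [map_sub, map_mul, map_pow, hr, hu]; simp)
    exact ⟨c, g, hc, hc0, ⟨hgO, hgB⟩, by simpa using he⟩
  have h2 : ∃ (c : S.A) (l : F), ¬ IsUnit c ∧ c ≠ 0 ∧ l ∈ Λ' ∧
      (f₁' : F) ^ n * u - 1 = c • l := by
    have hmem : (f₁' : F) ^ n * u - 1 ∈ B' := B'.sub_mem hf₁' B'.one_mem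
    have hne : (f₁' : F) ^ n * u - 1 ≠ 0 := by
      intro h0
      refine htriv f₁' (hne_of_red f₁' hr') 1 ?_
      rw [map_one]
      exact sub_eq_zero.mp h0
    obtain ⟨c, g, hc, hc0, hgO, hgB, he⟩ := hkerB B' (f₁' ^ n * u - 1) (by simpa using hmem)
      (by simpa using hne) (by rw [map_sub, map_mul, map_pow, hr', hu]; simp)
    exact ⟨c, g, hc, hc0, ⟨hgO, hgB⟩, by simpa using he⟩
  -- global sections vanish
  have hglob : ∀ f, f ∈ M → f ∈ M' → f = 0 := by
    intro f hf hf'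
    by_contra hf0
    obtain ⟨a, ha⟩ := hconst _ hf.2 hf'.2
    exact htriv f hf0 a ha
  have h3 : ∃ (c : S.A) (m : F), ¬ IsUnit c ∧ c ≠ 0 ∧ m ∈ M'' ∧ (f₁ : F) - f₁' = c • m := by
    have hne : (f₁ : F) - f₁' ≠ 0 := by
      intro h0
      have heq : (f₁ : F) = f₁' := sub_eq_zero.mp h0
      have := hglob f₁ hf₁M (heq ▸ hf₁'M)
      exact hne_of_red f₁ hr this
    obtain ⟨c, g, hc, hcg⟩ := hker (f₁ - f₁') (by simpa using hne) (by rw [map_sub, hr, hr']; simp)
    have hcg' : (f₁ : F) - f₁' = algebraMap L F (c : L) * (g : F) := by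
      have := congrArg (fun z : S.O => (z : F)) hcg
      simpa using this
    have hc0 : c ≠ 0 := by
      rintro rfl
      apply hne
      rw [hcg']
      simp
    have hcL : (c : L) ≠ 0 := fun h => hc0 (Subtype.ext h)
    refine ⟨c, g, hc, hc0, ⟨g.2, ?_⟩, ?_⟩
    · have hsub : (f₁ : F) - f₁' ∈ M'' := M''.sub_mem (hMle hf₁M) (hM'le hf₁'M)
      have : (g : F) ^ n * u = algebraMap L F (((c : L)⁻¹) ^ n) * (((f₁ : F) - f₁') ^ n * u) := by
        rw [hcg', mul_pow, map_pow, ← mul_assoc, ← mul_assoc, ← mul_pow, ← map_mul,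
          inv_mul_cancel₀ hcL, map_one, one_pow, one_mul]
      rw [this]
      exact B''.mul_mem (B''.algebraMap_mem _) hsub.2
    · rw [hcg', Algebra.smul_def]
      rfl
  obtain ⟨c₁, l₁, hc₁, hc₁0, hl₁, he₁⟩ := h1
  obtain ⟨c₂, l₂, hc₂, hc₂0, hl₂, he₂⟩ := h2
  obtain ⟨c₃, m₃, hc₃, hc₃0, hm₃, he₃⟩ := h3
  -- a common modulus
  have two : ∀ x y : S.A, ¬ IsUnit x → x ≠ 0 → ¬ IsUnit y → y ≠ 0 →
      ∃ z : S.A, ¬ IsUnit z ∧ z ≠ 0 ∧ z ∣ x ∧ z ∣ y := by
    intro x y hx hx0 hy hy0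
    rcases ValuationRing.dvd_total x y with h | h
    · exact ⟨x, hx, hx0, dvd_rfl, h⟩
    · exact ⟨y, hy, hy0, h, dvd_rfl⟩
  obtain ⟨z, hz, hz0, hzx, hzy⟩ := two c₁ c₂ hc₁ hc₁0 hc₂ hc₂0
  obtain ⟨c, hc, hc0, hcz, ⟨d₃, hd₃⟩⟩ := two z c₃ hz hz0 hc₃ hc₃0
  obtain ⟨d₁, hd₁⟩ := hcz.trans hzx
  obtain ⟨d₂, hd₂⟩ := hcz.trans hzy
  refine S34I_false (A := S.A) (F := F) n hnA (u : F) c hc0 (hrank c hc hc0) Λ Λ''
    (fun f hf => ⟨hf.1, hB hf.2⟩) Λ' (fun f hf => ⟨hf.1, hB' hf.2⟩) M M' M'' hMle hM'le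
    ?_ ?_ ?_ ?_ ?_ hglob htors f₁ f₁' hf₁M hf₁'M
    ⟨d₁ • l₁, Λ.smul_mem hl₁ _, by rw [he₁, hd₁, mul_smul]⟩
    ⟨d₂ • l₂, Λ'.smul_mem hl₂ _, by rw [he₂, hd₂, mul_smul]⟩
    ⟨d₃ • m₃, M''.smul_mem _ hm₃, by rw [he₃, hd₃, mul_smul]⟩ ?_
  · -- Λ·M ⊂ M
    rintro a ⟨haO, haB⟩ f ⟨hfO, hf⟩
    refine ⟨S.O.mul_mem haO hfO, ?_⟩
    rw [mul_pow, mul_assoc]
    exact B.mul_mem (B.pow_mem haB n) hf
  · rintro a ⟨haO, haB⟩ f ⟨hfO, hf⟩
    refine ⟨S.O.mul_mem haO hfO, ?_⟩
    rw [mul_pow, mul_assoc]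
    exact B'.mul_mem (B'.pow_mem haB n) hf
  · rintro a ⟨haO, haB⟩ f ⟨hfO, hf⟩
    refine ⟨S.O.mul_mem haO hfO, ?_⟩
    rw [mul_pow, mul_assoc]
    exact B''.mul_mem (B''.pow_mem haB n) hf
  · -- hpow
    intro t ht h
    refine ⟨S.O.mul_mem (S.O.multiset_prod_mem t fun f hf => (h f hf).1) u.2, ?_⟩
    exact S34IC_prod_mem B n hroot u t ht fun f hf => (h f hf).2
  · intro t ht h
    refine ⟨S.O.mul_mem (S.O.multiset_prod_mem t fun f hf => (h f hf).1) u.2, ?_⟩
    exact S34IC_prod_mem B'' n hroot'' u t ht fun f hf => (h f hf).2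
  · -- hprim
    rintro l ⟨hlO, -⟩ h1l
    have h : S.red (1 : S.O) = S.red (S.const c * ⟨l, hlO⟩) := by
      congr 1
      apply Subtype.ext
      show (1 : F) = algebraMap L F (c : L) * l
      rw [h1l, Algebra.smul_def]
      rfl
    rw [map_one, map_mul, S.red_const, (S.res_eq_zero_iff c).2 hc, map_zero, zero_mul] at h
    exact one_ne_zero h

end Fermat.Agent.S34
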