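import Fermat.Agent.S34.RedU2
import Fermat.Agent.S34.WqInst
import Fermat.Agent.S34.AtkinLehnerPhi

/-!
# TRACK 7, package RED2 (helper7, with helper26): the norms along `α`, `β` and RED2 at `V₂`

Level `M`, prime `q ∤ M`, big level `M * q`; `α, β : F_M → F_{Mq}` the Prelude maps,
`w = S34WJ_wq hq hqM` the Atkin–Lehner involution of `F_{Mq}`.

* `S34NK_normAlpha M q u`, `S34NK_normBeta M q u : F_M` — the norms of `u ∈ F_{Mq}` along
  `α` resp. `β` (`F_{Mq}` as an `F_M`-algebra via `α` resp. `β`);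
* `S34NK_beta_normBeta` : `β (N_β u) = ↑(Algebra.norm ↥(GRHS_B M q) u)` (bridge to helper26's form);
* `S34NK_normBeta_wq`   : `N_β (w u) = N_α u`,  `S34NK_normAlpha_wq : N_α (w u) = N_β u`;
* `S34NK_red2_V1` : `(σ u) · w u = c · α (N_β u) · v`,      `v` a `1`-unit of `S18_O A (M * q)`;
* `S34NK_red2_V2` : `(σ u) · w u = c · β (N_α u) · w v`,    `v` a `1`-unit of `S18_O A (M * q)`
  (so `w v` is a `1`-unit of `V₂ = V₁ ∘ w`);
* `S34NK_red2` : if `N_α u` and `N_β u` are trivial Kummer generators of exponent `n`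
  (`= c · hⁿ`), then `G := (σ u) · w u = c₁ · (α h₁)ⁿ · v₁ = c₂ · (β h₂)ⁿ · w v₂`.
-/

set_option autoImplicit false
set_option synthInstance.maxHeartbeats 400000
set_option maxHeartbeats 1000000
set_option linter.unusedSectionVars false
set_option linter.style.haveILetI false

open HahnSeries IntermediateField AlgebraicCurve ModularCurve

noncomputable section

namespace Fermat.Agent.S34

open Fermat.Agent.S18 Fermat.Agent.Lib Fermat.Agent.GalRep Fermat.Agent.S24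

variable (M q : ℕ) [NeZero M] [NeZero q]

/-- the norm of `F_{Mq}` over `F_M` along `α`. -/
def S34NK_normAlpha (u : ↥(modularFunctionFieldBar (M * q))) : ↥(modularFunctionFieldBar M) :=
  @Algebra.norm ↥(modularFunctionFieldBar M) ↥(modularFunctionFieldBar (M * q)) _ _
    (heckeAlphaBar (AlgebraicClosure ℚ) M q).toRingHom.toAlgebra u

/-- the norm of `F_{Mq}` over `F_M` along `β`. -/
def S34NK_normBeta (u : ↥(modularFunctionFieldBar (M * q))) : ↥(modularFunctionFieldBar M) :=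
  @Algebra.norm ↥(modularFunctionFieldBar M) ↥(modularFunctionFieldBar (M * q)) _ _
    (heckeBetaBar (AlgebraicClosure ℚ) M q).toRingHom.toAlgebra u

/-- bridge: `β (N_β u)` is the norm over the subfield `B = β(F_M)`. -/
theorem S34NK_beta_normBeta (u : ↥(modularFunctionFieldBar (M * q))) :
    heckeBetaBar (AlgebraicClosure ℚ) M q (S34NK_normBeta M q u) =
      ((Algebra.norm ↥(GRHS_B M q) u : ↥(GRHS_B M q)) : ↥(modularFunctionFieldBar (M * q))) := by
  have h := @Algebra.norm_eq_of_ringEquiv ↥(modularFunctionFieldBar M) ↥(GRHS_B M q)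
    ↥(modularFunctionFieldBar (M * q)) _ _ _
    (heckeBetaBar (AlgebraicClosure ℚ) M q).toRingHom.toAlgebra _
    (AlgEquiv.ofInjectiveField (heckeBetaBar (AlgebraicClosure ℚ) M q)).toRingEquiv
    (RingHom.ext fun x => rfl) u
  rw [← h]
  rfl


variable (hq : q.Prime) (hqM : ¬ q ∣ M)

/-- `N_β (w u) = N_α u`. -/
theorem S34NK_normBeta_wq (u : ↥(modularFunctionFieldBar (M * q))) :
    S34NK_normBeta M q (S34WJ_wq hq hqM u) = S34NK_normAlpha M q u :=
  (S34WJ_wq_norm_alpha hq hqM u).symm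

/-- `N_α (w u) = N_β u`. -/
theorem S34NK_normAlpha_wq (u : ↥(modularFunctionFieldBar (M * q))) :
    S34NK_normAlpha M q (S34WJ_wq hq hqM u) = S34NK_normBeta M q u :=
  (S34WJ_wq_norm_beta hq hqM u).symm

/-- `(WQ-φ)` for `S34WJ_wq`. -/
theorem S34NK_qExpand_wq (y w : ℤ) (h : (q : ℤ) * w - M * y = 1)
    (f : ↥(modularFunctionFieldBar (M * q))) :
    qExpand (AlgebraicClosure ℚ) q
        ((S34WJ_wq hq hqM f : ↥(modularFunctionFieldBar (M * q))) :
          LaurentSeries (AlgebraicClosure ℚ)) =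
      ((GRHP_phiInf M q y w h hq f : ↥(modularFunctionFieldBar (M * q * q))) :
        LaurentSeries (AlgebraicClosure ℚ)) :=
  S34WQ_qExpand_wq M q hq hqM y w h f

variable (A : ValuationSubring (AlgebraicClosure ℚ)) (hA : A.LiesOverPrime q)
  (hgen : PrincipalGeneratedByIntegral A (IsLocalRing.residue A) (M * q))

include hA hgen in
/-- **RED2 at `V₁`**: for a Frobenius lift `σ` at `A ∣ q` and `u ≠ 0`:
`(σ u) · w u = c · α (N_β u) · v` with `v` a `1`-unit of the Gauss ring `S18_O A (M * q)`. -/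
theorem S34NK_red2_V1 (σ : AlgebraicClosure ℚ ≃ₐ[ℚ] AlgebraicClosure ℚ)
    (hσ : A.IsFrobeniusAt σ q) (u : ↥(modularFunctionFieldBar (M * q))) (hu : u ≠ 0) :
    ∃ (c : AlgebraicClosure ℚ) (v : ↥(modularFunctionFieldBar (M * q)))
      (hv : v ∈ S18_O A (M * q)), c ≠ 0 ∧ S18_red A (M * q) ⟨v, hv⟩ = 1 ∧
        GR_gal (M * q) σ u * S34WJ_wq hq hqM u =
          algebraMap (AlgebraicClosure ℚ) ↥(modularFunctionFieldBar (M * q)) c *
            heckeAlphaBar (AlgebraicClosure ℚ) M q (S34NK_normBeta M q u) * v := by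
  obtain ⟨y, w, h⟩ := GRHP_exists_yw hq hqM
  obtain ⟨ζ₀, hζ₀⟩ := HasEnoughRootsOfUnity.exists_primitiveRoot (AlgebraicClosure ℚ) q
  set ζ : (AlgebraicClosure ℚ)ˣ := (hζ₀.isUnit (NeZero.ne q)).unit with hζdef
  have hζ : IsPrimitiveRoot (ζ : AlgebraicClosure ℚ) q := by
    rw [hζdef, IsUnit.unit_spec]; exact hζ₀
  have hst : GRS_Stab (M * q) q ζ := GRHS_stab ζ hζ hq
  exact S34U_red2_V1 M q hq hqM ζ hζ y w h A hA hgen σ hσ hst
    (fun f => S34WJ_wq hq hqM f) (fun f => S34NK_qExpand_wq M q hq hqM y w h f) u hu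
    (S34NK_normBeta M q u) (S34NK_beta_normBeta M q u)

include hA hgen in
/-- **RED2 at `V₂`**: for a Frobenius lift `σ` at `A ∣ q` and `u ≠ 0`:
`(σ u) · w u = c · β (N_α u) · w v` with `v` a `1`-unit of the Gauss ring `S18_O A (M * q)`
(so `w v` is a `1`-unit of `V₂ = V₁ ∘ w`). -/
theorem S34NK_red2_V2 (σ : AlgebraicClosure ℚ ≃ₐ[ℚ] AlgebraicClosure ℚ)
    (hσ : A.IsFrobeniusAt σ q) (u : ↥(modularFunctionFieldBar (M * q))) (hu : u ≠ 0) :
    ∃ (c : AlgebraicClosure ℚ) (v : ↥(modularFunctionFieldBar (M * q)))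
      (hv : v ∈ S18_O A (M * q)), c ≠ 0 ∧ S18_red A (M * q) ⟨v, hv⟩ = 1 ∧
        GR_gal (M * q) σ u * S34WJ_wq hq hqM u =
          algebraMap (AlgebraicClosure ℚ) ↥(modularFunctionFieldBar (M * q)) c *
            heckeBetaBar (AlgebraicClosure ℚ) M q (S34NK_normAlpha M q u) *
              S34WJ_wq hq hqM v := by
  have hwu : S34WJ_wq hq hqM u ≠ 0 :=
    (map_ne_zero_iff _ (S34WJ_wq hq hqM).injective).mpr hu
  obtain ⟨c, v, hv, hc, hred, hrel⟩ :=
    S34NK_red2_V1 M q hq hqM A hA hgen σ hσ (S34WJ_wq hq hqM u) hwu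
  refine ⟨c, v, hv, hc, hred, ?_⟩
  have h2 := congrArg (S34WJ_wq hq hqM) hrel
  rw [map_mul, map_mul, map_mul, S34WJ_wq_gal, S34WJ_wq_wq, S34WJ_wq_alpha,
    S34NK_normBeta_wq, (S34WJ_wq hq hqM).commutes] at h2
  exact h2

/-- the image of a trivial Kummer generator of level `M` under an algebra map is of the same
shape. -/
theorem S34NK_map_triv (φ : ↥(modularFunctionFieldBar M) →ₐ[AlgebraicClosure ℚ]
      ↥(modularFunctionFieldBar (M * q))) {n : ℕ} {g : ↥(modularFunctionFieldBar M)}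
    (hg : GR_IsTriv M n g) :
    ∃ (c : AlgebraicClosure ℚ) (h : ↥(modularFunctionFieldBar M)), c ≠ 0 ∧ h ≠ 0 ∧
      φ g = algebraMap (AlgebraicClosure ℚ) ↥(modularFunctionFieldBar (M * q)) c * (φ h) ^ n := by
  obtain ⟨c, h, hc, hh, rfl⟩ := hg
  exact ⟨c, h, hc, hh, by rw [map_mul, map_pow, φ.commutes]⟩

include hA hgen in
/-- **RED2, function form**: if the norms `N_α u`, `N_β u` are trivial Kummer generators of
exponent `n` at level `M`, then for every Frobenius lift `σ` at `A ∣ q` the function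
`G = (σ u) · w u` is, up to a constant and an `n`-th power, a `1`-unit at `V₁`
(`G = c₁ · (α h₁)ⁿ · v₁`) and a `1`-unit at `V₂` (`G = c₂ · (β h₂)ⁿ · w v₂`). -/
theorem S34NK_red2 (σ : AlgebraicClosure ℚ ≃ₐ[ℚ] AlgebraicClosure ℚ)
    (hσ : A.IsFrobeniusAt σ q) (n : ℕ) (u : ↥(modularFunctionFieldBar (M * q))) (hu : u ≠ 0)
    (hα : GR_IsTriv M n (S34NK_normAlpha M q u)) (hβ : GR_IsTriv M n (S34NK_normBeta M q u)) :
    (∃ (c₁ : AlgebraicClosure ℚ) (h₁ : ↥(modularFunctionFieldBar M))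
        (v₁ : ↥(modularFunctionFieldBar (M * q))) (hv₁ : v₁ ∈ S18_O A (M * q)),
        c₁ ≠ 0 ∧ h₁ ≠ 0 ∧ S18_red A (M * q) ⟨v₁, hv₁⟩ = 1 ∧
          GR_gal (M * q) σ u * S34WJ_wq hq hqM u =
            algebraMap (AlgebraicClosure ℚ) ↥(modularFunctionFieldBar (M * q)) c₁ *
              (heckeAlphaBar (AlgebraicClosure ℚ) M q h₁) ^ n * v₁) ∧
    (∃ (c₂ : AlgebraicClosure ℚ) (h₂ : ↥(modularFunctionFieldBar M))
        (v₂ : ↥(modularFunctionFieldBar (M * q))) (hv₂ : v₂ ∈ S18_O A (M * q)),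
        c₂ ≠ 0 ∧ h₂ ≠ 0 ∧ S18_red A (M * q) ⟨v₂, hv₂⟩ = 1 ∧
          GR_gal (M * q) σ u * S34WJ_wq hq hqM u =
            algebraMap (AlgebraicClosure ℚ) ↥(modularFunctionFieldBar (M * q)) c₂ *
              (heckeBetaBar (AlgebraicClosure ℚ) M q h₂) ^ n * S34WJ_wq hq hqM v₂) := by
  constructor
  · obtain ⟨c, v, hv, hc, hred, hrel⟩ := S34NK_red2_V1 M q hq hqM A hA hgen σ hσ u hu
    obtain ⟨c', h', hc', hh', hrel'⟩ :=
      S34NK_map_triv M q (heckeAlphaBar (AlgebraicClosure ℚ) M q) hβ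
    refine ⟨c * c', h', v, hv, mul_ne_zero hc hc', hh', hred, ?_⟩
    rw [hrel, hrel', map_mul]
    ring
  · obtain ⟨c, v, hv, hc, hred, hrel⟩ := S34NK_red2_V2 M q hq hqM A hA hgen σ hσ u hu
    obtain ⟨c', h', hc', hh', hrel'⟩ :=
      S34NK_map_triv M q (heckeBetaBar (AlgebraicClosure ℚ) M q) hα
    refine ⟨c * c', h', v, hv, mul_ne_zero hc hc', hh', hred, ?_⟩
    rw [hrel, hrel', map_mul]
    ring

end Fermat.Agent.S34
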