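import Mathlib
import Fermat.Agent.S34.Cart2Frob
import Fermat.Agent.S34.PoleX0
import Fermat.Agent.S34.ValWire
import Fermat.Agent.S34.ValFk
import Fermat.Agent.S20.PsiRec

/-!
# TRACK 7 (S34 + S35), package CART2 (helper5), part 2b: the cartesian chart of `X₀(M q)` at `q`

Level `N = M * q`, `q` prime, `q ∤ M`, `A ⊂ ℚ̄` a valuation ring over `q`, `k` its residue field,
`hgen` = VAL-HGEN.  The chart is `x = j`, `n = ψ(M) + ψ(M) q = ψ(M q)`.

* `S34CB_isCart_congr` : a cartesian chart only depends on the unit ball and the reduction map;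
* `S34CB_psi` : `ψ(M q) = ψ(M) + ψ(M) q`;
* `S34CB_finrank_jB_le` : `[F_{Mq} : ℚ̄(j)] ≤ ψ(M) + ψ(M) q`;
* `S34CB_isCart_X0_pair` : **the chart `j` of the pair `(V₁, V₂)`**, on helper2's concrete pair
  `S34PX_S1`, `S34PX_S2`, `S34PX_j` (`S34/PoleX0.lean`), with the explicit `n`;
* `S34CB_isCart_X0` : the same for the concrete datum `S34DF_lat M q hq hqM A` of DEFS.

(`S34PX_Cart` itself is helper24's `S34VW_cart`, `S34/ValCart.lean`.)
-/

set_option autoImplicit false
set_option synthInstance.maxHeartbeats 400000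
set_option maxHeartbeats 1000000
set_option linter.unusedSectionVars false
set_option linter.style.haveILetI false

open HahnSeries IntermediateField AlgebraicCurve ModularCurve Polynomial

noncomputable section

namespace Fermat.Agent.S34

open Fermat.Agent.S18 Fermat.Agent.S24 Fermat.Agent.S20

section Congr

variable {L F k R : Type*} [Field L] [Field F] [Algebra L F] [Field k] [CommRing R]
  [Algebra k R]

/-- a cartesian chart only depends on the unit ball and the reduction map. -/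
theorem S34CB_isCart_congr (S S' : S34L_Lat L F k R) (hO : ∀ f : F, f ∈ S.O → f ∈ S'.O)
    (hred : ∀ (f : F) (h : f ∈ S.O) (h' : f ∈ S'.O), S.red ⟨f, h⟩ = S'.red ⟨f, h'⟩)
    {x : S.O} {n : ℕ} {y : Fin n → S.O} (hC : S.IsCart x y) :
    S'.IsCart ⟨(x : F), hO x x.2⟩ (fun i => ⟨(y i : F), hO _ (y i).2⟩) := by
  have hx : S'.red ⟨(x : F), hO x x.2⟩ = S.red x := (hred x x.2 _).symm
  have hy : ∀ i, S'.red ⟨(y i : F), hO _ (y i).2⟩ = S.red (y i) := fun i =>
    (hred (y i) (y i).2 _).symm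
  refine ⟨?_, ?_, ?_⟩
  · intro p hp
    rw [hx]
    exact hC.unit p hp
  · exact hC.span
  · intro p hp
    simp only [hx, hy] at hp
    exact hC.indep p hp

end Congr

section X0

variable (M q : ℕ) [NeZero M] [NeZero (M * q)] (hq : q.Prime) (hqM : ¬ q ∣ M)
  (A : ValuationSubring (AlgebraicClosure ℚ)) (hA : A.LiesOverPrime q)
  (hgen : PrincipalGeneratedByIntegral A (IsLocalRing.residue A) (M * q))

include hq hqM in
/-- `ψ(M q) = ψ(M) + ψ(M) q`. -/
theorem S34CB_psi : dedekindPsi (M * q) = dedekindPsi M + dedekindPsi M * q := by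
  rw [mul_comm M q, S20_dedekindPsi_prime_mul_of_not_dvd hq (NeZero.ne M) hqM]
  ring

include hq hqM in
/-- `[F_{Mq} : ℚ̄(j)] ≤ ψ(M) + ψ(M) q`. -/
theorem S34CB_finrank_jB_le :
    Module.finrank (AlgebraicClosure ℚ)⟮jB (M * q)⟯ ↥(modularFunctionFieldBar (M * q)) ≤
      dedekindPsi M + dedekindPsi M * q := by
  rw [finrank_eq_psi, S34CB_psi M q hq hqM]

include hA in
/-- **the cartesian chart `j` of `X₀(M q)` at `q`**, for the pair `(V₁, V₂ = V₁ ∘ w_q)`, with the
explicit number `ψ(M) + ψ(M) q` of chart functions. -/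
theorem S34CB_isCart_X0_pair :
    ∃ y : Fin (dedekindPsi M + dedekindPsi M * q) →
        (S34P_lat (S34PX_same M q hq hqM A hgen)).O,
      (S34P_lat (S34PX_same M q hq hqM A hgen)).IsCart (S34PX_j M q hq hqM A hgen) y := by
  have hinc := S34VW_incomp M q hq hqM A hgen hA
  haveI hfd : FiniteDimensional
      (AlgebraicClosure ℚ)⟮((S34PX_j M q hq hqM A hgen :
        S34P_O2 (S34PX_S1 M q A hgen) (S34PX_S2 M q hq hqM A hgen)) :
          ↥(modularFunctionFieldBar (M * q)))⟯ ↥(modularFunctionFieldBar (M * q)) :=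
    finiteDimensional_jB (M * q)
  have hfin : Module.finrank
      (AlgebraicClosure ℚ)⟮((S34PX_j M q hq hqM A hgen :
        S34P_O2 (S34PX_S1 M q A hgen) (S34PX_S2 M q hq hqM A hgen)) :
          ↥(modularFunctionFieldBar (M * q)))⟯ ↥(modularFunctionFieldBar (M * q)) ≤
      dedekindPsi M + dedekindPsi M * q :=
    S34CB_finrank_jB_le M q hq hqM
  exact S34CB_exists_isCart_frob (S34PX_S1 M q A hgen) (S34PX_S2 M q hq hqM A hgen)
    (S34PX_same M q hq hqM A hgen).A_eq (S34PX_same M q hq hqM A hgen).res_eq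
    hinc.1 hinc.2 (S34PX_j M q hq hqM A hgen)
    (S18_jbar (M * q) (IsLocalRing.ResidueField A)) (S34VF_transcendental M A) hq.pos
    (S34PX_red_j_fst M q hq hqM A hgen) (S34PX_red_j_snd M q hq hqM A hgen hA)
    (dedekindPsi M) (S34VF_finrank M A hq hA hqM).ge hfin

/-- `j` in the unit ball of the concrete two-valuation datum. -/
theorem S34CB_jB_mem : jB (M * q) ∈ (S34DF_lat M q hq hqM A).O :=
  (S34DF_mem_lat_O M q hq hqM A).2 ⟨S34VW_jB_mem M q A, S34VW_wq_jB_mem M q hq hqM A⟩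

/-- the unit ball of helper2's pair is the unit ball of `S34DF_lat`. -/
theorem S34CB_mem_lat_of_mem {f : ↥(modularFunctionFieldBar (M * q))}
    (hf : f ∈ (S34P_lat (S34PX_same M q hq hqM A hgen)).O) :
    f ∈ (S34DF_lat M q hq hqM A).O :=
  (S34DF_mem_lat_O M q hq hqM A).2 ((S34PX_mem_O2 M q hq hqM A hgen).1 hf)

/-- the reduction of helper2's pair is the reduction of `S34DF_lat`. -/
theorem S34CB_red_lat_eq (f : ↥(modularFunctionFieldBar (M * q)))
    (h : f ∈ (S34P_lat (S34PX_same M q hq hqM A hgen)).O)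
    (h' : f ∈ (S34DF_lat M q hq hqM A).O) :
    (S34P_lat (S34PX_same M q hq hqM A hgen)).red ⟨f, h⟩ =
      (S34DF_lat M q hq hqM A).red ⟨f, h'⟩ := by
  have h1 : (S34P_lat (S34PX_same M q hq hqM A hgen)).red ⟨f, h⟩ =
      S34P_red (S34PX_S1 M q A hgen) (S34PX_S2 M q hq hqM A hgen) ⟨f, h⟩ :=
    S34P_lat_red (S34PX_same M q hq hqM A hgen) ⟨f, h⟩
  have h2 := S34DF_lat_red M q hq hqM A ⟨f, h'⟩
  rw [h1, h2]
  exact Prod.ext (S34PX_red_fst M q hq hqM A hgen ⟨f, h⟩)
    (S34PX_red_snd M q hq hqM A hgen ⟨f, h⟩)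

include hA hgen in
/-- **the cartesian chart `j` of the concrete two-valuation datum `S34DF_lat`.** -/
theorem S34CB_isCart_X0 :
    ∃ y : Fin (dedekindPsi M + dedekindPsi M * q) → (S34DF_lat M q hq hqM A).O,
      (S34DF_lat M q hq hqM A).IsCart ⟨jB (M * q), S34CB_jB_mem M q hq hqM A⟩ y := by
  obtain ⟨y, hy⟩ := S34CB_isCart_X0_pair M q hq hqM A hA hgen
  exact ⟨_, S34CB_isCart_congr (S34P_lat (S34PX_same M q hq hqM A hgen))
    (S34DF_lat M q hq hqM A) (fun f hf => S34CB_mem_lat_of_mem M q hq hqM A hgen hf)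
    (fun f h h' => S34CB_red_lat_eq M q hq hqM A hgen f h h') hy⟩

end X0

end Fermat.Agent.S34
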