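import Fermat.Agent.S34.GlueAlg

/-!
# TRACK 7 (S34 + S35), package CHART (helper16): the nodal description in the charts `U'`, `U ∩ U'`

Abstract form of helper9's SAT plan 2(b) (`NOTES/items/33_status.md`): the description
`W^y_U = {(a, b) | a(P_i) = c_i · b(P_i')}` of chart `U` (functions regular off the cusps) is
transferred FORMALLY to every "level" `X = R̄(Ē)` (`E = a·D_∞ + b·D₀`) and to the charts `U'`,
`U ∩ U'`, using only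

* `ρ = red (x − c)`, a function of chart `U` which does not vanish at the nodes, and
* "every function of the level becomes a function of chart `U` after multiplication by a power
  of `ρ`" (`Λ_{U ∩ U'} = Λ_U[1/(x − c)]`),
* the dimension count `codim ≤ s` of the level.

Mathlib + `S34/GlueAlg.lean` only.  Prefix `S34CH_`.

* `S34CH_S R ρ` : the subalgebra `R[1/ρ] = {a | ∃ m, ρ ^ m * a ∈ R}` of the ambient ring `K`;
* `S34CH_evAlg` : the extension of a point `e : R →ₐ[k] k` with `e ρ ≠ 0` to `R[1/ρ]`;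
  `S34CH_ev` : the same as a plain function `K → k` (junk value `0` outside `R[1/ρ]`);
* `S34CH_Data` : the chart-`U` datum inside `K₁ × K₂` (rings `R₁ R₂`, `ρ`, nodes `e₁ e₂`);
  `D.ev₁ i`, `D.ev₂ i : K_j → k` the extended evaluations, `D.gluedU c`, `D.gluedX c X hX`;
* `S34CH_Data.le_gluedX` : `Y ⊆ G_X(c)` for every `Y` whose elements lie in `glued_U(c)` after
  multiplication by a power of `ρ`;
* `S34CH_Data.eq_gluedX` : `Y = G_X(c)` if moreover `codim (Y ⊆ X) ≤ s` and the evaluation at the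
  nodes is onto on `X`;  `S34CH_Data.eq_gluedX_of_finrank` : the same for finite-dimensional `X`
  with the count `dim X ≤ dim Y + s`;
* `S34CH_Data.hEv_of_delta`, `S34CH_Data.delta_chart`, `S34CH_Data.delta_level` : the evaluation
  is onto on chart `U'` (from chart `U`) and on every large level;
* `S34CH_Data.one_mem_of_eq` : `(1, 1) ∈ Y` if `c = 1` (the input `f₁'` of INJ in chart `U'`).
-/

set_option autoImplicit false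
set_option linter.unusedSectionVars false
set_option linter.style.haveILetI false

open Module

namespace Fermat.Agent.S34

section ext

variable {k : Type*} [Field k] {K : Type*} [CommRing K] [Algebra k K]

/-- The subalgebra `R[1/ρ] = {a | ∃ m, ρ ^ m * a ∈ R}` (for `ρ ∈ R`). -/
def S34CH_S (R : Subalgebra k K) (ρ : K) (hρ : ρ ∈ R) : Subalgebra k K where
  carrier := {a | ∃ m : ℕ, ρ ^ m * a ∈ R}
  mul_mem' := by
    rintro a b ⟨m, hm⟩ ⟨m', hm'⟩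
    refine ⟨m + m', ?_⟩
    have : ρ ^ (m + m') * (a * b) = (ρ ^ m * a) * (ρ ^ m' * b) := by ring
    rw [this]
    exact R.mul_mem hm hm'
  add_mem' := by
    rintro a b ⟨m, hm⟩ ⟨m', hm'⟩
    refine ⟨m + m', ?_⟩
    have : ρ ^ (m + m') * (a + b) = ρ ^ m' * (ρ ^ m * a) + ρ ^ m * (ρ ^ m' * b) := by ring
    rw [this]
    exact R.add_mem (R.mul_mem (R.pow_mem hρ _) hm) (R.mul_mem (R.pow_mem hρ _) hm')
  algebraMap_mem' := by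
    intro c
    exact ⟨0, by simp [R.algebraMap_mem c]⟩

lemma S34CH_mem_S (R : Subalgebra k K) (ρ : K) (hρ : ρ ∈ R) (a : K) :
    a ∈ S34CH_S R ρ hρ ↔ ∃ m : ℕ, ρ ^ m * a ∈ R := Iff.rfl

lemma S34CH_le_S (R : Subalgebra k K) (ρ : K) (hρ : ρ ∈ R) : R ≤ S34CH_S R ρ hρ :=
  fun a ha => ⟨0, by simpa using ha⟩

lemma S34CH_pow_mul_mem (R : Subalgebra k K) (ρ : K) (hρ : ρ ∈ R) {a : K} {m : ℕ}
    (hm : ρ ^ m * a ∈ R) (j : ℕ) : ρ ^ (m + j) * a ∈ R := by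
  have : ρ ^ (m + j) * a = ρ ^ j * (ρ ^ m * a) := by ring
  rw [this]
  exact R.mul_mem (R.pow_mem hρ _) hm

/-- The value at the extended point, as a plain function on `K` (junk value `0` outside
`R[1/ρ]`). -/
noncomputable def S34CH_ev (R : Subalgebra k K) (ρ : K) (hρ : ρ ∈ R) (e : R →ₐ[k] k) (a : K) : k :=
  open Classical in
  if h : ∃ m : ℕ, ρ ^ m * a ∈ R then
    e ⟨ρ ^ (Classical.choose h) * a, Classical.choose_spec h⟩ / (e ⟨ρ, hρ⟩) ^ (Classical.choose h)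
  else 0

/-- the value does not depend on the exponent -/
lemma S34CH_ev_eq (R : Subalgebra k K) (ρ : K) (hρ : ρ ∈ R) (e : R →ₐ[k] k)
    (he : e ⟨ρ, hρ⟩ ≠ 0) {a : K} {m : ℕ} (hm : ρ ^ m * a ∈ R) :
    S34CH_ev R ρ hρ e a = e ⟨ρ ^ m * a, hm⟩ / (e ⟨ρ, hρ⟩) ^ m := by
  classical
  have h : ∃ m : ℕ, ρ ^ m * a ∈ R := ⟨m, hm⟩
  unfold S34CH_ev
  rw [dif_pos h]
  set m₀ := Classical.choose h with hm₀
  have hm₀' : ρ ^ m₀ * a ∈ R := Classical.choose_spec h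
  rw [div_eq_div_iff (pow_ne_zero _ he) (pow_ne_zero _ he)]
  have e1 : (⟨ρ ^ m₀ * a, hm₀'⟩ : R) * (⟨ρ, hρ⟩ : R) ^ m
      = (⟨ρ ^ m * a, hm⟩ : R) * (⟨ρ, hρ⟩ : R) ^ m₀ := by
    apply Subtype.ext
    simp only [MulMemClass.coe_mul, SubmonoidClass.coe_pow]
    ring
  have := congrArg e e1
  simpa only [map_mul, map_pow] using this

lemma S34CH_ev_of_mem (R : Subalgebra k K) (ρ : K) (hρ : ρ ∈ R) (e : R →ₐ[k] k)
    (he : e ⟨ρ, hρ⟩ ≠ 0) {a : K} (ha : a ∈ R) : S34CH_ev R ρ hρ e a = e ⟨a, ha⟩ := by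
  have hm : ρ ^ 0 * a ∈ R := by simpa using ha
  rw [S34CH_ev_eq R ρ hρ e he hm]
  simp

lemma S34CH_ev_add (R : Subalgebra k K) (ρ : K) (hρ : ρ ∈ R) (e : R →ₐ[k] k)
    (he : e ⟨ρ, hρ⟩ ≠ 0) {a b : K} (ha : a ∈ S34CH_S R ρ hρ) (hb : b ∈ S34CH_S R ρ hρ) :
    S34CH_ev R ρ hρ e (a + b) = S34CH_ev R ρ hρ e a + S34CH_ev R ρ hρ e b := by
  obtain ⟨m, hm⟩ := ha
  obtain ⟨m', hm'⟩ := hb
  have h1 : ρ ^ (m + m') * a ∈ R := S34CH_pow_mul_mem R ρ hρ hm m'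
  have h2 : ρ ^ (m + m') * b ∈ R := by
    rw [add_comm]; exact S34CH_pow_mul_mem R ρ hρ hm' m
  have h3 : ρ ^ (m + m') * (a + b) ∈ R := by
    rw [mul_add]; exact R.add_mem h1 h2
  rw [S34CH_ev_eq R ρ hρ e he h1, S34CH_ev_eq R ρ hρ e he h2, S34CH_ev_eq R ρ hρ e he h3,
    ← add_div]
  congr 1
  rw [← map_add]
  congr 1
  apply Subtype.ext
  simp only [AddMemClass.mk_add_mk]
  ring

lemma S34CH_ev_mul (R : Subalgebra k K) (ρ : K) (hρ : ρ ∈ R) (e : R →ₐ[k] k)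
    (he : e ⟨ρ, hρ⟩ ≠ 0) {a b : K} (ha : a ∈ S34CH_S R ρ hρ) (hb : b ∈ S34CH_S R ρ hρ) :
    S34CH_ev R ρ hρ e (a * b) = S34CH_ev R ρ hρ e a * S34CH_ev R ρ hρ e b := by
  obtain ⟨m, hm⟩ := ha
  obtain ⟨m', hm'⟩ := hb
  have h3 : ρ ^ (m + m') * (a * b) ∈ R := by
    have : ρ ^ (m + m') * (a * b) = (ρ ^ m * a) * (ρ ^ m' * b) := by ring
    rw [this]; exact R.mul_mem hm hm'
  rw [S34CH_ev_eq R ρ hρ e he hm, S34CH_ev_eq R ρ hρ e he hm', S34CH_ev_eq R ρ hρ e he h3,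
    div_mul_div_comm, ← pow_add, ← map_mul]
  congr 2
  apply Subtype.ext
  simp only [MulMemClass.mk_mul_mk]
  ring

lemma S34CH_ev_algebraMap (R : Subalgebra k K) (ρ : K) (hρ : ρ ∈ R) (e : R →ₐ[k] k)
    (he : e ⟨ρ, hρ⟩ ≠ 0) (c : k) : S34CH_ev R ρ hρ e (algebraMap k K c) = c := by
  rw [S34CH_ev_of_mem R ρ hρ e he (R.algebraMap_mem c)]
  have : (⟨algebraMap k K c, R.algebraMap_mem c⟩ : R) = algebraMap k R c := rfl
  rw [this, AlgHom.commutes]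
  rfl

lemma S34CH_ev_one (R : Subalgebra k K) (ρ : K) (hρ : ρ ∈ R) (e : R →ₐ[k] k)
    (he : e ⟨ρ, hρ⟩ ≠ 0) : S34CH_ev R ρ hρ e 1 = 1 := by
  have := S34CH_ev_algebraMap R ρ hρ e he 1
  simpa using this

lemma S34CH_ev_zero (R : Subalgebra k K) (ρ : K) (hρ : ρ ∈ R) (e : R →ₐ[k] k)
    (he : e ⟨ρ, hρ⟩ ≠ 0) : S34CH_ev R ρ hρ e 0 = 0 := by
  have := S34CH_ev_algebraMap R ρ hρ e he 0
  simpa using this

lemma S34CH_ev_smul (R : Subalgebra k K) (ρ : K) (hρ : ρ ∈ R) (e : R →ₐ[k] k)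
    (he : e ⟨ρ, hρ⟩ ≠ 0) (c : k) {a : K} (ha : a ∈ S34CH_S R ρ hρ) :
    S34CH_ev R ρ hρ e (c • a) = c * S34CH_ev R ρ hρ e a := by
  rw [Algebra.smul_def, S34CH_ev_mul R ρ hρ e he ((S34CH_S R ρ hρ).algebraMap_mem c) ha,
    S34CH_ev_algebraMap R ρ hρ e he]

lemma S34CH_ev_rho (R : Subalgebra k K) (ρ : K) (hρ : ρ ∈ R) (e : R →ₐ[k] k)
    (he : e ⟨ρ, hρ⟩ ≠ 0) : S34CH_ev R ρ hρ e ρ = e ⟨ρ, hρ⟩ :=
  S34CH_ev_of_mem R ρ hρ e he hρ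

lemma S34CH_ev_pow_mul (R : Subalgebra k K) (ρ : K) (hρ : ρ ∈ R) (e : R →ₐ[k] k)
    (he : e ⟨ρ, hρ⟩ ≠ 0) {a : K} (ha : a ∈ S34CH_S R ρ hρ) (m : ℕ) :
    S34CH_ev R ρ hρ e (ρ ^ m * a) = (e ⟨ρ, hρ⟩) ^ m * S34CH_ev R ρ hρ e a := by
  have hρS : ρ ∈ S34CH_S R ρ hρ := S34CH_le_S R ρ hρ hρ
  rw [S34CH_ev_mul R ρ hρ e he ((S34CH_S R ρ hρ).pow_mem hρS m) ha]
  congr 1
  rw [S34CH_ev_of_mem R ρ hρ e he (R.pow_mem hρ m)]
  have : (⟨ρ ^ m, R.pow_mem hρ m⟩ : R) = (⟨ρ, hρ⟩ : R) ^ m := rfl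
  rw [this, map_pow]

/-- if `ρ'` is an inverse of `ρ`, then `ρ' ∈ R[1/ρ]` and `ev ρ' = (e ρ)⁻¹` -/
lemma S34CH_inv_mem (R : Subalgebra k K) (ρ : K) (hρ : ρ ∈ R) {ρ' : K} (hinv : ρ * ρ' = 1) :
    ρ' ∈ S34CH_S R ρ hρ := ⟨1, by rw [pow_one, hinv]; exact R.one_mem⟩

lemma S34CH_ev_inv (R : Subalgebra k K) (ρ : K) (hρ : ρ ∈ R) (e : R →ₐ[k] k)
    (he : e ⟨ρ, hρ⟩ ≠ 0) {ρ' : K} (hinv : ρ * ρ' = 1) :
    S34CH_ev R ρ hρ e ρ' = (e ⟨ρ, hρ⟩)⁻¹ := by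
  have h := S34CH_ev_pow_mul R ρ hρ e he (S34CH_inv_mem R ρ hρ hinv) 1
  rw [pow_one, pow_one, hinv, S34CH_ev_one R ρ hρ e he] at h
  exact eq_inv_of_mul_eq_one_right h.symm

/-- The extended point as an algebra homomorphism on `R[1/ρ]`. -/
noncomputable def S34CH_evAlg (R : Subalgebra k K) (ρ : K) (hρ : ρ ∈ R) (e : R →ₐ[k] k)
    (he : e ⟨ρ, hρ⟩ ≠ 0) : S34CH_S R ρ hρ →ₐ[k] k where
  toFun a := S34CH_ev R ρ hρ e (a : K)
  map_one' := S34CH_ev_one R ρ hρ e he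
  map_mul' a b := S34CH_ev_mul R ρ hρ e he a.2 b.2
  map_zero' := S34CH_ev_zero R ρ hρ e he
  map_add' a b := S34CH_ev_add R ρ hρ e he a.2 b.2
  commutes' c := S34CH_ev_algebraMap R ρ hρ e he c

@[simp] lemma S34CH_evAlg_apply (R : Subalgebra k K) (ρ : K) (hρ : ρ ∈ R) (e : R →ₐ[k] k)
    (he : e ⟨ρ, hρ⟩ ≠ 0) (a : S34CH_S R ρ hρ) :
    S34CH_evAlg R ρ hρ e he a = S34CH_ev R ρ hρ e (a : K) := rfl

end ext

section master

variable {k : Type*} [Field k] {K₁ K₂ : Type*} [CommRing K₁] [CommRing K₂]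
  [Algebra k K₁] [Algebra k K₂] {ι : Type*}

/-- The data of chart `U` seen inside the ambient rings `K₁ × K₂` (the two residue function
fields): the rings `R₁, R₂` of chart `U`, the function `ρ = (ρ₁, ρ₂) = red (x − c)` and the nodes
`e₁ i, e₂ i`, at which `ρ` takes the same nonzero value. -/
structure S34CH_Data (k : Type*) [Field k] (K₁ K₂ : Type*) [CommRing K₁] [CommRing K₂]
    [Algebra k K₁] [Algebra k K₂] (ι : Type*) where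
  R₁ : Subalgebra k K₁
  R₂ : Subalgebra k K₂
  ρ₁ : K₁
  ρ₂ : K₂
  hρ₁ : ρ₁ ∈ R₁
  hρ₂ : ρ₂ ∈ R₂
  e₁ : ι → R₁ →ₐ[k] k
  e₂ : ι → R₂ →ₐ[k] k
  he₁ : ∀ i, e₁ i ⟨ρ₁, hρ₁⟩ ≠ 0
  he₁₂ : ∀ i, e₁ i ⟨ρ₁, hρ₁⟩ = e₂ i ⟨ρ₂, hρ₂⟩

namespace S34CH_Data

variable (D : S34CH_Data k K₁ K₂ ι)

lemma he₂ (i : ι) : D.e₂ i ⟨D.ρ₂, D.hρ₂⟩ ≠ 0 := by
  rw [← D.he₁₂ i]; exact D.he₁ i

/-- `S₁ = R₁[1/ρ₁]` -/
def S₁ : Subalgebra k K₁ := S34CH_S D.R₁ D.ρ₁ D.hρ₁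
/-- `S₂ = R₂[1/ρ₂]` -/
def S₂ : Subalgebra k K₂ := S34CH_S D.R₂ D.ρ₂ D.hρ₂

/-- value at the first branch of the `i`-th node (junk `0` outside `S₁`) -/
noncomputable def ev₁ (i : ι) (a : K₁) : k := S34CH_ev D.R₁ D.ρ₁ D.hρ₁ (D.e₁ i) a
/-- value at the second branch of the `i`-th node (junk `0` outside `S₂`) -/
noncomputable def ev₂ (i : ι) (b : K₂) : k := S34CH_ev D.R₂ D.ρ₂ D.hρ₂ (D.e₂ i) b

/-- the glued module of chart `U`, as a subset of `K₁ × K₂` -/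
def gluedU (c : ι → k) : Set (K₁ × K₂) :=
  {f | ∃ (h₁ : f.1 ∈ D.R₁) (h₂ : f.2 ∈ D.R₂), ∀ i, D.e₁ i ⟨f.1, h₁⟩ = c i * D.e₂ i ⟨f.2, h₂⟩}

/-- `gluedU` is the image of helper23's `S34B_glued` under the inclusion `R₁ × R₂ ⊆ K₁ × K₂` -/
lemma mem_gluedU_iff (c : ι → k) (f : D.R₁ × D.R₂) :
    ((f.1 : K₁), (f.2 : K₂)) ∈ D.gluedU c ↔ f ∈ S34B_glued D.e₁ D.e₂ c := by
  rw [S34B_mem_glued]
  constructor
  · rintro ⟨h₁, h₂, h⟩ i
    exact h i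
  · intro h
    exact ⟨f.1.2, f.2.2, h⟩

lemma mem_gluedU_of (c : ι → k) {f : K₁ × K₂} (hf : f ∈ D.gluedU c) :
    ∃ g : D.R₁ × D.R₂, g ∈ S34B_glued D.e₁ D.e₂ c ∧ (g.1 : K₁) = f.1 ∧ (g.2 : K₂) = f.2 := by
  obtain ⟨h₁, h₂, h⟩ := hf
  exact ⟨(⟨f.1, h₁⟩, ⟨f.2, h₂⟩), (S34B_mem_glued _ _ _ _).2 h, rfl, rfl⟩

/-- on chart `U` itself the extended evaluation is the evaluation -/
lemma ev₁_of_mem (i : ι) {a : K₁} (ha : a ∈ D.R₁) : D.ev₁ i a = D.e₁ i ⟨a, ha⟩ :=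
  S34CH_ev_of_mem D.R₁ D.ρ₁ D.hρ₁ (D.e₁ i) (D.he₁ i) ha

lemma ev₂_of_mem (i : ι) {b : K₂} (hb : b ∈ D.R₂) : D.ev₂ i b = D.e₂ i ⟨b, hb⟩ :=
  S34CH_ev_of_mem D.R₂ D.ρ₂ D.hρ₂ (D.e₂ i) (D.he₂ i) hb

/-- the twisted difference of the two values at the nodes, on a level `X ⊆ S₁ × S₂` -/
noncomputable def phi (c : ι → k) (X : Submodule k (K₁ × K₂))
    (hX : ∀ f ∈ X, f.1 ∈ D.S₁ ∧ f.2 ∈ D.S₂) : X →ₗ[k] (ι → k) where
  toFun f := fun i => D.ev₁ i (f : K₁ × K₂).1 - c i * D.ev₂ i (f : K₁ × K₂).2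
  map_add' f g := by
    funext i
    simp only [Submodule.coe_add, Prod.fst_add, Prod.snd_add, Pi.add_apply, ev₁, ev₂]
    rw [S34CH_ev_add D.R₁ D.ρ₁ D.hρ₁ (D.e₁ i) (D.he₁ i) (hX _ f.2).1 (hX _ g.2).1,
      S34CH_ev_add D.R₂ D.ρ₂ D.hρ₂ (D.e₂ i) (D.he₂ i) (hX _ f.2).2 (hX _ g.2).2]
    ring
  map_smul' a f := by
    funext i
    simp only [Submodule.coe_smul, Prod.smul_fst, Prod.smul_snd, Pi.smul_apply, ev₁, ev₂,
      RingHom.id_apply, smul_eq_mul]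
    rw [S34CH_ev_smul D.R₁ D.ρ₁ D.hρ₁ (D.e₁ i) (D.he₁ i) a (hX _ f.2).1,
      S34CH_ev_smul D.R₂ D.ρ₂ D.hρ₂ (D.e₂ i) (D.he₂ i) a (hX _ f.2).2]
    ring

@[simp] lemma phi_apply (c : ι → k) (X : Submodule k (K₁ × K₂))
    (hX : ∀ f ∈ X, f.1 ∈ D.S₁ ∧ f.2 ∈ D.S₂) (f : X) (i : ι) :
    D.phi c X hX f i = D.ev₁ i (f : K₁ × K₂).1 - c i * D.ev₂ i (f : K₁ × K₂).2 := rfl

/-- the glued module of the level `X` : `G_X(c) = {f ∈ X | f₁(P_i) = c_i f₂(P_i')}` -/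
noncomputable def gluedX (c : ι → k) (X : Submodule k (K₁ × K₂))
    (hX : ∀ f ∈ X, f.1 ∈ D.S₁ ∧ f.2 ∈ D.S₂) : Submodule k (K₁ × K₂) :=
  (LinearMap.ker (D.phi c X hX)).map X.subtype

lemma mem_gluedX (c : ι → k) (X : Submodule k (K₁ × K₂))
    (hX : ∀ f ∈ X, f.1 ∈ D.S₁ ∧ f.2 ∈ D.S₂) (f : K₁ × K₂) :
    f ∈ D.gluedX c X hX ↔ f ∈ X ∧ ∀ i, D.ev₁ i f.1 = c i * D.ev₂ i f.2 := by
  simp only [gluedX, Submodule.mem_map, LinearMap.mem_ker, Submodule.subtype_apply,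
    Subtype.exists, exists_and_right, exists_eq_right]
  constructor
  · rintro ⟨hf, h⟩
    refine ⟨hf, fun i => ?_⟩
    have := congrFun h i
    simpa [sub_eq_zero] using this
  · rintro ⟨hf, h⟩
    refine ⟨hf, ?_⟩
    funext i
    simp [h i]

lemma gluedX_le (c : ι → k) (X : Submodule k (K₁ × K₂))
    (hX : ∀ f ∈ X, f.1 ∈ D.S₁ ∧ f.2 ∈ D.S₂) : D.gluedX c X hX ≤ X :=
  fun f hf => ((D.mem_gluedX c X hX f).1 hf).1

/-- **Transfer, inclusion.**  If `ρ ^ m • f` lies in the glued module of chart `U`, then the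
values of `f` at the (extended) nodes satisfy the same gluing condition. -/
theorem ev_of_pow_mem (c : ι → k) {f : K₁ × K₂} {m : ℕ}
    (hf : (D.ρ₁ ^ m * f.1, D.ρ₂ ^ m * f.2) ∈ D.gluedU c) (i : ι) :
    D.ev₁ i f.1 = c i * D.ev₂ i f.2 := by
  obtain ⟨h₁, h₂, h⟩ := hf
  have e1 := S34CH_ev_eq D.R₁ D.ρ₁ D.hρ₁ (D.e₁ i) (D.he₁ i) h₁
  have e2 := S34CH_ev_eq D.R₂ D.ρ₂ D.hρ₂ (D.e₂ i) (D.he₂ i) h₂
  simp only [ev₁, ev₂]
  rw [e1, e2, h i, ← D.he₁₂ i, mul_div_assoc]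

/-- **Transfer, inclusion** (module form): `Y ⊆ G_X(c)`. -/
theorem le_gluedX (c : ι → k) (X Y : Submodule k (K₁ × K₂))
    (hX : ∀ f ∈ X, f.1 ∈ D.S₁ ∧ f.2 ∈ D.S₂) (hYX : Y ≤ X)
    (hloc : ∀ f ∈ Y, ∃ m : ℕ, (D.ρ₁ ^ m * f.1, D.ρ₂ ^ m * f.2) ∈ D.gluedU c) :
    Y ≤ D.gluedX c X hX := by
  intro f hf
  rw [mem_gluedX]
  obtain ⟨m, hm⟩ := hloc f hf
  exact ⟨hYX hf, fun i => D.ev_of_pow_mem c hm i⟩

/-- the twisted difference is onto as soon as the joint evaluation is onto on `X` -/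
lemma phi_surjective (c : ι → k) (X : Submodule k (K₁ × K₂))
    (hX : ∀ f ∈ X, f.1 ∈ D.S₁ ∧ f.2 ∈ D.S₂)
    (hEv : ∀ v : ι → k, ∃ f ∈ X, ∀ i, D.ev₁ i f.1 = v i ∧ D.ev₂ i f.2 = 0) :
    Function.Surjective (D.phi c X hX) := by
  intro v
  obtain ⟨f, hf, h⟩ := hEv v
  refine ⟨⟨f, hf⟩, ?_⟩
  funext i
  simp [(h i).1, (h i).2]

/-- **Transfer, equality.**  If moreover `codim (Y ⊆ X) ≤ s = card ι` and the evaluation at the
nodes is onto on `X`, then `Y = G_X(c)`. -/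
theorem eq_gluedX [Fintype ι] (c : ι → k) (X Y : Submodule k (K₁ × K₂))
    (hX : ∀ f ∈ X, f.1 ∈ D.S₁ ∧ f.2 ∈ D.S₂) (hYX : Y ≤ X)
    (hloc : ∀ f ∈ Y, ∃ m : ℕ, (D.ρ₁ ^ m * f.1, D.ρ₂ ^ m * f.2) ∈ D.gluedU c)
    (hEv : ∀ v : ι → k, ∃ f ∈ X, ∀ i, D.ev₁ i f.1 = v i ∧ D.ev₂ i f.2 = 0)
    [Module.Finite k (X ⧸ Y.comap X.subtype)]
    (hcodim : Module.finrank k (X ⧸ Y.comap X.subtype) ≤ Fintype.card ι) :
    Y = D.gluedX c X hX := by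
  classical
  apply le_antisymm (D.le_gluedX c X Y hX hYX hloc)
  set φ := D.phi c X hX with hφ
  have hφs : Function.Surjective φ := D.phi_surjective c X hX hEv
  have hle : Y.comap X.subtype ≤ LinearMap.ker φ := by
    intro f hf
    have h := D.le_gluedX c X Y hX hYX hloc hf
    rw [mem_gluedX] at h
    rw [LinearMap.mem_ker]
    funext i
    have h2 := h.2 i
    simp only [Submodule.subtype_apply] at h2
    simp only [hφ, phi_apply, Pi.zero_apply]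
    rw [h2, sub_self]
  -- the induced surjection on the quotient is injective by the count
  set φq : (X ⧸ Y.comap X.subtype) →ₗ[k] (ι → k) := (Y.comap X.subtype).liftQ φ hle with hφq
  have hφqs : Function.Surjective φq := by
    intro v
    obtain ⟨f, hf⟩ := hφs v
    exact ⟨Submodule.Quotient.mk f, by simpa [hφq] using hf⟩
  have h1 : Module.finrank k (ι → k) = Fintype.card ι := by simp
  have hfr : Module.finrank k (X ⧸ Y.comap X.subtype) = Module.finrank k (ι → k) := by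
    apply le_antisymm (by rw [h1]; exact hcodim)
    exact LinearMap.finrank_le_finrank_of_surjective hφqs
  have hφqi : Function.Injective φq :=
    (LinearMap.injective_iff_surjective_of_finrank_eq_finrank hfr).2 hφqs
  intro f hf
  rw [mem_gluedX] at hf
  have hker : φ ⟨f, hf.1⟩ = 0 := by
    funext i
    simp [hφ, hf.2 i]
  have : φq (Submodule.Quotient.mk ⟨f, hf.1⟩) = 0 := by simpa [hφq] using hker
  have := hφqi (this.trans (map_zero φq).symm)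
  have hmem := (Submodule.Quotient.mk_eq_zero _).1 this
  exact hmem

/-- **Transfer, equality, finite-dimensional level** (the shape of POLE-4). -/
theorem eq_gluedX_of_finrank [Fintype ι] (c : ι → k) (X Y : Submodule k (K₁ × K₂))
    (hX : ∀ f ∈ X, f.1 ∈ D.S₁ ∧ f.2 ∈ D.S₂) (hYX : Y ≤ X)
    (hloc : ∀ f ∈ Y, ∃ m : ℕ, (D.ρ₁ ^ m * f.1, D.ρ₂ ^ m * f.2) ∈ D.gluedU c)
    (hEv : ∀ v : ι → k, ∃ f ∈ X, ∀ i, D.ev₁ i f.1 = v i ∧ D.ev₂ i f.2 = 0)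
    [Module.Finite k X]
    (hcount : Module.finrank k X ≤ Module.finrank k Y + Fintype.card ι) :
    Y = D.gluedX c X hX := by
  refine D.eq_gluedX c X Y hX hYX hloc hEv ?_
  have h := Submodule.finrank_quotient_add_finrank (Y.comap X.subtype)
  have e : Module.finrank k (Y.comap X.subtype) = Module.finrank k Y :=
    LinearEquiv.finrank_eq (Submodule.comapSubtypeEquivOfLe hYX)
  omega

/-- `(1, 1)` lies in `Y` if the gluing constants are trivial (the input `f₁'` of INJ). -/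
theorem one_mem_of_eq (c : ι → k) (hc : ∀ i, c i = 1) (X Y : Submodule k (K₁ × K₂))
    (hX : ∀ f ∈ X, f.1 ∈ D.S₁ ∧ f.2 ∈ D.S₂) (hY : Y = D.gluedX c X hX)
    (h1 : (1 : K₁ × K₂) ∈ X) : (1 : K₁ × K₂) ∈ Y := by
  rw [hY, mem_gluedX]
  refine ⟨h1, fun i => ?_⟩
  simp only [Prod.fst_one, Prod.snd_one, ev₁, ev₂]
  rw [S34CH_ev_one _ _ _ _ (D.he₁ i), S34CH_ev_one _ _ _ _ (D.he₂ i), hc i, one_mul]

/-! ### The evaluation is onto -/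

lemma ev₁_sum {κ : Type*} (t : Finset κ) (g : κ → K₁) (hg : ∀ j ∈ t, g j ∈ D.S₁) (i : ι) :
    D.ev₁ i (∑ j ∈ t, g j) = ∑ j ∈ t, D.ev₁ i (g j) := by
  classical
  induction t using Finset.induction_on with
  | empty => simp [ev₁, S34CH_ev_zero _ _ _ _ (D.he₁ i)]
  | insert a t ha ih =>
    rw [Finset.sum_insert ha, Finset.sum_insert ha]
    have h1 : g a ∈ D.S₁ := hg a (Finset.mem_insert_self a t)
    have h2 : ∑ j ∈ t, g j ∈ D.S₁ :=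
      D.S₁.sum_mem fun j hj => hg j (Finset.mem_insert_of_mem hj)
    have := S34CH_ev_add D.R₁ D.ρ₁ D.hρ₁ (D.e₁ i) (D.he₁ i) h1 h2
    simp only [ev₁] at this ih ⊢
    rw [this, ih fun j hj => hg j (Finset.mem_insert_of_mem hj)]

/-- the evaluation is onto on `X` as soon as the "delta functions" at the nodes of the first
component exist in `X` -/
theorem hEv_of_delta [Fintype ι] [DecidableEq ι] (X : Submodule k (K₁ × K₂))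
    (hX : ∀ f ∈ X, f.1 ∈ D.S₁ ∧ f.2 ∈ D.S₂)
    (hδ : ∀ j : ι, ∃ a : K₁, (a, (0 : K₂)) ∈ X ∧ ∀ i, D.ev₁ i a = if i = j then 1 else 0) :
    ∀ v : ι → k, ∃ f ∈ X, ∀ i, D.ev₁ i f.1 = v i ∧ D.ev₂ i f.2 = 0 := by
  intro v
  choose a haX ha using hδ
  refine ⟨(∑ j, v j • a j, 0), ?_, fun i => ⟨?_, ?_⟩⟩
  · have : ((∑ j, v j • a j, 0) : K₁ × K₂) = ∑ j, v j • ((a j, 0) : K₁ × K₂) := by
      apply Prod.ext
      · simp [Prod.fst_sum]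
      · simp [Prod.snd_sum]
    rw [this]
    exact X.sum_mem fun j _ => X.smul_mem _ (haX j)
  · show D.ev₁ i (∑ j, v j • a j) = v i
    have hS : ∀ j ∈ (Finset.univ : Finset ι), v j • a j ∈ D.S₁ := fun j _ =>
      D.S₁.smul_mem (hX _ (haX j)).1 _
    rw [D.ev₁_sum Finset.univ _ hS i]
    have : ∀ j, D.ev₁ i (v j • a j) = v j * (if i = j then 1 else 0) := by
      intro j
      have := S34CH_ev_smul D.R₁ D.ρ₁ D.hρ₁ (D.e₁ i) (D.he₁ i) (v j) (hX _ (haX j)).1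
      simp only [ev₁] at this ⊢
      rw [this]
      congr 1
      exact ha j i
    simp only [this, mul_ite, mul_one, mul_zero, Finset.sum_ite_eq, Finset.mem_univ, if_true]
  · show D.ev₂ i 0 = 0
    exact S34CH_ev_zero _ _ _ _ (D.he₂ i)

/-- **ONTO in the chart `U'`.**  Let `R₁' ⊆ S₁` be the ring of chart `U'` (first component),
containing `ρ₁⁻¹` and `ρ₁⁻ᵐ a` for every `a` of chart `U` (`m` large).  If the evaluation at the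
nodes is onto on chart `U`, every delta function at the nodes exists in `R₁'`. -/
theorem delta_chart [Fintype ι] [DecidableEq ι] (R₁' : Subalgebra k K₁)
    (ρ₁' : K₁) (hinv : D.ρ₁ * ρ₁' = 1)
    (h2 : ∀ a ∈ D.R₁, ∃ m : ℕ, ρ₁' ^ m * a ∈ R₁')
    (hE : Function.Surjective (fun (a : D.R₁) (i : ι) => D.e₁ i a)) (j : ι) :
    ∃ a ∈ R₁', ∀ i, D.ev₁ i a = if i = j then 1 else 0 := by
  obtain ⟨a, ha⟩ := hE (fun i => if i = j then 1 else 0)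
  obtain ⟨m, hm⟩ := h2 a.1 a.2
  have hρ'S : ρ₁' ∈ D.S₁ := S34CH_inv_mem D.R₁ D.ρ₁ D.hρ₁ hinv
  have haS : (a : K₁) ∈ D.S₁ := S34CH_le_S D.R₁ D.ρ₁ D.hρ₁ a.2
  refine ⟨(D.e₁ j ⟨D.ρ₁, D.hρ₁⟩) ^ m • (ρ₁' ^ m * a), R₁'.smul_mem hm _, fun i => ?_⟩
  have hmS : ρ₁' ^ m * (a : K₁) ∈ D.S₁ := D.S₁.mul_mem (D.S₁.pow_mem hρ'S m) haS
  have e1 := S34CH_ev_smul D.R₁ D.ρ₁ D.hρ₁ (D.e₁ i) (D.he₁ i)
    ((D.e₁ j ⟨D.ρ₁, D.hρ₁⟩) ^ m) hmS
  have e2 := S34CH_ev_mul D.R₁ D.ρ₁ D.hρ₁ (D.e₁ i) (D.he₁ i) (D.S₁.pow_mem hρ'S m) haS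
  have e3 : S34CH_ev D.R₁ D.ρ₁ D.hρ₁ (D.e₁ i) (ρ₁' ^ m) = ((D.e₁ i ⟨D.ρ₁, D.hρ₁⟩)⁻¹) ^ m := by
    have hal : S34CH_evAlg D.R₁ D.ρ₁ D.hρ₁ (D.e₁ i) (D.he₁ i) (⟨ρ₁', hρ'S⟩ ^ m)
        = (S34CH_evAlg D.R₁ D.ρ₁ D.hρ₁ (D.e₁ i) (D.he₁ i) ⟨ρ₁', hρ'S⟩) ^ m := map_pow _ _ _
    simp only [S34CH_evAlg_apply, SubmonoidClass.coe_pow] at hal
    rw [hal, S34CH_ev_inv D.R₁ D.ρ₁ D.hρ₁ (D.e₁ i) (D.he₁ i) hinv]
  have e4 : S34CH_ev D.R₁ D.ρ₁ D.hρ₁ (D.e₁ i) (a : K₁) = if i = j then 1 else 0 := by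
    rw [S34CH_ev_of_mem D.R₁ D.ρ₁ D.hρ₁ (D.e₁ i) (D.he₁ i) a.2]
    exact congrFun ha i
  simp only [ev₁]
  rw [e1, e2, e3, e4]
  by_cases hij : i = j
  · subst hij
    rw [if_pos rfl, mul_one, inv_pow, mul_inv_cancel₀ (pow_ne_zero _ (D.he₁ i))]
  · rw [if_neg hij, mul_zero, mul_zero]

/-- **ONTO on a large level.**  If the delta functions exist in the union of a monotone family
of levels `X b`, they exist in `X b` for `b` large. -/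
theorem delta_level [Finite ι] [DecidableEq ι] (X : ℕ → Submodule k (K₁ × K₂))
    (hmono : Monotone X)
    (hδ : ∀ j : ι, ∃ (b : ℕ) (a : K₁), (a, (0 : K₂)) ∈ X b ∧
      ∀ i, D.ev₁ i a = if i = j then 1 else 0) :
    ∃ b₀ : ℕ, ∀ b, b₀ ≤ b → ∀ j : ι, ∃ a : K₁, (a, (0 : K₂)) ∈ X b ∧
      ∀ i, D.ev₁ i a = if i = j then 1 else 0 := by
  classical
  haveI : Fintype ι := Fintype.ofFinite ι
  choose bb a ha using hδ
  refine ⟨Finset.univ.sup bb, fun b hb j => ⟨a j, ?_, (ha j).2⟩⟩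
  exact hmono ((Finset.le_sup (Finset.mem_univ j)).trans hb) (ha j).1

end S34CH_Data

end master

end Fermat.Agent.S34
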