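import Mathlib

/-!
# TRACK 7 (S34 + S35), package TORS (helper3): `H¹` is finitely generated, bounded torsion

Pure algebra over Mathlib.  Prefix `S34T_`.

Output: the hypothesis `htors` of `S34I_false` (S34/InjAbs.lean)

  `∃ c₀ ≠ 0, ∀ h ∈ M'', ∀ a ≠ 0, a • h ∈ M ⊔ M' → c₀ • h ∈ M ⊔ M'`

from the lattice counts.  `L a b` is the lattice of integral sections with poles of order at most
`a` along `D_∞` and at most `b` along `D₀`; `W a b` is its reduction.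

* `S34T_tors_of_fg` : over ANY domain the torsion of `(N ⊔ P)/N` is killed by one nonzero
  element when `P` is finitely generated;
* `S34T_count` : count + saturation give `W a b = W a 0 ⊔ W 0 b ⊔ W m₀ m₀`;
* `S34T_nak` : Nakayama;
* `S34T_cover` : `L a b ≤ L a 0 ⊔ L 0 b ⊔ L m₀ m₀`;
* `S34T_main` : the torsion bound.
-/

set_option autoImplicit false

namespace Fermat.Agent.S34

open Module Submodule

section torsA

variable {A F : Type*} [CommRing A] [IsDomain A] [AddCommGroup F] [Module A F]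

/-- Over a domain, the torsion of `(N ⊔ P)/N` is killed by ONE nonzero element as soon as `P`
is finitely generated. -/
theorem S34T_tors_of_fg (P : Submodule A F) (hP : P.FG) (N : Submodule A F) :
    ∃ c₀ : A, c₀ ≠ 0 ∧ ∀ h ∈ N ⊔ P, ∀ a : A, a ≠ 0 → a • h ∈ N → c₀ • h ∈ N := by
  revert N
  refine Submodule.fg_induction
    (motive := fun P _ => ∀ N : Submodule A F, ∃ c₀ : A, c₀ ≠ 0 ∧
      ∀ h ∈ N ⊔ P, ∀ a : A, a ≠ 0 → a • h ∈ N → c₀ • h ∈ N) ?_ ?_ P hP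
  · intro x N
    by_cases hx : ∃ c : A, c ≠ 0 ∧ c • x ∈ N
    · obtain ⟨c, hc, hcx⟩ := hx
      refine ⟨c, hc, ?_⟩
      intro h hh a _ _
      obtain ⟨n, hn, y, hy, rfl⟩ := Submodule.mem_sup.mp hh
      obtain ⟨b, rfl⟩ := Submodule.mem_span_singleton.mp hy
      rw [smul_add, smul_comm]
      exact N.add_mem (N.smul_mem _ hn) (N.smul_mem _ hcx)
    · refine ⟨1, one_ne_zero, ?_⟩
      intro h hh a ha hah
      obtain ⟨n, hn, y, hy, rfl⟩ := Submodule.mem_sup.mp hh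
      obtain ⟨b, rfl⟩ := Submodule.mem_span_singleton.mp hy
      have h1 : (a * b) • x ∈ N := by
        have : (a * b) • x = a • (n + b • x) - a • n := by rw [smul_add, mul_smul]; abel
        rw [this]
        exact N.sub_mem hah (N.smul_mem _ hn)
      have hb : b = 0 := by
        by_contra hb
        exact hx ⟨a * b, mul_ne_zero ha hb, h1⟩
      rw [hb, zero_smul, add_zero, one_smul]
      exact hn
  · intro P₁ P₂ _ _ h₁ h₂ N
    obtain ⟨c₁, hc₁, H₁⟩ := h₁ N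
    obtain ⟨c₂, hc₂, H₂⟩ := h₂ (N ⊔ P₁)
    refine ⟨c₁ * c₂, mul_ne_zero hc₁ hc₂, ?_⟩
    intro h hh a ha hah
    have hh' : h ∈ (N ⊔ P₁) ⊔ P₂ := by rwa [sup_assoc]
    have h2 : c₂ • h ∈ N ⊔ P₁ := H₂ h hh' a ha ((le_sup_left : N ≤ N ⊔ P₁) hah)
    have h3 : a • (c₂ • h) ∈ N := by rw [smul_comm]; exact N.smul_mem _ hah
    have := H₁ (c₂ • h) h2 a ha h3
    rwa [mul_smul]

/-- The hypothesis `htors` of `S34I_false` from a finitely generated cover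
`M'' ≤ M ⊔ M' ⊔ P`. -/
theorem S34T_htors (M M' M'' P : Submodule A F) (hP : P.FG) (hcov : M'' ≤ M ⊔ M' ⊔ P) :
    ∃ c₀ : A, c₀ ≠ 0 ∧ ∀ h ∈ M'', ∀ a : A, a ≠ 0 → a • h ∈ M ⊔ M' → c₀ • h ∈ M ⊔ M' := by
  obtain ⟨c₀, hc₀, H⟩ := S34T_tors_of_fg P hP (M ⊔ M')
  exact ⟨c₀, hc₀, fun h hh a ha hah => H h (hcov hh) a ha hah⟩

end torsA

section count

variable {k R : Type*} [Field k] [AddCommGroup R] [Module k R]

/-- `W₁ ⊓ W₂ = W₀` and `dim W₁ + dim W₂ = dim W₃ + dim W₀` give `W₁ ⊔ W₂ = W₃`. -/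
theorem S34T_sup_of_count (W₀ W₁ W₂ W₃ : Submodule k R) [FiniteDimensional k W₃]
    (h₁ : W₁ ≤ W₃) (h₂ : W₂ ≤ W₃) (h₀₁ : W₀ ≤ W₁) (h₀₂ : W₀ ≤ W₂) (hinf : W₁ ⊓ W₂ ≤ W₀)
    (hdim : (finrank k W₁ : ℤ) + finrank k W₂ = finrank k W₃ + finrank k W₀) :
    W₁ ⊔ W₂ = W₃ := by
  have hinf' : W₁ ⊓ W₂ = W₀ := le_antisymm hinf (le_inf h₀₁ h₀₂)
  have hle : W₁ ⊔ W₂ ≤ W₃ := sup_le h₁ h₂
  have hf1 : FiniteDimensional k W₁ := Submodule.finiteDimensional_of_le h₁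
  have hf2 : FiniteDimensional k W₂ := Submodule.finiteDimensional_of_le h₂
  have hd := Submodule.finrank_sup_add_finrank_inf_eq W₁ W₂
  rw [hinf'] at hd
  exact Submodule.eq_of_le_of_finrank_eq hle (by omega)

/-- **The count.**  A monotone, saturated family of finite-dimensional subspaces whose dimension
is affine in the range `m₀ ≤ a + b` satisfies `W a b = W a 0 ⊔ W 0 b ⊔ W m₀ m₀` (`a, b ≥ m₀`). -/
theorem S34T_count (W : ℕ → ℕ → Submodule k R)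
    (hmono : ∀ a b a' b', a ≤ a' → b ≤ b' → W a b ≤ W a' b')
    (m₀ : ℕ)
    (hsat : ∀ a b a' b', m₀ ≤ min a a' + min b b' → W a b ⊓ W a' b' ≤ W (min a a') (min b b'))
    (hfin : ∀ a b, FiniteDimensional k (W a b)) (d d' e : ℤ)
    (hdim : ∀ a b, m₀ ≤ a + b → (finrank k (W a b) : ℤ) = a * d + b * d' + e)
    (a b : ℕ) (ha : m₀ ≤ a) (hb : m₀ ≤ b) :
    W a b = W a 0 ⊔ W 0 b ⊔ W m₀ m₀ := by
  have := hfin
  -- step 1
  have s1 : W a m₀ ⊔ W m₀ b = W a b := by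
    refine S34T_sup_of_count (W m₀ m₀) _ _ _ (hmono _ _ _ _ le_rfl hb) (hmono _ _ _ _ ha le_rfl)
      (hmono _ _ _ _ ha le_rfl) (hmono _ _ _ _ le_rfl hb) ?_ ?_
    · have h := hsat a m₀ m₀ b (by rw [Nat.min_eq_right ha, Nat.min_eq_left hb]; omega)
      rwa [Nat.min_eq_right ha, Nat.min_eq_left hb] at h
    · rw [hdim a m₀ (by omega), hdim m₀ b (by omega), hdim a b (by omega),
        hdim m₀ m₀ (by omega)]
      ring
  -- step 2
  have s2 : W a 0 ⊔ W m₀ m₀ = W a m₀ := by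
    refine S34T_sup_of_count (W m₀ 0) _ _ _ (hmono _ _ _ _ le_rfl (Nat.zero_le _))
      (hmono _ _ _ _ ha le_rfl) (hmono _ _ _ _ ha le_rfl)
      (hmono _ _ _ _ le_rfl (Nat.zero_le _)) ?_ ?_
    · have h := hsat a 0 m₀ m₀ (by rw [Nat.min_eq_right ha, Nat.min_eq_left (Nat.zero_le _)]; omega)
      rwa [Nat.min_eq_right ha, Nat.min_eq_left (Nat.zero_le _)] at h
    · rw [hdim a 0 (by omega), hdim m₀ m₀ (by omega), hdim a m₀ (by omega),
        hdim m₀ 0 (by omega)]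
      ring
  -- step 3
  have s3 : W 0 b ⊔ W m₀ m₀ = W m₀ b := by
    refine S34T_sup_of_count (W 0 m₀) _ _ _ (hmono _ _ _ _ (Nat.zero_le _) le_rfl)
      (hmono _ _ _ _ le_rfl hb) (hmono _ _ _ _ le_rfl hb)
      (hmono _ _ _ _ (Nat.zero_le _) le_rfl) ?_ ?_
    · have h := hsat 0 b m₀ m₀ (by rw [Nat.min_eq_left (Nat.zero_le _), Nat.min_eq_right hb]; omega)
      rwa [Nat.min_eq_left (Nat.zero_le _), Nat.min_eq_right hb] at h
    · rw [hdim 0 b (by omega), hdim m₀ m₀ (by omega), hdim m₀ b (by omega),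
        hdim 0 m₀ (by omega)]
      ring
  rw [← s1, ← s2, ← s3]
  apply le_antisymm
  · refine sup_le (sup_le ?_ ?_) (sup_le ?_ ?_)
    · exact le_sup_of_le_left le_sup_left
    · exact le_sup_right
    · exact le_sup_of_le_left le_sup_right
    · exact le_sup_right
  · refine sup_le (sup_le ?_ ?_) ?_
    · exact le_sup_of_le_left le_sup_left
    · exact le_sup_of_le_right le_sup_left
    · exact le_sup_of_le_left le_sup_right

end count

section cover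

variable {A F : Type*} [CommRing A] [IsLocalRing A] [AddCommGroup F] [Module A F]

/-- **Nakayama**: if every element of the finitely generated `P` is in `N` modulo `𝔪 • P`,
then `P ≤ N`. -/
theorem S34T_nak (P N : Submodule A F) (hP : P.FG)
    (h : ∀ f ∈ P, ∃ g ∈ N, f - g ∈ IsLocalRing.maximalIdeal A • P) : P ≤ N := by
  refine Submodule.le_of_le_smul_of_le_jacobson_bot (I := IsLocalRing.maximalIdeal A) hP ?_ ?_
  · exact (IsLocalRing.jacobson_eq_maximalIdeal ⊥ bot_ne_top).ge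
  · intro f hf
    obtain ⟨g, hg, hfg⟩ := h f hf
    have : f = g + (f - g) := by abel
    rw [this]
    exact Submodule.add_mem_sup hg hfg

variable {k R : Type*} [Field k] [AddCommGroup R] [Module k R]

/-- **The cover** `L a b ≤ L a 0 ⊔ L 0 b ⊔ L m₀ m₀` from the count, with an abstract reduction
map `red` (a plain function on `F`; only its values on the lattices matter). -/
theorem S34T_cover (L : ℕ → ℕ → Submodule A F)
    (hLmono : ∀ a b a' b', a ≤ a' → b ≤ b' → L a b ≤ L a' b')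
    (hfg : ∀ a b, (L a b).FG)
    (red : F → R)
    (hadd : ∀ a b, ∀ f ∈ L a b, ∀ g ∈ L a b, red (f + g) = red f + red g)
    (hker : ∀ a b, ∀ f ∈ L a b, ∀ g ∈ L a b, red f = red g →
      f - g ∈ IsLocalRing.maximalIdeal A • L a b)
    (W : ℕ → ℕ → Submodule k R)
    (hW : ∀ a b, ∀ w : R, w ∈ W a b ↔ ∃ f ∈ L a b, red f = w)
    (m₀ : ℕ)
    (hsat : ∀ a b a' b', m₀ ≤ min a a' + min b b' → W a b ⊓ W a' b' ≤ W (min a a') (min b b'))
    (hfin : ∀ a b, FiniteDimensional k (W a b)) (d d' e : ℤ)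
    (hdim : ∀ a b, m₀ ≤ a + b → (finrank k (W a b) : ℤ) = a * d + b * d' + e)
    (a b : ℕ) (ha : m₀ ≤ a) (hb : m₀ ≤ b) : L a b ≤ L a 0 ⊔ L 0 b ⊔ L m₀ m₀ := by
  have hWmono : ∀ a b a' b', a ≤ a' → b ≤ b' → W a b ≤ W a' b' := by
    intro a b a' b' haa hbb w hw
    obtain ⟨f, hf, rfl⟩ := (hW a b w).1 hw
    exact (hW a' b' _).2 ⟨f, hLmono a b a' b' haa hbb hf, rfl⟩
  refine S34T_nak _ _ (hfg a b) ?_
  intro f hf
  have hw : red f ∈ W a b := (hW a b _).2 ⟨f, hf, rfl⟩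
  rw [S34T_count W hWmono m₀ hsat hfin d d' e hdim a b ha hb] at hw
  obtain ⟨w₁₂, hw₁₂, w₃, hw₃, hsum⟩ := Submodule.mem_sup.mp hw
  obtain ⟨w₁, hw₁, w₂, hw₂, rfl⟩ := Submodule.mem_sup.mp hw₁₂
  obtain ⟨g₁, hg₁, rfl⟩ := (hW a 0 w₁).1 hw₁
  obtain ⟨g₂, hg₂, rfl⟩ := (hW 0 b w₂).1 hw₂
  obtain ⟨g₃, hg₃, rfl⟩ := (hW m₀ m₀ w₃).1 hw₃
  have hg₁' : g₁ ∈ L a b := hLmono _ _ _ _ le_rfl (Nat.zero_le _) hg₁
  have hg₂' : g₂ ∈ L a b := hLmono _ _ _ _ (Nat.zero_le _) le_rfl hg₂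
  have hg₃' : g₃ ∈ L a b := hLmono _ _ _ _ ha hb hg₃
  refine ⟨g₁ + g₂ + g₃, ?_, ?_⟩
  · exact Submodule.add_mem_sup (Submodule.add_mem_sup hg₁ hg₂) hg₃
  · refine hker a b f hf _ ((L a b).add_mem ((L a b).add_mem hg₁' hg₂') hg₃') ?_
    rw [hadd a b _ ((L a b).add_mem hg₁' hg₂') _ hg₃', hadd a b _ hg₁' _ hg₂', hsum]

/-- **TORS**: the hypothesis `htors` of `S34I_false` from the lattice counts. -/
theorem S34T_main [IsDomain A] (L : ℕ → ℕ → Submodule A F)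
    (hLmono : ∀ a b a' b', a ≤ a' → b ≤ b' → L a b ≤ L a' b')
    (hfg : ∀ a b, (L a b).FG)
    (red : F → R)
    (hadd : ∀ a b, ∀ f ∈ L a b, ∀ g ∈ L a b, red (f + g) = red f + red g)
    (hker : ∀ a b, ∀ f ∈ L a b, ∀ g ∈ L a b, red f = red g →
      f - g ∈ IsLocalRing.maximalIdeal A • L a b)
    (W : ℕ → ℕ → Submodule k R)
    (hW : ∀ a b, ∀ w : R, w ∈ W a b ↔ ∃ f ∈ L a b, red f = w)
    (m₀ : ℕ)
    (hsat : ∀ a b a' b', m₀ ≤ min a a' + min b b' → W a b ⊓ W a' b' ≤ W (min a a') (min b b'))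
    (hfin : ∀ a b, FiniteDimensional k (W a b)) (d d' e : ℤ)
    (hdim : ∀ a b, m₀ ≤ a + b → (finrank k (W a b) : ℤ) = a * d + b * d' + e)
    (M M' M'' : Submodule A F)
    (hM : ∀ a, L a 0 ≤ M) (hM' : ∀ b, L 0 b ≤ M')
    (hM'' : ∀ h ∈ M'', ∃ a b, h ∈ L a b) :
    ∃ c₀ : A, c₀ ≠ 0 ∧ ∀ h ∈ M'', ∀ a : A, a ≠ 0 → a • h ∈ M ⊔ M' → c₀ • h ∈ M ⊔ M' := by
  refine S34T_htors M M' M'' (L m₀ m₀) (hfg m₀ m₀) ?_
  intro h hh
  obtain ⟨a, b, hab⟩ := hM'' h hh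
  have hab' : h ∈ L (max a m₀) (max b m₀) :=
    hLmono _ _ _ _ (le_max_left _ _) (le_max_left _ _) hab
  have hc := S34T_cover L hLmono hfg red hadd hker W hW m₀ hsat hfin d d' e hdim
    (max a m₀) (max b m₀) (le_max_right _ _) (le_max_right _ _) hab'
  exact (sup_le_sup_right (sup_le_sup (hM _) (hM' _)) _) hc

end cover

end Fermat.Agent.S34
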