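import Fermat.Agent.S34.LatBall
import Fermat.Agent.S34.Tors

/-!
# TRACK 7, LATBALL ∘ TORS (helper23): `S34T_main` instantiated on the unit balls

`S34LB_tors`: for a lattice datum `S` with a cartesian system and a monotone family `V a b` of
finite-dimensional `L`-subspaces of `F`, the hypotheses `hfg`, `hadd`, `hker`, `hW`, `hfin` of
helper3's `S34T_main` hold for `L a b := S34LB_ball S (V a b)`, `red := S34LB_redF S`,
`W a b := S.redSub (V a b)`; the dimension count is the one of `V a b` over `L`.
Remaining inputs: saturation `hsat`, the count `hdim`, and the three charts `M, M', M''`.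
-/

set_option autoImplicit false

namespace Fermat.Agent.S34
open Fermat.Agent.S18 Module

variable {L F k R : Type*} [Field L] [Field F] [Algebra L F] [Field k] [CommRing R]
  [Algebra k R] (S : S34L_Lat L F k R)

/-- TORS for the unit balls of a monotone family of finite-dimensional subspaces. -/
theorem S34LB_tors {x : S.O} {n : ℕ} {y : Fin n → S.O} (hC : S.IsCart x y)
    (V : ℕ → ℕ → Submodule L F)
    (hVmono : ∀ a b a' b', a ≤ a' → b ≤ b' → V a b ≤ V a' b')
    (hVfin : ∀ a b, FiniteDimensional L (V a b))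
    (m₀ : ℕ)
    (hsat : ∀ a b a' b', m₀ ≤ min a a' + min b b' →
      S.redSub (V a b) ⊓ S.redSub (V a' b') ≤ S.redSub (V (min a a') (min b b')))
    (d d' e : ℤ)
    (hdim : ∀ a b, m₀ ≤ a + b → (finrank L (V a b) : ℤ) = a * d + b * d' + e)
    (M M' M'' : Submodule S.A F)
    (hM : ∀ a, S34LB_ball S (V a 0) ≤ M) (hM' : ∀ b, S34LB_ball S (V 0 b) ≤ M')
    (hM'' : ∀ h ∈ M'', ∃ a b, h ∈ S34LB_ball S (V a b)) :
    ∃ c₀ : S.A, c₀ ≠ 0 ∧ ∀ h ∈ M'', ∀ a : S.A, a ≠ 0 → a • h ∈ M ⊔ M' → c₀ • h ∈ M ⊔ M' := by
  refine S34T_main (fun a b => S34LB_ball S (V a b))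
    (fun a b a' b' h h' => S34LB_ball_mono S (hVmono a b a' b' h h'))
    (fun a b => by have := hVfin a b; exact S34LB_ball_fg S hC (V a b))
    (S34LB_redF S)
    (fun a b => S34LB_redF_add_ball S (V a b))
    (fun a b => by have := hVfin a b; exact S34LB_redF_ker S hC (V a b))
    (fun a b => S.redSub (V a b))
    (fun a b w => S34LB_mem_redSub_redF S (V a b) w)
    m₀ hsat
    (fun a b => by have := hVfin a b; exact hC.finite_redSub (V a b))
    d d' e
    (fun a b hab => by
      have := hVfin a b
      rw [hC.finrank_redSub (V a b)]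
      exact hdim a b hab)
    M M' M'' hM hM' hM''

end Fermat.Agent.S34
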