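import Fermat.Agent.S34.InjConc
import Fermat.Agent.S34.LatBallTors
import Fermat.Agent.S34.Pole3

/-!
# TRACK 7 (S34 + S35), package INJ concrete, part 2 (helper25): INJ from the LEVEL description

`V a b = L(E(a,b) + D)`, `E(a,b) = a·(x)_∞ + b·(x - c)₀` (POLE's grid `S34P_E`), `n·D = div u`.

* chart exhaustion: `S34IG_hVB` (`V a 0 ⊂ M_U`), `S34IG_hVB'` (`V 0 b ⊂ M_{U'}`),
  `S34IG_hVB''` (`M_{U''} ⊂ ⋃ V a b`);
* `S34IG_hsat` : saturation on the grid from a level description `red (V a b ∩ O) = G a b`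
  with `G` stable under intersection;
* `S34IG_htors` : the hypothesis `htors` of `S34IC_inj` / `S34IX_hinj` from a cartesian chart
  (CART2, LATBALL), Riemann's theorem (POLE-2) and the level description;
* `S34IG_hinj` : **INJ** from the level description (CHART) only.
-/

set_option autoImplicit false
set_option linter.unusedSectionVars false

open AlgebraicCurve

namespace Fermat.Agent.S34

open Fermat.Agent.Lib Fermat.Agent.S18 Fermat.Agent.S24

section Exhaust

variable {K F : Type*} [Field K] [Field F] [Algebra K F]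

/-- the orders of a Kummer generator: `n·D = div u`. -/
theorem S34IG_ord_u (hP : HasPrincipalDivisors K F) {n : ℕ} {u : F} {D : Divisor K F}
    (hD : n • D = RR_div hP u) (v : Place K F) : (n : ℤ) * D v = v.ord u := by
  have := congrArg (fun E : Divisor K F => E v) hD
  simp only [S18_semi_nsmul_apply, RR_div_apply] at this
  exact this

/-- `ord (fⁿ u) = n (ord f + D)`. -/
theorem S34IG_ord_pow_mul (hP : HasPrincipalDivisors K F) {n : ℕ} {u f : F} {D : Divisor K F}
    (hD : n • D = RR_div hP u) (hf : f ≠ 0) (hu : u ≠ 0) (v : Place K F) :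
    v.ord (f ^ n * u) = (n : ℤ) * (v.ord f + D v) := by
  rw [v.ord_mul (pow_ne_zero _ hf) hu, S18_ord_pow, ← S34IG_ord_u hP hD v]
  ring

/-- the degree of `D` is `0`. -/
theorem S34IG_degree_D (hP : HasPrincipalDivisors K F) {n : ℕ} (hn : 0 < n) {u : F}
    {D : Divisor K F} (hD : n • D = RR_div hP u) : D.degree = 0 := by
  have h := congrArg (fun E : Divisor K F => E.degree) hD
  simp only [map_nsmul, RR_div_degree, nsmul_eq_mul] at h
  have hn' : ((n : ℕ) : ℤ) ≠ 0 := by exact_mod_cast hn.ne'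
  rcases mul_eq_zero.1 h with h0 | h0
  · exact absurd h0 hn'
  · exact h0

/-- chart exhaustion, chart `U`: sections with poles at the poles of `x` only. -/
theorem S34IG_hVB (hP : HasPrincipalDivisors K F) (x : F) (c : K) {n : ℕ} (hn : 0 < n) {u : F}
    (hu : u ≠ 0) {D : Divisor K F} (hD : n • D = RR_div hP u) (a : ℕ) (f : F)
    (hf : f ∈ riemannRochSpace (S34P_E hP x (x - algebraMap K F c) a 0 + D)) :
    f ^ n * u ∈ S34IX_reg (S34IX_TU (K := K) x) := by
  rw [S34IX_mem_reg_iff_ord]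
  intro v hv
  rcases eq_or_ne f 0 with rfl | hf0
  · rw [zero_pow hn.ne', zero_mul, Place.ord_zero]
  rw [S34IG_ord_pow_mul hP hD hf0 hu v]
  have h1 := ((mem_riemannRochSpace_iff.1 hf) v).resolve_left hf0
  rw [Finsupp.add_apply] at h1
  have hv' : 0 ≤ v.ord x := hv
  have hE : S34P_E hP x (x - algebraMap K F c) a 0 v = 0 := by
    rcases S34P_E_apply_sub hP x c a 0 v with ⟨h, _⟩ | ⟨_, _, e⟩
    · omega
    · rw [e]; simp
  rw [hE] at h1
  have : 0 ≤ v.ord f + D v := by omega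
  positivity

/-- chart exhaustion, chart `U'`: sections with poles at the zeros of `x - c` only. -/
theorem S34IG_hVB' (hP : HasPrincipalDivisors K F) (x : F) (c : K) {n : ℕ} (hn : 0 < n) {u : F}
    (hu : u ≠ 0) {D : Divisor K F} (hD : n • D = RR_div hP u) (b : ℕ) (f : F)
    (hf : f ∈ riemannRochSpace (S34P_E hP x (x - algebraMap K F c) 0 b + D)) :
    f ^ n * u ∈ S34IX_reg (S34IX_TU' x c) := by
  rw [S34IX_mem_reg_iff_ord]
  intro v hv
  rcases eq_or_ne f 0 with rfl | hf0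
  · rw [zero_pow hn.ne', zero_mul, Place.ord_zero]
  rw [S34IG_ord_pow_mul hP hD hf0 hu v]
  have h1 := ((mem_riemannRochSpace_iff.1 hf) v).resolve_left hf0
  rw [Finsupp.add_apply] at h1
  have hv' : v.ord (x - algebraMap K F c) ≤ 0 := hv
  have hE : S34P_E hP x (x - algebraMap K F c) 0 b v = 0 := by
    rcases S34P_E_apply_sub hP x c 0 b v with ⟨_, e⟩ | ⟨_, h2, e⟩
    · rw [e]; simp
    · rw [e]
      have : v.ord (x - algebraMap K F c) = 0 := le_antisymm hv' h2
      rw [this]; simp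
  rw [hE] at h1
  have : 0 ≤ v.ord f + D v := by omega
  positivity

/-- the grid divisor is effective and at least `a` at the poles of `x`, at least `b` at the zeros
of `x - c`. -/
theorem S34IG_E_ge (hP : HasPrincipalDivisors K F) (x : F) (c : K) (a b : ℕ) (v : Place K F) :
    0 ≤ S34P_E hP x (x - algebraMap K F c) a b v ∧
    (v.ord x < 0 → (a : ℤ) ≤ S34P_E hP x (x - algebraMap K F c) a b v) ∧
    (0 < v.ord (x - algebraMap K F c) → (b : ℤ) ≤ S34P_E hP x (x - algebraMap K F c) a b v) := by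
  rcases S34P_E_apply_sub hP x c a b v with ⟨h, e⟩ | ⟨h, h2, e⟩
  · rw [e]
    have ha : (0 : ℤ) ≤ a := by positivity
    have h1 : (1 : ℤ) ≤ -v.ord x := by omega
    refine ⟨by positivity, fun _ => by nlinarith, fun h3 => ?_⟩
    rw [LC_ord_sub_const_of_neg v h c] at h3
    omega
  · rw [e]
    have hb : (0 : ℤ) ≤ b := by positivity
    refine ⟨by positivity, fun h3 => by omega, fun h3 => by nlinarith⟩

/-- chart exhaustion, chart `U'' = U ∩ U'`: every section on `U''` has bounded poles. -/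
theorem S34IG_hVB'' (hP : HasPrincipalDivisors K F) (x : F) (c : K) {n : ℕ} (hn : 0 < n) {u : F}
    (hu : u ≠ 0) {D : Divisor K F} (hD : n • D = RR_div hP u) (f : F)
    (hf : f ^ n * u ∈ S34IX_reg (S34IX_TU'' x c)) :
    ∃ a b : ℕ, f ∈ riemannRochSpace (S34P_E hP x (x - algebraMap K F c) a b + D) := by
  classical
  rcases eq_or_ne f 0 with rfl | hf0
  · exact ⟨0, 0, Submodule.zero_mem _⟩
  set T : Divisor K F := RR_div hP f + D with hT
  set N : ℕ := ∑ v ∈ T.support, (T v).natAbs with hN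
  have hbound : ∀ v : Place K F, -(N : ℤ) ≤ T v := by
    intro v
    by_cases hv : v ∈ T.support
    · have h1 : (T v).natAbs ≤ N :=
        Finset.single_le_sum (f := fun w => (T w).natAbs) (fun _ _ => Nat.zero_le _) hv
      have h2 : -((T v).natAbs : ℤ) ≤ T v := by
        omega
      have h3 : ((T v).natAbs : ℤ) ≤ N := by exact_mod_cast h1
      omega
    · rw [Finsupp.notMem_support_iff.1 hv]
      omega
  have hTv : ∀ v : Place K F, T v = v.ord f + D v := by
    intro v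
    rw [hT, Finsupp.add_apply, RR_div_apply]
  refine ⟨N, N, ?_⟩
  rw [mem_riemannRochSpace_iff]
  intro v
  right
  rw [Finsupp.add_apply]
  obtain ⟨hE0, hEa, hEb⟩ := S34IG_E_ge hP x c N N v
  have hb := hbound v
  rw [hTv] at hb
  by_cases h1 : v.ord x < 0
  · have := hEa h1
    omega
  by_cases h2 : 0 < v.ord (x - algebraMap K F c)
  · have := hEb h2
    omega
  · -- `v ∈ U''`
    have hv : v ∈ S34IX_TU'' x c := ⟨not_lt.1 h1, not_lt.1 h2⟩
    have h3 := S34IX_mem_reg_iff_ord.1 hf v hv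
    rw [S34IG_ord_pow_mul hP hD hf0 hu v] at h3
    have hn' : (0 : ℤ) < n := by exact_mod_cast hn
    have h4 : 0 ≤ v.ord f + D v := by
      by_contra hneg
      have : (n : ℤ) * (v.ord f + D v) < 0 := mul_neg_of_pos_of_neg hn' (not_le.1 hneg)
      omega
    omega

end Exhaust

section Sat

variable {k R : Type*} [Field k] [AddCommGroup R] [Module k R]

/-- saturation on the grid from a level description. -/
theorem S34IG_hsat (W G : ℕ → ℕ → Submodule k R) (m₀ : ℕ)
    (hG : ∀ a b a' b', G a b ⊓ G a' b' ≤ G (min a a') (min b b'))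
    (hlev : ∀ a b, m₀ ≤ a + b → W a b = G a b) (a b a' b' : ℕ)
    (h : m₀ ≤ min a a' + min b b') :
    W a b ⊓ W a' b' ≤ W (min a a') (min b b') := by
  have h1 : m₀ ≤ a + b := le_trans h (add_le_add (min_le_left _ _) (min_le_left _ _))
  have h2 : m₀ ≤ a' + b' := le_trans h (add_le_add (min_le_right _ _) (min_le_right _ _))
  rw [hlev a b h1, hlev a' b' h2, hlev _ _ h]
  exact hG a b a' b'

end Sat

section Pair

variable {L F k Fk₁ Fk₂ : Type*} [Field L] [Field F] [Algebra L F] [Field k]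
  [Field Fk₁] [Field Fk₂] [Algebra k Fk₁] [Algebra k Fk₂]

/-- **TORS, concrete**: the hypothesis `htors` of `S34IC_inj` for the three standard charts of a
coordinate `x`, from a cartesian chart (CART2 + LATBALL), Riemann's theorem on `F` (POLE-2) and
saturation on the grid (SAT). -/
theorem S34IG_htors {R : Type*} [CommRing R] [Algebra k R] (S : S34L_Lat L F k R)
    (hRR : RR_Hyp L F)
    {x₀ : S.O} {r : ℕ} {y : Fin r → S.O} (hC : S.IsCart x₀ y)
    (x : F) (c : L) (hx : 0 < (RR_poleDiv hRR.principal x).degree)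
    {n : ℕ} (hn : 0 < n) (u : F) (hu : u ≠ 0) (D : Divisor L F)
    (hD : n • D = RR_div hRR.principal u)
    (m₀ : ℕ)
    (hsat : ∀ a b a' b', m₀ ≤ min a a' + min b b' →
      S.redSub (riemannRochSpace
          (S34P_E hRR.principal x (x - algebraMap L F c) a b + D)) ⊓
        S.redSub (riemannRochSpace
          (S34P_E hRR.principal x (x - algebraMap L F c) a' b' + D)) ≤
      S.redSub (riemannRochSpace
          (S34P_E hRR.principal x (x - algebraMap L F c) (min a a') (min b b') + D)))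
    (B B' B'' : Subalgebra L F)
    (hroot : ∀ y : F, y ^ n ∈ B → y ∈ B) (hroot' : ∀ y : F, y ^ n ∈ B' → y ∈ B')
    (hroot'' : ∀ y : F, y ^ n ∈ B'' → y ∈ B'')
    (hB : S34IX_reg (S34IX_TU (K := L) x) ≤ B) (hB' : S34IX_reg (S34IX_TU' x c) ≤ B')
    (hB'' : B'' ≤ S34IX_reg (S34IX_TU'' x c)) :
    ∃ c₀ : S.A, c₀ ≠ 0 ∧ ∀ h ∈ S34IC_M S B'' n hroot'' u, ∀ a : S.A, a ≠ 0 →
      a • h ∈ S34IC_M S B n hroot u ⊔ S34IC_M S B' n hroot' u →
      c₀ • h ∈ S34IC_M S B n hroot u ⊔ S34IC_M S B' n hroot' u := by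
  obtain ⟨m₁, hm₁⟩ := S34P_riemann_grid hRR x (x - algebraMap L F c) D
    (S34IG_degree_D hRR.principal hn hD) hx
  refine S34LB_tors S hC
    (fun a b => riemannRochSpace (S34P_E hRR.principal x (x - algebraMap L F c) a b + D))
    ?_ (fun a b => RR_finite hRR _) (max m₀ m₁) ?_
    (RR_poleDiv hRR.principal x).degree (RR_poleDiv hRR.principal x).degree
    (1 - RR_genus L F) ?_ _ _ _ ?_ ?_ ?_
  · intro a b a' b' ha hb
    exact RR_mono (add_le_add_left (S34P_E_mono hRR.principal x c ha hb) D)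
  · intro a b a' b' h
    exact hsat a b a' b' (le_trans (le_max_left _ _) h)
  · intro a b h
    rw [hm₁ a b (le_trans (le_max_right _ _) h)]
    ring
  · rintro a f ⟨hfV, hfO⟩
    exact ⟨hfO, hB (S34IG_hVB hRR.principal x c hn hu hD a f hfV)⟩
  · rintro b f ⟨hfV, hfO⟩
    exact ⟨hfO, hB' (S34IG_hVB' hRR.principal x c hn hu hD b f hfV)⟩
  · rintro h ⟨hO, hh⟩
    obtain ⟨a, b, hab⟩ := S34IG_hVB'' hRR.principal x c hn hu hD h (hB'' hh)
    exact ⟨a, b, hab, hO⟩

variable {S₁ : S18_Val L F k Fk₁} {S₂ : S18_Val L F k Fk₂} (hS : S34P_Same S₁ S₂)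

/-- **INJ from the level description.**  `C` is the chart `U` of KACT (the functions regular off
the poles of `x`), `u` a normalised generator with `n·D = div u`.  If the reductions of the
levels `L(E(a,b) + D) ∩ O₂` are described by an intersection-stable family `G a b`
(`a + b ≥ m₀`) which contains `1` on the `U`-side and on the `U'`-side, then `u = c·gⁿ`. -/
theorem S34IG_hinj (hRR : RR_Hyp L F)
    {x₀ : (S34P_lat hS).O} {r : ℕ} {y : Fin r → (S34P_lat hS).O}
    (hC : (S34P_lat hS).IsCart x₀ y)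
    (hrank : ∀ c : (S34P_lat hS).A, ¬ IsUnit c → c ≠ 0 → ∀ a : (S34P_lat hS).A, a ≠ 0 →
      ∃ N : ℕ, a ∣ c ^ N)
    {n : ℕ} (hnk : (n : k) ≠ 0)
    (C : S34K_Chart (L := L) (F := F) (k := k) (Fk₁ := Fk₁) (Fk₂ := Fk₂) n)
    (x : F) (c : L) (hx : 0 < (RR_poleDiv hRR.principal x).degree)
    (hCB : ∀ f : F, f ∈ C.B ↔ f ∈ S34IX_reg (S34IX_TU (K := L) x))
    (u : F) (hu : u ∈ S34K_Norm S₁ S₂) (D : Divisor L F)
    (hD : n • D = RR_div hRR.principal u)
    (m₀ : ℕ) (G : ℕ → ℕ → Submodule k (Fk₁ × Fk₂))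
    (hG : ∀ a b a' b', G a b ⊓ G a' b' ≤ G (min a a') (min b b'))
    (hlev : ∀ a b, m₀ ≤ a + b →
      (S34P_lat hS).redSub (riemannRochSpace
        (S34P_E hRR.principal x (x - algebraMap L F c) a b + D)) = G a b)
    (hone : ∃ a, m₀ ≤ a ∧ (1 : Fk₁ × Fk₂) ∈ G a 0)
    (hone' : ∃ b, m₀ ≤ b ∧ (1 : Fk₁ × Fk₂) ∈ G 0 b) :
    ∃ (c' : L) (g : F), c' ≠ 0 ∧ g ≠ 0 ∧ u = algebraMap L F c' * g ^ n := by
  have hu0 : u ≠ 0 := S34K_ne_zero_of_Norm hu
  have hn : 0 < n := C.hn
  have hroot' : ∀ y : F, y ^ n ∈ S34IX_reg (S34IX_TU' x c) → y ∈ S34IX_reg (S34IX_TU' x c) :=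
    fun y hy => S34IX_reg_root _ hn y hy
  have hroot'' : ∀ y : F, y ^ n ∈ S34IX_reg (S34IX_TU'' x c) →
      y ∈ S34IX_reg (S34IX_TU'' x c) := fun y hy => S34IX_reg_root _ hn y hy
  refine S34IX_hinj_pair hS C (S34IX_hker _ hC) hrank hnk
    (S34IX_reg (S34IX_TU' x c)) (S34IX_reg (S34IX_TU'' x c)) ?_ ?_ hroot' hroot'' ?_ u hu ?_ ?_ ?_
  · exact fun f hf => S34IX_reg_anti (S34IX_TU''_sub x c) ((hCB f).1 hf)
  · exact S34IX_reg_anti (S34IX_TU''_sub' x c)
  · exact fun f hf hf' => S34IX_reg_const hRR (S34IX_cover x c) f ((hCB f).1 hf) hf'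
  · exact S34IG_htors (S34P_lat hS) hRR hC x c hx hn u hu0 D hD m₀
      (fun a b a' b' h => S34IG_hsat _ G m₀ hG hlev a b a' b' h)
      C.B _ _ C.root hroot' hroot'' (fun f hf => (hCB f).2 hf) le_rfl le_rfl
  · obtain ⟨a, ha, h1⟩ := hone
    rw [← hlev a 0 (by omega), S34L_Lat.mem_redSub] at h1
    obtain ⟨s, hs, hs1⟩ := h1
    exact ⟨s, (hCB _).2 (S34IG_hVB hRR.principal x c hn hu0 hD a _ hs), hs1⟩
  · obtain ⟨b, hb, h1⟩ := hone'
    rw [← hlev 0 b (by omega), S34L_Lat.mem_redSub] at h1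
    obtain ⟨s, hs, hs1⟩ := h1
    exact ⟨s, S34IG_hVB' hRR.principal x c hn hu0 hD b _ hs, hs1⟩

end Pair

end Fermat.Agent.S34
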