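import Fermat.Agent.S34.Chart
import Fermat.Agent.S34.SatBridge
import Fermat.Agent.S34.InjGrid

/-!
# TRACK 7 (S34 + S35), package CHART, part 2 = (LEV) (helper16): the level description for INJ

`S34CL_lev` : for a normalised Kummer generator `u` (`n • D = div u`) whose gluing invariant in
the chart `U` (`S34SB_chart`, helper14) is trivial, `S34K_W hS C u = S34B_glued e₁ e₂ 1`, the
reductions of ALL large levels `L(E(a,b) + D) ∩ O₂`, `E(a,b) = a·(x)_∞ + b·(x − c)₀`, are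

  `G a b = {f ∈ L(Ē₁(a,b)) × L(Ē₂(a,b)) | f₁(P_i) = f₂(P_i') for all nodes i}`,

where `c ∈ A` is a constant whose reduction avoids the values of `x̄₁` at the nodes.  This is
exactly the input `(hG, hlev, hone, hone')` of `S34IG_hinj` / `S34IW_hinj` (helper25).

Inputs: POLE (`S34P_Hyp`, the lattice count `hcount`, `hdeg`; helper2), the nodes `e₁ e₂` of the
chart `U` with `hE` (NODALG) and `card ι ≥ g_F + 1 − g₁ − g₂` (COUNT/SAT), `hWu` (KACT, `γ(u) = 1`).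
Proof: CHART (`S34CH_Data.eq_gluedX_of_finrank`) + BRIDGE (`S34SB_clear`, `S34SB_clear_twist`).
-/

set_option autoImplicit false
set_option linter.unusedSectionVars false
set_option linter.style.haveILetI false

open AlgebraicCurve Module

namespace Fermat.Agent.S34

open Fermat.Agent.Lib Fermat.Agent.S24 Fermat.Agent.S18

section one

variable {K F : Type*} [Field K] [Field F] [Algebra K F] (hP : HasPrincipalDivisors K F)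
  (x : F) (c : K)

theorem S34CL_E_pole (a b : ℕ) (v : Place K F) (h : v.ord x < 0) :
    S34P_E hP x (x - algebraMap K F c) a b v = (a : ℤ) * (-v.ord x) := by
  rcases S34P_E_apply_sub hP x c a b v with ⟨_, e⟩ | ⟨h', _, _⟩
  · exact e
  · omega

theorem S34CL_E_fin (a b : ℕ) (v : Place K F) (h : 0 ≤ v.ord x) :
    S34P_E hP x (x - algebraMap K F c) a b v = (b : ℤ) * v.ord (x - algebraMap K F c) ∧
      0 ≤ v.ord (x - algebraMap K F c) := by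
  rcases S34P_E_apply_sub hP x c a b v with ⟨h', _⟩ | ⟨_, h2, e⟩
  · omega
  · exact ⟨e, h2⟩

/-- the pole conditions of the grid intersect (general form of `S34P_RR_inter`). -/
theorem S34CL_E_inter {a b a' b' : ℕ} {f : F}
    (h1 : f ∈ riemannRochSpace (S34P_E hP x (x - algebraMap K F c) a b))
    (h2 : f ∈ riemannRochSpace (S34P_E hP x (x - algebraMap K F c) a' b')) :
    f ∈ riemannRochSpace (S34P_E hP x (x - algebraMap K F c) (min a a') (min b b')) := by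
  rw [mem_riemannRochSpace_iff] at h1 h2 ⊢
  intro v
  rcases h1 v with h | h1v
  · exact Or.inl h
  rcases h2 v with h | h2v
  · exact Or.inl h
  right
  rcases lt_or_ge (v.ord x) 0 with hx | hx
  · rw [S34CL_E_pole hP x c _ _ v hx] at h1v h2v ⊢
    rcases le_total a a' with h | h
    · rw [min_eq_left h]; exact h1v
    · rw [min_eq_right h]; exact h2v
  · rw [(S34CL_E_fin hP x c _ _ v hx).1] at h1v h2v ⊢
    rcases le_total b b' with h | h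
    · rw [min_eq_left h]; exact h1v
    · rw [min_eq_right h]; exact h2v

/-- `1 ∈ L(E(a,b))`. -/
theorem S34CL_one_mem (a b : ℕ) :
    (1 : F) ∈ riemannRochSpace (S34P_E hP x (x - algebraMap K F c) a b) := by
  rw [mem_riemannRochSpace_iff]
  intro v
  right
  rw [v.ord_one]
  have := S34SB_E_nonneg hP x c a b v
  omega

/-- dividing by `(x − c)^b`: `L(m (x)_∞) ⊆ (x − c)^b · L(E(a,b))` for `m ≤ a + b`. -/
theorem S34CL_div_mem (hz : x - algebraMap K F c ≠ 0) {a b m : ℕ} (hm : m ≤ a + b) {f : F}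
    (hf : f ∈ riemannRochSpace (m • RR_poleDiv hP x)) :
    ((x - algebraMap K F c) ^ b)⁻¹ * f ∈
      riemannRochSpace (S34P_E hP x (x - algebraMap K F c) a b) := by
  by_cases hf0 : f = 0
  · rw [hf0, mul_zero]; exact Submodule.zero_mem _
  rw [mem_riemannRochSpace_iff] at hf ⊢
  intro v
  right
  have h1 := (hf v).resolve_left hf0
  have hzb : ((x - algebraMap K F c) ^ b)⁻¹ ≠ 0 := inv_ne_zero (pow_ne_zero _ hz)
  rw [v.ord_mul hzb hf0, v.ord_inv, S18_ord_pow, S34P_E_apply]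
  rw [S34SB_nsmul_poleDiv_apply] at h1
  have h2 : (0 : ℤ) ≤ max (-v.ord x) 0 := le_max_right _ _
  have h3 : (m : ℤ) ≤ (a : ℤ) + b := by exact_mod_cast hm
  have h4 : (m : ℤ) * max (-v.ord x) 0 ≤ ((a : ℤ) + b) * max (-v.ord x) 0 :=
    mul_le_mul_of_nonneg_right h3 h2
  linarith

end one

section pair

variable {L F k Fk₁ Fk₂ : Type*} [Field L] [Field F] [Algebra L F] [Field k]
  [Field Fk₁] [Field Fk₂] [Algebra k Fk₁] [Algebra k Fk₂]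

/-- the chart-`U` datum of CHART for the concrete chart `reg x₁ × reg x₂` and `ρ = (x₁ − γ, x₂ − γ)`. -/
def S34CL_data (x₁ : Fk₁) (x₂ : Fk₂) (γ : k) {ι : Type*}
    (e₁ : ι → ↥(S34SB_reg k x₁) →ₐ[k] k) (e₂ : ι → ↥(S34SB_reg k x₂) →ₐ[k] k)
    (he₁ : ∀ i, e₁ i ⟨x₁ - algebraMap k Fk₁ γ, S34SB_sub_const_mem_reg x₁ γ⟩ ≠ 0)
    (he₁₂ : ∀ i, e₁ i ⟨x₁ - algebraMap k Fk₁ γ, S34SB_sub_const_mem_reg x₁ γ⟩ =
      e₂ i ⟨x₂ - algebraMap k Fk₂ γ, S34SB_sub_const_mem_reg x₂ γ⟩) :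
    S34CH_Data k Fk₁ Fk₂ ι where
  R₁ := S34SB_reg k x₁
  R₂ := S34SB_reg k x₂
  ρ₁ := x₁ - algebraMap k Fk₁ γ
  ρ₂ := x₂ - algebraMap k Fk₂ γ
  hρ₁ := S34SB_sub_const_mem_reg x₁ γ
  hρ₂ := S34SB_sub_const_mem_reg x₂ γ
  e₁ := e₁
  e₂ := e₂
  he₁ := he₁
  he₁₂ := he₁₂

variable (hP₁ : HasPrincipalDivisors k Fk₁) (hP₂ : HasPrincipalDivisors k Fk₂)

/-- `hX` of CHART: the levels `R̄(Ē(a,b))` lie in `R₁[1/ρ₁] × R₂[1/ρ₂]`. -/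
theorem S34CL_hX (x₁ : Fk₁) (x₂ : Fk₂) (γ : k) {ι : Type*}
    (e₁ : ι → ↥(S34SB_reg k x₁) →ₐ[k] k) (e₂ : ι → ↥(S34SB_reg k x₂) →ₐ[k] k)
    (he₁ : ∀ i, e₁ i ⟨x₁ - algebraMap k Fk₁ γ, S34SB_sub_const_mem_reg x₁ γ⟩ ≠ 0)
    (he₁₂ : ∀ i, e₁ i ⟨x₁ - algebraMap k Fk₁ γ, S34SB_sub_const_mem_reg x₁ γ⟩ =
      e₂ i ⟨x₂ - algebraMap k Fk₂ γ, S34SB_sub_const_mem_reg x₂ γ⟩)
    (a b : ℕ) :
    ∀ f ∈ S34P_Rbar hP₁ hP₂ x₁ (x₁ - algebraMap k Fk₁ γ) x₂ (x₂ - algebraMap k Fk₂ γ) a b,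
      f.1 ∈ (S34CL_data x₁ x₂ γ e₁ e₂ he₁ he₁₂).S₁ ∧
      f.2 ∈ (S34CL_data x₁ x₂ γ e₁ e₂ he₁ he₁₂).S₂ := by
  rintro ⟨f₁, f₂⟩ ⟨h1, h2⟩
  exact ⟨(S34CH_mem_S _ _ _ _).2 ⟨b, S34SB_clear hP₁ x₁ γ a b h1⟩,
    (S34CH_mem_S _ _ _ _).2 ⟨b, S34SB_clear hP₂ x₂ γ a b h2⟩⟩

/-- the family `G a b = {f ∈ R̄(Ē(a,b)) | f₁(P_i) = f₂(P_i')}` of (LEV). -/
noncomputable def S34CL_G (x₁ : Fk₁) (x₂ : Fk₂) (γ : k) {ι : Type*}
    (e₁ : ι → ↥(S34SB_reg k x₁) →ₐ[k] k) (e₂ : ι → ↥(S34SB_reg k x₂) →ₐ[k] k)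
    (he₁ : ∀ i, e₁ i ⟨x₁ - algebraMap k Fk₁ γ, S34SB_sub_const_mem_reg x₁ γ⟩ ≠ 0)
    (he₁₂ : ∀ i, e₁ i ⟨x₁ - algebraMap k Fk₁ γ, S34SB_sub_const_mem_reg x₁ γ⟩ =
      e₂ i ⟨x₂ - algebraMap k Fk₂ γ, S34SB_sub_const_mem_reg x₂ γ⟩)
    (a b : ℕ) : Submodule k (Fk₁ × Fk₂) :=
  (S34CL_data x₁ x₂ γ e₁ e₂ he₁ he₁₂).gluedX (fun _ => 1)
    (S34P_Rbar hP₁ hP₂ x₁ (x₁ - algebraMap k Fk₁ γ) x₂ (x₂ - algebraMap k Fk₂ γ) a b)
    (S34CL_hX hP₁ hP₂ x₁ x₂ γ e₁ e₂ he₁ he₁₂ a b)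

theorem S34CL_mem_G (x₁ : Fk₁) (x₂ : Fk₂) (γ : k) {ι : Type*}
    (e₁ : ι → ↥(S34SB_reg k x₁) →ₐ[k] k) (e₂ : ι → ↥(S34SB_reg k x₂) →ₐ[k] k)
    (he₁ : ∀ i, e₁ i ⟨x₁ - algebraMap k Fk₁ γ, S34SB_sub_const_mem_reg x₁ γ⟩ ≠ 0)
    (he₁₂ : ∀ i, e₁ i ⟨x₁ - algebraMap k Fk₁ γ, S34SB_sub_const_mem_reg x₁ γ⟩ =
      e₂ i ⟨x₂ - algebraMap k Fk₂ γ, S34SB_sub_const_mem_reg x₂ γ⟩)
    (a b : ℕ) (f : Fk₁ × Fk₂) :
    f ∈ S34CL_G hP₁ hP₂ x₁ x₂ γ e₁ e₂ he₁ he₁₂ a b ↔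
      f ∈ S34P_Rbar hP₁ hP₂ x₁ (x₁ - algebraMap k Fk₁ γ) x₂ (x₂ - algebraMap k Fk₂ γ) a b ∧
      ∀ i, (S34CL_data x₁ x₂ γ e₁ e₂ he₁ he₁₂).ev₁ i f.1 =
        (S34CL_data x₁ x₂ γ e₁ e₂ he₁ he₁₂).ev₂ i f.2 := by
  unfold S34CL_G
  rw [S34CH_Data.mem_gluedX]
  simp only [one_mul]

/-- (LEV-hG): `G` is stable under intersection. -/
theorem S34CL_hG (x₁ : Fk₁) (x₂ : Fk₂) (γ : k) {ι : Type*}
    (e₁ : ι → ↥(S34SB_reg k x₁) →ₐ[k] k) (e₂ : ι → ↥(S34SB_reg k x₂) →ₐ[k] k)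
    (he₁ : ∀ i, e₁ i ⟨x₁ - algebraMap k Fk₁ γ, S34SB_sub_const_mem_reg x₁ γ⟩ ≠ 0)
    (he₁₂ : ∀ i, e₁ i ⟨x₁ - algebraMap k Fk₁ γ, S34SB_sub_const_mem_reg x₁ γ⟩ =
      e₂ i ⟨x₂ - algebraMap k Fk₂ γ, S34SB_sub_const_mem_reg x₂ γ⟩)
    (a b a' b' : ℕ) :
    S34CL_G hP₁ hP₂ x₁ x₂ γ e₁ e₂ he₁ he₁₂ a b ⊓ S34CL_G hP₁ hP₂ x₁ x₂ γ e₁ e₂ he₁ he₁₂ a' b' ≤
      S34CL_G hP₁ hP₂ x₁ x₂ γ e₁ e₂ he₁ he₁₂ (min a a') (min b b') := by
  rintro f ⟨h1, h2⟩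
  rw [SetLike.mem_coe, S34CL_mem_G] at h1 h2
  rw [S34CL_mem_G]
  exact ⟨⟨S34CL_E_inter hP₁ x₁ γ h1.1.1 h2.1.1, S34CL_E_inter hP₂ x₂ γ h1.1.2 h2.1.2⟩, h1.2⟩

/-- (LEV-hone): `1 ∈ G a b`. -/
theorem S34CL_one_mem_G (x₁ : Fk₁) (x₂ : Fk₂) (γ : k) {ι : Type*}
    (e₁ : ι → ↥(S34SB_reg k x₁) →ₐ[k] k) (e₂ : ι → ↥(S34SB_reg k x₂) →ₐ[k] k)
    (he₁ : ∀ i, e₁ i ⟨x₁ - algebraMap k Fk₁ γ, S34SB_sub_const_mem_reg x₁ γ⟩ ≠ 0)
    (he₁₂ : ∀ i, e₁ i ⟨x₁ - algebraMap k Fk₁ γ, S34SB_sub_const_mem_reg x₁ γ⟩ =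
      e₂ i ⟨x₂ - algebraMap k Fk₂ γ, S34SB_sub_const_mem_reg x₂ γ⟩)
    (a b : ℕ) :
    (1 : Fk₁ × Fk₂) ∈ S34CL_G hP₁ hP₂ x₁ x₂ γ e₁ e₂ he₁ he₁₂ a b := by
  rw [S34CL_mem_G]
  refine ⟨⟨S34CL_one_mem hP₁ x₁ γ a b, S34CL_one_mem hP₂ x₂ γ a b⟩, fun i => ?_⟩
  simp only [Prod.fst_one, Prod.snd_one, S34CH_Data.ev₁, S34CH_Data.ev₂]
  rw [S34CH_ev_one _ _ _ _ ((S34CL_data x₁ x₂ γ e₁ e₂ he₁ he₁₂).he₁ i),
    S34CH_ev_one _ _ _ _ ((S34CL_data x₁ x₂ γ e₁ e₂ he₁ he₁₂).he₂ i)]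

end pair

section lev

variable {L F k Fk₁ Fk₂ : Type*} [Field L] [Field F] [Algebra L F] [Field k]
  [Field Fk₁] [Field Fk₂] [Algebra k Fk₁] [Algebra k Fk₂]
  {S₁ : S18_Val L F k Fk₁} {S₂ : S18_Val L F k Fk₂} (hS : S34P_Same S₁ S₂)

/-- `z = x − c` as an element of `O₂`. -/
def S34CL_z (x : S34P_O2 S₁ S₂) (c : S₁.A) : S34P_O2 S₁ S₂ :=
  x - ⟨algebraMap L F c, S34P_const_mem hS c⟩

theorem S34CL_z_coe (x : S34P_O2 S₁ S₂) (c : S₁.A) :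
    ((S34CL_z hS x c : S34P_O2 S₁ S₂) : F) = (x : F) - algebraMap L F c := rfl

theorem S34CL_red_z (x : S34P_O2 S₁ S₂) (c : S₁.A) {x₁ : Fk₁} {x₂ : Fk₂}
    (hred : S34P_red S₁ S₂ x = (x₁, x₂)) :
    S34P_red S₁ S₂ (S34CL_z hS x c) =
      (x₁ - algebraMap k Fk₁ (S₁.res c), x₂ - algebraMap k Fk₂ (S₁.res c)) := by
  unfold S34CL_z
  rw [map_sub, hred, S34P_red_const hS c]
  rfl

/-- a function with a pole is not constant. -/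
theorem S34CL_sub_ne {K E : Type*} [Field K] [Field E] [Algebra K E]
    (hP : HasPrincipalDivisors K E) (x : E) (γ : K)
    (hd : 0 < (RR_poleDiv hP x).degree) : x - algebraMap K E γ ≠ 0 := by
  intro h
  have hx : x = algebraMap K E γ := sub_eq_zero.mp h
  have h0 : RR_poleDiv hP x = 0 := by
    ext v
    rw [RR_poleDiv_apply, hx, S18_Spec.ord_algebraMap]
    simp
  rw [h0, map_zero] at hd
  exact lt_irrefl _ hd

/-- **(LEV-hlev)**: the reduction of every large level `L(E(a,b) + D) ∩ O₂` of a normalised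
Kummer generator `u` with trivial gluing invariant in the chart `U` is `G a b`. -/
theorem S34CL_hlev (hF : RR_Hyp L F) (h₁ : RR_Hyp k Fk₁) (h₂ : RR_Hyp k Fk₂)
    (x : S34P_O2 S₁ S₂) (hH : S34P_Hyp S₁ S₂ hS x)
    (hcount : ∀ V : Submodule L F, FiniteDimensional L V →
      Module.finrank k ((S34P_lat hS).redSub V) = Module.finrank L V)
    (x₁ : Fk₁) (x₂ : Fk₂) (hred : S34P_red S₁ S₂ x = (x₁, x₂))
    (hd₁ : 0 < (RR_poleDiv h₁.principal x₁).degree)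
    (hd₂ : 0 < (RR_poleDiv h₂.principal x₂).degree)
    (hdeg : (RR_poleDiv h₁.principal x₁).degree + (RR_poleDiv h₂.principal x₂).degree =
      (RR_poleDiv hF.principal (x : F)).degree)
    {n : ℕ} (hn : 0 < n) {ι : Type*} [Fintype ι]
    (e₁ : ι → ↥(S34SB_reg k x₁) →ₐ[k] k) (e₂ : ι → ↥(S34SB_reg k x₂) →ₐ[k] k)
    (hE : Function.Surjective (S34B_E e₁ e₂))
    (hcard : (RR_genus L F : ℤ) + 1 - RR_genus k Fk₁ - RR_genus k Fk₂ ≤ Fintype.card ι)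
    (c : S₁.A)
    (he₁ : ∀ i, e₁ i ⟨x₁ - algebraMap k Fk₁ (S₁.res c), S34SB_sub_const_mem_reg x₁ _⟩ ≠ 0)
    (he₁₂ : ∀ i, e₁ i ⟨x₁ - algebraMap k Fk₁ (S₁.res c), S34SB_sub_const_mem_reg x₁ _⟩ =
      e₂ i ⟨x₂ - algebraMap k Fk₂ (S₁.res c), S34SB_sub_const_mem_reg x₂ _⟩)
    (u : F) (hu : u ∈ S34K_Norm S₁ S₂) (D : Divisor L F) (hD : n • D = RR_div hF.principal u)
    (hWu : S34K_W hS (S34SB_chart L k (x : F) x₁ x₂ n hn) u =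
      S34B_glued e₁ e₂ (fun _ => 1)) :
    ∃ m₀ : ℕ, ∀ a b, m₀ ≤ a + b →
      (S34P_lat hS).redSub (riemannRochSpace
        (S34P_E hF.principal (x : F) ((x : F) - algebraMap L F c) a b + D)) =
      S34CL_G h₁.principal h₂.principal x₁ x₂ (S₁.res c) e₁ e₂ he₁ he₁₂ a b := by
  classical
  obtain ⟨hu1, hu2⟩ := hu
  have hzred := S34CL_red_z hS x c hred
  have hz₁ : x₁ - algebraMap k Fk₁ (S₁.res c) ≠ 0 := S34CL_sub_ne h₁.principal x₁ _ hd₁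
  have hz₂ : x₂ - algebraMap k Fk₂ (S₁.res c) ≠ 0 := S34CL_sub_ne h₂.principal x₂ _ hd₂
  have hDdeg : D.degree = 0 := S34IG_degree_D hF.principal hn hD
  -- the count
  obtain ⟨m₂, hm₂⟩ := S34P_codim (S34P_lat hS) hcount hF h₁ h₂ (x : F)
    ((x : F) - algebraMap L F c) x₁ (x₁ - algebraMap k Fk₁ (S₁.res c)) x₂
    (x₂ - algebraMap k Fk₂ (S₁.res c)) D hDdeg hd₁ hd₂ hdeg
  -- the delta functions of the chart `U`
  have hδ : ∀ j : ι, ∃ d : ↥(S34SB_reg k x₁), ∀ i, e₁ i d = if i = j then 1 else 0 := by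
    intro j
    obtain ⟨p, hp⟩ := hE (fun i => if i = j then 1 else 0, 0)
    exact ⟨p.1, fun i => congrFun (congrArg Prod.fst hp) i⟩
  choose d hd using hδ
  have hdm : ∀ j, ∃ m₀ : ℕ, ∀ m, m₀ ≤ m →
      (d j : Fk₁) ∈ riemannRochSpace (m • RR_poleDiv h₁.principal x₁) :=
    fun j => S34SB_reg_ex h₁.principal x₁ (d j).2
  choose md hmd using hdm
  refine ⟨max (Finset.univ.sup md) m₂, fun a b hab => ?_⟩
  have hab₁ : ∀ j, md j ≤ a + b := fun j =>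
    le_trans (Finset.le_sup (Finset.mem_univ j)) (le_trans (le_max_left _ _) hab)
  have hab₂ : m₂ ≤ a + b := le_trans (le_max_right _ _) hab
  rw [S34P_lat_redSub]
  haveI := S34P_Rbar_finite h₁ h₂ x₁ (x₁ - algebraMap k Fk₁ (S₁.res c)) x₂
    (x₂ - algebraMap k Fk₂ (S₁.res c)) a b
  have hYX : S34P_redSub S₁ S₂ hS (riemannRochSpace
        (S34P_E hF.principal (x : F) ((x : F) - algebraMap L F c) a b + D)) ≤
      S34P_Rbar h₁.principal h₂.principal x₁ (x₁ - algebraMap k Fk₁ (S₁.res c)) x₂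
        (x₂ - algebraMap k Fk₂ (S₁.res c)) a b := by
    have := S34P_redSub_le_twist hH hF.principal h₁.principal h₂.principal (S34CL_z hS x c)
      ⟨u, hu1⟩ (by rw [hzred]; exact hz₁) (by rw [hzred]; exact hz₂) hu2 hn D hD a b
    rw [hzred, hred] at this
    exact this
  unfold S34CL_G
  refine (S34CL_data x₁ x₂ (S₁.res c) e₁ e₂ he₁ he₁₂).eq_gluedX_of_finrank (fun _ => 1) _ _ _
    hYX ?_ ?_ ?_
  · -- hloc
    rintro _ ⟨g, hg, rfl⟩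
    refine ⟨b, ?_⟩
    have hgX := hYX ⟨g, hg, rfl⟩
    have hc1 : (x₁ - algebraMap k Fk₁ (S₁.res c)) ^ b * (S34P_red S₁ S₂ g).1 ∈ S34SB_reg k x₁ :=
      S34SB_clear h₁.principal x₁ _ a b hgX.1
    have hc2 : (x₂ - algebraMap k Fk₂ (S₁.res c)) ^ b * (S34P_red S₁ S₂ g).2 ∈ S34SB_reg k x₂ :=
      S34SB_clear h₂.principal x₂ _ a b hgX.2
    have hmemW : ((⟨_, hc1⟩, ⟨_, hc2⟩) : ↥(S34SB_reg k x₁) × ↥(S34SB_reg k x₂)) ∈
        S34K_W hS (S34SB_chart L k (x : F) x₁ x₂ n hn) u := by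
      refine (S34K_mem_W hS (S34SB_chart L k (x : F) x₁ x₂ n hn) u _).2
        ⟨S34CL_z hS x c ^ b * g, ?_, ?_⟩
      · have := S34SB_clear_twist hF.principal (x : F) (c : L) hn u D
          (fun Q hQ => S34SB_hu_of_div hF.principal (x : F) u D hD Q hQ) a b hg
        exact this
      · rw [map_mul, map_pow, hzred]
        rfl
    rw [hWu] at hmemW
    exact ((S34CL_data x₁ x₂ (S₁.res c) e₁ e₂ he₁ he₁₂).mem_gluedU_iff (fun _ => 1)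
      (⟨_, hc1⟩, ⟨_, hc2⟩)).2 hmemW
  · -- hEv
    refine (S34CL_data x₁ x₂ (S₁.res c) e₁ e₂ he₁ he₁₂).hEv_of_delta _
      (S34CL_hX h₁.principal h₂.principal x₁ x₂ (S₁.res c) e₁ e₂ he₁ he₁₂ a b) (fun j => ?_)
    have hmem : ((x₁ - algebraMap k Fk₁ (S₁.res c)) ^ b)⁻¹ * (d j : Fk₁) ∈
        riemannRochSpace (S34P_E h₁.principal x₁ (x₁ - algebraMap k Fk₁ (S₁.res c)) a b) :=
      S34CL_div_mem h₁.principal x₁ _ hz₁ (hab₁ j) (hmd j (md j) le_rfl)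
    have hpow : (x₁ - algebraMap k Fk₁ (S₁.res c)) ^ b *
        (((x₁ - algebraMap k Fk₁ (S₁.res c)) ^ b)⁻¹ * (d j : Fk₁)) = (d j : Fk₁) := by
      rw [← mul_assoc, mul_inv_cancel₀ (pow_ne_zero _ hz₁), one_mul]
    have hpowmem : (x₁ - algebraMap k Fk₁ (S₁.res c)) ^ b *
        (((x₁ - algebraMap k Fk₁ (S₁.res c)) ^ b)⁻¹ * (d j : Fk₁)) ∈ S34SB_reg k x₁ := by
      rw [hpow]; exact (d j).2
    refine ⟨(e₁ j ⟨x₁ - algebraMap k Fk₁ (S₁.res c), S34SB_sub_const_mem_reg x₁ _⟩) ^ b •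
      (((x₁ - algebraMap k Fk₁ (S₁.res c)) ^ b)⁻¹ * (d j : Fk₁)), ?_, fun i => ?_⟩
    · exact ⟨Submodule.smul_mem _ _ hmem, Submodule.zero_mem _⟩
    · show S34CH_ev (S34SB_reg k x₁) (x₁ - algebraMap k Fk₁ (S₁.res c))
        (S34SB_sub_const_mem_reg x₁ _) (e₁ i) _ = _
      rw [S34CH_ev_smul _ _ _ _ (he₁ i) _ ((S34CH_mem_S _ _ _ _).2 ⟨b, hpowmem⟩),
        S34CH_ev_eq _ _ _ _ (he₁ i) hpowmem]
      have e : (⟨_, hpowmem⟩ : ↥(S34SB_reg k x₁)) = d j := Subtype.ext hpow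
      rw [e, hd j i]
      split_ifs with hij
      · subst hij
        rw [one_div, mul_inv_cancel₀ (pow_ne_zero _ (he₁ i))]
      · rw [zero_div, mul_zero]
  · -- hcount
    have h := hm₂ a b hab₂
    rw [S34P_lat_redSub] at h
    have h' : (Module.finrank k ↥(S34P_Rbar h₁.principal h₂.principal x₁
        (x₁ - algebraMap k Fk₁ (S₁.res c)) x₂ (x₂ - algebraMap k Fk₂ (S₁.res c)) a b) : ℤ) ≤
        Module.finrank k ↥(S34P_redSub S₁ S₂ hS (riemannRochSpace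
          (S34P_E hF.principal (x : F) ((x : F) - algebraMap L F c) a b + D))) +
          Fintype.card ι := by
      rw [h]; linarith
    exact_mod_cast h'

/-- the value of a node at `x − γ`. -/
theorem S34CL_e_sub {E : Type*} [Field E] [Algebra k E] (x₁ : E) (γ : k)
    (e : ↥(S34SB_reg k x₁) →ₐ[k] k) :
    e ⟨x₁ - algebraMap k E γ, S34SB_sub_const_mem_reg x₁ γ⟩ =
      e ⟨x₁, S34SB_self_mem_reg x₁⟩ - γ := by
  have h : (⟨x₁ - algebraMap k E γ, S34SB_sub_const_mem_reg x₁ γ⟩ : ↥(S34SB_reg k x₁)) =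
      ⟨x₁, S34SB_self_mem_reg x₁⟩ - algebraMap k ↥(S34SB_reg k x₁) γ := Subtype.ext rfl
  rw [h, map_sub, AlgHom.commutes]
  rfl

/-- the coordinate `x` has the same value on the two branches of every node, if `W^u` is glued
with trivial invariant. -/
theorem S34CL_node_x (x : S34P_O2 S₁ S₂) (x₁ : Fk₁) (x₂ : Fk₂)
    (hred : S34P_red S₁ S₂ x = (x₁, x₂)) {n : ℕ} (hn : 0 < n) {ι : Type*}
    (e₁ : ι → ↥(S34SB_reg k x₁) →ₐ[k] k) (e₂ : ι → ↥(S34SB_reg k x₂) →ₐ[k] k) (u : F)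
    (hWu : S34K_W hS (S34SB_chart L k (x : F) x₁ x₂ n hn) u =
      S34B_glued e₁ e₂ (fun _ => 1)) (i : ι) :
    e₁ i ⟨x₁, S34SB_self_mem_reg x₁⟩ = e₂ i ⟨x₂, S34SB_self_mem_reg x₂⟩ := by
  have h0 : (1 : ↥(S34SB_reg k x₁) × ↥(S34SB_reg k x₂)) ∈ S34B_glued e₁ e₂ (fun _ => 1) := by
    rw [S34B_mem_glued]
    intro j
    simp
  have h1 : (1 : ↥(S34SB_reg k x₁) × ↥(S34SB_reg k x₂)) ∈
      S34K_W hS (S34SB_chart L k (x : F) x₁ x₂ n hn) u := (SetLike.ext_iff.mp hWu 1).2 h0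
  obtain ⟨s, hs, hs1⟩ := (S34K_mem_W hS (S34SB_chart L k (x : F) x₁ x₂ n hn) u _).1 h1
  have hx : ((⟨x₁, S34SB_self_mem_reg x₁⟩, ⟨x₂, S34SB_self_mem_reg x₂⟩) :
      ↥(S34SB_reg k x₁) × ↥(S34SB_reg k x₂)) ∈
      S34K_W hS (S34SB_chart L k (x : F) x₁ x₂ n hn) u := by
    refine (S34K_mem_W hS (S34SB_chart L k (x : F) x₁ x₂ n hn) u _).2 ⟨x * s, ?_, ?_⟩
    · have e : ((x * s : S34P_O2 S₁ S₂) : F) ^ n * u = (x : F) ^ n * ((s : F) ^ n * u) := by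
        push_cast
        ring
      rw [e]
      exact (S34SB_reg L (x : F)).mul_mem ((S34SB_reg L (x : F)).pow_mem
        (S34SB_self_mem_reg (x : F)) n) hs
    · rw [map_mul, hs1, hred]
      simp
  have hx' : ((⟨x₁, S34SB_self_mem_reg x₁⟩, ⟨x₂, S34SB_self_mem_reg x₂⟩) :
      ↥(S34SB_reg k x₁) × ↥(S34SB_reg k x₂)) ∈ S34B_glued e₁ e₂ (fun _ => 1) :=
    (SetLike.ext_iff.mp hWu _).1 hx
  have := (S34B_mem_glued e₁ e₂ (fun _ => 1) _).1 hx' i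
  simpa using this

/-- **(LEV) for a given constant `c`** avoiding the node values. -/
theorem S34CL_lev_of (hF : RR_Hyp L F) (h₁ : RR_Hyp k Fk₁) (h₂ : RR_Hyp k Fk₂)
    (x : S34P_O2 S₁ S₂) (hH : S34P_Hyp S₁ S₂ hS x)
    (hcount : ∀ V : Submodule L F, FiniteDimensional L V →
      Module.finrank k ((S34P_lat hS).redSub V) = Module.finrank L V)
    (x₁ : Fk₁) (x₂ : Fk₂) (hred : S34P_red S₁ S₂ x = (x₁, x₂))
    (hd₁ : 0 < (RR_poleDiv h₁.principal x₁).degree)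
    (hd₂ : 0 < (RR_poleDiv h₂.principal x₂).degree)
    (hdeg : (RR_poleDiv h₁.principal x₁).degree + (RR_poleDiv h₂.principal x₂).degree =
      (RR_poleDiv hF.principal (x : F)).degree)
    {n : ℕ} (hn : 0 < n) {ι : Type*} [Fintype ι]
    (e₁ : ι → ↥(S34SB_reg k x₁) →ₐ[k] k) (e₂ : ι → ↥(S34SB_reg k x₂) →ₐ[k] k)
    (hE : Function.Surjective (S34B_E e₁ e₂))
    (hcard : (RR_genus L F : ℤ) + 1 - RR_genus k Fk₁ - RR_genus k Fk₂ ≤ Fintype.card ι)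
    (c : S₁.A) (hc : ∀ i, e₁ i ⟨x₁, S34SB_self_mem_reg x₁⟩ ≠ S₁.res c)
    (u : F) (hu : u ∈ S34K_Norm S₁ S₂) (D : Divisor L F) (hD : n • D = RR_div hF.principal u)
    (hWu : S34K_W hS (S34SB_chart L k (x : F) x₁ x₂ n hn) u =
      S34B_glued e₁ e₂ (fun _ => 1)) :
    ∃ (m₀ : ℕ) (G : ℕ → ℕ → Submodule k (Fk₁ × Fk₂)),
      (∀ a b a' b', G a b ⊓ G a' b' ≤ G (min a a') (min b b')) ∧
      (∀ a b, m₀ ≤ a + b → (S34P_lat hS).redSub (riemannRochSpace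
        (S34P_E hF.principal (x : F) ((x : F) - algebraMap L F c) a b + D)) = G a b) ∧
      (∃ a, m₀ ≤ a ∧ (1 : Fk₁ × Fk₂) ∈ G a 0) ∧ (∃ b, m₀ ≤ b ∧ (1 : Fk₁ × Fk₂) ∈ G 0 b) := by
  have he₁ : ∀ i, e₁ i ⟨x₁ - algebraMap k Fk₁ (S₁.res c), S34SB_sub_const_mem_reg x₁ _⟩ ≠ 0 := by
    intro i
    rw [S34CL_e_sub]
    exact sub_ne_zero.mpr (hc i)
  have he₁₂ : ∀ i, e₁ i ⟨x₁ - algebraMap k Fk₁ (S₁.res c), S34SB_sub_const_mem_reg x₁ _⟩ =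
      e₂ i ⟨x₂ - algebraMap k Fk₂ (S₁.res c), S34SB_sub_const_mem_reg x₂ _⟩ := by
    intro i
    rw [S34CL_e_sub, S34CL_e_sub, S34CL_node_x hS x x₁ x₂ hred hn e₁ e₂ u hWu i]
  obtain ⟨m₀, hm₀⟩ := S34CL_hlev hS hF h₁ h₂ x hH hcount x₁ x₂ hred hd₁ hd₂ hdeg hn e₁ e₂ hE
    hcard c he₁ he₁₂ u hu D hD hWu
  exact ⟨m₀, S34CL_G h₁.principal h₂.principal x₁ x₂ (S₁.res c) e₁ e₂ he₁ he₁₂,
    S34CL_hG h₁.principal h₂.principal x₁ x₂ (S₁.res c) e₁ e₂ he₁ he₁₂, hm₀,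
    ⟨m₀, le_rfl, S34CL_one_mem_G h₁.principal h₂.principal x₁ x₂ (S₁.res c) e₁ e₂ he₁ he₁₂ m₀ 0⟩,
    ⟨m₀, le_rfl, S34CL_one_mem_G h₁.principal h₂.principal x₁ x₂ (S₁.res c) e₁ e₂ he₁ he₁₂ 0 m₀⟩⟩

/-- **(LEV)**: the level description consumed by INJ (`S34IG_hinj`, `S34IW_hinj`), for a
normalised Kummer generator `u` whose gluing invariant in the chart `U` is trivial.  The constant
`c` is chosen with `c̄` different from the values of `x̄₁` at the nodes. -/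
theorem S34CL_lev [Infinite k] (hF : RR_Hyp L F) (h₁ : RR_Hyp k Fk₁) (h₂ : RR_Hyp k Fk₂)
    (x : S34P_O2 S₁ S₂) (hH : S34P_Hyp S₁ S₂ hS x)
    (hcount : ∀ V : Submodule L F, FiniteDimensional L V →
      Module.finrank k ((S34P_lat hS).redSub V) = Module.finrank L V)
    (x₁ : Fk₁) (x₂ : Fk₂) (hred : S34P_red S₁ S₂ x = (x₁, x₂))
    (hd₁ : 0 < (RR_poleDiv h₁.principal x₁).degree)
    (hd₂ : 0 < (RR_poleDiv h₂.principal x₂).degree)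
    (hdeg : (RR_poleDiv h₁.principal x₁).degree + (RR_poleDiv h₂.principal x₂).degree =
      (RR_poleDiv hF.principal (x : F)).degree)
    {n : ℕ} (hn : 0 < n) {ι : Type*} [Fintype ι]
    (e₁ : ι → ↥(S34SB_reg k x₁) →ₐ[k] k) (e₂ : ι → ↥(S34SB_reg k x₂) →ₐ[k] k)
    (hE : Function.Surjective (S34B_E e₁ e₂))
    (hcard : (RR_genus L F : ℤ) + 1 - RR_genus k Fk₁ - RR_genus k Fk₂ ≤ Fintype.card ι)
    (u : F) (hu : u ∈ S34K_Norm S₁ S₂) (D : Divisor L F) (hD : n • D = RR_div hF.principal u)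
    (hWu : S34K_W hS (S34SB_chart L k (x : F) x₁ x₂ n hn) u =
      S34B_glued e₁ e₂ (fun _ => 1)) :
    ∃ (c : L) (m₀ : ℕ) (G : ℕ → ℕ → Submodule k (Fk₁ × Fk₂)),
      (∀ a b a' b', G a b ⊓ G a' b' ≤ G (min a a') (min b b')) ∧
      (∀ a b, m₀ ≤ a + b → (S34P_lat hS).redSub (riemannRochSpace
        (S34P_E hF.principal (x : F) ((x : F) - algebraMap L F c) a b + D)) = G a b) ∧
      (∃ a, m₀ ≤ a ∧ (1 : Fk₁ × Fk₂) ∈ G a 0) ∧ (∃ b, m₀ ≤ b ∧ (1 : Fk₁ × Fk₂) ∈ G 0 b) := by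
  classical
  obtain ⟨γ, hγ⟩ := Infinite.exists_notMem_finset
    (Finset.univ.image fun i : ι => e₁ i ⟨x₁, S34SB_self_mem_reg x₁⟩)
  obtain ⟨c, rfl⟩ := S₁.res_surjective γ
  have hc : ∀ i, e₁ i ⟨x₁, S34SB_self_mem_reg x₁⟩ ≠ S₁.res c := by
    intro i h
    exact hγ (Finset.mem_image.mpr ⟨i, Finset.mem_univ i, h⟩)
  obtain ⟨m₀, G, h⟩ := S34CL_lev_of hS hF h₁ h₂ x hH hcount x₁ x₂ hred hd₁ hd₂ hdeg hn e₁ e₂ hE
    hcard c hc u hu D hD hWu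
  exact ⟨(c : L), m₀, G, h⟩

end lev

end Fermat.Agent.S34
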