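import Fermat.Agent.S34.ChartLev
import Fermat.Agent.S34.PoleX0
import Fermat.Agent.S34.ValCart
import Fermat.Agent.S34.Asm3

/-!
# TRACK 7 (S34 + S35), sub-target G3 (HINJ), input (LEV) on THE canonical objects (helper16)

`S34CL_LEV_X0` : for the canonical pair `(S34M_T1, S34M_T2)` of level `M * q` at `A ∣ q`, the chart
`S34M_chart` and nodes `e₁ e₂` with `hE` and `card ι ≥ g(F_{Mq}) + 1 − 2 g(F̄)`, the level
description (LEV) holds for every normalised Kummer generator with trivial gluing invariant.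
The conclusion is, word for word, the body of helper25's `S34IJ_LEV` (S34/InjX0.lean).

All other inputs are discharged from main: POLE-X0 (helper2), CART2-X0 (`S34VW_cart`, helper24 /
helper5), `S34VF_hk`, `S34VF_hdeg` (helper20), `S18_hRR`, `S18_residue_isAlgClosed`.
-/

set_option autoImplicit false
set_option synthInstance.maxHeartbeats 400000
set_option maxHeartbeats 1000000
set_option linter.unusedSectionVars false
set_option linter.unusedVariables false
set_option linter.style.haveILetI false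

open HahnSeries IntermediateField AlgebraicCurve ModularCurve

noncomputable section

namespace Fermat.Agent.S34

open Fermat.Agent.Lib Fermat.Agent.S18 Fermat.Agent.S24 Fermat.Agent.GalRep

section X0

variable (M q : ℕ) [NeZero (M * q)] (hq : q.Prime) (hqM : ¬ q ∣ M)
  (A : ValuationSubring (AlgebraicClosure ℚ))
  (hgen : PrincipalGeneratedByIntegral A (IsLocalRing.residue A) (M * q))

include q in
theorem S34CL_neZero_M : NeZero M :=
  ⟨fun h => NeZero.ne (M * q) (by rw [h, zero_mul])⟩

/-- (LEV) on the canonical pair, with the reduction `x₁ = j̄` as a variable. -/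
theorem S34CL_lev_X0_aux (hA : A.LiesOverPrime q)
    (x₁ : ↥(modularFunctionFieldFullC (IsLocalRing.ResidueField A) (M * q)))
    (hx₁ : x₁ = S18_jbar (M * q) (IsLocalRing.ResidueField A))
    {n : ℕ} (hn : 0 < n) {ι : Type*} [Fintype ι]
    (e₁ : ι → ↥(S34SB_reg (IsLocalRing.ResidueField A) x₁) →ₐ[IsLocalRing.ResidueField A]
      IsLocalRing.ResidueField A)
    (e₂ : ι → ↥(S34SB_reg (IsLocalRing.ResidueField A) (x₁ ^ q)) →ₐ[IsLocalRing.ResidueField A]
      IsLocalRing.ResidueField A)
    (hE : Function.Surjective (S34B_E e₁ e₂))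
    (hcard : (RR_genus (AlgebraicClosure ℚ) ↥(modularFunctionFieldBar (M * q)) : ℤ) + 1 -
      2 * RR_genus (IsLocalRing.ResidueField A)
        ↥(modularFunctionFieldFullC (IsLocalRing.ResidueField A) (M * q)) ≤ Fintype.card ι)
    (u : ↥(modularFunctionFieldBar (M * q)))
    (hu : u ∈ S34K_Norm (S34M_T1 M q A hgen) (S34M_T2 M q hq hqM A hgen))
    (D : Divisor (AlgebraicClosure ℚ) ↥(modularFunctionFieldBar (M * q)))
    (hD : n • D = RR_div (S18_hRR (M * q)).principal u)
    (hWu : S34K_W (S34M_same M q hq hqM A hgen)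
        (S34SB_chart (AlgebraicClosure ℚ) (IsLocalRing.ResidueField A) (jB (M * q))
          x₁ (x₁ ^ q) n hn) u = S34B_glued e₁ e₂ (fun _ => 1)) :
    ∃ (c : AlgebraicClosure ℚ) (m₀ : ℕ)
      (G : ℕ → ℕ → Submodule (IsLocalRing.ResidueField A)
        (↥(modularFunctionFieldFullC (IsLocalRing.ResidueField A) (M * q)) ×
          ↥(modularFunctionFieldFullC (IsLocalRing.ResidueField A) (M * q)))),
      (∀ a b a' b', G a b ⊓ G a' b' ≤ G (min a a') (min b b')) ∧
      (∀ a b, m₀ ≤ a + b → (S34P_lat (S34M_same M q hq hqM A hgen)).redSub (riemannRochSpace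
        (S34P_E (S18_hRR (M * q)).principal (jB (M * q))
          (jB (M * q) - algebraMap (AlgebraicClosure ℚ) ↥(modularFunctionFieldBar (M * q)) c)
          a b + D)) = G a b) ∧
      (∃ a, m₀ ≤ a ∧ (1 : _ × _) ∈ G a 0) ∧ (∃ b, m₀ ≤ b ∧ (1 : _ × _) ∈ G 0 b) := by
  subst hx₁
  haveI : NeZero M := S34CL_neZero_M M q
  haveI : IsAlgClosed (IsLocalRing.ResidueField A) := S18_residue_isAlgClosed A
  haveI : Infinite (IsLocalRing.ResidueField A) := IsAlgClosed.instInfinite
  have hk := S34VF_hk M A hq hA hqM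
  have hcart : S34PX_Cart M q hq hqM A hgen := S34VW_cart M q hq hqM A hgen hA
  have hd₁ := S34PX_pole (M := M) (hq := hq) (hqM := hqM) (A := A) hA
  have hd₂ : 0 < (RR_poleDiv hk.principal
      (S18_jbar (M * q) (IsLocalRing.ResidueField A) ^ q)).degree := by
    rw [S34VD_poleDiv_pow_degree]
    have : (0 : ℤ) < (q : ℤ) := by exact_mod_cast hq.pos
    exact mul_pos this hd₁
  have hred : S34P_red (S34M_T1 M q A hgen) (S34M_T2 M q hq hqM A hgen)
      (S34PX_j M q hq hqM A hgen) =
      (S18_jbar (M * q) (IsLocalRing.ResidueField A),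
        S18_jbar (M * q) (IsLocalRing.ResidueField A) ^ q) :=
    Prod.ext (S34PX_red_j_fst M q hq hqM A hgen) (S34PX_red_j_snd M q hq hqM A hgen hA)
  exact S34CL_lev (S34M_same M q hq hqM A hgen) (S18_hRR (M * q)) hk hk
    (S34PX_j M q hq hqM A hgen) (S34PX_hyp hcart)
    (fun V hV => by
      rw [S34P_lat_redSub]
      exact S34PX_count hcart V hV)
    _ _ hred hd₁ hd₂ (S34VF_hdeg M A hq hA hqM hk.principal hk.principal _) hn e₁ e₂ hE
    (by linarith) u hu D hD hWu

/-- **(LEV) on the canonical objects** of the captain's ruling #6 — the body of helper25's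
`S34IJ_LEV M q hq hqM A hgen hn e₁ e₂` (S34/InjX0.lean), word for word. -/
theorem S34CL_LEV_X0 (hA : A.LiesOverPrime q) {n : ℕ} (hn : 0 < n) {ι : Type*} [Fintype ι]
    (e₁ : ι → ↥(S34M_chart M q A n hn).Rb₁ →ₐ[IsLocalRing.ResidueField A]
      IsLocalRing.ResidueField A)
    (e₂ : ι → ↥(S34M_chart M q A n hn).Rb₂ →ₐ[IsLocalRing.ResidueField A]
      IsLocalRing.ResidueField A)
    (hE : Function.Surjective (S34B_E e₁ e₂))
    (hcard : (RR_genus (AlgebraicClosure ℚ) ↥(modularFunctionFieldBar (M * q)) : ℤ) + 1 -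
      2 * RR_genus (IsLocalRing.ResidueField A)
        ↥(modularFunctionFieldFullC (IsLocalRing.ResidueField A) (M * q)) ≤ Fintype.card ι) :
    ∀ u ∈ S34M_Kp M q hq hqM A hgen n,
      S34K_W (S34M_same M q hq hqM A hgen) (S34M_chart M q A n hn) u =
        S34B_glued e₁ e₂ (fun _ => 1) →
      ∀ D : Divisor (AlgebraicClosure ℚ) ↥(modularFunctionFieldBar (M * q)),
        n • D = RR_div (S18_hRR (M * q)).principal u →
      ∃ (c : AlgebraicClosure ℚ) (m₀ : ℕ)
        (G : ℕ → ℕ → Submodule (IsLocalRing.ResidueField A)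
          (↥(modularFunctionFieldFullC (IsLocalRing.ResidueField A) (M * q)) ×
            ↥(modularFunctionFieldFullC (IsLocalRing.ResidueField A) (M * q)))),
        (∀ a b a' b', G a b ⊓ G a' b' ≤ G (min a a') (min b b')) ∧
        (∀ a b, m₀ ≤ a + b →
          (S34P_lat (S34M_same M q hq hqM A hgen)).redSub (riemannRochSpace
            (S34P_E (S18_hRR (M * q)).principal (jB (M * q))
              (jB (M * q) - algebraMap (AlgebraicClosure ℚ) _ c) a b + D)) = G a b) ∧
        (∃ a, m₀ ≤ a ∧ (1 : _ × _) ∈ G a 0) ∧ (∃ b, m₀ ≤ b ∧ (1 : _ × _) ∈ G 0 b) := by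
  intro u hu hWu D hD
  exact S34CL_lev_X0_aux M q hq hqM A hgen hA (S34M_xb M q A)
    (S34PX_red_j_fst M q hq hqM A hgen) hn e₁ e₂ hE hcard u hu.2 D hD hWu

end X0

end Fermat.Agent.S34
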