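import Fermat.Agent.S34.ChartLevX0
import Fermat.Agent.S34.SatX0

/-!
# TRACK 7 (S34 + S35), sub-target G3 (HINJ): (LEV) on the canonical objects from G1's output ONLY

`S34CL_LEV_nodes` : the body of helper25's `S34IJ_LEV` from the nodes `e₁ e₂` with `hE` and
`hW1 : S34K_W … 1 = S34B_W e₁ e₂` (exactly the output of G1 = `S34NX_nodes`).  The number of nodes
`card ι = g(F_{Mq}) + 1 − 2 g(F̄)` is derived from `hW1` and the chain of the chart `U`
(G0, helper9's `S34SI_chain_fun`).
-/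

set_option autoImplicit false
set_option synthInstance.maxHeartbeats 400000
set_option maxHeartbeats 1000000
set_option linter.unusedSectionVars false
set_option linter.unusedVariables false
set_option linter.style.haveILetI false

open HahnSeries IntermediateField AlgebraicCurve ModularCurve

noncomputable section

namespace Fermat.Agent.S34

open Fermat.Agent.Lib Fermat.Agent.S18 Fermat.Agent.S24 Fermat.Agent.GalRep

section abs

variable {L F k Fk₁ Fk₂ : Type*} [Field L] [Field F] [Algebra L F] [Field k]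
  [Field Fk₁] [Field Fk₂] [Algebra k Fk₁] [Algebra k Fk₂]
  {S₁ : S18_Val L F k Fk₁} {S₂ : S18_Val L F k Fk₂} (hS : S34P_Same S₁ S₂)

/-- the number of nodes is the length `s` of the chain of the chart `U`. -/
theorem S34CL_card_of_chain (hP : HasPrincipalDivisors L F) (hP₁ : HasPrincipalDivisors k Fk₁)
    (hP₂ : HasPrincipalDivisors k Fk₂) (x : F) (x₁ : Fk₁) (x₂ : Fk₂) {n : ℕ} (hn : 0 < n)
    {s m₀ : ℕ}
    (hchain : S34S_Chain
      (fun m => S34P_redSub S₁ S₂ hS (riemannRochSpace (m • RR_poleDiv hP x)))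
      (fun m => (riemannRochSpace (m • RR_poleDiv hP₁ x₁)).prod
        (riemannRochSpace (m • RR_poleDiv hP₂ x₂))) s m₀)
    {ι : Type*} [Fintype ι]
    (e₁ : ι → ↥(S34SB_reg k x₁) →ₐ[k] k) (e₂ : ι → ↥(S34SB_reg k x₂) →ₐ[k] k)
    (hE : Function.Surjective (S34B_E e₁ e₂))
    (hW1 : S34K_W hS (S34SB_chart L k x x₁ x₂ n hn) 1 = S34B_W e₁ e₂) :
    Fintype.card ι = s := by
  have hone := S34SB_one hP hP₁ hP₂ hS x x₁ x₂ hn s m₀ hchain
  rw [← hone.2, hW1]
  exact (S34B_finrank_quot e₁ e₂ hE (fun _ => 1)).symm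

end abs

section X0

variable (M q : ℕ) [NeZero (M * q)] (hq : q.Prime) (hqM : ¬ q ∣ M)
  (A : ValuationSubring (AlgebraicClosure ℚ))
  (hgen : PrincipalGeneratedByIntegral A (IsLocalRing.residue A) (M * q))

/-- the number of nodes of the canonical chart, with `x₁ = j̄` as a variable. -/
theorem S34CL_card_X0_aux (hA : A.LiesOverPrime q)
    (x₁ : ↥(modularFunctionFieldFullC (IsLocalRing.ResidueField A) (M * q)))
    (hx₁ : x₁ = S18_jbar (M * q) (IsLocalRing.ResidueField A))
    {n : ℕ} (hn : 0 < n) {ι : Type*} [Fintype ι]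
    (e₁ : ι → ↥(S34SB_reg (IsLocalRing.ResidueField A) x₁) →ₐ[IsLocalRing.ResidueField A]
      IsLocalRing.ResidueField A)
    (e₂ : ι → ↥(S34SB_reg (IsLocalRing.ResidueField A) (x₁ ^ q)) →ₐ[IsLocalRing.ResidueField A]
      IsLocalRing.ResidueField A)
    (hE : Function.Surjective (S34B_E e₁ e₂))
    (hW1 : S34K_W (S34M_same M q hq hqM A hgen)
        (S34SB_chart (AlgebraicClosure ℚ) (IsLocalRing.ResidueField A) (jB (M * q))
          x₁ (x₁ ^ q) n hn) 1 = S34B_W e₁ e₂) :
    (Fintype.card ι : ℤ) =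
      (RR_genus (AlgebraicClosure ℚ) ↥(modularFunctionFieldBar (M * q)) : ℤ) + 1 -
      2 * RR_genus (IsLocalRing.ResidueField A)
        ↥(modularFunctionFieldFullC (IsLocalRing.ResidueField A) (M * q)) := by
  subst hx₁
  haveI : NeZero M := S34CL_neZero_M M q
  haveI : NeZero q := ⟨hq.ne_zero⟩
  have hk := S34VF_hk M A hq hA hqM
  have hcart : S34PX_Cart M q hq hqM A hgen := S34VW_cart M q hq hqM A hgen hA
  have hred : S34P_red (S34PX_S1 M q A hgen) (S34PX_S2 M q hq hqM A hgen)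
      (S34PX_j M q hq hqM A hgen) =
      (S18_jbar (M * q) (IsLocalRing.ResidueField A),
        S18_jbar (M * q) (IsLocalRing.ResidueField A) ^ q) :=
    Prod.ext (S34PX_red_j_fst M q hq hqM A hgen) (S34PX_red_j_snd M q hq hqM A hgen hA)
  obtain ⟨s, m₀, hs, hchain⟩ := S34SI_chain_fun M q hq hqM A hgen hA hcart (S18_hRR (M * q))
    hk hk _ _ hred
  have hcard := S34CL_card_of_chain (S34PX_same M q hq hqM A hgen) (S18_hRR (M * q)).principal
    hk.principal hk.principal (jB (M * q)) _ _ hn hchain e₁ e₂ hE hW1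
  rw [hcard, hs]

/-- **(LEV) on the canonical objects from the output of G1 only**: nodes `e₁ e₂` with `hE` and
`hW1`.  The conclusion is the body of `S34IJ_LEV M q hq hqM A hgen hn e₁ e₂`. -/
theorem S34CL_LEV_nodes (hA : A.LiesOverPrime q) {n : ℕ} (hn : 0 < n) {ι : Type*} [Fintype ι]
    (e₁ : ι → ↥(S34M_chart M q A n hn).Rb₁ →ₐ[IsLocalRing.ResidueField A]
      IsLocalRing.ResidueField A)
    (e₂ : ι → ↥(S34M_chart M q A n hn).Rb₂ →ₐ[IsLocalRing.ResidueField A]
      IsLocalRing.ResidueField A)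
    (hE : Function.Surjective (S34B_E e₁ e₂))
    (hW1 : S34K_W (S34M_same M q hq hqM A hgen) (S34M_chart M q A n hn) 1 = S34B_W e₁ e₂) :
    ∀ u ∈ S34M_Kp M q hq hqM A hgen n,
      S34K_W (S34M_same M q hq hqM A hgen) (S34M_chart M q A n hn) u =
        S34B_glued e₁ e₂ (fun _ => 1) →
      ∀ D : Divisor (AlgebraicClosure ℚ) ↥(modularFunctionFieldBar (M * q)),
        n • D = RR_div (S18_hRR (M * q)).principal u →
      ∃ (c : AlgebraicClosure ℚ) (m₀ : ℕ)
        (G : ℕ → ℕ → Submodule (IsLocalRing.ResidueField A)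
          (↥(modularFunctionFieldFullC (IsLocalRing.ResidueField A) (M * q)) ×
            ↥(modularFunctionFieldFullC (IsLocalRing.ResidueField A) (M * q)))),
        (∀ a b a' b', G a b ⊓ G a' b' ≤ G (min a a') (min b b')) ∧
        (∀ a b, m₀ ≤ a + b →
          (S34P_lat (S34M_same M q hq hqM A hgen)).redSub (riemannRochSpace
            (S34P_E (S18_hRR (M * q)).principal (jB (M * q))
              (jB (M * q) - algebraMap (AlgebraicClosure ℚ) _ c) a b + D)) = G a b) ∧
        (∃ a, m₀ ≤ a ∧ (1 : _ × _) ∈ G a 0) ∧ (∃ b, m₀ ≤ b ∧ (1 : _ × _) ∈ G 0 b) :=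
  S34CL_LEV_X0 M q hq hqM A hgen hA hn e₁ e₂ hE
    (S34CL_card_X0_aux M q hq hqM A hgen hA (S34M_xb M q A)
      (S34PX_red_j_fst M q hq hqM A hgen) hn e₁ e₂ hE hW1).ge

end X0

end Fermat.Agent.S34
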