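import Fermat.Agent.S34.KActRed
import Fermat.Agent.S34.NodalAlg
import Fermat.Agent.S34.SatAbs

/-!
# TRACK 7 (S34 + S35), package COUNT (helper16): wiring of the counts into KACT / NODALG

`S34K_hex_of_count` (KACT, helper10) and `S34NA_nodal` (NODALG) need, for a chart `C`,

* `Module.Finite k ((Rb₁ × Rb₂) ⧸ W^u)` and `finrank ≤ s` for every normalised Kummer generator `u`,
* `finrank ((Rb₁ × Rb₂) ⧸ W^1) = s` (so that the number of nodes produced by NODALG is `s`),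

where `W^u = S34K_W hS C u ⊆ Rb₁ × Rb₂`.  POLE (helper2) and SAT (helper14, helper9) deliver counts for
the LEVELS `Rf m = R̄(m)`, `redSub (Vf m) = W^u(m)` inside the ambient `Fk₁ × Fk₂`.  This file does
the bookkeeping between the two, abstractly in the filtrations:

* `S34CW_twist`  : filtered count `dim Rf m ≤ dim redSub (Vf m) + s` (arbitrarily large `m`)
  ⇒ `W^u` has finite codimension `≤ s`;
* `S34CW_lower`  : a chain (`S34S_Chain`, count + (LC)) for the untwisted levels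
  ⇒ `codim W^1 ≥ s`;  `S34CW_one` : `codim W^1 = s`;
* `S34CW_hcount` : the input `hcount` of `S34K_hex_of_count`, with `ι = Fin s'`, `s' = codim W^1`.

Prefix `S34CW_`.
-/

set_option autoImplicit false
set_option linter.unusedSectionVars false
set_option linter.style.haveILetI false

open Module

namespace Fermat.Agent.S34

open Fermat.Agent.S18

section transport

variable {k V V' : Type*} [Field k] [AddCommGroup V] [Module k V] [AddCommGroup V'] [Module k V']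

/-- `P.comap j ≃ P` for an injective `j` whose range contains `P`. -/
noncomputable def S34CW_comapEquiv (j : V →ₗ[k] V') (hj : Function.Injective j)
    (P : Submodule k V') (hP : P ≤ LinearMap.range j) : (P.comap j) ≃ₗ[k] P :=
  LinearEquiv.ofBijective (j.restrict (p := P.comap j) (q := P) fun _ hx => hx)
    ⟨fun x y hxy => by
        have := congrArg (fun z : P => (z : V')) hxy
        exact Subtype.ext (hj this),
      fun y => by
        obtain ⟨x, hx⟩ := hP y.2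
        exact ⟨⟨x, by rw [Submodule.mem_comap, hx]; exact y.2⟩, Subtype.ext hx⟩⟩

lemma S34CW_finrank_comap (j : V →ₗ[k] V') (hj : Function.Injective j)
    (P : Submodule k V') (hP : P ≤ LinearMap.range j) :
    Module.finrank k (P.comap j) = Module.finrank k P :=
  (S34CW_comapEquiv j hj P hP).finrank_eq

lemma S34CW_finite_comap (j : V →ₗ[k] V') (hj : Function.Injective j)
    (P : Submodule k V') (hP : P ≤ LinearMap.range j) [Module.Finite k P] :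
    Module.Finite k (P.comap j) :=
  Module.Finite.equiv (S34CW_comapEquiv j hj P hP).symm

/-- **Lower bound for a codimension.**  If `F₀` is finite-dimensional and `Mx ⊓ F₀ ≤ N₀`, then
`dim F₀ ≤ dim N₀ + codim Mx`. -/
theorem S34CW_lower_aux (Mx F₀ N₀ : Submodule k V) [Module.Finite k F₀]
    [Module.Finite k (V ⧸ Mx)] (hsat : Mx ⊓ F₀ ≤ N₀) (hN : N₀ ≤ F₀) :
    Module.finrank k F₀ ≤ Module.finrank k N₀ + Module.finrank k (V ⧸ Mx) := by
  set ψ : F₀ →ₗ[k] (V ⧸ Mx) := Mx.mkQ.comp F₀.subtype with hψ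
  have hker : Module.finrank k (LinearMap.ker ψ) ≤ Module.finrank k N₀ := by
    have : Module.Finite k N₀ := Submodule.finiteDimensional_of_le hN
    let g : LinearMap.ker ψ →ₗ[k] N₀ :=
      { toFun := fun x => ⟨x.1.1, hsat ⟨by
            have h0 : ψ x.1 = 0 := LinearMap.mem_ker.1 x.2
            exact (Submodule.Quotient.mk_eq_zero Mx).1 h0, x.1.2⟩⟩
        map_add' := fun _ _ => rfl
        map_smul' := fun _ _ => rfl }
    have hg : Function.Injective g := by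
      intro x y hxy
      have := congrArg (fun z : N₀ => (z : V)) hxy
      exact Subtype.ext (Subtype.ext this)
    exact LinearMap.finrank_le_finrank_of_injective hg
  have hrk := LinearMap.finrank_range_add_finrank_ker ψ
  have hrange : Module.finrank k (LinearMap.range ψ) ≤ Module.finrank k (V ⧸ Mx) :=
    Submodule.finrank_le _
  omega

end transport

section count

variable {L F k Fk₁ Fk₂ : Type*} [Field L] [Field F] [Algebra L F] [Field k]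
  [Field Fk₁] [Field Fk₂] [Algebra k Fk₁] [Algebra k Fk₂]
  {S₁ : S18_Val L F k Fk₁} {S₂ : S18_Val L F k Fk₂} (hS : S34P_Same S₁ S₂)

/-- **COUNT, upper bound (twisted or not).**  Levels `Rf m` exhausting `Rb₁ × Rb₂`, subspaces
`Vf m ⊆ V^u` with `redSub (Vf m) ⊆ Rf m` (pole control) and the count
`dim Rf m ≤ dim redSub (Vf m) + s` for arbitrarily large `m`  ⇒  `W^u` has codimension `≤ s`. -/
theorem S34CW_twist {n : ℕ}
    (C : S34K_Chart (L := L) (F := F) (k := k) (Fk₁ := Fk₁) (Fk₂ := Fk₂) n)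
    (Rf : ℕ → Submodule k (Fk₁ × Fk₂)) (hRf_mono : Monotone Rf)
    (hRf_fin : ∀ m, Module.Finite k (Rf m))
    (hRf_le : ∀ m, Rf m ≤ LinearMap.range (S34K_incl C.Rb₁ C.Rb₂))
    (hRf_ex : ∀ w : ↥C.Rb₁ × ↥C.Rb₂, ∃ m, S34K_incl C.Rb₁ C.Rb₂ w ∈ Rf m)
    (s : ℕ) (u : F) (Vf : ℕ → Submodule L F)
    (hVf_le : ∀ m, Vf m ≤ S34K_V C.B n C.hn C.root u)
    (hpole : ∀ m, S34P_redSub S₁ S₂ hS (Vf m) ≤ Rf m)
    (hcount : ∀ m₁ : ℕ, ∃ m, m₁ ≤ m ∧
      Module.finrank k (Rf m) ≤ Module.finrank k (S34P_redSub S₁ S₂ hS (Vf m)) + s) :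
    Module.Finite k ((↥C.Rb₁ × ↥C.Rb₂) ⧸ S34K_W hS C u) ∧
      Module.finrank k ((↥C.Rb₁ × ↥C.Rb₂) ⧸ S34K_W hS C u) ≤ s := by
  set j := S34K_incl C.Rb₁ C.Rb₂ with hj
  have hji : Function.Injective j := S34K_incl_injective C.Rb₁ C.Rb₂
  refine S34NA_finrank_quot_le (S34K_W hS C u) (fun m => (Rf m).comap j)
    (fun m => (S34P_redSub S₁ S₂ hS (Vf m)).comap j) ?_ ?_ s ?_ ?_ ?_
  · intro m m' hmm' x hx
    exact hRf_mono hmm' hx
  · intro x
    exact hRf_ex x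
  · intro m x hx
    exact S34P_redSub_mono S₁ S₂ hS (hVf_le m) hx
  · intro m x hx
    exact hpole m hx
  · intro m₁
    obtain ⟨m, hm, hc⟩ := hcount m₁
    haveI := hRf_fin m
    refine ⟨m, hm, S34CW_finite_comap j hji (Rf m) (hRf_le m), ?_⟩
    rw [S34CW_finrank_comap j hji (Rf m) (hRf_le m),
      S34CW_finrank_comap j hji _ ((hpole m).trans (hRf_le m))]
    exact hc

/-- **COUNT, lower bound (untwisted).**  If the untwisted levels form a chain (count + (LC),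
`S34S_Chain`) and exhaust `V^1`, then `codim W^1 ≥ s`. -/
theorem S34CW_lower {n : ℕ}
    (C : S34K_Chart (L := L) (F := F) (k := k) (Fk₁ := Fk₁) (Fk₂ := Fk₂) n)
    (Rf : ℕ → Submodule k (Fk₁ × Fk₂))
    (hRf_le : ∀ m, Rf m ≤ LinearMap.range (S34K_incl C.Rb₁ C.Rb₂))
    (s m₀ : ℕ) (Vf : ℕ → Submodule L F)
    (hVf_ex : ∀ f ∈ S34K_V C.B n C.hn C.root 1, ∃ m, f ∈ Vf m)
    (hchain : S34S_Chain (fun m => S34P_redSub S₁ S₂ hS (Vf m)) Rf s m₀)
    [Module.Finite k ((↥C.Rb₁ × ↥C.Rb₂) ⧸ S34K_W hS C 1)] :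
    s ≤ Module.finrank k ((↥C.Rb₁ × ↥C.Rb₂) ⧸ S34K_W hS C 1) := by
  set j := S34K_incl C.Rb₁ C.Rb₂ with hj
  have hji : Function.Injective j := S34K_incl_injective C.Rb₁ C.Rb₂
  haveI := hchain.fin m₀
  haveI : Module.Finite k ((Rf m₀).comap j) := S34CW_finite_comap j hji (Rf m₀) (hRf_le m₀)
  have hsat : S34K_W hS C 1 ⊓ (Rf m₀).comap j ≤ (S34P_redSub S₁ S₂ hS (Vf m₀)).comap j := by
    rintro x ⟨hx1, hx2⟩
    -- `j x ∈ redSub V^1`, hence in some `redSub (Vf m)`, hence in `⨆ Wf`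
    obtain ⟨f, hf, hfx⟩ := hx1
    obtain ⟨m, hm⟩ := hVf_ex f hf
    have h1 : j x ∈ ⨆ i, S34P_redSub S₁ S₂ hS (Vf i) :=
      (le_iSup (fun i => S34P_redSub S₁ S₂ hS (Vf i)) m) ⟨f, hm, hfx⟩
    have h2 : j x ∈ (⨆ i, S34P_redSub S₁ S₂ hS (Vf i)) ⊓ Rf m₀ := ⟨h1, hx2⟩
    rw [hchain.iSup_inf le_rfl] at h2
    exact h2
  have hN : (S34P_redSub S₁ S₂ hS (Vf m₀)).comap j ≤ (Rf m₀).comap j :=
    Submodule.comap_mono (hchain.le m₀)
  have h := S34CW_lower_aux (S34K_W hS C 1) ((Rf m₀).comap j)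
    ((S34P_redSub S₁ S₂ hS (Vf m₀)).comap j) hsat hN
  rw [S34CW_finrank_comap j hji (Rf m₀) (hRf_le m₀),
    S34CW_finrank_comap j hji _ ((hchain.le m₀).trans (hRf_le m₀))] at h
  have hc := hchain.count m₀ le_rfl
  omega

/-- **COUNT for the untwisted module**: `codim W^1 = s`. -/
theorem S34CW_one {n : ℕ}
    (C : S34K_Chart (L := L) (F := F) (k := k) (Fk₁ := Fk₁) (Fk₂ := Fk₂) n)
    (Rf : ℕ → Submodule k (Fk₁ × Fk₂))
    (hRf_le : ∀ m, Rf m ≤ LinearMap.range (S34K_incl C.Rb₁ C.Rb₂))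
    (hRf_ex : ∀ w : ↥C.Rb₁ × ↥C.Rb₂, ∃ m, S34K_incl C.Rb₁ C.Rb₂ w ∈ Rf m)
    (s m₀ : ℕ) (Vf : ℕ → Submodule L F)
    (hVf_le : ∀ m, Vf m ≤ S34K_V C.B n C.hn C.root 1)
    (hVf_ex : ∀ f ∈ S34K_V C.B n C.hn C.root 1, ∃ m, f ∈ Vf m)
    (hchain : S34S_Chain (fun m => S34P_redSub S₁ S₂ hS (Vf m)) Rf s m₀) :
    Module.Finite k ((↥C.Rb₁ × ↥C.Rb₂) ⧸ S34K_W hS C 1) ∧
      Module.finrank k ((↥C.Rb₁ × ↥C.Rb₂) ⧸ S34K_W hS C 1) = s := by
  have h := S34CW_twist hS C Rf hchain.monoR hchain.fin hRf_le hRf_ex s 1 Vf hVf_le hchain.le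
    (fun m₁ => ⟨max m₁ m₀, le_max_left _ _, (hchain.count _ (le_max_right _ _)).le⟩)
  haveI := h.1
  exact ⟨h.1, le_antisymm h.2 (S34CW_lower hS C Rf hRf_le s m₀ Vf hVf_ex hchain)⟩

/-- **the input `hcount` of `S34K_hex_of_count`** (with `ι = Fin s'`, `s' = codim W^1`, as produced
by `S34NA_nodal`). -/
theorem S34CW_hcount {n : ℕ}
    (C : S34K_Chart (L := L) (F := F) (k := k) (Fk₁ := Fk₁) (Fk₂ := Fk₂) n)
    (Rf : ℕ → Submodule k (Fk₁ × Fk₂))
    (hRf_le : ∀ m, Rf m ≤ LinearMap.range (S34K_incl C.Rb₁ C.Rb₂))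
    (hRf_ex : ∀ w : ↥C.Rb₁ × ↥C.Rb₂, ∃ m, S34K_incl C.Rb₁ C.Rb₂ w ∈ Rf m)
    (s m₀ : ℕ) (Vf : ℕ → Submodule L F)
    (hVf_le : ∀ m, Vf m ≤ S34K_V C.B n C.hn C.root 1)
    (hVf_ex : ∀ f ∈ S34K_V C.B n C.hn C.root 1, ∃ m, f ∈ Vf m)
    (hchain : S34S_Chain (fun m => S34P_redSub S₁ S₂ hS (Vf m)) Rf s m₀)
    (u : F) (Vfu : ℕ → Submodule L F)
    (hVfu_le : ∀ m, Vfu m ≤ S34K_V C.B n C.hn C.root u)
    (hpole : ∀ m, S34P_redSub S₁ S₂ hS (Vfu m) ≤ Rf m)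
    (hcount : ∀ m₁ : ℕ, ∃ m, m₁ ≤ m ∧
      Module.finrank k (Rf m) ≤ Module.finrank k (S34P_redSub S₁ S₂ hS (Vfu m)) + s)
    {s' : ℕ} (hs' : s' = Module.finrank k ((↥C.Rb₁ × ↥C.Rb₂) ⧸ S34K_W hS C 1)) :
    Module.Finite k ((↥C.Rb₁ × ↥C.Rb₂) ⧸ S34K_W hS C u) ∧
      Module.finrank k ((↥C.Rb₁ × ↥C.Rb₂) ⧸ S34K_W hS C u) ≤ Fintype.card (Fin s') := by
  have h1 := S34CW_one hS C Rf hRf_le hRf_ex s m₀ Vf hVf_le hVf_ex hchain
  have h2 := S34CW_twist hS C Rf hchain.monoR hchain.fin hRf_le hRf_ex s u Vfu hVfu_le hpole hcount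
  refine ⟨h2.1, ?_⟩
  rw [Fintype.card_fin, hs', h1.2]
  exact h2.2

end count

end Fermat.Agent.S34
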