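import Mathlib
import Fermat.Agent.S34.Lat

/-!
# TRACK 7 (S34 + S35), package FG (helper1): integral sections on a chart are finitely generated

`S : S34L_Lat L F k R` (helper4's lattice datum), `x : S.O` the chart function, `b : Fin n → S.O`
a cartesian basis (`S.IsCart x b`), `M : Submodule L F` an `L[x]`-submodule of `F` (the sections
of a line bundle over the chart on the generic fibre), `Λ := M ∩ O` the integral sections.

If `b i ∈ M`, the reductions of `Λ` lie in `∑ k[x̄]·red (b i)`, and `M` has a common denominator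
with respect to `b`, then (for `L` algebraically closed and `A` of rank one) `Λ` is a finitely
generated `A[x]`-module.

Key steps:
* `S34FG_orth`      : polynomial orthonormality of a cartesian basis;
* `S34FG_div_step`  : **division lemma**: a root `a ∈ A` of a denominator can be removed;
* `S34FG_clear`     : hence `M` has a denominator all of whose roots lie outside `A`;
* `S34FG_normal`    : such a denominator is `u·(1 - c₁·P₁)`, `c₁ ∈ 𝔪`, `P₁ ∈ A[X]`;
* `S34FG_const_mem` : `L ⊂ A[X] + (1 - c₁ P₁)·L[X]` (rank one);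

STATUS (ruling #6, 05:10Z): the backup route was released; the final assembly
"`Λ = ∑ A[x]·bᵢ + ∑ A[x]·e_k`" is NOT written.  Everything in this file is proved.
-/

set_option autoImplicit false

open Polynomial

namespace Fermat.Agent.S34

open Fermat.Agent.S18

variable {L F k R : Type*} [Field L] [Field F] [Algebra L F] [Field k] [CommRing R]
  [Algebra k R]

/-- evaluation of an integral polynomial at `x ∈ O`, as an element of `O`. -/
noncomputable def S34FG_ev (S : S34L_Lat L F k R) (x : S.O) (p : (↥S.A)[X]) : S.O :=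
  p.eval₂ S.const x

theorem S34FG_coe_ev (S : S34L_Lat L F k R) (x : S.O) (p : (↥S.A)[X]) :
    ((S34FG_ev S x p : S.O) : F) = aeval (x : F) (p.map S.A.subtype) := by
  unfold S34FG_ev
  have h := Polynomial.hom_eval₂ p S.const S.O.subtype x
  rw [aeval_def, eval₂_map]
  exact h

theorem S34FG_red_ev (S : S34L_Lat L F k R) (x : S.O) (p : (↥S.A)[X]) :
    S.red (S34FG_ev S x p) = aeval (S.red x) (p.map S.res) := by
  unfold S34FG_ev
  rw [Polynomial.hom_eval₂, aeval_def, eval₂_map]
  congr 1
  ext a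
  simp [S.red_const]

/-- a polynomial with coefficients in `A` is the image of a polynomial over `A`. -/
theorem S34FG_exists_lift (A : ValuationSubring L) (p : L[X]) (hp : ∀ j, p.coeff j ∈ A) :
    ∃ q : (↥A)[X], q.map A.subtype = p := by
  have : p ∈ Polynomial.lifts A.subtype := by
    rw [Polynomial.lifts_iff_coeff_lifts]
    intro j
    exact ⟨⟨p.coeff j, hp j⟩, rfl⟩
  exact this


/-- the `L[x]`-span of `b`, as an `L`-subspace of `F`: all `∑ pᵢ(x)·bᵢ`, `pᵢ ∈ L[X]`. -/
def S34FG_T {n : ℕ} (x : F) (b : Fin n → F) : Submodule L F where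
  carrier := {g | ∃ p : Fin n → L[X], g = ∑ i, aeval x (p i) * b i}
  zero_mem' := ⟨0, by simp⟩
  add_mem' := by
    rintro _ _ ⟨p, rfl⟩ ⟨p', rfl⟩
    refine ⟨p + p', ?_⟩
    rw [← Finset.sum_add_distrib]
    refine Finset.sum_congr rfl fun i _ => ?_
    rw [Pi.add_apply, map_add, add_mul]
  smul_mem' := by
    rintro c _ ⟨p, rfl⟩
    refine ⟨fun i => C c * p i, ?_⟩
    rw [Finset.smul_sum]
    refine Finset.sum_congr rfl fun i _ => ?_
    rw [map_mul, aeval_C, Algebra.smul_def, mul_assoc]

theorem S34FG_mem_T {n : ℕ} {x : F} {b : Fin n → F} {g : F} :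
    g ∈ S34FG_T (L := L) x b ↔ ∃ p : Fin n → L[X], g = ∑ i, aeval x (p i) * b i := Iff.rfl

theorem S34FG_T_aeval_mul {n : ℕ} {x : F} {b : Fin n → F} {g : F}
    (hg : g ∈ S34FG_T (L := L) x b) (q : L[X]) : aeval x q * g ∈ S34FG_T (L := L) x b := by
  obtain ⟨p, rfl⟩ := hg
  refine ⟨fun i => q * p i, ?_⟩
  rw [Finset.mul_sum]
  refine Finset.sum_congr rfl fun i _ => ?_
  rw [map_mul, mul_assoc]

theorem S34FG_b_mem_T {n : ℕ} (x : F) (b : Fin n → F) (i : Fin n) :
    b i ∈ S34FG_T (L := L) x b := by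
  classical
  refine ⟨fun j => if j = i then 1 else 0, ?_⟩
  rw [Finset.sum_eq_single i]
  · simp
  · intro j _ hj
    simp [hj]
  · intro h
    exact absurd (Finset.mem_univ _) h

/-- an `L[x]`-stable subspace is stable under all `p(x)`. -/
theorem S34FG_aeval_mul_mem (M : Submodule L F) (x : F) (hxM : ∀ f ∈ M, x * f ∈ M)
    (q : L[X]) {f : F} (hf : f ∈ M) : aeval x q * f ∈ M := by
  induction q using Polynomial.induction_on' with
  | add p q hp hq =>
    rw [map_add, add_mul]
    exact M.add_mem hp hq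
  | monomial m a =>
    rw [aeval_monomial, mul_assoc, ← Algebra.smul_def]
    refine M.smul_mem _ ?_
    induction m with
    | zero => simpa using hf
    | succ m ih =>
      rw [pow_succ', mul_assoc]
      exact hxM _ ih

theorem S34FG_T_le (M : Submodule L F) (x : F) (hxM : ∀ f ∈ M, x * f ∈ M) {n : ℕ}
    (b : Fin n → F) (hb : ∀ i, b i ∈ M) : S34FG_T (L := L) x b ≤ M := by
  rintro _ ⟨p, rfl⟩
  exact M.sum_mem fun i _ => S34FG_aeval_mul_mem M x hxM (p i) (hb i)

section core

variable (S : S34L_Lat L F k R)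

/-- **polynomial orthonormality** of a cartesian basis: if `∑ pᵢ(x)·bᵢ` is integral, the `pᵢ`
have integral coefficients. -/
theorem S34FG_orth {x : S.O} {n : ℕ} {b : Fin n → S.O} (hC : S.IsCart x b) (p : Fin n → L[X])
    (h : ∑ i, aeval (x : F) (p i) * (b i : F) ∈ S.O) : ∀ i j, (p i).coeff j ∈ S.A := by
  classical
  set m : ℕ := (Finset.univ.sup fun i => (p i).natDegree) + 1 with hm
  have hdeg : ∀ i, (p i).natDegree < m := by
    intro i
    rw [hm, Nat.lt_succ_iff]
    exact Finset.le_sup (f := fun i => (p i).natDegree) (Finset.mem_univ i)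
  set c : Fin n × Fin m → L := fun ij => (p ij.1).coeff ij.2 with hc
  have hsum : ∑ᶠ ij, algebraMap L F (c ij) * (S34L_Lat.cartFam x b m ij : F)
      = ∑ i, aeval (x : F) (p i) * (b i : F) := by
    rw [finsum_eq_sum_of_fintype, Fintype.sum_prod_type]
    refine Finset.sum_congr rfl fun i _ => ?_
    rw [aeval_eq_sum_range' (hdeg i), Finset.sum_mul, Finset.sum_range]
    refine Finset.sum_congr rfl fun j _ => ?_
    simp only [hc, S34L_Lat.cartFam, Algebra.smul_def]
    push_cast
    ring
  have key := S.mem_A_of_sum_mem (S34L_Lat.cartFam x b m) (hC.linearIndependent_cartFam m) c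
    (by rw [hsum]; exact h)
  intro i j
  by_cases hj : j < m
  · exact key (i, ⟨j, hj⟩)
  · have : (p i).coeff j = 0 :=
      coeff_eq_zero_of_natDegree_lt (lt_of_lt_of_le (hdeg i) (not_lt.mp hj))
    rw [this]
    exact S.A.zero_mem

/-- integral elements of the `L[x]`-span of `b` are `A[x]`-combinations of `b`. -/
theorem S34FG_T_inter_O {x : S.O} {n : ℕ} {b : Fin n → S.O} (hC : S.IsCart x b) (g : S.O)
    (hg : (g : F) ∈ S34FG_T (L := L) (x : F) (fun i => (b i : F))) :
    ∃ P : Fin n → (↥S.A)[X], g = ∑ i, S34FG_ev S x (P i) * b i := by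
  obtain ⟨p, hp⟩ := hg
  have h1 := S34FG_orth S hC p (by rw [← hp]; exact g.2)
  choose P hP using fun i => S34FG_exists_lift S.A (p i) (h1 i)
  refine ⟨P, ?_⟩
  apply Subtype.ext
  rw [hp]
  push_cast
  refine Finset.sum_congr rfl fun i _ => ?_
  rw [S34FG_coe_ev, hP]

/-- `x - a` is a unit of `O` for `a ∈ A`. -/
theorem S34FG_isUnit_sub {x : S.O} {n : ℕ} {b : Fin n → S.O} (hC : S.IsCart x b) (a : S.A) :
    IsUnit (x - S.const a) := by
  apply S.isUnit_of_red
  have h := hC.unit (X - C (S.res a)) (X_sub_C_ne_zero _)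
  rwa [map_sub, aeval_X, aeval_C, ← S.red_const, ← map_sub] at h

/-- **division lemma**, one step: if `(x - a)·d(x)` clears `f ∈ M` (`a ∈ A`), so does `d(x)`. -/
theorem S34FG_div_step {x : S.O} {n : ℕ} {b : Fin n → S.O} (hC : S.IsCart x b)
    (M : Submodule L F) (hxM : ∀ f ∈ M, (x : F) * f ∈ M) (hb : ∀ i, (b i : F) ∈ M)
    (hgen : ∀ f : S.O, (f : F) ∈ M →
      ∃ p : Fin n → k[X], S.red f = ∑ i, aeval (S.red x) (p i) * S.red (b i))
    (a : S.A) (d : L[X]) (f : F) (hf : f ∈ M)
    (h : aeval (x : F) ((X - C (a : L)) * d) * f ∈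
      S34FG_T (L := L) (x : F) (fun i => (b i : F))) :
    aeval (x : F) d * f ∈ S34FG_T (L := L) (x : F) (fun i => (b i : F)) := by
  classical
  obtain ⟨p, hp⟩ := h
  set γ : Fin n → L := fun i => (p i).eval (a : L) with hγ
  set mq : Fin n → L[X] := fun i => (p i) /ₘ (X - C (a : L)) with hmq
  have hpi : ∀ i, p i = C (γ i) + (X - C (a : L)) * mq i := by
    intro i
    have := Polynomial.modByMonic_add_div (p i) (X - C (a : L))
    rw [Polynomial.modByMonic_X_sub_C_eq_C_eval] at this
    exact this.symm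
  set h₀ : F := aeval (x : F) d * f - ∑ i, aeval (x : F) (mq i) * (b i : F) with hh₀
  have hh₀M : h₀ ∈ M := M.sub_mem (S34FG_aeval_mul_mem M x hxM d hf)
      (M.sum_mem fun i _ => S34FG_aeval_mul_mem M x hxM (mq i) (hb i))
  have hxa : ((x : F) - algebraMap L F a) * h₀ = ∑ i, algebraMap L F (γ i) * (b i : F) := by
    have h1 : ((x : F) - algebraMap L F a) * (aeval (x : F) d * f)
        = ∑ i, aeval (x : F) (p i) * (b i : F) := by
      rw [← hp, map_mul, map_sub, aeval_X, aeval_C, mul_assoc]
    rw [hh₀, mul_sub, h1, Finset.mul_sum, ← Finset.sum_sub_distrib]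
    refine Finset.sum_congr rfl fun i _ => ?_
    have h2 : aeval (x : F) (p i) = algebraMap L F (γ i)
        + ((x : F) - algebraMap L F a) * aeval (x : F) (mq i) := by
      conv_lhs => rw [hpi i]
      rw [map_add, map_mul, map_sub, aeval_X, aeval_C, aeval_C]
    rw [h2]
    ring
  -- `x - a` is a unit of `O`
  obtain ⟨u, hu⟩ := S34FG_isUnit_sub S hC a
  have hxa0 : ((x : F) - algebraMap L F a) ≠ 0 := by
    intro h0
    have h1 : ((u : S.O) : F) * (((u⁻¹ : S.Oˣ) : S.O) : F) = 1 := by
      exact_mod_cast congrArg (fun z : S.O => (z : F)) u.mul_inv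
    rw [hu] at h1
    have h2 : ((x - S.const a : S.O) : F) = (x : F) - algebraMap L F a := by
      push_cast; rfl
    rw [h2, h0, zero_mul] at h1
    exact zero_ne_one h1
  by_cases hγ0 : γ = 0
  · have h3 : h₀ = 0 := by
      have : ((x : F) - algebraMap L F a) * h₀ = 0 := by
        rw [hxa]
        refine Finset.sum_eq_zero fun i _ => ?_
        have : γ i = 0 := congrFun hγ0 i
        rw [this, map_zero, zero_mul]
      exact (mul_eq_zero.mp this).resolve_left hxa0
    refine ⟨mq, ?_⟩
    exact sub_eq_zero.mp h3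
  · exfalso
    obtain ⟨i₀, hi₀, hpiv⟩ := S18_L_exists_pivot S.A γ hγ0
    set a' : Fin n → S.A := fun i => ⟨γ i / γ i₀, hpiv i⟩ with ha'
    set g' : S.O := ∑ i, S.const (a' i) * b i with hg'
    set hh : S.O := ((u⁻¹ : S.Oˣ) : S.O) * g' with hhh
    have hg'F : (g' : F) = algebraMap L F (γ i₀)⁻¹ * (((x : F) - algebraMap L F a) * h₀) := by
      rw [hxa, hg', Finset.mul_sum]
      push_cast
      refine Finset.sum_congr rfl fun i _ => ?_
      simp only [S34L_Lat.coe_const, ha', map_div₀]
      field_simp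
    have hux : (((u⁻¹ : S.Oˣ) : S.O) : F) * ((x : F) - algebraMap L F a) = 1 := by
      have h1 : (((u⁻¹ : S.Oˣ) : S.O) : F) * ((u : S.O) : F) = 1 := by
        exact_mod_cast congrArg (fun z : S.O => (z : F)) u.inv_mul
      rw [hu] at h1
      have h2 : ((x - S.const a : S.O) : F) = (x : F) - algebraMap L F a := by
        push_cast; rfl
      rwa [h2] at h1
    have hhF : (hh : F) = (γ i₀)⁻¹ • h₀ := by
      rw [hhh]
      push_cast
      rw [hg'F, Algebra.smul_def]
      calc (((u⁻¹ : S.Oˣ) : S.O) : F) * (algebraMap L F (γ i₀)⁻¹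
            * (((x : F) - algebraMap L F a) * h₀))
          = algebraMap L F (γ i₀)⁻¹ * (((((u⁻¹ : S.Oˣ) : S.O) : F)
            * ((x : F) - algebraMap L F a)) * h₀) := by ring
        _ = algebraMap L F (γ i₀)⁻¹ * h₀ := by rw [hux, one_mul]
    have hhM : (hh : F) ∈ M := by
      rw [hhF]
      exact M.smul_mem _ hh₀M
    obtain ⟨q, hq⟩ := hgen hh hhM
    -- reduce `(x - a) * hh = g'`
    have hmul : (x - S.const a) * hh = g' := by
      rw [hhh, ← mul_assoc, ← hu, Units.mul_inv, one_mul]
    have hred := congrArg S.red hmul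
    rw [map_mul, hq, map_sub, S.red_const, hg', S.red_sum] at hred
    have hrel : ∑ i, aeval (S.red x) ((X - C (S.res a)) * q i - C (S.res (a' i)))
        * S.red (b i) = 0 := by
      have : ∑ i, aeval (S.red x) ((X - C (S.res a)) * q i - C (S.res (a' i)))
          * S.red (b i)
          = (S.red x - algebraMap k R (S.res a)) * ∑ i, aeval (S.red x) (q i) * S.red (b i)
            - ∑ i, S.res (a' i) • S.red (b i) := by
        rw [Finset.mul_sum, ← Finset.sum_sub_distrib]
        refine Finset.sum_congr rfl fun i _ => ?_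
        rw [map_sub, map_mul, map_sub, aeval_X, aeval_C, aeval_C, Algebra.smul_def]
        ring
      rw [this, hred, sub_self]
    have h5 := hC.indep _ hrel i₀
    have h6 : a' i₀ = 1 := by
      apply Subtype.ext
      simp [ha', div_self hi₀]
    rw [h6, map_one] at h5
    have h7 := congrArg (fun P : k[X] => P.eval (S.res a)) h5
    simp at h7

/-- **removing the integral roots** of a denominator. -/
theorem S34FG_clear {x : S.O} {n : ℕ} {b : Fin n → S.O} (hC : S.IsCart x b)
    (M : Submodule L F) (hxM : ∀ f ∈ M, (x : F) * f ∈ M) (hb : ∀ i, (b i : F) ∈ M)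
    (hgen : ∀ f : S.O, (f : F) ∈ M →
      ∃ p : Fin n → k[X], S.red f = ∑ i, aeval (S.red x) (p i) * S.red (b i))
    (s : Multiset L) :
    ∀ D' : L[X], (∀ f ∈ M, aeval (x : F) ((s.map (fun a => X - C a)).prod * D') * f ∈
        S34FG_T (L := L) (x : F) (fun i => (b i : F))) →
      ∃ s' : Multiset L, (∀ a ∈ s', a ∉ S.A) ∧
        ∀ f ∈ M, aeval (x : F) ((s'.map (fun a => X - C a)).prod * D') * f ∈
          S34FG_T (L := L) (x : F) (fun i => (b i : F)) := by
  induction s using Multiset.induction_on with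
  | empty =>
    intro D' h
    exact ⟨0, by simp, h⟩
  | cons a s ih =>
    intro D' h
    by_cases ha : a ∈ S.A
    · apply ih D'
      intro f hf
      have h1 := h f hf
      rw [Multiset.map_cons, Multiset.prod_cons, mul_assoc] at h1
      exact S34FG_div_step S hC M hxM hb hgen ⟨a, ha⟩ _ f hf h1
    · obtain ⟨s', hs', h'⟩ := ih ((X - C a) * D') (by
        intro f hf
        have h1 := h f hf
        rw [Multiset.map_cons, Multiset.prod_cons] at h1
        have e : (X - C a) * (s.map (fun a => X - C a)).prod * D'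
            = (s.map (fun a => X - C a)).prod * ((X - C a) * D') := by ring
        rwa [e] at h1)
      refine ⟨a ::ₘ s', ?_, ?_⟩
      · intro c hc
        rcases Multiset.mem_cons.mp hc with rfl | hc
        · exact ha
        · exact hs' c hc
      · intro f hf
        have h1 := h' f hf
        rw [Multiset.map_cons, Multiset.prod_cons]
        have e : (X - C a) * (s'.map (fun a => X - C a)).prod * D'
            = (s'.map (fun a => X - C a)).prod * ((X - C a) * D') := by ring
        rwa [e]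

end core

/-- a product of `X - a`, `a ∉ A`, is a unit constant times `1 - c₁·P₁`, `c₁` a non-unit of `A`,
`P₁ ∈ A[X]`. -/
theorem S34FG_normal (A : ValuationSubring L) (s : Multiset L) (hs : ∀ a ∈ s, a ∉ A) :
    ∃ (u : L) (c₁ : A) (P₁ : (↥A)[X]), u ≠ 0 ∧ ¬ IsUnit c₁ ∧
      (s.map (fun a => X - C a)).prod = C u * (1 - C (c₁ : L) * P₁.map A.subtype) := by
  induction s using Multiset.induction_on with
  | empty => exact ⟨1, 0, 0, one_ne_zero, not_isUnit_zero, by simp⟩
  | cons a s ih =>
    obtain ⟨u, c₁, P₁, hu, hc₁, hprod⟩ := ih (fun c hc => hs c (Multiset.mem_cons_of_mem hc))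
    have ha : a ∉ A := hs a (Multiset.mem_cons_self a s)
    have ha0 : a ≠ 0 := fun h => ha (h ▸ A.zero_mem)
    have hai : a⁻¹ ∈ A := (A.mem_or_inv_mem a).resolve_left ha
    have hainu : ¬ IsUnit (⟨a⁻¹, hai⟩ : A) := by
      rintro ⟨v, hv⟩
      apply ha
      have h5 : ((v : A) : L) * (((v⁻¹ : Aˣ) : A) : L) = 1 := by
        exact_mod_cast congrArg (fun z : A => (z : L)) v.mul_inv
      have h6 : ((v : A) : L) = a⁻¹ := congrArg Subtype.val hv
      rw [h6] at h5
      have h7 : (((v⁻¹ : Aˣ) : A) : L) = a := by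
        have := congrArg (fun z => a * z) h5
        simp only [mul_one, ← mul_assoc, mul_inv_cancel₀ ha0, one_mul] at this
        exact this
      rw [← h7]
      exact ((v⁻¹ : Aˣ) : A).2
    have hCa : (C a : L[X]) * C a⁻¹ = 1 := by
      rw [← C_mul, mul_inv_cancel₀ ha0, C_1]
    rw [Multiset.map_cons, Multiset.prod_cons, hprod]
    rcases ValuationRing.dvd_total (⟨a⁻¹, hai⟩ : A) c₁ with ⟨t, ht⟩ | ⟨t, ht⟩
    · -- `c₁ = a⁻¹ * t`
      have htL : (c₁ : L) = a⁻¹ * (t : L) := by
        have := congrArg Subtype.val ht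
        simpa using this
      refine ⟨-a * u, ⟨a⁻¹, hai⟩, X + C t * P₁ - C c₁ * (X * P₁), ?_, hainu, ?_⟩
      · exact mul_ne_zero (neg_ne_zero.mpr ha0) hu
      · simp only [Polynomial.map_add, Polynomial.map_sub, Polynomial.map_mul, Polynomial.map_X,
          Polynomial.map_C, ValuationSubring.subtype_apply, htL, C_mul, C_neg]
        linear_combination (-(C u * X)
          + C u * X * (C a⁻¹ * C (t : L) * Polynomial.map A.subtype P₁)) * hCa
    · -- `a⁻¹ = c₁ * t`
      have htL : a⁻¹ = (c₁ : L) * (t : L) := by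
        have := congrArg Subtype.val ht
        simpa using this
      refine ⟨-a * u, c₁, C t * X + P₁ - C ⟨a⁻¹, hai⟩ * (X * P₁), ?_, hc₁, ?_⟩
      · exact mul_ne_zero (neg_ne_zero.mpr ha0) hu
      · have hCa' : (C a : L[X]) * (C (c₁ : L) * C (t : L)) = 1 := by
          rw [← C_mul, ← htL]; exact hCa
        simp only [Polynomial.map_add, Polynomial.map_sub, Polynomial.map_mul, Polynomial.map_X,
          Polynomial.map_C, ValuationSubring.subtype_apply, C_mul, C_neg]
        rw [htL, C_mul]
        linear_combination (-(C u * X) + C u * X * (C (c₁ : L) * Polynomial.map A.subtype P₁))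
          * hCa'

/-- **rank one**: modulo `1 - c₁·P₁` every constant of `L` is congruent to an integral
polynomial. -/
theorem S34FG_const_mem (A : ValuationSubring L)
    (hrank : ∀ c : A, ¬ IsUnit c → c ≠ 0 → ∀ a : A, a ≠ 0 → ∃ N : ℕ, a ∣ c ^ N)
    (c₁ : A) (hc₁ : ¬ IsUnit c₁) (P₁ : (↥A)[X]) (μ : L) :
    ∃ (P : (↥A)[X]) (Q : L[X]),
      C μ = P.map A.subtype + (1 - C (c₁ : L) * P₁.map A.subtype) * Q := by
  by_cases hμ : μ ∈ A
  · refine ⟨C ⟨μ, hμ⟩, 0, ?_⟩
    simp
  · have hμi : μ⁻¹ ∈ A := (A.mem_or_inv_mem μ).resolve_left hμ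
    have hμ0 : μ ≠ 0 := fun h => hμ (h ▸ A.zero_mem)
    by_cases hc0 : c₁ = 0
    · subst hc0
      exact ⟨0, C μ, by simp⟩
    · have hne : (⟨μ⁻¹, hμi⟩ : A) ≠ 0 := by
        intro h
        have := congrArg Subtype.val h
        simp only [ZeroMemClass.coe_zero, inv_eq_zero] at this
        exact hμ0 this
      obtain ⟨N, t, ht⟩ := hrank c₁ hc₁ hc0 ⟨μ⁻¹, hμi⟩ hne
      have htL : (c₁ : L) ^ N = μ⁻¹ * (t : L) := by
        have := congrArg Subtype.val ht
        simpa using this
      have hμt : μ * (c₁ : L) ^ N = (t : L) := by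
        rw [htL, ← mul_assoc, mul_inv_cancel₀ hμ0, one_mul]
      set y : L[X] := C (c₁ : L) * P₁.map A.subtype with hy
      have hgeom : (1 - y) * ∑ i ∈ Finset.range N, y ^ i = 1 - y ^ N := mul_neg_geom_sum y N
      refine ⟨C t * P₁ ^ N, C μ * ∑ i ∈ Finset.range N, y ^ i, ?_⟩
      have h1 : (C t * P₁ ^ N).map A.subtype = C μ * y ^ N := by
        rw [hy, mul_pow, ← C_pow, ← mul_assoc, ← C_mul, hμt]
        simp
      rw [h1]
      calc C μ = C μ * y ^ N + C μ * (1 - y ^ N) := by ring
        _ = C μ * y ^ N + (1 - y) * (C μ * ∑ i ∈ Finset.range N, y ^ i) := by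
            rw [← hgeom]; ring

end Fermat.Agent.S34
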