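import Fermat.Agent.S34.SatBridge
import Fermat.Agent.S34.PoleChain
import Fermat.Agent.GalRep.KMDefs

/-!
# TRACK 7 (S34 + S35), sub-target G2 (HEX) of the captain's ruling #6 (helper14)

`hex` of `S34K_hK_tau` / `S34K_hK_sig2` (KACT, helper10): for every normalised Kummer generator
`u` (`u ∈ O₂`, `red u = (1,1)`, `n ∣ div u`) the reduction `W^u` in the chart `U` is glued along the
nodes, `W^u = S34B_glued e₁ e₂ c` with `c_i ∈ μ_n`.

* `S34HX_exists_D`    : `n ∣ div u ⇒ ∃ D, n • D = div u`;  `S34HX_degree_D : deg D = 0`.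
* `S34HX_pole_twist`  : POLE-1'' in chain form, `red (L(m (x)_∞ + D) ∩ O₂) ⊆ L(m (x̄₁)_∞) × L(m (x̄₂)_∞)`.
* `S34HX_count_twist` : POLE-4 in chain form, `dim R̄(m) = dim W^u(m) + (g_F + 1 − g₁ − g₂)`, `m ≥ m₀`.
* `S34HX_hex`         : the abstract statement, from `S34P_Hyp` (POLE), `hcount` (CART2), `RR_Hyp`,
  `hdeg` (VAL), the chain of the chart `U` (G0, SAT) and the nodes `e₁ e₂ hE hW1` (G1, NODAL).
  The number of nodes and the genus formula for `s` are NOT hypotheses: `card ι = s` follows from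
  `hW1` + `S34SB_one`, and `s = g_F + 1 − g₁ − g₂` from the untwisted count.
* `S34HX_hex_Kum`     : the same in the exact shape of `hex` (`Kum = {u | KM_IsKum L F n u}`).

Prefix `S34HX_`.
-/

set_option autoImplicit false
set_option linter.unusedSectionVars false

open AlgebraicCurve

namespace Fermat.Agent.S34

open Fermat.Agent.Lib Fermat.Agent.S24 Fermat.Agent.S18 Fermat.Agent.GalRep

section div

variable {K F : Type*} [Field K] [Field F] [Algebra K F]

/-- a function all of whose orders are divisible by `n` has divisor `n • D`. -/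
theorem S34HX_exists_D (hP : HasPrincipalDivisors K F) {n : ℕ} (u : F)
    (hu : ∀ v : Place K F, (n : ℤ) ∣ v.ord u) : ∃ D : Divisor K F, n • D = RR_div hP u := by
  refine ⟨(RR_div hP u).mapRange (fun a => a / (n : ℤ)) (by simp), ?_⟩
  ext v
  rw [S18_semi_nsmul_apply, Finsupp.mapRange_apply, RR_div_apply]
  exact Int.mul_ediv_cancel' (hu v)

theorem S34HX_degree_D (hP : HasPrincipalDivisors K F) {n : ℕ} (hn : 0 < n) {u : F}
    {D : Divisor K F} (hD : n • D = RR_div hP u) : D.degree = 0 := by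
  have h := congrArg Divisor.degree hD
  rw [map_nsmul, RR_div_degree, nsmul_eq_mul] at h
  have hn' : (n : ℤ) ≠ 0 := by exact_mod_cast hn.ne'
  rcases mul_eq_zero.mp h with h1 | h1
  · exact absurd h1 hn'
  · exact h1

end div

section pair

variable {L F k Fk₁ Fk₂ : Type*} [Field L] [Field F] [Algebra L F] [Field k]
  [Field Fk₁] [Field Fk₂] [Algebra k Fk₁] [Algebra k Fk₂]
  {S₁ : S18_Val L F k Fk₁} {S₂ : S18_Val L F k Fk₂} {hS : S34P_Same S₁ S₂}
  {x : S34P_O2 S₁ S₂}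

/-- **twisted pole control in chain form** (POLE-1'' with `b = 0`):
`red (L(m (x)_∞ + D) ∩ O₂) ⊆ L(m (x̄₁)_∞) × L(m (x̄₂)_∞)` for a normalised `u` with `div u = n·D`. -/
theorem S34HX_pole_twist (h : S34P_Hyp S₁ S₂ hS x) (hP : HasPrincipalDivisors L F)
    (hP₁ : HasPrincipalDivisors k Fk₁) (hP₂ : HasPrincipalDivisors k Fk₂)
    {x₁ : Fk₁} {x₂ : Fk₂} (hred : S34P_red S₁ S₂ x = (x₁, x₂))
    {u : F} (hu : u ∈ S34K_Norm S₁ S₂) {n : ℕ} (hn : 0 < n) (D : Divisor L F)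
    (hD : n • D = RR_div hP u) (m : ℕ) :
    S34P_redSub S₁ S₂ hS (riemannRochSpace (m • RR_poleDiv hP (x : F) + D)) ≤
      (riemannRochSpace (m • RR_poleDiv hP₁ x₁)).prod
        (riemannRochSpace (m • RR_poleDiv hP₂ x₂)) := by
  obtain ⟨huO, hu1⟩ := hu
  have hz₁ : (S34P_red S₁ S₂ (1 : S34P_O2 S₁ S₂)).1 ≠ 0 := by
    rw [map_one]; exact one_ne_zero
  have hz₂ : (S34P_red S₁ S₂ (1 : S34P_O2 S₁ S₂)).2 ≠ 0 := by
    rw [map_one]; exact one_ne_zero
  have := S34P_redSub_le_twist h hP hP₁ hP₂ (1 : S34P_O2 S₁ S₂) ⟨u, huO⟩ hz₁ hz₂ hu1 hn D hD m 0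
  rw [S34P_E_zero, S34P_E_zero, S34P_E_zero, hred] at this
  exact this

/-- **twisted count in chain form** (POLE-4 with `b = 0`). -/
theorem S34HX_count_twist
    (hcount : ∀ V : Submodule L F, FiniteDimensional L V →
      Module.finrank k (S34P_redSub S₁ S₂ hS V) = Module.finrank L V)
    (hF : RR_Hyp L F) (h₁ : RR_Hyp k Fk₁) (h₂ : RR_Hyp k Fk₂) (x : F) (x₁ : Fk₁) (x₂ : Fk₂)
    (hd₁ : 0 < (RR_poleDiv h₁.principal x₁).degree)
    (hd₂ : 0 < (RR_poleDiv h₂.principal x₂).degree)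
    (hdeg : (RR_poleDiv h₁.principal x₁).degree + (RR_poleDiv h₂.principal x₂).degree =
      (RR_poleDiv hF.principal x).degree)
    (D : Divisor L F) (hD : D.degree = 0) :
    ∃ m₀ : ℕ, ∀ m : ℕ, m₀ ≤ m →
      (Module.finrank k ↥((riemannRochSpace (m • RR_poleDiv h₁.principal x₁)).prod
          (riemannRochSpace (m • RR_poleDiv h₂.principal x₂))) : ℤ) =
        Module.finrank k
          ↥(S34P_redSub S₁ S₂ hS (riemannRochSpace (m • RR_poleDiv hF.principal x + D))) +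
          ((RR_genus L F : ℤ) + 1 - RR_genus k Fk₁ - RR_genus k Fk₂) := by
  have hcount' : ∀ V : Submodule L F, FiniteDimensional L V →
      Module.finrank k ((S34P_lat hS).redSub V) = Module.finrank L V := by
    intro V hV
    rw [S34P_lat_redSub]
    exact hcount V hV
  obtain ⟨m₀, hm₀⟩ := S34P_codim (S34P_lat hS) hcount' hF h₁ h₂ x x x₁ x₁ x₂ x₂ D hD hd₁ hd₂ hdeg
  refine ⟨m₀, fun m hm => ?_⟩
  have := hm₀ m 0 (by omega)
  rw [S34P_Rbar_zero, S34P_E_zero, S34P_lat_redSub] at this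
  exact this

/-- **G2 (HEX), abstract**: for a pair of valuation data with POLE's hypotheses, the chain of
the chart `U` (G0) and the nodes of the chart (G1: `hE`, `hW1`), the reduction `W^u` of every
normalised `u` with `n ∣ div u` is glued along the nodes, with gluing constants in `μ_n`. -/
theorem S34HX_hex (h : S34P_Hyp S₁ S₂ hS x)
    (hcount : ∀ V : Submodule L F, FiniteDimensional L V →
      Module.finrank k (S34P_redSub S₁ S₂ hS V) = Module.finrank L V)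
    (hF : RR_Hyp L F) (h₁ : RR_Hyp k Fk₁) (h₂ : RR_Hyp k Fk₂)
    {x₁ : Fk₁} {x₂ : Fk₂} (hred : S34P_red S₁ S₂ x = (x₁, x₂))
    (hd₁ : 0 < (RR_poleDiv h₁.principal x₁).degree)
    (hd₂ : 0 < (RR_poleDiv h₂.principal x₂).degree)
    (hdeg : (RR_poleDiv h₁.principal x₁).degree + (RR_poleDiv h₂.principal x₂).degree =
      (RR_poleDiv hF.principal (x : F)).degree)
    {n : ℕ} (hn : 0 < n) {s m₀ : ℕ}
    (hchain : S34S_Chain
      (fun m => S34P_redSub S₁ S₂ hS (riemannRochSpace (m • RR_poleDiv hF.principal (x : F))))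
      (fun m => (riemannRochSpace (m • RR_poleDiv h₁.principal x₁)).prod
        (riemannRochSpace (m • RR_poleDiv h₂.principal x₂))) s m₀)
    {ι : Type*} [Fintype ι]
    (e₁ : ι → ↥(S34SB_chart L k (x : F) x₁ x₂ n hn).Rb₁ →ₐ[k] k)
    (e₂ : ι → ↥(S34SB_chart L k (x : F) x₁ x₂ n hn).Rb₂ →ₐ[k] k)
    (hE : Function.Surjective (S34B_E e₁ e₂))
    (hW1 : S34K_W hS (S34SB_chart L k (x : F) x₁ x₂ n hn) 1 = S34B_W e₁ e₂)
    {u : F} (hu : u ∈ S34K_Norm S₁ S₂) (hdiv : ∀ v : Place L F, (n : ℤ) ∣ v.ord u) :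
    ∃ c : ι → k, (∀ i, c i ^ n = 1) ∧
      S34K_W hS (S34SB_chart L k (x : F) x₁ x₂ n hn) u = S34B_glued e₁ e₂ c := by
  obtain ⟨D, hD⟩ := S34HX_exists_D hF.principal u hdiv
  have hD0 : D.degree = 0 := S34HX_degree_D hF.principal hn hD
  -- the number of nodes is `s`
  have hone := S34SB_one hF.principal h₁.principal h₂.principal hS (x : F) x₁ x₂ hn s m₀ hchain
  have hcard : Fintype.card ι = s := by
    rw [← hone.2, hW1]
    exact (S34B_finrank_quot e₁ e₂ hE (fun _ => 1)).symm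
  -- `s = g_F + 1 − g₁ − g₂`
  obtain ⟨m₁, hm₁⟩ := S34HX_count_twist (hS := hS) hcount hF h₁ h₂ (x : F) x₁ x₂ hd₁ hd₂ hdeg 0
    (map_zero _)
  have hs : (s : ℤ) = (RR_genus L F : ℤ) + 1 - RR_genus k Fk₁ - RR_genus k Fk₂ := by
    have e1 := hm₁ (max m₀ m₁) (le_max_right _ _)
    have e2 := hchain.count (max m₀ m₁) (le_max_left _ _)
    rw [add_zero] at e1
    have e3 : (Module.finrank k ↥((riemannRochSpace
        ((max m₀ m₁) • RR_poleDiv h₁.principal x₁)).prod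
          (riemannRochSpace ((max m₀ m₁) • RR_poleDiv h₂.principal x₂))) : ℤ) =
        Module.finrank k ↥(S34P_redSub S₁ S₂ hS
          (riemannRochSpace ((max m₀ m₁) • RR_poleDiv hF.principal (x : F)))) + s := by
      exact_mod_cast e2
    omega
  -- the twisted count
  obtain ⟨m₂, hm₂⟩ := S34HX_count_twist (hS := hS) hcount hF h₁ h₂ (x : F) x₁ x₂ hd₁ hd₂ hdeg D
    hD0
  have htw := S34CW_twist hS (S34SB_chart L k (x : F) x₁ x₂ n hn) _ hchain.monoR hchain.fin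
    (fun m => S34SB_hRf_le h₁.principal h₂.principal x₁ x₂ m)
    (fun w => S34SB_hRf_ex h₁.principal h₂.principal x₁ x₂ w) s u
    (fun m => riemannRochSpace (m • RR_poleDiv hF.principal (x : F) + D))
    (fun m => S34SB_hVf_le_twist hF.principal (x : F) hn u D
      (fun Q hQ => S34SB_hu_of_div hF.principal (x : F) u D hD Q hQ) m)
    (fun m => S34HX_pole_twist h hF.principal h₁.principal h₂.principal hred hu hn D hD m)
    (fun m₃ => ⟨max m₃ m₂, le_max_left _ _, by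
      have := hm₂ (max m₃ m₂) (le_max_right _ _)
      omega⟩)
  have := htw.1
  exact S34K_hex_of_count hS (S34SB_chart L k (x : F) x₁ x₂ n hn) e₁ e₂ hE hW1 hu
    (by rw [hcard]; exact htw.2)

end pair

/-! ### The shape consumed by KACT (`hex` of `S34K_hK_tau`, `S34K_hK_sig2`) -/

section kum

variable {L F : Type} {k Fk₁ Fk₂ : Type*} [Field L] [Field F] [Algebra L F] [Field k]
  [Field Fk₁] [Field Fk₂] [Algebra k Fk₁] [Algebra k Fk₂]
  {S₁ : S18_Val L F k Fk₁} {S₂ : S18_Val L F k Fk₂} {hS : S34P_Same S₁ S₂}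
  {x : S34P_O2 S₁ S₂}

/-- **G2 (HEX)** in the shape of the hypothesis `hex` of `S34K_hK_tau` / `S34K_hK_sig2`. -/
theorem S34HX_hex_Kum (h : S34P_Hyp S₁ S₂ hS x)
    (hcount : ∀ V : Submodule L F, FiniteDimensional L V →
      Module.finrank k (S34P_redSub S₁ S₂ hS V) = Module.finrank L V)
    (hF : RR_Hyp L F) (h₁ : RR_Hyp k Fk₁) (h₂ : RR_Hyp k Fk₂)
    {x₁ : Fk₁} {x₂ : Fk₂} (hred : S34P_red S₁ S₂ x = (x₁, x₂))
    (hd₁ : 0 < (RR_poleDiv h₁.principal x₁).degree)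
    (hd₂ : 0 < (RR_poleDiv h₂.principal x₂).degree)
    (hdeg : (RR_poleDiv h₁.principal x₁).degree + (RR_poleDiv h₂.principal x₂).degree =
      (RR_poleDiv hF.principal (x : F)).degree)
    {n : ℕ} (hn : 0 < n) {s m₀ : ℕ}
    (hchain : S34S_Chain
      (fun m => S34P_redSub S₁ S₂ hS (riemannRochSpace (m • RR_poleDiv hF.principal (x : F))))
      (fun m => (riemannRochSpace (m • RR_poleDiv h₁.principal x₁)).prod
        (riemannRochSpace (m • RR_poleDiv h₂.principal x₂))) s m₀)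
    {ι : Type*} [Fintype ι]
    (e₁ : ι → ↥(S34SB_chart L k (x : F) x₁ x₂ n hn).Rb₁ →ₐ[k] k)
    (e₂ : ι → ↥(S34SB_chart L k (x : F) x₁ x₂ n hn).Rb₂ →ₐ[k] k)
    (hE : Function.Surjective (S34B_E e₁ e₂))
    (hW1 : S34K_W hS (S34SB_chart L k (x : F) x₁ x₂ n hn) 1 = S34B_W e₁ e₂) :
    ∀ u ∈ {u | KM_IsKum L F n u} ∩ S34K_Norm S₁ S₂, ∃ c : ι → k,
      S34K_W hS (S34SB_chart L k (x : F) x₁ x₂ n hn) u = S34B_glued e₁ e₂ c := by
  rintro u ⟨hK, hu⟩
  obtain ⟨c, -, hc⟩ := S34HX_hex h hcount hF h₁ h₂ hred hd₁ hd₂ hdeg hn hchain e₁ e₂ hE hW1 hu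
    hK.2
  exact ⟨c, hc⟩

end kum

end Fermat.Agent.S34
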