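import Fermat.Agent.S34.HexX0
import Fermat.Agent.S34.Nodal

/-!
# TRACK 7 (S34 + S35), G1 support (helper14): finiteness input of `S34N_nodal` on the canonical objects

`S34HX_finite_W1` : `Module.Finite k ((Rb₁ × Rb₂) ⧸ toSubmodule (S34N_W hT C))` for the canonical
pair `hT = S34M_same …` and the canonical chart `C = S34M_chart M q A n hn` — the instance argument
of `S34N_nodal` (helper12) — and `S34HX_finrank_W1` : its dimension is `g(F_{Mq}) + 1 − 2 g(F̄)`.
Both from the chain of the chart `U` (G0, `S34SI_G0_fun`) and `S34SB_one`.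
-/

set_option autoImplicit false
set_option synthInstance.maxHeartbeats 400000
set_option maxHeartbeats 400000
set_option linter.unusedSectionVars false

open HahnSeries IntermediateField AlgebraicCurve ModularCurve

namespace Fermat.Agent.S34

open Fermat.Agent.Lib Fermat.Agent.S18 Fermat.Agent.S24 Fermat.Agent.GalRep

section gen

variable {L F k Fk₁ Fk₂ : Type*} [Field L] [Field F] [Algebra L F] [Field k]
  [Field Fk₁] [Field Fk₂] [Algebra k Fk₁] [Algebra k Fk₂]
  {S₁ : S18_Val L F k Fk₁} {S₂ : S18_Val L F k Fk₂} (hS : S34P_Same S₁ S₂)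

/-- finiteness of the quotient by `W^1` gives the instance argument of `S34N_nodal`. -/
theorem S34HX_finite_W_of {n : ℕ}
    (C : S34K_Chart (L := L) (F := F) (k := k) (Fk₁ := Fk₁) (Fk₂ := Fk₂) n)
    (h : Module.Finite k ((↥C.Rb₁ × ↥C.Rb₂) ⧸ S34K_W hS C 1)) :
    Module.Finite k ((↥C.Rb₁ × ↥C.Rb₂) ⧸ Subalgebra.toSubmodule (S34N_W hS C)) := by
  rw [S34N_W_toSubmodule]
  exact h

theorem S34HX_finrank_W_of {n : ℕ}
    (C : S34K_Chart (L := L) (F := F) (k := k) (Fk₁ := Fk₁) (Fk₂ := Fk₂) n) {s : ℕ}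
    (h : Module.finrank k ((↥C.Rb₁ × ↥C.Rb₂) ⧸ S34K_W hS C 1) = s) :
    Module.finrank k ((↥C.Rb₁ × ↥C.Rb₂) ⧸ Subalgebra.toSubmodule (S34N_W hS C)) = s := by
  rw [S34N_W_toSubmodule]
  exact h

end gen

section X0

variable (M q : ℕ) [NeZero M] [NeZero (M * q)] (hq : q.Prime) (hqM : ¬ q ∣ M)
  (A : ValuationSubring (AlgebraicClosure ℚ))
  (hgen : PrincipalGeneratedByIntegral A (IsLocalRing.residue A) (M * q))

/-- the codimension of `W^1` in the canonical chart. -/
theorem S34HX_one_X0 (hA : A.LiesOverPrime q) {n : ℕ} (hn : 0 < n) :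
    ∃ s : ℕ, (s : ℤ) = (RR_genus (AlgebraicClosure ℚ) ↥(modularFunctionFieldBar (M * q)) : ℤ)
        + 1 - 2 * RR_genus (IsLocalRing.ResidueField A)
          ↥(modularFunctionFieldFullC (IsLocalRing.ResidueField A) (M * q)) ∧
      Module.Finite (IsLocalRing.ResidueField A)
        ((↥(S34M_chart M q A n hn).Rb₁ × ↥(S34M_chart M q A n hn).Rb₂) ⧸
          S34K_W (S34M_same M q hq hqM A hgen) (S34M_chart M q A n hn) 1) ∧
      Module.finrank (IsLocalRing.ResidueField A)
        ((↥(S34M_chart M q A n hn).Rb₁ × ↥(S34M_chart M q A n hn).Rb₂) ⧸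
          S34K_W (S34M_same M q hq hqM A hgen) (S34M_chart M q A n hn) 1) = s := by
  have : NeZero q := ⟨hq.ne_zero⟩
  obtain ⟨s, m₀, hs, hchain⟩ := S34SI_G0_fun M q hq hqM A hgen hA (S18_hRR (M * q))
    (S34VF_hk M A hq hA hqM) (S34VF_hk M A hq hA hqM) (S34M_xb M q A) (S34M_xb M q A ^ q)
    (S34HX_red_j M q hq hqM A hgen hA)
  have hone := S34SB_one (S18_hRR (M * q)).principal (S34VF_hk M A hq hA hqM).principal
    (S34VF_hk M A hq hA hqM).principal (S34M_same M q hq hqM A hgen)
    (jB (M * q)) (S34M_xb M q A) (S34M_xb M q A ^ q) hn s m₀ hchain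
  exact ⟨s, hs, hone.1, hone.2⟩

/-- **the instance argument of `S34N_nodal`** on the canonical objects. -/
theorem S34HX_finite_W1 (hA : A.LiesOverPrime q) {n : ℕ} (hn : 0 < n) :
    Module.Finite (IsLocalRing.ResidueField A)
      ((↥(S34M_chart M q A n hn).Rb₁ × ↥(S34M_chart M q A n hn).Rb₂) ⧸
        Subalgebra.toSubmodule
          (S34N_W (S34M_same M q hq hqM A hgen) (S34M_chart M q A n hn))) := by
  have h := (S34HX_one_X0 M q hq hqM A hgen hA hn).choose_spec
  exact S34HX_finite_W_of (S34M_same M q hq hqM A hgen) (S34M_chart M q A n hn) h.2.1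

/-- the dimension of the quotient by the fibre ring. -/
theorem S34HX_finrank_W1 (hA : A.LiesOverPrime q) {n : ℕ} (hn : 0 < n) :
    (Module.finrank (IsLocalRing.ResidueField A)
      ((↥(S34M_chart M q A n hn).Rb₁ × ↥(S34M_chart M q A n hn).Rb₂) ⧸
        Subalgebra.toSubmodule
          (S34N_W (S34M_same M q hq hqM A hgen) (S34M_chart M q A n hn))) : ℤ) =
      (RR_genus (AlgebraicClosure ℚ) ↥(modularFunctionFieldBar (M * q)) : ℤ)
        + 1 - 2 * RR_genus (IsLocalRing.ResidueField A)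
          ↥(modularFunctionFieldFullC (IsLocalRing.ResidueField A) (M * q)) := by
  have h := (S34HX_one_X0 M q hq hqM A hgen hA hn).choose_spec
  rw [S34HX_finrank_W_of (S34M_same M q hq hqM A hgen) (S34M_chart M q A n hn) h.2.2, h.1]

end X0

end Fermat.Agent.S34
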