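import Mathlib

/-!
# TRACK 7 (S34 + S35), package P-INJ-ABS (helper25): the abstract injectivity of the gluing invariant

Pure algebra over Mathlib.  `A` is a commutative ring (in the application: the valuation ring of
`ℚ̄` at a place over `q`), `F` a field which is an `A`-algebra (the function field of `X₀(N)`),
`u : F` a Kummer generator (`div u = n·D`), `n` invertible in `A`.

* `Λ, Λ', Λ''` : the integral functions on the charts `U`, `U'`, `U ∩ U'`;
* `M, M', M''` : the integral sections of `O(D)` on these charts (`{f | fⁿ u ∈ Λ_*}`).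

`S34I_false`: if `M ⊓ M' = ⊥` (no global section: `D` is not principal), the torsion of
`M''/(M + M')` is killed by one `c₀ ≠ 0` (`H¹` is finitely generated) and `O(D)` is trivial modulo
`c` compatibly on both charts (trivial gluing invariant), then `1 ∈ c·Λ`.  Hence a class of the
toric part with trivial gluing invariant is zero.

The proof improves the trivialisation `φ ↦ φ·(1 − E/n)`, `E = φⁿu − 1` (quadratic convergence) on
both charts, compares on the intersection, and uses the bounded torsion.  No completion, no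
idempotents, no auxiliary covering.
-/

set_option autoImplicit false

open Finset

namespace Fermat.Agent.S34

section InjAbs

variable {A F : Type*} [CommRing A] [Field F] [Algebra A F]

/-- `(1 + Y)^n = 1 + n·Y + Y²·R` with `R` in the subalgebra. -/
theorem S34I_one_add_pow (Λ : Subalgebra A F) (n : ℕ) (Y : F) (hY : Y ∈ Λ) :
    ∃ R ∈ Λ, (1 + Y) ^ n = 1 + (n : F) * Y + Y ^ 2 * R := by
  induction n with
  | zero => exact ⟨0, Λ.zero_mem, by simp⟩
  | succ k ih =>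
    obtain ⟨R, hR, h⟩ := ih
    refine ⟨R * (1 + Y) + (k : F), ?_, ?_⟩
    · exact Λ.add_mem (Λ.mul_mem hR (Λ.add_mem Λ.one_mem hY)) (natCast_mem Λ k)
    · rw [pow_succ, h]
      push_cast
      ring

/-- **improvement step**: from a trivialisation modulo `c^r` to one modulo `c^(r+1)`. -/
theorem S34I_improve (n : ℕ) (s : A) (hs : (n : A) * s = 1) (u : F) (c : A)
    (Λ : Subalgebra A F) (M : Submodule A F) (hΛM : ∀ a ∈ Λ, ∀ f ∈ M, a * f ∈ M)
    (r : ℕ) (hr : 1 ≤ r) (φ : F) (hφ : φ ∈ M)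
    (hE : ∃ l ∈ Λ, φ ^ n * u - 1 = c ^ r • l) :
    ∃ φ' ∈ M, (∃ l' ∈ Λ, φ' ^ n * u - 1 = c ^ (r + 1) • l') ∧ ∃ m ∈ M, φ' - φ = c • m := by
  obtain ⟨l, hl, hE⟩ := hE
  set C : F := algebraMap A F c with hC
  set S : F := algebraMap A F s with hS
  have hnS : (n : F) * S = 1 := by
    have := congrArg (algebraMap A F) hs
    rwa [map_mul, map_natCast, map_one] at this
  have hCmem : C ∈ Λ := Λ.algebraMap_mem c
  have hSmem : S ∈ Λ := Λ.algebraMap_mem s
  have hE' : φ ^ n * u - 1 = C ^ r * l := by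
    rw [hE, Algebra.smul_def, map_pow]
  have hEmem : C ^ r * l ∈ Λ := Λ.mul_mem (Λ.pow_mem hCmem r) hl
  set Y : F := -(S * (C ^ r * l)) with hY
  have hYmem : Y ∈ Λ := Λ.neg_mem (Λ.mul_mem hSmem hEmem)
  obtain ⟨R, hR, hpow⟩ := S34I_one_add_pow Λ n Y hYmem
  obtain ⟨r', rfl⟩ : ∃ r', r = r' + 1 := ⟨r - 1, by omega⟩
  refine ⟨(1 + Y) * φ, hΛM _ (Λ.add_mem Λ.one_mem hYmem) _ hφ, ?_, ?_⟩
  · refine ⟨C ^ r' * l ^ 2 * (S ^ 2 * R * (1 + C ^ (r' + 1) * l) - 1), ?_, ?_⟩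
    · refine Λ.mul_mem (Λ.mul_mem (Λ.pow_mem hCmem _) (Λ.pow_mem hl _)) ?_
      refine Λ.sub_mem (Λ.mul_mem (Λ.mul_mem (Λ.pow_mem hSmem _) hR)
        (Λ.add_mem Λ.one_mem hEmem)) Λ.one_mem
    · rw [Algebra.smul_def, map_pow, ← hC]
      have h1 : φ ^ n * u = 1 + C ^ (r' + 1) * l := by rw [← hE']; ring
      have h2 : (n : F) * Y = -(C ^ (r' + 1) * l) := by
        rw [hY, mul_neg, ← mul_assoc, hnS, one_mul]
      rw [mul_pow, mul_assoc, h1, hpow, h2, hY]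
      ring
  · refine ⟨-(S * (C ^ r' * (l * φ))), ?_, ?_⟩
    · refine M.neg_mem ?_
      have h3 : l * φ ∈ M := hΛM l hl φ hφ
      have h4 : S * (C ^ r' * (l * φ)) = (s * c ^ r') • (l * φ) := by
        rw [Algebra.smul_def, map_mul, map_pow, mul_assoc]
      rw [h4]
      exact M.smul_mem _ h3
    · rw [Algebra.smul_def, ← hC, hY]
      ring

/-- iterate the improvement step. -/
theorem S34I_improve_all (n : ℕ) (s : A) (hs : (n : A) * s = 1) (u : F) (c : A)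
    (Λ : Subalgebra A F) (M : Submodule A F) (hΛM : ∀ a ∈ Λ, ∀ f ∈ M, a * f ∈ M)
    (f₁ : F) (hf₁ : f₁ ∈ M) (ht : ∃ l ∈ Λ, f₁ ^ n * u - 1 = c • l) (N : ℕ) (hN : 1 ≤ N) :
    ∃ φ ∈ M, (∃ l ∈ Λ, φ ^ n * u - 1 = c ^ N • l) ∧ ∃ m ∈ M, φ - f₁ = c • m := by
  induction N, hN using Nat.le_induction with
  | base =>
    refine ⟨f₁, hf₁, ?_, ⟨0, M.zero_mem, by simp⟩⟩
    simpa using ht
  | succ r hr ih =>
    obtain ⟨φ, hφ, hE, m, hm, hφm⟩ := ih
    obtain ⟨φ', hφ', hE', m', hm', hφm'⟩ := S34I_improve n s hs u c Λ M hΛM r hr φ hφ hE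
    refine ⟨φ', hφ', hE', m' + m, M.add_mem hm' hm, ?_⟩
    rw [smul_add, ← hφm, ← hφm']
    ring

/-- the mixed products `φ'^i φ^(n-i) u` are `≡ 1` modulo `c`. -/
theorem S34I_mixed (n : ℕ) (u : F) (c : A)
    (Λ : Subalgebra A F) (M : Submodule A F)
    (hpow : ∀ t : Multiset F, Multiset.card t = n → (∀ f ∈ t, f ∈ M) → t.prod * u ∈ Λ)
    (φ φ' : F) (hφ : φ ∈ M) (hφ' : φ' ∈ M)
    (hE : ∃ l ∈ Λ, φ ^ n * u - 1 = c • l)
    (hδ : ∃ m ∈ M, φ' - φ = c • m) (i : ℕ) (hi : i ≤ n) :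
    ∃ l ∈ Λ, φ' ^ i * φ ^ (n - i) * u = 1 + c • l := by
  induction i with
  | zero =>
    obtain ⟨l, hl, h⟩ := hE
    refine ⟨l, hl, ?_⟩
    rw [pow_zero, one_mul, Nat.sub_zero, ← h]
    ring
  | succ k ih =>
    obtain ⟨l, hl, h⟩ := ih (by omega)
    obtain ⟨m, hm, hδ⟩ := hδ
    have hmem : φ' ^ k * φ ^ (n - (k + 1)) * m * u ∈ Λ := by
      have := hpow (Multiset.replicate k φ' + Multiset.replicate (n - (k + 1)) φ + {m}) ?_ ?_
      · simpa [Multiset.prod_replicate] using this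
      · simp only [Multiset.card_add, Multiset.card_replicate, Multiset.card_singleton]
        omega
      · intro f hf
        simp only [Multiset.mem_add, Multiset.mem_replicate, Multiset.mem_singleton] at hf
        rcases hf with (⟨_, rfl⟩ | ⟨_, rfl⟩) | rfl
        · exact hφ'
        · exact hφ
        · exact hm
    refine ⟨l + φ' ^ k * φ ^ (n - (k + 1)) * m * u, Λ.add_mem hl hmem, ?_⟩
    have h1 : φ ^ (n - k) = φ ^ (n - (k + 1)) * φ := by
      rw [← pow_succ]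
      congr 1
      omega
    have h2 : φ' = φ + algebraMap A F c * m := by
      rw [← Algebra.smul_def, ← hδ]
      ring
    rw [h1] at h
    rw [smul_add, ← add_assoc, ← h, Algebra.smul_def]
    rw [pow_succ]
    nth_rewrite 2 [h2]
    ring

/-- **comparison step** on the intersection of the charts. -/
theorem S34I_compare (n : ℕ) (s : A) (hs : (n : A) * s = 1) (u : F) (c : A)
    (hc : algebraMap A F c ≠ 0)
    (Λ : Subalgebra A F) (M : Submodule A F) (hΛM : ∀ a ∈ Λ, ∀ f ∈ M, a * f ∈ M)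
    (hpow : ∀ t : Multiset F, Multiset.card t = n → (∀ f ∈ t, f ∈ M) → t.prod * u ∈ Λ)
    (N : ℕ) (hN : 1 ≤ N) (φ φ' : F) (hφ : φ ∈ M) (hφ' : φ' ∈ M)
    (hE : ∃ l ∈ Λ, φ ^ n * u - 1 = c ^ N • l) (hE' : ∃ l ∈ Λ, φ' ^ n * u - 1 = c ^ N • l)
    (hδ : ∃ m ∈ M, φ' - φ = c • m) :
    ∃ m ∈ M, φ' - φ = c ^ N • m := by
  set C : F := algebraMap A F c with hC
  set S : F := algebraMap A F s with hS
  have hnS : (n : F) * S = 1 := by
    have := congrArg (algebraMap A F) hs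
    rwa [map_mul, map_natCast, map_one] at this
  have hCmem : C ∈ Λ := Λ.algebraMap_mem c
  have hSmem : S ∈ Λ := Λ.algebraMap_mem s
  obtain ⟨N', rfl⟩ : ∃ N', N = N' + 1 := ⟨N - 1, by omega⟩
  -- `E ≡ 0` modulo `c`
  have hE1 : ∃ l ∈ Λ, φ ^ n * u - 1 = c • l := by
    obtain ⟨l, hl, h⟩ := hE
    refine ⟨C ^ N' * l, Λ.mul_mem (Λ.pow_mem hCmem _) hl, ?_⟩
    rw [h, Algebra.smul_def, Algebra.smul_def, map_pow, ← hC]
    ring
  -- `G φ u = n + c λ₁`
  have hG : ∃ l₁ ∈ Λ, (∑ i ∈ range n, φ' ^ i * φ ^ (n - 1 - i)) * φ * u = (n : F) + C * l₁ := by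
    have key : ∀ k ≤ n, ∃ l₁ ∈ Λ,
        (∑ i ∈ range k, φ' ^ i * φ ^ (n - 1 - i)) * φ * u = (k : F) + C * l₁ := by
      intro k
      induction k with
      | zero => intro _; exact ⟨0, Λ.zero_mem, by simp⟩
      | succ k ih =>
        intro hk
        obtain ⟨l₁, hl₁, h⟩ := ih (by omega)
        obtain ⟨l, hl, h'⟩ := S34I_mixed n u c Λ M hpow φ φ' hφ hφ' hE1 hδ k (by omega)
        refine ⟨l₁ + l, Λ.add_mem hl₁ hl, ?_⟩
        have h1 : φ ^ (n - k) = φ ^ (n - 1 - k) * φ := by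
          rw [← pow_succ]
          congr 1
          omega
        rw [h1, Algebra.smul_def, ← hC] at h'
        rw [sum_range_succ, add_mul, add_mul, h]
        push_cast
        linear_combination h'
    exact key n le_rfl
  obtain ⟨l₁, hl₁, hG⟩ := hG
  obtain ⟨l, hl, hE⟩ := hE
  obtain ⟨l', hl', hE'⟩ := hE'
  rw [Algebra.smul_def, map_pow, ← hC] at hE hE'
  have hgeom : (∑ i ∈ range n, φ' ^ i * φ ^ (n - 1 - i)) * (φ' - φ) = φ' ^ n - φ ^ n :=
    (Commute.all φ' φ).geom_sum₂_mul n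
  -- the induction on the exponent
  have main : ∀ r, 1 ≤ r → r ≤ N' + 1 → ∃ m ∈ M, φ' - φ = c ^ r • m := by
    intro r hr
    induction r, hr using Nat.le_induction with
    | base =>
      intro _
      simpa using hδ
    | succ r hr ih =>
      intro hrN
      obtain ⟨m, hm, hδr⟩ := ih (by omega)
      rw [Algebra.smul_def, map_pow, ← hC] at hδr
      obtain ⟨t, ht⟩ : ∃ t, N' + 1 = r + 1 + t := ⟨N' + 1 - (r + 1), by omega⟩
      -- `n m = c (c^t (l' - l) φ - λ₁ m)`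
      have hCr : C ^ r ≠ 0 := pow_ne_zero _ hc
      have h1 : (n : F) * m = C * (C ^ t * ((l' - l) * φ) - l₁ * m) := by
        have h2 : C ^ r * (((n : F) + C * l₁) * m) = C ^ r * (C * (C ^ t * ((l' - l) * φ))) := by
          have h3 : (φ' - φ) * ((∑ i ∈ range n, φ' ^ i * φ ^ (n - 1 - i)) * φ * u)
              = (φ' ^ n * u - φ ^ n * u) * φ := by
            rw [← sub_mul, ← hgeom]
            ring
          rw [hG, hδr] at h3
          have h4 : φ' ^ n * u - φ ^ n * u = C ^ (N' + 1) * (l' - l) := by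
            linear_combination hE' - hE
          rw [h4, ht] at h3
          linear_combination h3
        have h5 := mul_left_cancel₀ hCr h2
        linear_combination h5
      refine ⟨s • (C ^ t * ((l' - l) * φ) - l₁ * m), ?_, ?_⟩
      · refine M.smul_mem _ (M.sub_mem ?_ (hΛM _ hl₁ _ hm))
        exact hΛM _ (Λ.pow_mem hCmem _) _ (hΛM _ (Λ.sub_mem hl' hl) _ hφ)
      · rw [Algebra.smul_def, Algebra.smul_def, map_pow, ← hC, ← hS, hδr]
        have h6 : m = S * ((n : F) * m) := by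
          rw [← mul_assoc, mul_comm S, hnS, one_mul]
        nth_rewrite 1 [h6]
        rw [h1]
        ring
  exact main (N' + 1) (by omega) le_rfl

/-- **P-INJ-ABS**: a class with trivial gluing invariant and without global section cannot
exist.  See the module docstring. -/
theorem S34I_false [FaithfulSMul A F] (n : ℕ) (hn : IsUnit (n : A)) (u : F) (c : A) (hc0 : c ≠ 0)
    (hrank : ∀ a : A, a ≠ 0 → ∃ N : ℕ, a ∣ c ^ N)
    (Λ Λ'' : Subalgebra A F) (hΛ : Λ ≤ Λ'') (Λ' : Subalgebra A F) (hΛ' : Λ' ≤ Λ'')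
    (M M' M'' : Submodule A F) (hM : M ≤ M'') (hM' : M' ≤ M'')
    (hΛM : ∀ a ∈ Λ, ∀ f ∈ M, a * f ∈ M) (hΛM' : ∀ a ∈ Λ', ∀ f ∈ M', a * f ∈ M')
    (hΛM'' : ∀ a ∈ Λ'', ∀ f ∈ M'', a * f ∈ M'')
    (hpow : ∀ t : Multiset F, Multiset.card t = n → (∀ f ∈ t, f ∈ M) → t.prod * u ∈ Λ)
    (hpow'' : ∀ t : Multiset F, Multiset.card t = n → (∀ f ∈ t, f ∈ M'') → t.prod * u ∈ Λ'')
    (hglob : ∀ f, f ∈ M → f ∈ M' → f = 0)
    (htors : ∃ c₀ : A, c₀ ≠ 0 ∧ ∀ h ∈ M'', ∀ a : A, a ≠ 0 → a • h ∈ M ⊔ M' → c₀ • h ∈ M ⊔ M')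
    (f₁ f₁' : F) (hf₁ : f₁ ∈ M) (hf₁' : f₁' ∈ M')
    (ht : ∃ l ∈ Λ, f₁ ^ n * u - 1 = c • l) (ht' : ∃ l ∈ Λ', f₁' ^ n * u - 1 = c • l)
    (htt : ∃ m ∈ M'', f₁ - f₁' = c • m)
    (hprim : ∀ l ∈ Λ, (1 : F) ≠ c • l) : False := by
  have hinj : Function.Injective (algebraMap A F) := FaithfulSMul.algebraMap_injective A F
  have hA : Nontrivial A := ⟨⟨c, 0, hc0⟩⟩
  obtain ⟨s, hs⟩ := hn.exists_right_inv
  have hn0 : n ≠ 0 := by
    rintro rfl
    rw [Nat.cast_zero, zero_mul] at hs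
    exact zero_ne_one hs
  have hne : ∀ a : A, a ≠ 0 → algebraMap A F a ≠ 0 :=
    fun a ha h => ha (hinj (by rw [h, map_zero]))
  have hcF : algebraMap A F c ≠ 0 := hne c hc0
  obtain ⟨c₀, hc₀, htors⟩ := htors
  have hc₀c : c₀ * c ≠ 0 := by
    intro h
    have := congrArg (algebraMap A F) h
    rw [map_mul, map_zero] at this
    exact mul_ne_zero (hne c₀ hc₀) hcF this
  have hcN : ∀ N : ℕ, c ^ N ≠ 0 := by
    intro N h
    have := congrArg (algebraMap A F) h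
    rw [map_pow, map_zero] at this
    exact pow_ne_zero _ hcF this
  obtain ⟨N₀, b, hN₀⟩ := hrank (c₀ * c) hc₀c
  -- we may take the exponent `N ≥ 1`
  obtain ⟨N, hN1, b, hNb⟩ : ∃ N, 1 ≤ N ∧ ∃ b, c ^ N = c₀ * c * b :=
    ⟨N₀ + 1, by omega, c * b, by rw [pow_succ, hN₀]; ring⟩
  obtain ⟨φ, hφ, ⟨l, hl, hE⟩, m, hm, hφm⟩ :=
    S34I_improve_all n s hs u c Λ M hΛM f₁ hf₁ ht N hN1
  obtain ⟨φ', hφ', ⟨l', hl', hE'⟩, m', hm', hφm'⟩ :=
    S34I_improve_all n s hs u c Λ' M' hΛM' f₁' hf₁' ht' N hN1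
  obtain ⟨m₀, hm₀, htt⟩ := htt
  -- comparison
  obtain ⟨h, hh, hδ⟩ := S34I_compare n s hs u c hcF Λ'' M'' hΛM'' hpow'' N hN1 φ φ' (hM hφ)
    (hM' hφ') ⟨l, hΛ hl, hE⟩ ⟨l', hΛ' hl', hE'⟩
    ⟨m' - m₀ - m, M''.sub_mem (M''.sub_mem (hM' hm') hm₀) (hM hm), by
      rw [smul_sub, smul_sub, ← hφm, ← hφm', ← htt]
      ring⟩
  -- torsion
  have hmem : c ^ N • h ∈ M ⊔ M' := by
    rw [← hδ, sub_eq_add_neg, add_comm]
    exact Submodule.add_mem_sup (M.neg_mem hφ) hφ'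
  obtain ⟨g, hg, g', hg', hgg⟩ := Submodule.mem_sup.mp
    (htors h hh (c ^ N) (hcN N) hmem)
  -- the global section `c₀ φ + c^N g = c₀ φ' - c^N g'`
  have hz : c₀ • φ + c ^ N • g = c₀ • φ' - c ^ N • g' := by
    have h1 : c₀ • (φ' - φ) = c ^ N • (g + g') := by
      rw [hδ, hgg, smul_smul, smul_smul, mul_comm]
    rw [smul_sub, smul_add] at h1
    linear_combination (exp := 1) -h1
  have hz0 : c₀ • φ + c ^ N • g = 0 := by
    refine hglob _ (M.add_mem (M.smul_mem _ hφ) (M.smul_mem _ hg)) ?_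
    rw [hz]
    exact M'.sub_mem (M'.smul_mem _ hφ') (M'.smul_mem _ hg')
  -- `φ ∈ c M`
  have hφc : φ = c • (-(b • g)) := by
    have hc₀F : algebraMap A F c₀ ≠ 0 := hne c₀ hc₀
    have h1 : algebraMap A F c₀ * φ = algebraMap A F c₀ * (c • (-(b • g))) := by
      rw [hNb] at hz0
      simp only [Algebra.smul_def, map_mul] at hz0 ⊢
      linear_combination hz0
    exact mul_left_cancel₀ hc₀F h1
  -- `f₁ ∈ c M`
  have hf₁c : f₁ = c • (-(b • g) - m) := by
    rw [smul_sub, ← hφc, ← hφm]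
    ring
  -- `1 ∈ c Λ`
  obtain ⟨l₁, hl₁, ht⟩ := ht
  set m₂ : F := -(b • g) - m with hm₂
  have hm₂M : m₂ ∈ M := M.sub_mem (M.neg_mem (M.smul_mem _ hg)) hm
  have hpm : m₂ ^ n * u ∈ Λ := by
    have := hpow (Multiset.replicate n m₂) (by simp) (fun f hf => by
      rw [Multiset.eq_of_mem_replicate hf]; exact hm₂M)
    simpa [Multiset.prod_replicate] using this
  obtain ⟨n', rfl⟩ : ∃ n', n = n' + 1 := ⟨n - 1, by omega⟩
  refine hprim (c ^ n' • (m₂ ^ (n' + 1) * u) - l₁) (Λ.sub_mem (Λ.smul_mem hpm _) hl₁) ?_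
  rw [smul_sub, ← ht, hf₁c]
  simp only [Algebra.smul_def, map_pow]
  ring_nf

end InjAbs

end Fermat.Agent.S34
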