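/-
TRACK 7 "NODE" (S34 + S35), package C = (INJ), abstract algebra part.          (helper2)

Setting (all inside one commutative ring `F`, in the application the function field of X0(N)):
* `A`  : a commutative ring acting on `F` (the valuation ring of `ℚ̄` at a place over `q`);
* `Λ`  : an `A`-subalgebra of `F` (integral functions on a chart);
* `M`  : an `A`-submodule of `F` stable under `Λ` (integral sections of the line bundle `O(D)` on the chart);
* `u`  : the Kummer generator, `n` : the exponent; the only link between `M`, `Λ`, `u` is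
    `hprod : ∀ s ∈ M, ∀ t ∈ M, s * t ^ (n - 1) * u ∈ Λ`.

Results:
* `S34C_newton`   : Newton iteration for `sⁿ u = 1` inside `M`, modulo `m`, `m²`, `m⁴`, …;
* `S34C_overlap`  : two approximate roots that agree modulo a nilpotent agree modulo `m₁`;
* `S34C_glue`     : the Čech gluing step (torsion of `H¹` is killed by `c₀`);
* `S34C_inj`      : the assembled statement: an approximate trivialisation on two charts glues to a global section.
-/
import Mathlib

set_option autoImplicit false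

open scoped Pointwise

namespace Fermat.Agent.S34

/-- `(1 + x)ⁿ = 1 + n x + x² r`. -/
theorem S34C_one_add_pow {R : Type*} [CommRing R] (x : R) (n : ℕ) :
    ∃ r : R, (1 + x) ^ n = 1 + (n : R) * x + x ^ 2 * r := by
  induction n with
  | zero => exact ⟨0, by simp⟩
  | succ k ih =>
    obtain ⟨r, hr⟩ := ih
    refine ⟨(k : R) + r + x * r, ?_⟩
    rw [pow_succ, hr]
    push_cast
    ring

/-- A chart datum: a subalgebra `Λ`, a submodule `M` stable under `Λ`, with `M · Mⁿ⁻¹ · u ⊂ Λ`. -/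
structure S34C_Chart (A : Type*) {F : Type*} [CommRing A] [CommRing F] [Algebra A F]
    (n : ℕ) (u : F) (Lam : Subalgebra A F) (M : Submodule A F) : Prop where
  smul_mem : ∀ l ∈ Lam, ∀ s ∈ M, l * s ∈ M
  prod_mem : ∀ s ∈ M, ∀ t ∈ M, s * t ^ (n - 1) * u ∈ Lam

section

variable {A F : Type*} [CommRing A] [CommRing F] [Algebra A F]
variable {n : ℕ} {u : F} {Lam : Subalgebra A F} {M : Submodule A F}

theorem S34C_Chart.pow_mem (hC : S34C_Chart A n u Lam M) (hn : 0 < n) {s : F} (hs : s ∈ M) :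
    s ^ n * u ∈ Lam := by
  have h := hC.prod_mem s hs s hs
  have e : s * s ^ (n - 1) = s ^ n := by
    rw [← pow_succ']
    congr 1
    omega
  rwa [e] at h

theorem S34C_Chart.mono {Lam' : Subalgebra A F} {M' : Submodule A F}
    (_hC : S34C_Chart A n u Lam M) (hC' : S34C_Chart A n u Lam' M') (_hL : Lam ≤ Lam') (hM : M ≤ M')
    {s t : F} (hs : s ∈ M) (ht : t ∈ M') : s * t ^ (n - 1) * u ∈ Lam' :=
  hC'.prod_mem s (hM hs) t ht

/-- One Newton step: from `sⁿ u = 1 + m λ` to `s'ⁿ u = 1 + m² λ'`, `s' = s + m μ`. -/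
theorem S34C_newton_step (hC : S34C_Chart A n u Lam M) (_hn : 0 < n) {ν : A} (hν : (n : A) * ν = 1)
    {s : F} (hs : s ∈ M) {m : A} {l : F} (hl : l ∈ Lam) (h : s ^ n * u - 1 = m • l) :
    ∃ s' ∈ M, ∃ μ ∈ M, ∃ l' ∈ Lam, s' = s + m • μ ∧ s' ^ n * u - 1 = (m * m) • l' := by
  -- work with `d = m • l ∈ Λ`, `x = -(ν • d)`
  set d : F := m • l with hd
  have hdL : d ∈ Lam := Lam.smul_mem hl m
  set x : F := -(ν • d) with hx
  have hxL : x ∈ Lam := Lam.neg_mem (Lam.smul_mem hdL ν)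
  -- `(1 + x)ⁿ = 1 + n x + x² r` inside the ring `Λ`
  obtain ⟨r, hr⟩ := S34C_one_add_pow (⟨x, hxL⟩ : Lam) n
  have hr' : (1 + x) ^ n = 1 + (n : F) * x + x ^ 2 * (r : F) := by
    have := congrArg (fun z : Lam => (z : F)) hr
    simpa using this
  have hnx : (n : F) * x = -d := by
    have h1 : (n : F) * (ν • d) = d := by
      rw [Algebra.smul_def, ← mul_assoc]
      have : (n : F) * algebraMap A F ν = 1 := by
        have := congrArg (algebraMap A F) hν
        simpa using this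
      rw [this, one_mul]
    rw [hx, mul_neg, h1]
  have hsu : s ^ n * u = 1 + d := by rw [← h]; ring
  -- the new approximation
  refine ⟨s * (1 + x), ?_, -(ν • (l * s)), ?_, ?_⟩
  · have : s * (1 + x) = (1 + x) * s := mul_comm _ _
    rw [this]
    exact hC.smul_mem _ (Lam.add_mem Lam.one_mem hxL) _ hs
  · exact M.neg_mem (M.smul_mem ν (hC.smul_mem _ hl _ hs))
  · -- `l' = l² (ν² r (1 + d) - 1)`
    refine ⟨l * l * ((ν * ν) • ((r : F) * (1 + d)) - 1), ?_, ?_, ?_⟩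
    · refine Lam.mul_mem (Lam.mul_mem hl hl) (Lam.sub_mem (Lam.smul_mem ?_ _) Lam.one_mem)
      exact Lam.mul_mem r.2 (Lam.add_mem Lam.one_mem hdL)
    · rw [hx, hd]
      simp only [Algebra.smul_def]
      ring
    · have e1 : (s * (1 + x)) ^ n * u = (1 + x) ^ n * (s ^ n * u) := by
        rw [mul_pow]; ring
      rw [e1, hsu, hr', hnx]
      have hx2 : x ^ 2 = (m * m) • ((ν * ν) • (l * l)) := by
        rw [hx, hd]
        simp only [Algebra.smul_def, map_mul]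
        ring
      rw [hx2]
      simp only [Algebra.smul_def, map_mul]
      rw [hd, Algebra.smul_def]
      ring

/-- Newton iteration: for every `k` an approximate root modulo `m ^ 2 ^ k`, congruent to `s` modulo `m`. -/
theorem S34C_newton (hC : S34C_Chart A n u Lam M) (hn : 0 < n) {ν : A} (hν : (n : A) * ν = 1)
    {s : F} (hs : s ∈ M) {m : A} {l : F} (hl : l ∈ Lam) (h : s ^ n * u - 1 = m • l) (k : ℕ) :
    ∃ s' ∈ M, ∃ μ ∈ M, ∃ l' ∈ Lam, s' = s + m • μ ∧ s' ^ n * u - 1 = (m ^ 2 ^ k) • l' := by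
  induction k with
  | zero => exact ⟨s, hs, 0, M.zero_mem, l, hl, by simp, by simpa using h⟩
  | succ k ih =>
    obtain ⟨s₁, hs₁, μ₁, hμ₁, l₁, hl₁, e₁, h₁⟩ := ih
    obtain ⟨s₂, hs₂, μ₂, hμ₂, l₂, hl₂, e₂, h₂⟩ := S34C_newton_step hC hn hν hs₁ hl₁ h₁
    -- `m ^ 2 ^ k = m * m ^ (2 ^ k - 1)`
    have hpos : 0 < 2 ^ k := Nat.pos_of_ne_zero (by positivity)
    have hm : m ^ 2 ^ k = m * m ^ (2 ^ k - 1) := by
      rw [← pow_succ']
      congr 1
      omega
    refine ⟨s₂, hs₂, μ₁ + (m ^ (2 ^ k - 1)) • μ₂, M.add_mem hμ₁ (M.smul_mem _ hμ₂), l₂, hl₂, ?_, ?_⟩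
    · rw [e₂, e₁, smul_add, smul_smul, ← hm, add_assoc]
    · rw [h₂, pow_succ, pow_mul, pow_two]

/-- Overlap: two approximate roots modulo `m₁` which agree modulo `m₂`, `m₂ ^ r ∈ m₁ A`, agree modulo `m₁`. -/
theorem S34C_overlap (hC : S34C_Chart A n u Lam M) (hn : 0 < n) {ν : A} (hν : (n : A) * ν = 1)
    {s t : F} (hs : s ∈ M) (ht : t ∈ M) {m₁ m₂ : A} {l l' μ : F} (hl : l ∈ Lam) (hl' : l' ∈ Lam)
    (hμ : μ ∈ M) (h : s ^ n * u - 1 = m₁ • l) (h' : t ^ n * u - 1 = m₁ • l') (hst : s - t = m₂ • μ)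
    {r : ℕ} {a : A} (hr : m₂ ^ r = m₁ * a) :
    ∃ μ' ∈ M, s - t = m₁ • μ' := by
  -- `y = s t^{n-1} u ∈ Λ`, `ε = y - 1`
  set y : F := s * t ^ (n - 1) * u with hy
  have hyL : y ∈ Lam := hC.prod_mem s hs t ht
  have htn : t * t ^ (n - 1) = t ^ n := by
    rw [← pow_succ']
    congr 1
    omega
  -- `ε = m₂ • (μ t^{n-1} u) + m₁ • l'`
  have hε : y - 1 = m₂ • (μ * t ^ (n - 1) * u) + m₁ • l' := by
    have : y - 1 = (s - t) * t ^ (n - 1) * u + (t ^ n * u - 1) := by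
      rw [hy, ← htn]; ring
    rw [this, hst, h']
    simp only [Algebra.smul_def]
    ring
  have hμL : μ * t ^ (n - 1) * u ∈ Lam := hC.prod_mem μ hμ t ht
  -- `yⁿ = (sⁿ u)(tⁿ u)^{n-1}`
  have hyn : y ^ n = (s ^ n * u) * (t ^ n * u) ^ (n - 1) := by
    rw [hy]
    have e1 : (t ^ (n - 1)) ^ n = (t ^ n) ^ (n - 1) := by rw [← pow_mul, ← pow_mul, mul_comm]
    have e2 : u ^ n = u * u ^ (n - 1) := by
      rw [← pow_succ']
      congr 1
      omega
    rw [mul_pow, mul_pow, e1, e2, mul_pow]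
    ring
  -- pass to the quotient ring `Λ ⧸ (m₁)`
  let I : Ideal Lam := Ideal.span {algebraMap A Lam m₁}
  let π := Ideal.Quotient.mk I
  have hm₁ : π (algebraMap A Lam m₁) = 0 :=
    Ideal.Quotient.eq_zero_iff_mem.mpr (Ideal.subset_span rfl)
  have key : ∀ (z : Lam), (∃ w : Lam, (z : F) = m₁ • (w : F)) → π z = 0 := by
    rintro z ⟨w, hw⟩
    have : z = algebraMap A Lam m₁ * w := by
      apply Subtype.ext
      rw [hw, Algebra.smul_def]
      rfl
    rw [this, map_mul, hm₁, zero_mul]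
  set Y : Lam := ⟨y, hyL⟩ with hY
  set E : Lam := Y - 1 with hE
  -- `π Yⁿ = 1`
  have hsuL : s ^ n * u ∈ Lam := hC.pow_mem hn hs
  have htuL : t ^ n * u ∈ Lam := hC.pow_mem hn ht
  have hπs : π ⟨s ^ n * u, hsuL⟩ = 1 := by
    have : π (⟨s ^ n * u, hsuL⟩ - 1) = 0 := key _ ⟨⟨l, hl⟩, by simpa using h⟩
    rwa [map_sub, map_one, sub_eq_zero] at this
  have hπt : π ⟨t ^ n * u, htuL⟩ = 1 := by
    have : π (⟨t ^ n * u, htuL⟩ - 1) = 0 := key _ ⟨⟨l', hl'⟩, by simpa using h'⟩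
    rwa [map_sub, map_one, sub_eq_zero] at this
  have hπY : π Y ^ n = 1 := by
    have : Y ^ n = ⟨s ^ n * u, hsuL⟩ * ⟨t ^ n * u, htuL⟩ ^ (n - 1) := by
      apply Subtype.ext
      simpa using hyn
    rw [← map_pow, this, map_mul, map_pow, hπs, hπt, one_pow, one_mul]
  -- `π E` is nilpotent
  have hEnil : IsNilpotent (π E) := by
    refine ⟨r, ?_⟩
    -- `π E = π (m₂ • w)`
    have hE1 : π E = π (algebraMap A Lam m₂ * ⟨μ * t ^ (n - 1) * u, hμL⟩) := by
      have : E - algebraMap A Lam m₂ * ⟨μ * t ^ (n - 1) * u, hμL⟩ = algebraMap A Lam m₁ * ⟨l', hl'⟩ := by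
        apply Subtype.ext
        have := hε
        simp only [Algebra.smul_def] at this
        simp only [hE, hY]
        push_cast
        rw [this]
        simp
      have h0 : π (E - algebraMap A Lam m₂ * ⟨μ * t ^ (n - 1) * u, hμL⟩) = 0 := by
        rw [this, map_mul, hm₁, zero_mul]
      rwa [map_sub, sub_eq_zero] at h0
    rw [hE1, map_mul, mul_pow, ← map_pow, ← map_pow, hr, map_mul, map_mul, hm₁, zero_mul, zero_mul]
  -- `(1 + E)ⁿ = 1 + n E + E² r'`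
  obtain ⟨r', hr'⟩ := S34C_one_add_pow (π E) n
  have hYE : π Y = 1 + π E := by rw [hE, map_sub, map_one]; ring
  have hprod : π E * ((n : Lam ⧸ I) + π E * r') = 0 := by
    have := hπY
    rw [hYE, hr'] at this
    have : (n : Lam ⧸ I) * π E + π E ^ 2 * r' = 0 := by
      have h2 := this
      linear_combination h2
    linear_combination this
  have hunit : IsUnit ((n : Lam ⧸ I) + π E * r') := by
    have hnu : IsUnit (n : Lam ⧸ I) := by
      have : (n : Lam ⧸ I) * π (algebraMap A Lam ν) = 1 := by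
        have := congrArg (fun z => π (algebraMap A Lam z)) hν
        simpa using this
      exact IsUnit.of_mul_eq_one _ this
    have hnil : IsNilpotent (π E * r') := (Commute.all _ _).isNilpotent_mul_right hEnil
    exact hnil.isUnit_add_left_of_commute hnu (Commute.all _ _)
  have hE0 : π E = 0 := by
    have := hunit.mul_left_eq_zero.mp hprod
    exact this
  -- so `y - 1 = m₁ • w`
  obtain ⟨w, hw⟩ : ∃ w : Lam, E = algebraMap A Lam m₁ * w := by
    have : E ∈ I := Ideal.Quotient.eq_zero_iff_mem.mp hE0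
    obtain ⟨w, hw⟩ := Ideal.mem_span_singleton'.mp this
    exact ⟨w, by rw [← hw, mul_comm]⟩
  have hw' : y - 1 = m₁ • (w : F) := by
    have := congrArg (fun z : Lam => (z : F)) hw
    simp only [hE, hY] at this
    rw [Algebra.smul_def]
    simpa using this
  -- `s - t = t (y - 1) - s (tⁿ u - 1)`
  refine ⟨(w : F) * t - l' * s, M.sub_mem (hC.smul_mem _ w.2 _ ht) (hC.smul_mem _ hl' _ hs), ?_⟩
  have e : s - t = t * (y - 1) - s * (t ^ n * u - 1) := by
    rw [hy, ← htn]; ring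
  rw [e, hw', h']
  simp only [Algebra.smul_def]
  ring

end

/-- Čech gluing.  If `c₀` kills the torsion of `MUU / (MU + MU')` and `sU - sU' ∈ c₀ m • MUU`,
then `sU` can be corrected modulo `m • MU` to a global section. -/
theorem S34C_glue {A F : Type*} [CommRing A] [AddCommGroup F] [Module A F]
    (MU MU' MUU : Submodule A F) (c₀ m : A)
    (htor : ∀ h ∈ MUU, (c₀ * m) • h ∈ MU ⊔ MU' → c₀ • h ∈ MU ⊔ MU')
    {sU sU' h : F} (hsU : sU ∈ MU) (hsU' : sU' ∈ MU') (hh : h ∈ MUU)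
    (hs : sU - sU' = (c₀ * m) • h) :
    ∃ s ∈ MU ⊓ MU', ∃ g ∈ MU, s = sU - m • g := by
  have h1 : (c₀ * m) • h ∈ MU ⊔ MU' := by
    rw [← hs]
    exact Submodule.sub_mem _ (Submodule.mem_sup_left hsU) (Submodule.mem_sup_right hsU')
  obtain ⟨g, hg, g', hg', e⟩ := Submodule.mem_sup.mp (htor h hh h1)
  refine ⟨sU - m • g, ⟨MU.sub_mem hsU (MU.smul_mem m hg), ?_⟩, g, hg, rfl⟩
  have : sU - m • g = sU' + m • g' := by
    have e2 : (c₀ * m) • h = m • g + m • g' := by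
      rw [mul_comm, mul_smul, ← e, smul_add]
    rw [sub_eq_iff_eq_add] at hs
    rw [hs, e2]
    abel
  rw [this]
  exact MU'.add_mem hsU' (MU'.smul_mem m hg')

/-- (INJ), abstract form.  Charts `U`, `U'` with overlap `UU`; approximate roots `s₀ ∈ MU`, `s₀' ∈ MU'` of
`sⁿ u = 1` modulo `m`, agreeing modulo `m` on the overlap; `c₀` kills the torsion of `H¹`; and `m` is
topologically nilpotent relative to `c₀` (`m ^ 2 ^ k = c₀ * m * a`).  Then there is a GLOBAL section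
`s ∈ MU ∩ MU'` with `s ≡ s₀` modulo `m • MU`. -/
theorem S34C_inj {A F : Type*} [CommRing A] [CommRing F] [Algebra A F] {n : ℕ} {u : F}
    {LU LU' LUU : Subalgebra A F} {MU MU' MUU : Submodule A F}
    (hCU : S34C_Chart A n u LU MU) (hCU' : S34C_Chart A n u LU' MU')
    (hCUU : S34C_Chart A n u LUU MUU)
    (hLU : LU ≤ LUU) (hLU' : LU' ≤ LUU) (hMU : MU ≤ MUU) (hMU' : MU' ≤ MUU)
    (hn : 0 < n) {ν : A} (hν : (n : A) * ν = 1)
    {c₀ m a : A} {k : ℕ} (hk : m ^ 2 ^ k = c₀ * m * a)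
    (htor : ∀ h ∈ MUU, ∀ c : A, (c₀ * c) • h ∈ MU ⊔ MU' → c₀ • h ∈ MU ⊔ MU')
    {s₀ s₀' l l' μ : F} (hs₀ : s₀ ∈ MU) (hs₀' : s₀' ∈ MU') (hl : l ∈ LU) (hl' : l' ∈ LU')
    (hμ : μ ∈ MUU)
    (h : s₀ ^ n * u - 1 = m • l) (h' : s₀' ^ n * u - 1 = m • l') (hss : s₀ - s₀' = m • μ) :
    ∃ s ∈ MU ⊓ MU', ∃ g ∈ MU, s = s₀ + m • g := by
  obtain ⟨s₁, hs₁, μ₁, hμ₁, l₁, hl₁, e₁, h₁⟩ := S34C_newton hCU hn hν hs₀ hl h k
  obtain ⟨s₁', hs₁', μ₁', hμ₁', l₁', hl₁', e₁', h₁'⟩ := S34C_newton hCU' hn hν hs₀' hl' h' k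
  -- agreement modulo `m` on the overlap
  have hst : s₁ - s₁' = m • (μ + μ₁ - μ₁') := by
    rw [e₁, e₁', smul_sub, smul_add, ← hss]; abel
  have hμ' : μ + μ₁ - μ₁' ∈ MUU := MUU.sub_mem (MUU.add_mem hμ (hMU hμ₁)) (hMU' hμ₁')
  -- `m ^ (2^k) = (m ^ 2 ^ k) * 1`
  obtain ⟨μ₂, hμ₂, e₂⟩ := S34C_overlap hCUU hn hν (hMU hs₁) (hMU' hs₁') (hLU hl₁) (hLU' hl₁') hμ'
    h₁ h₁' hst (r := 2 ^ k) (a := 1) (by rw [mul_one])
  -- glue
  have e₃ : s₁ - s₁' = (c₀ * (m * a)) • μ₂ := by rw [e₂, hk, mul_assoc]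
  obtain ⟨s, hs, g, hg, e⟩ := S34C_glue MU MU' MUU c₀ (m * a)
    (fun h hh hc => htor h hh (m * a) hc) hs₁ hs₁' hμ₂ e₃
  refine ⟨s, hs, μ₁ - a • g, MU.sub_mem hμ₁ (MU.smul_mem a hg), ?_⟩
  rw [e, e₁, smul_sub, smul_smul]
  abel

end Fermat.Agent.S34
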