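import Fermat.Agent.S34.InjWire
import Fermat.Agent.S34.Asm3
import Fermat.Agent.S34.Cart2X0
import Fermat.Agent.S34.ValDeg

/-!
# TRACK 7 (S34 + S35), sub-target G3 = HINJ (helper25): `hinj` on the canonical objects

Canonical objects (captain's ruling #6, `S34/Asm3.lean`): `S34M_T1`, `S34M_T2`, `S34M_same`,
`S34M_chart M q A n hn`, `S34M_Kp`.

* `S34IJ_exists_D` : a Kummer generator has a divisor `D` with `n • D = div u`;
* `S34IJ_LEV` : the level description (LEV) as a proposition (input from CHART, helper16);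
* `S34IJ_cart` : the cartesian chart `j` of the canonical pair (CART2-X0, helper5);
* `S34IJ_hinj` : the third component `hinj` of `S34M_Nodes` from (LEV).
-/

set_option autoImplicit false
set_option linter.unusedSectionVars false
set_option synthInstance.maxHeartbeats 400000
set_option maxHeartbeats 800000

open AlgebraicCurve ModularCurve

noncomputable section

namespace Fermat.Agent.S34

open Fermat.Agent.Lib Fermat.Agent.S18 Fermat.Agent.S24 Fermat.Agent.GalRep

section gen

variable {K F : Type*} [Field K] [Field F] [Algebra K F]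

/-- a Kummer generator has a divisor `D` with `n • D = div u`. -/
theorem S34IJ_exists_D (hP : HasPrincipalDivisors K F) {n : ℕ} {u : F}
    (hu : ∀ v : Place K F, (n : ℤ) ∣ v.ord u) : ∃ D : Divisor K F, n • D = RR_div hP u := by
  refine ⟨(RR_div hP u).mapRange (fun z => z / (n : ℤ)) (by simp), ?_⟩
  ext v
  rw [S18_semi_nsmul_apply, Finsupp.mapRange_apply, RR_div_apply]
  exact Int.mul_ediv_cancel' (hu v)

end gen

section canonical

variable (M q : ℕ) [NeZero (M * q)] (hq : q.Prime) (hqM : ¬ q ∣ M)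
  (A : ValuationSubring (AlgebraicClosure ℚ))
  (hgen : PrincipalGeneratedByIntegral A (IsLocalRing.residue A) (M * q))

/-- **(LEV)**, the input of INJ from CHART: for a normalised Kummer generator `u` with trivial
gluing invariant in the chart `U` (w.r.t. the nodes `e₁ e₂`) the reductions of the levels
`L(E(a,b) + D) ∩ O₂`, `a + b ≥ m₀`, are given by an intersection-stable family `G a b`
containing `1` on the `U`-side and on the `U'`-side. -/
def S34IJ_LEV {n : ℕ} (hn : 0 < n) {ι : Type*}
    (e₁ : ι → ↥(S34M_chart M q A n hn).Rb₁ →ₐ[IsLocalRing.ResidueField A]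
      IsLocalRing.ResidueField A)
    (e₂ : ι → ↥(S34M_chart M q A n hn).Rb₂ →ₐ[IsLocalRing.ResidueField A]
      IsLocalRing.ResidueField A) : Prop :=
  ∀ u ∈ S34M_Kp M q hq hqM A hgen n,
    S34K_W (S34M_same M q hq hqM A hgen) (S34M_chart M q A n hn) u =
      S34B_glued e₁ e₂ (fun _ => 1) →
    ∀ D : Divisor (AlgebraicClosure ℚ) ↥(modularFunctionFieldBar (M * q)),
      n • D = RR_div (S18_hRR (M * q)).principal u →
    ∃ (c : AlgebraicClosure ℚ) (m₀ : ℕ)
      (G : ℕ → ℕ → Submodule (IsLocalRing.ResidueField A)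
        (↥(modularFunctionFieldFullC (IsLocalRing.ResidueField A) (M * q)) ×
          ↥(modularFunctionFieldFullC (IsLocalRing.ResidueField A) (M * q)))),
      (∀ a b a' b', G a b ⊓ G a' b' ≤ G (min a a') (min b b')) ∧
      (∀ a b, m₀ ≤ a + b →
        (S34P_lat (S34M_same M q hq hqM A hgen)).redSub (riemannRochSpace
          (S34P_E (S18_hRR (M * q)).principal (jB (M * q))
            (jB (M * q) - algebraMap (AlgebraicClosure ℚ) _ c) a b + D)) = G a b) ∧
      (∃ a, m₀ ≤ a ∧ (1 : _ × _) ∈ G a 0) ∧ (∃ b, m₀ ≤ b ∧ (1 : _ × _) ∈ G 0 b)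

/-- the cartesian chart `j` of the canonical pair (CART2-X0). -/
theorem S34IJ_cart [NeZero M] (hA : A.LiesOverPrime q) :
    ∃ (x₀ : (S34P_lat (S34M_same M q hq hqM A hgen)).O) (r : ℕ)
      (y : Fin r → (S34P_lat (S34M_same M q hq hqM A hgen)).O),
      (S34P_lat (S34M_same M q hq hqM A hgen)).IsCart x₀ y := by
  obtain ⟨y, hy⟩ := S34CB_isCart_X0_pair M q hq hqM A hA hgen
  exact ⟨_, _, y, hy⟩

/-- **G3 = HINJ** on the canonical objects, from (LEV): the third component of `S34M_Nodes`. -/
theorem S34IJ_hinj [NeZero M] (hA : A.LiesOverPrime q) {n : ℕ} (hn : 0 < n) (hqn : ¬ q ∣ n)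
    {ι : Type*}
    (e₁ : ι → ↥(S34M_chart M q A n hn).Rb₁ →ₐ[IsLocalRing.ResidueField A]
      IsLocalRing.ResidueField A)
    (e₂ : ι → ↥(S34M_chart M q A n hn).Rb₂ →ₐ[IsLocalRing.ResidueField A]
      IsLocalRing.ResidueField A)
    (hLEV : S34IJ_LEV M q hq hqM A hgen hn e₁ e₂) :
    ∀ u ∈ S34M_Kp M q hq hqM A hgen n,
      S34K_W (S34M_same M q hq hqM A hgen) (S34M_chart M q A n hn) u =
        S34B_glued e₁ e₂ (fun _ => 1) → GR_IsTriv (M * q) n u := by
  intro u hu hc
  obtain ⟨x₀, r, y, hCart⟩ := S34IJ_cart M q hq hqM A hgen hA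
  have hRR := S18_hRR (M * q)
  obtain ⟨D, hD⟩ := S34IJ_exists_D hRR.principal hu.1.2
  obtain ⟨c, m₀, G, hG, hlev, hone, hone'⟩ := hLEV u hu hc D hD
  have hx : 0 < (RR_poleDiv hRR.principal (jB (M * q))).degree := by
    rw [S34VD_deg_jB, ← finrank_eq_psi (M * q)]
    have := finiteDimensional_jB (M * q)
    exact_mod_cast Module.finrank_pos
  exact S34IW_hinj (S34M_same M q hq hqM A hgen) hRR hq hA hCart hn hqn (jB (M * q))
    (S34M_xb M q A) (S34M_xb M q A ^ q) c hx u hu.2 D hD m₀ G hG hlev hone hone'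

end canonical

end Fermat.Agent.S34
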