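import Fermat.Agent.S34.Asm
import Fermat.Agent.S34.KActInst
import Fermat.Agent.S34.ValTwo
import Fermat.Agent.S18.LiftMore

/-!
# TRACK 7 (S34 + S35), package KACT (helper10): the targets `S34M_KTau`, `S34M_KSig2` of ASM

For a pair `T₁, T₂ : S18_Val` on `F = modularFunctionFieldBar L'` and a chart `C : S34K_Chart n`
the remaining inputs of KACT are the named Props

* `S34K_NodalAt hT C`  (G1: NODAL + NODALG + COUNT at `u = 1`) : `W¹` is the ring of a nodal curve;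
* `S34K_CountAt hT C`  (G2: COUNT/POLE/SAT)                    : `codim W^u ≤ codim W¹`;
* `S34K_HexAt hT C`    (G2, alternative)                       : `W^u` is glued, for all nodes;
* `S34K_InjAt hT C`    (G3: INJ + CHART + TORS)   : trivial gluing invariant ⇒ `u = c · gⁿ`;
* `S34K_TauAt T₁ T₂ C τ` (G4: STRAIGHT, inertia)  : `τ` keeps `O₁, O₂, B`, `red_i ∘ τ = red_i`;
* `S34K_SigAt hT C q σ`  (G4 + G5: STRAIGHT, Frobenius lift + (A3)) : `σ` keeps `O₁, O₂, B`,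
  `red_i ∘ σ = Φ_i ∘ red_i`, `Φ_i` `θ`-semilinear, `θ x = x ^ q`, `Φ_i Rb_i ⊂ Rb_i`,
  `(0, Φ₂² b - b ^ (q²)) ∈ W¹`.

`S34K_tau_at`, `S34K_sig2_at` : (K-tau), (K-sig2) at one place from these.

THE canonical pair of `F_{M q}` at a place `A ∣ q` (captain's ruling #6):
`S34K_T1 M q A hgen = G₁.toVal`, `S34K_T2 M q hq hqM A hgen = (S34V_comap G₁ w_q).toVal`
(reducible abbreviations), `S34K_same`.
`S34K_KTau`, `S34K_KSig2` prove `S34M_KTau M q hq hqM`, `S34M_KSig2 M q hq hqM` from the named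
inputs for any family of charts (e.g. `S34SB_chart`).
-/

set_option autoImplicit false
set_option synthInstance.maxHeartbeats 400000
set_option linter.unusedSectionVars false
set_option linter.unusedVariables false

open ModularCurve AlgebraicCurve CongruenceSubgroup

noncomputable section

namespace Fermat.Agent.S34

open Fermat.Agent.GalRep Fermat.Agent.S16 Fermat.Agent.S41 Fermat.Agent.S24 Fermat.Agent.S18
  Fermat.Agent.S35

section generic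

variable {k : Type*} [Field k] {L' : ℕ} {Fk₁ Fk₂ : Type*} [Field Fk₁] [Field Fk₂]
  [Algebra k Fk₁] [Algebra k Fk₂]
  {T₁ : S18_Val (AlgebraicClosure ℚ) ↥(modularFunctionFieldBar L') k Fk₁}
  {T₂ : S18_Val (AlgebraicClosure ℚ) ↥(modularFunctionFieldBar L') k Fk₂}
  (hT : S34P_Same T₁ T₂) {n : ℕ}
  (C : S34K_Chart (L := AlgebraicClosure ℚ) (F := ↥(modularFunctionFieldBar L')) (k := k)
    (Fk₁ := Fk₁) (Fk₂ := Fk₂) n)

/-- **(NODAL)**: the reduction `W¹` of `Λ = B ∩ O₁ ∩ O₂` is the ring of a nodal curve. -/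
def S34K_NodalAt : Prop :=
  ∃ (s : ℕ) (e₁ : Fin s → ↥C.Rb₁ →ₐ[k] k) (e₂ : Fin s → ↥C.Rb₂ →ₐ[k] k),
    Function.Surjective (S34B_E e₁ e₂) ∧ S34K_W hT C 1 = S34B_W e₁ e₂

/-- **(COUNT)**: for a normalised Kummer generator `u`, `W^u` has finite codimension, at most
the codimension of `W¹`. -/
def S34K_CountAt : Prop :=
  ∀ u : ↥(modularFunctionFieldBar L'),
    KM_IsKum (AlgebraicClosure ℚ) ↥(modularFunctionFieldBar L') n u →
    u ∈ S34K_Norm T₁ T₂ →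
    Module.Finite k ((↥C.Rb₁ × ↥C.Rb₂) ⧸ S34K_W hT C u) ∧
    Module.finrank k ((↥C.Rb₁ × ↥C.Rb₂) ⧸ S34K_W hT C u) ≤
    Module.finrank k ((↥C.Rb₁ × ↥C.Rb₂) ⧸ S34K_W hT C 1)

/-- **(HEX)**: for every description of `W¹` by nodes, `W^u` is glued for every normalised
Kummer generator `u`. -/
def S34K_HexAt : Prop :=
  ∀ (s : ℕ) (e₁ : Fin s → ↥C.Rb₁ →ₐ[k] k) (e₂ : Fin s → ↥C.Rb₂ →ₐ[k] k),
    Function.Surjective (S34B_E e₁ e₂) → S34K_W hT C 1 = S34B_W e₁ e₂ →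
    ∀ u ∈ {u | KM_IsKum (AlgebraicClosure ℚ) ↥(modularFunctionFieldBar L') n u} ∩
      S34K_Norm T₁ T₂, ∃ c : Fin s → k, S34K_W hT C u = S34B_glued e₁ e₂ c

/-- **(INJ)**: for every description of `W¹` by nodes, a normalised Kummer generator with
trivial gluing invariant is trivial. -/
def S34K_InjAt : Prop :=
  ∀ (s : ℕ) (e₁ : Fin s → ↥C.Rb₁ →ₐ[k] k) (e₂ : Fin s → ↥C.Rb₂ →ₐ[k] k),
    Function.Surjective (S34B_E e₁ e₂) → S34K_W hT C 1 = S34B_W e₁ e₂ →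
    ∀ u ∈ {u | KM_IsKum (AlgebraicClosure ℚ) ↥(modularFunctionFieldBar L') n u} ∩
      S34K_Norm T₁ T₂,
      S34K_W hT C u = S34B_glued e₁ e₂ (fun _ => 1) → GR_IsTriv L' n u

variable (T₁ T₂) in
/-- **(STRAIGHT), inertia**: `τ` keeps `O₁`, `O₂`, `B` and acts trivially on the reductions. -/
structure S34K_TauAt (τ : GQ) : Prop where
  O₁ : ∀ f ∈ T₁.O, GR_gal L' τ f ∈ T₁.O
  O₂ : ∀ f ∈ T₂.O, GR_gal L' τ f ∈ T₂.O
  B : ∀ f ∈ C.B, GR_gal L' τ f ∈ C.B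
  red₁ : ∀ f : T₁.O, T₁.red ⟨GR_gal L' τ f, O₁ f f.2⟩ = T₁.red f
  red₂ : ∀ f : T₂.O, T₂.red ⟨GR_gal L' τ f, O₂ f f.2⟩ = T₂.red f

/-- **(STRAIGHT), Frobenius lift, with (A3)**: `σ` keeps `O₁`, `O₂`, `B` and acts on the
reductions through `θ`-semilinear endomorphisms `Φ₁, Φ₂` of the residue fields (`θ x = x ^ q`)
which keep `Rb₁, Rb₂`; (A3): `(0, Φ₂ (Φ₂ b) - b ^ (q²))` is the reduction of a function of
`B ∩ O₁ ∩ O₂`, for every `b ∈ Rb₂`. -/
def S34K_SigAt (_hT : S34P_Same T₁ T₂) (q : ℕ) (σ : GQ) : Prop :=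
  ∃ (θ : k ≃+* k) (Φ₁ : Fk₁ →+* Fk₁) (Φ₂ : Fk₂ →+* Fk₂)
    (hO₁ : ∀ f ∈ T₁.O, GR_gal L' σ f ∈ T₁.O) (hO₂ : ∀ f ∈ T₂.O, GR_gal L' σ f ∈ T₂.O),
    (∀ x, θ x = x ^ q) ∧
    (∀ c, Φ₁ (algebraMap k Fk₁ c) = algebraMap k Fk₁ (θ c)) ∧
    (∀ c, Φ₂ (algebraMap k Fk₂ c) = algebraMap k Fk₂ (θ c)) ∧
    (∀ a ∈ C.Rb₁, Φ₁ a ∈ C.Rb₁) ∧ (∀ a ∈ C.Rb₂, Φ₂ a ∈ C.Rb₂) ∧
    (∀ f ∈ C.B, GR_gal L' σ f ∈ C.B) ∧
    (∀ f : T₁.O, T₁.red ⟨GR_gal L' σ f, hO₁ f f.2⟩ = Φ₁ (T₁.red f)) ∧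
    (∀ f : T₂.O, T₂.red ⟨GR_gal L' σ f, hO₂ f f.2⟩ = Φ₂ (T₂.red f)) ∧
    (∀ b ∈ C.Rb₂, ∃ f : S34P_O2 T₁ T₂, (f : ↥(modularFunctionFieldBar L')) ∈ C.B ∧
      S34P_red T₁ T₂ f = (0, Φ₂ (Φ₂ b) - b ^ (q ^ 2)))

variable {hT C}

/-- (HEX) from (COUNT). -/
theorem S34K_hexAt_of_countAt (hcount : S34K_CountAt hT C) : S34K_HexAt hT C := by
  intro s e₁ e₂ hE hW1
  apply S34K_hex_of_counts hT C e₁ e₂ hE hW1
  intro u hu
  obtain ⟨hfin, hle⟩ := hcount u hu.1 hu.2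
  refine ⟨hfin, hle.trans (le_of_eq ?_)⟩
  rw [hW1]
  exact S34B_finrank_quot e₁ e₂ hE _

/-- **(K-tau) at one place** from the named inputs. -/
theorem S34K_tau_at [NeZero L'] (hnod : S34K_NodalAt hT C) (hhex : S34K_HexAt hT C)
    (hinj : S34K_InjAt hT C) (τ : GQ) (hτ : S34K_TauAt T₁ T₂ C τ)
    (u : ↥(modularFunctionFieldBar L'))
    (hu : KM_IsKum (AlgebraicClosure ℚ) ↥(modularFunctionFieldBar L') n u)
    (h1 : T₁.O.valuation (u - 1) < 1) (h2 : T₂.O.valuation (u - 1) < 1) :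
    GR_IsTriv L' n (GR_gal L' τ u * u⁻¹) := by
  obtain ⟨s, e₁, e₂, hE, hW1⟩ := hnod
  exact S34K_hK_tau hT C e₁ e₂ hE (hhex s e₁ e₂ hE hW1) (hinj s e₁ e₂ hE hW1) τ
    ((KMF_kappa_final L').gal n τ) hτ.O₁ hτ.O₂ hτ.B hτ.red₁ hτ.red₂ u hu h1 h2

/-- **(K-sig2) at one place** from the named inputs. -/
theorem S34K_sig2_at [NeZero L'] (hnod : S34K_NodalAt hT C) (hhex : S34K_HexAt hT C)
    (hinj : S34K_InjAt hT C) (q : ℕ) (σ : GQ) (hσ : S34K_SigAt C hT q σ)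
    (u : ↥(modularFunctionFieldBar L'))
    (hu : KM_IsKum (AlgebraicClosure ℚ) ↥(modularFunctionFieldBar L') n u)
    (h1 : T₁.O.valuation (u - 1) < 1) (h2 : T₂.O.valuation (u - 1) < 1) :
    GR_IsTriv L' n (GR_gal L' σ (GR_gal L' σ u) * (u ^ (q ^ 2))⁻¹) := by
  obtain ⟨s, e₁, e₂, hE, hW1⟩ := hnod
  obtain ⟨θ, Φ₁, Φ₂, hO₁, hO₂, hθ, hΦ₁, hΦ₂, hRb₁, hRb₂, hB, hred₁, hred₂, hA3⟩ := hσ
  exact S34K_hK_sig2 hT C e₁ e₂ hE (hhex s e₁ e₂ hE hW1) (hinj s e₁ e₂ hE hW1) σ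
    ((KMF_kappa_final L').gal n σ) hO₁ hO₂ hB q θ hθ Φ₁ Φ₂ hΦ₁ hΦ₂ hRb₁ hRb₂
    hred₁ hred₂ hA3 u hu h1 h2

end generic

section comapPair

variable {L F k Fk : Type*} [Field L] [Field F] [Algebra L F] [Field k] [Field Fk]
  [Algebra k Fk] (G : S18_Gauss L F k Fk) (w : F ≃ₐ[L] F)

/-- a Gauss datum and its transport by an automorphism have the same base. -/
theorem S34K_same_comap : S34P_Same G.toVal (S34V_comap G w).toVal :=
  ⟨rfl, fun _ _ _ => rfl⟩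

theorem S34K_toVal_O : G.toVal.O = G.O := rfl

theorem S34K_comap_toVal_O : (S34V_comap G w).toVal.O = G.O.comap (w : F →+* F) := rfl

end comapPair

section canonical

variable (M q : ℕ) [NeZero (M * q)] (hq : q.Prime) (hqM : ¬ q ∣ M)
  (A : ValuationSubring (AlgebraicClosure ℚ))
  (hgen : PrincipalGeneratedByIntegral A (IsLocalRing.residue A) (M * q))

/-- `V₁` as a valued function field (THE canonical `T₁`). -/
abbrev S34K_T1 : S18_Val (AlgebraicClosure ℚ) ↥(modularFunctionFieldBar (M * q))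
    (IsLocalRing.ResidueField A)
    ↥(modularFunctionFieldFullC (IsLocalRing.ResidueField A) (M * q)) :=
  (S18_gaussModL (M * q) A hgen).toVal

/-- `V₂ = V₁ ∘ w_q` as a valued function field (THE canonical `T₂`). -/
abbrev S34K_T2 : S18_Val (AlgebraicClosure ℚ) ↥(modularFunctionFieldBar (M * q))
    (IsLocalRing.ResidueField A)
    ↥(modularFunctionFieldFullC (IsLocalRing.ResidueField A) (M * q)) :=
  (S34V_comap (S18_gaussModL (M * q) A hgen) (S34DF_wq M q hq hqM)).toVal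

theorem S34K_T1_O : (S34K_T1 M q A hgen).O = S34DF_O1 M q A hgen :=
  S34K_toVal_O (S18_gaussModL (M * q) A hgen)

theorem S34K_T2_O : (S34K_T2 M q hq hqM A hgen).O = S34DF_O2 M q hq hqM A hgen :=
  S34K_comap_toVal_O (S18_gaussModL (M * q) A hgen) (S34DF_wq M q hq hqM)

/-- the two data have the same base. -/
theorem S34K_same : S34P_Same (S34K_T1 M q A hgen) (S34K_T2 M q hq hqM A hgen) :=
  S34K_same_comap (S18_gaussModL (M * q) A hgen) (S34DF_wq M q hq hqM)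

end canonical

section targets

variable (M q : ℕ) [NeZero (M * q)] (hq : q.Prime) (hqM : ¬ q ∣ M)

/-- **the target `S34M_KTau` of ASM**, from the named inputs for a family of charts. -/
theorem S34K_KTau
    (C : ∀ (n : ℕ), 0 < n → ∀ (A : ValuationSubring (AlgebraicClosure ℚ)),
      PrincipalGeneratedByIntegral A (IsLocalRing.residue A) (M * q) →
      S34K_Chart (L := AlgebraicClosure ℚ) (F := ↥(modularFunctionFieldBar (M * q)))
        (k := IsLocalRing.ResidueField A)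
        (Fk₁ := ↥(modularFunctionFieldFullC (IsLocalRing.ResidueField A) (M * q)))
        (Fk₂ := ↥(modularFunctionFieldFullC (IsLocalRing.ResidueField A) (M * q))) n)
    (h : ∀ (n : ℕ) (hn : 0 < n), ¬ q ∣ n →
      ∀ (A : ValuationSubring (AlgebraicClosure ℚ)), A.LiesOverPrime q →
      ∀ hgen : PrincipalGeneratedByIntegral A (IsLocalRing.residue A) (M * q),
        S34K_NodalAt (S34K_same M q hq hqM A hgen) (C n hn A hgen) ∧
        S34K_HexAt (S34K_same M q hq hqM A hgen) (C n hn A hgen) ∧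
        S34K_InjAt (S34K_same M q hq hqM A hgen) (C n hn A hgen) ∧
        ∀ τ ∈ A.inertiaSubgroupIn ℚ,
          S34K_TauAt (S34K_T1 M q A hgen) (S34K_T2 M q hq hqM A hgen) (C n hn A hgen) τ) :
    S34M_KTau M q hq hqM := by
  intro n hn hqn A hA hgen τ hτ u hu h1 h2
  obtain ⟨hnod, hhex, hinj, htau⟩ := h n hn hqn A hA hgen
  rw [← S34K_T1_O M q A hgen] at h1
  rw [← S34K_T2_O M q hq hqM A hgen] at h2
  exact S34K_tau_at hnod hhex hinj τ (htau τ hτ) u hu h1 h2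

/-- **the target `S34M_KSig2` of ASM**, from the named inputs for a family of charts. -/
theorem S34K_KSig2
    (C : ∀ (n : ℕ), 0 < n → ∀ (A : ValuationSubring (AlgebraicClosure ℚ)),
      PrincipalGeneratedByIntegral A (IsLocalRing.residue A) (M * q) →
      S34K_Chart (L := AlgebraicClosure ℚ) (F := ↥(modularFunctionFieldBar (M * q)))
        (k := IsLocalRing.ResidueField A)
        (Fk₁ := ↥(modularFunctionFieldFullC (IsLocalRing.ResidueField A) (M * q)))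
        (Fk₂ := ↥(modularFunctionFieldFullC (IsLocalRing.ResidueField A) (M * q))) n)
    (h : ∀ (n : ℕ) (hn : 0 < n), ¬ q ∣ n → ∀ (σ : GQ)
      (A : ValuationSubring (AlgebraicClosure ℚ)), A.LiesOverPrime q → A.IsFrobeniusAt σ q →
      ∀ hgen : PrincipalGeneratedByIntegral A (IsLocalRing.residue A) (M * q),
        S34K_NodalAt (S34K_same M q hq hqM A hgen) (C n hn A hgen) ∧
        S34K_HexAt (S34K_same M q hq hqM A hgen) (C n hn A hgen) ∧
        S34K_InjAt (S34K_same M q hq hqM A hgen) (C n hn A hgen) ∧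
        S34K_SigAt (C n hn A hgen) (S34K_same M q hq hqM A hgen) q σ) :
    S34M_KSig2 M q hq hqM := by
  intro n hn hqn σ A hA hAσ hgen u hu h1 h2
  obtain ⟨hnod, hhex, hinj, hsig⟩ := h n hn hqn σ A hA hAσ hgen
  rw [← S34K_T1_O M q A hgen] at h1
  rw [← S34K_T2_O M q hq hqM A hgen] at h2
  exact S34K_sig2_at hnod hhex hinj q σ hsig u hu h1 h2

end targets

end Fermat.Agent.S34
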