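import Fermat.Agent.S34.Lat

/-!
# TRACK 7, package LATBALL (helper23): the unit ball of a subspace as an `A`-module

For a lattice datum `S : S34L_Lat L F k R` (package LAT, `S34/Lat.lean`) and an `L`-subspace
`V ⊂ F`, the unit ball `V ∩ O` is an `A`-submodule of `F`:

* `S34LB_ball S V`         : the unit ball `V ∩ O` as `Submodule S.A F`;
* `S34LB_ball_eq_span`     : it is the `A`-span of an orthonormal basis of `V`;
* `S34LB_ball_fg`          : it is finitely generated (cartesian case, `V` finite-dimensional);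
* `S34LB_ball_ker`         : on the unit ball, `red` is injective modulo `𝔪_A`;
* `S34LB_red_eq_of_mem_smul`: conversely `red` kills `𝔪_A • ball`;
* `S34LB_mem_redSub`       : `S.redSub V = red (ball V)`.

All declarations carry the prefix `S34LB_`.
-/

set_option autoImplicit false

namespace Fermat.Agent.S34

open Fermat.Agent.S18

variable {L F k R : Type*} [Field L] [Field F] [Algebra L F] [Field k] [CommRing R]
  [Algebra k R] (S : S34L_Lat L F k R)

/-- the unit ball `V ∩ O` of an `L`-subspace, as an `A`-submodule of `F` -/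
def S34LB_ball (V : Submodule L F) : Submodule S.A F where
  carrier := {f | f ∈ V ∧ f ∈ S.O}
  add_mem' := fun ha hb => ⟨V.add_mem ha.1 hb.1, S.O.add_mem ha.2 hb.2⟩
  zero_mem' := ⟨V.zero_mem, S.O.zero_mem⟩
  smul_mem' := fun a f hf => by
    refine ⟨V.smul_mem (a : L) hf.1, ?_⟩
    show (a : L) • f ∈ S.O
    rw [Algebra.smul_def]
    exact S.O.mul_mem (S.algebraMap_mem a a.2) hf.2

theorem S34LB_mem_ball {V : Submodule L F} {f : F} :
    f ∈ S34LB_ball S V ↔ f ∈ V ∧ f ∈ S.O := Iff.rfl

theorem S34LB_ball_mono {V V' : Submodule L F} (h : V ≤ V') :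
    S34LB_ball S V ≤ S34LB_ball S V' := fun _ hf => ⟨h hf.1, hf.2⟩

theorem S34LB_smul_def (a : S.A) (f : F) : a • f = algebraMap L F (a : L) * f := by
  show (a : L) • f = _
  rw [Algebra.smul_def]

/-- an element of the unit ball is an `A`-combination of an orthonormal basis. -/
theorem S34LB_exists_coeff {r : ℕ} (V : Submodule L F) (v : Fin r → S.O)
    (hv : LinearIndependent k (fun b => S.red (v b)))
    (hspan : V ≤ Submodule.span L (Set.range fun b => (v b : F)))
    (f : S.O) (hf : (f : F) ∈ V) :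
    ∃ a : Fin r → S.A, f = ∑ b, S.const (a b) * v b := by
  classical
  have h1 := hspan hf
  rw [Submodule.mem_span_range_iff_exists_fun] at h1
  obtain ⟨c, hc⟩ := h1
  have hcA : ∀ b, c b ∈ S.A := by
    apply S.mem_A_of_sum_mem v hv c
    rw [finsum_eq_sum_of_fintype]
    have : ∑ i, algebraMap L F (c i) * (v i : F) = (f : F) := by
      rw [← hc]
      exact Finset.sum_congr rfl fun i _ => (Algebra.smul_def _ _).symm
    rw [this]
    exact f.2
  refine ⟨fun b => ⟨c b, hcA b⟩, ?_⟩
  apply Subtype.ext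
  push_cast
  rw [← hc]
  exact Finset.sum_congr rfl fun i _ => Algebra.smul_def _ _

/-- **LAT-fg**: the unit ball is the `A`-span of an orthonormal basis. -/
theorem S34LB_ball_eq_span {r : ℕ} (V : Submodule L F) (v : Fin r → S.O)
    (hvV : ∀ b, (v b : F) ∈ V) (hv : LinearIndependent k (fun b => S.red (v b)))
    (hspan : V ≤ Submodule.span L (Set.range fun b => (v b : F))) :
    S34LB_ball S V = Submodule.span S.A (Set.range fun b => (v b : F)) := by
  classical
  apply le_antisymm
  · rintro f ⟨hfV, hfO⟩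
    obtain ⟨a, ha⟩ := S34LB_exists_coeff S V v hv hspan ⟨f, hfO⟩ hfV
    have hf : f = ∑ b, a b • ((v b : S.O) : F) := by
      have := congrArg (fun z : S.O => (z : F)) ha
      simp only at this
      rw [this]
      push_cast
      exact Finset.sum_congr rfl fun b _ => by
        rw [S34LB_smul_def, S34L_Lat.coe_const]
    rw [hf]
    exact Submodule.sum_mem _ fun b _ =>
      Submodule.smul_mem _ _ (Submodule.subset_span ⟨b, rfl⟩)
  · rw [Submodule.span_le]
    rintro _ ⟨b, rfl⟩
    exact ⟨hvV b, (v b).2⟩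

/-- **LAT-fg**: the unit ball of a finite-dimensional subspace is finitely generated. -/
theorem S34LB_ball_fg {x : S.O} {n : ℕ} {y : Fin n → S.O} (hC : S.IsCart x y)
    (V : Submodule L F) [FiniteDimensional L V] : (S34LB_ball S V).FG := by
  obtain ⟨r, v, hvV, hv, hspan⟩ := hC.exists_red_basis V
  rw [S34LB_ball_eq_span S V v hvV hv hspan]
  exact Submodule.fg_span (Set.finite_range _)

/-- `red` is injective modulo `𝔪_A` on a ball with an orthonormal basis. -/
theorem S34LB_ball_ker_of_basis {r : ℕ} (V : Submodule L F) (v : Fin r → S.O)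
    (hvV : ∀ b, (v b : F) ∈ V) (hv : LinearIndependent k (fun b => S.red (v b)))
    (hspan : V ≤ Submodule.span L (Set.range fun b => (v b : F)))
    (f g : S.O) (hf : (f : F) ∈ V) (hg : (g : F) ∈ V) (h : S.red f = S.red g) :
    (f : F) - (g : F) ∈ IsLocalRing.maximalIdeal S.A • S34LB_ball S V := by
  classical
  obtain ⟨a, ha⟩ := S34LB_exists_coeff S V v hv hspan (f - g) (by
    push_cast
    exact V.sub_mem hf hg)
  have hred : S.red (f - g) = 0 := by rw [map_sub, h, sub_self]
  rw [ha, S.red_sum] at hred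
  have hres : ∀ b, S.res (a b) = 0 := Fintype.linearIndependent_iff.mp hv _ hred
  have ham : ∀ b, a b ∈ IsLocalRing.maximalIdeal S.A := fun b => by
    rw [IsLocalRing.mem_maximalIdeal, mem_nonunits_iff]
    exact (S.res_eq_zero_iff (a b)).1 (hres b)
  have hfg : (f : F) - (g : F) = ∑ b, a b • ((v b : S.O) : F) := by
    have := congrArg (fun z : S.O => (z : F)) ha
    push_cast at this
    rw [this]
    exact Finset.sum_congr rfl fun b _ => by
      rw [S34LB_smul_def, S34L_Lat.coe_const]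
  rw [hfg]
  exact Submodule.sum_mem _ fun b _ =>
    Submodule.smul_mem_smul (ham b) ⟨hvV b, (v b).2⟩

/-- **LAT-ker**: on the unit ball, `red` is injective modulo `𝔪_A`. -/
theorem S34LB_ball_ker {x : S.O} {n : ℕ} {y : Fin n → S.O} (hC : S.IsCart x y)
    (V : Submodule L F) [FiniteDimensional L V]
    (f g : S.O) (hf : (f : F) ∈ V) (hg : (g : F) ∈ V) (h : S.red f = S.red g) :
    (f : F) - (g : F) ∈ IsLocalRing.maximalIdeal S.A • S34LB_ball S V := by
  obtain ⟨r, v, hvV, hv, hspan⟩ := hC.exists_red_basis V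
  exact S34LB_ball_ker_of_basis S V v hvV hv hspan f g hf hg h

/-- elements of `𝔪_A • ball` lie in the ball ... -/
theorem S34LB_smul_ball_le (V : Submodule L F) :
    IsLocalRing.maximalIdeal S.A • S34LB_ball S V ≤ S34LB_ball S V :=
  Submodule.smul_le.2 fun a _ _ hf => (S34LB_ball S V).smul_mem a hf

/-- ... and have reduction `0`. -/
theorem S34LB_red_eq_zero_of_mem_smul (V : Submodule L F) (f : S.O)
    (hf : (f : F) ∈ IsLocalRing.maximalIdeal S.A • S34LB_ball S V) : S.red f = 0 := by
  have key : ∀ z ∈ IsLocalRing.maximalIdeal S.A • S34LB_ball S V,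
      ∃ hz : z ∈ S.O, S.red ⟨z, hz⟩ = 0 := by
    intro z hz
    refine Submodule.smul_induction_on hz ?_ ?_
    · intro a ha g hg
      have hgO : g ∈ S.O := hg.2
      have hmem : a • g ∈ S.O := ((S34LB_ball S V).smul_mem a hg).2
      refine ⟨hmem, ?_⟩
      have h1 : (⟨a • g, hmem⟩ : S.O) = S.const a * ⟨g, hgO⟩ := by
        apply Subtype.ext
        push_cast
        rw [S34LB_smul_def, S34L_Lat.coe_const]
      rw [h1, map_mul, S.red_const]
      have h2 : S.res a = 0 := by
        rw [S.res_eq_zero_iff]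
        exact (IsLocalRing.mem_maximalIdeal a).1 ha
      rw [h2, map_zero, zero_mul]
    · rintro z₁ z₂ ⟨h₁, e₁⟩ ⟨h₂, e₂⟩
      refine ⟨S.O.add_mem h₁ h₂, ?_⟩
      have h3 : (⟨z₁ + z₂, S.O.add_mem h₁ h₂⟩ : S.O) = ⟨z₁, h₁⟩ + ⟨z₂, h₂⟩ := rfl
      rw [h3, map_add, e₁, e₂, add_zero]
  obtain ⟨hz, e⟩ := key _ hf
  exact e

/-- `red f = red g` if `f − g ∈ 𝔪_A • ball`. -/
theorem S34LB_red_eq_of_mem_smul (V : Submodule L F) (f g : S.O)
    (h : (f : F) - (g : F) ∈ IsLocalRing.maximalIdeal S.A • S34LB_ball S V) :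
    S.red f = S.red g := by
  have := S34LB_red_eq_zero_of_mem_smul S V (f - g) (by push_cast; exact h)
  rwa [map_sub, sub_eq_zero] at this

/-- `W = red (ball)`. -/
theorem S34LB_mem_redSub (V : Submodule L F) (w : R) :
    w ∈ S.redSub V ↔ ∃ f : S.O, (f : F) ∈ S34LB_ball S V ∧ S.red f = w := by
  constructor
  · rintro ⟨f, hf, rfl⟩
    exact ⟨f, ⟨hf, f.2⟩, rfl⟩
  · rintro ⟨f, hf, rfl⟩
    exact ⟨f, hf.1, rfl⟩

/-- the reduction map extended by `0` outside `O` (for consumers who want `F → R`). -/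
noncomputable def S34LB_redF : F → R := by
  classical
  exact fun f => if h : f ∈ S.O then S.red ⟨f, h⟩ else 0

theorem S34LB_redF_of_mem {f : F} (h : f ∈ S.O) : S34LB_redF S f = S.red ⟨f, h⟩ := by
  classical
  simp [S34LB_redF, h]

theorem S34LB_redF_coe (f : S.O) : S34LB_redF S (f : F) = S.red f :=
  S34LB_redF_of_mem S f.2

/-! ### the same statements for `red : F → R`, in the shape consumed by `S34T_main` -/

theorem S34LB_redF_add {f g : F} (hf : f ∈ S.O) (hg : g ∈ S.O) :
    S34LB_redF S (f + g) = S34LB_redF S f + S34LB_redF S g := by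
  rw [S34LB_redF_of_mem S hf, S34LB_redF_of_mem S hg, S34LB_redF_of_mem S (S.O.add_mem hf hg),
    ← map_add]
  rfl

theorem S34LB_redF_mul {f g : F} (hf : f ∈ S.O) (hg : g ∈ S.O) :
    S34LB_redF S (f * g) = S34LB_redF S f * S34LB_redF S g := by
  rw [S34LB_redF_of_mem S hf, S34LB_redF_of_mem S hg, S34LB_redF_of_mem S (S.O.mul_mem hf hg),
    ← map_mul]
  rfl

theorem S34LB_redF_one : S34LB_redF S (1 : F) = 1 := by
  rw [S34LB_redF_of_mem S S.O.one_mem, ← map_one S.red]
  rfl

theorem S34LB_redF_zero : S34LB_redF S (0 : F) = 0 := by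
  rw [S34LB_redF_of_mem S S.O.zero_mem, ← map_zero S.red]
  rfl

theorem S34LB_redF_smul (a : S.A) {f : F} (hf : f ∈ S.O) :
    S34LB_redF S (a • f) = S.res a • S34LB_redF S f := by
  have h1 : a • f = ((S.const a * ⟨f, hf⟩ : S.O) : F) := by
    push_cast
    rw [S34LB_smul_def, S34L_Lat.coe_const]
  rw [h1, S34LB_redF_coe, map_mul, S.red_const, S34LB_redF_of_mem S hf, Algebra.smul_def]

/-- `hadd` of `S34T_main`. -/
theorem S34LB_redF_add_ball (V : Submodule L F) :
    ∀ f ∈ S34LB_ball S V, ∀ g ∈ S34LB_ball S V,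
      S34LB_redF S (f + g) = S34LB_redF S f + S34LB_redF S g :=
  fun _ hf _ hg => S34LB_redF_add S hf.2 hg.2

/-- `hker` of `S34T_main`. -/
theorem S34LB_redF_ker {x : S.O} {n : ℕ} {y : Fin n → S.O} (hC : S.IsCart x y)
    (V : Submodule L F) [FiniteDimensional L V] :
    ∀ f ∈ S34LB_ball S V, ∀ g ∈ S34LB_ball S V, S34LB_redF S f = S34LB_redF S g →
      f - g ∈ IsLocalRing.maximalIdeal S.A • S34LB_ball S V := by
  intro f hf g hg h
  rw [S34LB_redF_of_mem S hf.2, S34LB_redF_of_mem S hg.2] at h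
  exact S34LB_ball_ker S hC V ⟨f, hf.2⟩ ⟨g, hg.2⟩ hf.1 hg.1 h

/-- `hW` of `S34T_main`. -/
theorem S34LB_mem_redSub_redF (V : Submodule L F) (w : R) :
    w ∈ S.redSub V ↔ ∃ f ∈ S34LB_ball S V, S34LB_redF S f = w := by
  constructor
  · rintro ⟨f, hf, rfl⟩
    exact ⟨f, ⟨hf, f.2⟩, S34LB_redF_coe S f⟩
  · rintro ⟨f, hf, rfl⟩
    exact ⟨⟨f, hf.2⟩, hf.1, (S34LB_redF_of_mem S hf.2).symm⟩

/-- the unit ball is torsion-free as a submodule of the field `F`; with `ball_fg` it is a
finitely generated torsion-free module over the valuation ring `A`. -/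
theorem S34LB_smul_eq_zero {a : S.A} {f : F} (h : a • f = 0) : a = 0 ∨ f = 0 := by
  rw [S34LB_smul_def] at h
  rcases mul_eq_zero.1 h with h | h
  · left
    apply Subtype.ext
    have := (map_eq_zero (algebraMap L F)).1 h
    simpa using this
  · exact Or.inr h

end Fermat.Agent.S34
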