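/-
TRACK 7 "NODE" (S34 + S35), package POLE, part 2 (helper2): the GRID `E(a,b) = a·(x)_∞ + b·(z)₀`
(`z = x − c`), twisted pole control `W^y(E) ⊂ R̄(Ē)` (no moving lemma), monotonicity, and the pole
conditions intersect (`inter` of `S34S_Grid`).
-/
import Mathlib
import Fermat.Agent.S34.Pole
import Fermat.Agent.S18.Loc

set_option autoImplicit false

open AlgebraicCurve IntermediateField

namespace Fermat.Agent.S34

open Fermat.Agent.Lib Fermat.Agent.S24 Fermat.Agent.S18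

/-! ### The divisors `E(a,b)` in one function field -/

section Grid

variable {K E : Type*} [Field K] [Field E] [Algebra K E]

/-- `E(a,b) = (a+b)·(x)_∞ + b·div(z)`; for `z = x − c` this is `a·(x)_∞ + b·(z)₀`. -/
noncomputable def S34P_E (hP : HasPrincipalDivisors K E) (x z : E) (a b : ℕ) : Divisor K E :=
  (a + b) • RR_poleDiv hP x + b • RR_div hP z

theorem S34P_E_apply (hP : HasPrincipalDivisors K E) (x z : E) (a b : ℕ) (v : Place K E) :
    S34P_E hP x z a b v = ((a : ℤ) + b) * max (-v.ord x) 0 + (b : ℤ) * v.ord z := by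
  unfold S34P_E
  rw [Finsupp.add_apply, S18_semi_nsmul_apply, S18_semi_nsmul_apply, RR_poleDiv_apply,
    RR_div_apply]
  push_cast
  ring

theorem S34P_E_degree (hP : HasPrincipalDivisors K E) (x z : E) (a b : ℕ) :
    (S34P_E hP x z a b).degree = ((a : ℤ) + b) * (RR_poleDiv hP x).degree := by
  unfold S34P_E
  rw [map_add, map_nsmul, map_nsmul, RR_div_degree, nsmul_zero, add_zero, nsmul_eq_mul]
  push_cast
  ring

/-- the local shape of `E(a,b)` for `z = x − c`: at a pole of `x` it is `a·(−ord x)`, elsewhere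
`b·ord(x − c)`. -/
theorem S34P_E_apply_sub (hP : HasPrincipalDivisors K E) (x : E) (c : K) (a b : ℕ)
    (v : Place K E) :
    (v.ord x < 0 ∧ S34P_E hP x (x - algebraMap K E c) a b v = (a : ℤ) * (-v.ord x)) ∨
    (0 ≤ v.ord x ∧ 0 ≤ v.ord (x - algebraMap K E c) ∧
      S34P_E hP x (x - algebraMap K E c) a b v = (b : ℤ) * v.ord (x - algebraMap K E c)) := by
  rw [S34P_E_apply]
  rcases lt_or_ge (v.ord x) 0 with h | h
  · left
    refine ⟨h, ?_⟩
    rw [LC_ord_sub_const_of_neg v h c, max_eq_left (by omega)]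
    ring
  · right
    refine ⟨h, LC_ord_sub_const_nonneg v h c, ?_⟩
    rw [max_eq_right (by omega)]
    ring

theorem S34P_E_mono (hP : HasPrincipalDivisors K E) (x : E) (c : K) {a a' b b' : ℕ}
    (ha : a ≤ a') (hb : b ≤ b') :
    S34P_E hP x (x - algebraMap K E c) a b ≤ S34P_E hP x (x - algebraMap K E c) a' b' := by
  rw [Finsupp.le_def]
  intro v
  have ha' : (a : ℤ) ≤ a' := by exact_mod_cast ha
  have hb' : (b : ℤ) ≤ b' := by exact_mod_cast hb
  rcases S34P_E_apply_sub hP x c a b v with ⟨h, e⟩ | ⟨h, h2, e⟩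
  · rcases S34P_E_apply_sub hP x c a' b' v with ⟨_, e'⟩ | ⟨h', _, _⟩
    · rw [e, e']
      exact mul_le_mul_of_nonneg_right ha' (by omega)
    · omega
  · rcases S34P_E_apply_sub hP x c a' b' v with ⟨h', _⟩ | ⟨_, _, e'⟩
    · omega
    · rw [e, e']
      exact mul_le_mul_of_nonneg_right hb' h2

/-- pole conditions intersect: `min(E(a,m₀), E(m₀,b)) ≤ E(m₀,m₀)` pointwise, `a, b ≥ m₀`. -/
theorem S34P_E_min (hP : HasPrincipalDivisors K E) (x : E) (c : K) {a b m₀ : ℕ}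
    (_ha : m₀ ≤ a) (_hb : m₀ ≤ b) (v : Place K E) :
    min (S34P_E hP x (x - algebraMap K E c) a m₀ v) (S34P_E hP x (x - algebraMap K E c) m₀ b v) ≤
      S34P_E hP x (x - algebraMap K E c) m₀ m₀ v := by
  rcases S34P_E_apply_sub hP x c m₀ m₀ v with ⟨h, e⟩ | ⟨h, h2, e⟩
  · rcases S34P_E_apply_sub hP x c m₀ b v with ⟨_, e'⟩ | ⟨h', _, _⟩
    · rw [e, e']
      exact min_le_right _ _
    · omega
  · rcases S34P_E_apply_sub hP x c a m₀ v with ⟨h', _⟩ | ⟨_, _, e'⟩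
    · omega
    · rw [e, e']
      exact min_le_left _ _

/-- `L(E(a,m₀)) ∩ L(E(m₀,b)) ⊂ L(E(m₀,m₀))`. -/
theorem S34P_RR_inter (hP : HasPrincipalDivisors K E) (x : E) (c : K) {a b m₀ : ℕ}
    (ha : m₀ ≤ a) (hb : m₀ ≤ b) :
    riemannRochSpace (S34P_E hP x (x - algebraMap K E c) a m₀) ⊓
        riemannRochSpace (S34P_E hP x (x - algebraMap K E c) m₀ b) ≤
      riemannRochSpace (S34P_E hP x (x - algebraMap K E c) m₀ m₀) := by
  rintro f ⟨h1, h2⟩
  rw [SetLike.mem_coe, mem_riemannRochSpace_iff] at h1 h2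
  rw [mem_riemannRochSpace_iff]
  intro v
  rcases h1 v with h0 | h1'
  · exact Or.inl h0
  rcases h2 v with h0 | h2'
  · exact Or.inl h0
  right
  have := S34P_E_min hP x c ha hb v
  rcases min_le_iff.mp this with h | h <;> omega

end Grid

/-! ### Twisted pole control on the grid -/

variable {L F k Fk₁ Fk₂ : Type*} [Field L] [Field F] [Algebra L F] [Field k]
  [Field Fk₁] [Field Fk₂] [Algebra k Fk₁] [Algebra k Fk₂]
  {S₁ : S18_Val L F k Fk₁} {S₂ : S18_Val L F k Fk₂}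

section Twist

variable {hS : S34P_Same S₁ S₂} {x : S34P_O2 S₁ S₂} (h : S34P_Hyp S₁ S₂ hS x)
  (hP : HasPrincipalDivisors L F) (hP₁ : HasPrincipalDivisors k Fk₁)
  (hP₂ : HasPrincipalDivisors k Fk₂)

/-- from `n·ord f̄ + n b·ord z̄ ≥ −n(a+b)·pd` to `f̄ ∈ L(Ē(a,b))`. -/
theorem S34P_mem_E_of_pow {K E : Type*} [Field K] [Field E] [Algebra K E]
    (hPE : HasPrincipalDivisors K E) {x z f : E} (hz : z ≠ 0) {n : ℕ} (hn : 0 < n) (a b : ℕ)
    (hg : f ^ n * z ^ (b * n) ∈ riemannRochSpace ((n * (a + b)) • RR_poleDiv hPE x)) :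
    f ∈ riemannRochSpace (S34P_E hPE x z a b) := by
  rw [mem_riemannRochSpace_iff] at hg ⊢
  intro Q
  by_cases hf : f = 0
  · exact Or.inl hf
  right
  have hfn : f ^ n ≠ 0 := pow_ne_zero _ hf
  have hzn : z ^ (b * n) ≠ 0 := pow_ne_zero _ hz
  have h1 := (hg Q).resolve_left (mul_ne_zero hfn hzn)
  rw [Q.ord_mul hfn hzn, S18_ord_pow, S18_ord_pow, S18_semi_nsmul_apply, RR_poleDiv_apply] at h1
  rw [S34P_E_apply]
  push_cast at h1
  have hn' : (0 : ℤ) < n := by exact_mod_cast hn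
  have h2 : (n : ℤ) * (-(((a : ℤ) + b) * max (-Q.ord x) 0 + (b : ℤ) * Q.ord z)) ≤
      (n : ℤ) * Q.ord f := by
    have : (n : ℤ) * (-(((a : ℤ) + b) * max (-Q.ord x) 0 + (b : ℤ) * Q.ord z)) =
        -((n : ℤ) * ((a : ℤ) + b) * max (-Q.ord x) 0) - (b : ℤ) * n * Q.ord z := by ring
    rw [this]
    linarith
  exact le_of_mul_le_mul_left h2 hn'

include h

/-- **POLE-1''** (twisted pole control on the grid, NO moving lemma).
`u ∈ O₂` with `red u = 1`, `n·D = div u`, `z ∈ O₂` with nonzero reductions: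
`f ∈ L(E(a,b) + D) ∩ O₂  ⇒  redᵢ f ∈ L(Ēᵢ(a,b))`. -/
theorem S34P_red_mem_twist (z u : S34P_O2 S₁ S₂)
    (hz₁ : (S34P_red S₁ S₂ z).1 ≠ 0) (hz₂ : (S34P_red S₁ S₂ z).2 ≠ 0)
    (hu : S34P_red S₁ S₂ u = 1) {n : ℕ} (hn : 0 < n) (D : Divisor L F)
    (hD : n • D = RR_div hP (u : F)) (a b : ℕ) (f : S34P_O2 S₁ S₂)
    (hf : (f : F) ∈ riemannRochSpace (S34P_E hP (x : F) (z : F) a b + D)) :
    (S34P_red S₁ S₂ f).1 ∈
        riemannRochSpace (S34P_E hP₁ (S34P_red S₁ S₂ x).1 (S34P_red S₁ S₂ z).1 a b) ∧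
    (S34P_red S₁ S₂ f).2 ∈
        riemannRochSpace (S34P_E hP₂ (S34P_red S₁ S₂ x).2 (S34P_red S₁ S₂ z).2 a b) := by
  -- `g = fⁿ u z^{bn} ∈ L(n(a+b)(x)_∞) ∩ O₂`
  set g : S34P_O2 S₁ S₂ := f ^ n * u * z ^ (b * n) with hg
  have hz0 : (z : F) ≠ 0 := by
    intro h0
    apply hz₁
    have : z = 0 := Subtype.ext h0
    rw [this, map_zero]; rfl
  have hu0 : (u : F) ≠ 0 := by
    intro h0
    have : u = 0 := Subtype.ext h0
    rw [this, map_zero] at hu
    exact zero_ne_one hu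
  have hgL : (g : F) ∈ riemannRochSpace ((n * (a + b)) • RR_poleDiv hP (x : F)) := by
    rw [mem_riemannRochSpace_iff] at hf ⊢
    intro P
    by_cases hf0 : (f : F) = 0
    · left
      rw [hg]
      push_cast
      rw [hf0, zero_pow hn.ne', zero_mul, zero_mul]
    right
    have h1 := (hf P).resolve_left hf0
    rw [Finsupp.add_apply, S34P_E_apply] at h1
    have h2 : (n : ℤ) * D P = P.ord (u : F) := by
      have := congrArg (fun E : Divisor L F => E P) hD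
      simp only [S18_semi_nsmul_apply, RR_div_apply] at this
      exact this
    have hfn : (f : F) ^ n ≠ 0 := pow_ne_zero _ hf0
    have hzn : (z : F) ^ (b * n) ≠ 0 := pow_ne_zero _ hz0
    have hord : P.ord (g : F) =
        (n : ℤ) * P.ord (f : F) + P.ord (u : F) + ((b * n : ℕ) : ℤ) * P.ord (z : F) := by
      have : (g : F) = (f : F) ^ n * (u : F) * (z : F) ^ (b * n) := by rw [hg]; push_cast; rfl
      rw [this, P.ord_mul (mul_ne_zero hfn hu0) hzn, P.ord_mul hfn hu0, S18_ord_pow, S18_ord_pow]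
    rw [S18_semi_nsmul_apply, RR_poleDiv_apply, hord, ← h2]
    push_cast
    have hn' : (0 : ℤ) ≤ n := by positivity
    have h3 := mul_le_mul_of_nonneg_left h1 hn'
    nlinarith [h3]
  obtain ⟨r1, r2⟩ := S34P_red_mem h hP hP₁ hP₂ (n * (a + b)) g hgL
  have hred : S34P_red S₁ S₂ g = S34P_red S₁ S₂ f ^ n * S34P_red S₁ S₂ z ^ (b * n) := by
    rw [hg, map_mul, map_mul, map_pow, map_pow, hu, mul_one]
  rw [hred] at r1 r2
  exact ⟨S34P_mem_E_of_pow hP₁ hz₁ hn a b r1, S34P_mem_E_of_pow hP₂ hz₂ hn a b r2⟩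

/-- **POLE-1''**, submodule form:  `W^y(E(a,b)) ⊂ R̄(Ē(a,b))`. -/
theorem S34P_redSub_le_twist (z u : S34P_O2 S₁ S₂)
    (hz₁ : (S34P_red S₁ S₂ z).1 ≠ 0) (hz₂ : (S34P_red S₁ S₂ z).2 ≠ 0)
    (hu : S34P_red S₁ S₂ u = 1) {n : ℕ} (hn : 0 < n) (D : Divisor L F)
    (hD : n • D = RR_div hP (u : F)) (a b : ℕ) :
    S34P_redSub S₁ S₂ hS (riemannRochSpace (S34P_E hP (x : F) (z : F) a b + D)) ≤
      (riemannRochSpace (S34P_E hP₁ (S34P_red S₁ S₂ x).1 (S34P_red S₁ S₂ z).1 a b)).prod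
        (riemannRochSpace (S34P_E hP₂ (S34P_red S₁ S₂ x).2 (S34P_red S₁ S₂ z).2 a b)) := by
  rintro _ ⟨f, hf, rfl⟩
  exact S34P_red_mem_twist h hP hP₁ hP₂ z u hz₁ hz₂ hu hn D hD a b f hf

end Twist

end Fermat.Agent.S34
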