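/-
TRACK 7 "NODE" (S34 + S35), package POLE, part 4 (helper2): INT for a lattice datum.

For helper4's lattice datum `S : S34L_Lat L F k R` (subring `O`, residue RING `R`) with a cartesian chart
`hC : S.IsCart x y`:

* `S34P_transcendental_x`, `S34P_coeff_mem_of_aeval_mem`, `S34P_red_aeval_mem_adjoin`, `S34P_exists_repr`;
* `S34P_Ox`: `O ∩ L(x)` is a VALUATION ring of `L(x)`;
* `S34P_isIntegral_red` (INT): `z ∈ O` integral over `L[x]` ⇒ `red z` integral over `k[red x]`;
* `S34P_isCart_inv`: a cartesian chart for `x` is one for `x⁻¹`;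
* `S34P_isIntegral_adjoin_map`: integrality over `k[r]` is preserved by algebra homomorphisms (projections);
* `S34P_Hyp_of_isCart`: for a PAIR of valuation data, a cartesian chart of `O₁ ∩ O₂` gives all the
  hypotheses `S34P_Hyp` of pole control (`Pole.lean`), if `F / L(x)` is finite separable.

Port of `S18/LiftInt.lean`, `S18/LiftMore.lean` (helper16) from a valuation ring to `O₁ ∩ O₂`.
-/
import Mathlib
import Fermat.Agent.S18.LiftMore
import Fermat.Agent.S18.SemiReg
import Fermat.Agent.S34.Lat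
import Fermat.Agent.S34.Pole3

set_option autoImplicit false

open Polynomial IntermediateField AlgebraicCurve
open scoped IntermediateField.algebraAdjoinAdjoin

namespace Fermat.Agent.S34

open Fermat.Agent.Lib Fermat.Agent.S24 Fermat.Agent.S18

section Lat

variable {L F k R : Type*} [Field L] [Field F] [Algebra L F] [Field k] [CommRing R]
  [Algebra k R]

variable {S : S34L_Lat L F k R}

theorem S34P_coe_ne_zero_of_isUnit {u : S.O} (hu : IsUnit u) : (u : F) ≠ 0 := by
  intro h0
  obtain ⟨v, hv⟩ := hu.exists_left_inv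
  have h1 := congrArg (fun z : S.O => (z : F)) hv
  simp only [Subring.coe_mul, h0, mul_zero, Subring.coe_one] at h1
  exact zero_ne_one h1

/-- `x` is transcendental over `L`. -/
theorem S34P_transcendental_x {x : S.O} {n : ℕ} {y : Fin n → S.O} (hC : S.IsCart x y) :
    Transcendental L (x : F) := by
  rw [transcendental_iff]
  intro d hd
  by_contra hd0
  obtain ⟨c, u, hc0, hu, hcu⟩ := S.exists_const_mul_unit_aeval hC.unit d hd0
  rw [hd] at hcu
  have h1 : algebraMap L F c ≠ 0 := by simpa using hc0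
  exact (mul_ne_zero h1 (S34P_coe_ne_zero_of_isUnit (S.isUnit_of_red u hu))) hcu.symm

/-- a polynomial in `x` that lies in `O` has coefficients in `A`. -/
theorem S34P_coeff_mem_of_aeval_mem {x : S.O} (hx : Transcendental k (S.red x)) (q : L[X])
    (h : aeval (x : F) q ∈ S.O) : ∀ j, q.coeff j ∈ S.A := by
  classical
  set m := q.natDegree + 1 with hm
  have key := S.mem_A_of_sum_mem (fun j : Fin m => x ^ (j : ℕ)) (S.linearIndependent_pow hx m)
    (fun j => q.coeff j) (by
      rw [finsum_eq_sum_of_fintype]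
      have : ∑ j : Fin m, algebraMap L F (q.coeff j) * ((x ^ (j : ℕ) : S.O) : F) =
          aeval (x : F) q := by
        rw [aeval_eq_sum_range, Finset.sum_range]
        refine Finset.sum_congr rfl fun j _ => ?_
        rw [Algebra.smul_def]
        push_cast
        rfl
      rw [this]
      exact h)
  intro j
  by_cases hj : j < m
  · exact key ⟨j, hj⟩
  · rw [coeff_eq_zero_of_natDegree_lt (by omega)]
    exact S.A.zero_mem

/-- the reduction of a polynomial in `x` lying in `O` is a polynomial in `red x`. -/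
theorem S34P_red_aeval_mem_adjoin {x : S.O} (hx : Transcendental k (S.red x)) (q : L[X])
    (h : aeval (x : F) q ∈ S.O) :
    S.red ⟨aeval (x : F) q, h⟩ ∈ Algebra.adjoin k {S.red x} := by
  classical
  have hcoef := S34P_coeff_mem_of_aeval_mem hx q h
  set m := q.natDegree + 1 with hm
  have h1 : (⟨aeval (x : F) q, h⟩ : S.O) =
      ∑ j : Fin m, S.const ⟨q.coeff j, hcoef j⟩ * x ^ (j : ℕ) := by
    apply Subtype.ext
    push_cast
    rw [aeval_eq_sum_range, Finset.sum_range]
    refine Finset.sum_congr rfl fun j _ => ?_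
    rw [Algebra.smul_def, S34L_Lat.coe_const]
  rw [h1, S.red_sum_pow, Algebra.adjoin_singleton_eq_range_aeval]
  exact ⟨_, rfl⟩

/-- every element of `O` is a combination of the `y_i` with coefficients in `O ∩ L(x)`. -/
theorem S34P_exists_repr {x : S.O} {n : ℕ} {y : Fin n → S.O} (hC : S.IsCart x y) (f : S.O) :
    ∃ a : Fin n → F, (∀ i, a i ∈ S.O) ∧ (∀ i, a i ∈ L⟮(x : F)⟯) ∧
      (f : F) = ∑ i, a i * (y i : F) := by
  classical
  obtain ⟨d, p, hd0, hdp⟩ := hC.span (f : F)
  obtain ⟨c, u, hc0, hu, hcu⟩ := S.exists_const_mul_unit_aeval hC.unit d hd0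
  have huU : IsUnit u := S.isUnit_of_red u hu
  have huF : (u : F) ≠ 0 := S34P_coe_ne_zero_of_isUnit huU
  have hcF : algebraMap L F c ≠ 0 := by simpa using hc0
  have hdF : aeval (x : F) d ≠ 0 := by rw [hcu]; exact mul_ne_zero hcF huF
  -- the coefficients of `p i / c` are integral
  set m : ℕ := (Finset.univ.sup fun i => (p i).natDegree) + 1 with hm
  have hpm : ∀ i, (p i).natDegree < m := fun i => by
    rw [hm, Nat.lt_succ_iff]
    exact Finset.le_sup (f := fun i => (p i).natDegree) (Finset.mem_univ i)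
  have key := S.mem_A_of_sum_mem (S34L_Lat.cartFam x y m) (hC.linearIndependent_cartFam m)
    (fun ij => (p ij.1).coeff ij.2 / c) (by
      rw [finsum_eq_sum_of_fintype]
      have : ∑ ij : Fin n × Fin m, algebraMap L F ((p ij.1).coeff ij.2 / c) *
          ((S34L_Lat.cartFam x y m ij : S.O) : F) = ((u * f : S.O) : F) := by
        rw [Fintype.sum_prod_type]
        have h2 : ∀ i, ∑ j : Fin m, algebraMap L F ((p i).coeff j / c) *
            ((S34L_Lat.cartFam x y m (i, j) : S.O) : F) =
            (algebraMap L F c)⁻¹ * (aeval (x : F) (p i) * (y i : F)) := by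
          intro i
          rw [aeval_eq_sum_range' (hpm i), Finset.sum_range, Finset.sum_mul, Finset.mul_sum]
          refine Finset.sum_congr rfl fun j _ => ?_
          simp only [S34L_Lat.cartFam, Algebra.smul_def, map_div₀]
          push_cast
          field_simp
        rw [Finset.sum_congr rfl fun i _ => h2 i, ← Finset.mul_sum, ← hdp, hcu]
        push_cast
        field_simp
      rw [this]
      exact (u * f).2)
  have hcoefA : ∀ i, ∀ j, ((C c⁻¹ * p i).coeff j) ∈ S.A := by
    intro i j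
    rw [coeff_C_mul]
    by_cases hj : j < m
    · have := key (i, ⟨j, hj⟩)
      simpa [div_eq_inv_mul] using this
    · rw [coeff_eq_zero_of_natDegree_lt (lt_of_lt_of_le (hpm i) (not_lt.mp hj)), mul_zero]
      exact S.A.zero_mem
  have hpO : ∀ i, aeval (x : F) (C c⁻¹ * p i) ∈ S.O := by
    intro i
    rw [aeval_eq_sum_range]
    refine S.O.sum_mem fun j _ => ?_
    rw [Algebra.smul_def]
    exact S.O.mul_mem (S.algebraMap_mem _ (hcoefA i j)) (S.O.pow_mem x.2 _)
  obtain ⟨uu, rfl⟩ := huU
  refine ⟨fun i => aeval (x : F) (p i) / aeval (x : F) d, fun i => ?_, fun i => ?_, ?_⟩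
  · -- `= (p i / c)(x) * u⁻¹`
    have : aeval (x : F) (p i) / aeval (x : F) d =
        aeval (x : F) (C c⁻¹ * p i) * (((uu⁻¹ : S.Oˣ) : S.O) : F) := by
      have hinv : (((uu⁻¹ : S.Oˣ) : S.O) : F) = ((uu : S.O) : F)⁻¹ := by
        have h := congrArg (fun z : S.O => (z : F)) uu.inv_mul
        have h' : (((uu⁻¹ : S.Oˣ) : S.O) : F) * ((uu : S.O) : F) = 1 := h
        exact eq_inv_of_mul_eq_one_left h'
      rw [hinv, hcu, map_mul, aeval_C, map_inv₀]
      field_simp
    show aeval (x : F) (p i) / aeval (x : F) d ∈ S.O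
    rw [this]
    exact S.O.mul_mem (hpO i) ((uu⁻¹ : S.Oˣ) : S.O).2
  · have h1 : ∀ q : L[X], aeval (x : F) q ∈ L⟮(x : F)⟯ := by
      intro q
      have : aeval (x : F) q ∈ Algebra.adjoin L {(x : F)} := by
        rw [Algebra.adjoin_singleton_eq_range_aeval]
        exact ⟨q, rfl⟩
      exact algebra_adjoin_le_adjoin L _ this
    exact div_mem (h1 _) (h1 _)
  · have : ∑ i, aeval (x : F) (p i) / aeval (x : F) d * (y i : F) =
        (aeval (x : F) d)⁻¹ * ∑ i, aeval (x : F) (p i) * (y i : F) := by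
      rw [Finset.mul_sum]
      refine Finset.sum_congr rfl fun i _ => ?_
      field_simp
    rw [this, ← hdp, ← mul_assoc, inv_mul_cancel₀ hdF, one_mul]

/-- `O ∩ L(x)` is a valuation ring of `L(x)` (the Gauss ring), if all nonzero polynomials in `red x`
are units. -/
theorem S34P_mem_or_inv_mem (S : S34L_Lat L F k R) (x : S.O)
    (hx : ∀ p : k[X], p ≠ 0 → IsUnit (aeval (S.red x) p)) (a : F) (ha : a ∈ L⟮(x : F)⟯) :
    a ∈ S.O ∨ a⁻¹ ∈ S.O := by
  classical
  obtain ⟨P, Q, hPQ⟩ := (mem_adjoin_simple_iff L a).mp ha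
  by_cases hP : P = 0
  · left
    rw [hPQ, hP, map_zero, zero_div]
    exact S.O.zero_mem
  by_cases hQ : Q = 0
  · left
    rw [hPQ, hQ, map_zero, div_zero]
    exact S.O.zero_mem
  obtain ⟨c₁, u₁, hc₁, hu₁, h₁⟩ := S.exists_const_mul_unit_aeval hx P hP
  obtain ⟨c₂, u₂, hc₂, hu₂, h₂⟩ := S.exists_const_mul_unit_aeval hx Q hQ
  obtain ⟨v₁, hv₁⟩ := S.exists_mul_eq_one u₁ hu₁
  obtain ⟨v₂, hv₂⟩ := S.exists_mul_eq_one u₂ hu₂
  have hu₁0 : (u₁ : F) ≠ 0 := left_ne_zero_of_mul_eq_one hv₁
  have hu₂0 : (u₂ : F) ≠ 0 := left_ne_zero_of_mul_eq_one hv₂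
  have hv₁' : (v₁ : F) = (u₁ : F)⁻¹ := eq_inv_of_mul_eq_one_right hv₁
  have hv₂' : (v₂ : F) = (u₂ : F)⁻¹ := eq_inv_of_mul_eq_one_right hv₂
  have hc₁F : algebraMap L F c₁ ≠ 0 := by simpa using hc₁
  have hc₂F : algebraMap L F c₂ ≠ 0 := by simpa using hc₂
  rcases S.A.mem_or_inv_mem (c₁ / c₂) with h | h
  · left
    have : a = algebraMap L F (c₁ / c₂) * ((u₁ : F) * (v₂ : F)) := by
      rw [hPQ, h₁, h₂, hv₂', map_div₀]
      field_simp
    rw [this]
    exact S.O.mul_mem (S.algebraMap_mem _ h) (S.O.mul_mem u₁.2 v₂.2)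
  · right
    have : a⁻¹ = algebraMap L F (c₁ / c₂)⁻¹ * ((u₂ : F) * (v₁ : F)) := by
      rw [hPQ, h₁, h₂, hv₁', map_inv₀, map_div₀]
      field_simp
    rw [this]
    exact S.O.mul_mem (S.algebraMap_mem _ h) (S.O.mul_mem u₂.2 v₁.2)

/-- the Gauss ring `O ∩ L(x)` as a valuation subring of `L(x)`. -/
def S34P_Ox (S : S34L_Lat L F k R) (x : S.O)
    (hx : ∀ p : k[X], p ≠ 0 → IsUnit (aeval (S.red x) p)) : ValuationSubring L⟮(x : F)⟯ where
  toSubring := S.O.comap (algebraMap L⟮(x : F)⟯ F)
  mem_or_inv_mem' := by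
    intro a
    rcases S34P_mem_or_inv_mem S x hx (a : F) a.2 with h | h
    · exact Or.inl h
    · right
      show algebraMap L⟮(x : F)⟯ F a⁻¹ ∈ S.O
      rw [map_inv₀]
      exact h

theorem S34P_mem_Ox (S : S34L_Lat L F k R) (x : S.O)
    (hx : ∀ p : k[X], p ≠ 0 → IsUnit (aeval (S.red x) p)) (a : L⟮(x : F)⟯) :
    a ∈ S34P_Ox S x hx ↔ (a : F) ∈ S.O := Iff.rfl

/-- **INT** for a lattice datum: integrality over `L[x]` is preserved by reduction. -/
theorem S34P_isIntegral_red [Nontrivial R] {x : S.O} {n : ℕ} {y : Fin n → S.O}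
    (hC : S.IsCart x y) (z : S.O) (hz : IsIntegral (Algebra.adjoin L {(x : F)}) (z : F)) :
    IsIntegral (Algebra.adjoin k {S.red x}) (S.red z) := by
  classical
  have hxt := S34P_transcendental_x hC
  let K' := L⟮(x : F)⟯
  let Ox : ValuationSubring K' := S34P_Ox S x hC.unit
  let _ : Algebra Ox F := ((algebraMap K' F).comp Ox.subtype).toAlgebra
  have hST : IsScalarTower Ox K' F := IsScalarTower.of_algebraMap_eq (fun _ => rfl)
  have hOxmem : ∀ a : Ox, ((a : K') : F) ∈ S.O := fun a => a.2
  -- `z` is integral over `O_x`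
  have hz2 : IsIntegral Ox (z : F) := by
    let N : Submodule Ox F := Submodule.span Ox (Set.range fun i => (y i : F))
    have hNO : ∀ f ∈ N, f ∈ S.O := by
      intro f hf
      induction hf using Submodule.span_induction with
      | mem g hg =>
        obtain ⟨i, rfl⟩ := hg
        exact (y i).2
      | zero => exact S.O.zero_mem
      | add g h _ _ hg hh => exact S.O.add_mem hg hh
      | smul a g _ hg =>
        have : a • g = ((a : K') : F) * g := rfl
        rw [this]
        exact S.O.mul_mem (hOxmem a) hg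
    have hON : ∀ f : S.O, (f : F) ∈ N := by
      intro f
      obtain ⟨a, haO, haK, hf⟩ := S34P_exists_repr hC f
      rw [hf]
      refine Submodule.sum_mem _ fun i _ => ?_
      have : a i * (y i : F) = (⟨⟨a i, haK i⟩, haO i⟩ : Ox) • (y i : F) := rfl
      rw [this]
      exact Submodule.smul_mem _ _ (Submodule.subset_span ⟨i, rfl⟩)
    refine isIntegral_of_smul_mem_submodule N ?_ (Submodule.fg_span (Set.finite_range _))
      (z : F) ?_
    · intro hbot
      have h1 : (1 : F) ∈ N := by simpa using hON 1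
      rw [hbot, Submodule.mem_bot] at h1
      exact one_ne_zero h1
    · intro f hf
      have : (z : F) • f = ((z * ⟨f, hNO f hf⟩ : S.O) : F) := rfl
      rw [this]
      exact hON _
  have := S18_Val.isIntegrallyClosed_adjoin hxt
  have e1 := minpoly.isIntegrallyClosed_eq_field_fractions' K' hz
  have e2 := minpoly.isIntegrallyClosed_eq_field_fractions' K' hz2
  -- the ring hom `O_x → O → R`
  let ι : Ox →+* S.O :=
    { toFun := fun a => ⟨((a : K') : F), hOxmem a⟩
      map_one' := rfl
      map_mul' := fun _ _ => rfl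
      map_zero' := rfl
      map_add' := fun _ _ => rfl }
  let ρ : Ox →+* R := S.red.comp ι
  set P₂ := minpoly Ox (z : F) with hP₂
  have hP₂m : P₂.Monic := minpoly.monic hz2
  have hroot : eval₂ ρ (S.red z) P₂ = 0 := by
    have h1 : eval₂ ι z P₂ = 0 := by
      apply Subtype.ext
      have h2 := Polynomial.hom_eval₂ P₂ ι S.O.subtype z
      have h3 : (S.O.subtype).comp ι = algebraMap Ox F := rfl
      rw [h3] at h2
      have h4 : eval₂ (algebraMap Ox F) (z : F) P₂ = 0 := minpoly.aeval Ox (z : F)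
      have h5 : (S.O.subtype) z = (z : F) := rfl
      rw [h5, h4] at h2
      exact h2
    have h2 := Polynomial.hom_eval₂ P₂ ι S.red z
    rw [h1, map_zero] at h2
    exact h2.symm
  -- coefficients
  have hcoef : ∀ t, ρ (P₂.coeff t) ∈ Algebra.adjoin k {S.red x} := by
    intro t
    have h1 : (algebraMap Ox K' (P₂.coeff t) : K') =
        algebraMap (Algebra.adjoin L {(x : F)}) K'
          ((minpoly (Algebra.adjoin L {(x : F)}) (z : F)).coeff t) := by
      have := congrArg (fun p => p.coeff t) (e2.symm.trans e1)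
      simpa [coeff_map] using this
    have h2 : (((P₂.coeff t : Ox) : K') : F) ∈ Algebra.adjoin L {(x : F)} := by
      have h3 : (algebraMap Ox K' (P₂.coeff t) : K') = ((P₂.coeff t : Ox) : K') := rfl
      rw [← h3, h1]
      exact ((minpoly (Algebra.adjoin L {(x : F)}) (z : F)).coeff t).2
    rw [Algebra.adjoin_singleton_eq_range_aeval] at h2
    obtain ⟨q, hq⟩ := h2
    have hqO : aeval (x : F) q ∈ S.O := by
      have : aeval (x : F) q = (((P₂.coeff t : Ox) : K') : F) := hq
      rw [this]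
      exact hOxmem _
    have h4 := S34P_red_aeval_mem_adjoin hC.transc q hqO
    have h5 : ρ (P₂.coeff t) = S.red ⟨aeval (x : F) q, hqO⟩ := by
      change S.red (ι (P₂.coeff t)) = _
      congr 1
      apply Subtype.ext
      exact hq.symm
    rw [h5]
    exact h4
  -- lift the reduced polynomial to `k[red x]`
  have hmonic : (P₂.map ρ).Monic := hP₂m.map ρ
  have hlifts : P₂.map ρ ∈ Polynomial.lifts (algebraMap (Algebra.adjoin k {S.red x}) R) :=
    (Polynomial.lifts_iff_coeff_lifts _).mpr fun t => by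
      rw [coeff_map]
      exact ⟨⟨ρ (P₂.coeff t), hcoef t⟩, rfl⟩
  obtain ⟨q', hq'q, -, hq'monic⟩ := Polynomial.lifts_and_natDegree_eq_and_monic hlifts hmonic
  refine ⟨q', hq'monic, ?_⟩
  rw [Polynomial.eval₂_eq_eval_map, hq'q, Polynomial.eval_map]
  exact hroot

/-- integrality over `k[r]` is preserved by algebra homomorphisms. -/
theorem S34P_isIntegral_adjoin_map {R' : Type*} [CommRing R'] [Algebra k R'] (φ : R →ₐ[k] R')
    (r z : R) (h : IsIntegral (Algebra.adjoin k {r}) z) :
    IsIntegral (Algebra.adjoin k {φ r}) (φ z) := by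
  classical
  obtain ⟨q, hqm, hq⟩ := h
  have hmap : ∀ b : Algebra.adjoin k {r}, φ (b : R) ∈ Algebra.adjoin k {φ r} := by
    intro b
    have h1 : φ (b : R) ∈ (Algebra.adjoin k {r}).map φ := ⟨b, b.2, rfl⟩
    rw [AlgHom.map_adjoin, Set.image_singleton] at h1
    exact h1
  let ψ : Algebra.adjoin k {r} →+* Algebra.adjoin k {φ r} :=
    { toFun := fun b => ⟨φ (b : R), hmap b⟩
      map_one' := Subtype.ext (by simp)
      map_mul' := fun a b => Subtype.ext (by simp)
      map_zero' := Subtype.ext (by simp)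
      map_add' := fun a b => Subtype.ext (by simp) }
  refine ⟨q.map ψ, hqm.map ψ, ?_⟩
  rw [Polynomial.eval₂_map]
  have h2 := Polynomial.hom_eval₂ q (algebraMap (Algebra.adjoin k {r}) R) (φ : R →+* R') z
  rw [hq, map_zero] at h2
  rw [h2]
  rfl

/-- **cartesian chart for `x⁻¹`**. -/
theorem S34P_isCart_inv {x : S.O} {n : ℕ} {y : Fin n → S.O} (hC : S.IsCart x y) (x' : S.O)
    (hx' : x' * x = 1) : S.IsCart x' y := by
  classical
  have h1 : (x' : F) * (x : F) = 1 := by
    have := congrArg (fun z : S.O => (z : F)) hx'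
    simpa using this
  have h1k : S.red x' * S.red x = 1 := by rw [← map_mul, hx', map_one]
  have keyk : ∀ (M : ℕ) (q : k[X]), q.natDegree ≤ M →
      aeval (S.red x) (reflect M q) = (S.red x) ^ M * aeval (S.red x') q := by
    intro M q hq
    let _ : Invertible (S.red x') := ⟨S.red x, by rw [mul_comm]; exact h1k, h1k⟩
    have hinv : ⅟(S.red x') = S.red x := rfl
    have h2 := eval₂_reflect_mul_pow (algebraMap k R) (S.red x') M q hq
    rw [hinv] at h2
    rw [aeval_def, aeval_def, ← h2, mul_comm, mul_assoc, ← mul_pow, h1k, one_pow, mul_one]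
  refine ⟨?_, ?_, ?_⟩
  · -- units
    intro p hp
    have h2 : IsUnit (aeval (S.red x) (reflect p.natDegree p)) :=
      hC.unit _ (by rwa [Ne, reflect_eq_zero_iff])
    rw [keyk p.natDegree p le_rfl] at h2
    exact isUnit_of_mul_isUnit_right h2
  · intro f
    obtain ⟨d, p, hd0, hdp⟩ := hC.span f
    set M : ℕ := max d.natDegree (Finset.univ.sup fun i => (p i).natDegree) with hM
    have hdM : d.natDegree ≤ M := le_max_left _ _
    have hpM : ∀ i, (p i).natDegree ≤ M := fun i =>
      (Finset.le_sup (f := fun i => (p i).natDegree) (Finset.mem_univ i)).trans (le_max_right _ _)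
    let _ : Invertible (x : F) := ⟨(x' : F), h1, by rw [mul_comm]; exact h1⟩
    have hinv : ⅟(x : F) = (x' : F) := rfl
    have key : ∀ q : L[X], q.natDegree ≤ M →
        aeval (x' : F) (reflect M q) = (x' : F) ^ M * aeval (x : F) q := by
      intro q hq
      have h2 := eval₂_reflect_mul_pow (algebraMap L F) (x : F) M q hq
      rw [hinv] at h2
      rw [aeval_def, aeval_def, ← h2, mul_comm, mul_assoc, ← mul_pow, mul_comm (x : F), h1,
        one_pow, mul_one]
    refine ⟨reflect M d, fun i => reflect M (p i), ?_, ?_⟩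
    · rwa [Ne, reflect_eq_zero_iff]
    · rw [key d hdM, mul_assoc, hdp, Finset.mul_sum]
      refine Finset.sum_congr rfl fun i _ => ?_
      rw [key (p i) (hpM i), mul_assoc]
  · intro p hp
    set M : ℕ := Finset.univ.sup fun i => (p i).natDegree with hM
    have hpM : ∀ i, (p i).natDegree ≤ M := fun i =>
      Finset.le_sup (f := fun i => (p i).natDegree) (Finset.mem_univ i)
    have h3 : ∑ i, aeval (S.red x) (reflect M (p i)) * S.red (y i) = 0 := by
      have : ∑ i, aeval (S.red x) (reflect M (p i)) * S.red (y i) =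
          (S.red x) ^ M * ∑ i, aeval (S.red x') (p i) * S.red (y i) := by
        rw [Finset.mul_sum]
        refine Finset.sum_congr rfl fun i _ => ?_
        rw [keyk M (p i) (hpM i), mul_assoc]
      rw [this, hp, mul_zero]
    intro i
    have := hC.indep _ h3 i
    rwa [reflect_eq_zero_iff] at this

end Lat

/-! ### The pair: a cartesian chart of `O₁ ∩ O₂` gives the hypotheses of pole control -/

section Pair

variable {L F k Fk₁ Fk₂ : Type*} [Field L] [Field F] [Algebra L F] [Field k]
  [Field Fk₁] [Field Fk₂] [Algebra k Fk₁] [Algebra k Fk₂]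

variable {S₁ : S18_Val L F k Fk₁} {S₂ : S18_Val L F k Fk₂}

/-- **INT2**: for a cartesian chart of `O₁ ∩ O₂`, integrality over `L[x]` is preserved by both
reductions. -/
theorem S34P_int2 (hS : S34P_Same S₁ S₂) {x : (S34P_lat hS).O} {n : ℕ}
    {y : Fin n → (S34P_lat hS).O} (hC : (S34P_lat hS).IsCart x y) (z : (S34P_lat hS).O)
    (hz : IsIntegral (Algebra.adjoin L ({(x : F)} : Set F)) (z : F)) :
    IsIntegral (Algebra.adjoin k ({((S34P_lat hS).red x).1} : Set Fk₁)) ((S34P_lat hS).red z).1 ∧
    IsIntegral (Algebra.adjoin k ({((S34P_lat hS).red x).2} : Set Fk₂)) ((S34P_lat hS).red z).2 := by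
  have h : IsIntegral (Algebra.adjoin k ({(S34P_lat hS).red x} : Set (Fk₁ × Fk₂)))
      ((S34P_lat hS).red z) := S34P_isIntegral_red hC z hz
  generalize (S34P_lat hS).red x = r at h ⊢
  generalize (S34P_lat hS).red z = w at h ⊢
  exact ⟨S34P_isIntegral_adjoin_map (AlgHom.fst k Fk₁ Fk₂) r w h,
    S34P_isIntegral_adjoin_map (AlgHom.snd k Fk₁ Fk₂) r w h⟩

/-- **all hypotheses of pole control from a cartesian chart** (and `F / L(x)` finite separable). -/
theorem S34P_Hyp_of_isCart (hS : S34P_Same S₁ S₂) (x : (S34P_lat hS).O) {n : ℕ}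
    (y : Fin n → (S34P_lat hS).O) (hC : (S34P_lat hS).IsCart x y)
    [FiniteDimensional L⟮(x : F)⟯ F] [Algebra.IsSeparable L⟮(x : F)⟯ F] :
    S34P_Hyp S₁ S₂ hS x := by
  classical
  have hxt : Transcendental L (x : F) := S34P_transcendental_x hC
  have hu : IsUnit ((S34P_lat hS).red x) := by
    have := hC.unit X X_ne_zero
    rwa [aeval_X] at this
  have hu' := hu
  rw [Prod.isUnit_iff] at hu'
  have hne₁ : ((S34P_lat hS).red x).1 ≠ 0 := hu'.1.ne_zero
  have hne₂ : ((S34P_lat hS).red x).2 ≠ 0 := hu'.2.ne_zero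
  -- the inverse of `x` in `O₁ ∩ O₂`
  obtain ⟨uu, huu⟩ := (S34P_lat hS).isUnit_of_red x hu
  set x' : (S34P_lat hS).O := ((uu⁻¹ : ((S34P_lat hS).O)ˣ) : (S34P_lat hS).O) with hx'
  have hx'x : x' * x = 1 := by rw [← huu]; exact uu.inv_mul
  have hx'F : (x' : F) = (x : F)⁻¹ := by
    have h := congrArg (fun z : (S34P_lat hS).O => (z : F)) hx'x
    have h' : (x' : F) * (x : F) = 1 := h
    exact eq_inv_of_mul_eq_one_left h'
  have hx'red : (S34P_lat hS).red x' * (S34P_lat hS).red x = 1 := by
    rw [← map_mul, hx'x, map_one]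
  have hx'red₁ : ((S34P_lat hS).red x').1 = (((S34P_lat hS).red x).1)⁻¹ := by
    have h := congrArg Prod.fst hx'red
    exact eq_inv_of_mul_eq_one_left h
  have hx'red₂ : ((S34P_lat hS).red x').2 = (((S34P_lat hS).red x).2)⁻¹ := by
    have h := congrArg Prod.snd hx'red
    exact eq_inv_of_mul_eq_one_left h
  have hC' := S34P_isCart_inv hC x' hx'x
  refine ⟨hne₁, hne₂, fun z hz => S34P_int2 hS hC z hz, fun z hz => ?_, ?_, ?_, ?_⟩
  · have h := S34P_int2 hS hC' z (by rw [hx'F]; exact hz)
    rw [hx'red₁, hx'red₂] at h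
    exact h
  · exact fun f hf => S18_semi_isIntegral_of_regular hxt f hf
  · exact fun f hf => S18_semi_isIntegral_of_regular_inv hxt f hf
  · intro V hV
    have := hC.finrank_redSub V
    rw [S34P_lat_redSub] at this
    exact this.ge

/-- **the count** for the pair (input `hcount` of `S34P_finrank_grid`, `S34P_codim`). -/
theorem S34P_count_of_isCart (hS : S34P_Same S₁ S₂) {x : (S34P_lat hS).O} {n : ℕ}
    {y : Fin n → (S34P_lat hS).O} (hC : (S34P_lat hS).IsCart x y) :
    ∀ V : Submodule L F, FiniteDimensional L V →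
      Module.finrank k ((S34P_lat hS).redSub V) = Module.finrank L V :=
  fun V _ => hC.finrank_redSub V

end Pair

end Fermat.Agent.S34
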