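/-
TRACK 7 "NODE" (S34 + S35), package POLE, part 7 (helper2): the pole conditions of the grid intersect,
general form:  `L(E(a,b)) ∩ L(E(a',b')) ⊂ L(E(min a a', min b b'))`  for `z = x − c`
(the input `hG` of INJ / `hsat` of TORS on the fibre side).
-/
import Mathlib
import Fermat.Agent.S34.Pole3

set_option autoImplicit false

open AlgebraicCurve

namespace Fermat.Agent.S34

open Fermat.Agent.Lib Fermat.Agent.S24 Fermat.Agent.S18

section Grid

variable {K E : Type*} [Field K] [Field E] [Algebra K E]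

/-- pointwise: `min(E(a,b), E(a',b')) ≤ E(min a a', min b b')`. -/
theorem S34P_E_min_gen (hP : HasPrincipalDivisors K E) (x : E) (c : K) (a b a' b' : ℕ)
    (v : Place K E) :
    min (S34P_E hP x (x - algebraMap K E c) a b v) (S34P_E hP x (x - algebraMap K E c) a' b' v) ≤
      S34P_E hP x (x - algebraMap K E c) (min a a') (min b b') v := by
  rcases S34P_E_apply_sub hP x c (min a a') (min b b') v with ⟨h, e⟩ | ⟨h, h2, e⟩
  · rcases S34P_E_apply_sub hP x c a b v with ⟨_, e₁⟩ | ⟨h', _, _⟩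
    · rcases S34P_E_apply_sub hP x c a' b' v with ⟨_, e₂⟩ | ⟨h', _, _⟩
      · rw [e, e₁, e₂]
        have hx : (0 : ℤ) ≤ -v.ord x := by omega
        rcases le_total a a' with haa | haa
        · rw [min_eq_left haa]
          exact min_le_left _ _
        · rw [min_eq_right haa]
          exact min_le_right _ _
      · omega
    · omega
  · rcases S34P_E_apply_sub hP x c a b v with ⟨h', _⟩ | ⟨_, _, e₁⟩
    · omega
    · rcases S34P_E_apply_sub hP x c a' b' v with ⟨h', _⟩ | ⟨_, _, e₂⟩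
      · omega
      · rw [e, e₁, e₂]
        rcases le_total b b' with hbb | hbb
        · rw [min_eq_left hbb]
          exact min_le_left _ _
        · rw [min_eq_right hbb]
          exact min_le_right _ _

/-- `L(E(a,b)) ∩ L(E(a',b')) ⊂ L(E(min a a', min b b'))`. -/
theorem S34P_RR_inter_gen (hP : HasPrincipalDivisors K E) (x : E) (c : K) (a b a' b' : ℕ) :
    riemannRochSpace (S34P_E hP x (x - algebraMap K E c) a b) ⊓
        riemannRochSpace (S34P_E hP x (x - algebraMap K E c) a' b') ≤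
      riemannRochSpace (S34P_E hP x (x - algebraMap K E c) (min a a') (min b b')) := by
  rintro f ⟨h1, h2⟩
  rw [SetLike.mem_coe, mem_riemannRochSpace_iff] at h1 h2
  rw [mem_riemannRochSpace_iff]
  intro v
  rcases h1 v with h0 | h1'
  · exact Or.inl h0
  rcases h2 v with h0 | h2'
  · exact Or.inl h0
  right
  have := S34P_E_min_gen hP x c a b a' b' v
  rcases min_le_iff.mp this with h | h <;> omega

/-- the same with a twist `D`: `L(E(a,b) + D) ∩ L(E(a',b') + D) ⊂ L(E(min a a', min b b') + D)`. -/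
theorem S34P_RR_inter_twist (hP : HasPrincipalDivisors K E) (x : E) (c : K) (D : Divisor K E)
    (a b a' b' : ℕ) :
    riemannRochSpace (S34P_E hP x (x - algebraMap K E c) a b + D) ⊓
        riemannRochSpace (S34P_E hP x (x - algebraMap K E c) a' b' + D) ≤
      riemannRochSpace (S34P_E hP x (x - algebraMap K E c) (min a a') (min b b') + D) := by
  rintro f ⟨h1, h2⟩
  rw [SetLike.mem_coe, mem_riemannRochSpace_iff] at h1 h2
  rw [mem_riemannRochSpace_iff]
  intro v
  rcases h1 v with h0 | h1'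
  · exact Or.inl h0
  rcases h2 v with h0 | h2'
  · exact Or.inl h0
  right
  rw [Finsupp.add_apply] at h1' h2' ⊢
  have := S34P_E_min_gen hP x c a b a' b' v
  rcases min_le_iff.mp this with h | h <;> omega

end Grid

variable {k Fk₁ Fk₂ : Type*} [Field k] [Field Fk₁] [Field Fk₂] [Algebra k Fk₁] [Algebra k Fk₂]

/-- the fibre levels intersect: `R̄(a,b) ∩ R̄(a',b') ⊂ R̄(min a a', min b b')`. -/
theorem S34P_Rbar_inter_gen (hP₁ : HasPrincipalDivisors k Fk₁) (hP₂ : HasPrincipalDivisors k Fk₂)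
    (x₁ : Fk₁) (x₂ : Fk₂) (c : k) (a b a' b' : ℕ) :
    S34P_Rbar hP₁ hP₂ x₁ (x₁ - algebraMap k Fk₁ c) x₂ (x₂ - algebraMap k Fk₂ c) a b ⊓
        S34P_Rbar hP₁ hP₂ x₁ (x₁ - algebraMap k Fk₁ c) x₂ (x₂ - algebraMap k Fk₂ c) a' b' ≤
      S34P_Rbar hP₁ hP₂ x₁ (x₁ - algebraMap k Fk₁ c) x₂ (x₂ - algebraMap k Fk₂ c)
        (min a a') (min b b') := by
  rintro ⟨w₁, w₂⟩ ⟨h1, h2⟩
  exact ⟨S34P_RR_inter_gen hP₁ x₁ c a b a' b' ⟨h1.1, h2.1⟩,
    S34P_RR_inter_gen hP₂ x₂ c a b a' b' ⟨h1.2, h2.2⟩⟩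

/-- the fibre levels are monotone (general form, any `c`). -/
theorem S34P_Rbar_mono_gen (hP₁ : HasPrincipalDivisors k Fk₁) (hP₂ : HasPrincipalDivisors k Fk₂)
    (x₁ : Fk₁) (x₂ : Fk₂) (c : k) {a a' b b' : ℕ} (ha : a ≤ a') (hb : b ≤ b') :
    S34P_Rbar hP₁ hP₂ x₁ (x₁ - algebraMap k Fk₁ c) x₂ (x₂ - algebraMap k Fk₂ c) a b ≤
      S34P_Rbar hP₁ hP₂ x₁ (x₁ - algebraMap k Fk₁ c) x₂ (x₂ - algebraMap k Fk₂ c) a' b' :=
  S34P_Rbar_mono hP₁ hP₂ x₁ x₂ c ha hb

end Fermat.Agent.S34
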