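import Fermat.Agent.S34.RedOne

/-!
# TRACK 7 (S34 + S35), package RED1 (helper19), Kummer-generator form

Same content as `S34R_main`, on the level of functions (no divisor classes): for every `u ≠ 0`
there are a constant `c ≠ 0` and a function `h ≠ 0` such that
`(g • u) · u⁻¹ · c · hⁿ ≡ 1` at `O₁` and at `O₂`.
-/

set_option autoImplicit false

open AlgebraicCurve

namespace Fermat.Agent.S34

variable {K F : Type*} [Field K] [Field F] [Algebra K F]

/-- **RED1, Kummer-generator form.** -/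
theorem S34R_kummer
    (O₁ O₂ : ValuationSubring F) (A : ValuationSubring K) (n : ℕ) (hn : 0 < n)
    (g : SemilinearAut K F)
    (hA₁ : ∀ a : K, algebraMap K F a ∈ O₁ ↔ a ∈ A)
    (hA₂ : ∀ a : K, algebraMap K F a ∈ O₂ ↔ a ∈ A)
    (hc₁ : ∀ f : F, f ≠ 0 → ∃ c : K, c ≠ 0 ∧ O₁.valuation (f * (algebraMap K F c)⁻¹) = 1)
    (hc₂ : ∀ f : F, f ≠ 0 → ∃ c : K, c ≠ 0 ∧ O₂.valuation (f * (algebraMap K F c)⁻¹) = 1)
    (hg₁ : ∀ f ∈ O₁, O₁.valuation (g • f - f) < 1)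
    (hg₂ : ∀ f ∈ O₂, O₂.valuation (g • f - f) < 1)
    (hgv : ∀ c : K, c ≠ 0 → A.valuation (SemilinearAut.baseAut g c * c⁻¹) = 1)
    (happ : ∃ e : F, O₁.valuation (e - 1) < 1 ∧ O₂.valuation e < 1)
    (hroot : ∀ a : K, ∃ b : K, b ^ n = a)
    (u : F) (hu0 : u ≠ 0) :
    ∃ (c : K) (h : F), c ≠ 0 ∧ h ≠ 0 ∧
      O₁.valuation (g • u * u⁻¹ * algebraMap K F c * h ^ n - 1) < 1 ∧
      O₂.valuation (g • u * u⁻¹ * algebraMap K F c * h ^ n - 1) < 1 := by
  -- normalise at `O₁`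
  obtain ⟨c₁, hc₁0, hv₁⟩ := hc₁ u hu0
  set u₁ : F := u * (algebraMap K F c₁)⁻¹ with hu₁
  have hc₁' : algebraMap K F c₁ ≠ 0 := by
    rw [Ne, map_eq_zero_iff _ (algebraMap K F).injective]; exact hc₁0
  have hu₁0 : u₁ ≠ 0 := mul_ne_zero hu0 (inv_ne_zero hc₁')
  have hσc₁ : SemilinearAut.baseAut g c₁ ≠ 0 := by
    rw [Ne, map_eq_zero_iff _ (SemilinearAut.baseAut g).injective]; exact hc₁0
  have hσc₁' : algebraMap K F (SemilinearAut.baseAut g c₁) ≠ 0 := by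
    rw [Ne, map_eq_zero_iff _ (algebraMap K F).injective]; exact hσc₁
  -- normalise at `O₂`
  obtain ⟨c₂, hc₂0, hv₂⟩ := hc₂ u₁ hu₁0
  set u₂ : F := u₁ * (algebraMap K F c₂)⁻¹ with hu₂
  have hc₂' : algebraMap K F c₂ ≠ 0 := by
    rw [Ne, map_eq_zero_iff _ (algebraMap K F).injective]; exact hc₂0
  have hu₂0 : u₂ ≠ 0 := mul_ne_zero hu₁0 (inv_ne_zero hc₂')
  have hu₁₂ : u₁ = u₂ * algebraMap K F c₂ := by
    rw [hu₂]; field_simp
  -- the tame character value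
  set ζ : K := SemilinearAut.baseAut g c₂ * c₂⁻¹ with hζ
  have hζv : A.valuation ζ = 1 := hgv c₂ hc₂0
  have hσc₂ : SemilinearAut.baseAut g c₂ ≠ 0 := by
    rw [Ne, map_eq_zero_iff _ (SemilinearAut.baseAut g).injective]; exact hc₂0
  have hζ0 : ζ ≠ 0 := mul_ne_zero hσc₂ (inv_ne_zero hc₂0)
  obtain ⟨b, hb⟩ := hroot ζ⁻¹
  obtain ⟨e, he₁, he₂⟩ := happ
  have hbv : A.valuation b = 1 := by
    have h1 : A.valuation b ^ n = 1 := by
      rw [← map_pow, hb, map_inv₀, hζv, inv_one]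
    rcases pow_eq_one_iff.1 h1 with h2 | h2
    · exact h2
    · exact absurd h2 (Nat.pos_iff_ne_zero.1 hn)
  have hbA : b ∈ A := (A.valuation_le_one_iff b).1 hbv.le
  set b' : F := algebraMap K F b with hb'
  have hb'₁ : b' ∈ O₁ := (hA₁ b).2 hbA
  have hb'₂ : b' ∈ O₂ := (hA₂ b).2 hbA
  set h : F := e + b' * (1 - e) with hh
  have hh₁ : O₁.valuation (h - 1) < 1 := by
    have e1 : h - 1 = (e - 1) * (1 - b') := by rw [hh]; ring
    rw [e1, map_mul]
    have h2 : O₁.valuation (1 - b') ≤ 1 :=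
      (O₁.valuation_le_one_iff _).2 (sub_mem O₁.one_mem hb'₁)
    exact mul_lt_one_of_lt_of_le he₁ h2
  have hh₂ : O₂.valuation (h - b') < 1 := by
    have e1 : h - b' = e * (1 - b') := by rw [hh]; ring
    rw [e1, map_mul]
    have h2 : O₂.valuation (1 - b') ≤ 1 :=
      (O₂.valuation_le_one_iff _).2 (sub_mem O₂.one_mem hb'₂)
    exact mul_lt_one_of_lt_of_le he₂ h2
  have hh0 : h ≠ 0 := by
    intro h0
    rw [h0, zero_sub, Valuation.map_neg, map_one] at hh₁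
    exact lt_irrefl _ hh₁
  have hgu₁0 : g • u₁ ≠ 0 := S34R_smul_ne_zero g hu₁0
  -- the constant
  have hcc0 : c₁ * (SemilinearAut.baseAut g c₁)⁻¹ ≠ 0 := mul_ne_zero hc₁0 (inv_ne_zero hσc₁)
  -- rewrite in terms of `u₁`
  have hkey : g • u * u⁻¹ * algebraMap K F (c₁ * (SemilinearAut.baseAut g c₁)⁻¹) * h ^ n =
      g • u₁ * u₁⁻¹ * h ^ n := by
    have hgu : g • u₁ = g • u * (algebraMap K F (SemilinearAut.baseAut g c₁))⁻¹ := by
      rw [hu₁, smul_mul', smul_inv'', SemilinearAut.smul_algebraMap]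
    rw [hgu, hu₁, map_mul, map_inv₀]
    field_simp
  refine ⟨c₁ * (SemilinearAut.baseAut g c₁)⁻¹, h, hcc0, hh0, ?_, ?_⟩
  · rw [hkey]
    have hu₁O : u₁ ∈ O₁ := (O₁.valuation_le_one_iff _).1 hv₁.le
    exact S34R_val_mul_sub_one O₁ (S34R_val_div_sub_one O₁ hv₁ (hg₁ u₁ hu₁O))
      (S34R_val_pow_sub_one O₁ hh₁ n)
  · rw [hkey]
    have hu₂O : u₂ ∈ O₂ := (O₂.valuation_le_one_iff _).1 hv₂.le
    have hζ' : algebraMap K F ζ ≠ 0 := by
      rw [Ne, map_eq_zero_iff _ (algebraMap K F).injective]; exact hζ0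
    have e1 : g • u₁ * u₁⁻¹ * h ^ n = (g • u₂ * u₂⁻¹) * (algebraMap K F ζ * h ^ n) := by
      have hgu : g • u₁ = g • u₂ * algebraMap K F (SemilinearAut.baseAut g c₂) := by
        rw [hu₁₂, smul_mul', SemilinearAut.smul_algebraMap]
      rw [hgu, hu₁₂, hζ, map_mul, map_inv₀]
      field_simp
    rw [e1]
    refine S34R_val_mul_sub_one O₂ (S34R_val_div_sub_one O₂ hv₂ (hg₂ u₂ hu₂O)) ?_
    have hb'v : O₂.valuation b' = 1 := by
      have hbinvA : b⁻¹ ∈ A := by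
        rw [← A.valuation_le_one_iff, map_inv₀, hbv, inv_one]
      have h1 : O₂.valuation b' ≤ 1 := (O₂.valuation_le_one_iff _).2 hb'₂
      have h2 : O₂.valuation b'⁻¹ ≤ 1 := by
        rw [hb', ← map_inv₀ (algebraMap K F)]
        exact (O₂.valuation_le_one_iff _).2 ((hA₂ _).2 hbinvA)
      rw [map_inv₀] at h2
      have hb'0 : O₂.valuation b' ≠ 0 := by
        rw [Valuation.ne_zero_iff, hb', Ne, map_eq_zero_iff _ (algebraMap K F).injective]
        intro h0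
        rw [h0, map_zero] at hbv
        exact zero_ne_one hbv
      exact le_antisymm h1 ((inv_le_one₀ (zero_lt_iff.2 hb'0)).1 h2)
    have h3 : O₂.valuation (h * b'⁻¹ - 1) < 1 := S34R_val_div_sub_one O₂ hb'v hh₂
    have h4 := S34R_val_pow_sub_one O₂ h3 n
    have e2 : algebraMap K F ζ * h ^ n = (h * b'⁻¹) ^ n := by
      have hb'0 : b' ≠ 0 := by
        intro h0
        rw [h0, map_zero] at hb'v
        exact zero_ne_one hb'v
      have hbn : b' ^ n = (algebraMap K F ζ)⁻¹ := by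
        rw [hb', ← map_pow, hb, map_inv₀]
      rw [mul_pow, inv_pow, hbn, inv_inv]
      ring
    rw [e2]
    exact h4

end Fermat.Agent.S34
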