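import Fermat.Agent.GalRep.ES
import Fermat.Agent.GalRep.HeckeStab

/-!
# TRACK 7, package RED2 (helper26), part 1: `U_q^{mult} ≡ σ` at the Gauss valuation `V₁`

`F = F_N = modularFunctionFieldBar N ⊂ ℚ̄((t))`, `q ∣ N` a prime, `A ⊂ ℚ̄` a valuation subring over
`q`, `σ` a Frobenius at `A`, `t = GRS_t hst` the multiplicative `U_q`
(`(t f)(t^q) = ∏_{i<q} f(ζ^i t)`).

* `S34U_exists_int`, `S34U_red_int`: integrality and reduction of `∏_{i<q} f(ζ^i t)`;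
* `S34U_frob_B`: `σ` on integral series, `ρ (σ s) = Frob_coeff (ρ s)`;
* `S34U_t_B`: `t` on integral series, `ρ (t s) = Frob_coeff (ρ s)`;
* `S34U_sigma_t`: for every `u ≠ 0`: `σ • u = c · t u · v` with `v ∈ S18_O A N`, `red v = 1`.
-/

set_option autoImplicit false
set_option synthInstance.maxHeartbeats 400000
set_option maxHeartbeats 1000000
set_option linter.unusedSectionVars false
set_option linter.style.haveILetI false

open HahnSeries IntermediateField AlgebraicCurve ModularCurve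

namespace Fermat.Agent.S34

open Fermat.Agent.S18 Fermat.Agent.Lib Fermat.Agent.GalRep

section series

variable {R : Type*} [CommRing R] (ℓ : ℕ) [NeZero ℓ]

/-- in characteristic `ℓ`: `∏_{i<ℓ} f(t) = (f^φ)(t^ℓ)`. -/
theorem S34U_prodTw_char [Fact ℓ.Prime] [CharP R ℓ] (f : LaurentSeries R) :
    GRS_prodTw ℓ (1 : Rˣ) f = qExpand R ℓ (coeffMap (frobenius R ℓ) f) := by
  simp only [GRS_prodTw, one_pow, ES_tw_one, Finset.prod_const, Finset.card_range]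
  rw [LT_pow_char ℓ f]

/-- **integrality of `U_ℓ^{mult}`**. -/
theorem S34U_exists_int {L : Type*} [CommRing L] (ι : R →+* L) (hι : Function.Injective ι)
    (u : Rˣ) (y : LaurentSeries R) (W : LaurentSeries L)
    (hW : qExpand L ℓ W = GRS_prodTw ℓ (Units.map (ι : R →* L) u) (coeffMap ι y)) :
    ∃ w : LaurentSeries R, coeffMap ι w = W ∧ qExpand R ℓ w = GRS_prodTw ℓ u y := by
  have hz : coeffMap ι (GRS_prodTw ℓ u y) = qExpand L ℓ W := by
    rw [hW, GRS_coeffMap_prodTw]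
  obtain ⟨w, hw⟩ := ES_descend ℓ (GRS_prodTw ℓ u y) (fun m hm => by
    by_contra hnd
    apply hm
    apply hι
    rw [map_zero, ← coeffMap_coeff, hz, qExpand_coeff_of_not_dvd ℓ _ hnd])
  refine ⟨w, ?_, hw⟩
  apply qExpand_injective (R := L) ℓ
  rw [← coeffMap_qExpand, hw, hz]

/-- the reduction of `U_ℓ^{mult} y`, if `ρ u = 1` and the target has characteristic `ℓ`. -/
theorem S34U_red_int {k : Type*} [CommRing k] [Fact ℓ.Prime] [CharP k ℓ] (ρ : R →+* k)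
    (u : Rˣ) (hu : ρ u = 1) (y w : LaurentSeries R) (hw : qExpand R ℓ w = GRS_prodTw ℓ u y) :
    coeffMap ρ w = coeffMap (frobenius k ℓ) (coeffMap ρ y) := by
  apply qExpand_injective (R := k) ℓ
  have hu' : Units.map (ρ : R →* k) u = 1 := Units.ext hu
  rw [← coeffMap_qExpand, hw, GRS_coeffMap_prodTw, hu', S34U_prodTw_char]

end series

section B

variable (N : ℕ) [NeZero N] (q : ℕ) [NeZero q] (hq : q.Prime)
  (A : ValuationSubring (AlgebraicClosure ℚ)) (hA : A.LiesOverPrime q)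

include hq hA in
/-- **(U1)** a Frobenius lift acts on integral series by the coefficientwise Frobenius. -/
theorem S34U_frob_B (σ : AlgebraicClosure ℚ ≃ₐ[ℚ] AlgebraicClosure ℚ)
    (hσ : A.IsFrobeniusAt σ q) (s : S18_B A N) :
    ∃ a : S18_B A N,
      S18_Bι A N a = arithmeticGalois (modularFunctionFieldFull N) σ • S18_Bι A N s ∧
      ∀ n : ℤ, (S18_ρ A a.1).coeff n = (S18_ρ A s.1).coeff n ^ q := by
  haveI : Fact q.Prime := ⟨hq⟩
  haveI : CharP (IsLocalRing.ResidueField A) q := S18_residue_charP A q hq hA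
  set g : A.decompositionSubgroup ℚ := ⟨σ, hσ.mem_decompositionSubgroup⟩ with hg
  have hfrobhom : MulSemiringAction.toRingHom (A.decompositionSubgroup ℚ)
      (IsLocalRing.ResidueField A) g = frobenius (IsLocalRing.ResidueField A) q :=
    RingHom.ext fun x => hσ.smul_residue_eq x
  refine ⟨⟨ES_act A g s.1, ES_act_mem_B A N g s.2⟩, ES_gal_int N A g s, fun n => ?_⟩
  show (S18_ρ A (ES_act A g s.1)).coeff n = _
  rw [ES_ρ_act, hfrobhom]
  rfl

include hq hA in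
/-- **(U2)** `U_q^{mult}` on integral series. -/
theorem S34U_t_B (hqN : q ∣ N) (ζ : (AlgebraicClosure ℚ)ˣ) (hζ : ζ ^ q = 1)
    (hst : GRS_Stab N q ζ) (s : S18_B A N) :
    ∃ b : S18_B A N, S18_Bι A N b = GRS_t hst (S18_Bι A N s) ∧
      ∀ n : ℤ, (S18_ρ A b.1).coeff n = (S18_ρ A s.1).coeff n ^ q := by
  haveI : Fact q.Prime := ⟨hq⟩
  haveI : CharP (IsLocalRing.ResidueField A) q := S18_residue_charP A q hq hA
  obtain ⟨u, hu1, hu2⟩ := ES_exists_unit A q hq.pos ζ hζ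
  have hures : IsLocalRing.residue A (u : A) = 1 := ES_residue_unit q hq A hA u hu2
  have hW : qExpand (AlgebraicClosure ℚ) q
      ((GRS_t hst (S18_Bι A N s) : ↥(modularFunctionFieldBar N)) :
        LaurentSeries (AlgebraicClosure ℚ)) =
      GRS_prodTw q (Units.map ((A.subtype : A →+* AlgebraicClosure ℚ) : A →* AlgebraicClosure ℚ) u)
        (coeffMap A.subtype s.1) := by
    rw [GRS_t_spec_of_dvd hst hqN]
    have : Units.map ((A.subtype : A →+* AlgebraicClosure ℚ) : A →* AlgebraicClosure ℚ) u = ζ :=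
      hu1
    rw [this]
    rfl
  obtain ⟨w, hw1, hw2⟩ := S34U_exists_int q A.subtype Subtype.val_injective u s.1 _ hW
  have hρw : S18_ρ A w =
      coeffMap (frobenius (IsLocalRing.ResidueField A) q) (S18_ρ A s.1) :=
    S34U_red_int q (IsLocalRing.residue A) u hures s.1 w hw2
  have hwB : w ∈ S18_B A N := by
    refine (S18_mem_B A N).mpr ⟨?_, ?_⟩
    · rw [show S18_ι A w = coeffMap A.subtype w from rfl, hw1]
      exact (GRS_t hst (S18_Bι A N s)).2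
    · rw [hρw]
      exact ES_coeffMap_mem N _ ((S18_mem_B A N).mp s.2).2
  refine ⟨⟨w, hwB⟩, Subtype.ext hw1, fun n => ?_⟩
  show (S18_ρ A w).coeff n = _
  rw [hρw]
  rfl

end B

section key

variable (N : ℕ) [NeZero N] (A : ValuationSubring (AlgebraicClosure ℚ))
  (hgen : PrincipalGeneratedByIntegral A (IsLocalRing.residue A) N)

include hgen in
/-- **key lemma** (unit form of `ES_key`, no place reduction needed): two multiplicative
operators on `F` which agree after reduction on the integral series differ, on every `f ≠ 0`,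
by a constant and a `1`-unit of the Gauss ring `S18_O A N`. -/
theorem S34U_key (Φ₁ Φ₂ : ↥(modularFunctionFieldBar N) → ↥(modularFunctionFieldBar N))
    (hm₁ : ∀ f g, f ≠ 0 → g ≠ 0 → Φ₁ (f * g) = Φ₁ f * Φ₁ g)
    (hm₂ : ∀ f g, f ≠ 0 → g ≠ 0 → Φ₂ (f * g) = Φ₂ f * Φ₂ g)
    (hn₁ : ∀ f, f ≠ 0 → Φ₁ f ≠ 0) (hn₂ : ∀ f, f ≠ 0 → Φ₂ f ≠ 0)
    (hc₁ : ∀ c : AlgebraicClosure ℚ, c ≠ 0 → ∃ c' : AlgebraicClosure ℚ,
      Φ₁ (algebraMap (AlgebraicClosure ℚ) ↥(modularFunctionFieldBar N) c) =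
        algebraMap (AlgebraicClosure ℚ) ↥(modularFunctionFieldBar N) c')
    (hc₂ : ∀ c : AlgebraicClosure ℚ, c ≠ 0 → ∃ c' : AlgebraicClosure ℚ,
      Φ₂ (algebraMap (AlgebraicClosure ℚ) ↥(modularFunctionFieldBar N) c) =
        algebraMap (AlgebraicClosure ℚ) ↥(modularFunctionFieldBar N) c')
    (hint : ∀ s : S18_B A N, S18_Bρ A N s ≠ 0 → ∃ w₁ w₂ : S18_B A N,
      S18_Bι A N w₁ = Φ₁ (S18_Bι A N s) ∧ S18_Bι A N w₂ = Φ₂ (S18_Bι A N s) ∧
        S18_Bρ A N w₁ = S18_Bρ A N w₂ ∧ S18_Bρ A N w₁ ≠ 0)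
    (f : ↥(modularFunctionFieldBar N)) (hf : f ≠ 0) :
    ∃ (c : AlgebraicClosure ℚ) (v : ↥(modularFunctionFieldBar N)) (hv : v ∈ S18_O A N),
      c ≠ 0 ∧ S18_red A N ⟨v, hv⟩ = 1 ∧
        Φ₁ f = algebraMap (AlgebraicClosure ℚ) ↥(modularFunctionFieldBar N) c * Φ₂ f * v := by
  obtain ⟨c, s₁, s₂, hc, h1, h2, hrep⟩ :=
    S18_exists_rep A N (S18_hPD N) (S18_hconst N) hgen f hf
  have hs1 := S18_Bι_ne_zero A N h1
  have hs2 := S18_Bι_ne_zero A N h2
  have hcF : algebraMap (AlgebraicClosure ℚ) ↥(modularFunctionFieldBar N) c ≠ 0 := by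
    rwa [Ne, map_eq_zero]
  obtain ⟨c₁, hc₁'⟩ := hc₁ c hc
  obtain ⟨c₂, hc₂'⟩ := hc₂ c hc
  have hc₁0 : algebraMap (AlgebraicClosure ℚ) ↥(modularFunctionFieldBar N) c₁ ≠ 0 := by
    rw [← hc₁']; exact hn₁ _ hcF
  have hc₂0 : algebraMap (AlgebraicClosure ℚ) ↥(modularFunctionFieldBar N) c₂ ≠ 0 := by
    rw [← hc₂']; exact hn₂ _ hcF
  have e1 : Φ₁ f * Φ₁ (S18_Bι A N s₂) =
      algebraMap (AlgebraicClosure ℚ) ↥(modularFunctionFieldBar N) c₁ * Φ₁ (S18_Bι A N s₁) := by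
    rw [← hm₁ _ _ hf hs2, ← hc₁', ← hm₁ _ _ hcF hs1]
    exact congrArg Φ₁ hrep
  have e2 : Φ₂ f * Φ₂ (S18_Bι A N s₂) =
      algebraMap (AlgebraicClosure ℚ) ↥(modularFunctionFieldBar N) c₂ * Φ₂ (S18_Bι A N s₁) := by
    rw [← hm₂ _ _ hf hs2, ← hc₂', ← hm₂ _ _ hcF hs1]
    exact congrArg Φ₂ hrep
  obtain ⟨a₁, b₁, ea₁, eb₁, er₁, en₁⟩ := hint s₁ h1
  obtain ⟨a₂, b₂, ea₂, eb₂, er₂, en₂⟩ := hint s₂ h2
  rw [← ea₁, ← ea₂] at e1
  rw [← eb₁, ← eb₂] at e2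
  have ha₁ := S18_Bι_ne_zero A N en₁
  have ha₂ := S18_Bι_ne_zero A N en₂
  have hb₁ := S18_Bι_ne_zero A N (er₁ ▸ en₁)
  have hb₂ := S18_Bι_ne_zero A N (er₂ ▸ en₂)
  have hden : S18_Bρ A N (a₂ * b₁) ≠ 0 := by
    rw [map_mul]
    exact mul_ne_zero en₂ (er₁ ▸ en₁)
  set v : ↥(modularFunctionFieldBar N) :=
    (S18_Bι A N a₁ * S18_Bι A N b₂) / (S18_Bι A N a₂ * S18_Bι A N b₁) with hvdef
  have hvrel : v * S18_Bι A N (a₂ * b₁) = S18_Bι A N (a₁ * b₂) := by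
    rw [map_mul, map_mul, hvdef]
    field_simp
  have hv : v ∈ S18_O A N := (S18_mem_O' A N).mpr ⟨a₁ * b₂, a₂ * b₁, hden, hvrel⟩
  have hc₁c : c₁ ≠ 0 := fun h0 => hc₁0 (by rw [h0, map_zero])
  have hc₂c : c₂ ≠ 0 := fun h0 => hc₂0 (by rw [h0, map_zero])
  refine ⟨c₁ * c₂⁻¹, v, hv, mul_ne_zero hc₁c (inv_ne_zero hc₂c), ?_, ?_⟩
  · rw [S18_red_eq' A N hv hden hvrel, map_mul, map_mul, er₁, er₂]
    have hx : S18_Bρ A N b₁ ≠ 0 := er₁ ▸ en₁
    have hy : S18_Bρ A N b₂ ≠ 0 := er₂ ▸ en₂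
    field_simp
  · have hΦ₂ : Φ₂ f ≠ 0 := hn₂ f hf
    rw [map_mul, map_inv₀, hvdef]
    have E1 : Φ₁ f = algebraMap (AlgebraicClosure ℚ) ↥(modularFunctionFieldBar N) c₁ *
        S18_Bι A N a₁ / S18_Bι A N a₂ := by
      field_simp
      exact e1
    have E2 : Φ₂ f = algebraMap (AlgebraicClosure ℚ) ↥(modularFunctionFieldBar N) c₂ *
        S18_Bι A N b₁ / S18_Bι A N b₂ := by
      field_simp
      exact e2
    rw [E1, E2]
    field_simp

end key

section main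

variable (N : ℕ) [NeZero N] (q : ℕ) [NeZero q] (hq : q.Prime)
  (A : ValuationSubring (AlgebraicClosure ℚ)) (hA : A.LiesOverPrime q)
  (hgen : PrincipalGeneratedByIntegral A (IsLocalRing.residue A) N)

include hq hA hgen in
/-- **(U3)** `(CONG)`: for a Frobenius lift `σ` and `q ∣ N`: `σ • u = c · U_q^{mult}(u) · v` with
`v` a `1`-unit of the Gauss ring, for every `u ≠ 0`. -/
theorem S34U_sigma_t (hqN : q ∣ N) (σ : AlgebraicClosure ℚ ≃ₐ[ℚ] AlgebraicClosure ℚ)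
    (hσ : A.IsFrobeniusAt σ q) (ζ : (AlgebraicClosure ℚ)ˣ) (hζ : ζ ^ q = 1)
    (hst : GRS_Stab N q ζ) (u : ↥(modularFunctionFieldBar N)) (hu : u ≠ 0) :
    ∃ (c : AlgebraicClosure ℚ) (v : ↥(modularFunctionFieldBar N)) (hv : v ∈ S18_O A N),
      c ≠ 0 ∧ S18_red A N ⟨v, hv⟩ = 1 ∧
        arithmeticGalois (modularFunctionFieldFull N) σ • u =
          algebraMap (AlgebraicClosure ℚ) ↥(modularFunctionFieldBar N) c * GRS_t hst u * v := by
  refine S34U_key N A hgen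
    (fun f => arithmeticGalois (modularFunctionFieldFull N) σ • f) (fun f => GRS_t hst f)
    (fun f g _ _ => smul_mul' _ f g) (fun f g _ _ => map_mul _ f g)
    (fun f hf => ES_gal_ne_zero N _ hf) (fun f hf => GRS_t_ne_zero hst hf)
    (fun c _ => ⟨_, SemilinearAut.smul_algebraMap _ c⟩) (fun c _ => GRS_t_const' hst c) ?_ u hu
  intro s hs
  have hs0 : S18_ρ A s.1 ≠ 0 := fun h0 => hs (Subtype.ext h0)
  obtain ⟨a, ha1, ha2⟩ := S34U_frob_B N q hq A hA σ hσ s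
  obtain ⟨b, hb1, hb2⟩ := S34U_t_B N q hq A hA hqN ζ hζ hst s
  have hab : S18_Bρ A N a = S18_Bρ A N b := by
    apply Subtype.ext
    show S18_ρ A a.1 = S18_ρ A b.1
    ext n
    rw [ha2 n, hb2 n]
  refine ⟨a, b, ha1, hb1, hab, ?_⟩
  intro h0
  apply hs0
  have h1 : S18_ρ A a.1 = 0 := congrArg Subtype.val h0
  ext n
  have h2 := ha2 n
  rw [h1, HahnSeries.coeff_zero] at h2
  rw [HahnSeries.coeff_zero]
  exact (pow_eq_zero_iff (NeZero.ne q)).mp h2.symm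

end main

end Fermat.Agent.S34
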