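import Fermat.Agent.S34.RedU

/-!
# TRACK 7, package RED2 (helper26), part 2: the norm identity and RED2 at `V₁` (function form)

Level `M`, prime `q ∤ M`, big level `M * q`; `α, β : F_M → F_{Mq}` the Prelude maps,
`φ_∞ = GRHP_phiInf M q y w h hq : F_{Mq} → F_{Mq·q}` (`= β' ∘ w_q`), `t = GRS_t hst` the
multiplicative `U_q` on `F_{Mq}`.

* `S34U_norm`: `↑(Norm_{F_{Mq}/β F_M} u) = ↑(φ_∞ u) · (t u)(t^q)`;
* `S34U_wq_t`: for any `wq` with `(wq f)(t^q) = φ_∞ f`: `wq u · t u = α (N_β u)`;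
* `S34U_red2_V1`: `(σ • u) · wq u = c · α (N_β u) · v`, `v` a `1`-unit of `S18_O A (M * q)`.
-/

set_option autoImplicit false
set_option synthInstance.maxHeartbeats 400000
set_option maxHeartbeats 1000000
set_option linter.unusedSectionVars false
set_option linter.style.haveILetI false

open HahnSeries IntermediateField AlgebraicCurve ModularCurve

namespace Fermat.Agent.S34

open Fermat.Agent.S18 Fermat.Agent.Lib Fermat.Agent.GalRep

variable (M q : ℕ) [NeZero M] [NeZero q] (hq : q.Prime) (hqM : ¬ q ∣ M)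
  (ζ : (AlgebraicClosure ℚ)ˣ) (hζ : IsPrimitiveRoot (ζ : AlgebraicClosure ℚ) q)
  (y w : ℤ) (h : (q : ℤ) * w - M * y = 1)

include hqM hζ in
/-- **(U4)** `(NORM)`, series form. -/
theorem S34U_norm (hst : GRS_Stab (M * q) q ζ) (u : ↥(modularFunctionFieldBar (M * q))) :
    (((Algebra.norm ↥(GRHS_B M q) u : ↥(GRHS_B M q)) : ↥(modularFunctionFieldBar (M * q))) :
        LaurentSeries (AlgebraicClosure ℚ)) =
      ((GRHP_phiInf M q y w h hq u : ↥(modularFunctionFieldBar (M * q * q))) :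
        LaurentSeries (AlgebraicClosure ℚ)) *
      qExpand (AlgebraicClosure ℚ) q
        ((GRS_t hst u : ↥(modularFunctionFieldBar (M * q))) :
          LaurentSeries (AlgebraicClosure ℚ)) := by
  rw [GRHS_norm_T ζ hζ y w h hq hqM u, GRS_t_spec_of_dvd hst (Dvd.intro_left M rfl) u]
  rfl

include hqM hζ in
/-- `(NORM)`, function form: `wq u · t u = α (N_β u)`. -/
theorem S34U_wq_t (hst : GRS_Stab (M * q) q ζ)
    (wq : ↥(modularFunctionFieldBar (M * q)) → ↥(modularFunctionFieldBar (M * q)))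
    (hwq : ∀ f : ↥(modularFunctionFieldBar (M * q)),
      qExpand (AlgebraicClosure ℚ) q ((wq f : ↥(modularFunctionFieldBar (M * q))) :
        LaurentSeries (AlgebraicClosure ℚ)) =
      ((GRHP_phiInf M q y w h hq f : ↥(modularFunctionFieldBar (M * q * q))) :
        LaurentSeries (AlgebraicClosure ℚ)))
    (u : ↥(modularFunctionFieldBar (M * q))) (g : ↥(modularFunctionFieldBar M))
    (hg : heckeBetaBar (AlgebraicClosure ℚ) M q g =
      ((Algebra.norm ↥(GRHS_B M q) u : ↥(GRHS_B M q)) : ↥(modularFunctionFieldBar (M * q)))) :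
    wq u * GRS_t hst u = heckeAlphaBar (AlgebraicClosure ℚ) M q g := by
  apply Subtype.ext
  apply qExpand_injective (R := AlgebraicClosure ℚ) q
  have h1 := S34U_norm M q hq hqM ζ hζ y w h hst u
  rw [← hg, coe_heckeBetaBar] at h1
  rw [coe_heckeAlphaBar, h1, ← hwq u, ← map_mul]
  rfl

variable (A : ValuationSubring (AlgebraicClosure ℚ)) (hA : A.LiesOverPrime q)
  (hgen : PrincipalGeneratedByIntegral A (IsLocalRing.residue A) (M * q))

include hqM hζ hA hgen in
/-- **RED2 at `V₁`**, function form: for a Frobenius lift `σ`, `wq` the Atkin–Lehner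
involution (any map with `(wq f)(t^q) = φ_∞ f`), `u ≠ 0` and `g = N_β u`:
`(σ • u) · wq u = c · α g · v` with `v` a `1`-unit of the Gauss ring `S18_O A (M * q)`. -/
theorem S34U_red2_V1 (σ : AlgebraicClosure ℚ ≃ₐ[ℚ] AlgebraicClosure ℚ)
    (hσ : A.IsFrobeniusAt σ q) (hst : GRS_Stab (M * q) q ζ)
    (wq : ↥(modularFunctionFieldBar (M * q)) → ↥(modularFunctionFieldBar (M * q)))
    (hwq : ∀ f : ↥(modularFunctionFieldBar (M * q)),
      qExpand (AlgebraicClosure ℚ) q ((wq f : ↥(modularFunctionFieldBar (M * q))) :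
        LaurentSeries (AlgebraicClosure ℚ)) =
      ((GRHP_phiInf M q y w h hq f : ↥(modularFunctionFieldBar (M * q * q))) :
        LaurentSeries (AlgebraicClosure ℚ)))
    (u : ↥(modularFunctionFieldBar (M * q))) (hu : u ≠ 0) (g : ↥(modularFunctionFieldBar M))
    (hg : heckeBetaBar (AlgebraicClosure ℚ) M q g =
      ((Algebra.norm ↥(GRHS_B M q) u : ↥(GRHS_B M q)) : ↥(modularFunctionFieldBar (M * q)))) :
    ∃ (c : AlgebraicClosure ℚ) (v : ↥(modularFunctionFieldBar (M * q)))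
      (hv : v ∈ S18_O A (M * q)), c ≠ 0 ∧ S18_red A (M * q) ⟨v, hv⟩ = 1 ∧
        (arithmeticGalois (modularFunctionFieldFull (M * q)) σ • u) * wq u =
          algebraMap (AlgebraicClosure ℚ) ↥(modularFunctionFieldBar (M * q)) c *
            heckeAlphaBar (AlgebraicClosure ℚ) M q g * v := by
  have hζq : ζ ^ q = 1 := GRHS_zeta_pow ζ hζ
  obtain ⟨c, v, hv, hc, hred, hrel⟩ :=
    S34U_sigma_t (M * q) q hq A hA hgen (Dvd.intro_left M rfl) σ hσ ζ hζq hst u hu
  refine ⟨c, v, hv, hc, hred, ?_⟩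
  rw [hrel, ← S34U_wq_t M q hq hqM ζ hζ y w h hst wq hwq u g hg]
  ring

end Fermat.Agent.S34
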