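import Fermat.Agent.S34.RedU2
import Fermat.Agent.S34.RedOneInst
import Fermat.Agent.GalRep.HeckeKum

/-!
# TRACK 7, package RED2 (helper26), part 3: RED2 on Kummer generators

* `S34U_comb` (abstract): if `y = a₁ · H₁ⁿ · v₁ = a₂ · H₂ⁿ · v₂` with `v_i ≡ 1` at `O_i` and `y / d`
  a unit at `O₁` and `O₂` for a constant `d`, then `y · c · hⁿ ≡ 1` at `O₁` and `O₂` for suitable
  `c`, `h` (unit approximation + `n`-th roots of constants);
* `S34U_gal_mem_O`, `S34U_gal_val_one`: the decomposition group preserves the Gauss ring and its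
  units;
* `S34U_concrete`: **RED2**: for a Frobenius lift `σ` at `A ∣ q`, `w` the Atkin–Lehner involution
  and `u ≠ 0` with `N_β u` and `N_β (w u)` (`= N_α u`) trivial (`= c · gⁿ`):
  `(σ • u) · w u · c · hⁿ ≡ 1` at `V₁` and at `V₂ = V₁ ∘ w`   (shape of `hRED2` in `S34D_frob4K`).
-/

set_option autoImplicit false
set_option synthInstance.maxHeartbeats 400000
set_option maxHeartbeats 1000000
set_option linter.unusedSectionVars false
set_option linter.style.haveILetI false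

open HahnSeries IntermediateField AlgebraicCurve ModularCurve

namespace Fermat.Agent.S34

open Fermat.Agent.S18 Fermat.Agent.Lib Fermat.Agent.GalRep

section comb

variable {K F : Type*} [Field K] [Field F] [Algebra K F]

/-- a product of two elements of valuation `1` … -/
theorem S34U_val_one_of_pow {O : ValuationSubring F} {x : F} {n : ℕ} (hn : 0 < n)
    (h : O.valuation (x ^ n) = 1) : O.valuation x = 1 := by
  rw [map_pow] at h
  rcases pow_eq_one_iff.1 h with h2 | h2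
  · exact h2
  · exact absurd h2 (Nat.pos_iff_ne_zero.1 hn)

/-- **combination lemma**. -/
theorem S34U_comb (O₁ O₂ : ValuationSubring F) (h12 : ¬ O₁ ≤ O₂) (h21 : ¬ O₂ ≤ O₁)
    (n : ℕ) (hn : 0 < n) (hroot : ∀ a : K, ∃ b : K, b ^ n = a)
    (y : F) (d a₁ a₂ : K) (H₁ H₂ v₁ v₂ : F) (hd : d ≠ 0)
    (hy₁ : O₁.valuation (y * (algebraMap K F d)⁻¹) = 1)
    (hy₂ : O₂.valuation (y * (algebraMap K F d)⁻¹) = 1)
    (hv₁ : O₁.valuation (v₁ - 1) < 1) (hv₂ : O₂.valuation (v₂ - 1) < 1)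
    (e₁ : y = algebraMap K F a₁ * H₁ ^ n * v₁) (e₂ : y = algebraMap K F a₂ * H₂ ^ n * v₂) :
    ∃ (c : K) (h : F), c ≠ 0 ∧ h ≠ 0 ∧
      O₁.valuation (y * algebraMap K F c * h ^ n - 1) < 1 ∧
      O₂.valuation (y * algebraMap K F c * h ^ n - 1) < 1 := by
  have hdF : algebraMap K F d ≠ 0 := by
    rw [Ne, map_eq_zero_iff _ (algebraMap K F).injective]; exact hd
  have hy0 : y ≠ 0 := by
    intro h0
    rw [h0, zero_mul, map_zero] at hy₁
    exact zero_ne_one hy₁
  -- the two local pieces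
  have key : ∀ (O : ValuationSubring F) (a : K) (H v : F),
      O.valuation (y * (algebraMap K F d)⁻¹) = 1 → O.valuation (v - 1) < 1 →
      y = algebraMap K F a * H ^ n * v →
      ∃ X : F, O.valuation X = 1 ∧ y * (algebraMap K F d)⁻¹ = X ^ n * v := by
    intro O a H v hy hv e
    obtain ⟨b, hb⟩ := hroot (a * d⁻¹)
    have hv1 : O.valuation v = 1 := S34R_val_eq_one_of_sub_one O hv
    have hv0 : v ≠ 0 := by
      intro h0
      rw [h0, map_zero] at hv1
      exact zero_ne_one hv1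
    have hX : y * (algebraMap K F d)⁻¹ = (algebraMap K F b * H) ^ n * v := by
      rw [mul_pow, ← map_pow, hb, map_mul, map_inv₀, e]
      ring
    refine ⟨algebraMap K F b * H, ?_, hX⟩
    apply S34U_val_one_of_pow hn
    have h1 : (algebraMap K F b * H) ^ n = y * (algebraMap K F d)⁻¹ * v⁻¹ := by
      rw [hX]
      field_simp
    rw [h1, map_mul, hy, map_inv₀, hv1, inv_one, mul_one]
  obtain ⟨X₁, hX₁, eX₁⟩ := key O₁ a₁ H₁ v₁ hy₁ hv₁ e₁
  obtain ⟨X₂, hX₂, eX₂⟩ := key O₂ a₂ H₂ v₂ hy₂ hv₂ e₂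
  have hX₁i : O₁.valuation X₁⁻¹ = 1 := by rw [map_inv₀, hX₁, inv_one]
  have hX₂i : O₂.valuation X₂⁻¹ = 1 := by rw [map_inv₀, hX₂, inv_one]
  obtain ⟨h, hh0, -, -, hh₁, hh₂⟩ :=
    S34AP_exists_unit_approx_val O₁ O₂ h12 h21 X₁⁻¹ X₂⁻¹ hX₁i hX₂i
  have fin : ∀ (O : ValuationSubring F) (X v : F), O.valuation X⁻¹ = 1 →
      O.valuation (v - 1) < 1 → O.valuation (h - X⁻¹) < 1 →
      y * (algebraMap K F d)⁻¹ = X ^ n * v →
      O.valuation (y * algebraMap K F d⁻¹ * h ^ n - 1) < 1 := by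
    intro O X v hXi hv hh e
    have h1 : O.valuation (h * (X⁻¹)⁻¹ - 1) < 1 := S34R_val_div_sub_one O hXi hh
    have h2 := S34R_val_pow_sub_one O h1 n
    have h3 := S34R_val_mul_sub_one O h2 hv
    have e' : y * algebraMap K F d⁻¹ * h ^ n = (h * (X⁻¹)⁻¹) ^ n * v := by
      rw [map_inv₀, e, inv_inv]
      ring
    rw [e']
    exact h3
  exact ⟨d⁻¹, h, inv_ne_zero hd, hh0, fin O₁ X₁ v₁ hX₁i hv₁ hh₁ eX₁,
    fin O₂ X₂ v₂ hX₂i hv₂ hh₂ eX₂⟩

/-- **the valuation of `(g • u) · w u`** is the same at `O₁` and at `O₂ = w⁻¹ O₁`: there is a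
constant `d` with `(g • u) · w u / d` a unit at both. -/
theorem S34U_val_y (O₁ O₂ : ValuationSubring F) (A : ValuationSubring K)
    (g : SemilinearAut K F) (w : F ≃+* F)
    (hwc : ∀ c : K, w (algebraMap K F c) = algebraMap K F c)
    (hwg : ∀ f : F, w (g • f) = g • w f) (hww : ∀ f : F, w (w f) = f)
    (hO₂ : ∀ f, f ∈ O₂ ↔ w f ∈ O₁)
    (hA₁ : ∀ a : K, algebraMap K F a ∈ O₁ ↔ a ∈ A)
    (hc₁ : ∀ f : F, f ≠ 0 → ∃ c : K, c ≠ 0 ∧ O₁.valuation (f * (algebraMap K F c)⁻¹) = 1)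
    (hg₁ : ∀ f : F, O₁.valuation f = 1 → O₁.valuation (g • f) = 1)
    (hgv : ∀ c : K, c ≠ 0 → A.valuation (SemilinearAut.baseAut g c * c⁻¹) = 1)
    (u : F) (hu : u ≠ 0) :
    ∃ d : K, d ≠ 0 ∧ O₁.valuation (g • u * w u * (algebraMap K F d)⁻¹) = 1 ∧
      O₂.valuation (g • u * w u * (algebraMap K F d)⁻¹) = 1 := by
  have hwu : w u ≠ 0 := by
    rw [Ne, map_eq_zero_iff w w.injective]; exact hu
  obtain ⟨d₁, hd₁, hvd₁⟩ := hc₁ u hu
  obtain ⟨d₂, hd₂, hvd₂⟩ := hc₁ (w u) hwu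
  have hF : ∀ c : K, c ≠ 0 → algebraMap K F c ≠ 0 := by
    intro c hc
    rw [Ne, map_eq_zero_iff _ (algebraMap K F).injective]
    exact hc
  have hσd₁ : SemilinearAut.baseAut g d₁ ≠ 0 := by
    rw [Ne, map_eq_zero_iff _ (SemilinearAut.baseAut g).injective]; exact hd₁
  have hσd₂ : SemilinearAut.baseAut g d₂ ≠ 0 := by
    rw [Ne, map_eq_zero_iff _ (SemilinearAut.baseAut g).injective]; exact hd₂
  have hgalinv : ∀ (f : F) (c : K),
      g • (f * (algebraMap K F c)⁻¹) =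
        g • f * (algebraMap K F (SemilinearAut.baseAut g c))⁻¹ := by
    intro f c
    rw [smul_mul', smul_inv'', SemilinearAut.smul_algebraMap]
  -- constants of valuation one
  have hconst : ∀ c : K, A.valuation c = 1 → O₁.valuation (algebraMap K F c) = 1 := by
    intro c hc
    have hc0 : c ≠ 0 := by
      intro h0
      rw [h0, map_zero] at hc
      exact zero_ne_one hc
    have h1 : c ∈ A := (A.valuation_le_one_iff c).1 hc.le
    have h2 : c⁻¹ ∈ A := by rw [← A.valuation_le_one_iff, map_inv₀, hc, inv_one]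
    have h3 : O₁.valuation (algebraMap K F c) ≤ 1 :=
      (O₁.valuation_le_one_iff _).2 ((hA₁ c).2 h1)
    have h4 : O₁.valuation (algebraMap K F c)⁻¹ ≤ 1 := by
      rw [← map_inv₀ (algebraMap K F)]
      exact (O₁.valuation_le_one_iff _).2 ((hA₁ c⁻¹).2 h2)
    rw [map_inv₀] at h4
    have h5 : O₁.valuation (algebraMap K F c) ≠ 0 := by
      rw [Valuation.ne_zero_iff]
      exact hF c hc0
    exact le_antisymm h3 ((inv_le_one₀ (zero_lt_iff.2 h5)).1 h4)
  have htr : ∀ x : F, O₂.valuation x = 1 ↔ O₁.valuation (w x) = 1 := by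
    intro x
    have hle : ∀ z : F, O₂.valuation z ≤ 1 ↔ O₁.valuation (w z) ≤ 1 := by
      intro z
      rw [O₂.valuation_le_one_iff, O₁.valuation_le_one_iff]
      exact hO₂ z
    by_cases hx : x = 0
    · subst hx
      simp
    have hwx : w x ≠ 0 := by
      rw [Ne, map_eq_zero_iff w w.injective]; exact hx
    have h2 : O₂.valuation x ≠ 0 := (Valuation.ne_zero_iff _).2 hx
    have h1 : O₁.valuation (w x) ≠ 0 := (Valuation.ne_zero_iff _).2 hwx
    have hinv := hle x⁻¹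
    rw [map_inv₀, map_inv₀, map_inv₀, inv_le_one₀ (zero_lt_iff.2 h2),
      inv_le_one₀ (zero_lt_iff.2 h1)] at hinv
    constructor
    · intro h
      exact le_antisymm ((hle x).1 h.le) (hinv.1 h.ge)
    · intro h
      exact le_antisymm ((hle x).2 h.le) (hinv.2 h.ge)
  refine ⟨SemilinearAut.baseAut g d₁ * d₂, mul_ne_zero hσd₁ hd₂, ?_, ?_⟩
  · have e : g • u * w u * (algebraMap K F (SemilinearAut.baseAut g d₁ * d₂))⁻¹ =
        (g • (u * (algebraMap K F d₁)⁻¹)) * (w u * (algebraMap K F d₂)⁻¹) := by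
      rw [hgalinv, map_mul, mul_inv]
      ring
    rw [e, map_mul, hg₁ _ hvd₁, hvd₂, one_mul]
  · rw [htr]
    have hk : A.valuation ((SemilinearAut.baseAut g d₂ * d₂⁻¹) *
        (SemilinearAut.baseAut g d₁ * d₁⁻¹)⁻¹) = 1 := by
      rw [map_mul, map_inv₀, hgv d₂ hd₂, hgv d₁ hd₁, inv_one, one_mul]
    have e : w (g • u * w u * (algebraMap K F (SemilinearAut.baseAut g d₁ * d₂))⁻¹) =
        (g • (w u * (algebraMap K F d₂)⁻¹)) * (u * (algebraMap K F d₁)⁻¹) *
        algebraMap K F ((SemilinearAut.baseAut g d₂ * d₂⁻¹) *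
          (SemilinearAut.baseAut g d₁ * d₁⁻¹)⁻¹) := by
      rw [hgalinv, map_mul, map_mul, map_inv₀, hwc, hwg, hww, map_mul, map_mul, map_mul,
        map_inv₀, map_inv₀, map_mul, map_inv₀]
      have h1 := hF d₁ hd₁
      have h2 := hF d₂ hd₂
      have h3 := hF _ hσd₁
      have h4 := hF _ hσd₂
      field_simp
    rw [e, map_mul, map_mul, hg₁ _ hvd₂, hvd₁, hconst _ hk, one_mul, one_mul]

end comb

section gal

variable (N : ℕ) [NeZero N] (A : ValuationSubring (AlgebraicClosure ℚ))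

/-- the decomposition group preserves the Gauss ring `S18_O A N`. -/
theorem S34U_gal_mem_O (σ : AlgebraicClosure ℚ ≃ₐ[ℚ] AlgebraicClosure ℚ)
    (hσ : σ ∈ A.decompositionSubgroup ℚ) {f : ↥(modularFunctionFieldBar N)}
    (hf : f ∈ S18_O A N) :
    arithmeticGalois (modularFunctionFieldFull N) σ • f ∈ S18_O A N := by
  obtain ⟨s₁, s₂, hne, h⟩ := (S18_mem_O' A N).mp hf
  set g : A.decompositionSubgroup ℚ := ⟨σ, hσ⟩ with hg
  have hs0 : S18_ρ A s₂.1 ≠ 0 := fun h0 => hne (Subtype.ext h0)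
  refine (S18_mem_O' A N).mpr ⟨⟨ES_act A g s₁.1, ES_act_mem_B A N g s₁.2⟩,
    ⟨ES_act A g s₂.1, ES_act_mem_B A N g s₂.2⟩, ?_, ?_⟩
  · intro h0
    exact ES_ρ_act_ne_zero A g hs0 (congrArg Subtype.val h0)
  · rw [ES_gal_int N A g s₁, ES_gal_int N A g s₂, ← smul_mul', h]

variable (hgen : PrincipalGeneratedByIntegral A (IsLocalRing.residue A) N)

/-- the decomposition group preserves the units of the Gauss ring. -/
theorem S34U_gal_val_one (σ : AlgebraicClosure ℚ ≃ₐ[ℚ] AlgebraicClosure ℚ)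
    (hσ : σ ∈ A.decompositionSubgroup ℚ) {f : ↥(modularFunctionFieldBar N)}
    (hf : (S18_gaussModL N A hgen).O.valuation f = 1) :
    (S18_gaussModL N A hgen).O.valuation
      (arithmeticGalois (modularFunctionFieldFull N) σ • f) = 1 := by
  set G := S18_gaussModL N A hgen with hG
  have h1 : f ∈ G.O := (G.O.valuation_le_one_iff f).1 hf.le
  have h2 : f⁻¹ ∈ G.O := by
    rw [← G.O.valuation_le_one_iff, map_inv₀, hf, inv_one]
  have h3 : arithmeticGalois (modularFunctionFieldFull N) σ • f ∈ G.O :=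
    S34U_gal_mem_O N A σ hσ h1
  have h4 : arithmeticGalois (modularFunctionFieldFull N) σ • f⁻¹ ∈ G.O :=
    S34U_gal_mem_O N A σ hσ h2
  rw [smul_inv''] at h4
  have h5 : G.O.valuation (arithmeticGalois (modularFunctionFieldFull N) σ • f) ≤ 1 :=
    (G.O.valuation_le_one_iff _).2 h3
  have h6 : G.O.valuation (arithmeticGalois (modularFunctionFieldFull N) σ • f)⁻¹ ≤ 1 :=
    (G.O.valuation_le_one_iff _).2 h4
  rw [map_inv₀] at h6
  have h7 : G.O.valuation (arithmeticGalois (modularFunctionFieldFull N) σ • f) ≠ 0 := by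
    rw [Valuation.ne_zero_iff]
    intro h0
    have hf0 : f = 0 := by
      have := congrArg (fun x => (arithmeticGalois (modularFunctionFieldFull N) σ)⁻¹ • x) h0
      simpa using this
    rw [hf0, map_zero] at hf
    exact zero_ne_one hf
  exact le_antisymm h5 ((inv_le_one₀ (zero_lt_iff.2 h7)).1 h6)

/-- a `1`-unit of the Gauss ring, valuation form. -/
theorem S34U_val_sub_one_of_red {v : ↥(modularFunctionFieldBar N)} (hv : v ∈ S18_O A N)
    (hred : S18_red A N ⟨v, hv⟩ = 1) :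
    (S18_gaussModL N A hgen).O.valuation (v - 1) < 1 := by
  set G := S18_gaussModL N A hgen with hG
  have hv' : v ∈ G.O := hv
  have hsub : v - 1 ∈ G.O := sub_mem hv' G.O.one_mem
  have h0 : G.red ⟨_, hsub⟩ = 0 := by
    have e : (⟨_, hsub⟩ : G.O) = ⟨v, hv'⟩ - 1 := rfl
    rw [e, map_sub, map_one, sub_eq_zero]
    exact hred
  have h1 : ¬ IsUnit (⟨_, hsub⟩ : G.O) := (G.red_eq_zero_iff _).1 h0
  exact (G.O.valuation_lt_one_iff ⟨_, hsub⟩).1
    (by rw [IsLocalRing.mem_maximalIdeal, mem_nonunits_iff]; exact h1)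

/-- constants which are units of `A` are units of the Gauss ring. -/
theorem S34U_val_const {c : AlgebraicClosure ℚ} (hc : A.valuation c = 1) :
    (S18_gaussModL N A hgen).O.valuation
      (algebraMap (AlgebraicClosure ℚ) ↥(modularFunctionFieldBar N) c) = 1 := by
  set G := S18_gaussModL N A hgen with hG
  have hc0 : c ≠ 0 := by
    intro h0
    rw [h0, map_zero] at hc
    exact zero_ne_one hc
  have h1 : c ∈ A := (A.valuation_le_one_iff c).1 hc.le
  have h2 : c⁻¹ ∈ A := by rw [← A.valuation_le_one_iff, map_inv₀, hc, inv_one]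
  have h3 : G.O.valuation (algebraMap (AlgebraicClosure ℚ) ↥(modularFunctionFieldBar N) c) ≤ 1 :=
    (G.O.valuation_le_one_iff _).2 ((G.algebraMap_mem_iff c).2 h1)
  have h4 : G.O.valuation (algebraMap (AlgebraicClosure ℚ) ↥(modularFunctionFieldBar N) c)⁻¹
      ≤ 1 := by
    rw [← map_inv₀ (algebraMap (AlgebraicClosure ℚ) ↥(modularFunctionFieldBar N))]
    exact (G.O.valuation_le_one_iff _).2 ((G.algebraMap_mem_iff c⁻¹).2 h2)
  rw [map_inv₀] at h4
  have h5 : G.O.valuation (algebraMap (AlgebraicClosure ℚ) ↥(modularFunctionFieldBar N) c) ≠ 0 := by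
    rw [Valuation.ne_zero_iff, Ne, map_eq_zero_iff _
      (algebraMap (AlgebraicClosure ℚ) ↥(modularFunctionFieldBar N)).injective]
    exact hc0
  exact le_antisymm h3 ((inv_le_one₀ (zero_lt_iff.2 h5)).1 h4)

end gal

section concrete

variable (M q : ℕ) [NeZero M] [NeZero q] (hq : q.Prime) (hqM : ¬ q ∣ M)
  (A : ValuationSubring (AlgebraicClosure ℚ)) (hA : A.LiesOverPrime q)
  (hgen : PrincipalGeneratedByIntegral A (IsLocalRing.residue A) (M * q))

include hq hqM hA in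
/-- **RED2, concrete form** (Kummer generators): for a Frobenius lift `σ` at `A ∣ q`, the
Atkin–Lehner involution `w` and `u ≠ 0` such that `N_β u` and `N_β (w u)` (`= N_α u`) are
trivial, the function `(σ • u) · w u` is, up to a trivial factor `c · hⁿ`, `≡ 1` at `V₁` and at
`V₂ = V₁ ∘ w`. -/
theorem S34U_concrete
    (w : ↥(modularFunctionFieldBar (M * q)) ≃+* ↥(modularFunctionFieldBar (M * q)))
    (hwc : ∀ c : AlgebraicClosure ℚ,
      w (algebraMap (AlgebraicClosure ℚ) ↥(modularFunctionFieldBar (M * q)) c) =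
        algebraMap (AlgebraicClosure ℚ) ↥(modularFunctionFieldBar (M * q)) c)
    (hwgal : ∀ (σ : AlgebraicClosure ℚ ≃ₐ[ℚ] AlgebraicClosure ℚ)
      (f : ↥(modularFunctionFieldBar (M * q))),
      w (arithmeticGalois (modularFunctionFieldFull (M * q)) σ • f) =
        arithmeticGalois (modularFunctionFieldFull (M * q)) σ • w f)
    (hww : ∀ f : ↥(modularFunctionFieldBar (M * q)), w (w f) = f)
    (hwα : ∀ g : ↥(modularFunctionFieldBar M),
      w (heckeAlphaBar (AlgebraicClosure ℚ) M q g) = heckeBetaBar (AlgebraicClosure ℚ) M q g)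
    (hwq : ∀ (y z : ℤ) (h : (q : ℤ) * z - M * y = 1) (f : ↥(modularFunctionFieldBar (M * q))),
      qExpand (AlgebraicClosure ℚ) q ((w f : ↥(modularFunctionFieldBar (M * q))) :
        LaurentSeries (AlgebraicClosure ℚ)) =
      ((GRHP_phiInf M q y z h hq f : ↥(modularFunctionFieldBar (M * q * q))) :
        LaurentSeries (AlgebraicClosure ℚ)))
    (O₂ : ValuationSubring ↥(modularFunctionFieldBar (M * q)))
    (hO₂ : ∀ f, f ∈ O₂ ↔ w f ∈ (S18_gaussModL (M * q) A hgen).O)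
    (h12 : ¬ (S18_gaussModL (M * q) A hgen).O ≤ O₂)
    (h21 : ¬ O₂ ≤ (S18_gaussModL (M * q) A hgen).O)
    (n : ℕ) (hn : 0 < n)
    (σ : AlgebraicClosure ℚ ≃ₐ[ℚ] AlgebraicClosure ℚ) (hσ : A.IsFrobeniusAt σ q)
    (u : ↥(modularFunctionFieldBar (M * q))) (hu : u ≠ 0)
    (hNβ : ∃ (c : AlgebraicClosure ℚ) (g : ↥(modularFunctionFieldBar M)),
      @Algebra.norm ↥(modularFunctionFieldBar M) ↥(modularFunctionFieldBar (M * q)) _ _
        (heckeBetaBar (AlgebraicClosure ℚ) M q).toRingHom.toAlgebra u =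
        algebraMap (AlgebraicClosure ℚ) ↥(modularFunctionFieldBar M) c * g ^ n)
    (hNα : ∃ (c : AlgebraicClosure ℚ) (g : ↥(modularFunctionFieldBar M)),
      @Algebra.norm ↥(modularFunctionFieldBar M) ↥(modularFunctionFieldBar (M * q)) _ _
        (heckeBetaBar (AlgebraicClosure ℚ) M q).toRingHom.toAlgebra (w u) =
        algebraMap (AlgebraicClosure ℚ) ↥(modularFunctionFieldBar M) c * g ^ n) :
    ∃ (c : AlgebraicClosure ℚ) (h : ↥(modularFunctionFieldBar (M * q))), c ≠ 0 ∧ h ≠ 0 ∧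
      (S18_gaussModL (M * q) A hgen).O.valuation
        (arithmeticGalois (modularFunctionFieldFull (M * q)) σ • u * w u *
          algebraMap (AlgebraicClosure ℚ) ↥(modularFunctionFieldBar (M * q)) c * h ^ n - 1) < 1 ∧
      O₂.valuation
        (arithmeticGalois (modularFunctionFieldFull (M * q)) σ • u * w u *
          algebraMap (AlgebraicClosure ℚ) ↥(modularFunctionFieldBar (M * q)) c * h ^ n - 1) < 1 := by
  set G := S18_gaussModL (M * q) A hgen with hG
  have hσD : σ ∈ A.decompositionSubgroup ℚ := hσ.mem_decompositionSubgroup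
  haveI : Algebra.IsAlgebraic ℚ (AlgebraicClosure ℚ) := AlgebraicClosure.isAlgebraic ℚ
  -- the data of TRACK 4
  have hq0 : (q : AlgebraicClosure ℚ) ≠ 0 := by exact_mod_cast NeZero.ne q
  haveI : NeZero (q : AlgebraicClosure ℚ) := ⟨hq0⟩
  obtain ⟨z₀, hz₀⟩ := HasEnoughRootsOfUnity.exists_primitiveRoot (AlgebraicClosure ℚ) q
  obtain ⟨ζ, hζ⟩ : ∃ ζ : (AlgebraicClosure ℚ)ˣ, IsPrimitiveRoot (ζ : AlgebraicClosure ℚ) q :=
    ⟨Units.mk0 z₀ (hz₀.ne_zero (NeZero.ne q)), hz₀⟩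
  have hst : GRS_Stab (M * q) q ζ := GRHS_stab ζ hζ hq
  obtain ⟨y, z, hyz⟩ := GRHP_exists_yw hq hqM
  have hwu : w u ≠ 0 := by
    rw [Ne, map_eq_zero_iff w w.injective]; exact hu
  -- the two local statements
  obtain ⟨c₁, v₁, hv₁, hc₁, hred₁, hrel₁⟩ :=
    S34U_red2_V1 M q hq hqM ζ hζ y z hyz A hA hgen σ hσ hst w (hwq y z hyz) u hu _
      (GRHK_beta_norm u)
  obtain ⟨c₂, v₂, hv₂, hc₂, hred₂, hrel₂⟩ :=
    S34U_red2_V1 M q hq hqM ζ hζ y z hyz A hA hgen σ hσ hst w (hwq y z hyz) (w u) hwu _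
      (GRHK_beta_norm (w u))
  obtain ⟨a, g, hag⟩ := hNβ
  obtain ⟨a', g', hag'⟩ := hNα
  obtain ⟨Y, hY⟩ : ∃ Y : ↥(modularFunctionFieldBar (M * q)),
      Y = arithmeticGalois (modularFunctionFieldFull (M * q)) σ • u * w u := ⟨_, rfl⟩
  rw [← hY]
  have e₁ : Y = algebraMap (AlgebraicClosure ℚ) ↥(modularFunctionFieldBar (M * q)) (c₁ * a) *
      (heckeAlphaBar (AlgebraicClosure ℚ) M q g) ^ n * v₁ := by
    rw [hY, hrel₁, hag, map_mul, map_pow, AlgHom.commutes, map_mul]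
    ring
  have e₂ : Y = algebraMap (AlgebraicClosure ℚ) ↥(modularFunctionFieldBar (M * q)) (c₂ * a') *
      (heckeBetaBar (AlgebraicClosure ℚ) M q g') ^ n * w v₂ := by
    have h1 := congrArg w hrel₂
    rw [map_mul, hwgal, hww, map_mul, map_mul, hwc, hwα, hag', map_mul, map_pow,
      AlgHom.commutes] at h1
    rw [hY, h1, map_mul]
    ring
  have hv₁' : G.O.valuation (v₁ - 1) < 1 := S34U_val_sub_one_of_red (M * q) A hgen hv₁ hred₁
  have hv₂' : O₂.valuation (w v₂ - 1) < 1 := by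
    rw [S34R_tr_lt G.O O₂ w hO₂, map_sub, hww, map_one]
    exact S34U_val_sub_one_of_red (M * q) A hgen hv₂ hred₂
  -- the constant `d`
  obtain ⟨d, hd, hy₁, hy₂⟩ := S34U_val_y G.O O₂ A
    (arithmeticGalois (modularFunctionFieldFull (M * q)) σ) w hwc (hwgal σ) hww hO₂
    (fun a => G.algebraMap_mem_iff a) (fun f hf => S34R_gauss_const (M * q) A hgen f hf)
    (fun f hf => S34U_gal_val_one (M * q) A hgen σ hσD hf)
    (fun c hc => S34R_decomp_val A σ hσD c hc) u hu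
  rw [← hY] at hy₁ hy₂
  exact S34U_comb G.O O₂ h12 h21 n hn (fun a => IsAlgClosed.exists_pow_nat_eq a hn)
    Y d (c₁ * a) (c₂ * a') _ _ v₁ (w v₂) hd hy₁ hy₂ hv₁' hv₂' e₁ e₂

end concrete

end Fermat.Agent.S34
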