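import Fermat.Agent.S34.Asm
import Fermat.Agent.S34.RedU3
import Fermat.Agent.S34.RedNorm

/-!
# TRACK 7, package RED2 (helper26), part 4: the named input `S34M_Red2` of ASM

`S34M_Red2 M q hq hqM` (`S34/Asm.lean`) from

* `S34U_Bridge M q` (BRIDGE, helper8): for a `q`-new Kummer generator `f` of exponent `n` the norms
  `N_α f`, `N_β f` are trivial Kummer generators at level `M`;
* `S34M_Incomp M q hq hqM` (VAL-2): the Gauss rings `O₁`, `O₂ = O₁ ∘ w_q` are incomparable.

Also `S34U_red2_gen`: the same statement for one `f` with trivial norms (no `q`-newness).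
-/

set_option autoImplicit false
set_option synthInstance.maxHeartbeats 400000
set_option maxHeartbeats 1000000
set_option linter.unusedSectionVars false
set_option linter.unusedVariables false

open ModularCurve AlgebraicCurve CongruenceSubgroup

noncomputable section

namespace Fermat.Agent.S34

open Fermat.Agent.GalRep Fermat.Agent.S16 Fermat.Agent.S41 Fermat.Agent.S24 Fermat.Agent.S18
  Fermat.Agent.S35

variable (M q : ℕ) [NeZero M] [NeZero q] [NeZero (M * q)] (hq : q.Prime) (hqM : ¬ q ∣ M)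

/-- **(BRIDGE)**: the norms `N_α f`, `N_β f` of a `q`-new Kummer generator `f` of exponent `n`
(`q ∤ n`) are trivial Kummer generators at level `M`. -/
def S34U_Bridge [Fact q.Prime] : Prop :=
  ∀ (n : ℕ), 0 < n → ¬ q ∣ n →
    ∀ (f : ↥(modularFunctionFieldBar (M * q))) (z : ↥(parInt (M * q))),
      z ∈ S41D_B M q →
      KM_IsKum (AlgebraicClosure ℚ) ↥(modularFunctionFieldBar (M * q)) n f →
      GR_KChar (M * q) n f
        ((GRT_red (M * q) n z : ↥(GRT_X (M * q) n)) : Additive (Gamma0 (M * q)) →+ ZMod n) →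
      GR_IsTriv M n (S34NK_normAlpha M q f) ∧ GR_IsTriv M n (S34NK_normBeta M q f)

/-- **RED2** for one function `f ≠ 0` with trivial norms, on the concrete objects of
`S34/Defs.lean`. -/
theorem S34U_red2_gen (A : ValuationSubring (AlgebraicClosure ℚ)) (hA : A.LiesOverPrime q)
    (hgen : PrincipalGeneratedByIntegral A (IsLocalRing.residue A) (M * q))
    (h12 : ¬ S34DF_O1 M q A hgen ≤ S34DF_O2 M q hq hqM A hgen)
    (h21 : ¬ S34DF_O2 M q hq hqM A hgen ≤ S34DF_O1 M q A hgen)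
    (n : ℕ) (hn : 0 < n) (σ : GQ) (hσ : A.IsFrobeniusAt σ q)
    (f : ↥(modularFunctionFieldBar (M * q))) (hf : f ≠ 0)
    (hα : GR_IsTriv M n (S34NK_normAlpha M q f)) (hβ : GR_IsTriv M n (S34NK_normBeta M q f)) :
    ∃ (c : AlgebraicClosure ℚ) (h : ↥(modularFunctionFieldBar (M * q))), c ≠ 0 ∧ h ≠ 0 ∧
      (S34DF_O1 M q A hgen).valuation (GR_gal (M * q) σ f * S34DF_wq M q hq hqM f *
        algebraMap (AlgebraicClosure ℚ) ↥(modularFunctionFieldBar (M * q)) c * h ^ n - 1) < 1 ∧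
      (S34DF_O2 M q hq hqM A hgen).valuation (GR_gal (M * q) σ f * S34DF_wq M q hq hqM f *
        algebraMap (AlgebraicClosure ℚ) ↥(modularFunctionFieldBar (M * q)) c * h ^ n - 1) < 1 := by
  obtain ⟨a, g, -, -, hag⟩ := hβ
  obtain ⟨a', g', -, -, hag'⟩ := hα
  exact S34U_concrete M q hq hqM A hA hgen
    ((S34WJ_wq hq hqM : ↥(modularFunctionFieldBar (M * q)) ≃ₐ[AlgebraicClosure ℚ]
      ↥(modularFunctionFieldBar (M * q))) : ↥(modularFunctionFieldBar (M * q)) ≃+*
        ↥(modularFunctionFieldBar (M * q)))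
    (fun c => (S34WJ_wq hq hqM).commutes c)
    (fun σ f => S34WJ_wq_gal hq hqM σ f)
    (fun f => S34WJ_wq_wq hq hqM f)
    (fun g => S34WJ_wq_alpha hq hqM g)
    (fun y z h f => S34NK_qExpand_wq M q hq hqM y z h f)
    (S34DF_O2 M q hq hqM A hgen) (fun f => Iff.rfl) h12 h21 n hn σ hσ f hf
    ⟨a, g, hag⟩
    ⟨a', g', (S34NK_normBeta_wq M q hq hqM f).trans hag'⟩

/-- **the named input `S34M_Red2` of ASM** from (BRIDGE) and (VAL-2). -/
theorem S34U_Red2 [Fact q.Prime] (hbr : S34U_Bridge M q)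
    (hinc : S34M_Incomp M q hq hqM) : S34M_Red2 M q hq hqM := by
  intro n hn hqn σ A hA hAσ hgen f z hz hf hχ
  obtain ⟨hα, hβ⟩ := hbr n hn hqn f z hz hf hχ
  obtain ⟨h12, h21⟩ := hinc A hA hgen
  exact S34U_red2_gen M q hq hqM A hA hgen h12 h21 n hn σ hAσ f hf.1 hα hβ

end Fermat.Agent.S34
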