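import Mathlib
import Fermat.Agent.Lib.RiemannThm

/-!
# TRACK 7 (S34 + S35), package SAT, fibre part (helper9): graded multiplication (GR)

`Fk / k` a function field satisfying Riemann's theorem (`RR_Hyp k Fk`), `D ≥ 0` a divisor,
`φ ∈ Fk` a function whose divisor is `≥ -p • D` with equality on the support of `D`
(e.g. `φ = ξ ^ a`, `ξ = x ^ Q - x`, `D = (x)_∞`, `p = a * Q`).  Then multiplication by `φ` is onto
on the graded pieces:

  `L((r + p) • D) ≤ φ • L(r • D) ⊔ L((r₁ + p) • D)`     (`r₁ ≤ r`, `deg (r₁ • D) ≥ c`).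

All declarations carry the prefix `S34S_`.
-/

set_option autoImplicit false

open AlgebraicCurve WithZero

namespace Fermat.Agent.S34

open Fermat.Agent.Lib

variable {k Fk : Type*} [Field k] [Field Fk] [Algebra k Fk]

theorem S34S_nsmul_apply (m : ℕ) (D : Divisor k Fk) (v : Place k Fk) :
    (m • D) v = (m : ℤ) * D v := by
  rw [Finsupp.smul_apply, nsmul_eq_mul]

/-- membership in `L(D)` for a nonzero function, in terms of `ord`. -/
theorem S34S_mem_iff_of_ne_zero {D : Divisor k Fk} {f : Fk} (hf : f ≠ 0) :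
    f ∈ riemannRochSpace D ↔ ∀ v : Place k Fk, -D v ≤ v.ord f := by
  rw [mem_riemannRochSpace_iff]
  exact forall_congr' fun v => ⟨fun h => h.resolve_left hf, fun h => Or.inr h⟩

/-- `φ • L(r • D) ≤ L((r + p) • D)` if `div φ ≥ -p • D`. -/
theorem S34S_mul_mem {D : Divisor k Fk} {φ : Fk} {p : ℕ}
    (hφ : ∀ Q : Place k Fk, -((p : ℤ) * D Q) ≤ Q.ord φ) {r : ℕ} {f : Fk}
    (hf : f ∈ riemannRochSpace (r • D)) : φ * f ∈ riemannRochSpace ((r + p) • D) := by
  by_cases hφ0 : φ = 0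
  · rw [hφ0, zero_mul]; exact Submodule.zero_mem _
  by_cases hf0 : f = 0
  · rw [hf0, mul_zero]; exact Submodule.zero_mem _
  rw [S34S_mem_iff_of_ne_zero (mul_ne_zero hφ0 hf0)]
  rw [S34S_mem_iff_of_ne_zero hf0] at hf
  intro Q
  have h1 := hf Q
  have h2 := hφ Q
  rw [S34S_nsmul_apply] at h1 ⊢
  rw [Place.ord_mul Q hφ0 hf0]
  push_cast
  linarith

/-- if `φ` has exact pole order `p • D` on the support of `D ≥ 0`, `f ∈ L(r • D)` and
`φ f ∈ L((r₁ + p) • D)`, then `f ∈ L(r₁ • D)`. -/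
theorem S34S_mem_of_mul_mem {D : Divisor k Fk} (hD : 0 ≤ D) {φ : Fk} (hφ0 : φ ≠ 0) {p : ℕ}
    (hφ : ∀ Q : Place k Fk, 0 < D Q → Q.ord φ = -((p : ℤ) * D Q)) {r r₁ : ℕ} {f : Fk}
    (hf : f ∈ riemannRochSpace (r • D))
    (hφf : φ * f ∈ riemannRochSpace ((r₁ + p) • D)) : f ∈ riemannRochSpace (r₁ • D) := by
  by_cases hf0 : f = 0
  · rw [hf0]; exact Submodule.zero_mem _
  rw [S34S_mem_iff_of_ne_zero (mul_ne_zero hφ0 hf0)] at hφf
  rw [S34S_mem_iff_of_ne_zero hf0] at hf ⊢
  intro Q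
  have h1 := hf Q
  have h2 := hφf Q
  rw [S34S_nsmul_apply] at h1 h2 ⊢
  rw [Place.ord_mul Q hφ0 hf0] at h2
  have hDQ : 0 ≤ D Q := by
    have := Finsupp.le_def.mp hD Q
    simpa using this
  rcases hDQ.eq_or_lt with h0 | hpos
  · rw [← h0] at h1 ⊢
    simpa using h1
  · rw [hφ Q hpos] at h2
    push_cast at h2
    linarith

/-- **(GR)**, graded multiplication: for `r₁ ≤ r` with `deg (r₁ • D)` in the range of Riemann's
theorem, `L((r + p) • D) ≤ φ • L(r • D) ⊔ L((r₁ + p) • D)`. -/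
theorem S34S_GR (h : RR_Hyp k Fk) : ∃ c : ℤ, ∀ (D : Divisor k Fk), 0 ≤ D →
    ∀ (φ : Fk) (hφ0 : φ ≠ 0) (p : ℕ),
      (∀ Q : Place k Fk, 0 < D Q → Q.ord φ = -((p : ℤ) * D Q)) →
      (∀ Q : Place k Fk, D Q = 0 → 0 ≤ Q.ord φ) →
      ∀ r₁ r : ℕ, r₁ ≤ r → c ≤ (r₁ : ℤ) * D.degree →
        riemannRochSpace ((r + p) • D) ≤
          (riemannRochSpace (r • D)).map (RR_mulEquiv (K := k) φ hφ0).toLinearMap ⊔
            riemannRochSpace ((r₁ + p) • D) := by
  obtain ⟨c, hc⟩ := RR_riemann_eq h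
  refine ⟨c, fun D hD φ hφ0 p hφ1 hφ2 r₁ r hr hcr => ?_⟩
  have hφ : ∀ Q : Place k Fk, -((p : ℤ) * D Q) ≤ Q.ord φ := by
    intro Q
    have hDQ : 0 ≤ D Q := by
      have := Finsupp.le_def.mp hD Q
      simpa using this
    rcases hDQ.eq_or_lt with h0 | hpos
    · have := hφ2 Q h0.symm
      rw [← h0]
      simpa using this
    · rw [hφ1 Q hpos]
  have hdeg0 : 0 ≤ D.degree := RR_degree_nonneg h.deg_one hD
  set A := (riemannRochSpace (r • D)).map (RR_mulEquiv (K := k) φ hφ0).toLinearMap with hA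
  set A₁ := (riemannRochSpace (r₁ • D)).map (RR_mulEquiv (K := k) φ hφ0).toLinearMap with hA₁
  set B := riemannRochSpace ((r₁ + p) • D) with hB
  set C := riemannRochSpace ((r + p) • D) with hC
  have hfinC : Module.Finite k C := RR_finite h _
  have hAC : A ≤ C := by
    rintro x ⟨f, hf, rfl⟩
    exact S34S_mul_mem hφ hf
  have hBC : B ≤ C := by
    apply RR_mono
    rw [Finsupp.le_def]
    intro Q
    rw [S34S_nsmul_apply, S34S_nsmul_apply]
    have hDQ : 0 ≤ D Q := by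
      have := Finsupp.le_def.mp hD Q
      simpa using this
    have : ((r₁ + p : ℕ) : ℤ) ≤ ((r + p : ℕ) : ℤ) := by exact_mod_cast Nat.add_le_add_right hr p
    exact mul_le_mul_of_nonneg_right this hDQ
  have hle : A ⊔ B ≤ C := sup_le hAC hBC
  have hinf : A ⊓ B = A₁ := by
    apply le_antisymm
    · rintro x ⟨⟨f, hf, rfl⟩, hxB⟩
      exact ⟨f, S34S_mem_of_mul_mem hD hφ0 hφ1 hf hxB, rfl⟩
    · rintro x ⟨f, hf, rfl⟩
      refine ⟨⟨f, ?_, rfl⟩, S34S_mul_mem hφ hf⟩
      refine RR_mono ?_ hf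
      rw [Finsupp.le_def]
      intro Q
      rw [S34S_nsmul_apply, S34S_nsmul_apply]
      have hDQ : 0 ≤ D Q := by
        have := Finsupp.le_def.mp hD Q
        simpa using this
      have : (r₁ : ℤ) ≤ (r : ℤ) := by exact_mod_cast hr
      exact mul_le_mul_of_nonneg_right this hDQ
  have hfinA : Module.Finite k A := Submodule.finiteDimensional_of_le hAC
  have hfinB : Module.Finite k B := Submodule.finiteDimensional_of_le hBC
  have hdim := Submodule.finrank_sup_add_finrank_inf_eq A B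
  rw [hinf] at hdim
  -- dimensions
  have hdegm : ∀ m : ℕ, ((m • D : Divisor k Fk)).degree = (m : ℤ) * D.degree := by
    intro m
    rw [map_nsmul, nsmul_eq_mul]
  have hRR : ∀ m : ℕ, r₁ ≤ m →
      (Module.finrank k (riemannRochSpace (m • D)) : ℤ) = (m : ℤ) * D.degree + 1 - RR_genus k Fk := by
    intro m hm
    have := hc (m • D) (by
      rw [hdegm]
      have : (r₁ : ℤ) * D.degree ≤ (m : ℤ) * D.degree :=
        mul_le_mul_of_nonneg_right (by exact_mod_cast hm) hdeg0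
      linarith)
    rw [hdegm] at this
    exact this
  have hfA : Module.finrank k A = Module.finrank k (riemannRochSpace (r • D)) :=
    ((RR_mulEquiv (K := k) φ hφ0).submoduleMap (riemannRochSpace (r • D))).finrank_eq.symm
  have hfA₁ : Module.finrank k A₁ = Module.finrank k (riemannRochSpace (r₁ • D)) :=
    ((RR_mulEquiv (K := k) φ hφ0).submoduleMap (riemannRochSpace (r₁ • D))).finrank_eq.symm
  have e1 := hRR r hr
  have e2 := hRR r₁ le_rfl
  have e3 := hRR (r₁ + p) (Nat.le_add_right _ _)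
  have e4 := hRR (r + p) (hr.trans (Nat.le_add_right _ _))
  have hfin' : Module.Finite k ↥(A ⊔ B) := Submodule.finiteDimensional_of_le hle
  have hCeq : A ⊔ B = C := by
    apply Submodule.eq_of_le_of_finrank_eq hle
    have : (Module.finrank k ↥(A ⊔ B) : ℤ) = Module.finrank k C := by
      have hdim' : (Module.finrank k ↥(A ⊔ B) : ℤ) + Module.finrank k A₁ =
          Module.finrank k A + Module.finrank k B := by exact_mod_cast hdim
      rw [hfA, hfA₁] at hdim'
      push_cast at e3 e4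
      linarith
    exact_mod_cast this
  rw [hCeq]

end Fermat.Agent.S34
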