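import Mathlib

/-!
# TRACK 7 (S34 + S35), package SAT, the SQUEEZE (helper14)

Once the node conditions are known in ONE chart (i.e. `codim (W_U ⊂ R̄_U) = s`, which needs (LC)
along ONE cofinal chain, for the untwisted module only), saturation is FREE everywhere else:

* `T = {v | ∀ i, ℓ i v = 0}` (the `s` twisted node conditions `a(P_i) = c_i · b(P_i')`),
* `W ≤ T ⊓ R` (the reduced lattice satisfies the node conditions and pole control),
* `finrank R = finrank W + s` (the count),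
* the `s` conditions are independent on `R` (Riemann on one component of the fibre).

Then `W = T ⊓ R` (`S34S_squeeze`).  Consequences: saturation `W' ⊓ R = W` for every `W' ≤ T`
(`S34S_squeeze_sat`) and the Mayer–Vietoris identity `W₁ ⊔ W₂ = W₁₂` (`S34S_squeeze_sup`).
No (LC) is needed for the twisted modules, for the charts `U'`, `U ∩ U'`, or for rows/columns
`b = 0` of the grid.  Only Mathlib is imported; prefix `S34S_`.
-/

set_option autoImplicit false

namespace Fermat.Agent.S34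

open Module Submodule

variable {k V : Type*} [Field k] [AddCommGroup V] [Module k V]

/-- the subspace cut out by a family of linear conditions -/
def S34S_cut {ι : Type*} (ℓ : ι → V →ₗ[k] k) : Submodule k V := ⨅ i, LinearMap.ker (ℓ i)

theorem S34S_mem_cut {ι : Type*} (ℓ : ι → V →ₗ[k] k) (v : V) :
    v ∈ S34S_cut ℓ ↔ ∀ i, ℓ i v = 0 := by
  simp [S34S_cut, Submodule.mem_iInf]

/-- if the `s` conditions are independent on `R`, then `T ⊓ R` has codimension `s` in `R`. -/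
theorem S34S_finrank_cut_inf {s : ℕ} (ℓ : Fin s → V →ₗ[k] k) (R : Submodule k V)
    [FiniteDimensional k R] (hind : ∀ c : Fin s → k, ∃ v ∈ R, ∀ i, ℓ i v = c i) :
    finrank k ↥(S34S_cut ℓ ⊓ R) + s = finrank k R := by
  -- the evaluation map `R → k^s`
  let ev : ↥R →ₗ[k] (Fin s → k) := LinearMap.pi fun i => (ℓ i).comp R.subtype
  have hsurj : Function.Surjective ev := by
    intro c
    obtain ⟨v, hv, hc⟩ := hind c
    exact ⟨⟨v, hv⟩, funext fun i => hc i⟩
  have hker : LinearMap.ker ev = (S34S_cut ℓ ⊓ R).comap R.subtype := by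
    ext x
    simp only [LinearMap.mem_ker, Submodule.mem_comap, Submodule.subtype_apply,
      Submodule.mem_inf, S34S_mem_cut]
    constructor
    · intro h
      exact ⟨fun i => congrFun h i, x.2⟩
    · intro h
      exact funext fun i => h.1 i
  have h1 := LinearMap.finrank_range_add_finrank_ker ev
  rw [LinearMap.range_eq_top.mpr hsurj, finrank_top, Module.finrank_fin_fun, hker] at h1
  have h2 : finrank k ↥((S34S_cut ℓ ⊓ R).comap R.subtype) = finrank k ↥(S34S_cut ℓ ⊓ R) :=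
    (Submodule.comapSubtypeEquivOfLe (inf_le_right : S34S_cut ℓ ⊓ R ≤ R)).finrank_eq
  omega

/-- **SQUEEZE**: `W ≤ T ⊓ R`, `finrank R = finrank W + s`, the `s` conditions independent on `R`
⇒ `W = T ⊓ R`. -/
theorem S34S_squeeze {s : ℕ} (ℓ : Fin s → V →ₗ[k] k) (W R : Submodule k V)
    [FiniteDimensional k R] (hWR : W ≤ R) (hWT : ∀ v ∈ W, ∀ i, ℓ i v = 0)
    (hcount : finrank k R = finrank k W + s)
    (hind : ∀ c : Fin s → k, ∃ v ∈ R, ∀ i, ℓ i v = c i) :
    W = S34S_cut ℓ ⊓ R := by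
  have hle : W ≤ S34S_cut ℓ ⊓ R :=
    le_inf (fun v hv => (S34S_mem_cut ℓ v).mpr (hWT v hv)) hWR
  have h1 := S34S_finrank_cut_inf ℓ R hind
  have : FiniteDimensional k ↥(S34S_cut ℓ ⊓ R) :=
    Submodule.finiteDimensional_of_le (inf_le_right : S34S_cut ℓ ⊓ R ≤ R)
  exact Submodule.eq_of_le_of_finrank_eq hle (by omega)

/-- **SATURATION from the squeeze**: every bigger module `W'` satisfying the node conditions
meets `R` in `W`. -/
theorem S34S_squeeze_sat {s : ℕ} (ℓ : Fin s → V →ₗ[k] k) (W W' R : Submodule k V)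
    [FiniteDimensional k R] (hWR : W ≤ R) (hWW' : W ≤ W') (hWT' : ∀ v ∈ W', ∀ i, ℓ i v = 0)
    (hcount : finrank k R = finrank k W + s)
    (hind : ∀ c : Fin s → k, ∃ v ∈ R, ∀ i, ℓ i v = c i) :
    W' ⊓ R = W := by
  have h := S34S_squeeze ℓ W R hWR (fun v hv => hWT' v (hWW' hv)) hcount hind
  apply le_antisymm
  · rintro v ⟨hv1, hv2⟩
    rw [h]
    exact ⟨(S34S_mem_cut ℓ v).mpr (hWT' v hv1), hv2⟩
  · exact le_inf hWW' hWR

/-- **MAYER–VIETORIS from the squeeze**: four pole conditions `R₁ ⊓ R₂ ≤ R₀ ≤ R₁₂`, `R₁, R₂ ≤ R₁₂`,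
each squeezed, with affine dimensions.  Then `W₁ ⊔ W₂ = W₁₂`. -/
theorem S34S_squeeze_sup {s : ℕ} (ℓ : Fin s → V →ₗ[k] k)
    (W₀ W₁ W₂ W₁₂ R₀ R₁ R₂ R₁₂ : Submodule k V) [FiniteDimensional k R₁₂]
    (hR0 : R₁ ⊓ R₂ ≤ R₀) (hR0' : R₀ ≤ R₁₂) (hR1 : R₁ ≤ R₁₂) (hR2 : R₂ ≤ R₁₂)
    (h0 : W₀ = S34S_cut ℓ ⊓ R₀) (h1 : W₁ = S34S_cut ℓ ⊓ R₁) (h2 : W₂ = S34S_cut ℓ ⊓ R₂)
    (h12 : W₁₂ = S34S_cut ℓ ⊓ R₁₂)
    (haff : finrank k W₁₂ + finrank k W₀ ≤ finrank k W₁ + finrank k W₂) :
    W₁ ⊔ W₂ = W₁₂ := by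
  have hle1 : W₁ ≤ W₁₂ := by rw [h1, h12]; exact inf_le_inf_left _ hR1
  have hle2 : W₂ ≤ W₁₂ := by rw [h2, h12]; exact inf_le_inf_left _ hR2
  have hle : W₁ ⊔ W₂ ≤ W₁₂ := sup_le hle1 hle2
  have hW12R : W₁₂ ≤ R₁₂ := by rw [h12]; exact inf_le_right
  have hf12 : FiniteDimensional k W₁₂ := Submodule.finiteDimensional_of_le hW12R
  have hf1 : FiniteDimensional k W₁ := Submodule.finiteDimensional_of_le hle1
  have hf2 : FiniteDimensional k W₂ := Submodule.finiteDimensional_of_le hle2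
  have hinf : W₁ ⊓ W₂ ≤ W₀ := by
    rw [h0, h1, h2]
    rintro v ⟨⟨hv1, hv2⟩, ⟨-, hv3⟩⟩
    exact ⟨hv1, hR0 ⟨hv2, hv3⟩⟩
  have hf0 : FiniteDimensional k ↥(W₁ ⊓ W₂) :=
    Submodule.finiteDimensional_of_le (inf_le_left.trans hle1)
  have hW0fin : FiniteDimensional k W₀ := by
    rw [h0]
    exact Submodule.finiteDimensional_of_le (inf_le_right.trans hR0')
  have hmono := Submodule.finrank_mono hinf
  have hdim := Submodule.finrank_sup_add_finrank_inf_eq W₁ W₂
  have hfs : FiniteDimensional k ↥(W₁ ⊔ W₂) := Submodule.finiteDimensional_of_le hle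
  exact Submodule.eq_of_le_of_finrank_eq hle (by
    have := Submodule.finrank_mono hle
    omega)

/-- the same squeeze in the shape `φ : V →ₗ k^s`, `φ(R) = ⊤` (helper9's `sat_of_ker`):
`W ≤ ker φ ⊓ R`, `finrank R = finrank W + s`, `φ(R) = ⊤`  ⇒  `W = ker φ ⊓ R`. -/
theorem S34S_sat_of_ker {s : ℕ} (φ : V →ₗ[k] (Fin s → k)) (W R : Submodule k V)
    [FiniteDimensional k R] (hW : W ≤ LinearMap.ker φ ⊓ R)
    (hcount : finrank k R = finrank k W + s) (hφ : Submodule.map φ R = ⊤) :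
    W = LinearMap.ker φ ⊓ R := by
  have hcut : S34S_cut (fun i => (LinearMap.proj i).comp φ) = LinearMap.ker φ := by
    ext v
    simp only [S34S_mem_cut, LinearMap.comp_apply, LinearMap.proj_apply, LinearMap.mem_ker]
    exact ⟨fun h => funext h, fun h i => congrFun h i⟩
  rw [← hcut]
  refine S34S_squeeze _ W R (hW.trans inf_le_right) ?_ hcount ?_
  · intro v hv i
    have h0 : φ v = 0 := LinearMap.mem_ker.mp (hW hv).1
    simp [h0]
  · intro c
    have hc : c ∈ Submodule.map φ R := by rw [hφ]; exact Submodule.mem_top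
    obtain ⟨v, hv, rfl⟩ := hc
    exact ⟨v, hv, fun i => rfl⟩

/-- saturation in the shape of `S34S_sat_of_ker`: if `W' ≤ ker φ` contains `W`, then
`W' ⊓ R = W`. -/
theorem S34S_sat_of_ker' {s : ℕ} (φ : V →ₗ[k] (Fin s → k)) (W W' R : Submodule k V)
    [FiniteDimensional k R] (hWR : W ≤ R) (hWW' : W ≤ W') (hW' : W' ≤ LinearMap.ker φ)
    (hcount : finrank k R = finrank k W + s) (hφ : Submodule.map φ R = ⊤) :
    W' ⊓ R = W := by
  have h := S34S_sat_of_ker φ W R (le_inf (hWW'.trans hW') hWR) hcount hφ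
  apply le_antisymm
  · rw [h]
    exact inf_le_inf_right _ hW'
  · exact le_inf hWW' hWR

end Fermat.Agent.S34
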