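import Fermat.Agent.S18.X0
import Fermat.Agent.S24.CuspCount

/-!
# TRACK 7 (S34/S35), package SAT, piece (CK) + (AB): the cusps of `X₀(N)` and the generators

`F = modularFunctionFieldBar N` over `ℚ̄`, `j = jB N`, `j_d = jBar N d`.  For every place `v`
of `F` over `j = ∞`:

* `S34SX_cusp_rel` : there is a coset `γ` with `N · ord_v f = (− ord_v j) · cuspW γ f` for
  all `f ≠ 0` (`cuspW γ` = order at `i∞` of the conjugate of `f`, parameter `exp (2πiτ/N)`);
* `S34SX_cuspW_jBar` : `cuspW γ (j_d) = − a · (N / d')` with `a · d' = d`;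
* `S34SX_ord_jBar` : `d' · ord_v (j_d) = a · ord_v j` for some `a · d' = d`;
* `S34SX_kind` (d = q prime): `ord_v j_q = q · ord_v j` (kind 1) or `q · ord_v j_q = ord_v j`
  (kind 2);
* `S34SX_AB` : `q · ord_v j ≤ ord_v j_q`, `q · ord_v j_q ≤ ord_v j`, `ord_v j_q < 0`.
-/

set_option autoImplicit false
set_option maxHeartbeats 400000

open UpperHalfPlane hiding I
open scoped MatrixGroups Manifold ModularForm
open CongruenceSubgroup ModularCurve IntermediateField AlgebraicCurve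
open Fermat.Agent.S20 Fermat.Agent.S24 Fermat.Agent.S18

noncomputable section

namespace Fermat.Agent.S34

variable (N : ℕ) [NeZero N]

/-- every place over `j = ∞` is a cusp: its order function is proportional to the analytic
order `cuspW γ` of one of the conjugates. -/
theorem S34SX_cusp_rel
    (v : Place (AlgebraicClosure ℚ) ↥(modularFunctionFieldBar N)) (hv : v.ord (jB N) < 0) :
    ∃ γ : S20_Q N, ∀ f : ↥(modularFunctionFieldBar N), f ≠ 0 →
      (N : ℤ) * v.ord f = (- v.ord (jB N)) * cuspW N (ev N) γ f := by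
  classical
  have he := isEv_ev N
  have hinv := S24_hinv N (ev N) (isEv_ev N)
  have hfd := finiteDimensional_jB N
  have hdeg : Module.finrank (AlgebraicClosure ℚ)⟮jB N⟯ ↥(modularFunctionFieldBar N) =
      Nat.card (S20_Q N) := (finrank_eq_psi N).trans (S20_card_Q N).symm
  obtain ⟨hw, -, -, -, hnorm⟩ := S24_cusp_inputs he hinv hdeg.le
  have htr := BG_transcendental_inv (transcendental_jB N)
  have hfd' : FiniteDimensional (AlgebraicClosure ℚ)⟮(jB N)⁻¹⟯ ↥(modularFunctionFieldBar N) :=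
    W_finite_inv (K := AlgebraicClosure ℚ) (jB N)
  have hXne : Nonempty (S20_Q N) := by
    have : 0 < Nat.card (S20_Q N) := by rw [← hdeg]; exact Module.finrank_pos
    exact (Nat.card_pos_iff.mp this).1
  have hXfin : Finite (S20_Q N) := by
    have : 0 < Nat.card (S20_Q N) := by rw [← hdeg]; exact Module.finrank_pos
    exact (Nat.card_pos_iff.mp this).2
  have hx0 : (jB N)⁻¹ ≠ 0 := fun h => htr (h ▸ isAlgebraic_zero)
  have hN0 : (0 : ℤ) < (N : ℤ) := by exact_mod_cast Nat.pos_of_ne_zero (NeZero.ne N)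
  have hv' : 0 < v.ord (jB N)⁻¹ := by rw [v.ord_inv]; omega
  obtain ⟨-, γ, hγ⟩ := X0_ord_dvd_abs (jB N)⁻¹ hx0 (BG_approx htr) (BG_norm htr)
    (cuspW N (ev N)) hw (N : ℤ) hN0 (cuspW_jB_inv he)
    (fun f hf γ₀ => by rw [W_norm_inv (jB N) f]; exact hnorm f hf γ₀) v hv'
  refine ⟨γ, fun f hf => ?_⟩
  rw [hγ f hf, v.ord_inv]

/-- the analytic order of the generator `j_d` at the cusp `γ`. -/
theorem S34SX_cuspW_jBar (γ : S20_Q N) (d : ℕ) [NeZero d] (hd : d ∣ N) :
    ∃ a d' : ℕ, 0 < a ∧ 0 < d' ∧ a * d' = d ∧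
      cuspW N (ev N) γ (jBar N d hd) = -((a * (N / d') : ℕ) : ℤ) := by
  have he := isEv_ev N
  obtain ⟨a, d', c, ha, hd', hadd, -, h⟩ :=
    cuspFrac_merComp_jHol N (Quotient.out γ)⁻¹ (Nat.pos_of_ne_zero (NeZero.ne d)) hd
  refine ⟨a, d', ha, hd', hadd, ?_⟩
  have h1 : S24_sig N (ev N) γ (jBar N d hd) =
      merComp (Quotient.out γ)⁻¹ (algebraMap Hol Mer (jHol d)) := by
    show merComp _ (ev N (jBar N d hd)) = _
    rw [he.gen d hd]
  rw [← h1] at h
  exact cuspW_eq h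

/-- the generators are nonzero. -/
theorem S34SX_jBar_ne_zero (d : ℕ) [NeZero d] (hd : d ∣ N) : jBar N d hd ≠ 0 := by
  intro h0
  have hdeg : Module.finrank (AlgebraicClosure ℚ)⟮jB N⟯ ↥(modularFunctionFieldBar N) =
      Nat.card (S20_Q N) := (finrank_eq_psi N).trans (S20_card_Q N).symm
  have hfd := finiteDimensional_jB N
  have hXne : Nonempty (S20_Q N) := by
    have : 0 < Nat.card (S20_Q N) := by rw [← hdeg]; exact Module.finrank_pos
    exact (Nat.card_pos_iff.mp this).1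
  obtain ⟨γ⟩ := hXne
  obtain ⟨a, d', ha, hd', hadd, hw⟩ := S34SX_cuspW_jBar N γ d hd
  rw [h0, cuspW_zero] at hw
  have hd'N : d' ∣ N := (Dvd.intro_left a hadd).trans hd
  have h1 : 0 < N / d' :=
    Nat.div_pos (Nat.le_of_dvd (Nat.pos_of_ne_zero (NeZero.ne N)) hd'N) hd'
  have h2 : 0 < a * (N / d') := Nat.mul_pos ha h1
  omega

/-- orders of the generators at a place over `j = ∞`. -/
theorem S34SX_ord_jBar
    (v : Place (AlgebraicClosure ℚ) ↥(modularFunctionFieldBar N)) (hv : v.ord (jB N) < 0)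
    (d : ℕ) [NeZero d] (hd : d ∣ N) :
    ∃ a d' : ℕ, 0 < a ∧ 0 < d' ∧ a * d' = d ∧
      (d' : ℤ) * v.ord (jBar N d hd) = (a : ℤ) * v.ord (jB N) := by
  have hne := S34SX_jBar_ne_zero N d hd
  obtain ⟨γ, hγ⟩ := S34SX_cusp_rel N v hv
  obtain ⟨a, d', ha, hd', hadd, hw⟩ := S34SX_cuspW_jBar N γ d hd
  refine ⟨a, d', ha, hd', hadd, ?_⟩
  have h1 := hγ _ hne
  rw [hw] at h1
  have hd'N : d' ∣ N := (Dvd.intro_left a hadd).trans hd
  obtain ⟨m, hm⟩ := hd'N
  have hN0 : (0 : ℤ) < (N : ℤ) := by exact_mod_cast Nat.pos_of_ne_zero (NeZero.ne N)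
  have hdiv : N / d' = m := by
    rw [hm]; exact Nat.mul_div_cancel_left m hd'
  rw [hdiv] at h1
  have hNm : (N : ℤ) = (d' : ℤ) * (m : ℤ) := by exact_mod_cast hm
  have hm0 : (m : ℤ) ≠ 0 := by
    intro h0
    rw [h0, mul_zero] at hNm
    omega
  push_cast at h1
  rw [hNm] at h1
  have h2 : (m : ℤ) * ((d' : ℤ) * v.ord (jBar N d hd)) = (m : ℤ) * ((a : ℤ) * v.ord (jB N)) := by
    linear_combination h1
  exact mul_left_cancel₀ hm0 h2

/-- **(β-pole)** `j_d ∈ L(d · (j)_∞)` at the cusps: `d · ord_v j ≤ ord_v j_d < 0`. -/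
theorem S34SX_ord_jBar_ge
    (v : Place (AlgebraicClosure ℚ) ↥(modularFunctionFieldBar N)) (hv : v.ord (jB N) < 0)
    (d : ℕ) [NeZero d] (hd : d ∣ N) :
    (d : ℤ) * v.ord (jB N) ≤ v.ord (jBar N d hd) ∧ v.ord (jBar N d hd) < 0 := by
  obtain ⟨a, d', ha, hd', hadd, h⟩ := S34SX_ord_jBar N v hv d hd
  have ha' : (0 : ℤ) < (a : ℤ) := by exact_mod_cast ha
  have hd'' : (0 : ℤ) < (d' : ℤ) := by exact_mod_cast hd'
  have hdz : (d : ℤ) = (a : ℤ) * (d' : ℤ) := by exact_mod_cast hadd.symm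
  constructor
  · -- d' * (d * ord j) = a * d'^2 * ord j ≤ a * ord j = d' * ord j_d
    have h1 : (d' : ℤ) * ((d : ℤ) * v.ord (jB N)) ≤ (d' : ℤ) * v.ord (jBar N d hd) := by
      rw [h, hdz]
      have h2 : (1 : ℤ) ≤ (d' : ℤ) * (d' : ℤ) := by nlinarith
      have key : 0 ≤ ((a : ℤ) * (- v.ord (jB N))) * ((d' : ℤ) * (d' : ℤ) - 1) :=
        mul_nonneg (mul_nonneg ha'.le (by omega)) (by omega)
      nlinarith [key]
    exact le_of_mul_le_mul_left h1 hd''
  · by_contra hcon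
    push Not at hcon
    have h1 : 0 ≤ (d' : ℤ) * v.ord (jBar N d hd) := mul_nonneg hd''.le hcon
    rw [h] at h1
    nlinarith

/-- **(CK)** the two kinds of cusps for a prime `q ∣ N`: `ord_v j_q = q · ord_v j` (kind 1) or
`q · ord_v j_q = ord_v j` (kind 2). -/
theorem S34SX_kind
    (v : Place (AlgebraicClosure ℚ) ↥(modularFunctionFieldBar N)) (hv : v.ord (jB N) < 0)
    (q : ℕ) [NeZero q] (hq : q.Prime) (hd : q ∣ N) :
    v.ord (jBar N q hd) = (q : ℤ) * v.ord (jB N) ∨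
      (q : ℤ) * v.ord (jBar N q hd) = v.ord (jB N) := by
  obtain ⟨a, d', ha, hd', hadd, h⟩ := S34SX_ord_jBar N v hv q hd
  have hdvd : a ∣ q := Dvd.intro _ hadd
  rcases (Nat.dvd_prime hq).mp hdvd with h1 | h1
  · -- a = 1, d' = q
    subst h1
    rw [one_mul] at hadd
    subst hadd
    right
    simpa using h
  · -- a = q, d' = 1
    subst h1
    have hd1 : d' = 1 := by
      have := Nat.eq_of_mul_eq_mul_left ha (hadd.trans (mul_one a).symm)
      exact this
    subst hd1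
    left
    simpa using h

/-- **(AB)** the weak cusp inequalities for a prime `q ∣ N`. -/
theorem S34SX_AB
    (v : Place (AlgebraicClosure ℚ) ↥(modularFunctionFieldBar N)) (hv : v.ord (jB N) < 0)
    (q : ℕ) [NeZero q] (hq : q.Prime) (hd : q ∣ N) :
    (q : ℤ) * v.ord (jB N) ≤ v.ord (jBar N q hd) ∧
      (q : ℤ) * v.ord (jBar N q hd) ≤ v.ord (jB N) ∧ v.ord (jBar N q hd) < 0 := by
  have hq1 : (1 : ℤ) ≤ (q : ℤ) := by exact_mod_cast hq.one_lt.le
  have hqq : (1 : ℤ) ≤ (q : ℤ) * (q : ℤ) := by nlinarith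
  rcases S34SX_kind N v hv q hq hd with h | h
  · refine ⟨h.ge, ?_, ?_⟩
    · rw [h]
      have key : 0 ≤ (- v.ord (jB N)) * ((q : ℤ) * (q : ℤ) - 1) :=
        mul_nonneg (by omega) (by omega)
      nlinarith [key]
    · rw [h]; nlinarith
  · have hneg : v.ord (jBar N q hd) < 0 := by
      by_contra hcon
      push Not at hcon
      have : 0 ≤ (q : ℤ) * v.ord (jBar N q hd) := mul_nonneg (by omega) hcon
      omega
    refine ⟨?_, h.le, hneg⟩
    rw [← h]
    have key : 0 ≤ (- v.ord (jBar N q hd)) * ((q : ℤ) * (q : ℤ) - 1) :=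
      mul_nonneg (by omega) (by omega)
    nlinarith [key]

end Fermat.Agent.S34
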