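import Fermat.Agent.S34.StraightInst
import Fermat.Agent.S34.NodalFrob

/-!
# TRACK 7 (S34 + S35), package STRAIGHT (helper13): the Frobenius `φ_σ` against `τ`, `Fr` of NODAL

`A` a valuation subring of `ℚ̄`, `k = A / 𝔪` (perfect of characteristic `q`), `σ` a Frobenius lift
at `A`, `N` any level.  `φ_σ = S34ST_phi N A σ` is the coefficientwise Frobenius of
`F̄_N ⊂ k((t))` (helper22), `τ = S34NF_tau k q N` the coefficientwise inverse Frobenius,
`Fr = S34NF_Fr k q N` the substitution `t ↦ t^q` (helper21).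

* `S34SW_phi_jbar`     : `φ_g j̄ = j̄` (every `g` in the decomposition group);
* `S34SW_phi_reg_jbar` : `φ_g` keeps the ring `S34SB_reg k j̄`;
* `S34SW_phi_tau`, `S34SW_tau_phi` : `φ_σ ∘ τ = id = τ ∘ φ_σ`;
* `S34SW_tau_surj_reg` : `τ` is onto on `S34SB_reg k j̄` — the hypothesis `hτs` of `S34SW_A3_fn`;
* `S34SW_phi_sq_eq`    : `Fr (Fr (φ_σ (φ_σ y))) = y ^ (q ^ 2)`.
-/

set_option autoImplicit false
set_option synthInstance.maxHeartbeats 400000
set_option maxHeartbeats 1000000
set_option linter.unusedSectionVars false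

open HahnSeries IntermediateField AlgebraicCurve ModularCurve
open scoped Pointwise

noncomputable section

namespace Fermat.Agent.S34

open Fermat.Agent.S18 Fermat.Agent.GalRep Fermat.Agent.S24

section

variable (N : ℕ) [NeZero N] (A : ValuationSubring (AlgebraicClosure ℚ))

/-- `φ_g` fixes `j̄`. -/
theorem S34SW_phi_jbar (g : A.decompositionSubgroup ℚ) :
    S34ST_phi N A g (S18_jbar N (IsLocalRing.ResidueField A)) =
      S18_jbar N (IsLocalRing.ResidueField A) := by
  apply Subtype.ext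
  show coeffMap (S34ST_res A g) (jqModC (IsLocalRing.ResidueField A)) =
    jqModC (IsLocalRing.ResidueField A)
  exact coeffMap_jqModC _

/-- `φ_g` keeps the ring of the functions regular off the poles of `j̄`. -/
theorem S34SW_phi_reg_jbar (g : A.decompositionSubgroup ℚ) :
    ∀ y ∈ S34SB_reg (IsLocalRing.ResidueField A) (S18_jbar N (IsLocalRing.ResidueField A)),
      S34ST_phi N A g y ∈
        S34SB_reg (IsLocalRing.ResidueField A) (S18_jbar N (IsLocalRing.ResidueField A)) :=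
  S34SW_phi_reg N A g (S34SW_phi_jbar N A g)

variable (q : ℕ) [Fact q.Prime] [CharP (IsLocalRing.ResidueField A) q]
  [PerfectRing (IsLocalRing.ResidueField A) q]
  (σ : AlgebraicClosure ℚ ≃ₐ[ℚ] AlgebraicClosure ℚ) (hσ : A.IsFrobeniusAt σ q)

/-- `φ_σ ∘ τ = id`. -/
theorem S34SW_phi_tau (y : ↥(modularFunctionFieldFullC (IsLocalRing.ResidueField A) N)) :
    S34ST_phi N A ⟨σ, hσ.mem_decompositionSubgroup⟩
      (S34NF_tau (IsLocalRing.ResidueField A) q N y) = y := by
  apply Subtype.ext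
  ext n
  rw [S34ST_phi_frob_coeff N A q σ hσ]
  show ((frobeniusEquiv (IsLocalRing.ResidueField A) q).symm
    ((y : LaurentSeries (IsLocalRing.ResidueField A)).coeff n)) ^ q = _
  exact frobeniusEquiv_symm_pow_p (IsLocalRing.ResidueField A) q _

/-- `τ ∘ φ_σ = id`. -/
theorem S34SW_tau_phi (y : ↥(modularFunctionFieldFullC (IsLocalRing.ResidueField A) N)) :
    S34NF_tau (IsLocalRing.ResidueField A) q N
      (S34ST_phi N A ⟨σ, hσ.mem_decompositionSubgroup⟩ y) = y := by
  apply Subtype.ext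
  ext n
  show (frobeniusEquiv (IsLocalRing.ResidueField A) q).symm
    (((S34ST_phi N A ⟨σ, hσ.mem_decompositionSubgroup⟩ y :
      ↥(modularFunctionFieldFullC (IsLocalRing.ResidueField A) N)) :
      LaurentSeries (IsLocalRing.ResidueField A)).coeff n) = _
  rw [S34ST_phi_frob_coeff N A q σ hσ]
  exact frobeniusEquiv_symm_apply_frobenius (IsLocalRing.ResidueField A) q _

include hσ in
/-- **`τ` is onto on the ring `S34SB_reg k j̄`** (the hypothesis `hτs` of `S34SW_A3_fn`);
`σ` is any Frobenius lift at `A`. -/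
theorem S34SW_tau_surj_reg :
    ∀ y ∈ S34SB_reg (IsLocalRing.ResidueField A) (S18_jbar N (IsLocalRing.ResidueField A)),
      ∃ z ∈ S34SB_reg (IsLocalRing.ResidueField A) (S18_jbar N (IsLocalRing.ResidueField A)),
        S34NF_tau (IsLocalRing.ResidueField A) q N z = y :=
  fun y hy => ⟨S34ST_phi N A ⟨σ, hσ.mem_decompositionSubgroup⟩ y,
    S34SW_phi_reg_jbar N A _ y hy, S34SW_tau_phi N A q σ hσ y⟩

/-- `Fr ∘ φ_σ = (·)^q`. -/
theorem S34SW_Fr_phi (y : ↥(modularFunctionFieldFullC (IsLocalRing.ResidueField A) N)) :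
    S34NF_Fr (IsLocalRing.ResidueField A) q N
      (S34ST_phi N A ⟨σ, hσ.mem_decompositionSubgroup⟩ y) = y ^ q := by
  rw [S34NF_Fr_eq, S34SW_tau_phi N A q σ hσ]

/-- `Fr² ∘ φ_σ² = (·)^{q²}`. -/
theorem S34SW_phi_sq_eq (y : ↥(modularFunctionFieldFullC (IsLocalRing.ResidueField A) N)) :
    S34NF_Fr (IsLocalRing.ResidueField A) q N (S34NF_Fr (IsLocalRing.ResidueField A) q N
      (S34ST_phi N A ⟨σ, hσ.mem_decompositionSubgroup⟩
        (S34ST_phi N A ⟨σ, hσ.mem_decompositionSubgroup⟩ y))) = y ^ (q ^ 2) := by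
  rw [S34SW_Fr_phi N A q σ hσ, map_pow, S34SW_Fr_phi N A q σ hσ, ← pow_mul, pow_two]

end

end Fermat.Agent.S34
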