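import Fermat.Agent.S34.StraightAsm
import Fermat.Agent.S34.StraightTau

/-!
# TRACK 7 (S34 + S35), sub-target (G5) (helper13): (A3) on THE canonical objects

`S34SW_hA3_of_nodal` : the hypothesis `hA3` of `S34SW_straightSig` / `S34K_hK_sig2` on the canonical
objects (`S34M_T1`, `S34M_T2`, `S34M_chart`), for `Φ₂ = S34ST_phi (M * q) A σ`, from the data of
`S34N_nodal` at level `M`:

* `S₀` a valuation datum of `F_M` with residue field `F̄_M = modularFunctionFieldFullC k M`,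
* `ι₁ ι₂ : F̄_M →+* F̄_{M q}` with `ι₂` the inclusion of subfields of `k((t))`,
* `hR₂` : `Rb₂ ⊂ ι₂ (reg j̄_M)`,
* `hα`, `hβ` : `red (α^* f) = (ι₁ f̄, ι₂ (Fr f̄))`, `red (β^* f) = (ι₁ (Fr f̄), ι₂ f̄)`,
* `honto` : ONTO-M.

`S34SW_straightSig_of_nodal` : `S34M_StraightSig` from the same data.
-/

set_option autoImplicit false
set_option synthInstance.maxHeartbeats 400000
set_option maxHeartbeats 1000000
set_option linter.unusedSectionVars false

open HahnSeries IntermediateField AlgebraicCurve ModularCurve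
open scoped Pointwise

noncomputable section

namespace Fermat.Agent.S34

open Fermat.Agent.S18 Fermat.Agent.GalRep Fermat.Agent.S24

section

variable (M q : ℕ) [NeZero M] [NeZero q] [NeZero (M * q)] (hq : q.Prime) (hqM : ¬ q ∣ M)
  (A : ValuationSubring (AlgebraicClosure ℚ))
  (hgen : PrincipalGeneratedByIntegral A (IsLocalRing.residue A) (M * q))

/-- `Φ₂ ∘ ι₂ ∘ τ = ι₂` for every map `ι₂ : F̄_M → F̄_{M q}` which is the identity on the underlying
Laurent series. -/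
theorem S34SW_phi_iota_tau [Fact q.Prime] [CharP (IsLocalRing.ResidueField A) q]
    [PerfectRing (IsLocalRing.ResidueField A) q]
    (σ : AlgebraicClosure ℚ ≃ₐ[ℚ] AlgebraicClosure ℚ) (hσ : A.IsFrobeniusAt σ q)
    (ι₂ : ↥(modularFunctionFieldFullC (IsLocalRing.ResidueField A) M) →+*
      ↥(modularFunctionFieldFullC (IsLocalRing.ResidueField A) (M * q)))
    (hι₂ : ∀ y, ((ι₂ y : ↥(modularFunctionFieldFullC (IsLocalRing.ResidueField A) (M * q))) :
      LaurentSeries (IsLocalRing.ResidueField A)) = (y : LaurentSeries (IsLocalRing.ResidueField A)))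
    (y : ↥(modularFunctionFieldFullC (IsLocalRing.ResidueField A) M)) :
    S34ST_phi (M * q) A ⟨σ, hσ.mem_decompositionSubgroup⟩
      (ι₂ (S34NF_tau (IsLocalRing.ResidueField A) q M y)) = ι₂ y := by
  apply Subtype.ext
  rw [S34ST_phi_coe, hι₂, hι₂, S34NF_tau_coe]
  exact S34SW_phi_frob_tau A q σ hσ _

/-- **(G5)**: (A3) on the canonical objects from the data of `S34N_nodal`. -/
theorem S34SW_hA3_of_nodal [Fact q.Prime] [CharP (IsLocalRing.ResidueField A) q]
    [PerfectRing (IsLocalRing.ResidueField A) q] (hA : A.LiesOverPrime q)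
    (n : ℕ) (hn : 0 < n)
    (σ : AlgebraicClosure ℚ ≃ₐ[ℚ] AlgebraicClosure ℚ) (hσ : A.IsFrobeniusAt σ q)
    (S₀ : S18_Val (AlgebraicClosure ℚ) ↥(modularFunctionFieldBar M) (IsLocalRing.ResidueField A)
      ↥(modularFunctionFieldFullC (IsLocalRing.ResidueField A) M))
    (α β : ↥(modularFunctionFieldBar M) →+* ↥(modularFunctionFieldBar (M * q)))
    (B₀ : Set ↥(modularFunctionFieldBar M))
    (ι₁ ι₂ : ↥(modularFunctionFieldFullC (IsLocalRing.ResidueField A) M) →+*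
      ↥(modularFunctionFieldFullC (IsLocalRing.ResidueField A) (M * q)))
    (hι₂ : ∀ y, ((ι₂ y : ↥(modularFunctionFieldFullC (IsLocalRing.ResidueField A) (M * q))) :
      LaurentSeries (IsLocalRing.ResidueField A)) = (y : LaurentSeries (IsLocalRing.ResidueField A)))
    (hR₂ : ∀ b ∈ (S34M_chart M q A n hn).Rb₂,
      ∃ y ∈ (S34SB_reg (IsLocalRing.ResidueField A) (S18_jbar M (IsLocalRing.ResidueField A)) :
        Set ↥(modularFunctionFieldFullC (IsLocalRing.ResidueField A) M)), ι₂ y = b)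
    (hα : ∀ f : S₀.O, (f : ↥(modularFunctionFieldBar M)) ∈ B₀ →
      ∃ h : α f ∈ S34P_O2 (S34M_T1 M q A hgen) (S34M_T2 M q hq hqM A hgen),
        α f ∈ (S34M_chart M q A n hn).B ∧
        S34P_red (S34M_T1 M q A hgen) (S34M_T2 M q hq hqM A hgen) ⟨α f, h⟩ =
          (ι₁ (S₀.red f), ι₂ (S34NF_Fr (IsLocalRing.ResidueField A) q M (S₀.red f))))
    (hβ : ∀ f : S₀.O, (f : ↥(modularFunctionFieldBar M)) ∈ B₀ →
      ∃ h : β f ∈ S34P_O2 (S34M_T1 M q A hgen) (S34M_T2 M q hq hqM A hgen),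
        β f ∈ (S34M_chart M q A n hn).B ∧
        S34P_red (S34M_T1 M q A hgen) (S34M_T2 M q hq hqM A hgen) ⟨β f, h⟩ =
          (ι₁ (S34NF_Fr (IsLocalRing.ResidueField A) q M (S₀.red f)), ι₂ (S₀.red f)))
    (honto : ∀ y ∈ (S34SB_reg (IsLocalRing.ResidueField A)
        (S18_jbar M (IsLocalRing.ResidueField A)) :
        Set ↥(modularFunctionFieldFullC (IsLocalRing.ResidueField A) M)),
      ∃ f : S₀.O, (f : ↥(modularFunctionFieldBar M)) ∈ B₀ ∧ S₀.red f = y) :
    ∀ b ∈ (S34M_chart M q A n hn).Rb₂,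
      ∃ f : S34P_O2 (S34M_T1 M q A hgen) (S34M_T2 M q hq hqM A hgen),
        (f : ↥(modularFunctionFieldBar (M * q))) ∈ (S34M_chart M q A n hn).B ∧
        S34P_red (S34M_T1 M q A hgen) (S34M_T2 M q hq hqM A hgen) f =
          (0, S34ST_phi (M * q) A ⟨σ, hσ.mem_decompositionSubgroup⟩
            (S34ST_phi (M * q) A ⟨σ, hσ.mem_decompositionSubgroup⟩ b) - b ^ (q ^ 2)) :=
  S34SW_A3_fn (S34M_chart M q A n hn) S₀ α β B₀
    (S34SB_reg (IsLocalRing.ResidueField A) (S18_jbar M (IsLocalRing.ResidueField A)) :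
      Set ↥(modularFunctionFieldFullC (IsLocalRing.ResidueField A) M))
    ι₁ ι₂ (S34NF_Fr (IsLocalRing.ResidueField A) q M) (S34NF_tau (IsLocalRing.ResidueField A) q M) q
    (S34NF_Fr_eq (IsLocalRing.ResidueField A) q M)
    (fun _ hy => S34NF_tau_reg_res M q A hq hqM hA hy)
    (S34SW_tau_surj_reg M A q σ hσ)
    (fun _ hy => Subalgebra.pow_mem _ hy q)
    hR₂
    (S34ST_phi (M * q) A ⟨σ, hσ.mem_decompositionSubgroup⟩)
    (fun y _ => S34SW_phi_iota_tau M q A σ hσ ι₂ hι₂ y)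
    hα hβ honto

/-- **(G4 + G5)**: `S34M_StraightSig` on the canonical objects from the data of `S34N_nodal`. -/
theorem S34SW_straightSig_of_nodal [Fact q.Prime] [CharP (IsLocalRing.ResidueField A) q]
    [PerfectRing (IsLocalRing.ResidueField A) q] (hA : A.LiesOverPrime q)
    (n : ℕ) (hn : 0 < n)
    (σ : AlgebraicClosure ℚ ≃ₐ[ℚ] AlgebraicClosure ℚ) (hσ : A.IsFrobeniusAt σ q)
    (S₀ : S18_Val (AlgebraicClosure ℚ) ↥(modularFunctionFieldBar M) (IsLocalRing.ResidueField A)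
      ↥(modularFunctionFieldFullC (IsLocalRing.ResidueField A) M))
    (α β : ↥(modularFunctionFieldBar M) →+* ↥(modularFunctionFieldBar (M * q)))
    (B₀ : Set ↥(modularFunctionFieldBar M))
    (ι₁ ι₂ : ↥(modularFunctionFieldFullC (IsLocalRing.ResidueField A) M) →+*
      ↥(modularFunctionFieldFullC (IsLocalRing.ResidueField A) (M * q)))
    (hι₂ : ∀ y, ((ι₂ y : ↥(modularFunctionFieldFullC (IsLocalRing.ResidueField A) (M * q))) :
      LaurentSeries (IsLocalRing.ResidueField A)) = (y : LaurentSeries (IsLocalRing.ResidueField A)))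
    (hR₂ : ∀ b ∈ (S34M_chart M q A n hn).Rb₂,
      ∃ y ∈ (S34SB_reg (IsLocalRing.ResidueField A) (S18_jbar M (IsLocalRing.ResidueField A)) :
        Set ↥(modularFunctionFieldFullC (IsLocalRing.ResidueField A) M)), ι₂ y = b)
    (hα : ∀ f : S₀.O, (f : ↥(modularFunctionFieldBar M)) ∈ B₀ →
      ∃ h : α f ∈ S34P_O2 (S34M_T1 M q A hgen) (S34M_T2 M q hq hqM A hgen),
        α f ∈ (S34M_chart M q A n hn).B ∧
        S34P_red (S34M_T1 M q A hgen) (S34M_T2 M q hq hqM A hgen) ⟨α f, h⟩ =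
          (ι₁ (S₀.red f), ι₂ (S34NF_Fr (IsLocalRing.ResidueField A) q M (S₀.red f))))
    (hβ : ∀ f : S₀.O, (f : ↥(modularFunctionFieldBar M)) ∈ B₀ →
      ∃ h : β f ∈ S34P_O2 (S34M_T1 M q A hgen) (S34M_T2 M q hq hqM A hgen),
        β f ∈ (S34M_chart M q A n hn).B ∧
        S34P_red (S34M_T1 M q A hgen) (S34M_T2 M q hq hqM A hgen) ⟨β f, h⟩ =
          (ι₁ (S34NF_Fr (IsLocalRing.ResidueField A) q M (S₀.red f)), ι₂ (S₀.red f)))
    (honto : ∀ y ∈ (S34SB_reg (IsLocalRing.ResidueField A)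
        (S18_jbar M (IsLocalRing.ResidueField A)) :
        Set ↥(modularFunctionFieldFullC (IsLocalRing.ResidueField A) M)),
      ∃ f : S₀.O, (f : ↥(modularFunctionFieldBar M)) ∈ B₀ ∧ S₀.red f = y) :
    S34M_StraightSig M q hq hqM A hgen n hn σ :=
  S34SW_straightSig M q hq hqM A hgen n hn σ hσ
    (S34SW_hA3_of_nodal M q hq hqM A hgen hA n hn σ hσ S₀ α β B₀ ι₁ ι₂ hι₂ hR₂ hα hβ honto)

end

end Fermat.Agent.S34
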