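import Fermat.Agent.S34.StraightInst
import Fermat.Agent.S34.Asm3

/-!
# TRACK 7 (S34 + S35), package STRAIGHT (helper13): the sub-target (G4) on THE canonical objects

The two `Prop`s of `S34/Asm3.lean` (captain's ruling #6):

* (`S34M_StraightTau` for inertia is `S34M_straightTau`, `S34/Asm4.lean`, helper28;)
* `S34SW_straightSig` : `S34M_StraightSig M q hq hqM A hgen n hn σ` for every Frobenius lift `σ` at
  `A`, from (A3) (= sub-target (G5)) stated for `Φ₂ = S34ST_phi (M * q) A σ` (the coefficientwise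
  action of `σ` on `F̄ ⊂ k((t))`, `k = A / 𝔪`);
* `S34SW_phi_xb` : `φ_g j̄ = j̄` for every `g` in the decomposition group;
* `S34SW_phi_frob_tau` : for a Frobenius lift, `φ_σ` inverts the coefficientwise inverse
  Frobenius (the relation `Φ₂ ∘ ι₂ ∘ τ = ι₂` needed for (A3), see `S34SW_A3_fn`).
-/

set_option autoImplicit false
set_option synthInstance.maxHeartbeats 400000
set_option maxHeartbeats 1000000
set_option linter.unusedSectionVars false

open HahnSeries IntermediateField AlgebraicCurve ModularCurve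
open scoped Pointwise

noncomputable section

namespace Fermat.Agent.S34

open Fermat.Agent.S18 Fermat.Agent.GalRep Fermat.Agent.S24

section canon

variable (M q : ℕ) [NeZero M] [NeZero q] [NeZero (M * q)] (hq : q.Prime) (hqM : ¬ q ∣ M)
  (A : ValuationSubring (AlgebraicClosure ℚ))
  (hgen : PrincipalGeneratedByIntegral A (IsLocalRing.residue A) (M * q))

/-- `φ_g` fixes `j̄` (`g` in the decomposition group). -/
theorem S34SW_phi_xb (σ : AlgebraicClosure ℚ ≃ₐ[ℚ] AlgebraicClosure ℚ)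
    (hσ : σ ∈ A.decompositionSubgroup ℚ) :
    S34ST_phi (M * q) A ⟨σ, hσ⟩ (S34M_xb M q A) = S34M_xb M q A := by
  obtain ⟨h, e⟩ := S34ST_gal_O (M * q) A σ hσ (jB (M * q)) (S34VW_jB_mem M q A)
  unfold S34M_xb
  rw [← e]
  congr 1
  exact Subtype.ext (S34SW_gal_jB (M * q) σ)

/-- `φ_g` fixes `j̄ ^ q`. -/
theorem S34SW_phi_xb_pow (σ : AlgebraicClosure ℚ ≃ₐ[ℚ] AlgebraicClosure ℚ)
    (hσ : σ ∈ A.decompositionSubgroup ℚ) :
    S34ST_phi (M * q) A ⟨σ, hσ⟩ (S34M_xb M q A ^ q) = S34M_xb M q A ^ q := by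
  rw [map_pow, S34SW_phi_xb]

/-- `GR_gal σ` keeps the ring `B` of the canonical chart. -/
theorem S34SW_chart_B (n : ℕ) (hn : 0 < n) (σ : AlgebraicClosure ℚ ≃ₐ[ℚ] AlgebraicClosure ℚ) :
    ∀ f ∈ (S34M_chart M q A n hn).B, GR_gal (M * q) σ f ∈ (S34M_chart M q A n hn).B :=
  S34SW_gal_reg (M * q) σ (S34SW_gal_jB (M * q) σ)

/-- `φ_g` keeps the coordinate ring `Rb₁` of the canonical chart. -/
theorem S34SW_chart_Rb₁ (n : ℕ) (hn : 0 < n) (σ : AlgebraicClosure ℚ ≃ₐ[ℚ] AlgebraicClosure ℚ)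
    (hσ : σ ∈ A.decompositionSubgroup ℚ) :
    ∀ a ∈ (S34M_chart M q A n hn).Rb₁,
      S34ST_phi (M * q) A ⟨σ, hσ⟩ a ∈ (S34M_chart M q A n hn).Rb₁ :=
  S34SW_phi_reg (M * q) A ⟨σ, hσ⟩ (S34SW_phi_xb M q A σ hσ)

/-- `φ_g` keeps the coordinate ring `Rb₂` of the canonical chart. -/
theorem S34SW_chart_Rb₂ (n : ℕ) (hn : 0 < n) (σ : AlgebraicClosure ℚ ≃ₐ[ℚ] AlgebraicClosure ℚ)
    (hσ : σ ∈ A.decompositionSubgroup ℚ) :
    ∀ a ∈ (S34M_chart M q A n hn).Rb₂,
      S34ST_phi (M * q) A ⟨σ, hσ⟩ a ∈ (S34M_chart M q A n hn).Rb₂ :=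
  S34SW_phi_reg (M * q) A ⟨σ, hσ⟩ (S34SW_phi_xb_pow M q A σ hσ)

/-- **(G4), Frobenius**: `S34M_StraightSig` holds for every Frobenius lift `σ` at `A`, given
(A3) for the coefficientwise Frobenius `Φ₂ = S34ST_phi (M * q) A σ`. -/
theorem S34SW_straightSig (n : ℕ) (hn : 0 < n)
    (σ : AlgebraicClosure ℚ ≃ₐ[ℚ] AlgebraicClosure ℚ) (hσ : A.IsFrobeniusAt σ q)
    (hA3 : ∀ b ∈ (S34M_chart M q A n hn).Rb₂,
      ∃ f : S34P_O2 (S34M_T1 M q A hgen) (S34M_T2 M q hq hqM A hgen),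
        (f : ↥(modularFunctionFieldBar (M * q))) ∈ (S34M_chart M q A n hn).B ∧
        S34P_red (S34M_T1 M q A hgen) (S34M_T2 M q hq hqM A hgen) f =
          (0, S34ST_phi (M * q) A ⟨σ, hσ.mem_decompositionSubgroup⟩
            (S34ST_phi (M * q) A ⟨σ, hσ.mem_decompositionSubgroup⟩ b) - b ^ (q ^ 2))) :
    S34M_StraightSig M q hq hqM A hgen n hn σ := by
  have hA := S34SW_act_gal M q hq hqM A hgen σ hσ.mem_decompositionSubgroup
  refine ⟨fun f hf => (hA.red₁ f hf).1, fun f hf => (hA.red₂ f hf).1,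
    S34SW_theta A ⟨σ, hσ.mem_decompositionSubgroup⟩,
    S34ST_phi (M * q) A ⟨σ, hσ.mem_decompositionSubgroup⟩,
    S34ST_phi (M * q) A ⟨σ, hσ.mem_decompositionSubgroup⟩,
    S34SW_chart_B M q A n hn σ,
    fun c => S34SW_theta_frob A q σ hσ c,
    fun c => S34SW_phi_algebraMap (M * q) A _ c,
    fun c => S34SW_phi_algebraMap (M * q) A _ c,
    S34SW_chart_Rb₁ M q A n hn σ hσ.mem_decompositionSubgroup,
    S34SW_chart_Rb₂ M q A n hn σ hσ.mem_decompositionSubgroup,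
    fun f => (hA.red₁ f f.2).2, fun f => (hA.red₂ f f.2).2, hA3⟩

end canon

/-! ### The relation between `φ_σ` and the coefficientwise inverse Frobenius -/

section frob

variable (N : ℕ) [NeZero N] (A : ValuationSubring (AlgebraicClosure ℚ))

/-- for a Frobenius lift `σ` at `A ∣ q`, the coefficientwise action `φ_σ` undoes the coefficientwise
inverse Frobenius: `coeffMap θ_σ (coeffMap Frob⁻¹ y) = y` (Laurent series over `k = A / 𝔪`). -/
theorem S34SW_phi_frob_tau (q : ℕ) [Fact q.Prime] [CharP (IsLocalRing.ResidueField A) q]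
    [PerfectRing (IsLocalRing.ResidueField A) q]
    (σ : AlgebraicClosure ℚ ≃ₐ[ℚ] AlgebraicClosure ℚ) (hσ : A.IsFrobeniusAt σ q)
    (y : LaurentSeries (IsLocalRing.ResidueField A)) :
    coeffMap (S34ST_res A ⟨σ, hσ.mem_decompositionSubgroup⟩)
      (coeffMap ((frobeniusEquiv (IsLocalRing.ResidueField A) q).symm :
        IsLocalRing.ResidueField A →+* IsLocalRing.ResidueField A) y) = y := by
  ext n
  show (⟨σ, hσ.mem_decompositionSubgroup⟩ : A.decompositionSubgroup ℚ) •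
    ((frobeniusEquiv (IsLocalRing.ResidueField A) q).symm (y.coeff n)) = y.coeff n
  rw [hσ.smul_residue_eq]
  exact frobeniusEquiv_symm_pow_p (IsLocalRing.ResidueField A) q (y.coeff n)

/-- for a Frobenius lift, `φ_σ` is the coefficientwise Frobenius: `φ_σ x = coeffMap Frob x`. -/
theorem S34SW_phi_frob_coe (q : ℕ) [Fact q.Prime] [CharP (IsLocalRing.ResidueField A) q]
    (σ : AlgebraicClosure ℚ ≃ₐ[ℚ] AlgebraicClosure ℚ) (hσ : A.IsFrobeniusAt σ q)
    (x : ↥(modularFunctionFieldFullC (IsLocalRing.ResidueField A) N)) :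
    ((S34ST_phi N A ⟨σ, hσ.mem_decompositionSubgroup⟩ x :
      ↥(modularFunctionFieldFullC (IsLocalRing.ResidueField A) N)) :
      LaurentSeries (IsLocalRing.ResidueField A)) =
      coeffMap (frobenius (IsLocalRing.ResidueField A) q)
        (x : LaurentSeries (IsLocalRing.ResidueField A)) := by
  ext n
  rw [S34ST_phi_frob_coeff N A q σ hσ x n]
  rfl

end frob

end Fermat.Agent.S34
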