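import Fermat.Agent.S34.RedOneGal

/-!
# TRACK 7 (S34 + S35), package STRAIGHT, part 1 (helper22): the decomposition group and the
Gauss ring

`A` a valuation subring of `ℚ̄`, `k = A / 𝔪`, `F = modularFunctionFieldBar N`,
`O = S18_O A N ⊂ F` the `q`-expansion Gauss ring, `red = S18_red A N : O → F̄ ⊂ k((t))`.

* `S34ST_phi N A g : F̄ →+* F̄` — the coefficientwise action of `g ∈ D_A` on the residue function
  field (`coeffMap` of the action of `g` on `k`);
* `S34ST_decomp_O` : `g ∈ D_A` keeps `O` and `red (g f) = φ_g (red f)`;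
* `S34ST_frob_O`   : the same for a Frobenius lift `σ` at `A`, and
  `S34ST_phi_frob_coeff` : `φ_σ` raises every coefficient to the `q`-th power;
* `S34ST_phi_inertia` : `φ_τ = id` for `τ` in the inertia group.
-/

set_option autoImplicit false
set_option synthInstance.maxHeartbeats 400000
set_option linter.unusedSectionVars false

open HahnSeries IntermediateField AlgebraicCurve ModularCurve
open scoped Pointwise

noncomputable section

namespace Fermat.Agent.S34

open Fermat.Agent.S18 Fermat.Agent.GalRep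

variable (N : ℕ) [NeZero N] (A : ValuationSubring (AlgebraicClosure ℚ))

/-- the action of `g ∈ D_A` on the residue field `k = A / 𝔪`, as a ring homomorphism. -/
abbrev S34ST_res (g : A.decompositionSubgroup ℚ) :
    IsLocalRing.ResidueField A →+* IsLocalRing.ResidueField A :=
  MulSemiringAction.toRingHom (A.decompositionSubgroup ℚ) (IsLocalRing.ResidueField A) g

/-- the coefficientwise action of `g ∈ D_A` on the residue function field. -/
def S34ST_phi (g : A.decompositionSubgroup ℚ) :
    ↥(modularFunctionFieldFullC (IsLocalRing.ResidueField A) N) →+*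
      ↥(modularFunctionFieldFullC (IsLocalRing.ResidueField A) N) where
  toFun x := ⟨coeffMap (S34ST_res A g) x.1, ES_coeffMap_mem N (S34ST_res A g) x.2⟩
  map_zero' := Subtype.ext (map_zero _)
  map_one' := Subtype.ext (map_one _)
  map_add' _ _ := Subtype.ext (map_add _ _ _)
  map_mul' _ _ := Subtype.ext (map_mul _ _ _)

theorem S34ST_phi_coe (g : A.decompositionSubgroup ℚ)
    (x : ↥(modularFunctionFieldFullC (IsLocalRing.ResidueField A) N)) :
    ((S34ST_phi N A g x : ↥(modularFunctionFieldFullC (IsLocalRing.ResidueField A) N)) :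
      LaurentSeries (IsLocalRing.ResidueField A)) = coeffMap (S34ST_res A g) x.1 := rfl

theorem S34ST_phi_coeff (g : A.decompositionSubgroup ℚ)
    (x : ↥(modularFunctionFieldFullC (IsLocalRing.ResidueField A) N)) (n : ℤ) :
    ((S34ST_phi N A g x : ↥(modularFunctionFieldFullC (IsLocalRing.ResidueField A) N)) :
      LaurentSeries (IsLocalRing.ResidueField A)).coeff n =
        g • (x : LaurentSeries (IsLocalRing.ResidueField A)).coeff n := rfl

/-- **the decomposition group keeps the Gauss ring, and `red ∘ g = φ_g ∘ red`.** -/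
theorem S34ST_decomp_O (g : A.decompositionSubgroup ℚ)
    (f : ↥(modularFunctionFieldBar N)) (hf : f ∈ S18_O A N) :
    ∃ hgf : arithmeticGalois (modularFunctionFieldFull N)
        ((A.decompositionSubgroup ℚ).subtype g) • f ∈ S18_O A N,
      S18_red A N ⟨_, hgf⟩ = S34ST_phi N A g (S18_red A N ⟨f, hf⟩) := by
  obtain ⟨s₁, h1, s₂, h2, hne, hfs⟩ := hf
  have hinj : Function.Injective (coeffMap (S34ST_res A g)) := by
    intro x y hxy
    ext n
    have := congrArg (fun z : LaurentSeries (IsLocalRing.ResidueField A) => z.coeff n) hxy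
    exact (S34ST_res A g).injective this
  have hne' : S18_ρ A (ES_act A g s₂) ≠ 0 := by
    rw [ES_ρ_act]
    intro h0
    apply hne
    apply hinj
    rw [h0, map_zero]
  have hfs' : ((arithmeticGalois (modularFunctionFieldFull N)
      ((A.decompositionSubgroup ℚ).subtype g) • f : ↥(modularFunctionFieldBar N)) :
        LaurentSeries (AlgebraicClosure ℚ)) * S18_ι A (ES_act A g s₂) =
      S18_ι A (ES_act A g s₁) := by
    rw [coe_arithmeticGalois_smul, ES_ι_act, ES_ι_act, ← hfs, map_mul]
    rfl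
  have hmem : arithmeticGalois (modularFunctionFieldFull N)
      ((A.decompositionSubgroup ℚ).subtype g) • f ∈ S18_O A N :=
    ⟨ES_act A g s₁, ES_act_mem_B A N g h1, ES_act A g s₂, ES_act_mem_B A N g h2, hne', hfs'⟩
  refine ⟨hmem, ?_⟩
  apply Subtype.ext
  rw [S18_red_eq A N (ES_act_mem_B A N g h1) (ES_act_mem_B A N g h2) hne' hfs',
    S34ST_phi_coe, S18_red_eq A N h1 h2 hne hfs, ES_ρ_act, ES_ρ_act, map_div₀]

/-- a Frobenius lift at `A` keeps the Gauss ring, and `red ∘ σ = φ_σ ∘ red`. -/
theorem S34ST_frob_O (q : ℕ) (σ : AlgebraicClosure ℚ ≃ₐ[ℚ] AlgebraicClosure ℚ)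
    (hσ : A.IsFrobeniusAt σ q)
    (f : ↥(modularFunctionFieldBar N)) (hf : f ∈ S18_O A N) :
    ∃ hσf : arithmeticGalois (modularFunctionFieldFull N) σ • f ∈ S18_O A N,
      S18_red A N ⟨_, hσf⟩ =
        S34ST_phi N A ⟨σ, hσ.mem_decompositionSubgroup⟩ (S18_red A N ⟨f, hf⟩) :=
  S34ST_decomp_O N A ⟨σ, hσ.mem_decompositionSubgroup⟩ f hf

/-- for a Frobenius lift, `φ_σ` is the coefficientwise `q`-th power. -/
theorem S34ST_phi_frob_coeff (q : ℕ) (σ : AlgebraicClosure ℚ ≃ₐ[ℚ] AlgebraicClosure ℚ)
    (hσ : A.IsFrobeniusAt σ q)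
    (x : ↥(modularFunctionFieldFullC (IsLocalRing.ResidueField A) N)) (n : ℤ) :
    ((S34ST_phi N A ⟨σ, hσ.mem_decompositionSubgroup⟩ x :
      ↥(modularFunctionFieldFullC (IsLocalRing.ResidueField A) N)) :
      LaurentSeries (IsLocalRing.ResidueField A)).coeff n =
        ((x : LaurentSeries (IsLocalRing.ResidueField A)).coeff n) ^ q := by
  rw [S34ST_phi_coeff]
  exact hσ.smul_residue_eq _

/-- for `τ` in the inertia group, `φ_τ = id`. -/
theorem S34ST_phi_inertia (g : A.decompositionSubgroup ℚ) (hg : g ∈ A.inertiaSubgroup ℚ)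
    (x : ↥(modularFunctionFieldFullC (IsLocalRing.ResidueField A) N)) :
    S34ST_phi N A g x = x := by
  have hgid : S34ST_res A g = RingHom.id _ := by
    have h1 : MulSemiringAction.toRingAut (A.decompositionSubgroup ℚ)
        (IsLocalRing.ResidueField A) g = 1 := hg
    ext y
    exact congrArg (fun e : RingAut (IsLocalRing.ResidueField A) => e y) h1
  apply Subtype.ext
  rw [S34ST_phi_coe, hgid, coeffMap_id]

/-- `φ_g` is multiplicative in `g`. -/
theorem S34ST_phi_mul (g g' : A.decompositionSubgroup ℚ)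
    (x : ↥(modularFunctionFieldFullC (IsLocalRing.ResidueField A) N)) :
    S34ST_phi N A (g * g') x = S34ST_phi N A g (S34ST_phi N A g' x) := by
  apply Subtype.ext
  ext n
  rw [S34ST_phi_coeff, S34ST_phi_coeff, S34ST_phi_coeff, mul_smul]

/-- `φ_g` is `k`-semilinear: on constants it is the action of `g` on `k`. -/
theorem S34ST_phi_algebraMap (g : A.decompositionSubgroup ℚ) (c : IsLocalRing.ResidueField A) :
    S34ST_phi N A g (algebraMap (IsLocalRing.ResidueField A)
      ↥(modularFunctionFieldFullC (IsLocalRing.ResidueField A) N) c) =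
      algebraMap (IsLocalRing.ResidueField A)
        ↥(modularFunctionFieldFullC (IsLocalRing.ResidueField A) N) (g • c) := by
  apply Subtype.ext
  show coeffMap (S34ST_res A g) (algebraMap (IsLocalRing.ResidueField A)
    (LaurentSeries (IsLocalRing.ResidueField A)) c) = algebraMap (IsLocalRing.ResidueField A)
    (LaurentSeries (IsLocalRing.ResidueField A)) (g • c)
  rw [algebraMap_laurentSeries_eq_single, coeffMap_single, ← algebraMap_laurentSeries_eq_single]
  rfl

/-- `φ_g` is semilinear over the action of `g` on `k`. -/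
theorem S34ST_phi_smul (g : A.decompositionSubgroup ℚ) (c : IsLocalRing.ResidueField A)
    (x : ↥(modularFunctionFieldFullC (IsLocalRing.ResidueField A) N)) :
    S34ST_phi N A g (c • x) = (g • c) • S34ST_phi N A g x := by
  rw [Algebra.smul_def, Algebra.smul_def, map_mul, S34ST_phi_algebraMap]

/-- the same statements for the ring automorphism `GR_gal N σ` of `GalRep/Geom.lean`. -/
theorem S34ST_gal_O (σ : AlgebraicClosure ℚ ≃ₐ[ℚ] AlgebraicClosure ℚ)
    (hσ : σ ∈ A.decompositionSubgroup ℚ)
    (f : ↥(modularFunctionFieldBar N)) (hf : f ∈ S18_O A N) :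
    ∃ hσf : arithmeticRingAut (modularFunctionFieldFull N) σ f ∈ S18_O A N,
      S18_red A N ⟨_, hσf⟩ = S34ST_phi N A ⟨σ, hσ⟩ (S18_red A N ⟨f, hf⟩) :=
  S34ST_decomp_O N A ⟨σ, hσ⟩ f hf

/-- `g ∈ D_A` maps the Gauss ring ONTO itself: `g f ∈ O ↔ f ∈ O`. -/
theorem S34ST_gal_mem_iff (σ : AlgebraicClosure ℚ ≃ₐ[ℚ] AlgebraicClosure ℚ)
    (hσ : σ ∈ A.decompositionSubgroup ℚ) (f : ↥(modularFunctionFieldBar N)) :
    arithmeticRingAut (modularFunctionFieldFull N) σ f ∈ S18_O A N ↔ f ∈ S18_O A N := by
  constructor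
  · intro h
    have hinv : σ⁻¹ ∈ A.decompositionSubgroup ℚ := (A.decompositionSubgroup ℚ).inv_mem hσ
    obtain ⟨h2, -⟩ := S34ST_gal_O N A σ⁻¹ hinv _ h
    have e : arithmeticRingAut (modularFunctionFieldFull N) σ⁻¹
        (arithmeticRingAut (modularFunctionFieldFull N) σ f) = f := by
      apply Subtype.ext
      rw [coe_arithmeticRingAut_apply, coe_arithmeticRingAut_apply, coeffMap_coeffMap]
      have : ((σ⁻¹ : AlgebraicClosure ℚ ≃ₐ[ℚ] AlgebraicClosure ℚ) : AlgebraicClosure ℚ →+*
          AlgebraicClosure ℚ).comp (σ : AlgebraicClosure ℚ →+* AlgebraicClosure ℚ) =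
          RingHom.id _ := by
        ext a
        show σ⁻¹ (σ a) = a
        exact σ.symm_apply_apply a
      rw [this, coeffMap_id]
    rwa [e] at h2
  · intro h
    exact (S34ST_gal_O N A σ hσ f h).1

end Fermat.Agent.S34
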