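import Fermat.Agent.S34.StraightWire
import Fermat.Agent.S34.StraightFrob
import Fermat.Agent.S34.SatBridge
import Fermat.Agent.S34.WqInst
import Fermat.Agent.S34.Defs

/-!
# TRACK 7 (S34 + S35), package STRAIGHT (helper13), concrete part

Level `M * q`, `F = modularFunctionFieldBar (M * q)`, `A` a valuation subring of `ℚ̄`,
`k = A / 𝔪`, `F̄ = modularFunctionFieldFullC k (M * q)`, `hgen` = VAL-HGEN,
`T₁ = S34SW_T₁` (`V₁` = Gauss valuation), `T₂ = S34SW_T₂` (`V₂ = V₁ ∘ w_q`);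
`T₁.O = S34DF_O1 M q A hgen`, `T₂.O = S34DF_O2 M q hq hqM A hgen` (by `rfl`).

* `S34SW_reg_stable` : a semilinear automorphism fixing `x` preserves the ring `S34SB_reg K x` of
  functions regular off the poles of `x` (the chart `U`);
* `S34SW_phiAut` : the coefficientwise action `S34ST_phi` (helper22) of `g ∈ D_A` on `F̄` as a
  semilinear automorphism; `S34SW_phi_reg` : it preserves `S34SB_reg k x̄` if it fixes `x̄`;
* `S34SW_act_gal` : `g ∈ D_A` acts on the pair `(T₁, T₂)` through `(φ_g, φ_g)`;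
  `S34SW_act_inertia` : inertia acts through `(id, id)`;
* `S34SW_gal_reg` : `GR_gal σ` preserves `S34SB_reg ℚ̄ x` if it fixes `x` (e.g. `x = jB`);
* `S34SW_KTau_place`  : **(K-tau)** at the place `A`, in the shape of `S34M_KTau` (ASM);
* `S34SW_KSig2_place` : **(K-sig2)** at the place `A`, in the shape of `S34M_KSig2` (ASM).

The remaining hypotheses of the last two theorems are the chart with its nodes (NODAL), (B) `hex`
(COUNT/POLE/SAT), (INJ) `hinj` and, for (K-sig2), (A3) `hA3` (`S34SW_A3_fn`).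
-/

set_option autoImplicit false
set_option synthInstance.maxHeartbeats 400000
set_option maxHeartbeats 1000000
set_option linter.unusedSectionVars false

open HahnSeries IntermediateField AlgebraicCurve ModularCurve
open scoped Pointwise

noncomputable section

namespace Fermat.Agent.S34

open Fermat.Agent.S18 Fermat.Agent.GalRep Fermat.Agent.S24

/-! ### Stability of the chart `U` -/

section reg

variable {K F : Type*} [Field K] [Field F] [Algebra K F]

/-- a semilinear automorphism fixing `x` preserves the functions regular off the poles of `x`. -/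
theorem S34SW_reg_stable (g : SemilinearAut K F) {x : F} (hx : g • x = x) {y : F}
    (hy : y ∈ S34SB_reg K x) : g • y ∈ S34SB_reg K x := by
  rw [S34SB_mem_reg] at hy ⊢
  intro Q hQ
  have h1 : (g⁻¹ • Q).ord x = Q.ord x := by
    have := SemilinearAut.ord_smul g (g⁻¹ • Q) x
    rw [smul_inv_smul, hx] at this
    exact this.symm
  have h2 := hy (g⁻¹ • Q) (by rw [h1]; exact hQ)
  rw [SemilinearAut.smul_toValuationSubring,
    ValuationSubring.mem_pointwise_smul_iff_inv_smul_mem, inv_inv] at h2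
  exact h2

end reg

/-! ### The coefficientwise action on the residue function field as a semilinear automorphism -/

section phi

variable (N : ℕ) [NeZero N] (A : ValuationSubring (AlgebraicClosure ℚ))

theorem S34SW_phi_one (x : ↥(modularFunctionFieldFullC (IsLocalRing.ResidueField A) N)) :
    S34ST_phi N A 1 x = x := by
  apply Subtype.ext
  ext n
  rw [S34ST_phi_coeff, one_smul]

/-- `φ_g` as a ring automorphism of `F̄`. -/
def S34SW_phiEquiv (g : A.decompositionSubgroup ℚ) :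
    ↥(modularFunctionFieldFullC (IsLocalRing.ResidueField A) N) ≃+*
      ↥(modularFunctionFieldFullC (IsLocalRing.ResidueField A) N) :=
  { S34ST_phi N A g with
    invFun := S34ST_phi N A g⁻¹
    left_inv := fun x => by
      show S34ST_phi N A g⁻¹ (S34ST_phi N A g x) = x
      rw [← S34ST_phi_mul, inv_mul_cancel, S34SW_phi_one]
    right_inv := fun x => by
      show S34ST_phi N A g (S34ST_phi N A g⁻¹ x) = x
      rw [← S34ST_phi_mul, mul_inv_cancel, S34SW_phi_one] }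

@[simp] theorem S34SW_phiEquiv_apply (g : A.decompositionSubgroup ℚ)
    (x : ↥(modularFunctionFieldFullC (IsLocalRing.ResidueField A) N)) :
    S34SW_phiEquiv N A g x = S34ST_phi N A g x := rfl

/-- the action of `g ∈ D_A` on the residue field `k`, as a ring automorphism (`θ`). -/
def S34SW_theta (g : A.decompositionSubgroup ℚ) :
    IsLocalRing.ResidueField A ≃+* IsLocalRing.ResidueField A :=
  MulSemiringAction.toRingEquiv (A.decompositionSubgroup ℚ) (IsLocalRing.ResidueField A) g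

@[simp] theorem S34SW_theta_apply (g : A.decompositionSubgroup ℚ)
    (c : IsLocalRing.ResidueField A) : S34SW_theta A g c = g • c := rfl

/-- for a Frobenius lift `θ` is the `q`-th power map. -/
theorem S34SW_theta_frob (q : ℕ) (σ : AlgebraicClosure ℚ ≃ₐ[ℚ] AlgebraicClosure ℚ)
    (hσ : A.IsFrobeniusAt σ q) (c : IsLocalRing.ResidueField A) :
    S34SW_theta A ⟨σ, hσ.mem_decompositionSubgroup⟩ c = c ^ q :=
  hσ.smul_residue_eq c

/-- `φ_g` is `θ_g`-semilinear. -/
theorem S34SW_phi_algebraMap (g : A.decompositionSubgroup ℚ) (c : IsLocalRing.ResidueField A) :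
    S34ST_phi N A g (algebraMap (IsLocalRing.ResidueField A)
      ↥(modularFunctionFieldFullC (IsLocalRing.ResidueField A) N) c) =
      algebraMap (IsLocalRing.ResidueField A)
        ↥(modularFunctionFieldFullC (IsLocalRing.ResidueField A) N) (S34SW_theta A g c) :=
  S34ST_phi_algebraMap N A g c

/-- `φ_g` as a semilinear automorphism of `F̄ / k`. -/
def S34SW_phiAut (g : A.decompositionSubgroup ℚ) :
    SemilinearAut (IsLocalRing.ResidueField A)
      ↥(modularFunctionFieldFullC (IsLocalRing.ResidueField A) N) :=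
  ⟨(S34SW_phiEquiv N A g, S34SW_theta A g), fun c => S34ST_phi_algebraMap N A g c⟩

theorem S34SW_phiAut_smul (g : A.decompositionSubgroup ℚ)
    (x : ↥(modularFunctionFieldFullC (IsLocalRing.ResidueField A) N)) :
    S34SW_phiAut N A g • x = S34ST_phi N A g x := rfl

/-- **`φ_g` preserves the coordinate ring** `S34SB_reg k x̄` of the chart, if it fixes `x̄`. -/
theorem S34SW_phi_reg (g : A.decompositionSubgroup ℚ)
    {x : ↥(modularFunctionFieldFullC (IsLocalRing.ResidueField A) N)}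
    (hx : S34ST_phi N A g x = x) :
    ∀ a ∈ S34SB_reg (IsLocalRing.ResidueField A) x,
      S34ST_phi N A g a ∈ S34SB_reg (IsLocalRing.ResidueField A) x :=
  fun _ ha => S34SW_reg_stable (S34SW_phiAut N A g) hx ha

/-- **`GR_gal σ` preserves the ring of the chart** `S34SB_reg ℚ̄ x`, if it fixes `x`. -/
theorem S34SW_gal_reg (σ : AlgebraicClosure ℚ ≃ₐ[ℚ] AlgebraicClosure ℚ)
    {x : ↥(modularFunctionFieldBar N)} (hx : GR_gal N σ x = x) :
    ∀ f ∈ S34SB_reg (AlgebraicClosure ℚ) x, GR_gal N σ f ∈ S34SB_reg (AlgebraicClosure ℚ) x :=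
  fun _ hf => S34SW_reg_stable (arithmeticGalois (modularFunctionFieldFull N) σ) hx hf

/-- `GR_gal σ` fixes `j`. -/
theorem S34SW_gal_jB (σ : AlgebraicClosure ℚ ≃ₐ[ℚ] AlgebraicClosure ℚ) :
    GR_gal N σ (jB N) = jB N :=
  S34WJ_arith_jBar N σ 1 (one_dvd N)

end phi

/-! ### The pair `(V₁, V₂ = V₁ ∘ w_q)` and the action of the decomposition group -/

section pair

variable (M q : ℕ) [NeZero M] [NeZero q] [NeZero (M * q)] (hq : q.Prime) (hqM : ¬ q ∣ M)
  (A : ValuationSubring (AlgebraicClosure ℚ))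
  (hgen : PrincipalGeneratedByIntegral A (IsLocalRing.residue A) (M * q))

/-- `V₁`: the Gauss valuation of `F_{Mq}` at `A`. -/
abbrev S34SW_T₁ : S18_Val (AlgebraicClosure ℚ) ↥(modularFunctionFieldBar (M * q))
    (IsLocalRing.ResidueField A)
    ↥(modularFunctionFieldFullC (IsLocalRing.ResidueField A) (M * q)) :=
  (S18_gaussModL (M * q) A hgen).toVal

/-- `V₂ = V₁ ∘ w_q`. -/
abbrev S34SW_T₂ : S18_Val (AlgebraicClosure ℚ) ↥(modularFunctionFieldBar (M * q))
    (IsLocalRing.ResidueField A)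
    ↥(modularFunctionFieldFullC (IsLocalRing.ResidueField A) (M * q)) :=
  (S34V_comap (S18_gaussModL (M * q) A hgen) (S34DF_wq M q hq hqM)).toVal

theorem S34SW_T₁_O : (S34SW_T₁ M q A hgen).O = S34DF_O1 M q A hgen := rfl

theorem S34SW_T₂_O : (S34SW_T₂ M q hq hqM A hgen).O = S34DF_O2 M q hq hqM A hgen := rfl

theorem S34SW_hT : S34P_Same (S34SW_T₁ M q A hgen) (S34SW_T₂ M q hq hqM A hgen) :=
  S34SW_same _ _

/-- **the decomposition group acts on `(V₁, V₂)` through `(φ_g, φ_g)`.** -/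
theorem S34SW_act_gal (σ : AlgebraicClosure ℚ ≃ₐ[ℚ] AlgebraicClosure ℚ)
    (hσ : σ ∈ A.decompositionSubgroup ℚ) :
    S34SW_Act (S34SW_T₁ M q A hgen) (S34SW_T₂ M q hq hqM A hgen)
      (GR_gal (M * q) σ).toRingHom (S34ST_phi (M * q) A ⟨σ, hσ⟩) (S34ST_phi (M * q) A ⟨σ, hσ⟩) :=
  S34SW_act_comap (S18_gaussModL (M * q) A hgen) (S34DF_wq M q hq hqM)
    (GR_gal (M * q) σ).toRingHom (S34ST_phi (M * q) A ⟨σ, hσ⟩)
    (fun f => (S34WJ_wq_gal hq hqM σ f).symm)
    (fun f hf => S34ST_gal_O (M * q) A σ hσ f hf)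

/-- **inertia acts trivially on the two residue fields.** -/
theorem S34SW_act_inertia (τ : AlgebraicClosure ℚ ≃ₐ[ℚ] AlgebraicClosure ℚ)
    (hτ : τ ∈ A.inertiaSubgroupIn ℚ) :
    S34SW_Act (S34SW_T₁ M q A hgen) (S34SW_T₂ M q hq hqM A hgen)
      (GR_gal (M * q) τ).toRingHom (RingHom.id _) (RingHom.id _) :=
  S34SW_act_comap (S18_gaussModL (M * q) A hgen) (S34DF_wq M q hq hqM)
    (GR_gal (M * q) τ).toRingHom (RingHom.id _)
    (fun f => (S34WJ_wq_gal hq hqM τ f).symm)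
    (fun f hf => S34R_inertia_O (M * q) A τ hτ f hf)

/-! ### (K-tau) and (K-sig2) at one place -/

/-- **(K-tau) at the place `A`**, in the shape of `S34M_KTau`.
Hypotheses: a chart `C` whose ring `C.B` is `GR_gal τ`-stable (`S34SW_gal_reg` for
`C = S34SB_chart …`), nodes `e₁ e₂ hE` (NODAL), (B) `hex`, (INJ) `hinj`. -/
theorem S34SW_KTau_place {n : ℕ} {ι : Type*}
    (C : S34K_Chart (L := AlgebraicClosure ℚ) (F := ↥(modularFunctionFieldBar (M * q)))
      (k := IsLocalRing.ResidueField A)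
      (Fk₁ := ↥(modularFunctionFieldFullC (IsLocalRing.ResidueField A) (M * q)))
      (Fk₂ := ↥(modularFunctionFieldFullC (IsLocalRing.ResidueField A) (M * q))) n)
    (e₁ : ι → ↥C.Rb₁ →ₐ[IsLocalRing.ResidueField A] IsLocalRing.ResidueField A)
    (e₂ : ι → ↥C.Rb₂ →ₐ[IsLocalRing.ResidueField A] IsLocalRing.ResidueField A)
    (hE : Function.Surjective (S34B_E e₁ e₂))
    (hex : ∀ u ∈ {u | KM_IsKum (AlgebraicClosure ℚ) ↥(modularFunctionFieldBar (M * q)) n u} ∩
      S34K_Norm (S34SW_T₁ M q A hgen) (S34SW_T₂ M q hq hqM A hgen),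
      ∃ c : ι → IsLocalRing.ResidueField A,
        S34K_W (S34SW_hT M q hq hqM A hgen) C u = S34B_glued e₁ e₂ c)
    (hinj : ∀ u ∈ {u | KM_IsKum (AlgebraicClosure ℚ) ↥(modularFunctionFieldBar (M * q)) n u} ∩
      S34K_Norm (S34SW_T₁ M q A hgen) (S34SW_T₂ M q hq hqM A hgen),
      S34K_W (S34SW_hT M q hq hqM A hgen) C u = S34B_glued e₁ e₂ (fun _ => 1) →
        GR_IsTriv (M * q) n u)
    (τ : AlgebraicClosure ℚ ≃ₐ[ℚ] AlgebraicClosure ℚ) (hτ : τ ∈ A.inertiaSubgroupIn ℚ)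
    (hgB : ∀ f ∈ C.B, GR_gal (M * q) τ f ∈ C.B) :
    ∀ u : ↥(modularFunctionFieldBar (M * q)),
      KM_IsKum (AlgebraicClosure ℚ) ↥(modularFunctionFieldBar (M * q)) n u →
      (S34DF_O1 M q A hgen).valuation (u - 1) < 1 →
      (S34DF_O2 M q hq hqM A hgen).valuation (u - 1) < 1 →
      GR_IsTriv (M * q) n (GR_gal (M * q) τ u * u⁻¹) := by
  intro u hu h1 h2
  rw [← S34SW_T₁_O M q A hgen] at h1
  rw [← S34SW_T₂_O M q hq hqM A hgen] at h2
  revert u
  have hA := S34SW_act_inertia M q hq hqM A hgen τ hτ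
  have hgO₁ : ∀ f ∈ (S34SW_T₁ M q A hgen).O, GR_gal (M * q) τ f ∈ (S34SW_T₁ M q A hgen).O :=
    fun f hf => (hA.red₁ f hf).1
  have hgO₂ : ∀ f ∈ (S34SW_T₂ M q hq hqM A hgen).O,
      GR_gal (M * q) τ f ∈ (S34SW_T₂ M q hq hqM A hgen).O :=
    fun f hf => (hA.red₂ f hf).1
  have hred₁ : ∀ f : (S34SW_T₁ M q A hgen).O,
      (S34SW_T₁ M q A hgen).red ⟨GR_gal (M * q) τ f, hgO₁ f f.2⟩ =
        (S34SW_T₁ M q A hgen).red f :=
    fun f => (hA.red₁ f f.2).2
  have hred₂ : ∀ f : (S34SW_T₂ M q hq hqM A hgen).O,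
      (S34SW_T₂ M q hq hqM A hgen).red ⟨GR_gal (M * q) τ f, hgO₂ f f.2⟩ =
        (S34SW_T₂ M q hq hqM A hgen).red f :=
    fun f => (hA.red₂ f f.2).2
  have hgalK : ∀ f : ↥(modularFunctionFieldBar (M * q)),
      KM_IsKum (AlgebraicClosure ℚ) ↥(modularFunctionFieldBar (M * q)) n f →
      KM_IsKum (AlgebraicClosure ℚ) ↥(modularFunctionFieldBar (M * q)) n (GR_gal (M * q) τ f) :=
    fun f hf => S34WJ_isKum_smul (arithmeticGalois (modularFunctionFieldFull (M * q)) τ) hf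
  exact S34K_hK_tau (S34SW_hT M q hq hqM A hgen) C e₁ e₂ hE hex hinj τ hgalK hgO₁ hgO₂ hgB
    hred₁ hred₂

/-- **(K-sig2) at the place `A`**, in the shape of `S34M_KSig2`.
Hypotheses: a chart `C` whose rings are stable (`S34SW_gal_reg`, `S34SW_phi_reg` for
`C = S34SB_chart …`), nodes `e₁ e₂ hE` (NODAL), (B) `hex`, (INJ) `hinj`, (A3) `hA3`
(`S34SW_A3_fn`). -/
theorem S34SW_KSig2_place {n : ℕ} {ι : Type*} [Finite ι]
    (C : S34K_Chart (L := AlgebraicClosure ℚ) (F := ↥(modularFunctionFieldBar (M * q)))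
      (k := IsLocalRing.ResidueField A)
      (Fk₁ := ↥(modularFunctionFieldFullC (IsLocalRing.ResidueField A) (M * q)))
      (Fk₂ := ↥(modularFunctionFieldFullC (IsLocalRing.ResidueField A) (M * q))) n)
    (e₁ : ι → ↥C.Rb₁ →ₐ[IsLocalRing.ResidueField A] IsLocalRing.ResidueField A)
    (e₂ : ι → ↥C.Rb₂ →ₐ[IsLocalRing.ResidueField A] IsLocalRing.ResidueField A)
    (hE : Function.Surjective (S34B_E e₁ e₂))
    (hex : ∀ u ∈ {u | KM_IsKum (AlgebraicClosure ℚ) ↥(modularFunctionFieldBar (M * q)) n u} ∩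
      S34K_Norm (S34SW_T₁ M q A hgen) (S34SW_T₂ M q hq hqM A hgen),
      ∃ c : ι → IsLocalRing.ResidueField A,
        S34K_W (S34SW_hT M q hq hqM A hgen) C u = S34B_glued e₁ e₂ c)
    (hinj : ∀ u ∈ {u | KM_IsKum (AlgebraicClosure ℚ) ↥(modularFunctionFieldBar (M * q)) n u} ∩
      S34K_Norm (S34SW_T₁ M q A hgen) (S34SW_T₂ M q hq hqM A hgen),
      S34K_W (S34SW_hT M q hq hqM A hgen) C u = S34B_glued e₁ e₂ (fun _ => 1) →
        GR_IsTriv (M * q) n u)
    (σ : AlgebraicClosure ℚ ≃ₐ[ℚ] AlgebraicClosure ℚ) (hσ : A.IsFrobeniusAt σ q)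
    (hgB : ∀ f ∈ C.B, GR_gal (M * q) σ f ∈ C.B)
    (hΦRb₁ : ∀ a ∈ C.Rb₁, S34ST_phi (M * q) A ⟨σ, hσ.mem_decompositionSubgroup⟩ a ∈ C.Rb₁)
    (hΦRb₂ : ∀ a ∈ C.Rb₂, S34ST_phi (M * q) A ⟨σ, hσ.mem_decompositionSubgroup⟩ a ∈ C.Rb₂)
    (hA3 : ∀ b ∈ C.Rb₂, ∃ f : S34P_O2 (S34SW_T₁ M q A hgen) (S34SW_T₂ M q hq hqM A hgen),
      (f : ↥(modularFunctionFieldBar (M * q))) ∈ C.B ∧
      S34P_red (S34SW_T₁ M q A hgen) (S34SW_T₂ M q hq hqM A hgen) f =
        (0, S34ST_phi (M * q) A ⟨σ, hσ.mem_decompositionSubgroup⟩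
          (S34ST_phi (M * q) A ⟨σ, hσ.mem_decompositionSubgroup⟩ b) - b ^ (q ^ 2))) :
    ∀ u : ↥(modularFunctionFieldBar (M * q)),
      KM_IsKum (AlgebraicClosure ℚ) ↥(modularFunctionFieldBar (M * q)) n u →
      (S34DF_O1 M q A hgen).valuation (u - 1) < 1 →
      (S34DF_O2 M q hq hqM A hgen).valuation (u - 1) < 1 →
      GR_IsTriv (M * q) n (GR_gal (M * q) σ (GR_gal (M * q) σ u) * (u ^ (q ^ 2))⁻¹) := by
  intro u hu h1 h2
  rw [← S34SW_T₁_O M q A hgen] at h1
  rw [← S34SW_T₂_O M q hq hqM A hgen] at h2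
  revert u
  have hA := S34SW_act_gal M q hq hqM A hgen σ hσ.mem_decompositionSubgroup
  exact S34K_hK_sig2 (S34SW_hT M q hq hqM A hgen) C e₁ e₂ hE hex hinj σ
    (fun f hf => S34WJ_isKum_smul (arithmeticGalois (modularFunctionFieldFull (M * q)) σ) hf)
    (fun f hf => (hA.red₁ f hf).1) (fun f hf => (hA.red₂ f hf).1) hgB
    q (S34SW_theta A ⟨σ, hσ.mem_decompositionSubgroup⟩)
    (fun c => S34SW_theta_frob A q σ hσ c)
    (S34ST_phi (M * q) A ⟨σ, hσ.mem_decompositionSubgroup⟩)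
    (S34ST_phi (M * q) A ⟨σ, hσ.mem_decompositionSubgroup⟩)
    (fun c => S34SW_phi_algebraMap (M * q) A _ c)
    (fun c => S34SW_phi_algebraMap (M * q) A _ c)
    hΦRb₁ hΦRb₂
    (fun f => (hA.red₁ f f.2).2) (fun f => (hA.red₂ f f.2).2) hA3

end pair

end Fermat.Agent.S34
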