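import Fermat.Agent.S34.StraightA3
import Fermat.Agent.S34.Asm5

/-!
# TRACK 7 (S34 + S35), sub-target (G5) (helper13): `S34M_SigAll` from the nodal data

`S34SW_NodalData M q hq hqM A hgen n hn` : the level-`M` data of `S34N_nodal` (the COMMON input of
(G1) and (G5)) exist on the canonical objects: a valuation datum `S₀` of `F_M`, the degeneracy maps
`α β`, the chart `B₀`, two maps `ι₁ ι₂ : F̄_M → F̄_{M q}` (`ι₂` the identity on Laurent series), a map
`Fr` (`= y ↦ y (t^q)`) with `hR₂`, `hα`, `hβ`, `honto`.  It mentions NO instance on the residue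
field.

* `S34SW_straightSig_of_data` : `S34M_StraightSig` from `S34SW_NodalData` for a Frobenius lift;
* `S34SW_sigAll_of_data`      : **(G5)** `S34M_SigAll M q hq hqM` from `S34SW_NodalData` at every place
  `A ∣ q` and every exponent `n` prime to `q`.
-/

set_option autoImplicit false
set_option synthInstance.maxHeartbeats 400000
set_option maxHeartbeats 1000000
set_option linter.unusedSectionVars false
set_option linter.unusedVariables false
set_option linter.style.haveILetI false

open HahnSeries IntermediateField AlgebraicCurve ModularCurve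
open scoped Pointwise

noncomputable section

namespace Fermat.Agent.S34

open Fermat.Agent.S18 Fermat.Agent.GalRep Fermat.Agent.S24

section

variable (M q : ℕ) [NeZero M] [NeZero q] [NeZero (M * q)] (hq : q.Prime) (hqM : ¬ q ∣ M)
  (A : ValuationSubring (AlgebraicClosure ℚ))
  (hgen : PrincipalGeneratedByIntegral A (IsLocalRing.residue A) (M * q))

/-- the level-`M` data of `S34N_nodal` on the canonical objects (common input of (G1), (G5)). -/
def S34SW_NodalData (n : ℕ) (hn : 0 < n) : Prop :=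
  ∃ (S₀ : S18_Val (AlgebraicClosure ℚ) ↥(modularFunctionFieldBar M) (IsLocalRing.ResidueField A)
      ↥(modularFunctionFieldFullC (IsLocalRing.ResidueField A) M))
    (α β : ↥(modularFunctionFieldBar M) →+* ↥(modularFunctionFieldBar (M * q)))
    (B₀ : Set ↥(modularFunctionFieldBar M))
    (ι₁ ι₂ : ↥(modularFunctionFieldFullC (IsLocalRing.ResidueField A) M) →+*
      ↥(modularFunctionFieldFullC (IsLocalRing.ResidueField A) (M * q)))
    (Fr : ↥(modularFunctionFieldFullC (IsLocalRing.ResidueField A) M) →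
      ↥(modularFunctionFieldFullC (IsLocalRing.ResidueField A) M)),
    (∀ y, ((ι₂ y : ↥(modularFunctionFieldFullC (IsLocalRing.ResidueField A) (M * q))) :
      LaurentSeries (IsLocalRing.ResidueField A)) =
        (y : LaurentSeries (IsLocalRing.ResidueField A))) ∧
    (∀ y, ((Fr y : ↥(modularFunctionFieldFullC (IsLocalRing.ResidueField A) M)) :
      LaurentSeries (IsLocalRing.ResidueField A)) =
        qExpand (IsLocalRing.ResidueField A) q (y : LaurentSeries (IsLocalRing.ResidueField A))) ∧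
    (∀ b ∈ (S34M_chart M q A n hn).Rb₂,
      ∃ y ∈ (S34SB_reg (IsLocalRing.ResidueField A) (S18_jbar M (IsLocalRing.ResidueField A)) :
        Set ↥(modularFunctionFieldFullC (IsLocalRing.ResidueField A) M)), ι₂ y = b) ∧
    (∀ f : S₀.O, (f : ↥(modularFunctionFieldBar M)) ∈ B₀ →
      ∃ h : α f ∈ S34P_O2 (S34M_T1 M q A hgen) (S34M_T2 M q hq hqM A hgen),
        α f ∈ (S34M_chart M q A n hn).B ∧
        S34P_red (S34M_T1 M q A hgen) (S34M_T2 M q hq hqM A hgen) ⟨α f, h⟩ =
          (ι₁ (S₀.red f), ι₂ (Fr (S₀.red f)))) ∧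
    (∀ f : S₀.O, (f : ↥(modularFunctionFieldBar M)) ∈ B₀ →
      ∃ h : β f ∈ S34P_O2 (S34M_T1 M q A hgen) (S34M_T2 M q hq hqM A hgen),
        β f ∈ (S34M_chart M q A n hn).B ∧
        S34P_red (S34M_T1 M q A hgen) (S34M_T2 M q hq hqM A hgen) ⟨β f, h⟩ =
          (ι₁ (Fr (S₀.red f)), ι₂ (S₀.red f))) ∧
    (∀ y ∈ (S34SB_reg (IsLocalRing.ResidueField A)
        (S18_jbar M (IsLocalRing.ResidueField A)) :
        Set ↥(modularFunctionFieldFullC (IsLocalRing.ResidueField A) M)),
      ∃ f : S₀.O, (f : ↥(modularFunctionFieldBar M)) ∈ B₀ ∧ S₀.red f = y)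

/-- **(G4 + G5)** at one place: `S34M_StraightSig` from the nodal data. -/
theorem S34SW_straightSig_of_data (hA : A.LiesOverPrime q) (n : ℕ) (hn : 0 < n)
    (σ : AlgebraicClosure ℚ ≃ₐ[ℚ] AlgebraicClosure ℚ) (hσ : A.IsFrobeniusAt σ q)
    (hD : S34SW_NodalData M q hq hqM A hgen n hn) :
    S34M_StraightSig M q hq hqM A hgen n hn σ := by
  obtain ⟨hF, hC, ⟨hP⟩⟩ := S34NF_res_inst q A hq hA
  haveI := hF
  haveI := hC
  haveI := hP
  obtain ⟨S₀, α, β, B₀, ι₁, ι₂, Fr, hι₂, hFr, hR₂, hα, hβ, honto⟩ := hD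
  have hFr' : Fr = S34NF_Fr (IsLocalRing.ResidueField A) q M := by
    funext y
    apply Subtype.ext
    rw [hFr y]
    exact (S34NF_Fr_coe (IsLocalRing.ResidueField A) q M y).symm
  subst hFr'
  exact S34SW_straightSig_of_nodal M q hq hqM A hgen hA n hn σ hσ S₀ α β B₀ ι₁ ι₂ hι₂ hR₂
    hα hβ honto

end

section all

variable (M q : ℕ) [NeZero (M * q)] (hq : q.Prime) (hqM : ¬ q ∣ M)

/-- **(G5)**: `S34M_SigAll` from the nodal data at every place `A ∣ q` and every exponent `n`
prime to `q`. -/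
theorem S34SW_sigAll_of_data [NeZero M] [NeZero q]
    (hD : ∀ (n : ℕ) (hn : 0 < n), ¬ q ∣ n → ∀ (A : ValuationSubring (AlgebraicClosure ℚ)),
      A.LiesOverPrime q →
      ∀ hgen : PrincipalGeneratedByIntegral A (IsLocalRing.residue A) (M * q),
      S34SW_NodalData M q hq hqM A hgen n hn) :
    S34M_SigAll M q hq hqM :=
  fun n hn hqn σ A hA hσ hgen =>
    S34SW_straightSig_of_data M q hq hqM A hgen hA n hn σ hσ (hD n hn hqn A hA hgen)

end all

end Fermat.Agent.S34
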