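import Fermat.Agent.S34.StraightSigAll
import Fermat.Agent.S34.NodalX0
import Fermat.Agent.S34.NodalAB
import Fermat.Agent.S34.NodalX0Rb

/-!
# TRACK 7 (S34 + S35), sub-target (G5) (helper13): `S34M_SigAll` — FINAL

* `S34SW_nodalData` : the nodal data `S34SW_NodalData` on the canonical objects at every place
  `A ∣ q`: `S₀ = S34NX_S0`, `α β` the degeneracy maps, `B₀ = S34SB_reg ℚ̄ (jB M)`,
  `ι₁ = ι₂ = S34NX_iota`, `Fr = S34NX_Fr`; `hR₂` = (P3) `S34NXR_RbSpec` (helper18), `hα`, `hβ` =
  `S34NI_halpha`, `S34NI_hbeta` (helper12), `honto` = `S34NX_honto` (helper11);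
* `S34SW_sigAll` : **(G5)** `S34M_SigAll M q hq hqM`, unconditionally.
-/

set_option autoImplicit false
set_option synthInstance.maxHeartbeats 400000
set_option maxHeartbeats 1000000
set_option linter.unusedSectionVars false
set_option linter.unusedVariables false
set_option linter.style.haveILetI false

open HahnSeries IntermediateField AlgebraicCurve ModularCurve
open scoped Pointwise

noncomputable section

namespace Fermat.Agent.S34

open Fermat.Agent.S18 Fermat.Agent.GalRep Fermat.Agent.S24 Fermat.Agent.Lib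

section

variable (M q : ℕ) [NeZero M] [NeZero q] [NeZero (M * q)] (hq : q.Prime) (hqM : ¬ q ∣ M)
  (A : ValuationSubring (AlgebraicClosure ℚ))
  (hgen : PrincipalGeneratedByIntegral A (IsLocalRing.residue A) (M * q))

/-- the nodal data on the canonical objects. -/
theorem S34SW_nodalData (hA : A.LiesOverPrime q) (n : ℕ) (hn : 0 < n) :
    S34SW_NodalData M q hq hqM A hgen n hn :=
  ⟨S34NX_S0 M q A hq hqM hA,
    ((heckeAlphaBar (AlgebraicClosure ℚ) M q : ↥(modularFunctionFieldBar M) →ₐ[_]
      ↥(modularFunctionFieldBar (M * q))) : ↥(modularFunctionFieldBar M) →+*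
      ↥(modularFunctionFieldBar (M * q))),
    ((heckeBetaBar (AlgebraicClosure ℚ) M q : ↥(modularFunctionFieldBar M) →ₐ[_]
      ↥(modularFunctionFieldBar (M * q))) : ↥(modularFunctionFieldBar M) →+*
      ↥(modularFunctionFieldBar (M * q))),
    (S34SB_reg (AlgebraicClosure ℚ) (jB M) : Set ↥(modularFunctionFieldBar M)),
    S34NX_iota M q A hq hA, S34NX_iota M q A hq hA,
    fun y => S34NX_Fr M q A hq hA y,
    S34NX_iota_coe M q A hq hA,
    S34NX_Fr_coe M q A hq hA,
    (S34NXR_RbSpec M q hq A hA n hn).2.2.1,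
    fun f hf => S34NI_halpha M q hq hqM A hgen (RIG_hgen M A hq hA hqM)
      (S34NX_full_eq M q A hq hA) (fun y => S34NX_Fr M q A hq hA y)
      (S34NX_Fr_coe M q A hq hA) n hn f hf,
    fun f hf => S34NI_hbeta M q hq hqM A hgen (RIG_hgen M A hq hA hqM)
      (S34NX_full_eq M q A hq hA) (fun y => S34NX_Fr M q A hq hA y)
      (S34NX_Fr_coe M q A hq hA) n hn f hf,
    S34NX_honto M q A hq hqM hA⟩

end

section all

variable (M q : ℕ) [NeZero (M * q)] (hq : q.Prime) (hqM : ¬ q ∣ M)

/-- **(G5)**: `S34M_SigAll`, unconditionally: every Frobenius lift at every place `A ∣ q` is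
straight on the canonical objects, with (A3). -/
theorem S34SW_sigAll : S34M_SigAll M q hq hqM := by
  haveI : NeZero M := ⟨fun h => NeZero.ne (M * q) (by rw [h, zero_mul])⟩
  haveI : NeZero q := ⟨hq.ne_zero⟩
  exact S34SW_sigAll_of_data M q hq hqM
    (fun n hn _ A hA hgen => S34SW_nodalData M q hq hqM A hgen hA n hn)

end all

end Fermat.Agent.S34
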