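import Mathlib
import Fermat.Agent.S34.KActInst
import Fermat.Agent.S34.ValTwo

/-!
# TRACK 7 (S34 + S35), package STRAIGHT (helper13), wiring part

The action of an automorphism `g` of `F` (an element of the decomposition group: inertia or a
Frobenius lift) on the two residue fields, in the framework of `Pole.lean` / `KActRed.lean`
(pair of valuation data `S₁, S₂` on `F`, chart `C : S34K_Chart n`).  The consumers are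
`S34K_hK_tau`, `S34K_hK_sig2` (`KActInst.lean`, helper10).

* `S34SW_Act S₁ S₂ g φ₁ φ₂` : `g` preserves `O₁`, `O₂` and `redᵢ ∘ g = φᵢ ∘ redᵢ`;
* `S34SW_act_comap` : for `V₂ = V₁ ∘ w` (`S34V_comap`) and `g ∘ w = w ∘ g` the `V₂`-half follows from
  the `V₁`-half (with `φ₂ = φ₁`);
* `S34SW_Act.fix₁`, `S34SW_Act.fix₂` : `φᵢ (redᵢ x) = redᵢ x` if `g x = x`;
* `S34SW_adjoin_stable`, `S34SW_integral_stable` : a semilinear endomorphism fixing `x` preserves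
  `L[x]` and the integral closure of `L[x]`;
* `S34SW_map_W`, `S34SW_map_Norm` : `map_W`, `map_Kp` of `S34K_Datum.Straight`;
* `S34SW_A3`, `S34SW_A3_fn` : the nodes are `φ²`-fixed — `(0, φ₂ (φ₂ b) − b^{q²}) ∈ W¹` from the two
  degeneracy facts `red (α^* f) = (ι₁ f̄, ι₂ (Fr f̄))`, `red (β^* f) = (ι₁ (Fr f̄), ι₂ f̄)` (NODAL);
  `S34SW_A3_fn` is the input `hA3` of `S34K_hK_sig2`.

The concrete inputs (`g = GR_gal (M q) σ`, `φ` = coefficientwise action on `k((t))`) are in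
`S34/StraightFrob.lean` (helper22), `S34WJ_wq_gal` (helper6); they are assembled in
`S34/StraightInst.lean`.
-/

set_option autoImplicit false
set_option linter.unusedSectionVars false

open AlgebraicCurve

namespace Fermat.Agent.S34

open Fermat.Agent.S18

/-! ### Stability of `L[x]` and of its integral closure -/

section integral

variable {L F : Type*} [Field L] [Field F] [Algebra L F]

/-- a ring endomorphism of `F` which is semilinear over an endomorphism `s` of `L` and fixes `x`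
maps `L[x]` into itself. -/
theorem S34SW_adjoin_stable (g : F →+* F) (s : L →+* L)
    (hgs : ∀ c : L, g (algebraMap L F c) = algebraMap L F (s c)) {x : F} (hx : g x = x)
    {y : F} (hy : y ∈ Algebra.adjoin L ({x} : Set F)) :
    g y ∈ Algebra.adjoin L ({x} : Set F) := by
  induction hy using Algebra.adjoin_induction with
  | mem z hz =>
    rw [Set.mem_singleton_iff] at hz
    rw [hz, hx]
    exact Algebra.subset_adjoin (Set.mem_singleton x)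
  | algebraMap c =>
    rw [hgs]
    exact Subalgebra.algebraMap_mem _ _
  | add a b _ _ iha ihb =>
    rw [map_add]
    exact Subalgebra.add_mem _ iha ihb
  | mul a b _ _ iha ihb =>
    rw [map_mul]
    exact Subalgebra.mul_mem _ iha ihb

/-- the restriction of `g` to `L[x]`. -/
def S34SW_adjoinHom (g : F →+* F) (s : L →+* L)
    (hgs : ∀ c : L, g (algebraMap L F c) = algebraMap L F (s c)) {x : F} (hx : g x = x) :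
    ↥(Algebra.adjoin L ({x} : Set F)) →+* ↥(Algebra.adjoin L ({x} : Set F)) where
  toFun y := ⟨g (y : F), S34SW_adjoin_stable g s hgs hx y.2⟩
  map_one' := Subtype.ext (map_one g)
  map_mul' a b := Subtype.ext (map_mul g (a : F) (b : F))
  map_zero' := Subtype.ext (map_zero g)
  map_add' a b := Subtype.ext (map_add g (a : F) (b : F))

/-- a semilinear ring endomorphism of `F` fixing `x` preserves integrality over `L[x]`. -/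
theorem S34SW_integral_stable (g : F →+* F) (s : L →+* L)
    (hgs : ∀ c : L, g (algebraMap L F c) = algebraMap L F (s c)) {x : F} (hx : g x = x)
    {f : F} (hf : IsIntegral (Algebra.adjoin L ({x} : Set F)) f) :
    IsIntegral (Algebra.adjoin L ({x} : Set F)) (g f) :=
  hf.map_of_comp_eq (S34SW_adjoinHom g s hgs hx) g (by ext y; rfl)

end integral

/-! ### The action on the two residue fields -/

section pair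

variable {L F k Fk₁ Fk₂ : Type*} [Field L] [Field F] [Algebra L F] [Field k]
  [Field Fk₁] [Field Fk₂] [Algebra k Fk₁] [Algebra k Fk₂]

/-- `g` preserves the two valuation rings and acts on the residue fields through `φ₁`, `φ₂`. -/
structure S34SW_Act (S₁ : S18_Val L F k Fk₁) (S₂ : S18_Val L F k Fk₂) (g : F →+* F)
    (φ₁ : Fk₁ →+* Fk₁) (φ₂ : Fk₂ →+* Fk₂) : Prop where
  red₁ : ∀ (f : F) (hf : f ∈ S₁.O), ∃ h : g f ∈ S₁.O, S₁.red ⟨g f, h⟩ = φ₁ (S₁.red ⟨f, hf⟩)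
  red₂ : ∀ (f : F) (hf : f ∈ S₂.O), ∃ h : g f ∈ S₂.O, S₂.red ⟨g f, h⟩ = φ₂ (S₂.red ⟨f, hf⟩)

variable {S₁ : S18_Val L F k Fk₁} {S₂ : S18_Val L F k Fk₂} (hS : S34P_Same S₁ S₂)
  {g : F →+* F} {φ₁ : Fk₁ →+* Fk₁} {φ₂ : Fk₂ →+* Fk₂}

theorem S34SW_Act.mem_O2 (hA : S34SW_Act S₁ S₂ g φ₁ φ₂) :
    ∀ f ∈ S34P_O2 S₁ S₂, g f ∈ S34P_O2 S₁ S₂ :=
  fun f hf => ⟨(hA.red₁ f hf.1).1, (hA.red₂ f hf.2).1⟩

theorem S34SW_Act.red (hA : S34SW_Act S₁ S₂ g φ₁ φ₂) (f : S34P_O2 S₁ S₂) :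
    S34P_red S₁ S₂ ⟨g f, hA.mem_O2 f f.2⟩ =
      (φ₁ (S34P_red S₁ S₂ f).1, φ₂ (S34P_red S₁ S₂ f).2) := by
  apply Prod.ext
  · exact (hA.red₁ f f.2.1).2
  · exact (hA.red₂ f f.2.2).2

theorem S34SW_Act.red_one (hA : S34SW_Act S₁ S₂ g φ₁ φ₂) (f : S34P_O2 S₁ S₂)
    (hf : S34P_red S₁ S₂ f = 1) : S34P_red S₁ S₂ ⟨g f, hA.mem_O2 f f.2⟩ = 1 := by
  rw [hA.red, hf]
  apply Prod.ext
  · exact map_one φ₁
  · exact map_one φ₂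

/-- `φ₁` fixes the reduction of a `g`-fixed element. -/
theorem S34SW_Act.fix₁ (hA : S34SW_Act S₁ S₂ g φ₁ φ₂) {x : F} (hx : x ∈ S₁.O) (hgx : g x = x) :
    φ₁ (S₁.red ⟨x, hx⟩) = S₁.red ⟨x, hx⟩ := by
  obtain ⟨h, e⟩ := hA.red₁ x hx
  rw [← e]
  congr 1
  exact Subtype.ext hgx

/-- `φ₂` fixes the reduction of a `g`-fixed element. -/
theorem S34SW_Act.fix₂ (hA : S34SW_Act S₁ S₂ g φ₁ φ₂) {x : F} (hx : x ∈ S₂.O) (hgx : g x = x) :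
    φ₂ (S₂.red ⟨x, hx⟩) = S₂.red ⟨x, hx⟩ := by
  obtain ⟨h, e⟩ := hA.red₂ x hx
  rw [← e]
  congr 1
  exact Subtype.ext hgx

/-- composition of two actions. -/
theorem S34SW_Act.comp {g' : F →+* F} {φ₁' : Fk₁ →+* Fk₁} {φ₂' : Fk₂ →+* Fk₂}
    (hA : S34SW_Act S₁ S₂ g φ₁ φ₂) (hA' : S34SW_Act S₁ S₂ g' φ₁' φ₂') :
    S34SW_Act S₁ S₂ (g.comp g') (φ₁.comp φ₁') (φ₂.comp φ₂') where
  red₁ f hf := by
    obtain ⟨h1, e1⟩ := hA'.red₁ f hf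
    obtain ⟨h2, e2⟩ := hA.red₁ (g' f) h1
    exact ⟨h2, e2.trans (congrArg φ₁ e1)⟩
  red₂ f hf := by
    obtain ⟨h1, e1⟩ := hA'.red₂ f hf
    obtain ⟨h2, e2⟩ := hA.red₂ (g' f) h1
    exact ⟨h2, e2.trans (congrArg φ₂ e1)⟩

/-- `g` preserves the normalised elements. -/
theorem S34SW_map_Norm (hA : S34SW_Act S₁ S₂ g φ₁ φ₂) {u : F} (hu : u ∈ S34K_Norm S₁ S₂) :
    g u ∈ S34K_Norm S₁ S₂ :=
  S34K_map_Norm g hA.mem_O2 (fun f hf => hA.red_one f hf) hu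

/-- **`map_W`**: `(φ₁, φ₂)` maps `W^u` into `W^{g u}`. -/
theorem S34SW_map_W {n : ℕ}
    (C : S34K_Chart (L := L) (F := F) (k := k) (Fk₁ := Fk₁) (Fk₂ := Fk₂) n)
    (hA : S34SW_Act S₁ S₂ g φ₁ φ₂) (hgB : ∀ f ∈ C.B, g f ∈ C.B)
    (hφ₁ : ∀ a ∈ C.Rb₁, φ₁ a ∈ C.Rb₁) (hφ₂ : ∀ b ∈ C.Rb₂, φ₂ b ∈ C.Rb₂)
    {u : F} {m : ↥C.Rb₁ × ↥C.Rb₂} (hm : m ∈ S34K_W hS C u) :
    (S34K_restr C.Rb₁ φ₁ hφ₁ m.1, S34K_restr C.Rb₂ φ₂ hφ₂ m.2) ∈ S34K_W hS C (g u) := by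
  refine S34K_map_W hS C g hA.mem_O2 hgB
    (fun m => (S34K_restr C.Rb₁ φ₁ hφ₁ m.1, S34K_restr C.Rb₂ φ₂ hφ₂ m.2)) ?_ hm
  intro f m' hfm
  rw [hA.red, hfm]
  rfl

/-- **`map_W` for a trivial action** on the residue fields. -/
theorem S34SW_map_W_id {n : ℕ}
    (C : S34K_Chart (L := L) (F := F) (k := k) (Fk₁ := Fk₁) (Fk₂ := Fk₂) n)
    (hA : S34SW_Act S₁ S₂ g (RingHom.id Fk₁) (RingHom.id Fk₂)) (hgB : ∀ f ∈ C.B, g f ∈ C.B)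
    {u : F} {m : ↥C.Rb₁ × ↥C.Rb₂} (hm : m ∈ S34K_W hS C u) :
    m ∈ S34K_W hS C (g u) :=
  S34SW_map_W hS C hA hgB (fun _ h => h) (fun _ h => h) hm

/-! ### The nodes are `φ²`-fixed -/

/-- **(A3) in `φ`-form**: `(0, φ₂ (φ₂ b) − b^{q²}) ∈ W¹`.

Inputs (NODAL): `Rb₀` = the coordinate ring of level `M`, `ι₁, ι₂` its identifications with
`Rb₁, Rb₂`; `Fr y = (τ y)^q` (`Fr` = substitution `t ↦ t^q`, `τ` = coefficientwise inverse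
Frobenius, `φ₂ ∘ ι₂ ∘ τ = ι₂`); `(ι₁ y, ι₂ (Fr y)) ∈ W¹` (`= red (α^* f)`) and
`(ι₁ (Fr y), ι₂ y) ∈ W¹` (`= red (β^* f)`). -/
theorem S34SW_A3 {n : ℕ}
    (C : S34K_Chart (L := L) (F := F) (k := k) (Fk₁ := Fk₁) (Fk₂ := Fk₂) n)
    {Fk₀ : Type*} [Field Fk₀] (Rb₀ : Set Fk₀)
    (ι₁ : Fk₀ →+* Fk₁) (ι₂ : Fk₀ →+* Fk₂) (Fr : Fk₀ → Fk₀) (τ : Fk₀ →+* Fk₀) (q : ℕ)
    (hFr : ∀ y, Fr y = (τ y) ^ q)
    (hτ : ∀ y ∈ Rb₀, τ y ∈ Rb₀) (hτs : ∀ y ∈ Rb₀, ∃ z ∈ Rb₀, τ z = y)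
    (hpowR : ∀ y ∈ Rb₀, y ^ q ∈ Rb₀)
    (hR₁' : ∀ y ∈ Rb₀, ι₁ y ∈ C.Rb₁)
    (hR₂ : ∀ b ∈ C.Rb₂, ∃ y ∈ Rb₀, ι₂ y = b) (hR₂' : ∀ y ∈ Rb₀, ι₂ y ∈ C.Rb₂)
    (hφ₂ : ∀ b ∈ C.Rb₂, φ₂ b ∈ C.Rb₂)
    (hφτ : ∀ y ∈ Rb₀, φ₂ (ι₂ (τ y)) = ι₂ y)
    (hα : ∀ y (hy : y ∈ Rb₀) (hy' : Fr y ∈ Rb₀),
      ((⟨ι₁ y, hR₁' y hy⟩ : ↥C.Rb₁), (⟨ι₂ (Fr y), hR₂' _ hy'⟩ : ↥C.Rb₂)) ∈ S34K_W hS C 1)
    (hβ : ∀ y (hy : y ∈ Rb₀) (hy' : Fr y ∈ Rb₀),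
      ((⟨ι₁ (Fr y), hR₁' _ hy'⟩ : ↥C.Rb₁), (⟨ι₂ y, hR₂' y hy⟩ : ↥C.Rb₂)) ∈ S34K_W hS C 1)
    (b : ↥C.Rb₂) :
    ((0 : ↥C.Rb₁), S34K_restr C.Rb₂ φ₂ hφ₂ (S34K_restr C.Rb₂ φ₂ hφ₂ b) - b ^ (q ^ 2)) ∈
      S34K_W hS C 1 := by
  have hFrR : ∀ y ∈ Rb₀, Fr y ∈ Rb₀ := fun y hy => by
    rw [hFr]; exact hpowR _ (hτ y hy)
  obtain ⟨y, hy, hyb⟩ := hR₂ b b.2
  -- `z = φ² y`, i.e. `τ (τ z) = y`
  obtain ⟨z₁, hz₁, hz₁y⟩ := hτs y hy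
  obtain ⟨z, hz, hzz₁⟩ := hτs z₁ hz₁
  have h1 := hβ z hz (hFrR z hz)
  have h2 := hα (Fr z) (hFrR z hz) (hFrR _ (hFrR z hz))
  have h3 := (S34K_W hS C 1).sub_mem h1 h2
  have e1 : S34K_restr C.Rb₂ φ₂ hφ₂ (S34K_restr C.Rb₂ φ₂ hφ₂ b) = ⟨ι₂ z, hR₂' z hz⟩ := by
    apply Subtype.ext
    show φ₂ (φ₂ (b : Fk₂)) = ι₂ z
    rw [← hyb, ← hz₁y, hφτ z₁ hz₁, ← hzz₁, hφτ z hz]
  have e2 : b ^ (q ^ 2) = (⟨ι₂ (Fr (Fr z)), hR₂' _ (hFrR _ (hFrR z hz))⟩ : ↥C.Rb₂) := by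
    apply Subtype.ext
    show (b : Fk₂) ^ (q ^ 2) = ι₂ (Fr (Fr z))
    have e : Fr (Fr z) = (τ (τ z)) ^ (q ^ 2) := by
      rw [hFr (Fr z), hFr z, map_pow, ← pow_mul, pow_two]
    rw [e, hzz₁, hz₁y, map_pow, hyb]
  rw [e1, e2]
  have e3 : (((⟨ι₁ (Fr z), hR₁' _ (hFrR z hz)⟩ : ↥C.Rb₁), (⟨ι₂ z, hR₂' z hz⟩ : ↥C.Rb₂)) -
      ((⟨ι₁ (Fr z), hR₁' _ (hFrR z hz)⟩ : ↥C.Rb₁),
        (⟨ι₂ (Fr (Fr z)), hR₂' _ (hFrR _ (hFrR z hz))⟩ : ↥C.Rb₂))) =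
      ((0 : ↥C.Rb₁), (⟨ι₂ z, hR₂' z hz⟩ : ↥C.Rb₂) -
        (⟨ι₂ (Fr (Fr z)), hR₂' _ (hFrR _ (hFrR z hz))⟩ : ↥C.Rb₂)) := by
    apply Prod.ext
    · simp
    · rfl
  rw [← e3]
  exact h3

/-- **(A3), function form** (the input `hA3` of `S34K_hK_sig2`): for every `b ∈ Rb₂` the pair
`(0, Φ₂ (Φ₂ b) − b^{q²})` is the reduction of a function of `B ∩ O₂`, namely of
`β^* f₁ − α^* f₂` with `red₀ f₁ = z`, `red₀ f₂ = Fr z`, `ι₂ z = Φ₂ (Φ₂ b)`.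
The hypotheses `hFr … honto` are those of `S34N_nodal_inputs` (NODAL); in addition `τ` is onto on
`Rb₀` and `Φ₂ ∘ ι₂ ∘ τ = ι₂` (`τ` = coefficientwise inverse Frobenius, `Φ₂` = coefficientwise
Frobenius). -/
theorem S34SW_A3_fn {n : ℕ}
    (C : S34K_Chart (L := L) (F := F) (k := k) (Fk₁ := Fk₁) (Fk₂ := Fk₂) n)
    {F₀ Fk₀ : Type*} [Field F₀] [Algebra L F₀] [Field Fk₀] [Algebra k Fk₀]
    (S₀ : S18_Val L F₀ k Fk₀) (α β : F₀ →+* F)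
    (B₀ : Set F₀) (Rb₀ : Set Fk₀)
    (ι₁ : Fk₀ →+* Fk₁) (ι₂ : Fk₀ →+* Fk₂)
    (Fr : Fk₀ → Fk₀) (τ : Fk₀ →+* Fk₀) (q : ℕ)
    (hFr : ∀ y, Fr y = (τ y) ^ q)
    (hτ : ∀ y ∈ Rb₀, τ y ∈ Rb₀) (hτs : ∀ y ∈ Rb₀, ∃ z ∈ Rb₀, τ z = y)
    (hpowR : ∀ y ∈ Rb₀, y ^ q ∈ Rb₀)
    (hR₂ : ∀ b ∈ C.Rb₂, ∃ y ∈ Rb₀, ι₂ y = b)
    (Φ₂ : Fk₂ →+* Fk₂) (hΦτ : ∀ y ∈ Rb₀, Φ₂ (ι₂ (τ y)) = ι₂ y)
    (hα : ∀ f : S₀.O, (f : F₀) ∈ B₀ → ∃ h : α f ∈ S34P_O2 S₁ S₂, α f ∈ C.B ∧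
      S34P_red S₁ S₂ ⟨α f, h⟩ = (ι₁ (S₀.red f), ι₂ (Fr (S₀.red f))))
    (hβ : ∀ f : S₀.O, (f : F₀) ∈ B₀ → ∃ h : β f ∈ S34P_O2 S₁ S₂, β f ∈ C.B ∧
      S34P_red S₁ S₂ ⟨β f, h⟩ = (ι₁ (Fr (S₀.red f)), ι₂ (S₀.red f)))
    (honto : ∀ y ∈ Rb₀, ∃ f : S₀.O, (f : F₀) ∈ B₀ ∧ S₀.red f = y) :
    ∀ b ∈ C.Rb₂, ∃ f : S34P_O2 S₁ S₂, (f : F) ∈ C.B ∧
      S34P_red S₁ S₂ f = (0, Φ₂ (Φ₂ b) - b ^ (q ^ 2)) := by
  have hFrR : ∀ y ∈ Rb₀, Fr y ∈ Rb₀ := fun y hy => by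
    rw [hFr]; exact hpowR _ (hτ y hy)
  intro b hb
  obtain ⟨y, hy, hyb⟩ := hR₂ b hb
  obtain ⟨z₁, hz₁, hz₁y⟩ := hτs y hy
  obtain ⟨z, hz, hzz₁⟩ := hτs z₁ hz₁
  obtain ⟨f₁, hf₁B, hf₁⟩ := honto z hz
  obtain ⟨f₂, hf₂B, hf₂⟩ := honto (Fr z) (hFrR z hz)
  obtain ⟨h, hB, hred⟩ := hβ f₁ hf₁B
  obtain ⟨h', hB', hred'⟩ := hα f₂ hf₂B
  refine ⟨⟨β f₁, h⟩ - ⟨α f₂, h'⟩, C.B.sub_mem hB hB', ?_⟩
  rw [map_sub, hred, hred', hf₁, hf₂]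
  have e1 : Φ₂ (Φ₂ b) = ι₂ z := by
    rw [← hyb, ← hz₁y, hΦτ z₁ hz₁, ← hzz₁, hΦτ z hz]
  have e2 : b ^ (q ^ 2) = ι₂ (Fr (Fr z)) := by
    have e : Fr (Fr z) = (τ (τ z)) ^ (q ^ 2) := by
      rw [hFr (Fr z), hFr z, map_pow, ← pow_mul, pow_two]
    rw [e, hzz₁, hz₁y, map_pow, hyb]
  rw [e1, e2]
  apply Prod.ext
  · simp
  · rfl

end pair

/-! ### The second valuation `V₂ = V₁ ∘ w` -/

section comap

variable {L F k Fk : Type*} [Field L] [Field F] [Algebra L F] [Field k] [Field Fk]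
  [Algebra k Fk] (G : S18_Gauss L F k Fk) (w : F ≃ₐ[L] F)

/-- the pair `(V₁, V₂ = V₁ ∘ w)` has the same base. -/
theorem S34SW_same : S34P_Same G.toVal (S34V_comap G w).toVal :=
  ⟨rfl, fun _ _ _ => rfl⟩

/-- **the `V₂`-half of the action is free**: if `g` commutes with `w`, preserves `O₁` and acts on
its residue field through `φ`, then it does the same for `V₂ = V₁ ∘ w`. -/
theorem S34SW_act_comap (g : F →+* F) (φ : Fk →+* Fk)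
    (hgw : ∀ f : F, g (w f) = w (g f))
    (h₁ : ∀ (f : F) (hf : f ∈ G.O), ∃ h : g f ∈ G.O, G.red ⟨g f, h⟩ = φ (G.red ⟨f, hf⟩)) :
    S34SW_Act G.toVal (S34V_comap G w).toVal g φ φ where
  red₁ := h₁
  red₂ f hf := by
    have hwf : w f ∈ G.O := (S34V_mem_comap_O G w).1 hf
    obtain ⟨h, e⟩ := h₁ (w f) hwf
    have hgf : w (g f) ∈ G.O := by rw [← hgw]; exact h
    refine ⟨(S34V_mem_comap_O G w).2 hgf, ?_⟩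
    show G.red ⟨w (g f), hgf⟩ = φ (G.red ⟨w f, hwf⟩)
    rw [← e]
    congr 1
    exact Subtype.ext (hgw f).symm

end comap

end Fermat.Agent.S34
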