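import Fermat.Agent.S34.Tors
import Fermat.Agent.S34.InjInst

/-!
# TRACK 7 (S34 + S35), package TORS (helper3), part 2: `htors` on a lattice datum

`S : S34L_Lat L F k R` (helper4's LAT).  `V a b` is the `L`-space of sections with poles of order
at most `a` along `D_∞` and at most `b` along `D₀` (`V a b = L(a·D_∞ + b·D₀ + D_y)`), its unit
ball is `S34T_ball S (V a b) = V a b ∩ O` and its reduction is `S.redSub (V a b)`.

* `S34T_inst` : the torsion bound for arbitrary `M, M', M''` squeezed by the unit balls;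
* `S34T_inst_M` : the hypothesis `htors` of `S34IC_inj` (S34/InjInst.lean), literally.

Inputs: finite generation of the unit balls and injectivity of `red` modulo `𝔪` (LATBALL),
the count `dim red (V a b ∩ O) = a·d + b·d' + e` for `a + b ≥ m₀` (POLE-2), saturation (SAT).
-/

set_option autoImplicit false

namespace Fermat.Agent.S34

open Module Submodule

variable {L F k R : Type*} [Field L] [Field F] [Algebra L F] [Field k] [CommRing R]
  [Algebra k R]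

/-- the unit ball `V ∩ O` of an `L`-subspace, as an `A`-submodule of `F`. -/
def S34T_ball (S : S34L_Lat L F k R) (V : Submodule L F) : Submodule S.A F where
  carrier := {f | f ∈ V ∧ f ∈ S.O}
  zero_mem' := ⟨V.zero_mem, S.O.zero_mem⟩
  add_mem' := fun hf hg => ⟨V.add_mem hf.1 hg.1, S.O.add_mem hf.2 hg.2⟩
  smul_mem' := by
    rintro a f ⟨hfV, hfO⟩
    refine ⟨?_, ?_⟩
    · have : a • f = (a : L) • f := rfl
      rw [this]
      exact V.smul_mem _ hfV
    · rw [Algebra.smul_def]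
      exact S.O.mul_mem (S.algebraMap_mem a a.2) hfO

theorem S34T_mem_ball (S : S34L_Lat L F k R) (V : Submodule L F) (f : F) :
    f ∈ S34T_ball S V ↔ f ∈ V ∧ f ∈ S.O := Iff.rfl

/-- the reduction map extended by `0` outside the unit ball. -/
noncomputable def S34T_red (S : S34L_Lat L F k R) : F → R := by
  classical
  exact fun f => if h : f ∈ S.O then S.red ⟨f, h⟩ else 0

theorem S34T_red_of_mem (S : S34L_Lat L F k R) (f : F) (h : f ∈ S.O) :
    S34T_red S f = S.red ⟨f, h⟩ := by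
  classical
  unfold S34T_red
  rw [dif_pos h]

/-- **TORS on a lattice datum**, general form. -/
theorem S34T_inst (S : S34L_Lat L F k R) (V : ℕ → ℕ → Submodule L F)
    (hVmono : ∀ a b a' b', a ≤ a' → b ≤ b' → V a b ≤ V a' b')
    (hfg : ∀ a b, (S34T_ball S (V a b)).FG)
    (hker : ∀ a b, ∀ f g : S.O, (f : F) ∈ V a b → (g : F) ∈ V a b → S.red f = S.red g →
      (f : F) - (g : F) ∈ IsLocalRing.maximalIdeal S.A • S34T_ball S (V a b))
    (m₀ : ℕ)
    (hsat : ∀ a b a' b', m₀ ≤ min a a' + min b b' →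
      S.redSub (V a b) ⊓ S.redSub (V a' b') ≤ S.redSub (V (min a a') (min b b')))
    (hfin : ∀ a b, FiniteDimensional k (S.redSub (V a b))) (d d' e : ℤ)
    (hdim : ∀ a b, m₀ ≤ a + b →
      (finrank k (S.redSub (V a b)) : ℤ) = a * d + b * d' + e)
    (M M' M'' : Submodule S.A F)
    (hM : ∀ a, ∀ f : F, f ∈ S.O → f ∈ V a 0 → f ∈ M)
    (hM' : ∀ b, ∀ f : F, f ∈ S.O → f ∈ V 0 b → f ∈ M')
    (hM'' : ∀ h ∈ M'', h ∈ S.O ∧ ∃ a b, h ∈ V a b) :
    ∃ c₀ : S.A, c₀ ≠ 0 ∧ ∀ h ∈ M'', ∀ a : S.A, a ≠ 0 → a • h ∈ M ⊔ M' → c₀ • h ∈ M ⊔ M' := by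
  refine S34T_main (A := S.A) (F := F) (k := k) (R := R) (fun a b => S34T_ball S (V a b))
    ?_ hfg (S34T_red S) ?_ ?_ (fun a b => S.redSub (V a b)) ?_ m₀ hsat hfin d d' e hdim
    M M' M'' ?_ ?_ ?_
  · intro a b a' b' haa hbb f hf
    exact ⟨hVmono a b a' b' haa hbb hf.1, hf.2⟩
  · intro a b f hf g hg
    rw [S34T_red_of_mem S _ (S.O.add_mem hf.2 hg.2), S34T_red_of_mem S f hf.2,
      S34T_red_of_mem S g hg.2, ← map_add]
    rfl
  · intro a b f hf g hg hfg'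
    rw [S34T_red_of_mem S f hf.2, S34T_red_of_mem S g hg.2] at hfg'
    exact hker a b ⟨f, hf.2⟩ ⟨g, hg.2⟩ hf.1 hg.1 hfg'
  · intro a b w
    rw [S.mem_redSub]
    constructor
    · rintro ⟨f, hf, rfl⟩
      exact ⟨(f : F), ⟨hf, f.2⟩, S34T_red_of_mem S _ f.2⟩
    · rintro ⟨f, hf, rfl⟩
      exact ⟨⟨f, hf.2⟩, hf.1, (S34T_red_of_mem S f hf.2).symm⟩
  · intro a f hf
    exact hM a f hf.2 hf.1
  · intro b f hf
    exact hM' b f hf.2 hf.1
  · intro h hh
    obtain ⟨hO, a, b, hab⟩ := hM'' h hh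
    exact ⟨a, b, hab, hO⟩

/-- **TORS for `S34IC_inj`**: the hypothesis `htors` of `S34IC_inj`, literally.  `B, B', B''` are
the rings of regular functions of the charts `U`, `U'`, `U ∩ U'`, `u` the Kummer generator. -/
theorem S34T_inst_M (S : S34L_Lat L F k R) (V : ℕ → ℕ → Submodule L F)
    (hVmono : ∀ a b a' b', a ≤ a' → b ≤ b' → V a b ≤ V a' b')
    (hfg : ∀ a b, (S34T_ball S (V a b)).FG)
    (hker : ∀ a b, ∀ f g : S.O, (f : F) ∈ V a b → (g : F) ∈ V a b → S.red f = S.red g →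
      (f : F) - (g : F) ∈ IsLocalRing.maximalIdeal S.A • S34T_ball S (V a b))
    (m₀ : ℕ)
    (hsat : ∀ a b a' b', m₀ ≤ min a a' + min b b' →
      S.redSub (V a b) ⊓ S.redSub (V a' b') ≤ S.redSub (V (min a a') (min b b')))
    (hfin : ∀ a b, FiniteDimensional k (S.redSub (V a b))) (d d' e : ℤ)
    (hdim : ∀ a b, m₀ ≤ a + b →
      (finrank k (S.redSub (V a b)) : ℤ) = a * d + b * d' + e)
    (n : ℕ) (B B' B'' : Subalgebra L F)
    (hroot : ∀ y : F, y ^ n ∈ B → y ∈ B) (hroot' : ∀ y : F, y ^ n ∈ B' → y ∈ B')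
    (hroot'' : ∀ y : F, y ^ n ∈ B'' → y ∈ B'') (u : F)
    (hVB : ∀ a, ∀ f ∈ V a 0, f ^ n * u ∈ B)
    (hVB' : ∀ b, ∀ f ∈ V 0 b, f ^ n * u ∈ B')
    (hVB'' : ∀ f : F, f ^ n * u ∈ B'' → ∃ a b, f ∈ V a b) :
    ∃ c₀ : S.A, c₀ ≠ 0 ∧ ∀ h ∈ S34IC_M S B'' n hroot'' u, ∀ a : S.A, a ≠ 0 →
      a • h ∈ S34IC_M S B n hroot u ⊔ S34IC_M S B' n hroot' u →
      c₀ • h ∈ S34IC_M S B n hroot u ⊔ S34IC_M S B' n hroot' u := by
  refine S34T_inst S V hVmono hfg hker m₀ hsat hfin d d' e hdim _ _ _ ?_ ?_ ?_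
  · intro a f hfO hfV
    exact ⟨hfO, hVB a f hfV⟩
  · intro b f hfO hfV
    exact ⟨hfO, hVB' b f hfV⟩
  · intro h hh
    exact ⟨hh.1, hVB'' h hh.2⟩

end Fermat.Agent.S34
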