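import Fermat.Agent.S34.LatBallTors
import Fermat.Agent.S34.InjInst
import Fermat.Agent.Lib.RiemannThm

/-!
# TRACK 7 (S34 + S35), package TORS (helper3), part 3: `htors` from Riemann's theorem + SAT

`S : S34L_Lat L F k R` with a cartesian chart, `RR_Hyp L F` (Riemann's theorem on `F`),
`Dinf, D0 ≥ 0` two effective divisors of positive degree (the pole sets of the two charts),
`u` a Kummer generator with `div u = n·D`.  The sections are

  `S34T_V Dinf D0 D a b = L(a·Dinf + b·D0 + D)`,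

so that `{f ∈ O | fⁿ·u ∈ L(n·(a·Dinf + b·D0))}` is the unit ball of `S34T_V Dinf D0 D a b`.

`S34T_htors_RR` : the hypothesis `htors` of `S34IC_inj`, literally, for charts `B, B', B''` with
`{regular off Dinf} ⊂ B`, `{regular off D0} ⊂ B'`, `B'' ⊂ {regular off Dinf ∪ D0}`.
The only remaining input is saturation `hsat` (package SAT).
-/

set_option autoImplicit false

namespace Fermat.Agent.S34

open Module Submodule AlgebraicCurve Fermat.Agent.Lib

variable {L F k R : Type*} [Field L] [Field F] [Algebra L F] [Field k] [CommRing R]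
  [Algebra k R]

/-- the sections of `O(D)` with poles of order at most `a` along `Dinf`, `b` along `D0`. -/
noncomputable def S34T_V (Dinf D0 D : Divisor L F) (a b : ℕ) : Submodule L F :=
  riemannRochSpace (a • Dinf + b • D0 + D)

theorem S34T_V_mono (Dinf D0 D : Divisor L F) (hDinf : 0 ≤ Dinf) (hD0 : 0 ≤ D0)
    (a b a' b' : ℕ) (ha : a ≤ a') (hb : b ≤ b') :
    S34T_V Dinf D0 D a b ≤ S34T_V Dinf D0 D a' b' := by
  apply RR_mono
  rw [Finsupp.le_def]
  intro v
  have h1 := Finsupp.le_def.mp hDinf v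
  have h2 := Finsupp.le_def.mp hD0 v
  simp only [Finsupp.coe_zero, Pi.zero_apply] at h1 h2
  simp only [Finsupp.add_apply, Finsupp.smul_apply, nsmul_eq_mul]
  have ha' : (a : ℤ) ≤ a' := by exact_mod_cast ha
  have hb' : (b : ℤ) ≤ b' := by exact_mod_cast hb
  nlinarith [mul_le_mul_of_nonneg_right ha' h1, mul_le_mul_of_nonneg_right hb' h2]

theorem S34T_V_degree (Dinf D0 D : Divisor L F) (a b : ℕ) :
    (a • Dinf + b • D0 + D).degree = a * Dinf.degree + b * D0.degree + D.degree := by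
  rw [map_add, map_add, map_nsmul, map_nsmul, nsmul_eq_mul, nsmul_eq_mul]

/-- Riemann's theorem for the family `S34T_V`: the dimension is affine for `a + b ≥ m₂`. -/
theorem S34T_V_finrank (hRR : RR_Hyp L F) (Dinf D0 D : Divisor L F)
    (hdinf : 1 ≤ Dinf.degree) (hd0 : 1 ≤ D0.degree) :
    ∃ m₂ : ℕ, ∀ a b : ℕ, m₂ ≤ a + b →
      (finrank L (S34T_V Dinf D0 D a b) : ℤ)
        = a * Dinf.degree + b * D0.degree + (D.degree + 1 - RR_genus L F) := by
  obtain ⟨c, hc⟩ := RR_riemann_eq hRR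
  refine ⟨(c - D.degree).toNat, fun a b hab => ?_⟩
  have hab' : ((c - D.degree).toNat : ℤ) ≤ (a : ℤ) + b := by exact_mod_cast hab
  have h1 : c - D.degree ≤ (c - D.degree).toNat := Int.self_le_toNat _
  have ha0 : (0 : ℤ) ≤ a := Int.natCast_nonneg a
  have hb0 : (0 : ℤ) ≤ b := Int.natCast_nonneg b
  have hdeg : c ≤ (a • Dinf + b • D0 + D).degree := by
    rw [S34T_V_degree]
    nlinarith [mul_le_mul_of_nonneg_left hdinf ha0, mul_le_mul_of_nonneg_left hd0 hb0]
  have := hc _ hdeg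
  rw [S34T_V_degree] at this
  unfold S34T_V
  rw [this]
  ring

/-- sections regular off `Dinf`: `f ∈ L(a·Dinf + D)` gives `fⁿ·u` regular off `Dinf`. -/
theorem S34T_pow_mul_regular (Dinf D0 D : Divisor L F) (n : ℕ) (hn : 0 < n) (u : F)
    (hu : ∀ v : Place L F, v.ord u = n * D v) (a b : ℕ) (f : F)
    (hf : f ∈ S34T_V Dinf D0 D a b) (v : Place L F) (hv : Dinf v = 0) (hv' : D0 v = 0) :
    0 ≤ v.ord (f ^ n * u) := by
  by_cases hf0 : f = 0
  · rw [hf0, zero_pow (by omega), zero_mul, Place.ord_zero]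
  by_cases hu0 : u = 0
  · rw [hu0, mul_zero, Place.ord_zero]
  have h := (mem_riemannRochSpace_iff.mp hf v).resolve_left hf0
  simp only [Finsupp.add_apply, Finsupp.smul_apply, nsmul_eq_mul, hv, hv', mul_zero,
    zero_add] at h
  rw [Place.ord_mul _ (pow_ne_zero n hf0) hu0, ← zpow_natCast, Place.ord_zpow, hu v]
  have hn' : (0 : ℤ) < n := by exact_mod_cast hn
  nlinarith

/-- a function with `fⁿ·u` regular off `Dinf ∪ D0` is a section with bounded poles. -/
theorem S34T_exists_mem_V (Dinf D0 D : Divisor L F) (hDinf : 0 ≤ Dinf) (hD0 : 0 ≤ D0)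
    (n : ℕ) (hn : 0 < n) (u : F) (hu0 : u ≠ 0)
    (hu : ∀ v : Place L F, v.ord u = n * D v) (f : F)
    (hf : ∀ v : Place L F, Dinf v = 0 → D0 v = 0 → 0 ≤ v.ord (f ^ n * u)) :
    ∃ a b, f ∈ S34T_V Dinf D0 D a b := by
  classical
  by_cases hf0 : f = 0
  · exact ⟨0, 0, hf0 ▸ Submodule.zero_mem _⟩
  set T : Finset (Place L F) := Dinf.support ∪ D0.support with hT
  set m : ℕ := T.sup (fun v => (-v.ord f - D v).toNat) with hm
  refine ⟨m, m, ?_⟩
  rw [S34T_V, mem_riemannRochSpace_iff]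
  intro v
  right
  simp only [Finsupp.add_apply, Finsupp.smul_apply, nsmul_eq_mul]
  have h1 := Finsupp.le_def.mp hDinf v
  have h2 := Finsupp.le_def.mp hD0 v
  simp only [Finsupp.coe_zero, Pi.zero_apply] at h1 h2
  have hn' : (0 : ℤ) < n := by exact_mod_cast hn
  by_cases hvT : v ∈ T
  · have hle : (-v.ord f - D v).toNat ≤ m := Finset.le_sup (f := fun v => (-v.ord f - D v).toNat) hvT
    have hle' : ((-v.ord f - D v).toNat : ℤ) ≤ m := by exact_mod_cast hle
    have h3 : -v.ord f - D v ≤ (-v.ord f - D v).toNat := Int.self_le_toNat _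
    have hm0 : (0 : ℤ) ≤ m := Int.natCast_nonneg m
    have hpos : 1 ≤ Dinf v + D0 v := by
      rw [hT, Finset.mem_union, Finsupp.mem_support_iff, Finsupp.mem_support_iff] at hvT
      rcases hvT with h | h
      · have : 0 < Dinf v := lt_of_le_of_ne h1 (Ne.symm h)
        omega
      · have : 0 < D0 v := lt_of_le_of_ne h2 (Ne.symm h)
        omega
    nlinarith [mul_le_mul_of_nonneg_left hpos hm0]
  · rw [hT, Finset.mem_union, not_or, Finsupp.notMem_support_iff,
      Finsupp.notMem_support_iff] at hvT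
    have h := hf v hvT.1 hvT.2
    rw [Place.ord_mul _ (pow_ne_zero n hf0) hu0, ← zpow_natCast, Place.ord_zpow, hu v] at h
    rw [hvT.1, hvT.2]
    simp only [mul_zero, zero_add]
    nlinarith

/-- **TORS from Riemann's theorem + SAT**: the hypothesis `htors` of `S34IC_inj`. -/
theorem S34T_htors_RR (S : S34L_Lat L F k R) {x : S.O} {n₀ : ℕ} {y : Fin n₀ → S.O}
    (hC : S.IsCart x y) (hRR : RR_Hyp L F)
    (Dinf D0 D : Divisor L F) (hDinf : 0 ≤ Dinf) (hD0 : 0 ≤ D0)
    (hdinf : 1 ≤ Dinf.degree) (hd0 : 1 ≤ D0.degree)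
    (n : ℕ) (hn : 0 < n) (u : F) (hu0 : u ≠ 0) (hu : ∀ v : Place L F, v.ord u = n * D v)
    (m₁ : ℕ)
    (hsat : ∀ a b a' b', m₁ ≤ min a a' + min b b' →
      S.redSub (S34T_V Dinf D0 D a b) ⊓ S.redSub (S34T_V Dinf D0 D a' b')
        ≤ S.redSub (S34T_V Dinf D0 D (min a a') (min b b')))
    (B B' B'' : Subalgebra L F)
    (hroot : ∀ y : F, y ^ n ∈ B → y ∈ B) (hroot' : ∀ y : F, y ^ n ∈ B' → y ∈ B')
    (hroot'' : ∀ y : F, y ^ n ∈ B'' → y ∈ B'')
    (hB : ∀ f : F, (∀ v : Place L F, Dinf v = 0 → 0 ≤ v.ord f) → f ∈ B)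
    (hB' : ∀ f : F, (∀ v : Place L F, D0 v = 0 → 0 ≤ v.ord f) → f ∈ B')
    (hB'' : ∀ f ∈ B'', ∀ v : Place L F, Dinf v = 0 → D0 v = 0 → 0 ≤ v.ord f) :
    ∃ c₀ : S.A, c₀ ≠ 0 ∧ ∀ h ∈ S34IC_M S B'' n hroot'' u, ∀ a : S.A, a ≠ 0 →
      a • h ∈ S34IC_M S B n hroot u ⊔ S34IC_M S B' n hroot' u →
      c₀ • h ∈ S34IC_M S B n hroot u ⊔ S34IC_M S B' n hroot' u := by
  obtain ⟨m₂, hm₂⟩ := S34T_V_finrank hRR Dinf D0 D hdinf hd0
  refine S34LB_tors S hC (S34T_V Dinf D0 D) (S34T_V_mono Dinf D0 D hDinf hD0)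
    (fun a b => RR_finite hRR _) (max m₁ m₂)
    (fun a b a' b' h => hsat a b a' b' ((le_max_left _ _).trans h))
    Dinf.degree D0.degree (D.degree + 1 - RR_genus L F)
    (fun a b h => hm₂ a b ((le_max_right _ _).trans h)) _ _ _ ?_ ?_ ?_
  · rintro a f ⟨hfV, hfO⟩
    refine ⟨hfO, hB _ fun v hv => ?_⟩
    by_cases hv' : D0 v = 0
    · exact S34T_pow_mul_regular Dinf D0 D n hn u hu a 0 f hfV v hv hv'
    · -- `b = 0`: the divisor `D0` does not enter
      have hfV' : f ∈ S34T_V Dinf 0 D a 0 := by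
        have : S34T_V Dinf D0 D a 0 = S34T_V Dinf 0 D a 0 := by
          unfold S34T_V
          rw [zero_smul, zero_smul]
        rwa [this] at hfV
      exact S34T_pow_mul_regular Dinf 0 D n hn u hu a 0 f hfV' v hv rfl
  · rintro b f ⟨hfV, hfO⟩
    refine ⟨hfO, hB' _ fun v hv => ?_⟩
    have hfV' : f ∈ S34T_V 0 D0 D 0 b := by
      have : S34T_V Dinf D0 D 0 b = S34T_V 0 D0 D 0 b := by
        unfold S34T_V
        rw [zero_smul, zero_smul]
      rwa [this] at hfV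
    exact S34T_pow_mul_regular 0 D0 D n hn u hu 0 b f hfV' v rfl hv
  · rintro h ⟨hhO, hh⟩
    obtain ⟨a, b, hab⟩ := S34T_exists_mem_V Dinf D0 D hDinf hD0 n hn u hu0 hu h
      (fun v hv hv' => hB'' _ hh v hv hv')
    exact ⟨a, b, hab, hhO⟩

end Fermat.Agent.S34
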