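import Mathlib
import Fermat.Prelude.Def_FLTPrelim_Ramification

/-!
# TRACK 7 (NODE), package VAL-HGEN, part ValArch (helper15 for helper18)

Two "rank one" lemmas for a valuation subring `A` of `ℚ̄` lying over a prime `q`:

* `S34VA_arch`  : for `c ≠ 0` there is `n` with `q ^ n * c ∈ A`;
* `S34VA_arch'` : for `c ∈ 𝔪_A` (i.e. `c ∈ A`, `c⁻¹ ∉ A`) and every `n` there is `m` with
  `c ^ m * (q ^ n)⁻¹ ∈ A`.

Both follow from the core statement `S34VA_core`: if `d ≠ 0` is a non-unit of `A`, algebraic over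
`ℤ`, then `v(d) ^ m = v(q) ^ e` for some `m, e ≥ 1` (the maximal valuation among the terms of an
integral relation of `d` is attained twice, and non-zero integers have valuation `v(q) ^ e`).
Everything is proved for an arbitrary field `L` of characteristic zero.
-/

set_option autoImplicit false

namespace Fermat.Agent.S34

section general

variable {L : Type*} [Field L] {Γ₀ : Type*} [LinearOrderedCommGroupWithZero Γ₀]

/-- Ultrametric principle: if a finite sum vanishes and one term is non-zero, then two different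
terms have the same non-zero valuation. -/
theorem S34VA_max_twice (v : Valuation L Γ₀) {ι : Type*} [DecidableEq ι] (s : Finset ι)
    (f : ι → L) (hsum : ∑ i ∈ s, f i = 0) (hne : ∃ i ∈ s, f i ≠ 0) :
    ∃ i ∈ s, ∃ j ∈ s, i ≠ j ∧ v (f i) = v (f j) ∧ f i ≠ 0 := by
  obtain ⟨i₀, hi₀, hfi₀⟩ := hne
  obtain ⟨i, hi, hmax⟩ := Finset.exists_max_image s (fun i => v (f i)) ⟨i₀, hi₀⟩
  have hfi : f i ≠ 0 := by
    intro h
    have h1 : v (f i₀) ≤ v (f i) := hmax i₀ hi₀
    rw [h, map_zero] at h1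
    exact hfi₀ ((map_eq_zero v).1 (le_antisymm h1 zero_le))
  have hvi : v (f i) ≠ 0 := (map_ne_zero v).2 hfi
  by_contra hcon
  have hlt : ∀ j ∈ s.erase i, v (f j) < v (f i) := by
    intro j hj
    obtain ⟨hji, hjs⟩ := Finset.mem_erase.1 hj
    rcases lt_or_eq_of_le (hmax j hjs) with h | h
    · exact h
    · exact absurd ⟨i, hi, j, hjs, fun h' => hji h'.symm, h.symm, hfi⟩ hcon
  have h2 : v (∑ j ∈ s.erase i, f j) < v (f i) := Valuation.map_sum_lt v hvi hlt
  have h3 : f i = - ∑ j ∈ s.erase i, f j := by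
    have := Finset.add_sum_erase s f hi
    rw [hsum] at this
    exact eq_neg_of_add_eq_zero_left this
  rw [h3, Valuation.map_neg] at h2
  exact lt_irrefl _ h2

end general

section valsub

variable {L : Type*} [Field L] (A : ValuationSubring L)

/-- An integer prime to `q` is a unit of `A` when `q` is a non-unit. -/
theorem S34VA_val_coprime (q : ℕ) (hA : (q : L) ∈ A.nonunits) (n : ℕ) (hn : Nat.Coprime n q) :
    A.valuation (n : L) = 1 := by
  have hle : A.valuation (n : L) ≤ 1 := (A.valuation_le_one_iff _).2 (natCast_mem A n)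
  refine le_antisymm hle ?_
  by_contra hlt
  have hlt' : A.valuation (n : L) < 1 := lt_of_not_ge hlt
  obtain ⟨a, b, hab⟩ := (Nat.isCoprime_iff_coprime (m := n) (n := q)).2 hn
  have hab' : (a : L) * (n : L) + (b : L) * (q : L) = 1 := by
    have := congrArg (fun z : ℤ => (z : L)) hab
    simpa using this
  have ha : A.valuation (a : L) ≤ 1 := (A.valuation_le_one_iff _).2 (intCast_mem A a)
  have hb : A.valuation (b : L) ≤ 1 := (A.valuation_le_one_iff _).2 (intCast_mem A b)
  have hq : A.valuation (q : L) < 1 := (A.mem_nonunits_iff).1 hA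
  have h1 : A.valuation ((a : L) * (n : L)) < 1 := by
    rw [map_mul]
    calc A.valuation (a : L) * A.valuation (n : L) ≤ 1 * A.valuation (n : L) :=
          mul_le_mul_left ha _
      _ = A.valuation (n : L) := one_mul _
      _ < 1 := hlt'
  have h2 : A.valuation ((b : L) * (q : L)) < 1 := by
    rw [map_mul]
    calc A.valuation (b : L) * A.valuation (q : L) ≤ 1 * A.valuation (q : L) :=
          mul_le_mul_left hb _
      _ = A.valuation (q : L) := one_mul _
      _ < 1 := hq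
  have h3 : A.valuation ((a : L) * (n : L) + (b : L) * (q : L)) < 1 :=
    Valuation.map_add_lt _ h1 h2
  rw [hab', map_one] at h3
  exact lt_irrefl _ h3

/-- A non-zero natural number has valuation `v(q) ^ e`. -/
theorem S34VA_val_nat (q : ℕ) (hq : q.Prime) (hA : (q : L) ∈ A.nonunits) (n : ℕ) (hn : n ≠ 0) :
    ∃ e : ℕ, A.valuation (n : L) = A.valuation (q : L) ^ e := by
  obtain ⟨e, n', hn', rfl⟩ := Nat.exists_eq_pow_mul_and_not_dvd hn q hq.ne_one
  refine ⟨e, ?_⟩
  have hcop : Nat.Coprime n' q := ((Nat.Prime.coprime_iff_not_dvd hq).2 hn').symm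
  rw [Nat.cast_mul, Nat.cast_pow, map_mul, map_pow, S34VA_val_coprime A q hA n' hcop, mul_one]

/-- A non-zero integer has valuation `v(q) ^ e`. -/
theorem S34VA_val_int (q : ℕ) (hq : q.Prime) (hA : (q : L) ∈ A.nonunits) (a : ℤ) (ha : a ≠ 0) :
    ∃ e : ℕ, A.valuation (a : L) = A.valuation (q : L) ^ e := by
  obtain ⟨e, he⟩ := S34VA_val_nat A q hq hA a.natAbs (Int.natAbs_ne_zero.2 ha)
  refine ⟨e, ?_⟩
  rcases Int.natAbs_eq a with h | h
  · rw [← he]
    conv_lhs => rw [h]
    simp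
  · rw [← he]
    conv_lhs => rw [h]
    simp


/-- **Core**: a non-zero non-unit `d` of `A` which is algebraic over `ℤ` satisfies
`v(d) ^ m = v(q) ^ e` for some `m, e ≥ 1`. -/
theorem S34VA_core [CharZero L] (q : ℕ) (hq : q.Prime) (hA : (q : L) ∈ A.nonunits) (d : L)
    (hd0 : d ≠ 0) (hd : A.valuation d < 1) (halg : IsAlgebraic ℤ d) :
    ∃ m e : ℕ, 0 < m ∧ 0 < e ∧ A.valuation d ^ m = A.valuation (q : L) ^ e := by
  classical
  obtain ⟨P, hP0, hPd⟩ := halg
  set x := A.valuation (q : L) with hx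
  set y := A.valuation d with hy
  have hx1 : x < 1 := (A.mem_nonunits_iff).1 hA
  have hq0 : (q : L) ≠ 0 := Nat.cast_ne_zero.2 hq.ne_zero
  have hx0 : x ≠ 0 := (_root_.map_ne_zero _).2 hq0
  have hy0 : y ≠ 0 := (_root_.map_ne_zero _).2 hd0
  -- the relation as a finite sum
  have hsum : ∑ i ∈ P.support, ((P.coeff i : ℤ) : L) * d ^ i = 0 := by
    have h := hPd
    rw [Polynomial.aeval_def, Polynomial.eval₂_eq_sum, Polynomial.sum_def] at h
    simpa using h
  have hne : ∃ i ∈ P.support, ((P.coeff i : ℤ) : L) * d ^ i ≠ 0 := by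
    obtain ⟨i, hi⟩ := Finset.nonempty_of_ne_empty
      (fun h => hP0 (Polynomial.support_eq_empty.1 h))
    refine ⟨i, hi, mul_ne_zero ?_ (pow_ne_zero _ hd0)⟩
    exact Int.cast_ne_zero.2 (Polynomial.mem_support_iff.1 hi)
  obtain ⟨i, hi, j, hj, hij, hv, -⟩ :=
    S34VA_max_twice A.valuation P.support (fun i => ((P.coeff i : ℤ) : L) * d ^ i) hsum hne
  -- the key computation for `i < j`
  have key : ∀ i j : ℕ, i ∈ P.support → j ∈ P.support → i < j →
      A.valuation (((P.coeff i : ℤ) : L) * d ^ i) = A.valuation (((P.coeff j : ℤ) : L) * d ^ j) →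
      ∃ m e : ℕ, 0 < m ∧ 0 < e ∧ y ^ m = x ^ e := by
    intro i j hi hj hlt hv
    obtain ⟨ei, hei⟩ := S34VA_val_int A q hq hA (P.coeff i) (Polynomial.mem_support_iff.1 hi)
    obtain ⟨ej, hej⟩ := S34VA_val_int A q hq hA (P.coeff j) (Polynomial.mem_support_iff.1 hj)
    rw [map_mul, map_mul, map_pow, map_pow, hei, hej] at hv
    -- hv : x ^ ei * y ^ i = x ^ ej * y ^ j
    obtain ⟨t, rfl⟩ : ∃ t, j = i + t := ⟨j - i, by omega⟩
    have ht : 0 < t := by omega
    have hyi : y ^ i ≠ 0 := pow_ne_zero _ hy0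
    have hv' : x ^ ei = x ^ ej * y ^ t := by
      have h1 : x ^ ei * y ^ i = (x ^ ej * y ^ t) * y ^ i := by
        rw [hv, pow_add, mul_assoc]
        exact congrArg _ (mul_comm _ _)
      exact mul_right_cancel₀ hyi h1
    have hyt : y ^ t < 1 := pow_lt_one₀ zero_le hd (by omega)
    have hejlt : ej < ei := by
      by_contra hcon
      have hle : ei ≤ ej := not_lt.1 hcon
      have h2 : x ^ ej ≤ x ^ ei := pow_le_pow_right_of_le_one' hx1.le hle
      have h3 : x ^ ej * y ^ t < x ^ ej * 1 :=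
        mul_lt_mul_of_pos_left hyt (pow_pos (zero_lt_iff.2 hx0) ej)
      rw [mul_one, ← hv'] at h3
      exact lt_irrefl _ (lt_of_lt_of_le h3 h2)
    obtain ⟨u, rfl⟩ : ∃ u, ei = ej + u := ⟨ei - ej, by omega⟩
    have hu : 0 < u := by omega
    refine ⟨t, u, ht, hu, ?_⟩
    have hxej : x ^ ej ≠ 0 := pow_ne_zero _ hx0
    have h4 : x ^ ej * x ^ u = x ^ ej * y ^ t := by rw [← pow_add]; exact hv'
    exact (mul_left_cancel₀ hxej h4).symm
  rcases lt_or_gt_of_ne hij with h | h
  · exact key i j hi hj h hv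
  · exact key j i hj hi h hv.symm

end valsub

/-- **(arch')** for `c ∈ 𝔪_A` and every `n` some power of `c` is divisible by `q ^ n` in `A`. -/
theorem S34VA_arch' (q : ℕ) (hq : q.Prime) (A : ValuationSubring (AlgebraicClosure ℚ))
    (hA : A.LiesOverPrime q) (c : AlgebraicClosure ℚ) (hcA : c ∈ A) (hc' : c⁻¹ ∉ A) (n : ℕ) :
    ∃ m : ℕ, c ^ m * ((q : AlgebraicClosure ℚ) ^ n)⁻¹ ∈ A := by
  have hc0 : c ≠ 0 := by
    rintro rfl
    exact hc' (by rw [inv_zero]; exact zero_mem A)
  have hcv : A.valuation c < 1 := by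
    have h1 : A.valuation c ≤ 1 := (A.valuation_le_one_iff _).2 hcA
    refine lt_of_le_of_ne h1 (fun h => hc' ?_)
    rw [← A.valuation_le_one_iff, map_inv₀, h, inv_one]
  have halg : IsAlgebraic ℤ c :=
    (IsFractionRing.isAlgebraic_iff ℤ ℚ (AlgebraicClosure ℚ)).2
      ((AlgebraicClosure.isAlgebraic ℚ).isAlgebraic c)
  obtain ⟨m, e, hm, he, hme⟩ := S34VA_core A q hq hA c hc0 hcv halg
  have hx1 : A.valuation (q : AlgebraicClosure ℚ) < 1 := (A.mem_nonunits_iff).1 hA
  have hq0 : (q : AlgebraicClosure ℚ) ≠ 0 := Nat.cast_ne_zero.2 hq.ne_zero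
  refine ⟨m * n, ?_⟩
  rw [← A.valuation_le_one_iff, map_mul, map_inv₀, map_pow, map_pow, pow_mul, hme]
  have hxn : A.valuation (q : AlgebraicClosure ℚ) ^ n ≠ 0 :=
    pow_ne_zero _ ((_root_.map_ne_zero _).2 hq0)
  rw [mul_inv_le_iff₀ (zero_lt_iff.2 hxn), one_mul]
  have h1 : A.valuation (q : AlgebraicClosure ℚ) ^ e ≤ A.valuation (q : AlgebraicClosure ℚ) :=
    (pow_le_pow_right_of_le_one' hx1.le he).trans_eq (pow_one _)
  exact pow_le_pow_left₀ zero_le h1 n

/-- **(arch)** every non-zero `c ∈ ℚ̄` becomes integral after multiplication by a power of `q`. -/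
theorem S34VA_arch (q : ℕ) (hq : q.Prime) (A : ValuationSubring (AlgebraicClosure ℚ))
    (hA : A.LiesOverPrime q) (c : AlgebraicClosure ℚ) (hc : c ≠ 0) :
    ∃ n : ℕ, (q : AlgebraicClosure ℚ) ^ n * c ∈ A := by
  by_cases hcA : c ∈ A
  · exact ⟨0, by simpa using hcA⟩
  -- `d = c⁻¹` is a non-zero non-unit
  have hd0 : c⁻¹ ≠ 0 := inv_ne_zero hc
  have hcv : 1 < A.valuation c := by
    rw [← not_le, A.valuation_le_one_iff]; exact hcA
  have hdv : A.valuation c⁻¹ < 1 := by
    rw [map_inv₀]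
    exact inv_lt_one_of_one_lt₀ hcv
  have halg : IsAlgebraic ℤ c⁻¹ :=
    (IsFractionRing.isAlgebraic_iff ℤ ℚ (AlgebraicClosure ℚ)).2
      ((AlgebraicClosure.isAlgebraic ℚ).isAlgebraic c⁻¹)
  obtain ⟨m, e, hm, he, hme⟩ := S34VA_core A q hq hA c⁻¹ hd0 hdv halg
  refine ⟨e, ?_⟩
  rw [← A.valuation_le_one_iff, map_mul, map_pow, ← hme, map_inv₀]
  have hc0 : A.valuation c ≠ 0 := (_root_.map_ne_zero _).2 hc
  have h1 : (A.valuation c)⁻¹ ^ m ≤ (A.valuation c)⁻¹ :=
    (pow_le_pow_right_of_le_one' (by rw [← map_inv₀]; exact hdv.le) hm).trans_eq (pow_one _)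
  calc (A.valuation c)⁻¹ ^ m * A.valuation c ≤ (A.valuation c)⁻¹ * A.valuation c :=
        mul_le_mul_left h1 _
    _ = 1 := inv_mul_cancel₀ hc0

end Fermat.Agent.S34
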