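import Mathlib

/-!
# TRACK 7 (S34 + S35), package VAL-HGEN, part 1 (helper18): immediate extensions, abstractly

`L ⊂ K ⊂ F` fields (`L` = constants, `K = F_M`, `F = F_N`), `OK` a valuation ring of `K` whose
value group is represented by constants, `O ⊂ F` a subring with a ring homomorphism
`red : O → Fk` such that elements with non-zero reduction are invertible in `O`, compatible
with `OK`.  If `F = K[Y]` and every `y ∈ Y` can be approximated by elements of `K` modulo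
`ϖ ^ n · O` for all `n`, then every `f ∈ F^×` is a constant times an element of `O` with
non-zero reduction (so `O` is a valuation ring of `F` with the same value group).

* `S34VH_Datum` : the hypotheses;
* `S34VH_Datum.mem_of_map_mem` : `O ∩ K = OK`;
* `S34VH_Datum.app_of_adjoin` : approximability passes to `K[Y]`;
* `S34VH_Datum.exists_const_mul_unit` : the conclusion;
* `S34VH_Datum.newton` : approximability of a simple root of a polynomial over `OK`.
-/

set_option autoImplicit false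

namespace Fermat.Agent.S34

/-- the abstract datum of VAL-HGEN. -/
structure S34VH_Datum (L K F Fk : Type*) [Field L] [Field K] [Field F] [Field Fk]
    [Algebra L K] [Algebra K F] [Algebra L F] [IsScalarTower L K F] where
  /-- the valuation ring of the small field -/
  OK : ValuationSubring K
  /-- the candidate valuation ring of the big field -/
  O : Subring F
  /-- its reduction map -/
  red : O →+* Fk
  inv_mem : ∀ x : O, red x ≠ 0 → (x : F)⁻¹ ∈ O
  map_mem : ∀ x : K, x ∈ OK → algebraMap K F x ∈ O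
  red_unit : ∀ (x : K) (hx : x ∈ OK), x ≠ 0 → x⁻¹ ∈ OK → red ⟨algebraMap K F x, map_mem x hx⟩ ≠ 0
  red_nonunit : ∀ (x : K) (hx : x ∈ OK), x⁻¹ ∉ OK → red ⟨algebraMap K F x, map_mem x hx⟩ = 0
  value_group : ∀ x : K, x ≠ 0 → ∃ c : L, c ≠ 0 ∧ x * (algebraMap L K c)⁻¹ ∈ OK ∧
    (x * (algebraMap L K c)⁻¹)⁻¹ ∈ OK
  /-- a pseudo-uniformiser among the constants -/
  ϖ : L
  ϖ_mem : algebraMap L K ϖ ∈ OK
  ϖ_inv_not_mem : (algebraMap L K ϖ)⁻¹ ∉ OK
  arch : ∀ c : L, c ≠ 0 → ∃ n : ℕ, algebraMap L K (ϖ ^ n * c) ∈ OK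

namespace S34VH_Datum

variable {L K F Fk : Type*} [Field L] [Field K] [Field F] [Field Fk]
  [Algebra L K] [Algebra K F] [Algebra L F] [IsScalarTower L K F]
  (D : S34VH_Datum L K F Fk)

/-- the pseudo-uniformiser in `F`. -/
noncomputable def ϖF : F := algebraMap L F D.ϖ

theorem ϖF_eq : D.ϖF = algebraMap K F (algebraMap L K D.ϖ) :=
  IsScalarTower.algebraMap_apply L K F D.ϖ

theorem ϖF_mem : D.ϖF ∈ D.O := by
  rw [ϖF_eq]
  exact D.map_mem _ D.ϖ_mem

theorem ϖF_pow_mem (n : ℕ) : D.ϖF ^ n ∈ D.O := pow_mem D.ϖF_mem n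

theorem red_ϖF : D.red ⟨D.ϖF, D.ϖF_mem⟩ = 0 := by
  have h := D.red_nonunit _ D.ϖ_mem D.ϖ_inv_not_mem
  have e : (⟨D.ϖF, D.ϖF_mem⟩ : D.O) =
      ⟨algebraMap K F (algebraMap L K D.ϖ), D.map_mem _ D.ϖ_mem⟩ := Subtype.ext D.ϖF_eq
  rw [e]
  exact h

theorem ϖ_ne_zero : D.ϖ ≠ 0 := by
  intro h
  apply D.ϖ_inv_not_mem
  rw [h, map_zero, inv_zero]
  exact zero_mem _

theorem ϖF_ne_zero : D.ϖF ≠ 0 := by
  rw [ϖF, Ne, map_eq_zero]
  exact D.ϖ_ne_zero

/-- reduction of `ϖ * w`. -/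
theorem red_ϖF_mul {x : F} (hx : x ∈ D.O) {y : F} (hy : y = D.ϖF * x)
    (hyO : y ∈ D.O) : D.red ⟨y, hyO⟩ = 0 := by
  have e : (⟨y, hyO⟩ : D.O) = ⟨D.ϖF, D.ϖF_mem⟩ * ⟨x, hx⟩ := Subtype.ext hy
  rw [e, map_mul, D.red_ϖF, zero_mul]

/-- `O ∩ K = OK`. -/
theorem mem_of_map_mem {x : K} (h : algebraMap K F x ∈ D.O) : x ∈ D.OK := by
  by_contra hx
  have hinv : x⁻¹ ∈ D.OK := (D.OK.mem_or_inv_mem x).resolve_left hx
  have hx0 : x ≠ 0 := fun h0 => hx (h0 ▸ zero_mem _)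
  have h2 : (x⁻¹)⁻¹ ∉ D.OK := by rwa [inv_inv]
  have h3 := D.red_nonunit x⁻¹ hinv h2
  have e : (⟨algebraMap K F x, h⟩ : D.O) * ⟨algebraMap K F x⁻¹, D.map_mem _ hinv⟩ = 1 := by
    apply Subtype.ext
    show algebraMap K F x * algebraMap K F x⁻¹ = 1
    rw [← map_mul, mul_inv_cancel₀ hx0, map_one]
  have h4 := congrArg D.red e
  rw [map_mul, h3, mul_zero, map_one] at h4
  exact zero_ne_one h4

/-! ### bounded elements -/

/-- `f` is bounded: `ϖ ^ r * f ∈ O` for some `r`. -/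
def Bdd (f : F) : Prop := ∃ r : ℕ, D.ϖF ^ r * f ∈ D.O

theorem bdd_of_mem {f : F} (hf : f ∈ D.O) : D.Bdd f := ⟨0, by simpa using hf⟩

theorem bdd_mono {f : F} {r r' : ℕ} (h : r ≤ r') (hf : D.ϖF ^ r * f ∈ D.O) :
    D.ϖF ^ r' * f ∈ D.O := by
  obtain ⟨k, rfl⟩ := Nat.exists_eq_add_of_le h
  rw [pow_add, mul_comm (D.ϖF ^ r), mul_assoc]
  exact mul_mem (D.ϖF_pow_mem k) hf

theorem bdd_map (x : K) : D.Bdd (algebraMap K F x) := by
  rcases eq_or_ne x 0 with rfl | hx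
  · exact ⟨0, by simp [zero_mem]⟩
  obtain ⟨c, hc, hu, -⟩ := D.value_group x hx
  obtain ⟨n, hn⟩ := D.arch c hc
  refine ⟨n, ?_⟩
  have hcK : algebraMap L K c ≠ 0 := by rwa [Ne, map_eq_zero]
  have e : D.ϖF ^ n * algebraMap K F x =
      algebraMap K F (algebraMap L K (D.ϖ ^ n * c) * (x * (algebraMap L K c)⁻¹)) := by
    rw [ϖF_eq, ← map_pow, ← map_mul, map_mul (algebraMap L K), map_pow]
    congr 1
    field_simp
  rw [e]
  exact D.map_mem _ (mul_mem hn hu)

theorem bdd_add {f g : F} (hf : D.Bdd f) (hg : D.Bdd g) : D.Bdd (f + g) := by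
  obtain ⟨r, hr⟩ := hf
  obtain ⟨s, hs⟩ := hg
  refine ⟨max r s, ?_⟩
  rw [mul_add]
  exact add_mem (D.bdd_mono (le_max_left r s) hr) (D.bdd_mono (le_max_right r s) hs)

theorem bdd_neg {f : F} (hf : D.Bdd f) : D.Bdd (-f) := by
  obtain ⟨r, hr⟩ := hf
  exact ⟨r, by rw [mul_neg]; exact neg_mem hr⟩

theorem bdd_mul {f g : F} (hf : D.Bdd f) (hg : D.Bdd g) : D.Bdd (f * g) := by
  obtain ⟨r, hr⟩ := hf
  obtain ⟨s, hs⟩ := hg
  refine ⟨r + s, ?_⟩
  have e : D.ϖF ^ (r + s) * (f * g) = (D.ϖF ^ r * f) * (D.ϖF ^ s * g) := by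
    rw [pow_add]; ring
  rw [e]
  exact mul_mem hr hs

/-! ### approximable elements -/

/-- `f` can be approximated by elements of `K` modulo `ϖ ^ n · O`, for all `n`. -/
def App (f : F) : Prop :=
  ∀ n : ℕ, ∃ g : K, ∃ z : F, z ∈ D.O ∧ f - algebraMap K F g = D.ϖF ^ n * z

theorem app_map (x : K) : D.App (algebraMap K F x) :=
  fun _ => ⟨x, 0, zero_mem _, by simp⟩

theorem app_bdd {f : F} (hf : D.App f) : D.Bdd f := by
  obtain ⟨g, z, hz, h⟩ := hf 0
  have e : f = algebraMap K F g + z := by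
    rw [pow_zero, one_mul] at h
    rw [← h]; ring
  rw [e]
  exact D.bdd_add (D.bdd_map g) (D.bdd_of_mem hz)

/-- the approximants of a bounded element are bounded, with the same bound. -/
theorem approx_bdd {f : F} {r n : ℕ} (hr : D.ϖF ^ r * f ∈ D.O) {g : K} {z : F} (hz : z ∈ D.O)
    (h : f - algebraMap K F g = D.ϖF ^ n * z) : D.ϖF ^ r * algebraMap K F g ∈ D.O := by
  have e : D.ϖF ^ r * algebraMap K F g = D.ϖF ^ r * f - D.ϖF ^ r * (D.ϖF ^ n * z) := by
    rw [← h]; ring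
  rw [e]
  exact sub_mem hr (mul_mem (D.ϖF_pow_mem r) (mul_mem (D.ϖF_pow_mem n) hz))

theorem app_add {f f' : F} (hf : D.App f) (hf' : D.App f') : D.App (f + f') := by
  intro n
  obtain ⟨g, z, hz, h⟩ := hf n
  obtain ⟨g', z', hz', h'⟩ := hf' n
  refine ⟨g + g', z + z', add_mem hz hz', ?_⟩
  rw [map_add, mul_add, ← h, ← h']
  ring

theorem app_mul {f f' : F} (hf : D.App f) (hf' : D.App f') : D.App (f * f') := by
  obtain ⟨r, hr⟩ := D.app_bdd hf
  obtain ⟨r', hr'⟩ := D.app_bdd hf'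
  intro n
  obtain ⟨g, z, hz, h⟩ := hf (n + (r + r'))
  obtain ⟨g', z', hz', h'⟩ := hf' (n + (r + r'))
  have hg := D.approx_bdd hr hz h
  refine ⟨g * g', z * (D.ϖF ^ r * (D.ϖF ^ r' * f')) + D.ϖF ^ r' * ((D.ϖF ^ r * algebraMap K F g) * z'),
    add_mem (mul_mem hz (mul_mem (D.ϖF_pow_mem r) hr'))
      (mul_mem (D.ϖF_pow_mem r') (mul_mem hg hz')), ?_⟩
  have e1 : f * f' - algebraMap K F (g * g') =
      (f - algebraMap K F g) * f' + algebraMap K F g * (f' - algebraMap K F g') := by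
    rw [map_mul]; ring
  rw [e1, h, h', pow_add, pow_add]
  ring

theorem app_of_adjoin {Y : Set F} (hY : ∀ y ∈ Y, D.App y) {f : F}
    (hf : f ∈ Algebra.adjoin K Y) : D.App f := by
  induction hf using Algebra.adjoin_induction with
  | mem y hy => exact hY y hy
  | algebraMap x => exact D.app_map x
  | add x y _ _ hx hy => exact D.app_add hx hy
  | mul x y _ _ hx hy => exact D.app_mul hx hy

/-! ### the value group -/

/-- **VAL-HGEN, abstract form**: if `f` and `f⁻¹` are approximable, then `f` is a constant times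
an element of `O` with non-zero reduction. -/
theorem exists_const_mul_unit_of_app {f : F} (hf0 : f ≠ 0) (hf : D.App f) (hf' : D.App f⁻¹) :
    ∃ c : L, c ≠ 0 ∧ ∃ u : D.O, D.red u ≠ 0 ∧ f = algebraMap L F c * (u : F) := by
  obtain ⟨r, hr⟩ := D.app_bdd hf
  obtain ⟨r', hr'⟩ := D.app_bdd hf'
  obtain ⟨g, z, hz, h⟩ := hf (1 + (r + r'))
  obtain ⟨g', z', hz', h'⟩ := hf' (1 + (r + r'))
  have hg := D.approx_bdd hr hz h
  have hg' := D.approx_bdd hr' hz' h'
  -- `α (g g') = 1 - ϖ w`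
  set w : F := z * (D.ϖF ^ r * (D.ϖF ^ r' * f⁻¹)) +
    D.ϖF ^ r' * ((D.ϖF ^ r * algebraMap K F g) * z') with hw
  have hwO : w ∈ D.O :=
    add_mem (mul_mem hz (mul_mem (D.ϖF_pow_mem r) hr'))
      (mul_mem (D.ϖF_pow_mem r') (mul_mem hg hz'))
  have e1 : algebraMap K F (g * g') = 1 - D.ϖF * w := by
    have e2 : f * f⁻¹ - algebraMap K F (g * g') =
        (f - algebraMap K F g) * f⁻¹ + algebraMap K F g * (f⁻¹ - algebraMap K F g') := by
      rw [map_mul]; ring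
    rw [mul_inv_cancel₀ hf0, h, h', pow_add, pow_add, pow_one] at e2
    rw [hw]
    linear_combination -e2
  have hϖw : D.ϖF * w ∈ D.O := mul_mem D.ϖF_mem hwO
  have hggO : algebraMap K F (g * g') ∈ D.O := by
    rw [e1]; exact sub_mem (one_mem _) hϖw
  have hggK : g * g' ∈ D.OK := D.mem_of_map_mem hggO
  have hred1 : D.red ⟨algebraMap K F (g * g'), D.map_mem _ hggK⟩ = 1 := by
    have e3 : (⟨algebraMap K F (g * g'), D.map_mem _ hggK⟩ : D.O) =
        1 - ⟨D.ϖF * w, hϖw⟩ := Subtype.ext e1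
    rw [e3, map_sub, map_one, D.red_ϖF_mul hwO rfl hϖw, sub_zero]
  -- `g g'` is a unit of `OK`
  have hgg_inv : (g * g')⁻¹ ∈ D.OK := by
    by_contra hcon
    have := D.red_nonunit _ hggK hcon
    rw [hred1] at this
    exact one_ne_zero this
  have hgg0 : g * g' ≠ 0 := by
    intro h0
    have e3 : (⟨algebraMap K F (g * g'), D.map_mem _ hggK⟩ : D.O) = 0 := by
      apply Subtype.ext
      show algebraMap K F (g * g') = 0
      rw [h0, map_zero]
    rw [e3, map_zero] at hred1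
    exact zero_ne_one hred1
  have hg0 : g ≠ 0 := left_ne_zero_of_mul hgg0
  have hg'0 : g' ≠ 0 := right_ne_zero_of_mul hgg0
  obtain ⟨c, hc, hu, hu'⟩ := D.value_group g hg0
  have hcK : algebraMap L K c ≠ 0 := by rwa [Ne, map_eq_zero]
  have hcF : algebraMap L F c ≠ 0 := by rwa [Ne, map_eq_zero]
  set u : K := g * (algebraMap L K c)⁻¹ with hudef
  have hu0 : u ≠ 0 := mul_ne_zero hg0 (inv_ne_zero hcK)
  -- `ϖ ^ r' / c ∈ O`
  have hcinv : D.ϖF ^ r' * (algebraMap L F c)⁻¹ ∈ D.O := by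
    have e4 : D.ϖF ^ r' * (algebraMap L F c)⁻¹ =
        algebraMap K F u * (D.ϖF ^ r' * algebraMap K F g') *
          algebraMap K F (g * g')⁻¹ := by
      rw [IsScalarTower.algebraMap_apply L K F c, hudef, map_mul, map_inv₀, map_inv₀, map_mul]
      have h1 : algebraMap K F g ≠ 0 := by rwa [Ne, map_eq_zero]
      have h2 : algebraMap K F g' ≠ 0 := by rwa [Ne, map_eq_zero]
      have h3 : algebraMap K F (algebraMap L K c) ≠ 0 := by rwa [Ne, map_eq_zero]
      field_simp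
    rw [e4]
    exact mul_mem (mul_mem (D.map_mem _ hu) hg') (D.map_mem _ hgg_inv)
  -- the unit
  set t : F := D.ϖF * ((D.ϖF ^ r' * (algebraMap L F c)⁻¹) * (D.ϖF ^ r * z)) with ht
  have htO' : (D.ϖF ^ r' * (algebraMap L F c)⁻¹) * (D.ϖF ^ r * z) ∈ D.O :=
    mul_mem hcinv (mul_mem (D.ϖF_pow_mem r) hz)
  have htO : t ∈ D.O := mul_mem D.ϖF_mem htO'
  have hU : algebraMap K F u + t ∈ D.O := add_mem (D.map_mem _ hu) htO
  refine ⟨c, hc, ⟨algebraMap K F u + t, hU⟩, ?_, ?_⟩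
  · have e5 : (⟨algebraMap K F u + t, hU⟩ : D.O) =
        ⟨algebraMap K F u, D.map_mem _ hu⟩ + ⟨t, htO⟩ := rfl
    rw [e5, map_add, D.red_ϖF_mul htO' rfl htO, add_zero]
    exact D.red_unit u hu hu0 hu'
  · show f = algebraMap L F c * (algebraMap K F u + t)
    have e6 : f = algebraMap K F g + D.ϖF ^ (1 + (r + r')) * z := by
      rw [← h]; ring
    rw [e6, ht, hudef, map_mul, map_inv₀, ← IsScalarTower.algebraMap_apply L K F c, pow_add,
      pow_add, pow_one]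
    field_simp

/-- **VAL-HGEN, abstract form**: if `F = K[Y]` with `Y` approximable, then every `f ∈ F^×` is a
constant times an element of `O` with non-zero reduction. -/
theorem exists_const_mul_unit {Y : Set F} (hY : ∀ y ∈ Y, D.App y)
    (hgen : Algebra.adjoin K Y = ⊤) {f : F} (hf0 : f ≠ 0) :
    ∃ c : L, c ≠ 0 ∧ ∃ u : D.O, D.red u ≠ 0 ∧ f = algebraMap L F c * (u : F) := by
  have hall : ∀ x : F, D.App x := fun x =>
    D.app_of_adjoin hY (hgen ▸ Algebra.mem_top)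
  exact D.exists_const_mul_unit_of_app hf0 (hall f) (hall f⁻¹)

end S34VH_Datum

end Fermat.Agent.S34
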