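import Fermat.Agent.S34.ValHgenPoly
import Fermat.Agent.S34.ValArch
import Fermat.Agent.S18.RIGen
import Fermat.Agent.S18.GaussModL
import Fermat.Agent.S18.ValGauss
import Fermat.Prelude.Def_ModularCurve_HeckeOperator

/-!
# TRACK 7 (S34 + S35), package VAL-HGEN, part 4 (helper18): the concrete datum

`N = M q`, `q ∤ M` prime, `A ⊂ ℚ̄` a valuation ring over `q`.  `K = F_M`, `F = F_N` (an
`F_M`-algebra via `α = heckeAlphaBar`), `OK = S18_Ov A M` (the Gauss valuation ring of level `M`,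
available by `RIG_hgen`), `O = S18_O A N`, `red = S18_red A N`.

* `S34VH_alpha_mem`, `S34VH_red_alpha` : `α O_M ⊂ O_N`, `red_N ∘ α = red_M` (as series);
* `S34VH_datum` : the `S34VH_Datum`.
-/

set_option autoImplicit false
set_option synthInstance.maxHeartbeats 400000
set_option maxHeartbeats 1000000
set_option linter.style.haveILetI false
set_option linter.unusedSectionVars false

open HahnSeries IntermediateField AlgebraicCurve ModularCurve

namespace Fermat.Agent.S34

open Fermat.Agent.S18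

section

variable (M q : ℕ) [NeZero M] [NeZero q] (A : ValuationSubring (AlgebraicClosure ℚ))

/-- `B_M ⊂ B_N`. -/
theorem S34VH_B_le {y : LaurentSeries A} (hy : y ∈ S18_B A M) : y ∈ S18_B A (M * q) :=
  ⟨(heckeAlphaBar (AlgebraicClosure ℚ) M q ⟨_, hy.1⟩).2,
    full_degeneracyC_le (IsLocalRing.ResidueField A) (dvd_mul_right M q) hy.2⟩

/-- `α O_M ⊂ O_N`. -/
theorem S34VH_alpha_mem {x : ↥(modularFunctionFieldBar M)} (hx : x ∈ S18_O A M) :
    heckeAlphaBar (AlgebraicClosure ℚ) M q x ∈ S18_O A (M * q) := by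
  obtain ⟨s₁, h1, s₂, h2, hne, hfs⟩ := hx
  exact ⟨s₁, S34VH_B_le M q A h1, s₂, S34VH_B_le M q A h2, hne, hfs⟩

/-- `red_N ∘ α = red_M`, as Laurent series. -/
theorem S34VH_red_alpha {x : ↥(modularFunctionFieldBar M)} (hx : x ∈ S18_O A M) :
    ((S18_red A (M * q) ⟨heckeAlphaBar (AlgebraicClosure ℚ) M q x, S34VH_alpha_mem M q A hx⟩ :
      ↥(modularFunctionFieldFullC (IsLocalRing.ResidueField A) (M * q))) :
        LaurentSeries (IsLocalRing.ResidueField A)) =
      ((S18_red A M ⟨x, hx⟩ : ↥(modularFunctionFieldFullC (IsLocalRing.ResidueField A) M)) :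
        LaurentSeries (IsLocalRing.ResidueField A)) := by
  have hx' := hx
  obtain ⟨s₁, h1, s₂, h2, hne, hfs⟩ := hx'
  have e1 : ((S18_red A (M * q) ⟨heckeAlphaBar (AlgebraicClosure ℚ) M q x,
      S34VH_alpha_mem M q A hx⟩ :
      ↥(modularFunctionFieldFullC (IsLocalRing.ResidueField A) (M * q))) :
        LaurentSeries (IsLocalRing.ResidueField A)) = S18_ρ A s₁ / S18_ρ A s₂ :=
    S18_redFun_eq A (M * q) (S34VH_B_le M q A h1) (S34VH_B_le M q A h2) hne hfs
  have e2 : ((S18_red A M ⟨x, hx⟩ :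
      ↥(modularFunctionFieldFullC (IsLocalRing.ResidueField A) M)) :
        LaurentSeries (IsLocalRing.ResidueField A)) = S18_ρ A s₁ / S18_ρ A s₂ :=
    S18_redFun_eq A M h1 h2 hne hfs
  rw [e1, e2]

/-- `red_N (α x) = 0 ↔ red_M x = 0`. -/
theorem S34VH_red_alpha_eq_zero_iff {x : ↥(modularFunctionFieldBar M)} (hx : x ∈ S18_O A M) :
    S18_red A (M * q) ⟨heckeAlphaBar (AlgebraicClosure ℚ) M q x, S34VH_alpha_mem M q A hx⟩ = 0 ↔
      S18_red A M ⟨x, hx⟩ = 0 := by
  have h1 := S34VH_red_alpha M q A hx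
  constructor
  · intro h
    rw [h, ZeroMemClass.coe_zero] at h1
    exact ZeroMemClass.coe_eq_zero.mp h1.symm
  · intro h
    rw [h, ZeroMemClass.coe_zero] at h1
    exact ZeroMemClass.coe_eq_zero.mp h1

end

section datum

variable (M q : ℕ) [NeZero M] [NeZero q] (hq : q.Prime) (hqM : ¬ q ∣ M)
  (A : ValuationSubring (AlgebraicClosure ℚ)) (hA : A.LiesOverPrime q)

/-- the scalar tower `ℚ̄ ⊂ F_M ⊂ F_N` along `α`. -/
theorem S34VH_tower :
    letI := algebraAlong (heckeAlphaBar (AlgebraicClosure ℚ) M q)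
    IsScalarTower (AlgebraicClosure ℚ) ↥(modularFunctionFieldBar M)
      ↥(modularFunctionFieldBar (M * q)) := by
  letI := algebraAlong (heckeAlphaBar (AlgebraicClosure ℚ) M q)
  exact IsScalarTower.of_algebraMap_eq fun a =>
    ((heckeAlphaBar (AlgebraicClosure ℚ) M q).commutes a).symm

/-- the level-`M` units have nonzero reduction. -/
theorem S34VH_red_ne_zero_of_inv_mem {x : ↥(modularFunctionFieldBar M)} (hx : x ∈ S18_O A M)
    (hx0 : x ≠ 0) (hinv : x⁻¹ ∈ S18_O A M) : S18_red A M ⟨x, hx⟩ ≠ 0 := by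
  intro h0
  have h1 : (⟨x, hx⟩ : S18_O A M) * ⟨x⁻¹, hinv⟩ = 1 := Subtype.ext (mul_inv_cancel₀ hx0)
  have h2 := congrArg (S18_red A M) h1
  rw [map_mul, h0, zero_mul, map_one] at h2
  exact zero_ne_one h2

include hA in
theorem S34VH_q_mem : (q : AlgebraicClosure ℚ) ∈ A := A.nonunits_le hA

include hq hA in
theorem S34VH_q_inv_not_mem : (q : AlgebraicClosure ℚ)⁻¹ ∉ A := by
  intro h1
  have h2 : (q : AlgebraicClosure ℚ) ∈ A.nonunits := hA
  rw [ValuationSubring.mem_nonunits_iff] at h2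
  have h3 := (A.valuation_le_one_iff _).mpr h1
  rw [map_inv₀] at h3
  have hq0 : A.valuation (q : AlgebraicClosure ℚ) ≠ 0 := by
    rw [Ne, map_eq_zero]
    exact_mod_cast hq.ne_zero
  have h4 : (1 : ValuationSubring.ValueGroup A) ≤ A.valuation (q : AlgebraicClosure ℚ) := by
    rwa [inv_le_one₀ (zero_lt_iff.mpr hq0)] at h3
  exact absurd h2 (not_lt.mpr h4)

include hq hqM hA in
/-- the value group of `O_M` is the value group of `A`. -/
theorem S34VH_value_group (x : ↥(modularFunctionFieldBar M)) (hx : x ≠ 0) :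
    ∃ c : AlgebraicClosure ℚ, c ≠ 0 ∧
      x * (algebraMap (AlgebraicClosure ℚ) ↥(modularFunctionFieldBar M) c)⁻¹ ∈ S18_O A M ∧
      (x * (algebraMap (AlgebraicClosure ℚ) ↥(modularFunctionFieldBar M) c)⁻¹)⁻¹ ∈
        S18_O A M := by
  obtain ⟨c, u, hu, hc, hred, h⟩ := S18_exists_const_mul_unit A M (S18_hPD M) (S18_hconst M)
    (RIG_hgen M A hq hA hqM) x hx
  have hcF : algebraMap (AlgebraicClosure ℚ) ↥(modularFunctionFieldBar M) c ≠ 0 := by
    rwa [Ne, map_eq_zero]
  have e : x * (algebraMap (AlgebraicClosure ℚ) ↥(modularFunctionFieldBar M) c)⁻¹ = u := by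
    rw [h, mul_comm, ← mul_assoc, inv_mul_cancel₀ hcF, one_mul]
  refine ⟨c, hc, ?_, ?_⟩
  · rw [e]; exact hu
  · rw [e]; exact S18_inv_mem_O A M hu hred

/-- **VAL-HGEN**: the concrete datum. -/
noncomputable def S34VH_datum :
    letI := algebraAlong (heckeAlphaBar (AlgebraicClosure ℚ) M q)
    haveI := S34VH_tower M q
    S34VH_Datum (AlgebraicClosure ℚ) ↥(modularFunctionFieldBar M)
      ↥(modularFunctionFieldBar (M * q))
      ↥(modularFunctionFieldFullC (IsLocalRing.ResidueField A) (M * q)) :=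
  letI := algebraAlong (heckeAlphaBar (AlgebraicClosure ℚ) M q)
  haveI := S34VH_tower M q
  { OK := S18_Ov A M (S18_hPD M) (S18_hconst M) (RIG_hgen M A hq hA hqM)
    O := S18_O A (M * q)
    red := S18_red A (M * q)
    inv_mem := fun x hx => S18_inv_mem_O A (M * q) x.2 hx
    map_mem := fun _ hx => S34VH_alpha_mem M q A hx
    red_unit := fun _ hx hx0 hinv h0 =>
      S34VH_red_ne_zero_of_inv_mem M A hx hx0 hinv
        ((S34VH_red_alpha_eq_zero_iff M q A hx).mp h0)
    red_nonunit := fun _ hx hinv =>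
      (S34VH_red_alpha_eq_zero_iff M q A hx).mpr
        (by
          by_contra hcon
          exact hinv (S18_inv_mem_O A M hx hcon))
    value_group := S34VH_value_group M q hq hqM A hA
    ϖ := (q : AlgebraicClosure ℚ)
    ϖ_mem := (S18_algebraMap_mem_O_iff A M _).mpr (S34VH_q_mem q A hA)
    ϖ_inv_not_mem := fun hcon =>
      S34VH_q_inv_not_mem q hq A hA
        ((S18_algebraMap_mem_O_iff A M _).mp (by rw [map_inv₀]; exact hcon))
    arch := fun c hc => by
      obtain ⟨n, hn⟩ := S34VA_arch q hq A hA c hc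
      exact ⟨n, (S18_algebraMap_mem_O_iff A M _).mpr hn⟩ }

end datum

end Fermat.Agent.S34
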