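import Fermat.Agent.S34.Asm
import Fermat.Agent.S34.ValHgenAsm

/-!
# TRACK 7 (S34 + S35), target F4 (helper18): `S34M_HGen M q` for all `M`, `q ∤ M` prime

`S34VH_HGen M q hq hqM : S34M_HGen M q`, i.e. `PrincipalGeneratedByIntegral A (residue A) (M * q)`
for every valuation ring `A ⊂ ℚ̄` over `q` — the form consumed by `S34M_S34` and `S35A_of_targets`.
-/

set_option autoImplicit false

open ModularCurve

namespace Fermat.Agent.S34

/-- **F4**: (VAL-HGEN) at all levels `M * q`, `q ∤ M` prime. -/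
theorem S34VH_HGen (M q : ℕ) [NeZero (M * q)] (hq : q.Prime) (hqM : ¬ q ∣ M) :
    S34M_HGen M q := by
  haveI : NeZero M := ⟨fun h => NeZero.ne (M * q) (by rw [h, zero_mul])⟩
  haveI : NeZero q := ⟨hq.ne_zero⟩
  intro A hA
  exact S34VH_hgen M q hq hqM A hA

end Fermat.Agent.S34
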