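import Fermat.Agent.S34.ValHgenAbs

/-!
# TRACK 7 (S34 + S35), package VAL-HGEN, part 2 (helper18): Newton's iteration

In the situation of `S34VH_Datum` (`OK ⊂ K` a valuation ring, `O ⊂ F` with `red : O → Fk`):
a root `y ∈ O` of a polynomial `Φ ∈ OK[Z]` which is congruent modulo `ker red` to some
`g₀ ∈ OK` with `red (Φ' g₀) ≠ 0` can be approximated by elements of `K` (`S34VH_Datum.App`).

* `S34VH_Datum.newton_base`, `S34VH_Datum.newton_step`, `S34VH_Datum.newton_iter`;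
* `S34VH_Datum.app_of_newton` : the conclusion.
-/

set_option autoImplicit false

namespace Fermat.Agent.S34

namespace S34VH_Datum

variable {L K F Fk : Type*} [Field L] [Field K] [Field F] [Field Fk]
  [Algebra L K] [Algebra K F] [Algebra L F] [IsScalarTower L K F]
  (D : S34VH_Datum L K F Fk)

/-- the inclusion `OK → O`. -/
noncomputable def ι : D.OK →+* D.O where
  toFun x := ⟨algebraMap K F x, D.map_mem x x.2⟩
  map_one' := Subtype.ext (map_one _)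
  map_mul' a b := Subtype.ext (map_mul _ _ _)
  map_zero' := Subtype.ext (map_zero _)
  map_add' a b := Subtype.ext (map_add _ _ _)

@[simp]
theorem coe_ι (x : D.OK) : ((D.ι x : D.O) : F) = algebraMap K F x := rfl

theorem ι_injective : Function.Injective D.ι := by
  intro a b h
  have h1 : algebraMap K F a = algebraMap K F b := congrArg Subtype.val h
  exact Subtype.ext ((algebraMap K F).injective h1)

/-- the reduction map of `OK`. -/
noncomputable def ρ : D.OK →+* Fk := D.red.comp D.ι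

theorem ρ_apply (x : D.OK) : D.ρ x = D.red (D.ι x) := rfl

theorem isUnit_of_ρ_ne_zero {g : D.OK} (h : D.ρ g ≠ 0) : IsUnit g := by
  have hinv : (g : K)⁻¹ ∈ D.OK := by
    by_contra hcon
    exact h (D.red_nonunit (g : K) g.2 hcon)
  have hg0 : (g : K) ≠ 0 := by
    intro h0
    apply h
    have : g = 0 := Subtype.ext h0
    rw [this, map_zero]
  exact ⟨⟨g, ⟨_, hinv⟩, Subtype.ext (mul_inv_cancel₀ hg0), Subtype.ext (inv_mul_cancel₀ hg0)⟩, rfl⟩

theorem ρ_eq_zero_of_not_isUnit {g : D.OK} (h : ¬ IsUnit g) : D.ρ g = 0 := by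
  by_contra hcon
  exact h (D.isUnit_of_ρ_ne_zero hcon)

theorem ρ_ne_zero_of_isUnit {g : D.OK} (h : IsUnit g) : D.ρ g ≠ 0 :=
  (h.map D.ρ).ne_zero

theorem isUnit_of_red_ne_zero {x : D.O} (h : D.red x ≠ 0) : IsUnit x := by
  have hinv := D.inv_mem x h
  have hx0 : (x : F) ≠ 0 := by
    intro h0
    apply h
    have : x = 0 := Subtype.ext h0
    rw [this, map_zero]
  exact ⟨⟨x, ⟨_, hinv⟩, Subtype.ext (mul_inv_cancel₀ hx0), Subtype.ext (inv_mul_cancel₀ hx0)⟩, rfl⟩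

/-- `O ∩ K = OK`, divisibility form. -/
theorem dvd_of_ι_dvd {e a : D.OK} (he : e ≠ 0) (h : D.ι e ∣ D.ι a) : e ∣ a := by
  obtain ⟨t, ht⟩ := h
  have heK : (e : K) ≠ 0 := fun h0 => he (Subtype.ext h0)
  have h1 : algebraMap K F ((a : K) * (e : K)⁻¹) = (t : F) := by
    have h2 : algebraMap K F (a : K) = algebraMap K F (e : K) * (t : F) :=
      congrArg Subtype.val ht
    have h3 : algebraMap K F (e : K) ≠ 0 := by rwa [Ne, map_eq_zero]
    rw [map_mul, map_inv₀, h2]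
    field_simp
  have h4 : (a : K) * (e : K)⁻¹ ∈ D.OK := D.mem_of_map_mem (by rw [h1]; exact t.2)
  refine ⟨⟨_, h4⟩, Subtype.ext ?_⟩
  show (a : K) = (e : K) * ((a : K) * (e : K)⁻¹)
  field_simp

theorem eval_map_ι (Φ : Polynomial D.OK) (g : D.OK) :
    (Φ.map D.ι).eval (D.ι g) = D.ι (Φ.eval g) := by
  rw [Polynomial.eval_map, Polynomial.eval₂_at_apply]

theorem ρ_eval (Φ : Polynomial D.OK) (g : D.OK) :
    D.ρ (Φ.eval g) = (Φ.map D.ρ).eval (D.ρ g) := by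
  rw [Polynomial.eval_map, Polynomial.eval₂_at_apply]

/-- **Newton, base step**: `y - g₀ = - Φ(g₀) / E` with `E` a unit of `O`. -/
theorem newton_base (Φ : Polynomial D.OK) (y : D.O) (hroot : (Φ.map D.ι).eval y = 0)
    (g₀ : D.OK) (hyg : D.red (y - D.ι g₀) = 0) (hder : D.ρ (Φ.derivative.eval g₀) ≠ 0) :
    D.ρ (Φ.eval g₀) = 0 ∧ D.ι (Φ.eval g₀) ∣ y - D.ι g₀ := by
  obtain ⟨k, hk⟩ := Polynomial.binomExpansion (Φ.map D.ι) (D.ι g₀) (y - D.ι g₀)
  rw [add_sub_cancel, hroot, D.eval_map_ι, Polynomial.derivative_map, D.eval_map_ι] at hk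
  set δ := y - D.ι g₀ with hδ
  set E := D.ι (Φ.derivative.eval g₀) + k * δ with hE
  have hEred : D.red E ≠ 0 := by
    rw [hE, map_add, map_mul, hyg, mul_zero, add_zero]
    exact hder
  obtain ⟨E', hE'⟩ := (D.isUnit_of_red_ne_zero hEred).exists_right_inv
  have h1 : D.ι (Φ.eval g₀) = -(δ * E) := by
    rw [hE]
    linear_combination -hk
  refine ⟨?_, ⟨-E', ?_⟩⟩
  · rw [ρ_apply, h1, map_neg, map_mul, hyg, zero_mul, neg_zero]
  · rw [h1]
    linear_combination -δ * hE'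

/-- **Newton, induction step**. -/
theorem newton_step (Φ : Polynomial D.OK) (y : D.O) (hroot : (Φ.map D.ι).eval y = 0)
    (g₀ : D.OK) (hder : D.ρ (Φ.derivative.eval g₀) ≠ 0)
    {e : D.OK} (he : e ≠ 0) (hρe : D.ρ e = 0)
    (h : ∃ g : D.OK, D.ρ g = D.ρ g₀ ∧ D.ι e ∣ y - D.ι g) :
    ∃ g : D.OK, D.ρ g = D.ρ g₀ ∧ D.ι (e ^ 2) ∣ y - D.ι g := by
  obtain ⟨g, hg, z, hz⟩ := h
  obtain ⟨k, hk⟩ := Polynomial.binomExpansion (Φ.map D.ι) (D.ι g) (D.ι e * z)
  have hy : D.ι g + D.ι e * z = y := by rw [← hz]; ring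
  rw [hy, hroot, D.eval_map_ι, Polynomial.derivative_map, D.eval_map_ι] at hk
  -- `e ∣ Φ g`
  have hdvd : D.ι e ∣ D.ι (Φ.eval g) :=
    ⟨-(D.ι (Φ.derivative.eval g) * z + k * D.ι e * z ^ 2), by linear_combination -hk⟩
  obtain ⟨h, hh⟩ := D.dvd_of_ι_dvd he hdvd
  have hιe : D.ι e ≠ 0 := by
    intro h0
    exact he (D.ι_injective (by rw [h0, map_zero]))
  have hιh : D.ι h = -(D.ι (Φ.derivative.eval g) * z + k * D.ι e * z ^ 2) := by
    apply mul_left_cancel₀ hιe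
    rw [← map_mul, ← hh]
    linear_combination -hk
  -- `Φ' g` is a unit
  have hunit : IsUnit (Φ.derivative.eval g) := by
    apply D.isUnit_of_ρ_ne_zero
    rw [D.ρ_eval, hg, ← D.ρ_eval]
    exact hder
  obtain ⟨v, hv⟩ := hunit.exists_right_inv
  have hιv : D.ι (Φ.derivative.eval g) * D.ι v = 1 := by
    rw [← map_mul, hv, map_one]
  refine ⟨g - e * h * v, ?_, ⟨-(k * z ^ 2 * D.ι v), ?_⟩⟩
  · rw [map_sub, map_mul, map_mul, hρe, zero_mul, zero_mul, sub_zero, hg]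
  · rw [map_sub, map_mul, map_mul, map_pow, hιh]
    linear_combination hz - (D.ι e * z) * hιv

/-- **Newton, iteration**. -/
theorem newton_iter (Φ : Polynomial D.OK) (y : D.O) (hroot : (Φ.map D.ι).eval y = 0)
    (g₀ : D.OK) (hyg : D.red (y - D.ι g₀) = 0) (hder : D.ρ (Φ.derivative.eval g₀) ≠ 0)
    (he₀ : Φ.eval g₀ ≠ 0) (n : ℕ) :
    ∃ g : D.OK, D.ρ g = D.ρ g₀ ∧ D.ι (Φ.eval g₀ ^ 2 ^ n) ∣ y - D.ι g := by
  obtain ⟨hρ, hb⟩ := D.newton_base Φ y hroot g₀ hyg hder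
  induction n with
  | zero => exact ⟨g₀, rfl, by simpa using hb⟩
  | succ n ih =>
    have h1 := D.newton_step Φ y hroot g₀ hder (pow_ne_zero (2 ^ n) he₀)
      (by rw [map_pow, hρ, zero_pow (pow_ne_zero n two_ne_zero)]) ih
    rwa [← pow_mul, ← pow_succ] at h1

/-- **Newton**: a root `y ∈ O` of `Φ ∈ OK[Z]`, congruent to `g₀ ∈ OK` with `Φ' g₀` a unit,
can be approximated by elements of `K`. -/
theorem app_of_newton
    (harch : ∀ c : L, c ≠ 0 → algebraMap L K c ∈ D.OK → (algebraMap L K c)⁻¹ ∉ D.OK →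
      ∀ n : ℕ, ∃ m : ℕ, algebraMap L K (c ^ m * (D.ϖ ^ n)⁻¹) ∈ D.OK)
    (Φ : Polynomial D.OK) (y : D.O) (hroot : (Φ.map D.ι).eval y = 0)
    (g₀ : D.OK) (hyg : D.red (y - D.ι g₀) = 0) (hder : D.ρ (Φ.derivative.eval g₀) ≠ 0) :
    D.App (y : F) := by
  obtain ⟨hρ, hb⟩ := D.newton_base Φ y hroot g₀ hyg hder
  rcases eq_or_ne (Φ.eval g₀) 0 with he₀ | he₀
  · -- `y = g₀`
    obtain ⟨t, ht⟩ := hb
    rw [he₀, map_zero, zero_mul, sub_eq_zero] at ht
    rw [ht]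
    exact D.app_map _
  set e₀ : D.OK := Φ.eval g₀ with he₀def
  have he₀K : (e₀ : K) ≠ 0 := fun h0 => he₀ (Subtype.ext h0)
  obtain ⟨c, hc, hu, hu'⟩ := D.value_group (e₀ : K) he₀K
  have hcK : algebraMap L K c ≠ 0 := by rwa [Ne, map_eq_zero]
  set u : K := (e₀ : K) * (algebraMap L K c)⁻¹ with hudef
  have hu0 : u ≠ 0 := mul_ne_zero he₀K (inv_ne_zero hcK)
  have hce : algebraMap L K c = (e₀ : K) * u⁻¹ := by
    rw [hudef]; field_simp
  have hcOK : algebraMap L K c ∈ D.OK := by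
    rw [hce]; exact mul_mem e₀.2 hu'
  have hcnon : (algebraMap L K c)⁻¹ ∉ D.OK := by
    intro hcon
    have h1 : (e₀ : K)⁻¹ ∈ D.OK := by
      have : (e₀ : K)⁻¹ = u⁻¹ * (algebraMap L K c)⁻¹ := by
        rw [hudef]; field_simp
      rw [this]; exact mul_mem hu' hcon
    exact D.red_unit (e₀ : K) e₀.2 he₀K h1 hρ
  intro n
  obtain ⟨m, hm⟩ := harch c hc hcOK hcnon n
  obtain ⟨g, -, z, hz⟩ := D.newton_iter Φ y hroot g₀ hyg hder he₀ m
  have hlt : m ≤ 2 ^ m := Nat.lt_two_pow_self.le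
  obtain ⟨r, hr⟩ := Nat.exists_eq_add_of_le hlt
  have hϖ : algebraMap L K D.ϖ ≠ 0 := by
    rw [Ne, map_eq_zero]; exact D.ϖ_ne_zero
  -- `e₀ ^ (2 ^ m) = ϖ ^ n * w`, `w ∈ OK`
  set w : K := algebraMap L K (c ^ m * (D.ϖ ^ n)⁻¹) * (algebraMap L K c) ^ r * u ^ (2 ^ m)
    with hw
  have hwOK : w ∈ D.OK := mul_mem (mul_mem hm (pow_mem hcOK r)) (pow_mem hu (2 ^ m))
  have hew : (e₀ : K) ^ 2 ^ m = algebraMap L K D.ϖ ^ n * w := by
    have h1 : (e₀ : K) = algebraMap L K c * u := by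
      rw [hudef]; field_simp
    rw [hw, h1, mul_pow, map_mul, map_pow, map_inv₀, map_pow]
    nth_rewrite 1 [hr]
    rw [pow_add]
    field_simp
  refine ⟨(g : K), algebraMap K F w * (z : F), mul_mem (D.map_mem w hwOK) z.2, ?_⟩
  have h2 : ((y - D.ι g : D.O) : F) = ((D.ι (e₀ ^ 2 ^ m) * z : D.O) : F) :=
    congrArg Subtype.val hz
  have h3 : ((y - D.ι g : D.O) : F) = (y : F) - algebraMap K F (g : K) := rfl
  have h4 : ((D.ι (e₀ ^ 2 ^ m) * z : D.O) : F) = algebraMap K F ((e₀ : K) ^ 2 ^ m) * (z : F) := rfl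
  rw [← h3, h2, h4, hew, map_mul, map_pow, ← ϖF_eq]
  ring

end S34VH_Datum

end Fermat.Agent.S34
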