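import Fermat.Agent.S34.ValHgenDatum
import Fermat.Agent.S37.H1
import Fermat.Agent.GalRep.ES
import Fermat.Agent.GalRep.HeckeDeg
import Fermat.Agent.S18.AuxX0

/-!
# TRACK 7 (S34 + S35), package VAL-HGEN, part 5 (helper18): the norms `Norm (c - j(q^{qd}))`

`N = M q`, `q ∤ M` prime, `A ⊂ ℚ̄` over `q`, `d ∣ M`, `c ∈ A`.  By the `q`-expansion formula (H1)
for `t f = Norm_{F_N / α F_M} (β f)`:

* `S34VH_norm_value` : `Norm (c - β j_d) ∈ B_M`, with reduction `(c̄ - j̄_d^q)(c̄^q - j̄_d)`;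
* `S34VH_jq_pow` : `j̄_d^q = j̄_d(t^q)`;  `S34VH_jq_pow_ne` : `j̄_d^n ≠ j̄_d` (`n > 1`).
-/

set_option autoImplicit false
set_option synthInstance.maxHeartbeats 400000
set_option maxHeartbeats 1000000
set_option linter.style.haveILetI false
set_option linter.unusedSectionVars false

open HahnSeries IntermediateField AlgebraicCurve ModularCurve

namespace Fermat.Agent.S34

open Fermat.Agent.S18 Fermat.Agent.S24 Fermat.Agent.S37 Fermat.Agent.GalRep Fermat.Agent.Lib

section series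

variable (k : Type*) [Field k] (q : ℕ) [NeZero q] [Fact q.Prime] [CharP k q] (d : ℕ) [NeZero d]

/-- `j̄(t^d)^q = j̄(t^{qd})` in characteristic `q`. -/
theorem S34VH_jq_pow : jqNModC k d ^ q = qExpand k q (jqNModC k d) := by
  rw [LT_pow_char q, coeffMap_jqNModC]

omit [NeZero q] [Fact q.Prime] [CharP k q] in
/-- `j̄(t^d)^n ≠ j̄(t^d)` for `n > 1`. -/
theorem S34VH_jq_pow_ne (n : ℕ) (hn : 1 < n) : jqNModC k d ^ n ≠ jqNModC k d := by
  intro h
  have h1 : qExpand k d (Polynomial.aeval (jqModC k) (Polynomial.X ^ n - Polynomial.X :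
      Polynomial k)) = 0 := by
    rw [map_sub, map_pow, Polynomial.aeval_X, map_sub, map_pow]
    exact sub_eq_zero.mpr h
  have h2 := (map_eq_zero_iff _ (qExpand_injective (R := k) d)).mp h1
  have h3 := (transcendental_iff.mp (AX_transcendental_jqModC k)) _ h2
  exact FiniteField.X_pow_card_sub_X_ne_zero k hn h3

end series

section norm

variable (M q : ℕ) [NeZero M] [NeZero q] (hq : q.Prime) (hqM : ¬ q ∣ M)
  (A : ValuationSubring (AlgebraicClosure ℚ)) (hA : A.LiesOverPrime q)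

/-- the series of `jBar`. -/
theorem S34VH_jBar_val (d : ℕ) [NeZero d] (hd : d ∣ M) :
    ((jBar M d hd : ↥(modularFunctionFieldBar M)) : LaurentSeries (AlgebraicClosure ℚ)) =
      jqNModC (AlgebraicClosure ℚ) d := by
  show coeffEmb (AlgebraicClosure ℚ) (jqNModC ℚ d) = _
  exact coeffMap_jqNModC _ d

/-- `j(t^d)` as an element of `B_M`. -/
noncomputable def S34VH_jd (d : ℕ) [NeZero d] (hd : d ∣ M) : S18_B A M :=
  ⟨jqNModC A d, S18_jqN_mem_B A M hd⟩

theorem S34VH_Bι_jd (d : ℕ) [NeZero d] (hd : d ∣ M) :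
    S18_Bι A M (S34VH_jd M A d hd) = jBar M d hd := by
  apply Subtype.ext
  rw [S34VH_jBar_val]
  show coeffMap A.subtype (jqNModC A d) = _
  exact coeffMap_jqNModC _ d

theorem S34VH_ρ_jd (d : ℕ) [NeZero d] (hd : d ∣ M) :
    S18_ρ A (S34VH_jd M A d hd).1 = jqNModC (IsLocalRing.ResidueField A) d :=
  coeffMap_jqNModC _ d

/-- `jBar` is not constant. -/
theorem S34VH_sub_jBar_ne_zero (d : ℕ) [NeZero d] (hd : d ∣ M) (c : AlgebraicClosure ℚ) :
    algebraMap (AlgebraicClosure ℚ) ↥(modularFunctionFieldBar M) c - jBar M d hd ≠ 0 := by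
  intro h
  have h1 := congrArg (fun x : ↥(modularFunctionFieldBar M) =>
    (x : LaurentSeries (AlgebraicClosure ℚ))) h
  simp only [AddSubgroupClass.coe_sub, ZeroMemClass.coe_zero] at h1
  rw [S34VH_jBar_val, sub_eq_zero] at h1
  have h2 : algebraMap (AlgebraicClosure ℚ) (LaurentSeries (AlgebraicClosure ℚ)) c =
      jqNModC (AlgebraicClosure ℚ) d := h1
  have h3 : qExpand (AlgebraicClosure ℚ) d (jqModC (AlgebraicClosure ℚ)) =
      qExpand (AlgebraicClosure ℚ) d (HahnSeries.C c) := by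
    rw [qExpand_C]
    rw [algebraMap_laurentSeries_eq_single] at h2
    exact h2.symm
  have h4 := qExpand_injective (R := AlgebraicClosure ℚ) d h3
  have h5 := AX_transcendental_jqModC (AlgebraicClosure ℚ)
  apply h5
  rw [h4]
  have : (HahnSeries.C c : LaurentSeries (AlgebraicClosure ℚ)) =
      algebraMap (AlgebraicClosure ℚ) (LaurentSeries (AlgebraicClosure ℚ)) c := by
    rw [algebraMap_laurentSeries_eq_single]; rfl
  rw [this]
  exact isAlgebraic_algebraMap c

include hq hqM hA in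
/-- **norm values**: `t (c - j_d) = Norm (c - β j_d)` lies in `B_M`, and its reduction is
`(c̄ - j̄_d^q)(c̄^q - j̄_d)`. -/
theorem S34VH_norm_value (d : ℕ) [NeZero d] (hd : d ∣ M) (c : A) :
    ∃ w : S18_B A M,
      S18_Bι A M w = S37_t M q (algebraMap (AlgebraicClosure ℚ) ↥(modularFunctionFieldBar M)
        (c : AlgebraicClosure ℚ) - jBar M d hd) ∧
      S18_ρ A w.1 =
        (HahnSeries.C (IsLocalRing.residue A c) - jqNModC (IsLocalRing.ResidueField A) d ^ q) *
          (HahnSeries.C (IsLocalRing.residue A c) ^ q -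
            jqNModC (IsLocalRing.ResidueField A) d) := by
  haveI : Fact q.Prime := ⟨hq⟩
  haveI : CharP (IsLocalRing.ResidueField A) q := S18_residue_charP A q hq hA
  obtain ⟨ζ, hζ, hH⟩ := S37_H1 M q hq hqM
  obtain ⟨u, hu1, hu2⟩ := ES_exists_unit A q hq.pos ζ hζ
  have hures : IsLocalRing.residue A (u : A) = 1 := ES_residue_unit q hq A hA u hu2
  set s : S18_B A M := S18_BC A M c - S34VH_jd M A d hd with hs
  have hιs : S18_Bι A M s = algebraMap (AlgebraicClosure ℚ) ↥(modularFunctionFieldBar M)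
      (c : AlgebraicClosure ℚ) - jBar M d hd := by
    rw [hs, map_sub, S18_Bι_BC, S34VH_Bι_jd]
  have hf0 := S34VH_sub_jBar_ne_zero M d hd (c : AlgebraicClosure ℚ)
  rw [← hιs] at hf0 ⊢
  have hW : qExpand (AlgebraicClosure ℚ) q
      ((S37_t M q (S18_Bι A M s) : ↥(modularFunctionFieldBar M)) :
        LaurentSeries (AlgebraicClosure ℚ)) =
      ES_rhs q (Units.map ((A.subtype : A →+* AlgebraicClosure ℚ) : A →* AlgebraicClosure ℚ) u)
        (coeffMap A.subtype s.1) := by
    rw [hH _ hf0]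
    have : Units.map ((A.subtype : A →+* AlgebraicClosure ℚ) : A →* AlgebraicClosure ℚ) u = ζ :=
      hu1
    rw [this]
    rfl
  obtain ⟨w, hw1, hw2⟩ := ES_exists_int q A.subtype Subtype.val_injective u s.1 _ hW
  have hρw : S18_ρ A w = qExpand (IsLocalRing.ResidueField A) q (S18_ρ A s.1) *
      coeffMap (frobenius (IsLocalRing.ResidueField A) q) (S18_ρ A s.1) :=
    ES_red_int q (IsLocalRing.residue A) u hures s.1 w hw2
  have hwB : w ∈ S18_B A M := by
    refine S18_mem_B_of_ι_mem A M (S18_hPD M) (S18_hconst M) (RIG_hgen M A hq hA hqM) ?_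
    rw [show S18_ι A w = coeffMap A.subtype w from rfl, hw1]
    exact (S37_t M q (S18_Bι A M s)).2
  refine ⟨⟨w, hwB⟩, Subtype.ext hw1, ?_⟩
  show S18_ρ A w = _
  rw [hρw]
  have hρs : S18_ρ A s.1 = HahnSeries.C (IsLocalRing.residue A c) -
      jqNModC (IsLocalRing.ResidueField A) d := by
    rw [hs]
    show S18_ρ A (HahnSeries.C c - jqNModC A d) = _
    rw [map_sub, coeffMap_jqNModC]
    congr 1
    exact coeffMap_single _ 0 c
  rw [hρs, map_sub, map_sub, qExpand_C, coeffMap_jqNModC, S34VH_jq_pow]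
  congr 2
  rw [← map_pow]
  exact coeffMap_single _ 0 _

end norm

end Fermat.Agent.S34
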