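import Fermat.Agent.S34.ValHgenNewton

/-!
# TRACK 7 (S34 + S35), package VAL-HGEN, part 3 (helper18): the Hensel equation from norms

* `S34VH_exists_charpoly` : the characteristic polynomial `Φ` of `y ∈ F` over `K`:
  `Φ t = Norm (t - y)`, `Φ y = 0`, monic of degree `[F : K]`;
* `S34VH_Datum.exists_lift_of_values` : a polynomial over `K` of degree `< n` with values in
  `OK` at `n` points of `OK` with pairwise distinct reductions has coefficients in `OK`
  (Lagrange interpolation);
* `S34VH_Datum.app_of_norm_values` : approximability of `y` from the norms of `c_i - y`.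
-/

set_option autoImplicit false

open Polynomial

namespace Fermat.Agent.S34

/-- the characteristic polynomial of an element of a finite extension. -/
theorem S34VH_exists_charpoly (K F : Type*) [Field K] [Field F] [Algebra K F]
    [FiniteDimensional K F] (y : F) :
    ∃ Φ : Polynomial K, Φ.Monic ∧ Φ.natDegree = Module.finrank K F ∧
      Polynomial.aeval y Φ = 0 ∧
      ∀ t : K, Φ.eval t = Algebra.norm K (algebraMap K F t - y) := by
  refine ⟨(Algebra.lmul K F y).charpoly, LinearMap.charpoly_monic _,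
    LinearMap.charpoly_natDegree _, ?_, ?_⟩
  · have h1 := LinearMap.aeval_self_charpoly (Algebra.lmul K F y)
    rw [Polynomial.aeval_algHom_apply] at h1
    have h2 : Function.Injective (Algebra.lmul K F) := by
      intro a b hab
      have := congrArg (fun f : Module.End K F => f 1) hab
      simpa using this
    exact h2 (by rw [h1, map_zero])
  · intro t
    rw [LinearMap.eval_charpoly, Algebra.norm_apply]
    congr 1
    rw [map_sub (Algebra.lmul K F), AlgHom.commutes]

namespace S34VH_Datum

variable {L K F Fk : Type*} [Field L] [Field K] [Field F] [Field Fk]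
  [Algebra L K] [Algebra K F] [Algebra L F] [IsScalarTower L K F]
  (D : S34VH_Datum L K F Fk)

/-- **Lagrange**: integrality of the coefficients from integrality of `n` values. -/
theorem exists_lift_of_values (Φ : Polynomial K) (n : ℕ) (hdeg : Φ.degree < n)
    (v : Fin n → D.OK) (hv : Function.Injective fun i => D.ρ (v i))
    (hval : ∀ i, Φ.eval (v i : K) ∈ D.OK) :
    ∃ Φ₀ : Polynomial D.OK, Φ₀.map D.OK.subtype = Φ := by
  classical
  have hvK : Set.InjOn (fun i => (v i : K)) (Finset.univ : Finset (Fin n)) := by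
    intro i _ j _ hij
    apply hv
    have : v i = v j := Subtype.ext hij
    show D.ρ (v i) = D.ρ (v j)
    rw [this]
  have hcard : Φ.degree < (Finset.univ : Finset (Fin n)).card := by
    rw [Finset.card_univ, Fintype.card_fin]; exact hdeg
  have h1 := Lagrange.eq_interpolate (s := Finset.univ) (v := fun i => (v i : K)) hvK hcard
  rw [Lagrange.interpolate_apply] at h1
  rw [← Polynomial.mem_lifts, Polynomial.lifts_iff_liftsRing, h1]
  have hC : ∀ a : K, a ∈ D.OK → Polynomial.C a ∈ Polynomial.liftsRing D.OK.subtype := by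
    intro a ha
    rw [← Polynomial.lifts_iff_liftsRing]
    exact Polynomial.C_mem_lifts D.OK.subtype ⟨a, ha⟩
  have hX : (Polynomial.X : Polynomial K) ∈ Polynomial.liftsRing D.OK.subtype := by
    rw [← Polynomial.lifts_iff_liftsRing]
    exact Polynomial.X_mem_lifts _
  refine Subring.sum_mem _ fun i _ => Subring.mul_mem _ (hC _ (hval i)) ?_
  rw [Lagrange.basis]
  refine Subring.prod_mem _ fun j hj => ?_
  have hij : j ≠ i := (Finset.mem_erase.mp hj).1
  rw [Lagrange.basisDivisor]
  refine Subring.mul_mem _ (hC _ ?_) (Subring.sub_mem _ hX (hC _ (v j).2))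
  -- `v i - v j` is a unit of `OK`
  have hne : D.ρ (v i - v j) ≠ 0 := by
    rw [map_sub, sub_ne_zero]
    exact fun h => hij (hv h).symm
  obtain ⟨w, hw⟩ := (D.isUnit_of_ρ_ne_zero hne).exists_right_inv
  have hwK : ((v i : K) - (v j : K)) * (w : K) = 1 := congrArg Subtype.val hw
  have : ((v i : K) - (v j : K))⁻¹ = (w : K) := by
    rw [inv_eq_iff_eq_inv]
    exact eq_inv_of_mul_eq_one_left hwK
  rw [this]
  exact w.2

/-- the reduction of a polynomial is determined by `n` values. -/
theorem map_ρ_eq_of_values (Φ₀ : Polynomial D.OK) (Φbar : Polynomial Fk) (n : ℕ)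
    (hdeg : Φ₀.degree < n) (hdegbar : Φbar.degree < n)
    (v : Fin n → D.OK) (hv : Function.Injective fun i => D.ρ (v i))
    (hval : ∀ i, D.ρ (Φ₀.eval (v i)) = Φbar.eval (D.ρ (v i))) :
    Φ₀.map D.ρ = Φbar := by
  classical
  have hcard : (Finset.univ : Finset (Fin n)).card = n := by
    rw [Finset.card_univ, Fintype.card_fin]
  refine Polynomial.eq_of_degrees_lt_of_eval_index_eq (Finset.univ : Finset (Fin n))
    (v := fun i => D.ρ (v i)) (fun i _ j _ h => hv h) ?_ ?_ ?_
  · rw [hcard]
    exact lt_of_le_of_lt (Polynomial.degree_map_le) hdeg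
  · rw [hcard]; exact hdegbar
  · intro i _
    rw [← hval i, D.ρ_eval]

/-- **VAL-HGEN, Hensel step**: let `n = [F : K]`, `y ∈ O`, and let `Φbar ∈ Fk[Z]` be of degree
`≤ n` such that `Norm (v_i - y) ∈ OK` reduces to `Φbar (ρ v_i)` for `n + 1` elements `v_i ∈ OK`
with pairwise distinct reductions.  If `y ≡ g₀` with `Φbar' (ρ g₀) ≠ 0`, then `y` is
approximable. -/
theorem app_of_norm_values [FiniteDimensional K F]
    (harch : ∀ c : L, c ≠ 0 → algebraMap L K c ∈ D.OK → (algebraMap L K c)⁻¹ ∉ D.OK →
      ∀ n : ℕ, ∃ m : ℕ, algebraMap L K (c ^ m * (D.ϖ ^ n)⁻¹) ∈ D.OK)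
    (y : D.O) (Φbar : Polynomial Fk) (hdegbar : Φbar.degree < (Module.finrank K F + 1 : ℕ))
    (v : Fin (Module.finrank K F + 1) → D.OK) (hv : Function.Injective fun i => D.ρ (v i))
    (hnorm : ∀ i, ∃ w : D.OK, (w : K) = Algebra.norm K (algebraMap K F (v i : K) - (y : F)) ∧
      D.ρ w = Φbar.eval (D.ρ (v i)))
    (g₀ : D.OK) (hyg : D.red (y - D.ι g₀) = 0)
    (hder : Φbar.derivative.eval (D.ρ g₀) ≠ 0) : D.App (y : F) := by
  obtain ⟨Φ, hmonic, hnat, hroot, heval⟩ := S34VH_exists_charpoly K F (y : F)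
  have hdeg : Φ.degree < (Module.finrank K F + 1 : ℕ) := by
    rw [Polynomial.degree_eq_natDegree hmonic.ne_zero, hnat]
    exact_mod_cast Nat.lt_succ_self _
  obtain ⟨Φ₀, hΦ₀⟩ := D.exists_lift_of_values Φ _ hdeg v hv (fun i => by
    obtain ⟨w, hw, -⟩ := hnorm i
    rw [heval, ← hw]
    exact w.2)
  have hdeg₀ : Φ₀.degree < (Module.finrank K F + 1 : ℕ) := by
    rw [← hΦ₀, Polynomial.degree_map_eq_of_injective Subtype.val_injective] at hdeg
    exact hdeg
  have hred : Φ₀.map D.ρ = Φbar := by
    refine D.map_ρ_eq_of_values Φ₀ Φbar _ hdeg₀ hdegbar v hv fun i => ?_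
    obtain ⟨w, hw, hw2⟩ := hnorm i
    have : Φ₀.eval (v i) = w := by
      apply Subtype.ext
      rw [hw, ← heval, ← hΦ₀]
      show D.OK.subtype (Φ₀.eval (v i)) = _
      rw [Polynomial.eval_map, ← Polynomial.eval₂_at_apply]
      rfl
    rw [this, hw2]
  refine D.app_of_newton harch Φ₀ y ?_ g₀ hyg ?_
  · apply Subtype.ext
    show D.O.subtype ((Φ₀.map D.ι).eval y) = 0
    rw [← Polynomial.eval₂_at_apply, ← Polynomial.eval_map, Polynomial.map_map]
    have e : D.O.subtype.comp D.ι = (algebraMap K F).comp D.OK.subtype := rfl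
    rw [e, ← Polynomial.map_map, hΦ₀, Polynomial.eval_map_algebraMap]
    exact hroot
  · rw [D.ρ_eval, ← Polynomial.derivative_map, hred]
    exact hder

end S34VH_Datum

end Fermat.Agent.S34
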