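import Mathlib

/-!
# TRACK 7 (S34 + S35), package VAL-HGEN, abstract Newton iteration (helper24), prefix `S34VN_`

`R` a local ring, `R₀ ⊂ R` a subring such that the inclusion is a local homomorphism
(units of `R` lying in `R₀` are units of `R₀`), `Φ ∈ R₀[Y]`, `y ∈ R` a root of `Φ`,
`g₀ ∈ R₀` with `y − g₀ ∈ 𝔪_R` and `Φ'(g₀) ∈ R₀ˣ`.  Then for every `m` there is `g ∈ R₀` with

* `y − g ∈ 𝔪_R`, `Φ'(g) ∈ R₀ˣ`,
* `Φ(g) ∈ Φ(g₀)^(2^m) · R₀`  (quadratic convergence),
* `y − g ∈ Φ(g) · R`, hence `y − g ∈ Φ(g₀)^(2^m) · R`.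

No completeness, no valuation: pure algebra (Taylor expansion to second order).
-/

set_option autoImplicit false
set_option linter.unusedSectionVars false

open Polynomial

namespace Fermat.Agent.S34

variable {R : Type*} [CommRing R] [IsLocalRing R] (R₀ : Subring R)

/-- evaluation in `R` of a polynomial over `R₀`. -/
theorem S34VN_aeval_coe (Φ : R₀[X]) (g : R₀) : aeval (g : R) Φ = ((Φ.eval g : R₀) : R) := by
  have h := Polynomial.aeval_algebraMap_apply (A := R₀) R g Φ
  rw [Polynomial.coe_aeval_eq_eval] at h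
  exact h

/-- Taylor expansion to first order around `g`: `Φ(g) = −(y − g)·E` with `E ≡ Φ'(g)` modulo
`(y − g)`. -/
theorem S34VN_taylor (Φ : R₀[X]) (y : R) (hy : aeval y Φ = 0) (g : R₀) :
    ∃ k : R, ((Φ.eval g : R₀) : R) =
      -((y - g) * (((Φ.derivative.eval g : R₀) : R) + k * (y - g))) := by
  obtain ⟨k, hk⟩ := Polynomial.binomExpansion (Φ.map (algebraMap R₀ R)) (g : R) (y - g)
  refine ⟨k, ?_⟩
  have h1 : (Φ.map (algebraMap R₀ R)).eval ((g : R) + (y - g)) = 0 := by
    rw [add_sub_cancel, Polynomial.eval_map_algebraMap]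
    exact hy
  have h2 : (Φ.map (algebraMap R₀ R)).eval (g : R) = ((Φ.eval g : R₀) : R) := by
    rw [Polynomial.eval_map_algebraMap]
    exact S34VN_aeval_coe R₀ Φ g
  have h3 : (Φ.map (algebraMap R₀ R)).derivative.eval (g : R) =
      ((Φ.derivative.eval g : R₀) : R) := by
    rw [Polynomial.derivative_map, Polynomial.eval_map_algebraMap]
    exact S34VN_aeval_coe R₀ Φ.derivative g
  rw [h1, h2, h3] at hk
  linear_combination -hk

/-- if `y − g ∈ 𝔪_R` and `Φ'(g)` is a unit then `y − g ∈ Φ(g)·R` and `Φ(g) ∈ 𝔪_R`. -/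
theorem S34VN_sub_mem (Φ : R₀[X]) (y : R) (hy : aeval y Φ = 0) (g : R₀)
    (hg : y - (g : R) ∈ IsLocalRing.maximalIdeal R)
    (hder : IsUnit (Φ.derivative.eval g)) :
    (∃ s : R, y - (g : R) = ((Φ.eval g : R₀) : R) * s) ∧
      ((Φ.eval g : R₀) : R) ∈ IsLocalRing.maximalIdeal R := by
  obtain ⟨k, hk⟩ := S34VN_taylor R₀ Φ y hy g
  have hu : IsUnit (((Φ.derivative.eval g : R₀) : R) + k * (y - g)) := by
    have h1 : IsUnit ((Φ.derivative.eval g : R₀) : R) := hder.map R₀.subtype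
    have h2 : k * (y - g) ∈ IsLocalRing.maximalIdeal R := Ideal.mul_mem_left _ _ hg
    by_contra hcon
    have h3 : ((Φ.derivative.eval g : R₀) : R) + k * (y - g) ∈ IsLocalRing.maximalIdeal R := by
      rw [IsLocalRing.mem_maximalIdeal, mem_nonunits_iff]
      exact hcon
    have h4 : ((Φ.derivative.eval g : R₀) : R) ∈ IsLocalRing.maximalIdeal R := by
      have := Ideal.sub_mem _ h3 h2
      simpa using this
    rw [IsLocalRing.mem_maximalIdeal, mem_nonunits_iff] at h4
    exact h4 h1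
  obtain ⟨E, hE⟩ := hu
  constructor
  · refine ⟨-(↑E⁻¹ : R), ?_⟩
    rw [hk, ← hE]
    have : (E : R) * (↑E⁻¹ : R) = 1 := E.mul_inv
    linear_combination (-(y - (g : R))) * this
  · rw [hk]
    exact Ideal.neg_mem_iff _ |>.2 (Ideal.mul_mem_right _ _ hg)

/-- **abstract Newton iteration** (quadratic convergence, no completeness). -/
theorem S34VN_newton (hloc : ∀ x : R₀, IsUnit (x : R) → IsUnit x)
    (Φ : R₀[X]) (y : R) (hy : aeval y Φ = 0) (g₀ : R₀)
    (hg₀ : y - (g₀ : R) ∈ IsLocalRing.maximalIdeal R)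
    (hder : IsUnit (Φ.derivative.eval g₀)) (m : ℕ) :
    ∃ g : R₀, y - (g : R) ∈ IsLocalRing.maximalIdeal R ∧ IsUnit (Φ.derivative.eval g) ∧
      (∃ r : R₀, Φ.eval g = Φ.eval g₀ ^ (2 ^ m) * r) ∧
      (∃ s : R, y - (g : R) = ((Φ.eval g₀ : R₀) : R) ^ (2 ^ m) * s) ∧
      ((g : R) - (g₀ : R) ∈ IsLocalRing.maximalIdeal R) := by
  -- the strengthened statement without the `s`-clause
  have key : ∀ m : ℕ, ∃ g : R₀, y - (g : R) ∈ IsLocalRing.maximalIdeal R ∧
      IsUnit (Φ.derivative.eval g) ∧ (∃ r : R₀, Φ.eval g = Φ.eval g₀ ^ (2 ^ m) * r) := by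
    intro m
    induction m with
    | zero => exact ⟨g₀, hg₀, hder, 1, by simp⟩
    | succ m ih =>
      obtain ⟨g, hg, hgder, r, hr⟩ := ih
      obtain ⟨u, hu⟩ := hgder
      -- the Newton step
      set δ : R₀ := -(Φ.eval g * (↑u⁻¹ : R₀)) with hδ
      obtain ⟨k, hk⟩ := Polynomial.binomExpansion Φ g δ
      have huu : (Φ.derivative.eval g) * (↑u⁻¹ : R₀) = 1 := by
        rw [← hu]; exact u.mul_inv
      have hΦ : Φ.eval (g + δ) = Φ.eval g ^ 2 * (k * (↑u⁻¹ : R₀) ^ 2) := by
        rw [hk, hδ]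
        linear_combination (-(Φ.eval g)) * huu
      have hΦm := (S34VN_sub_mem R₀ Φ y hy g hg ⟨u, hu⟩).2
      have hδm : ((δ : R₀) : R) ∈ IsLocalRing.maximalIdeal R := by
        rw [hδ]
        push_cast
        exact Ideal.neg_mem_iff _ |>.2 (Ideal.mul_mem_right _ _ hΦm)
      refine ⟨g + δ, ?_, ?_, r ^ 2 * (k * (↑u⁻¹ : R₀) ^ 2), ?_⟩
      · have : y - ((g + δ : R₀) : R) = (y - (g : R)) - (δ : R) := by push_cast; ring
        rw [this]
        exact Ideal.sub_mem _ hg hδm
      · apply hloc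
        obtain ⟨z, hz⟩ := Polynomial.evalSubFactor Φ.derivative (g + δ) g
        have h1 : ((Φ.derivative.eval (g + δ) : R₀) : R) =
            ((Φ.derivative.eval g : R₀) : R) + (z : R) * (δ : R) := by
          have hz' : Φ.derivative.eval (g + δ) = Φ.derivative.eval g + z * δ := by
            linear_combination hz
          rw [hz']
          push_cast
          ring
        rw [h1]
        have h2 : IsUnit ((Φ.derivative.eval g : R₀) : R) := by
          rw [← hu]; exact u.isUnit.map R₀.subtype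
        by_contra hcon
        have h3 : ((Φ.derivative.eval g : R₀) : R) + (z : R) * (δ : R) ∈
            IsLocalRing.maximalIdeal R := by
          rw [IsLocalRing.mem_maximalIdeal, mem_nonunits_iff]
          exact hcon
        have h4 : ((Φ.derivative.eval g : R₀) : R) ∈ IsLocalRing.maximalIdeal R := by
          have := Ideal.sub_mem _ h3 (Ideal.mul_mem_left _ (z : R) hδm)
          simpa using this
        rw [IsLocalRing.mem_maximalIdeal, mem_nonunits_iff] at h4
        exact h4 h2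
      · rw [hΦ, hr, pow_succ 2 m]
        ring
  obtain ⟨g, hg, hgder, r, hr⟩ := key m
  refine ⟨g, hg, hgder, ⟨r, hr⟩, ?_, ?_⟩
  · obtain ⟨s, hs⟩ := (S34VN_sub_mem R₀ Φ y hy g hg hgder).1
    refine ⟨(r : R) * s, ?_⟩
    rw [hs, hr]
    push_cast
    ring
  · have : (g : R) - (g₀ : R) = (y - (g₀ : R)) - (y - (g : R)) := by ring
    rw [this]
    exact Ideal.sub_mem _ hg₀ hg

end Fermat.Agent.S34
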